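import Fermat.Agent.CFT.IdelePrimes

/-!
Finiteness of classes and units at a finite set of primes for an arbitrary number field.
-/

set_option autoImplicit false

open NumberField IsDedekindDomain
open scoped nonZeroDivisors

namespace FermatLib.CFT

variable {K : Type} [Field K] [NumberField K]

/-- The exponent of `x` at `v`, with the sign of `WithZero.log`. -/
noncomputable def valLog (v : HeightOneSpectrum (𝓞 K)) (x : LUnits K) : ℤ :=
  WithZero.log (v.valuation K (x.val : K))

theorem valLog_add (v : HeightOneSpectrum (𝓞 K)) (x y : LUnits K) :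
    valLog v (x + y) = valLog v x + valLog v y := by
  rw [valLog, LUnits.val_add, map_mul, WithZero.log_mul
    ((v.valuation K).ne_zero_iff.2 x.val.ne_zero) ((v.valuation K).ne_zero_iff.2 y.val.ne_zero)]
  rfl

/-- `valLog` as an additive map. -/
noncomputable def valLogHom (v : HeightOneSpectrum (𝓞 K)) : LUnits K →+ ℤ :=
  AddMonoidHom.mk' (valLog v) (valLog_add v)

theorem valLog_eq_iff (v : HeightOneSpectrum (𝓞 K)) (x y : LUnits K) :
    valLog v x = valLog v y ↔ v.valuation K (x.val : K) = v.valuation K (y.val : K) := by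
  refine ⟨fun h => ?_, fun h => congrArg WithZero.log h⟩
  rw [← WithZero.exp_log ((v.valuation K).ne_zero_iff.2 x.val.ne_zero),
    ← WithZero.exp_log ((v.valuation K).ne_zero_iff.2 y.val.ne_zero)]
  exact congrArg WithZero.exp h

theorem valLog_eq_zero_iff (v : HeightOneSpectrum (𝓞 K)) (x : LUnits K) :
    valLog v x = 0 ↔ v.valuation K (x.val : K) = 1 := by
  have h0 : valLog v (0 : LUnits K) = 0 := (valLogHom v).map_zero
  rw [← h0, valLog_eq_iff, LUnits.val_zero, map_one]

theorem valLog_eq_zero_iff_norm {q : Nat.Primes} (φ : Emb K q) (x : LUnits K) :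
    valLog φ.prime x = 0 ↔ ‖φ x.val‖ = 1 := by
  rw [valLog_eq_zero_iff, φ.valuation_eq_one_iff]

/-- A nonzero integer as a multiplicative element. -/
noncomputable def intToLUnits {a : 𝓞 K} (ha : a ≠ 0) : LUnits K :=
  LUnits.of (Units.mk0 (a : K) (RingOfIntegers.coe_ne_zero_iff.2 ha))

theorem valLog_intToLUnits (v : HeightOneSpectrum (𝓞 K)) {a : 𝓞 K} (ha : a ≠ 0) :
    valLog v (intToLUnits ha) = -(multiplicity v.asIdeal (Ideal.span {a}) : ℤ) := by
  change WithZero.log (v.valuation K (algebraMap (𝓞 K) K a)) = _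
  rw [HeightOneSpectrum.valuation_of_algebraMap, v.intValuation_eq_exp_neg_multiplicity ha,
    WithZero.log_exp]

theorem multiplicity_mul_ideal (v : HeightOneSpectrum (𝓞 K)) {I J : Ideal (𝓞 K)} (hI : I ≠ 0)
    (hJ : J ≠ 0) :
    multiplicity v.asIdeal (I * J) = multiplicity v.asIdeal I + multiplicity v.asIdeal J :=
  multiplicity_mul v.prime (FiniteMultiplicity.of_prime_left v.prime (mul_ne_zero hI hJ))

theorem multiplicity_eq_zero_of_not_le (v : HeightOneSpectrum (𝓞 K)) {I : Ideal (𝓞 K)}
    (h : ¬ I ≤ v.asIdeal) : multiplicity v.asIdeal I = 0 :=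
  multiplicity_eq_zero.2 fun hd => h (Ideal.le_of_dvd hd)

open Classical in
theorem multiplicity_self_pow (v w : HeightOneSpectrum (𝓞 K)) (n : ℕ) :
    multiplicity w.asIdeal (v.asIdeal ^ n) = if w = v then n else 0 := by
  split_ifs with h
  · rw [h]
    exact multiplicity_pow_self_of_prime v.prime n
  · refine multiplicity_eq_zero_of_not_le w fun hle => h ?_
    exact HeightOneSpectrum.ext (v.isMaximal.eq_of_le w.isPrime.ne_top (w.isPrime.le_of_pow_le hle)).symm

open Classical in
/-- Equality of classes gives an element with prescribed exponents. -/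
theorem exists_valLog_of_class {v : HeightOneSpectrum (𝓞 K)} {n : ℕ} {A : (Ideal (𝓞 K))⁰}
    (h : ClassGroup.mk0 ⟨v.asIdeal ^ n, mem_nonZeroDivisors_of_ne_zero (pow_ne_zero n v.ne_bot)⟩ =
      ClassGroup.mk0 A) :
    ∃ x : LUnits K, ∀ w : HeightOneSpectrum (𝓞 K), ¬ (A : Ideal (𝓞 K)) ≤ w.asIdeal →
      valLog w x = if w = v then (n : ℤ) else 0 := by
  obtain ⟨a, b, ha, hb, hab⟩ := ClassGroup.mk0_eq_mk0_iff.1 h
  refine ⟨intToLUnits ha - intToLUnits hb, fun w hw => ?_⟩
  have hm := congrArg (multiplicity w.asIdeal) hab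
  have hspan : ∀ {c : 𝓞 K}, c ≠ 0 → (Ideal.span {c} : Ideal (𝓞 K)) ≠ 0 := fun hc =>
    Submodule.span_singleton_eq_bot.not.2 hc
  rw [multiplicity_mul_ideal w (hspan ha) (pow_ne_zero n v.ne_bot),
    multiplicity_mul_ideal w (hspan hb) (nonZeroDivisors.ne_zero A.2),
    multiplicity_self_pow, multiplicity_eq_zero_of_not_le w hw, add_zero] at hm
  have hs : valLog w (intToLUnits ha - intToLUnits hb) =
      valLog w (intToLUnits ha) - valLog w (intToLUnits hb) := map_sub (valLogHom w) _ _
  rw [hs, valLog_intToLUnits, valLog_intToLUnits, ← hm]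
  split_ifs <;> simp

open Classical in
/-- The class number kills every prime. -/
theorem exists_valLog_classNumber (v : HeightOneSpectrum (𝓞 K)) :
    ∃ x : LUnits K, ∀ w : HeightOneSpectrum (𝓞 K),
      valLog w x = if w = v then (classNumber K : ℤ) else 0 := by
  have h : ClassGroup.mk0 (⟨v.asIdeal ^ classNumber K,
      mem_nonZeroDivisors_of_ne_zero (pow_ne_zero _ v.ne_bot)⟩ : (Ideal (𝓞 K))⁰) =
      ClassGroup.mk0 1 := by
    rw [map_one, show (⟨v.asIdeal ^ classNumber K, _⟩ : (Ideal (𝓞 K))⁰) =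
      ⟨v.asIdeal, mem_nonZeroDivisors_of_ne_zero v.ne_bot⟩ ^ classNumber K from Subtype.ext rfl,
      map_pow, classNumber, pow_card_eq_one]
  obtain ⟨x, hx⟩ := exists_valLog_of_class h
  exact ⟨x, fun w => hx w fun hle => w.isPrime.ne_top (top_le_iff.1 (by simpa using hle))⟩

/-- An element with the size of the idele at the chosen embedding of `v`. -/
theorem exists_idele_size (f : Idele K) (v : HeightOneSpectrum (𝓞 K)) :
    ∃ x : LUnits K, ∀ (q : Nat.Primes) (φ : Emb K q), φ.prime = v →
      ‖(f.fin q φ).toField‖ = ‖φ x.val‖ := by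
  obtain ⟨r, φ, rfl⟩ := exists_emb_prime v
  obtain ⟨x, -, hx0, hx⟩ := exists_norm_eq ⊥ φ (fin_mem_localField_bot f φ) (QUnits.toField_ne_zero _)
  refine ⟨LUnits.of (Units.mk0 x hx0), fun q ψ hψ => ?_⟩
  obtain rfl : q = r := φ.primeNumber_eq ψ hψ.symm
  obtain ⟨τ, rfl⟩ := (samePlace_iff_prime_eq φ ψ).2 hψ.symm
  rw [Idele.fin, f.2.1 _ τ φ, QUnits.toField_onUnits, norm_gloc]
  exact hx.symm.trans (norm_gloc τ _).symm

/-- The exponents of an idele. -/
noncomputable def ideleValLog (f : Idele K) (v : HeightOneSpectrum (𝓞 K)) : ℤ :=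
  valLog v (exists_idele_size f v).choose

theorem ideleValLog_eq_iff (f : Idele K) {q : Nat.Primes} (φ : Emb K q) (y : LUnits K) :
    valLog φ.prime y = ideleValLog f φ.prime ↔
      (f - principalIdele K y).fin q φ ∈ QUnits.unitGroup q := by
  rw [ideleValLog, valLog_eq_iff, φ.valuation_eq_iff,
    ← (exists_idele_size f φ.prime).choose_spec q φ rfl, QUnits.mem_unitGroup_iff]
  have e : ((f - principalIdele K y).fin q φ).toField = (f.fin q φ).toField * (φ y.val)⁻¹ := by
    rw [sub_eq_add_neg]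
    simp [Idele.fin]
  rw [e, norm_mul, norm_inv, mul_inv_eq_one₀ (norm_ne_zero_iff.2 ((map_ne_zero φ).2 y.val.ne_zero))]
  exact eq_comm

theorem ideleValLog_nsmul (f : Idele K) (n : ℕ) (v : HeightOneSpectrum (𝓞 K)) :
    ideleValLog (n • f) v = n * ideleValLog f v := by
  obtain ⟨r, φ, rfl⟩ := exists_emb_prime v
  set x := (exists_idele_size f φ.prime).choose
  have h : valLog φ.prime (n • x) = n * ideleValLog f φ.prime := by
    rw [show valLog φ.prime (n • x) = n • valLog φ.prime x from map_nsmul (valLogHom φ.prime) n x,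
      nsmul_eq_mul]
    rfl
  rw [← h]
  refine ((ideleValLog_eq_iff (n • f) φ _).2 ?_).symm
  have h1 := (ideleValLog_eq_iff f φ x).1 rfl
  rw [map_nsmul, ← nsmul_sub]
  simpa [Idele.fin] using nsmul_mem h1 n

theorem finite_support_ideleValLog (f : Idele K) : (Function.support (ideleValLog f)).Finite := by
  refine (finite_setOf_primeBelow f.2.2.1.toFinset).subset fun v hv => ?_
  rw [Set.mem_ofPred_eq, Set.Finite.mem_toFinset]
  obtain ⟨φ, hφ⟩ := exists_emb_prime_below v
  refine ⟨φ, fun hunit => hv ?_⟩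
  have := (ideleValLog_eq_iff f φ 0).2 (by simpa [Idele.fin] using hunit)
  rw [hφ] at this
  exact this.symm.trans (valLogHom v).map_zero

open Classical in
/-- Elements with given exponents off `B`, from elements with exponent `m` at one prime. -/
theorem exists_valLog_eq {B : Set (HeightOneSpectrum (𝓞 K))} {m : ℤ}
    (h : ∀ v, ∃ z : LUnits K, ∀ w ∉ B, valLog w z = if w = v then m else 0)
    (e : HeightOneSpectrum (𝓞 K) → ℤ) (he : (Function.support e).Finite) :
    ∃ x : LUnits K, ∀ w ∉ B, valLog w x = m * e w := by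
  choose z hz using h
  refine ⟨∑ v ∈ he.toFinset, e v • z v, fun w hw => ?_⟩
  rw [show valLog w (∑ v ∈ he.toFinset, e v • z v) = ∑ v ∈ he.toFinset, e v • valLog w (z v) from
    (map_sum (valLogHom w) _ _).trans (Finset.sum_congr rfl fun v _ => map_zsmul (valLogHom w) _ _),
    Finset.sum_congr rfl fun v _ => by rw [hz v w hw], Finset.sum_eq_single w]
  · simp [mul_comm]
  · intro v _ hv
    simp [Ne.symm hv]
  · intro hw'
    simp [Set.Finite.mem_toFinset] at hw'
    simp [hw']

variable (K)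

/-- For large `T`, ideles are `T`-ideles up to principal ideles. -/
theorem exists_primes_generate_field : ∃ T : Finset Nat.Primes, ∀ T' : Set Nat.Primes,
    ↑T ⊆ T' → ∀ f : Idele K, ∃ x : LUnits K, f - principalIdele K x ∈ sIdeles K T' := by
  classical
  choose A hA using ClassGroup.mk0_surjective (R := 𝓞 K)
  have hB : {w : HeightOneSpectrum (𝓞 K) | ∃ c, (A c : Ideal (𝓞 K)) ≤ w.asIdeal}.Finite := by
    rw [show {w : HeightOneSpectrum (𝓞 K) | ∃ c, (A c : Ideal (𝓞 K)) ≤ w.asIdeal} =
      ⋃ c, {w | (A c : Ideal (𝓞 K)) ≤ w.asIdeal} by ext; simp]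
    refine Set.finite_iUnion fun c => ?_
    refine (Ideal.finite_factors (nonZeroDivisors.ne_zero (A c).2)).subset fun w hw => ?_
    exact Ideal.dvd_iff_le.2 hw
  set B := {w : HeightOneSpectrum (𝓞 K) | ∃ c, (A c : Ideal (𝓞 K)) ≤ w.asIdeal}
  refine ⟨hB.toFinset.image primeBelow, fun T' hT' f => ?_⟩
  have h : ∀ v : HeightOneSpectrum (𝓞 K), ∃ z : LUnits K, ∀ w ∉ B,
      valLog w z = if w = v then (1 : ℤ) else 0 := fun v => by
    obtain ⟨x, hx⟩ := exists_valLog_of_class (v := v) (n := 1) (hA _).symm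
    exact ⟨x, fun w hw => by simpa using hx w fun hle => hw ⟨_, hle⟩⟩
  obtain ⟨x, hx⟩ := exists_valLog_eq h _ (finite_support_ideleValLog f)
  refine ⟨x, fun q hq φ => (ideleValLog_eq_iff f φ x).1 ?_⟩
  rw [hx φ.prime fun hmem => hq (hT' (Finset.mem_coe.2 (Finset.mem_image.2
    ⟨φ.prime, hB.mem_toFinset.2 hmem, primeBelow_prime φ⟩))), one_mul]

/-- A fixed multiple of every idele is a unit idele up to a principal idele. -/
theorem classNumber_nsmul_mem (f : Idele K) :
    ∃ x : LUnits K, classNumber K • f - principalIdele K x ∈ sIdeles K (∅ : Set Nat.Primes) := by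
  classical
  have h : ∀ v : HeightOneSpectrum (𝓞 K), ∃ z : LUnits K, ∀ w ∉ (∅ : Set (HeightOneSpectrum (𝓞 K))),
      valLog w z = if w = v then (classNumber K : ℤ) else 0 := fun v =>
    (exists_valLog_classNumber v).imp fun x hx w _ => hx w
  obtain ⟨x, hx⟩ := exists_valLog_eq h _ (finite_support_ideleValLog f)
  refine ⟨x, fun q _ φ => (ideleValLog_eq_iff (classNumber K • f) φ x).1 ?_⟩
  rw [hx φ.prime (Set.notMem_empty _), ideleValLog_nsmul]

theorem exists_pos_nsmul_mem : ∃ n : ℕ, 0 < n ∧ ∀ (S : Set Nat.Primes) (f : Idele K),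
    n • f ∈ principalIdeles K ⊔ sIdeles K S := by
  refine ⟨classNumber K, Fintype.card_pos, fun S f => ?_⟩
  obtain ⟨x, hx⟩ := classNumber_nsmul_mem K f
  refine AddSubgroup.mem_sup.2 ⟨principalIdele K x, ?_, _, ?_, add_sub_cancel _ _⟩
  · rw [principalIdeles_eq_range]
    exact ⟨x, rfl⟩
  · exact fun q _ φ => hx q (Set.notMem_empty q) φ

/-- Elements of absolute value one at the primes outside `s`. -/
noncomputable def primeUnits (s : Set (HeightOneSpectrum (𝓞 K))) : AddSubgroup (LUnits K) where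
  carrier := {x | ∀ (q : Nat.Primes) (φ : Emb K q), φ.prime ∉ s → ‖φ x.val‖ = 1}
  zero_mem' := fun q φ _ => by simp
  add_mem' := fun ha hb q φ hφ => by simp [ha q φ hφ, hb q φ hφ]
  neg_mem' := fun ha q φ hφ => by simp [ha q φ hφ]

variable {K}

theorem mem_primeUnits_iff (s : Set (HeightOneSpectrum (𝓞 K))) (x : LUnits K) :
    x ∈ primeUnits K s ↔ ∀ v ∉ s, valLog v x = 0 := by
  refine ⟨fun h v hv => ?_, fun h q φ hφ => (valLog_eq_zero_iff_norm φ x).1 (h _ hφ)⟩
  obtain ⟨φ, hφ⟩ := exists_emb_prime_below v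
  rw [← hφ, valLog_eq_zero_iff_norm]
  exact h _ φ (by rw [hφ]; exact hv)

variable (K)

/-- The exponents at `s` of an element of `primeUnits K s`. -/
noncomputable def primeUnitsLog (s : Finset (HeightOneSpectrum (𝓞 K))) :
    ↥(primeUnits K (s : Set (HeightOneSpectrum (𝓞 K)))) →ₗ[ℤ] (s → ℤ) :=
  LinearMap.pi fun v : s =>
    ((valLogHom v.1).comp (primeUnits K (s : Set (HeightOneSpectrum (𝓞 K)))).subtype).toIntLinearMap

/-- Units of the ring of integers inside `primeUnits`. -/
noncomputable def unitsToPrimeUnits (s : Set (HeightOneSpectrum (𝓞 K))) :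
    Additive (𝓞 K)ˣ →ₗ[ℤ] ↥(primeUnits K s) :=
  (((MonoidHom.toAdditive (Units.map (algebraMap (𝓞 K) K : 𝓞 K →* K))).codRestrict
    (primeUnits K s) fun u => (mem_primeUnits_iff s _).2 fun v _ => (valLog_eq_zero_iff v _).2 (by
      have hu : IsUnit ((Additive.toMul u : (𝓞 K)ˣ) : 𝓞 K) := Units.isUnit _
      refine (HeightOneSpectrum.valuation_eq_one_iff_notMem v).2 fun hmem => ?_
      exact v.isPrime.ne_top (Ideal.eq_top_of_isUnit_mem _ hmem hu)))).toIntLinearMap

theorem unitsToPrimeUnits_injective (s : Set (HeightOneSpectrum (𝓞 K))) :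
    Function.Injective (unitsToPrimeUnits K s) := fun u w h => by
  refine Additive.toMul.injective (Units.ext (RingOfIntegers.coe_injective ?_))
  exact congrArg (fun z : ↥(primeUnits K s) => ((z.1.val : Kˣ) : K)) h

theorem ker_primeUnitsLog (s : Finset (HeightOneSpectrum (𝓞 K))) :
    LinearMap.ker (primeUnitsLog K s) = LinearMap.range (unitsToPrimeUnits K ↑s) := by
  ext x
  rw [LinearMap.mem_ker, LinearMap.mem_range]
  constructor
  · intro hx
    have hv : ∀ v : HeightOneSpectrum (𝓞 K), v.valuation K (x.1.val : K) = 1 := fun v => by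
      rw [← valLog_eq_zero_iff]
      by_cases h : v ∈ s
      · exact congrFun hx ⟨v, h⟩
      · exact (mem_primeUnits_iff _ _).1 x.2 v (by simpa using h)
    obtain ⟨a, ha⟩ := HeightOneSpectrum.mem_integers_of_valuation_le_one (R := 𝓞 K) K
      (x.1.val : K) fun v => (hv v).le
    obtain ⟨b, hb⟩ := HeightOneSpectrum.mem_integers_of_valuation_le_one (R := 𝓞 K) K
      ((x.1.val : K))⁻¹ fun v => by rw [map_inv₀, hv v, inv_one]
    have hab : a * b = 1 := RingOfIntegers.coe_injective (by
      rw [map_mul, ha, hb, map_one, mul_inv_cancel₀ x.1.val.ne_zero])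
    exact ⟨Additive.ofMul ⟨a, b, hab, by rwa [mul_comm]⟩, Subtype.ext (LUnits.ext_val ha)⟩
  · rintro ⟨u, rfl⟩
    funext v
    have hu : IsUnit ((Additive.toMul u : (𝓞 K)ˣ) : 𝓞 K) := Units.isUnit _
    refine (valLog_eq_zero_iff v.1 _).2 ?_
    refine (HeightOneSpectrum.valuation_eq_one_iff_notMem v.1).2 fun hmem => ?_
    exact v.1.isPrime.ne_top (Ideal.eq_top_of_isUnit_mem _ hmem hu)

theorem primeUnits_finite (s : Finset (HeightOneSpectrum (𝓞 K))) :
    Module.Finite ℤ ↥(primeUnits K (s : Set (HeightOneSpectrum (𝓞 K)))) := by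
  rw [Module.finite_def]
  refine Submodule.fg_of_fg_map_of_fg_inf_ker (primeUnitsLog K s) (IsNoetherian.noetherian _) ?_
  rw [top_inf_eq, ker_primeUnitsLog, LinearMap.range_eq_map]
  exact Module.Finite.fg_top.map _

set_option maxSynthPendingDepth 5 in
theorem finrank_units : Module.finrank ℤ (Additive (𝓞 K)ˣ) = Units.rank K := by
  let f : Additive (𝓞 K)ˣ →ₗ[ℤ] Additive ((𝓞 K)ˣ ⧸ Units.torsion K) :=
    (MonoidHom.toAdditive (QuotientGroup.mk' (Units.torsion K))).toIntLinearMap
  have hf : Function.Surjective f := QuotientGroup.mk'_surjective (Units.torsion K)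
  have h0 : Module.finrank ℤ (LinearMap.ker f) = 0 := by
    refine Module.finrank_eq_zero_iff_isTorsion.2 fun {x} => ?_
    obtain ⟨n, hn, hxn⟩ := isOfFinOrder_iff_pow_eq_one.1
      ((CommGroup.mem_torsion (Additive.toMul x.1)).1
        ((QuotientGroup.eq_one_iff _).1 (congrArg Additive.toMul x.2)))
    refine ⟨⟨(n : ℤ), mem_nonZeroDivisors_of_ne_zero (by exact_mod_cast hn.ne')⟩, Subtype.ext ?_⟩
    exact (natCast_zsmul x.1 n).trans (Additive.toMul.injective hxn)
  have h := (LinearMap.ker f).finrank_quotient_add_finrank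
  rw [h0, add_zero, (f.quotKerEquivOfSurjective hf).finrank_eq, Units.finrank_modTorsion] at h
  exact h.symm

theorem primeUnits_finrank (s : Finset (HeightOneSpectrum (𝓞 K))) :
    Module.finrank ℤ ↥(primeUnits K (s : Set (HeightOneSpectrum (𝓞 K)))) + 1 =
      Fintype.card (InfinitePlace K) + s.card := by
  classical
  have := primeUnits_finite K s
  have h := (LinearMap.ker (primeUnitsLog K s)).finrank_quotient_add_finrank
  rw [(primeUnitsLog K s).quotKerEquivRange.finrank_eq, ker_primeUnitsLog,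
    LinearMap.finrank_range_of_inj (unitsToPrimeUnits_injective K _), finrank_units] at h
  have hrange : Module.finrank ℤ (LinearMap.range (primeUnitsLog K s)) = s.card := by
    have hcard : Module.finrank ℤ (s → ℤ) = s.card := by simp
    refine le_antisymm ((Submodule.finrank_le _).trans hcard.le) (hcard.ge.trans ?_)
    have hh : (classNumber K : ℤ) ≠ 0 := by exact_mod_cast Fintype.card_ne_zero
    let g : (s → ℤ) →ₗ[ℤ] (s → ℤ) := (classNumber K : ℤ) • LinearMap.id
    have hg : Function.Injective g := fun a b hab => smul_right_injective _ hh hab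
    rw [← LinearMap.finrank_range_of_inj hg]
    refine Submodule.finrank_mono ?_
    rintro _ ⟨e, rfl⟩
    let e' : HeightOneSpectrum (𝓞 K) → ℤ := fun v => if h : v ∈ s then e ⟨v, h⟩ else 0
    have he' : (Function.support e').Finite := s.finite_toSet.subset fun v hv => by
      by_contra hvs
      exact hv (dif_neg hvs)
    obtain ⟨x, hx⟩ := exists_valLog_eq (B := ∅) (m := (classNumber K : ℤ))
      (fun v => (exists_valLog_classNumber v).imp fun x hx w _ => hx w) e' he'
    have hmem : x ∈ primeUnits K (s : Set (HeightOneSpectrum (𝓞 K))) :=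
      (mem_primeUnits_iff _ x).2 fun v hv => by
        rw [hx v (Set.notMem_empty v)]
        simp [e', Finset.mem_coe.not.1 hv]
    refine ⟨⟨x, hmem⟩, funext fun v => ?_⟩
    refine (hx v.1 (Set.notMem_empty _)).trans ?_
    simp [g, e', v.2]
  rw [hrange] at h
  rw [← h, Units.rank]
  have := Fintype.card_pos (α := InfinitePlace K)
  omega

end FermatLib.CFT
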