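import Fermat.Agent.CFT.CohDefs

/-!
Relative norms between subgroups: independence of representatives, transitivity, functoriality.
-/

set_option autoImplicit false

namespace FermatLib.CFT

namespace RelNorm

variable {G : Type*} [Group G] {A : Type*} [AddCommGroup A] [DistribMulAction G A]

theorem smul_eq_of_mk_eq {H' H : Subgroup G} {a : A} (ha : a ∈ fixedPts H' A) {x y : H}
    (h : (QuotientGroup.mk x : H ⧸ H'.subgroupOf H) = QuotientGroup.mk y) :
    (x : G) • a = (y : G) • a := by
  have h' : ((x : G)⁻¹ * y) ∈ H' := by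
    simpa [Subgroup.mem_subgroupOf] using QuotientGroup.eq.mp h
  have := ha ⟨_, h'⟩
  change ((x : G)⁻¹ * y) • a = a at this
  conv_rhs => rw [show (y : G) = x * ((x : G)⁻¹ * y) by group, mul_smul, this]

theorem out_smul {H' H : Subgroup G} {a : A} (ha : a ∈ fixedPts H' A) (h : H) :
    (((QuotientGroup.mk h : H ⧸ H'.subgroupOf H).out : H) : G) • a = (h : G) • a :=
  smul_eq_of_mk_eq ha (QuotientGroup.out_eq' _)

theorem eq_finsum_of_bijective {ι : Type*} {H' H : Subgroup G} {a : A} (ha : a ∈ fixedPts H' A)
    (f : ι → H) (hf : Function.Bijective fun i => (QuotientGroup.mk (f i) : H ⧸ H'.subgroupOf H)) :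
    relNorm A H' H a = ∑ᶠ i, (f i : G) • a := by
  unfold relNorm
  exact (finsum_eq_of_bijective _ hf fun i => (out_smul ha (f i)).symm).symm

variable [Finite G]

theorem mem_fixedPts {H' H : Subgroup G} {a : A} (ha : a ∈ fixedPts H' A) :
    relNorm A H' H a ∈ fixedPts H A := by
  rintro ⟨h, hh⟩
  change h • relNorm A H' H a = relNorm A H' H a
  unfold relNorm
  rw [smul_finsum_mem' h]
  refine finsum_eq_of_bijective (fun c => (⟨h, hh⟩ : H) • c)
    (MulAction.bijective (⟨h, hh⟩ : H)) fun c => ?_
  rw [← mul_smul]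
  refine (out_smul ha ((⟨h, hh⟩ : H) * c.out)).symm.trans ?_
  rw [show (QuotientGroup.mk ((⟨h, hh⟩ : H) * c.out) : H ⧸ H'.subgroupOf H) =
    (⟨h, hh⟩ : H) • c by
      conv_rhs => rw [← QuotientGroup.out_eq' c]
      rfl]
where
  smul_finsum_mem' {ι : Type _} [Finite ι] {f : ι → A} (h : G) :
      h • ∑ᶠ i, f i = ∑ᶠ i, h • f i := by
    exact map_finsum (DistribSMul.toAddMonoidHom A h) (Set.toFinite _)

theorem add' (H' H : Subgroup G) (a b : A) :
    relNorm A H' H (a + b) = relNorm A H' H a + relNorm A H' H b := by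
  unfold relNorm
  rw [← finsum_add_distrib (Set.toFinite _) (Set.toFinite _)]
  exact finsum_congr fun c => smul_add _ _ _

omit [Finite G] in
theorem zero' (H' H : Subgroup G) : relNorm A H' H (0 : A) = 0 := by
  unfold relNorm
  simp

theorem neg' (H' H : Subgroup G) (a : A) : relNorm A H' H (-a) = -relNorm A H' H a := by
  unfold relNorm
  rw [← finsum_neg_distrib]
  exact finsum_congr fun c => smul_neg _ _

theorem eq_of_mem_fixedPts {H' H : Subgroup G} {a : A} (ha : a ∈ fixedPts H A) :
    relNorm A H' H a = H'.relIndex H • a := by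
  unfold relNorm
  rw [finsum_congr (g := fun _ : H ⧸ H'.subgroupOf H => a)
    (fun c => show ((c.out : H) : G) • a = a from ha c.out)]
  have := Fintype.ofFinite (H ⧸ H'.subgroupOf H)
  rw [finsum_eq_sum_of_fintype, Finset.sum_const, Finset.card_univ, ← Nat.card_eq_fintype_card]
  rfl

theorem trans' {K H' H : Subgroup G} (hKH' : K ≤ H') (hH'H : H' ≤ H) {a : A}
    (ha : a ∈ fixedPts K A) :
    relNorm A H' H (relNorm A K H' a) = relNorm A K H a := by
  have hb : Function.Bijective fun i : (H ⧸ H'.subgroupOf H) × (H' ⧸ K.subgroupOf H') =>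
      (QuotientGroup.mk (i.1.out * Subgroup.inclusion hH'H i.2.out) : H ⧸ K.subgroupOf H) := by
    constructor
    · rintro ⟨c, d⟩ ⟨c', d'⟩ h
      have h' := QuotientGroup.eq.mp h
      simp only [Subgroup.mem_subgroupOf, Subgroup.coe_mul, Subgroup.coe_inv,
        Subgroup.coe_inclusion, mul_inv_rev] at h'
      have hc : c = c' := by
        rw [← QuotientGroup.out_eq' c, ← QuotientGroup.out_eq' c', QuotientGroup.eq,
          Subgroup.mem_subgroupOf]
        have h1 := H'.mul_mem (H'.mul_mem d.out.2 (hKH' h')) (H'.inv_mem d'.out.2)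
        convert h1 using 1
        simp only [Subgroup.coe_mul, Subgroup.coe_inv]
        group
      subst hc
      refine Prod.ext rfl ?_
      dsimp only
      rw [← QuotientGroup.out_eq' d, ← QuotientGroup.out_eq' d', QuotientGroup.eq,
        Subgroup.mem_subgroupOf]
      convert h' using 1
      simp only [Subgroup.coe_mul, Subgroup.coe_inv]
      group
    · intro q
      induction q using QuotientGroup.induction_on with
      | H h =>
        set c : H ⧸ H'.subgroupOf H := QuotientGroup.mk h
        have hm : ((c.out : H) : G)⁻¹ * h ∈ H' := by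
          have := QuotientGroup.eq.mp (QuotientGroup.out_eq' c)
          simpa [Subgroup.mem_subgroupOf] using this
        refine ⟨(c, QuotientGroup.mk ⟨_, hm⟩), ?_⟩
        dsimp only
        rw [QuotientGroup.eq, Subgroup.mem_subgroupOf]
        have h2 := QuotientGroup.eq.mp
          (QuotientGroup.out_eq' (QuotientGroup.mk ⟨_, hm⟩ : H' ⧸ K.subgroupOf H'))
        simp only [Subgroup.mem_subgroupOf, Subgroup.coe_mul, Subgroup.coe_inv] at h2
        convert h2 using 1
        simp only [Subgroup.coe_mul, Subgroup.coe_inv, Subgroup.coe_inclusion]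
        group
  rw [eq_finsum_of_bijective ha _ hb]
  have := Fintype.ofFinite (H ⧸ H'.subgroupOf H)
  have := Fintype.ofFinite (H' ⧸ K.subgroupOf H')
  simp only [relNorm, finsum_eq_sum_of_fintype, Fintype.sum_prod_type, Finset.smul_sum,
    Subgroup.coe_mul, Subgroup.coe_inclusion, mul_smul]

omit [Finite G] in
theorem map' {B : Type*} [AddCommGroup B] [DistribMulAction G B] (φ : A →+ B)
    (hφ : ∀ (g : G) (a : A), φ (g • a) = g • φ a) (H' H : Subgroup G)
    [Finite (H ⧸ H'.subgroupOf H)] (a : A) :
    φ (relNorm A H' H a) = relNorm B H' H (φ a) := by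
  unfold relNorm
  rw [map_finsum φ (Set.toFinite _)]
  exact finsum_congr fun c => hφ _ _

end RelNorm

end FermatLib.CFT
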