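import Fermat.Agent.CFT.Coh
import Fermat.Agent.CFT.CFRelNorm

/-!
Abstract assembly of a class formation from a cup class with an auxiliary character.
-/

set_option autoImplicit false

namespace FermatLib.CFT

namespace CFAbs

variable {p : ℕ} [Fact p.Prime]

/-- All cyclic steps inside `p`-subgroups. -/
def HasSteps (p : ℕ) (G : Type*) [Group G] (A : Type*) [AddCommGroup A] [DistribMulAction G A] :
    Prop :=
  ∀ H : Subgroup G, IsPGroup p H → ∀ K' K : Subgroup G, K' ≤ K → K ≤ H → K'.relIndex K = p →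
    IsCyclicStep A p K' K

theorem hasSteps_of_normal {G : Type*} [Group G] [Finite G] {A : Type*} [AddCommGroup A]
    [DistribMulAction G A]
    (h : ∀ K' K : Subgroup G, K' ≤ K → (K'.subgroupOf K).Normal → IsPGroup p K →
      K'.relIndex K = p → IsCyclicStep A p K' K) : HasSteps p G A := by
  intro H hH K' K hle hKH hidx
  have hK : IsPGroup p K := hH.to_le hKH
  refine h K' K hle ?_ hK hidx
  refine Subgroup.normal_of_index_eq_minFac_card ?_
  obtain ⟨m, hm⟩ := IsPGroup.iff_card.1 hK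
  have hdvd : K'.relIndex K ∣ Nat.card K := Subgroup.index_dvd_card _
  rw [hidx, hm] at hdvd
  have hm0 : m ≠ 0 := by
    rintro rfl
    exact (Fact.out : p.Prime).not_dvd_one (by simpa using hdvd)
  rw [show (K'.subgroupOf K).index = p from hidx, hm, Nat.Prime.pow_minFac Fact.out hm0]

section bot

variable {G : Type*} [Group G] {A : Type*} [AddCommGroup A] [DistribMulAction G A]

theorem res_bot_mem_B2 {H : Subgroup G} (f : H × H → A) :
    cochainMap2 (Subgroup.inclusion (bot_le : ⊥ ≤ H)) (AddMonoidHom.id A) f ∈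
      B2 (⊥ : Subgroup G) A := by
  refine mem_B2_iff.2 ⟨fun _ => f (1, 1), fun x y => ?_⟩
  have hx : x = 1 := Subsingleton.elim _ _
  have hy : y = 1 := Subsingleton.elim _ _
  subst hx; subst hy
  simp [cochainMap2_apply]

theorem h2_of_gen [Finite G] {P : Subgroup G} (hP : IsPGroup p P) (hsteps : HasSteps p G A)
    {u : G × G → A} (hu : u ∈ Z2 G A)
    (hord : ∀ m : ℕ, m • cochainMap2 P.subtype (AddMonoidHom.id A) u ∈ B2 P A → Nat.card P ∣ m) :
    Nat.card (H2' P A) = Nat.card P ∧ ∀ f ∈ Z2 P A, ∃ m : ℕ, m < Nat.card P ∧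
      f - m • cochainMap2 P.subtype (AddMonoidHom.id A) u ∈ B2 P A := by
  classical
  set v := cochainMap2 P.subtype (AddMonoidHom.id A) u
  have hv : v ∈ Z2 P A := cochainMap2_mem_Z2 (isCompat_subtype P) hu
  set n := Nat.card P
  let cls : Z2 P A → H2' P A := QuotientAddGroup.mk
  let F : Fin n → H2' P A := fun i => cls ⟨(i : ℕ) • v, nsmul_mem hv _⟩
  have hcls : ∀ a b : Z2 P A, cls a = cls b → (a : P × P → A) - b ∈ B2 P A := by
    intro a b h
    have := QuotientAddGroup.eq_iff_sub_mem.mp h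
    exact this
  have hF : Function.Injective F := by
    intro i j h
    wlog hij : (i : ℕ) ≤ j generalizing i j
    · exact (this h.symm (le_of_not_ge hij)).symm
    have h' := hcls _ _ h.symm
    change (j : ℕ) • v - (i : ℕ) • v ∈ B2 P A at h'
    obtain ⟨k, hk⟩ := Nat.exists_eq_add_of_le hij
    rw [hk, add_nsmul, add_sub_cancel_left] at h'
    obtain ⟨c, hc⟩ := hord k h'
    refine Fin.ext ?_
    rcases Nat.eq_zero_or_pos c with hc0 | hc0
    · rw [hc0, mul_zero] at hc; omega
    · have : n ≤ k := hc ▸ Nat.le_mul_of_pos_right n hc0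
      have := j.2; omega
  have hbound : ∀ t : Finset (H2' P A), t.card ≤ n := by
    intro t
    have key := devissage_h2 (p := p) P ⊥ hP bot_le (hsteps P hP)
      (t.image fun c => ((c.out : Z2 P A) : P × P → A)) (fun f hf => ?_) (fun f _ => res_bot_mem_B2 f)
      (fun f hf f' hf' h => ?_)
    · rw [Finset.card_image_of_injective _ fun a b h => ?_, Subgroup.relIndex_bot_left] at key
      · exact key
      · rw [← QuotientAddGroup.out_eq' a, ← QuotientAddGroup.out_eq' b, Subtype.ext h]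
    · obtain ⟨c, -, rfl⟩ := Finset.mem_image.1 hf
      exact c.out.2
    · obtain ⟨c, -, rfl⟩ := Finset.mem_image.1 hf
      obtain ⟨c', -, rfl⟩ := Finset.mem_image.1 hf'
      have : c = c' := by
        rw [← QuotientAddGroup.out_eq' c, ← QuotientAddGroup.out_eq' c',
          QuotientAddGroup.eq_iff_sub_mem]
        exact h
      rw [this]
  have hfin : Finite (H2' P A) := by
    by_contra hinf
    rw [not_finite_iff_infinite] at hinf
    obtain ⟨t, ht⟩ := Infinite.exists_subset_card_eq (H2' P A) (n + 1)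
    have := hbound t
    omega
  have := Fintype.ofFinite (H2' P A)
  have hle : Fintype.card (H2' P A) ≤ n := hbound Finset.univ
  have hge : n ≤ Fintype.card (H2' P A) := by
    simpa using Fintype.card_le_of_injective F hF
  refine ⟨by rw [Nat.card_eq_fintype_card]; omega, fun f hf => ?_⟩
  have hbij : Function.Bijective F :=
    (Fintype.bijective_iff_injective_and_card F).2 ⟨hF, by simp; omega⟩
  obtain ⟨i, hi⟩ := hbij.2 (cls ⟨f, hf⟩)
  exact ⟨i, i.2, hcls _ _ hi.symm⟩

end bot

/-- A class formation from a class whose restrictions have full order. -/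
theorem isPClassFormation_of_gen {G : Type*} [Group G] [Finite G] {A : Type*} [AddCommGroup A]
    [DistribMulAction G A] (hsteps : HasSteps p G A) {u : G × G → A} (hu : u ∈ Z2 G A)
    (hord : ∀ P : Subgroup G, IsPGroup p P → ∀ m : ℕ,
      m • cochainMap2 P.subtype (AddMonoidHom.id A) u ∈ B2 P A → Nat.card P ∣ m) :
    IsPClassFormation p G A where
  h1 H hH := devissage_h1 H hH (hsteps H hH)
  card_h2 H hH := (h2_of_gen hH hsteps hu (hord H hH)).1
  exists_gen := ⟨u, hu, fun K hK f hf => by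
    obtain ⟨m, -, hm⟩ := (h2_of_gen hK hsteps hu (hord K hK)).2 f hf
    exact ⟨m, by rwa [natCast_zsmul]⟩⟩

section cup

variable {G : Type*} [Group G] {A : Type*} [AddCommGroup A] [DistribMulAction G A]
  {N : ℕ} [NeZero N] (ψ : G →* Multiplicative (ZMod N))

omit [DistribMulAction G A] [NeZero N] in
theorem nsmul_cupChar (a : A) (m : ℕ) : m • cupChar ψ a = cupChar ψ (m • a) :=
  funext fun x => by simp only [Pi.smul_apply, cupChar, smul_comm m]

theorem relNormSet_subtype_iff [Finite G] (P : Subgroup G) (b : A) :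
    b ∈ relNormSet A (ψ.comp P.subtype).ker ⊤ ↔ b ∈ relNormSet A (ψ.ker ⊓ P) P := by
  have hfix : ∀ a : A, a ∈ fixedPts (ψ.comp P.subtype).ker A ↔
      a ∈ fixedPts (ψ.ker ⊓ P : Subgroup G) A := fun a =>
    ⟨fun h => mem_fixedPts_subgroup.2 fun g hg => mem_fixedPts_subgroup.1 h ⟨g, hg.2⟩ hg.1,
     fun h => mem_fixedPts_subgroup.2 fun g hg => mem_fixedPts_subgroup.1 h g ⟨hg, g.2⟩⟩
  have hn : ∀ a ∈ fixedPts (ψ.ker ⊓ P : Subgroup G) A,
      relNorm A (ψ.comp P.subtype).ker ⊤ a = relNorm A (ψ.ker ⊓ P) P a := by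
    intro a ha
    rw [RelNorm.eq_finsum_of_bijective ((hfix a).2 ha)
      (fun c : P ⧸ (ψ.ker ⊓ P).subgroupOf P => (⟨c.out, Subgroup.mem_top _⟩ : (⊤ : Subgroup P)))
      ⟨fun c c' h => ?_, fun x => ?_⟩]
    · rfl
    · rw [← QuotientGroup.out_eq' c, ← QuotientGroup.out_eq' c', QuotientGroup.eq,
        Subgroup.mem_subgroupOf]
      have h' := Subgroup.mem_subgroupOf.1 (QuotientGroup.eq.1 h)
      exact ⟨h', ((c.out)⁻¹ * c'.out).2⟩
    · induction x using QuotientGroup.induction_on with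
      | H g =>
        refine ⟨QuotientGroup.mk (g : P), QuotientGroup.eq.2 (Subgroup.mem_subgroupOf.2 ?_)⟩
        exact (Subgroup.mem_subgroupOf.1 (QuotientGroup.eq.1
          (QuotientGroup.out_eq' (QuotientGroup.mk (g : P) : P ⧸ (ψ.ker ⊓ P).subgroupOf P)))).1
  constructor
  · rintro ⟨a, ha, rfl⟩
    exact ⟨a, (hfix a).1 ha, (hn a ((hfix a).1 ha)).symm⟩
  · rintro ⟨a, ha, rfl⟩
    exact ⟨a, (hfix a).2 ha, hn a ha⟩

theorem cupChar_res_mem_B2_iff [Finite G] (hsteps : HasSteps p G A) {P : Subgroup G}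
    (hP : IsPGroup p P) {a : A} (ha : a ∈ fixedPts P A) :
    cupChar (ψ.comp P.subtype) a ∈ B2 P A ↔ a ∈ relNormSet A (ψ.ker ⊓ P) P := by
  have hle : ψ.ker ⊓ P ≤ P := inf_le_right
  have h0 := devissage_h1 (ψ.ker ⊓ P) (hP.to_le hle) (hsteps _ (hP.to_le hle))
  have he : (ψ.comp P.subtype).ker = (ψ.ker ⊓ P).subgroupOf P := by
    ext g
    simp [Subgroup.mem_subgroupOf]
  have h1 : H1Trivial (ψ.comp P.subtype).ker A := by
    rw [he]; exact h0.subgroupOf hle
  rw [cupChar_mem_B2_iff (ψ.comp P.subtype) h1 ha, relNormSet_subtype_iff]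

/-- If a character on invariants kills norms and covers `ψ(P)`, its kernel consists of norms. -/
theorem mem_relNormSet_of_chi_eq_zero [Finite G] (hsteps : HasSteps p G A) {P : Subgroup G}
    (hP : IsPGroup p P) (χ : A → ZMod N)
    (hadd : ∀ a ∈ fixedPts P A, ∀ b ∈ fixedPts P A, χ (a + b) = χ a + χ b)
    (hkill : ∀ c ∈ relNormSet A (ψ.ker ⊓ P) P, χ c = 0) {a : A} (ha : a ∈ fixedPts P A)
    (hcover : ∀ g ∈ P, (ψ g).toAdd ∈ AddSubgroup.zmultiples (χ a))
    {e : A} (he : e ∈ fixedPts P A) (hχ : χ e = 0) : e ∈ relNormSet A (ψ.ker ⊓ P) P := by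
  classical
  set ψP := ψ.comp P.subtype with hψP
  set n := (ψ.ker ⊓ P).relIndex P with hn
  have hker : ψP.ker = (ψ.ker ⊓ P).subgroupOf P := by
    ext g; simp [hψP, Subgroup.mem_subgroupOf]
  have hn_le : n ≤ addOrderOf (χ a) := by
    rw [hn, Subgroup.relIndex, ← hker, Subgroup.index_ker, ← Nat.card_zmultiples]
    refine Nat.card_le_card_of_injective
      (fun y => (⟨(y.1).toAdd, ?_⟩ : AddSubgroup.zmultiples (χ a))) fun y z h => ?_
    · obtain ⟨g, hg⟩ := y.2
      rw [← hg]
      exact hcover g g.2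
    · simp only [Subtype.mk.injEq] at h
      exact Subtype.ext (Multiplicative.toAdd.injective h)
  have hnsmul : ∀ m : ℕ, χ (m • a) = m • χ a := by
    intro m
    induction m with
    | zero =>
      have := hadd 0 (zero_mem _) 0 (zero_mem _)
      rw [add_zero] at this
      rw [zero_nsmul, zero_nsmul]
      exact left_eq_add.mp this
    | succ m ih => rw [succ_nsmul, succ_nsmul, hadd _ (nsmul_mem ha m) _ ha, ih]
  have hsub : ∀ x ∈ fixedPts P A, ∀ y ∈ fixedPts P A,
      cupChar ψP x - cupChar ψP y ∈ B2 P A → χ x = χ y ∧ x - y ∈ relNormSet A (ψ.ker ⊓ P) P := by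
    intro x hx y hy h
    have e : cupChar ψP x - cupChar ψP y = cupChar ψP (x - y) :=
      funext fun t => by simp only [Pi.sub_apply, cupChar, smul_sub]
    rw [e, cupChar_res_mem_B2_iff ψ hsteps hP (sub_mem hx hy)] at h
    refine ⟨?_, h⟩
    have := hadd _ (sub_mem hx hy) _ hy
    rw [sub_add_cancel, hkill _ h, zero_add] at this
    exact this
  by_contra hne
  let g : Option (Fin n) → A := fun o => o.elim e fun i => (i : ℕ) • a
  have hg : ∀ o, g o ∈ fixedPts P A := by rintro (_ | i); exacts [he, nsmul_mem ha _]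
  have hinj : Function.Injective fun o => cupChar ψP (g o) := by
    intro o o' h
    have hχ' := (hsub _ (hg o) _ (hg o') (by simp only at h; rw [h, sub_self]; exact zero_mem _)).1
    rcases o with _ | i <;> rcases o' with _ | j
    · rfl
    · exfalso
      change χ e = χ ((j : ℕ) • a) at hχ'
      rw [hχ, hnsmul] at hχ'
      have hj := addOrderOf_dvd_of_nsmul_eq_zero hχ'.symm
      have hj0 : (j : ℕ) = 0 := Nat.eq_zero_of_dvd_of_lt hj (j.2.trans_le hn_le)
      apply hne
      have h' := (hsub _ (hg none) _ (hg (some j))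
        (by simp only at h; rw [h, sub_self]; exact zero_mem _)).2
      simpa [g, hj0] using h'
    · exfalso
      change χ ((i : ℕ) • a) = χ e at hχ'
      rw [hχ, hnsmul] at hχ'
      have hi := addOrderOf_dvd_of_nsmul_eq_zero hχ'
      have hi0 : (i : ℕ) = 0 := Nat.eq_zero_of_dvd_of_lt hi (i.2.trans_le hn_le)
      apply hne
      have h' := (hsub _ (hg none) _ (hg (some i))
        (by simp only at h; rw [h, sub_self]; exact zero_mem _)).2
      simpa [g, hi0] using h'
    · change χ ((i : ℕ) • a) = χ ((j : ℕ) • a) at hχ'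
      rw [hnsmul, hnsmul] at hχ'
      exact congrArg some (Fin.ext (nsmul_injOn_Iio_addOrderOf (i.2.trans_le hn_le)
        (j.2.trans_le hn_le) hχ'))
  have key := devissage_h2 (p := p) P (ψ.ker ⊓ P) hP inf_le_right (hsteps P hP)
    (Finset.univ.image fun o => cupChar ψP (g o)) (fun f hf => ?_) (fun f hf => ?_)
    (fun f hf f' hf' h => ?_)
  · rw [Finset.card_image_of_injective _ hinj, Finset.card_univ, Fintype.card_option,
      Fintype.card_fin] at key
    omega
  · obtain ⟨o, -, rfl⟩ := Finset.mem_image.1 hf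
    exact cupChar_mem_Z2 ψP (hg o)
  · obtain ⟨o, -, rfl⟩ := Finset.mem_image.1 hf
    have : cochainMap2 (Subgroup.inclusion (inf_le_right : ψ.ker ⊓ P ≤ P)) (AddMonoidHom.id A)
        (cupChar ψP (g o)) = 0 := funext fun ⟨x, y⟩ => by
      have hx : ψ (x : G) = 1 := x.2.1
      have hy : ψ (y : G) = 1 := y.2.1
      simp [cochainMap2_apply, cupChar, hψP, hx, hy]
    rw [this]; exact zero_mem _
  · obtain ⟨o, -, rfl⟩ := Finset.mem_image.1 hf
    obtain ⟨o', -, rfl⟩ := Finset.mem_image.1 hf'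
    obtain ⟨h1, h2⟩ := hsub _ (hg o) _ (hg o') h
    rcases o with _ | i <;> rcases o' with _ | j
    · rfl
    · exfalso
      change χ e = χ ((j : ℕ) • a) at h1
      rw [hχ, hnsmul] at h1
      have hj0 : (j : ℕ) = 0 :=
        Nat.eq_zero_of_dvd_of_lt (addOrderOf_dvd_of_nsmul_eq_zero h1.symm) (j.2.trans_le hn_le)
      exact hne (by simpa [g, hj0] using h2)
    · exfalso
      change χ ((i : ℕ) • a) = χ e at h1
      rw [hχ, hnsmul] at h1
      have hi0 : (i : ℕ) = 0 :=
        Nat.eq_zero_of_dvd_of_lt (addOrderOf_dvd_of_nsmul_eq_zero h1) (i.2.trans_le hn_le)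
      obtain ⟨b, hb, hb'⟩ := h2
      refine hne ⟨-b, neg_mem hb, ?_⟩
      rw [RelNorm.neg', hb']
      simp [g, hi0]
    · change χ ((i : ℕ) • a) = χ ((j : ℕ) • a) at h1
      rw [hnsmul, hnsmul] at h1
      rw [Fin.ext (nsmul_injOn_Iio_addOrderOf (i.2.trans_le hn_le) (j.2.trans_le hn_le) h1)]

end cup

/-- The inflated cup class and its orders. -/
theorem exists_inflated_gen {G : Type*} [Group G] [Finite G] {A : Type*} [AddCommGroup A]
    [DistribMulAction G A] {Gt : Type*} [Group Gt] [Finite Gt] {At : Type*} [AddCommGroup At]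
    [DistribMulAction Gt At] (π : Gt →* G) (hπ : Function.Surjective π) (hπp : IsPGroup p π.ker)
    (ι : A →+ At) (hι : ∀ (g : Gt) (a : A), ι (π g • a) = g • ι a) (hinj : Function.Injective ι)
    (hrange : ∀ a : At, (∀ g ∈ π.ker, g • a = a) → a ∈ ι.range)
    (hsteps : HasSteps p Gt At) {N : ℕ} [NeZero N] (ψ : Gt →* Multiplicative (ZMod N))
    {e : At} (he : e ∈ fixedPts Gt At) (hK : e ∈ relNormSet At (ψ.ker ⊓ π.ker) π.ker)
    (hord : ∀ P : Subgroup G, IsPGroup p P → ∀ m : ℕ,
      m • e ∈ relNormSet At (ψ.ker ⊓ P.comap π) (P.comap π) → Nat.card P ∣ m) :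
    ∃ u ∈ Z2 G A, cupChar ψ e - cochainMap2 π ι u ∈ B2 Gt At ∧
      ∀ P : Subgroup G, IsPGroup p P → ∀ m : ℕ,
        m • cochainMap2 P.subtype (AddMonoidHom.id A) u ∈ B2 P A → Nat.card P ∣ m := by
  have h1 : H1Trivial π.ker At := devissage_h1 π.ker hπp (hsteps _ hπp)
  have hres : cochainMap2 π.ker.subtype (AddMonoidHom.id At) (cupChar ψ e) ∈ B2 π.ker At :=
    (cupChar_res_mem_B2_iff ψ hsteps hπp fun g => he _).2 hK
  obtain ⟨u, hu, hue⟩ := inflation_range π hπ ι hι hinj hrange h1 (cupChar_mem_Z2 ψ he) hres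
  refine ⟨u, hu, hue, fun P hP m hm => hord P hP m ?_⟩
  set Pt := P.comap π with hPt
  have hPtp : IsPGroup p Pt := hP.comap_of_ker_isPGroup π hπp
  rw [← cupChar_res_mem_B2_iff ψ hsteps hPtp fun g => (nsmul_mem he m) _]
  let πP : Pt →* P := (π.comp Pt.subtype).codRestrict P fun x => x.2
  have hc : IsCompat πP ι := fun g a => hι g a
  have h2 := cochainMap2_mem_B2 hc hm
  have h3 := nsmul_mem (cochainMap2_mem_B2 (isCompat_subtype Pt) hue) m
  have h4 := add_mem h3 h2
  rw [map_sub, nsmul_sub, map_nsmul,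
    show cochainMap2 πP ι (cochainMap2 P.subtype (AddMonoidHom.id A) u) =
      cochainMap2 Pt.subtype (AddMonoidHom.id At) (cochainMap2 π ι u) from rfl,
    sub_add_cancel] at h4
  rw [show cupChar (ψ.comp Pt.subtype) (m • e) =
    m • cochainMap2 Pt.subtype (AddMonoidHom.id At) (cupChar ψ e) from
      (nsmul_cupChar (ψ.comp Pt.subtype) e m).symm]
  exact h4

end CFAbs

end FermatLib.CFT
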