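import Fermat.Agent.CFT.IdeleDefs

/-!
The auxiliary field: the compositum of `L` with the subfield of `ℚ(ζ_r)` cut out by a character `κ`
of `(ZMod r)ˣ`.
-/

set_option autoImplicit false

namespace FermatLib.CFT

/-- `Lt` is the compositum of `L` and the cyclic field of `κ`, with `ψ` the character. -/
structure IsAuxField (L : Type) [Field L] [NumberField L] [IsGalois ℚ L] {r N : ℕ}
    (κ : (ZMod r)ˣ →* Multiplicative (ZMod N)) (Lt : Type) [Field Lt] [NumberField Lt]
    [IsGalois ℚ Lt] [Algebra L Lt] (ψ : (Lt ≃ₐ[ℚ] Lt) →* Multiplicative (ZMod N)) : Prop where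
  psi_surjective : Function.Surjective ψ
  eq_one_of_ker : ∀ g : Lt ≃ₐ[ℚ] Lt,
    AlgEquiv.restrictNormalHom L g = 1 → ψ g = 1 → g = 1
  psi_spec : ∀ (Ω : Type) [Field Ω] [CharZero Ω] [IsAlgClosed Ω] (φ : Lt →+* Ω) (τ : Ω →+* Ω)
    (g : Lt ≃ₐ[ℚ] Lt), τ.comp φ = φ.comp (g : Lt →+* Lt) →
    ∀ (ζ : Ω), IsPrimitiveRoot ζ r → ∀ j : (ZMod r)ˣ, τ ζ = ζ ^ (j : ZMod r).val → ψ g = κ j

theorem exists_isAuxField (L : Type) [Field L] [NumberField L] [IsGalois ℚ L] {r N : ℕ}
    [hr : Fact r.Prime] {κ : (ZMod r)ˣ →* Multiplicative (ZMod N)} (hκ : Function.Surjective κ) :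
    ∃ (Lt : Type) (_ : Field Lt) (_ : NumberField Lt) (_ : IsGalois ℚ Lt) (_ : Algebra L Lt)
      (ψ : (Lt ≃ₐ[ℚ] Lt) →* Multiplicative (ZMod N)), IsAuxField L κ Lt ψ := by
  classical
  let Ω := AlgebraicClosure L
  have halg : Algebra.IsAlgebraic ℚ Ω := Algebra.IsAlgebraic.trans ℚ L Ω
  let K1 : IntermediateField ℚ Ω := (IsScalarTower.toAlgHom ℚ L Ω).fieldRange
  have hK1 : Normal ℚ K1 := Normal.of_algEquiv (AlgEquiv.ofInjectiveField (IsScalarTower.toAlgHom ℚ L Ω))
  obtain ⟨ζ, hζ⟩ := HasEnoughRootsOfUnity.exists_primitiveRoot Ω r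
  let K2 : IntermediateField ℚ Ω := IntermediateField.adjoin ℚ {ζ}
  have hcyc : IsCyclotomicExtension {r} ℚ K2 :=
    hζ.intermediateField_adjoin_isCyclotomicExtension ℚ
  have hgal2 : IsGalois ℚ K2 := IsCyclotomicExtension.isGalois {r} ℚ K2
  let L' : IntermediateField ℚ Ω := K1 ⊔ K2
  have hfd1 : FiniteDimensional ℚ K1 :=
    (AlgEquiv.ofInjectiveField (IsScalarTower.toAlgHom ℚ L Ω)).toLinearEquiv.finiteDimensional
  have hfd2 : FiniteDimensional ℚ K2 := IsCyclotomicExtension.finiteDimensional {r} ℚ K2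
  have hfd : FiniteDimensional ℚ L' := IntermediateField.finiteDimensional_sup K1 K2
  have hnf : NumberField L' := @NumberField.mk _ _ inferInstance hfd
  have hnorm : Normal ℚ L' := @IntermediateField.normal_sup ℚ Ω _ _ _ K1 K2 hK1 hgal2.to_normal
  have hgal : IsGalois ℚ L' := @IsGalois.mk _ _ _ _ _ inferInstance hnorm
  let f : L →+* L' := (IsScalarTower.toAlgHom ℚ L Ω).toRingHom.codRestrict L'
    fun x => (le_sup_left : K1 ≤ L') ⟨x, rfl⟩
  letI algL' : Algebra L L' := f.toAlgebra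
  let z : L' := ⟨ζ, (le_sup_right : K2 ≤ L') (IntermediateField.mem_adjoin_simple_self ℚ ζ)⟩
  have hz : IsPrimitiveRoot z r := IsPrimitiveRoot.coe_submonoidClass_iff.mp hζ
  let c : (L' ≃ₐ[ℚ] L') →* (ZMod r)ˣ := hz.autToPow ℚ
  have hc : ∀ g : L' ≃ₐ[ℚ] L', g z = z ^ ((c g : ZMod r)).val :=
    fun g => (hz.autToPow_spec ℚ g).symm
  have hcsurj : Function.Surjective c := by
    intro j
    have hirr : Irreducible (Polynomial.cyclotomic r ℚ) :=
      Polynomial.cyclotomic.irreducible_rat hr.out.pos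
    have hz' : IsPrimitiveRoot (z ^ (j : ZMod r).val) r :=
      hz.pow_of_coprime _ (ZMod.val_coe_unit_coprime j)
    have hmin : minpoly ℚ z = minpoly ℚ (z ^ (j : ZMod r).val) := by
      rw [← hz.minpoly_eq_cyclotomic_of_irreducible hirr,
        ← hz'.minpoly_eq_cyclotomic_of_irreducible hirr]
    obtain ⟨g, hg⟩ := Normal.minpoly_eq_iff_mem_orbit (F := ℚ) (E := L') |>.mp hmin.symm
    refine ⟨g, Units.ext (ZMod.val_injective _ (hz.pow_inj (ZMod.val_lt _) (ZMod.val_lt _) ?_))⟩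
    rw [← hc g]
    exact hg
  let S : Subgroup (L' ≃ₐ[ℚ] L') :=
    (AlgEquiv.restrictNormalHom L : (L' ≃ₐ[ℚ] L') →* (L ≃ₐ[ℚ] L)).ker ⊓ (κ.comp c).ker
  have hSn : S.Normal := Subgroup.normal_inf_normal _ _
  let C : IntermediateField ℚ L' := IntermediateField.fixedField S
  have hCgal : IsGalois ℚ C := IsGalois.of_fixedField_normal_subgroup S
  have hCnf : NumberField C := @NumberField.mk _ _ inferInstance inferInstance
  have hfC : ∀ x : L, f x ∈ C := by
    intro x
    rintro ⟨g, hg⟩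
    change g (algebraMap L L' x) = algebraMap L L' x
    rw [← AlgEquiv.restrictNormal_commutes g L x]
    exact congrArg (algebraMap L L') (AlgEquiv.congr_fun hg.1 x)
  letI algC : Algebra L C := (f.codRestrict C hfC).toAlgebra
  let resC : (L' ≃ₐ[ℚ] L') →* (C ≃ₐ[ℚ] C) := AlgEquiv.restrictNormalHom C
  have hresC : Function.Surjective resC := AlgEquiv.restrictNormalHom_surjective L'
  have hker : resC.ker = S :=
    (IntermediateField.restrictNormalHom_ker C).trans (IntermediateField.fixingSubgroup_fixedField S)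
  have hcomp : ∀ g : L' ≃ₐ[ℚ] L', AlgEquiv.restrictNormalHom L (resC g) =
      (AlgEquiv.restrictNormalHom L g : L ≃ₐ[ℚ] L) := by
    intro g
    ext x
    apply (algebraMap L C).injective
    rw [show algebraMap L C (AlgEquiv.restrictNormalHom L (resC g) x) = resC g (algebraMap L C x)
      from AlgEquiv.restrictNormal_commutes (resC g) L x]
    apply Subtype.ext
    rw [show ((resC g (algebraMap L C x) : C) : L') = g ((algebraMap L C x : C) : L')
      from AlgEquiv.restrictNormal_commutes g C (algebraMap L C x)]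
    exact (AlgEquiv.restrictNormal_commutes g L x).symm
  let ψ : (C ≃ₐ[ℚ] C) →* Multiplicative (ZMod N) :=
    MonoidHom.liftOfSurjective resC hresC ⟨κ.comp c, hker ▸ inf_le_right⟩
  have hψ : ∀ g, ψ (resC g) = κ (c g) := fun g =>
    MonoidHom.liftOfRightInverse_comp_apply _ _ _ _ g
  refine ⟨C, inferInstance, hCnf, hCgal, algC, ψ, ⟨?_, ?_, ?_⟩⟩
  · intro y
    obtain ⟨j, rfl⟩ := hκ y
    obtain ⟨g, rfl⟩ := hcsurj j
    exact ⟨resC g, hψ g⟩
  · intro g h1 h2
    obtain ⟨g', rfl⟩ := hresC g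
    rw [← MonoidHom.mem_ker, hker]
    exact ⟨(hcomp g').symm.trans h1, (hψ g').symm.trans h2⟩
  · intro Ω' _ _ _ φ τ g hg ζ' hζ' j hj
    letI : Algebra C Ω' := φ.toAlgebra
    obtain ⟨φ'⟩ : Nonempty (L' →ₐ[C] Ω') := ⟨IsAlgClosed.lift⟩
    have hbij : Function.Bijective fun g' : L' ≃ₐ[ℚ] L' =>
        φ'.toRingHom.comp (g' : L' →+* L') := by
      refine (Fintype.bijective_iff_injective_and_card _).2 ⟨fun a b e => AlgEquiv.ext fun x =>
        φ'.toRingHom.injective (RingHom.congr_fun e x), ?_⟩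
      rw [NumberField.Embeddings.card, ← Nat.card_eq_fintype_card, IsGalois.card_aut_eq_finrank]
    obtain ⟨g', hg'⟩ := hbij.2 (τ.comp φ'.toRingHom)
    have hres : resC g' = g := by
      ext x
      have h1 : φ (resC g' x) = φ (g x) := by
        have hl : φ' (algebraMap C L' (resC g' x)) = φ (resC g' x) := φ'.commutes _
        rw [← hl, show algebraMap C L' (resC g' x) = g' (algebraMap C L' x) from
          AlgEquiv.restrictNormal_commutes g' C x]
        rw [show φ' (g' (algebraMap C L' x)) = τ (φ' (algebraMap C L' x)) from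
          RingHom.congr_fun hg' _, φ'.commutes]
        exact RingHom.congr_fun hg x
      have h4 : resC g' x = g x := φ.injective h1
      exact congrArg Subtype.val (congrArg Subtype.val h4)
    rw [← hres, hψ]
    congr 1
    have hζz : IsPrimitiveRoot (φ' z) r := hz.map_of_injective φ'.toRingHom.injective
    obtain ⟨i, -, hi⟩ := hζ'.eq_pow_of_pow_eq_one hζz.pow_eq_one
    have h2 : τ (φ' z) = φ' z ^ (j : ZMod r).val := by
      rw [← hi, map_pow, hj, pow_right_comm]
    have h3 : τ (φ' z) = φ' z ^ (c g' : ZMod r).val := by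
      rw [show τ (φ' z) = φ' (g' z) from (RingHom.congr_fun hg' z).symm, hc g', map_pow]
    exact Units.ext (ZMod.val_injective _
      (hζz.pow_inj (ZMod.val_lt _) (ZMod.val_lt _) (h3.symm.trans h2)))

end FermatLib.CFT
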