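import Mathlib

/-!
Choice of the auxiliary prime and of the character of `(ZMod r)ˣ` of `p`-power order.
-/

set_option autoImplicit false

namespace FermatLib.CFT

namespace AuxPrime

theorem exists_prime_pow_dvd_sub_one (p b : ℕ) [hp : Fact p.Prime] :
    ∃ r : ℕ, r.Prime ∧ p ^ b ∣ r - 1 := by
  obtain ⟨r, hr, -, hmod⟩ := Nat.exists_prime_gt_modEq_one (k := p ^ b) 0
    (pow_ne_zero _ hp.out.ne_zero)
  exact ⟨r, hr, (Nat.modEq_iff_dvd' hr.one_le).mp hmod.symm⟩

/-- The geometric sum in `ZMod (p ^ 2)`. -/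
theorem geom_sum_ne_zero_mod_sq {p : ℕ} (hp : p.Prime) {a : ℕ} (ha : a ≡ 1 [MOD p])
    (h2 : p = 2 → IsSquare a) : ¬ p ^ 2 ∣ ∑ i ∈ Finset.range p, a ^ i := by
  rcases hp.eq_two_or_odd' with rfl | hodd
  · obtain ⟨s, rfl⟩ := h2 rfl
    have hs : s % 2 = 1 := by
      have := ha
      unfold Nat.ModEq at this
      rw [Nat.mul_mod] at this
      rcases Nat.mod_two_eq_zero_or_one s with h | h <;> simp_all
    simp only [Finset.sum_range_succ, Finset.sum_range_zero, pow_zero, pow_one, zero_add]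
    obtain ⟨t, rfl⟩ := Nat.odd_iff.mpr hs
    intro h
    have : (2 * t + 1) * (2 * t + 1) = 4 * (t * t + t) + 1 := by ring
    omega
  · obtain ⟨t, ht⟩ : p ∣ a - 1 := by
      rcases Nat.eq_zero_or_pos a with rfl | hpos
      · simp
      · exact (Nat.modEq_iff_dvd' hpos).mp ha.symm
    have hpos : 0 < a := by
      rcases Nat.eq_zero_or_pos a with rfl | hpos
      · have := ha
        simp [Nat.ModEq, Nat.mod_eq_of_lt hp.one_lt] at this
      · exact hpos
    have hat : a = 1 + p * t := by omega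
    obtain ⟨k, hk⟩ := hodd
    intro hdvd
    have h0 : ((∑ i ∈ Finset.range p, a ^ i : ℕ) : ZMod (p ^ 2)) = 0 :=
      (ZMod.natCast_eq_zero_iff _ _).mpr hdvd
    have hx : ((p : ZMod (p ^ 2)) * t) * ((p : ZMod (p ^ 2)) * t) = 0 := by
      have : ((p ^ 2 : ℕ) : ZMod (p ^ 2)) = 0 := ZMod.natCast_self _
      push_cast at this
      rw [show (p : ZMod (p ^ 2)) * t * (p * t) = (p : ZMod (p ^ 2)) ^ 2 * (t * t) by ring, this,
        zero_mul]
    have hpow : ∀ i : ℕ, ((a : ZMod (p ^ 2))) ^ i = 1 + i * ((p : ZMod (p ^ 2)) * t) := by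
      intro i
      induction i with
      | zero => simp
      | succ i ih =>
        rw [pow_succ (a : ZMod (p ^ 2)), ih, hat]
        push_cast
        linear_combination (i : ZMod (p ^ 2)) * hx
    push_cast at h0
    simp only [hpow, Finset.sum_add_distrib, ← Finset.sum_mul] at h0
    have hsum : ∑ i ∈ Finset.range p, i = p * k := by
      have := Finset.sum_range_id_mul_two p
      have h2' : p - 1 = 2 * k := by omega
      rw [h2'] at this
      linarith
    rw [← Nat.cast_sum, hsum, Finset.sum_const, Finset.card_range, nsmul_eq_mul, mul_one,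
      Nat.cast_mul] at h0
    have hzero : (p : ZMod (p ^ 2)) = 0 := by
      have : ((p ^ 2 : ℕ) : ZMod (p ^ 2)) = 0 := ZMod.natCast_self _
      push_cast at this
      linear_combination h0 - (k : ZMod (p ^ 2)) * t * this
    have := Nat.le_of_dvd hp.pos ((ZMod.natCast_eq_zero_iff _ _).mp hzero)
    nlinarith [hp.two_le]

/-- A prime modulo which `l` has order exactly `p ^ b`. -/
theorem exists_prime_orderOf (p : ℕ) [hp : Fact p.Prime] {l : ℕ} (hl : l.Prime) {b : ℕ}
    (hb : 2 ≤ b) : ∃ r : ℕ, r.Prime ∧ r ≠ l ∧ orderOf (l : ZMod r) = p ^ b := by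
  obtain ⟨c, rfl⟩ : ∃ c, b = c + 1 := ⟨b - 1, by omega⟩
  set a := l ^ p ^ c with ha
  set S := ∑ i ∈ Finset.range p, a ^ i with hS
  have ha2 : 2 ≤ a := hl.two_le.trans (Nat.le_self_pow (pow_ne_zero _ hp.out.ne_zero) l)
  have hSp : p < S := by
    calc p = ∑ i ∈ Finset.range p, 1 := by simp
      _ < S := by
        refine Finset.sum_lt_sum (fun i _ => Nat.one_le_pow _ _ (by omega))
          ⟨1, Finset.mem_range.mpr hp.out.one_lt, by rw [pow_one]; omega⟩
  have key : ∃ r, r.Prime ∧ r ∣ S ∧ r ≠ p := by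
    by_contra hcon
    push Not at hcon
    have hSpow : S = p ^ S.primeFactorsList.length :=
      Nat.eq_prime_pow_of_unique_prime_dvd (by omega) fun {d} hd hdS => hcon d hd hdS
    generalize S.primeFactorsList.length = k at hSpow
    have hpS : p ∣ S := by
      rcases k with _ | k
      · rw [pow_zero] at hSpow
        have := hp.out.two_le
        omega
      · rw [hSpow]; exact dvd_pow_self p k.succ_ne_zero
    have hmod : a ≡ 1 [MOD p] := by
      rw [← ZMod.natCast_eq_natCast_iff, Nat.cast_one]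
      have h0 : ((S : ℕ) : ZMod p) = 0 := (ZMod.natCast_eq_zero_iff _ _).mpr hpS
      rw [hS, Nat.cast_sum] at h0
      have := geom_sum_mul (a : ZMod p) p
      push_cast at h0
      rw [h0, zero_mul, ZMod.pow_card] at this
      exact sub_eq_zero.mp this.symm
    have hns := geom_sum_ne_zero_mod_sq hp.out hmod (fun h => by
      subst h
      refine ⟨l ^ 2 ^ (c - 1), ?_⟩
      rw [ha, ← pow_add]
      congr 1
      rw [← two_mul, ← pow_succ']
      congr 1
      omega)
    rcases k with _ | _ | k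
    · have : S = 1 := by simpa using hSpow
      have := hp.out.two_le
      omega
    · have : S = p := by simpa using hSpow
      omega
    · exact hns (by rw [← hS, hSpow]; exact pow_dvd_pow p (by omega))
  obtain ⟨r, hr, hrS, hrp⟩ := key
  haveI := Fact.mk hr
  have h0 : ((S : ℕ) : ZMod r) = 0 := (ZMod.natCast_eq_zero_iff _ _).mpr hrS
  rw [hS, Nat.cast_sum] at h0
  push_cast at h0
  refine ⟨r, hr, ?_, orderOf_eq_prime_pow ?_ ?_⟩
  · rintro rfl
    have hz : (a : ZMod r) = 0 := by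
      rw [ha, Nat.cast_pow, ZMod.natCast_self, zero_pow (pow_ne_zero _ hp.out.ne_zero)]
    rw [hz, zero_geom_sum, if_neg hp.out.ne_zero] at h0
    exact one_ne_zero h0
  · intro h1
    rw [← Nat.cast_pow, ← ha] at h1
    rw [h1] at h0
    simp only [one_pow, Finset.sum_const, Finset.card_range, nsmul_eq_mul, mul_one] at h0
    exact hrp ((Nat.prime_dvd_prime_iff_eq hr hp.out).mp ((ZMod.natCast_eq_zero_iff _ _).mp h0))
  · have := geom_sum_mul (a : ZMod r) p
    rw [h0, zero_mul, ha, Nat.cast_pow, ← pow_mul, ← pow_succ] at this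
    exact sub_eq_zero.mp this.symm

/-- The character of `(ZMod r)ˣ` with image the `p`-part. -/
theorem exists_kappa (p r : ℕ) [hp : Fact p.Prime] [hr : Fact r.Prime] :
    ∃ (c : ℕ) (κ : (ZMod r)ˣ →* Multiplicative (ZMod (p ^ c))),
      Function.Surjective κ ∧ ¬ p ∣ (r - 1) / p ^ c ∧ p ^ c ∣ r - 1 ∧
      ∀ (x : (ZMod r)ˣ) (k : ℕ), orderOf x = p ^ k → orderOf (κ x) = p ^ k := by
  have hpos : r - 1 ≠ 0 := by have := hr.out.two_le; omega
  obtain ⟨c, m, hm, hrm⟩ := Nat.exists_eq_pow_mul_and_not_dvd hpos p hp.out.ne_one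
  have hcard : Nat.card (ZMod r)ˣ = r - 1 := by
    rw [Nat.card_eq_fintype_card, ZMod.card_units]
  have hdvd : p ^ c ∣ Nat.card (ZMod r)ˣ := by rw [hcard, hrm]; exact dvd_mul_right _ _
  let e := zmodCyclicMulEquiv (inferInstance : IsCyclic (ZMod r)ˣ)
  let κ : (ZMod r)ˣ →* Multiplicative (ZMod (p ^ c)) :=
    (AddMonoidHom.toMultiplicative (ZMod.castHom hdvd (ZMod (p ^ c))).toAddMonoidHom).comp
      e.symm.toMonoidHom
  have hsurj : Function.Surjective κ := by
    intro y
    obtain ⟨z, hz⟩ := ZMod.castHom_surjective hdvd y.toAdd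
    exact ⟨e (Multiplicative.ofAdd z), by simp [κ, hz]⟩
  refine ⟨c, κ, hsurj, ?_, by rw [hrm]; exact dvd_mul_right _ _, ?_⟩
  · rwa [hrm, Nat.mul_div_cancel_left _ (pow_pos hp.out.pos c)]
  intro x k hx
  have hker : Nat.card κ.ker = m := by
    have h1 := κ.ker.card_mul_index
    have h2 : κ.ker.index = p ^ c := by
      rw [Subgroup.index_ker, MonoidHom.range_eq_top.mpr hsurj, Subgroup.card_top,
        Nat.card_eq_fintype_card, Fintype.card_multiplicative, ZMod.card]
    rw [h2, hcard, hrm, mul_comm] at h1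
    exact Nat.eq_of_mul_eq_mul_left (pow_pos hp.out.pos c) h1
  have h1 : orderOf (κ x) ∣ p ^ k := hx ▸ orderOf_map_dvd κ x
  refine Nat.dvd_antisymm h1 ?_
  have hmem : x ^ orderOf (κ x) ∈ κ.ker := by
    rw [MonoidHom.mem_ker, map_pow, pow_orderOf_eq_one]
  have h2 := orderOf_dvd_natCard (⟨_, hmem⟩ : κ.ker)
  rw [hker, Subgroup.orderOf_mk] at h2
  have h4 : orderOf (x ^ orderOf (κ x)) ∣ p ^ k := hx ▸ orderOf_pow_dvd _
  have hco : Nat.Coprime (p ^ k) m := Nat.Coprime.pow_left _ (hp.out.coprime_iff_not_dvd.mpr hm)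
  have h5 : orderOf (x ^ orderOf (κ x)) = 1 := Nat.eq_one_of_dvd_coprimes hco h4 h2
  rw [orderOf_eq_one_iff] at h5
  exact hx ▸ orderOf_dvd_of_pow_eq_one h5

end AuxPrime

end FermatLib.CFT
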