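import Fermat.Agent.CFT.SecondInequality

/-!
The two global inequalities assembled: the cyclic step theorem
(`exists_fixed_idele_of_fixed_class` and `exists_place_not_split` are in `FirstMain`).
-/

set_option autoImplicit false

open NumberField

namespace FermatLib.CFT

variable {p : ℕ} [Fact p.Prime] (L : Type) [Field L] [NumberField L] [IsGalois ℚ L]

/-- The main cyclic step theorem: first and second inequality. -/
theorem ideleClass_isCyclicStep (H' H : Subgroup (L ≃ₐ[ℚ] L)) (hle : H' ≤ H)
    [(H'.subgroupOf H).Normal] (hidx : H'.relIndex H = p) :
    IsCyclicStep (IdeleClass L) p H' H :=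
  isCyclicStep_of_norm_index_le L H' H hle hidx (ideleClass_norm_index_le L H' H hle hidx)

end FermatLib.CFT
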