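import Fermat.Agent.CFT.LocalResidue

/-!
Frobenius and inertial elements of the Galois group of `ℚ_q`.
-/

set_option autoImplicit false
set_option linter.unusedSectionVars false

open IntermediateField

namespace FermatLib.CFT.Loc

variable {q : Nat.Primes}

theorem norm_pow_sub_pow_lt {a b : PadicAlgCl (q : ℕ)} (ha : ‖a‖ ≤ 1) (hb : ‖b‖ ≤ 1)
    (h : ‖a - b‖ < 1) (n : ℕ) : ‖a ^ n - b ^ n‖ < 1 := by
  rw [← geom_sum₂_mul a b n, norm_mul]
  refine lt_of_le_of_lt (mul_le_of_le_one_left (norm_nonneg _) ?_) h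
  refine IsUltrametricDist.norm_sum_le_of_forall_le_of_nonneg zero_le_one fun i _ => ?_
  rw [norm_mul, norm_pow, norm_pow]
  exact mul_le_one₀ (pow_le_one₀ (norm_nonneg _) ha) (pow_nonneg (norm_nonneg _) _)
    (pow_le_one₀ (norm_nonneg _) hb)

theorem norm_sub_lt_trans {a b c : PadicAlgCl (q : ℕ)} (h₁ : ‖a - b‖ < 1) (h₂ : ‖b - c‖ < 1) :
    ‖a - c‖ < 1 := by
  have e : a - c = (a - b) + (b - c) := by ring
  rw [e]
  exact (IsUltrametricDist.norm_add_le_max _ _).trans_lt (max_lt h₁ h₂)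

theorem norm_sub_lt_symm {a b : PadicAlgCl (q : ℕ)} (h : ‖a - b‖ < 1) : ‖b - a‖ < 1 := by
  rwa [norm_sub_rev]

theorem eq_of_rootOfUnity_near {a b : PadicAlgCl (q : ℕ)} {m : ℕ} (hm : ¬ (q : ℕ) ∣ m)
    (ha : a ^ m = 1) (hb : b ^ m = 1) (h : ‖a - b‖ < 1) : a = b := by
  have hm0 : m ≠ 0 := fun e => hm (e ▸ dvd_zero _)
  have hb1 := norm_eq_one_of_pow_eq_one hm0 hb
  have hb0 : b ≠ 0 := by rw [← norm_ne_zero_iff, hb1]; exact one_ne_zero
  refine (div_eq_one_iff_eq hb0).1 (eq_one_of_pow_eq_one hm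
    (by rw [div_pow, ha, hb, one_div, inv_one]) ?_)
  rw [div_sub_one hb0, norm_div, hb1, div_one]
  exact h

theorem frobenius_rootOfUnity {τ : Gloc q} {N : ℕ}
    (hτ : ∀ x, ‖x‖ ≤ 1 → ‖τ x - x ^ N‖ < 1) {ζ : PadicAlgCl (q : ℕ)} {m : ℕ}
    (hm : ¬ (q : ℕ) ∣ m) (hζ : ζ ^ m = 1) : τ ζ = ζ ^ N := by
  have hm0 : m ≠ 0 := fun e => hm (e ▸ dvd_zero _)
  exact eq_of_rootOfUnity_near hm (by rw [← map_pow, hζ, map_one])
    (by rw [← pow_mul, mul_comm, pow_mul, hζ, one_pow])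
    (hτ ζ (norm_eq_one_of_pow_eq_one hm0 hζ).le)

/-- Tame extensions by roots of units are unramified. -/
theorem fixed_of_inertial_of_pow {τ : Gloc q} (hτ : IsInertial τ) {y c : PadicAlgCl (q : ℕ)}
    {m : ℕ} (hm : ¬ (q : ℕ) ∣ m) (hy : τ (y ^ m) = y ^ m) (hc : τ c = c) (hn : ‖y‖ = ‖c‖) :
    τ y = y := by
  rcases eq_or_ne y 0 with rfl | hy0
  · simp
  have hc0 : c ≠ 0 := by rw [← norm_ne_zero_iff, ← hn, norm_ne_zero_iff]; exact hy0
  have hu : ‖y / c‖ = 1 := by rw [norm_div, hn, div_self (norm_ne_zero_iff.2 hc0)]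
  have hu0 : y / c ≠ 0 := div_ne_zero hy0 hc0
  have hfix : (τ (y / c) / (y / c)) ^ m = 1 := by
    rw [div_pow, ← map_pow, div_pow y c m, map_div₀, hy, map_pow, hc,
      div_self (div_ne_zero (pow_ne_zero _ hy0) (pow_ne_zero _ hc0))]
  have h1 : τ (y / c) / (y / c) = 1 := eq_one_of_pow_eq_one hm hfix <| by
    rw [div_sub_one hu0, norm_div, hu, div_one]
    exact hτ _ hu.le
  rw [div_eq_one_iff_eq hu0, map_div₀, hc, div_left_inj' hc0] at h1
  exact h1

variable (K : LocalField q) [FiniteDimensional ℚ_[(q : ℕ)] K]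

theorem dvd_of_pow_sub_one_dvd {a b c : ℕ} (ha : 1 < a) (h : a ^ b - 1 ∣ a ^ c - 1) : b ∣ c := by
  have h1 := Nat.pow_sub_one_gcd_pow_sub_one a b c
  rw [Nat.gcd_eq_left h] at h1
  have h2 : a ^ b = a ^ Nat.gcd b c := by
    have := Nat.one_le_pow b a (by omega)
    have := Nat.one_le_pow (Nat.gcd b c) a (by omega)
    omega
  rw [Nat.pow_right_injective ha h2]
  exact Nat.gcd_dvd_right b c

/-- Elements congruent to a power of `q` modulo `resDeg`. -/
theorem dvd_of_forall_pow_sub_lt {j : ℕ}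
    (h : ∀ x : K, ‖x‖ ≤ 1 → ‖x - x ^ (q : ℕ) ^ j‖ < 1) : resDeg K ∣ j := by
  obtain ⟨ζ, hζ⟩ := exists_isPrimitiveRoot K
  have hM0 : (q : ℕ) ^ resDeg K - 1 ≠ 0 := by have := one_lt_card_residue K; omega
  have hζm : (ζ : PadicAlgCl (q : ℕ)) ^ ((q : ℕ) ^ resDeg K - 1) = 1 := by
    simpa using congrArg Subtype.val hζ.pow_eq_one
  have hζ1 := norm_eq_one_of_pow_eq_one hM0 hζm
  have hlt : ‖(ζ : PadicAlgCl (q : ℕ)) - (ζ : PadicAlgCl (q : ℕ)) ^ (q : ℕ) ^ j‖ < 1 := by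
    simpa using h ζ hζ1.le
  have e := eq_of_rootOfUnity_near (not_dvd_card_sub_one K) hζm
    (by rw [← pow_mul, mul_comm, pow_mul, hζm, one_pow]) hlt
  refine dvd_of_pow_sub_one_dvd q.2.one_lt (hζ.dvd_of_pow_eq_one _ ?_)
  have h0 : ζ ≠ 0 := hζ.ne_zero hM0
  apply mul_right_cancel₀ h0
  rw [← pow_succ, Nat.sub_add_cancel (Nat.one_le_pow _ _ q.2.pos), one_mul]
  exact Subtype.ext (by simpa using e.symm)

theorem pow_pow_sub_lt {j : ℕ} (hj : resDeg K ∣ j) {x : K} (hx : ‖x‖ ≤ 1) :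
    ‖(x : PadicAlgCl (q : ℕ)) ^ (q : ℕ) ^ j - x‖ < 1 := by
  obtain ⟨t, rfl⟩ := hj
  induction t with
  | zero => simp
  | succ t ih =>
    have hx' : ‖(x : PadicAlgCl (q : ℕ))‖ ≤ 1 := hx
    refine norm_sub_lt_trans ?_ (norm_pow_card_sub_lt K hx : _)
    rw [show resDeg K * (t + 1) = resDeg K * t + resDeg K by ring, pow_add, pow_mul]
    exact norm_pow_sub_pow_lt (by rw [norm_pow]; exact pow_le_one₀ (norm_nonneg _) hx') hx' ih _

theorem exists_endomorphism_eq_pow {k : Type*} [Field k] [Finite k] (l : ℕ) [Fact l.Prime]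
    [CharP k l] (θ : k →+* k) : ∃ j : ℕ, ∀ x, θ x = x ^ l ^ j := by
  letI : Algebra (ZMod l) k := ZMod.algebra _ _
  have hb : Function.Bijective θ := Finite.injective_iff_bijective.1 θ.injective
  let θ' : k →ₐ[ZMod l] k := ⟨θ, fun c => RingHom.congr_fun
    (Subsingleton.elim (θ.comp (algebraMap (ZMod l) k)) (algebraMap _ _)) c⟩
  obtain ⟨j, hj⟩ := (FiniteField.bijective_frobeniusAlgEquivOfAlgebraic_pow (ZMod l) k).2
    (AlgEquiv.ofBijective θ' hb)
  refine ⟨j, fun x => ?_⟩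
  have h := DFunLike.congr_fun hj x
  simp only [AlgEquiv.coe_pow, FiniteField.coe_frobeniusAlgEquivOfAlgebraic_iterate,
    ZMod.card] at h
  exact h.symm

/-- The residual action of an automorphism is a power of Frobenius. -/
theorem exists_residue_pow_algEquiv (g : (↥K) ≃ₐ[ℚ_[(q : ℕ)]] (↥K)) :
    ∃ j : ℕ, ∀ x : K, ‖x‖ ≤ 1 → ‖g x - x ^ (q : ℕ) ^ j‖ < 1 := by
  let ι : intRing K →+* intRing K := ((g : K →+* K).comp (intRing K).subtype).codRestrict
    (intRing K) fun x => (mem_intRing K).2 ((norm_algEquiv K g _).trans_le ((mem_intRing K).1 x.2))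
  have hι : ∀ x ∈ IsLocalRing.maximalIdeal (intRing K),
      ((IsLocalRing.residue (intRing K)).comp ι) x = 0 := fun x hx => by
    rw [RingHom.comp_apply]
    refine (residue_eq_zero_iff K).2 ?_
    have := (residue_eq_zero_iff K).1 ((IsLocalRing.residue_eq_zero_iff x).2 hx)
    show ‖g (x : K)‖ < 1
    rwa [norm_algEquiv]
  let θ₀ : Residue K →+* Residue K := Ideal.Quotient.lift (IsLocalRing.maximalIdeal (intRing K))
    ((IsLocalRing.residue (intRing K)).comp ι) hι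
  have := charP_residue K
  obtain ⟨j, hj⟩ := exists_endomorphism_eq_pow (q : ℕ) θ₀
  refine ⟨j, fun x hx => ?_⟩
  have h := hj (IsLocalRing.residue (intRing K) ⟨x, (mem_intRing K).2 hx⟩)
  rw [← map_pow, show θ₀ (IsLocalRing.residue (intRing K) ⟨x, (mem_intRing K).2 hx⟩) =
    IsLocalRing.residue (intRing K) (ι ⟨x, (mem_intRing K).2 hx⟩) from
      Ideal.Quotient.lift_mk _ _ _] at h
  have h' := (residue_eq_iff K).1 h
  rw [SubmonoidClass.coe_pow] at h'
  exact h'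

/-- The finite Galois field generated by the conjugates. -/
theorem exists_normal_le :
    ∃ E : LocalField q, FiniteDimensional ℚ_[(q : ℕ)] E ∧ Normal ℚ_[(q : ℕ)] E ∧ K ≤ E :=
  ⟨normalClosure ℚ_[(q : ℕ)] K (PadicAlgCl (q : ℕ)), inferInstance, inferInstance,
    IntermediateField.le_normalClosure K⟩

/-- On a finite level the residual action is a power of Frobenius. -/
theorem exists_residue_pow {τ : Gloc q} (hτ : FixesField K τ) (E : LocalField q)
    [FiniteDimensional ℚ_[(q : ℕ)] E] :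
    ∃ j : ℕ, ∀ x ∈ E, ‖x‖ ≤ 1 → ‖τ x - x ^ (q : ℕ) ^ (resDeg K * j)‖ < 1 := by
  obtain ⟨E', hfd, hn, hle⟩ := exists_normal_le (E ⊔ K : LocalField q)
  obtain ⟨j, hj⟩ := exists_residue_pow_algEquiv E' (AlgEquiv.restrictNormalHom E' τ)
  have hj' : ∀ x : E', ‖x‖ ≤ 1 →
      ‖τ (x : PadicAlgCl (q : ℕ)) - (x : PadicAlgCl (q : ℕ)) ^ (q : ℕ) ^ j‖ < 1 := fun x hx => by
    have h := hj x hx
    rw [← show (AlgEquiv.restrictNormalHom E' τ x : PadicAlgCl (q : ℕ)) = τ x from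
      AlgEquiv.restrictNormal_commutes τ E' x]
    simpa using h
  obtain ⟨t, rfl⟩ : resDeg K ∣ j := dvd_of_forall_pow_sub_lt K fun x hx => by
    have h := hj' ⟨x, le_sup_right.trans hle x.2⟩ hx
    rw [show τ (x : PadicAlgCl (q : ℕ)) = x from hτ x] at h
    simpa using h
  exact ⟨t, fun x hx hx1 => hj' ⟨x, le_sup_left.trans hle hx⟩ hx1⟩

theorem exists_rootOfUnity_pow {τ : Gloc q} (hτ : FixesField K τ) {ζ : PadicAlgCl (q : ℕ)}
    {m : ℕ} (hm : ¬ (q : ℕ) ∣ m) (hζ : ζ ^ m = 1) :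
    ∃ j : ℕ, τ ζ = ζ ^ (q : ℕ) ^ (resDeg K * j) := by
  have hm0 : m ≠ 0 := fun e => hm (e ▸ dvd_zero _)
  have : FiniteDimensional ℚ_[(q : ℕ)] (adjoin ℚ_[(q : ℕ)] ({ζ} : Set (PadicAlgCl (q : ℕ)))) :=
    adjoin.finiteDimensional (Algebra.IsIntegral.isIntegral ζ)
  obtain ⟨j, hj⟩ := exists_residue_pow K hτ (adjoin ℚ_[(q : ℕ)] ({ζ} : Set (PadicAlgCl (q : ℕ))))
  refine ⟨j, eq_of_rootOfUnity_near hm (by rw [← map_pow, hζ, map_one])
    (by rw [← pow_mul, mul_comm, pow_mul, hζ, one_pow])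
    (hj ζ (mem_adjoin_simple_self _ ζ) (norm_eq_one_of_pow_eq_one hm0 hζ).le)⟩

/-- Frobenius on one root of unity. -/
theorem exists_fix_frobenius_rootOfUnity {N : ℕ} (hN0 : N ≠ 0) (hN : resDeg K ∣ N)
    {ζ : PadicAlgCl (q : ℕ)} (hζ : IsPrimitiveRoot ζ ((q : ℕ) ^ N - 1)) :
    ∃ τ : Gloc q, FixesField K τ ∧ τ ζ = ζ ^ (q : ℕ) ^ resDeg K := by
  classical
  set M := (q : ℕ) ^ N - 1 with hM
  have hq1 : 1 < (q : ℕ) ^ N := Nat.one_lt_pow hN0 q.2.one_lt
  have hM0 : M ≠ 0 := by omega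
  have hqM : ¬ (q : ℕ) ∣ M := fun h => by
    have h2 := Nat.dvd_sub (dvd_pow_self _ hN0) h
    rw [hM, Nat.sub_sub_self hq1.le] at h2
    exact q.2.ne_one (Nat.dvd_one.1 h2)
  have hint : IsIntegral K ζ := Algebra.IsIntegral.isIntegral ζ
  let E' : IntermediateField K (PadicAlgCl (q : ℕ)) := K⟮ζ⟯
  have : FiniteDimensional K E' := adjoin.finiteDimensional hint
  have : FiniteDimensional ℚ_[(q : ℕ)] E' := FiniteDimensional.trans ℚ_[(q : ℕ)] K E'
  let E : LocalField q := E'.restrictScalars ℚ_[(q : ℕ)]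
  have : FiniteDimensional ℚ_[(q : ℕ)] E := this
  have hKE : K ≤ E := fun x hx => E'.algebraMap_mem ⟨x, hx⟩
  have hζE : ζ ∈ E := mem_adjoin_simple_self K ζ
  have hNE : N ∣ resDeg E := by
    refine dvd_of_pow_sub_one_dvd q.2.one_lt (dvd_of_isPrimitiveRoot E (ζ := ⟨ζ, hζE⟩) hqM ?_)
    exact IsPrimitiveRoot.of_map_of_injective (f := E.val) hζ E.val.injective
  set d := N / resDeg K with hd
  have hd' : resDeg K * d = N := Nat.mul_div_cancel' hN
  have hd0 : d ≠ 0 := fun h => hN0 (by rw [← hd', h, mul_zero])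
  have hdeg : d ≤ (minpoly K ζ).natDegree := by
    have h1 : Module.finrank ℚ_[(q : ℕ)] K * (minpoly K ζ).natDegree =
        Module.finrank ℚ_[(q : ℕ)] E := by
      rw [← adjoin.finrank hint]
      exact Module.finrank_mul_finrank ℚ_[(q : ℕ)] K E'
    rw [← ramIdx_mul_resDeg K, ← ramIdx_mul_resDeg E] at h1
    refine Nat.le_of_mul_le_mul_left ?_ (Nat.mul_pos (ramIdx_pos K) (resDeg_pos K))
    rw [h1, mul_assoc, hd']
    exact Nat.mul_le_mul (Nat.le_of_dvd (ramIdx_pos E) (ramIdx_dvd hKE))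
      (Nat.le_of_dvd (resDeg_pos E) hNE)
  let c : ℕ → PadicAlgCl (q : ℕ) := fun j => ζ ^ (q : ℕ) ^ (resDeg K * j)
  have hconj : (minpoly K ζ).rootSet (PadicAlgCl (q : ℕ)) ⊆
      ↑((Finset.range d).image c) := by
    intro η hη
    rw [Polynomial.mem_rootSet] at hη
    obtain ⟨σ, hσ⟩ := minpoly.exists_algEquiv_of_root' hint.isAlgebraic hη.2
    obtain ⟨j, hj⟩ := exists_rootOfUnity_pow K (τ := σ.restrictScalars ℚ_[(q : ℕ)])
      (fun x => σ.commutes x) hqM hζ.pow_eq_one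
    refine Finset.mem_image.2 ⟨j % d, Finset.mem_range.2 (Nat.mod_lt _ (Nat.pos_of_ne_zero hd0)), ?_⟩
    change σ ζ = _ at hj
    rw [← hσ, hj]
    have : ζ ^ (q : ℕ) ^ N = ζ := by
      rw [show (q : ℕ) ^ N = M + 1 by omega, pow_succ, hζ.pow_eq_one, one_mul]
    have hper : ∀ k : ℕ, ζ ^ ((q : ℕ) ^ N) ^ k = ζ := fun k => by
      induction k with
      | zero => simp
      | succ k ih => rw [pow_succ, pow_mul, ih, this]
    show ζ ^ (q : ℕ) ^ (resDeg K * (j % d)) = _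
    conv_rhs => rw [← Nat.mod_add_div j d, mul_add, ← mul_assoc, hd', add_comm, pow_add,
      pow_mul _ N, pow_mul, hper]
  have hmem : c 1 ∈ (minpoly K ζ).rootSet (PadicAlgCl (q : ℕ)) := by
    have hcard : Fintype.card ((minpoly K ζ).rootSet (PadicAlgCl (q : ℕ))) =
        (minpoly K ζ).natDegree :=
      Polynomial.card_rootSet_eq_natDegree (Algebra.IsSeparable.isSeparable K ζ)
        (IsAlgClosed.splits _)
    have heq : ((minpoly K ζ).rootSet (PadicAlgCl (q : ℕ))).toFinset =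
        (Finset.range d).image c := by
      refine Finset.eq_of_subset_of_card_le (by simpa [Set.subset_def] using hconj) ?_
      rw [Set.toFinset_card, hcard]
      exact (Finset.card_image_le.trans (Finset.card_range d).le).trans hdeg
    rw [← Set.mem_toFinset, heq, Finset.mem_image]
    rcases eq_or_ne d 1 with h | h
    · refine ⟨0, Finset.mem_range.2 (Nat.pos_of_ne_zero hd0), ?_⟩
      have hN' : resDeg K = N := by rw [← hd', h, mul_one]
      simp only [c, mul_zero, pow_zero, pow_one, mul_one, hN']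
      rw [show (q : ℕ) ^ N = M + 1 by omega, pow_succ, hζ.pow_eq_one, one_mul]
    · exact ⟨1, Finset.mem_range.2
        (lt_of_le_of_ne (Nat.one_le_iff_ne_zero.2 hd0) (Ne.symm h)), rfl⟩
  obtain ⟨σ, hσ⟩ := minpoly.exists_algEquiv_of_root' hint.isAlgebraic
    ((Polynomial.mem_rootSet).1 hmem).2
  exact ⟨σ.restrictScalars ℚ_[(q : ℕ)], fun x => σ.commutes x, by simpa [c] using hσ⟩

/-- Compactness of the local Galois group. -/
theorem exists_gloc_of_finite (P : PadicAlgCl (q : ℕ) → PadicAlgCl (q : ℕ) → Prop)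
    (h : ∀ s : Finset (PadicAlgCl (q : ℕ)), ∃ τ : Gloc q, ∀ x ∈ s, P x (τ x)) :
    ∃ τ : Gloc q, ∀ x, P x (τ x) := by
  have hclosed : ∀ x, IsClosed {τ : Gloc q | P x (τ x)} := fun x => by
    rw [← isOpen_compl_iff, isOpen_iff_forall_mem_open]
    intro τ hτ
    refine ⟨(fun σ => τ * σ) '' (MulAction.stabilizer (Gloc q) x : Set (Gloc q)), ?_,
      (stabilizer_isOpen_of_isIntegral x).leftCoset τ, ⟨1, one_mem _, mul_one τ⟩⟩
    rintro _ ⟨σ, hσ, rfl⟩
    change ¬ P x (τ (σ x))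
    rw [show σ x = x from hσ]
    exact hτ
  have := CompactSpace.iInter_nonempty (X := Gloc q) hclosed fun s => by
    obtain ⟨τ, hτ⟩ := h s
    exact ⟨τ, Set.mem_iInter₂.2 hτ⟩
  obtain ⟨τ, hτ⟩ := this
  exact ⟨τ, Set.mem_iInter.1 hτ⟩

theorem exists_frobenius : ∃ τ : Gloc q, FixesField K τ ∧
    ∀ x, ‖x‖ ≤ 1 → ‖τ x - x ^ (q : ℕ) ^ resDeg K‖ < 1 := by
  obtain ⟨τ, hτ⟩ := exists_gloc_of_finite (q := q)
    (fun x y => (x ∈ K → y = x) ∧ (‖x‖ ≤ 1 → ‖y - x ^ (q : ℕ) ^ resDeg K‖ < 1)) fun s => by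
    let E : LocalField q := adjoin ℚ_[(q : ℕ)] (s : Set (PadicAlgCl (q : ℕ))) ⊔ K
    have : FiniteDimensional ℚ_[(q : ℕ)]
        (adjoin ℚ_[(q : ℕ)] (s : Set (PadicAlgCl (q : ℕ)))) :=
      IntermediateField.finiteDimensional_adjoin fun x _ => Algebra.IsIntegral.isIntegral x
    obtain ⟨ζ, hζ⟩ := exists_isPrimitiveRoot E
    obtain ⟨τ, hτK, hτζ⟩ := exists_fix_frobenius_rootOfUnity K (resDeg_pos E).ne'
      (resDeg_dvd le_sup_right) (ζ := (ζ : PadicAlgCl (q : ℕ)))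
      (hζ.map_of_injective (f := E.val) E.val.injective)
    refine ⟨τ, fun x hxs => ⟨fun hx => hτK ⟨x, hx⟩, fun hx => ?_⟩⟩
    have hxE : x ∈ E := (le_sup_left : _ ≤ E) (subset_adjoin _ _ hxs)
    rcases hx.lt_or_eq with hlt | heq
    · rw [sub_eq_add_neg]
      refine (IsUltrametricDist.norm_add_le_max _ _).trans_lt (max_lt ?_ ?_)
      · rwa [norm_gloc]
      · rw [norm_neg, norm_pow]
        exact pow_lt_one₀ (norm_nonneg _) hlt (pow_ne_zero _ q.2.ne_zero)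
    · have hne : NeZero ((q : ℕ) ^ resDeg E - 1) :=
        ⟨by have := one_lt_card_residue E; omega⟩
      obtain ⟨η, hη, hxη⟩ := exists_rootOfUnity_sub_lt E (x := ⟨x, hxE⟩) heq
      obtain ⟨i, -, rfl⟩ := hζ.eq_pow_of_pow_eq_one hη
      have hxη' : ‖x - (ζ : PadicAlgCl (q : ℕ)) ^ i‖ < 1 := by simpa using hxη
      have hη1 : ‖(ζ : PadicAlgCl (q : ℕ)) ^ i‖ ≤ 1 :=
        (norm_eq_one_of_pow_eq_one hne.out (by simpa using congrArg Subtype.val hη)).le
      refine norm_sub_lt_trans (b := τ ((ζ : PadicAlgCl (q : ℕ)) ^ i)) ?_ ?_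
      · rwa [← map_sub, norm_gloc]
      · rw [map_pow, hτζ, ← pow_mul, mul_comm, pow_mul]
        exact norm_pow_sub_pow_lt hη1 hx (norm_sub_lt_symm hxη') _
  exact ⟨τ, fun x => (hτ x).1 x.2, fun x => (hτ x).2⟩

/-- Inertia surjects to the inertia of every finite level. -/
theorem exists_inertial_agree {τ : Gloc q}
    (h : ∀ x : K, ‖x‖ ≤ 1 → ‖τ x - x‖ < 1) :
    ∃ τ' : Gloc q, IsInertial τ' ∧ ∀ x : K, τ' x = τ x := by
  obtain ⟨φ, hφK, hφ⟩ := exists_frobenius K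
  obtain ⟨τ', hτ'⟩ := exists_gloc_of_finite (q := q)
    (fun x y => (x ∈ K → y = τ x) ∧ (‖x‖ ≤ 1 → ‖y - x‖ < 1)) fun s => by
    let E : LocalField q := adjoin ℚ_[(q : ℕ)] (s : Set (PadicAlgCl (q : ℕ))) ⊔ K
    have : FiniteDimensional ℚ_[(q : ℕ)]
        (adjoin ℚ_[(q : ℕ)] (s : Set (PadicAlgCl (q : ℕ)))) :=
      IntermediateField.finiteDimensional_adjoin fun x _ => Algebra.IsIntegral.isIntegral x
    have : FiniteDimensional ℚ_[(q : ℕ)] (⊥ : LocalField q) := inferInstance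
    obtain ⟨i, hi⟩ := exists_residue_pow (⊥ : LocalField q)
      (τ := τ) (fun x => by
        obtain ⟨a, ha⟩ := IntermediateField.mem_bot.1 x.2
        rw [← ha]; exact τ.commutes a) E
    set j := resDeg (⊥ : LocalField q) * i
    obtain ⟨a, ha⟩ : resDeg K ∣ j := dvd_of_forall_pow_sub_lt K fun x hx => by
      have := norm_sub_lt_trans (norm_sub_lt_symm (h x hx))
        (hi x ((le_sup_right : _ ≤ E) x.2) hx)
      simpa using this
    obtain ⟨b, hb⟩ : resDeg K ∣ resDeg E := resDeg_dvd le_sup_right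
    have hb0 : 0 < b := Nat.pos_of_ne_zero fun e => (resDeg_pos E).ne' (by rw [hb, e, mul_zero])
    set m := (b - 1) * a
    have hiter : ∀ (n : ℕ) (x : PadicAlgCl (q : ℕ)), ‖x‖ ≤ 1 →
        ‖(φ ^ n) x - x ^ (q : ℕ) ^ (resDeg K * n)‖ < 1 := by
      intro n
      induction n with
      | zero => intro x _; simp
      | succ n ih =>
        intro x hx
        rw [pow_succ', AlgEquiv.mul_apply, show resDeg K * (n + 1) = resDeg K * n + resDeg K by ring,
          pow_add, pow_mul]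
        refine norm_sub_lt_trans ?_ (norm_pow_sub_pow_lt (by rwa [norm_gloc])
          (by rw [norm_pow]; exact pow_le_one₀ (norm_nonneg _) hx) (ih x hx) _)
        exact hφ _ (by rwa [norm_gloc])
    refine ⟨τ * φ ^ m, fun x hxs => ⟨fun hx => ?_, fun hx => ?_⟩⟩
    · rw [AlgEquiv.mul_apply]
      congr 1
      have : ∀ n : ℕ, (φ ^ n) x = x := fun n => by
        induction n with
        | zero => simp
        | succ n ih => rw [pow_succ', AlgEquiv.mul_apply, ih]; exact hφK ⟨x, hx⟩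
      exact this m
    · have hxE : x ∈ E := (le_sup_left : _ ≤ E) (subset_adjoin _ _ hxs)
      have h1 : ‖τ ((φ ^ m) x) - τ (x ^ (q : ℕ) ^ (resDeg K * m))‖ < 1 := by
        rw [← map_sub, norm_gloc]; exact hiter m x hx
      have hp1 : ‖x ^ (q : ℕ) ^ (resDeg K * m)‖ ≤ 1 := by
        rw [norm_pow]; exact pow_le_one₀ (norm_nonneg _) hx
      have h2 := hi _ (pow_mem hxE ((q : ℕ) ^ (resDeg K * m))) hp1
      rw [AlgEquiv.mul_apply]
      refine norm_sub_lt_trans h1 (norm_sub_lt_trans h2 ?_)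
      rw [← pow_mul, ← pow_add]
      have hdiv : resDeg E ∣ resDeg K * m + j := ⟨a, by
        rw [hb, ha, ← mul_add, mul_assoc]
        congr 1
        calc (b - 1) * a + a = (b - 1 + 1) * a := by ring
          _ = b * a := by rw [Nat.sub_add_cancel hb0]⟩
      exact pow_pow_sub_lt E hdiv (x := ⟨x, hxE⟩) hx
  exact ⟨τ', fun x => (hτ' x).2, fun x => (hτ' x).1 x.2⟩

end FermatLib.CFT.Loc
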