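import Fermat.Agent.CFT.IdeleLocalField
import Fermat.Agent.CFT.LocalFrobenius

/-!
The completion of a number field at the place of an embedding in `PadicAlgCl q`.
-/

set_option autoImplicit false
set_option linter.unusedSectionVars false

namespace FermatLib.CFT

variable {L : Type} [Field L] [NumberField L] {q : Nat.Primes}

/-- The underlying element of a value of an idele. -/
noncomputable abbrev QUnits.el (x : QUnits q) : PadicAlgCl (q : ℕ) :=
  ((x.toMul : (PadicAlgCl (q : ℕ))ˣ) : PadicAlgCl (q : ℕ))

theorem apply_mem_completion (φ : Emb L q) (x : L) : φ x ∈ completion φ :=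
  IntermediateField.subset_adjoin _ _ ⟨x, rfl⟩

/-- The embedding as a ring map to the completion. -/
noncomputable def toCompletion (φ : Emb L q) : L →+* completion φ :=
  φ.codRestrict (completion φ) (apply_mem_completion φ)

@[simp] theorem coe_toCompletion (φ : Emb L q) (x : L) :
    (toCompletion φ x : PadicAlgCl (q : ℕ)) = φ x := rfl

instance completion_finiteDimensional (φ : Emb L q) :
    FiniteDimensional ℚ_[(q : ℕ)] (completion φ) := by
  let b := Module.Free.chooseBasis ℚ L
  have h : completion φ = IntermediateField.adjoin ℚ_[(q : ℕ)] (Set.range fun i => φ (b i)) := by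
    refine le_antisymm (IntermediateField.adjoin_le_iff.2 ?_) (IntermediateField.adjoin.mono _ _ _ ?_)
    · rintro _ ⟨x, rfl⟩
      rw [← b.sum_repr x, map_sum]
      refine sum_mem fun i _ => ?_
      rw [Algebra.smul_def, map_mul]
      refine mul_mem ?_ (IntermediateField.subset_adjoin _ _ ⟨i, rfl⟩)
      rw [eq_ratCast, map_ratCast]
      exact SubfieldClass.ratCast_mem _ _
    · rintro _ ⟨i, rfl⟩
      exact ⟨b i, rfl⟩
  rw [h]
  exact IntermediateField.finiteDimensional_adjoin fun x _ => Algebra.IsIntegral.isIntegral x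

/-- An automorphism fixes the completion iff it fixes the embedding. -/
theorem fixesField_completion_iff (φ : Emb L q) (τ : Gloc q) :
    Loc.FixesField (completion φ) τ ↔ φ.postComp τ = φ := by
  refine ⟨fun h => RingHom.ext fun x => h ⟨φ x, apply_mem_completion φ x⟩, fun h => ?_⟩
  have hle : completion φ ≤ IntermediateField.fixedField (Subgroup.zpowers τ) := by
    rw [IntermediateField.adjoin_le_iff]
    rintro _ ⟨x, rfl⟩
    intro g
    obtain ⟨g, hg⟩ := g
    change g (φ x) = φ x
    have hfix : τ ∈ MulAction.stabilizer (Gloc q) (φ x) := RingHom.congr_fun h x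
    exact (Subgroup.zpowers_le.2 hfix) hg
  intro x
  exact (hle x.2) ⟨τ, Subgroup.mem_zpowers τ⟩

/-- Values of ideles lie in the completion. -/
theorem idele_apply_mem_completion (f : Idele L) (φ : Emb L q) :
    (f.fin q φ).el ∈ completion φ := by
  rw [← InfiniteGalois.fixedField_fixingSubgroup (completion φ)]
  rintro ⟨τ, hτ⟩
  have h : φ.postComp τ = φ :=
    (fixesField_completion_iff φ τ).1 ((Loc.fixesField_iff _ τ).2 hτ)
  have := f.2.1 q τ φ
  rw [h] at this
  change τ ((f.fin q φ).el) = (f.fin q φ).el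
  conv_rhs => rw [Idele.fin, this]
  rfl

theorem completion_eq_localField_bot (φ : Emb L q) :
    completion φ = localField (⊥ : Subgroup (L ≃ₐ[ℚ] L)) φ := by
  rw [localField, show (IntermediateField.fixedField (⊥ : Subgroup (L ≃ₐ[ℚ] L)) : Set L) = Set.univ
    from Set.eq_univ_of_forall mem_fixedField_bot, Set.image_univ]

/-- The completion is the closure of the image. -/
theorem exists_norm_sub_lt (φ : Emb L q) {y : PadicAlgCl (q : ℕ)} (hy : y ∈ completion φ)
    {ε : ℝ} (hε : 0 < ε) : ∃ x : L, ‖φ x - y‖ < ε := by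
  rw [completion_eq_localField_bot] at hy
  obtain ⟨x, -, hx⟩ := exists_norm_sub_lt_fixed ⊥ φ hy hε
  exact ⟨x, hx⟩

/-- Two embeddings give the same place iff they induce the same absolute value. -/
theorem samePlace_iff_norm (φ ψ : Emb L q) : φ.SamePlace ψ ↔ ∀ x : L, ‖φ x‖ = ‖ψ x‖ :=
  samePlace_iff_norm_eq φ ψ

section Galois

variable [IsGalois ℚ L]

/-- All embeddings differ by automorphisms. -/
theorem exists_preComp_eq (φ ψ : Emb L q) : ∃ g : L ≃ₐ[ℚ] L, φ.preComp g = ψ := by
  have hbij : Function.Bijective fun g : L ≃ₐ[ℚ] L => φ.preComp g := by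
    refine (Fintype.bijective_iff_injective_and_card _).2 ⟨fun g h e => AlgEquiv.ext fun x =>
      φ.injective (RingHom.congr_fun e x), ?_⟩
    rw [NumberField.Embeddings.card, ← Nat.card_eq_fintype_card, IsGalois.card_aut_eq_finrank]
  exact hbij.2 ψ

instance completion_normal (φ : Emb L q) : Normal ℚ_[(q : ℕ)] (completion φ) := by
  rw [IntermediateField.normal_iff_forall_map_le']
  intro τ
  rw [IntermediateField.map_le_iff_le_comap, IntermediateField.adjoin_le_iff]
  rintro _ ⟨x, rfl⟩
  obtain ⟨g, hg⟩ := exists_preComp_eq φ (φ.postComp τ)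
  change τ (φ x) ∈ completion φ
  have : φ (g x) = τ (φ x) := RingHom.congr_fun hg x
  rw [← this]
  exact apply_mem_completion φ _

instance completion_isGalois (φ : Emb L q) : IsGalois ℚ_[(q : ℕ)] (completion φ) :=
  ⟨⟩

theorem preComp_eq_postComp (φ : Emb L q) (g : decompGroup φ) :
    φ.postComp (Classical.choose g.2) = φ.preComp g :=
  Classical.choose_spec g.2

theorem coe_restrict_completion (φ : Emb L q) (τ : Gloc q) (y : completion φ) :
    (AlgEquiv.restrictNormalHom (completion φ) τ y : PadicAlgCl (q : ℕ)) = τ y :=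
  AlgEquiv.restrictNormal_commutes τ (completion φ) y

theorem eq_of_restrict_eq (φ : Emb L q) {τ : Gloc q} {g : L ≃ₐ[ℚ] L}
    (h : φ.postComp τ = φ.preComp g) (x : L) :
    AlgEquiv.restrictNormalHom (completion φ) τ (toCompletion φ x) = toCompletion φ (g x) :=
  Subtype.ext ((coe_restrict_completion φ τ _).trans (RingHom.congr_fun h x))

theorem algEquiv_ext_toCompletion (φ : Emb L q)
    {σ σ' : (completion φ) ≃ₐ[ℚ_[(q : ℕ)]] (completion φ)}
    (h : ∀ x, σ (toCompletion φ x) = σ' (toCompletion φ x)) : σ = σ' := by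
  have : σ.toAlgHom = σ'.toAlgHom :=
    IntermediateField.algHom_ext_of_eq_adjoin ℚ_[(q : ℕ)] (S := completion φ) (s := Set.range φ) rfl
      fun x hx => by obtain ⟨y, rfl⟩ := hx; exact h y
  exact AlgEquiv.ext fun y => DFunLike.congr_fun this y

/-- The map from the decomposition group to the local Galois group. -/
noncomputable def decompHom (φ : Emb L q) :
    decompGroup φ →* ((completion φ) ≃ₐ[ℚ_[(q : ℕ)]] (completion φ)) where
  toFun g := AlgEquiv.restrictNormalHom (completion φ) (Classical.choose g.2)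
  map_one' := algEquiv_ext_toCompletion φ fun x => by
    rw [eq_of_restrict_eq φ (preComp_eq_postComp φ 1) x]; rfl
  map_mul' g h := algEquiv_ext_toCompletion φ fun x => by
    rw [eq_of_restrict_eq φ (preComp_eq_postComp φ (g * h)) x, AlgEquiv.mul_apply,
      eq_of_restrict_eq φ (preComp_eq_postComp φ h) x,
      eq_of_restrict_eq φ (preComp_eq_postComp φ g) ((h : L ≃ₐ[ℚ] L) x)]
    rfl

theorem decompHom_bijective (φ : Emb L q) : Function.Bijective (decompHom φ) := by
  refine ⟨(injective_iff_map_eq_one _).2 fun g hg => Subtype.ext (AlgEquiv.ext fun x => ?_),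
    fun σ => ?_⟩
  · have h := eq_of_restrict_eq φ (preComp_eq_postComp φ g) x
    rw [show AlgEquiv.restrictNormalHom (completion φ) (Classical.choose g.2) = 1 from hg] at h
    exact (φ.injective (congrArg Subtype.val h)).symm
  · obtain ⟨τ, rfl⟩ := AlgEquiv.restrictNormalHom_surjective (PadicAlgCl (q : ℕ)) σ
    obtain ⟨g, hg⟩ := exists_preComp_eq φ (φ.postComp τ)
    refine ⟨⟨g, τ, hg.symm⟩, algEquiv_ext_toCompletion φ fun x => ?_⟩
    rw [eq_of_restrict_eq φ hg.symm x]
    exact eq_of_restrict_eq φ (preComp_eq_postComp φ _) x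

/-- The decomposition group is the local Galois group. -/
noncomputable def decompEquiv (φ : Emb L q) :
    decompGroup φ ≃* ((completion φ) ≃ₐ[ℚ_[(q : ℕ)]] (completion φ)) :=
  MulEquiv.ofBijective (decompHom φ) (decompHom_bijective φ)

@[simp] theorem decompEquiv_apply (φ : Emb L q) (g : decompGroup φ) (x : L) :
    decompEquiv φ g (toCompletion φ x) = toCompletion φ ((g : L ≃ₐ[ℚ] L) x) :=
  eq_of_restrict_eq φ (preComp_eq_postComp φ g) x

/-- Inertia corresponds to inertia. -/
theorem mem_inertiaGroup_iff (φ : Emb L q) (g : decompGroup φ) :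
    (g : L ≃ₐ[ℚ] L) ∈ inertiaGroup φ ↔ decompEquiv φ g ∈ Loc.inertia (completion φ) := by
  refine ⟨fun hg y hy => ?_, fun hg => ⟨g.2, fun x hx => ?_⟩⟩
  · obtain ⟨x, hx⟩ := exists_norm_sub_lt φ y.2 zero_lt_one
    have hx' : ‖toCompletion φ x - y‖ < 1 := hx
    have hx1 : ‖toCompletion φ x‖ ≤ 1 := by
      have e : toCompletion φ x = (toCompletion φ x - y) + y := by ring
      rw [e]
      exact (IsUltrametricDist.norm_add_le_max _ _).trans (max_le hx'.le hy)
    have h1 : ‖decompEquiv φ g (toCompletion φ x) - toCompletion φ x‖ < 1 := by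
      rw [decompEquiv_apply]
      exact hg.2 x hx1
    have e : decompEquiv φ g y - y =
        -(decompEquiv φ g (toCompletion φ x - y)) +
          ((decompEquiv φ g (toCompletion φ x) - toCompletion φ x) + (toCompletion φ x - y)) := by
      rw [map_sub]; ring
    rw [e]
    refine (IsUltrametricDist.norm_add_le_max _ _).trans_lt (max_lt ?_
      ((IsUltrametricDist.norm_add_le_max _ _).trans_lt (max_lt h1 hx')))
    rwa [norm_neg, Loc.norm_algEquiv]
  · have := hg (toCompletion φ x) hx
    rw [decompEquiv_apply] at this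
    exact this

end Galois

end FermatLib.CFT
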