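import Fermat.Agent.CFT.IdelePlaces
import Fermat.Agent.CFT.LocalPlace

/-!
The local module as the multiplicative group of the completion.
-/

set_option autoImplicit false

open NumberField

namespace FermatLib.CFT

variable {L : Type} [Field L] [NumberField L] {q : Nat.Primes}

theorem localField_bot_eq_completion (φ : Emb L q) :
    localField (⊥ : Subgroup (L ≃ₐ[ℚ] L)) φ = completion φ := by
  refine le_antisymm (IntermediateField.adjoin.mono _ _ _ (Set.image_subset_range _ _))
    (IntermediateField.adjoin_le_iff.2 ?_)
  rintro _ ⟨x, rfl⟩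
  exact apply_mem_localField_bot φ x

theorem localField_le_completion (H : Subgroup (L ≃ₐ[ℚ] L)) (φ : Emb L q) :
    localField H φ ≤ completion φ :=
  (localField_bot_eq_completion φ) ▸ localField_antitone bot_le φ

variable [IsGalois ℚ L]

/-- A local automorphism inducing `g` restricts to `decompEquiv φ g`. -/
theorem decompEquiv_eq_gloc (φ : Emb L q) (g : decompGroup φ) {τ : Gloc q}
    (hτ : φ.postComp τ = φ.preComp g) (y : completion φ) :
    (decompEquiv φ g y : PadicAlgCl (q : ℕ)) = τ y := by
  have h : decompEquiv φ g = AlgEquiv.restrictNormalHom (completion φ) τ :=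
    algEquiv_ext_toCompletion φ fun x => by rw [decompEquiv_apply, eq_of_restrict_eq φ hτ]
  rw [h, coe_restrict_completion]

theorem localField_eq_fixed (H : Subgroup (L ≃ₐ[ℚ] L)) (φ : Emb L q) (y : completion φ) :
    (y : PadicAlgCl (q : ℕ)) ∈ localField H φ ↔
      ∀ g : decompGroup φ, (g : L ≃ₐ[ℚ] L) ∈ H → decompEquiv φ g y = y := by
  rw [mem_localField_iff]
  constructor
  · intro h g hg
    obtain ⟨τ, hτ⟩ := g.2
    exact Subtype.ext ((decompEquiv_eq_gloc φ g hτ y).trans (h τ ⟨g, hg, hτ⟩))
  · rintro h τ ⟨g, hg, hτ⟩
    rw [← decompEquiv_eq_gloc φ ⟨g, τ, hτ⟩ hτ, h ⟨g, τ, hτ⟩ hg]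

/-- The completion of `L^H` as the fixed field of a group of local automorphisms. -/
theorem restrict_localField_eq (H : Subgroup (L ≃ₐ[ℚ] L)) (φ : Emb L q) :
    IntermediateField.restrict (localField_le_completion H φ) =
      IntermediateField.fixedField ((H.subgroupOf (decompGroup φ)).map
        (decompEquiv φ).toMonoidHom) := by
  ext y
  rw [IntermediateField.mem_restrict, IntermediateField.mem_fixedField_iff, localField_eq_fixed]
  constructor
  · rintro h _ ⟨g, hg, rfl⟩
    exact h g hg
  · exact fun h g hg => h _ ⟨g, hg, rfl⟩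

theorem finrank_localField (H : Subgroup (L ≃ₐ[ℚ] L)) (φ : Emb L q) :
    Module.finrank ℚ_[(q : ℕ)] (localField H φ) * Nat.card ↥(decompGroup φ ⊓ H) =
      Nat.card (decompGroup φ) := by
  let P : Subgroup ((completion φ) ≃ₐ[ℚ_[(q : ℕ)]] (completion φ)) :=
    (H.subgroupOf (decompGroup φ)).map (decompEquiv φ).toMonoidHom
  have hcardP : Nat.card P = Nat.card ↥(decompGroup φ ⊓ H) := by
    refine (Nat.card_congr
      (Subgroup.equivMapOfInjective _ _ (decompEquiv φ).injective).toEquiv).symm.trans ?_
    exact Nat.card_congr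
      { toFun := fun g => ⟨(g.1 : L ≃ₐ[ℚ] L), g.1.2, g.2⟩
        invFun := fun g => ⟨⟨g.1, g.2.1⟩, g.2.2⟩
        left_inv := fun _ => rfl
        right_inv := fun _ => rfl }
  have h1 := Module.finrank_mul_finrank ℚ_[(q : ℕ)]
    (IntermediateField.restrict (localField_le_completion H φ)) (completion φ)
  have h2 : Module.finrank (IntermediateField.restrict (localField_le_completion H φ)) (completion φ) =
      Nat.card P := by
    rw [restrict_localField_eq, IntermediateField.finrank_fixedField_eq_card]
  rw [h2, hcardP, ← (IntermediateField.restrictAlgEquiv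
    (localField_le_completion H φ)).toLinearEquiv.finrank_eq] at h1
  rw [h1, Nat.card_congr (decompEquiv φ).toEquiv, IsGalois.card_aut_eq_finrank]

theorem localPartVal_mem_completion (φ : Emb L q) (f : localPart φ) :
    (localPartVal φ f).toField ∈ completion φ :=
  localField_bot_eq_completion φ ▸ fin_mem_localField_bot f.1 φ

/-- The value of the local module in the completion. -/
noncomputable def localPartHom (φ : Emb L q) : localPart φ →+ LocUnits (completion φ) :=
  AddMonoidHom.mk' (fun f => LocUnits.mk0 ⟨_, localPartVal_mem_completion φ f⟩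
    fun h => QUnits.toField_ne_zero _ (congrArg Subtype.val h))
    fun a b => LocUnits.ext' (Subtype.ext (by
      rw [LocUnits.el_add, LocUnits.el_mk0, LocUnits.el_mk0, LocUnits.el_mk0]
      exact congrArg QUnits.toField (map_add (localPartVal φ) a b)))

theorem localPartHom_bijective (φ : Emb L q) : Function.Bijective (localPartHom φ) := by
  refine ⟨fun a b h => localPartVal_injective φ (QUnits.toField_injective
    (congrArg (fun z : LocUnits (completion φ) => (z.el : PadicAlgCl (q : ℕ))) h)), fun y => ?_⟩
  have hne : (y.el : PadicAlgCl (q : ℕ)) ≠ 0 := fun h => y.el_ne_zero (Subtype.ext h)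
  obtain ⟨f, hf⟩ := (mem_range_localPartVal φ (Additive.ofMul (Units.mk0 _ hne))).2
    (by rw [localField_bot_eq_completion]; exact y.el.2)
  exact ⟨f, LocUnits.ext' (Subtype.ext (congrArg QUnits.toField hf))⟩

/-- The local module is the multiplicative group of the completion. -/
noncomputable def localPartEquiv (φ : Emb L q) : localPart φ ≃+ LocUnits (completion φ) :=
  AddEquiv.ofBijective (localPartHom φ) (localPartHom_bijective φ)

theorem localPartEquiv_el (φ : Emb L q) (f : localPart φ) :
    ((localPartEquiv φ f).el : PadicAlgCl (q : ℕ)) = (localPartVal φ f).toField := rfl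

theorem localPartEquiv_smul (φ : Emb L q) (g : decompGroup φ) (f : localPart φ) :
    localPartEquiv φ (g • f) = decompEquiv φ g • localPartEquiv φ f := by
  obtain ⟨τ, hτ⟩ := g.2
  refine LocUnits.ext' (Subtype.ext ?_)
  rw [localPartEquiv_el, LocUnits.el_smul, decompEquiv_eq_gloc φ g hτ, localPartVal_smul φ g hτ,
    QUnits.toField_onUnits, localPartEquiv_el]

end FermatLib.CFT
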