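import Fermat.Agent.CFT.IdeleLocalField

/-!
The prime of the ring of integers at an embedding; arbitrary number fields.
-/

set_option autoImplicit false

open NumberField IsDedekindDomain

namespace FermatLib.CFT

variable {K : Type} [Field K] [NumberField K] {q : Nat.Primes}

/-- The ideal of integers of absolute value less than one. -/
noncomputable def Emb.primeIdeal (φ : Emb K q) : Ideal (𝓞 K) where
  carrier := {a | ‖φ (a : K)‖ < 1}
  zero_mem' := by simp
  add_mem' := fun {a b} ha hb => by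
    change ‖φ ((a : K) + (b : K))‖ < 1
    rw [map_add]
    exact (IsUltrametricDist.norm_add_le_max _ _).trans_lt (max_lt ha hb)
  smul_mem' := fun c a ha => by
    change ‖φ ((c : K) * (a : K))‖ < 1
    rw [map_mul, norm_mul]
    exact (mul_le_of_le_one_left (norm_nonneg _)
      (φ.norm_le_one_of_isIntegral (RingOfIntegers.isIntegral_coe c))).trans_lt ha

theorem norm_natCast_self (q : Nat.Primes) :
    ‖((q : ℕ) : PadicAlgCl (q : ℕ))‖ = ((q : ℕ) : ℝ)⁻¹ := by
  rw [← map_natCast (algebraMap ℚ_[(q : ℕ)] (PadicAlgCl (q : ℕ))), PadicAlgCl.norm_extends,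
    Padic.norm_p]

theorem norm_natCast_self_lt_one (q : Nat.Primes) :
    ‖((q : ℕ) : PadicAlgCl (q : ℕ))‖ < 1 := by
  rw [norm_natCast_self]
  exact inv_lt_one_of_one_lt₀ (by exact_mod_cast q.2.one_lt)

/-- The prime of `𝓞 K` at the embedding `φ`. -/
noncomputable def Emb.prime (φ : Emb K q) : HeightOneSpectrum (𝓞 K) where
  asIdeal := φ.primeIdeal
  isPrime := by
    refine ⟨fun h => ?_, fun {a b} hab => ?_⟩
    · have h1 : (1 : 𝓞 K) ∈ φ.primeIdeal := h ▸ Submodule.mem_top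
      change ‖φ ((1 : 𝓞 K) : K)‖ < 1 at h1
      simp at h1
    · change ‖φ ((a : K) * (b : K))‖ < 1 at hab
      rw [map_mul, norm_mul] at hab
      by_contra! h
      obtain ⟨ha, hb⟩ := h
      exact not_le.2 hab (one_le_mul_of_one_le_of_one_le (not_lt.1 ha) (not_lt.1 hb))
  ne_bot := fun h => by
    have hq : ((q : ℕ) : 𝓞 K) ∈ φ.primeIdeal := by
      change ‖φ (((q : ℕ) : 𝓞 K) : K)‖ < 1
      simpa using norm_natCast_self_lt_one q
    rw [h, Ideal.mem_bot, Nat.cast_eq_zero] at hq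
    exact q.2.ne_zero hq

theorem Emb.mem_prime_iff (φ : Emb K q) (a : 𝓞 K) :
    a ∈ φ.prime.asIdeal ↔ ‖φ (a : K)‖ < 1 := Iff.rfl

theorem Emb.natCast_mem_prime (φ : Emb K q) : ((q : ℕ) : 𝓞 K) ∈ φ.prime.asIdeal := by
  rw [Emb.mem_prime_iff]
  simpa using norm_natCast_self_lt_one q

theorem Emb.valuation_le_one_iff (φ : Emb K q) (x : K) :
    φ.prime.valuation K x ≤ 1 ↔ ‖φ x‖ ≤ 1 := by
  have key : ∀ {a b : 𝓞 K}, b ∉ φ.prime.asIdeal → ‖φ (b : K)‖ = 1 := fun {a b} hb =>
    le_antisymm (φ.norm_le_one_of_isIntegral (RingOfIntegers.isIntegral_coe b))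
      (not_lt.1 ((φ.mem_prime_iff b).not.1 hb))
  obtain ⟨a, b, h⟩ := φ.prime.exists_primeCompl_mul_eq_or_mul_eq x
  rcases h with h | h
  · have hb := key (a := a) (φ.prime.asIdeal.mem_primeCompl_iff.1 b.2)
    have hn : ‖φ x‖ ≤ 1 := by
      have h2 := congrArg (fun z => ‖φ z‖) h
      simp only [map_mul, norm_mul, hb, mul_one] at h2
      exact h2.trans_le (φ.norm_le_one_of_isIntegral (RingOfIntegers.isIntegral_coe a))
    refine ⟨fun _ => hn, fun _ => ?_⟩
    have h2 := congrArg (φ.prime.valuation K) h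
    rw [map_mul, HeightOneSpectrum.valuation_eq_one_iff_notMem _ |>.2
      (φ.prime.asIdeal.mem_primeCompl_iff.1 b.2), mul_one] at h2
    exact h2.trans_le (φ.prime.valuation_le_one a)
  · have hb := key (a := a) (φ.prime.asIdeal.mem_primeCompl_iff.1 b.2)
    have hvb := (HeightOneSpectrum.valuation_eq_one_iff_notMem (K := K) φ.prime).2
      (φ.prime.asIdeal.mem_primeCompl_iff.1 b.2)
    have h2 := congrArg (fun z => ‖φ z‖) h
    simp only [map_mul, norm_mul, hb] at h2
    have h3 := congrArg (φ.prime.valuation K) h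
    rw [map_mul, hvb] at h3
    rcases em (a ∈ φ.prime.asIdeal) with ha | ha
    · have hlt : φ.prime.valuation K (a : K) < 1 :=
        (φ.prime.valuation_lt_one_iff_mem a).2 ha
      refine iff_of_false (fun hle => ?_) (fun hle => ?_)
      · exact (mul_lt_one_of_lt_of_le hlt hle).ne ((mul_comm _ _).trans h3)
      · exact (mul_lt_one_of_nonneg_of_lt_one_right hle (norm_nonneg _) ha).ne h2
    · rw [(HeightOneSpectrum.valuation_eq_one_iff_notMem (K := K) φ.prime).2 ha, mul_one] at h3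
      rw [key (a := a) ha, mul_one] at h2
      rw [h2, h3]
      exact iff_of_true le_rfl le_rfl

theorem Emb.valuation_eq_one_iff (φ : Emb K q) (x : K) :
    φ.prime.valuation K x = 1 ↔ ‖φ x‖ = 1 := by
  rcases eq_or_ne x 0 with rfl | hx
  · simp
  have hv := (φ.prime.valuation K).ne_zero_iff.2 hx
  have h1 := φ.valuation_le_one_iff x
  have h2 := φ.valuation_le_one_iff x⁻¹
  rw [map_inv₀, map_inv₀, norm_inv, inv_le_one₀ (zero_lt_iff.2 hv),
    inv_le_one₀ (norm_pos_iff.2 ((map_ne_zero φ).2 hx))] at h2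
  rw [le_antisymm_iff, h1, h2, ← le_antisymm_iff]

theorem Emb.valuation_eq_iff (φ : Emb K q) (x y : K) :
    φ.prime.valuation K x = φ.prime.valuation K y ↔ ‖φ x‖ = ‖φ y‖ := by
  rcases eq_or_ne y 0 with rfl | hy
  · simp
  have hv := (φ.prime.valuation K).ne_zero_iff.2 hy
  have := φ.valuation_eq_one_iff (x / y)
  rwa [map_div₀, map_div₀, norm_div, div_eq_one_iff_eq hv,
    div_eq_one_iff_eq (norm_ne_zero_iff.2 ((map_ne_zero φ).2 hy))] at this

theorem Emb.primeNumber_eq {r : Nat.Primes} (φ : Emb K q) (ψ : Emb K r)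
    (h : φ.prime = ψ.prime) : r = q := by
  by_contra hne
  have hco : IsCoprime ((q : ℕ) : ℤ) ((r : ℕ) : ℤ) := by
    rw [Int.isCoprime_iff_nat_coprime, Int.natAbs_natCast, Int.natAbs_natCast]
    exact (Nat.coprime_primes q.2 r.2).2 fun e => hne (Subtype.ext e.symm)
  obtain ⟨a, b, hab⟩ := hco
  have h1 : (1 : 𝓞 K) ∈ φ.prime.asIdeal := by
    have := congrArg (fun z : ℤ => (z : 𝓞 K)) hab
    push_cast at this
    rw [← this]
    exact Ideal.add_mem _ (Ideal.mul_mem_left _ _ φ.natCast_mem_prime)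
      (Ideal.mul_mem_left _ _ (h ▸ ψ.natCast_mem_prime))
  exact φ.prime.isPrime.ne_top ((Ideal.eq_top_iff_one _).2 h1)

theorem Emb.norm_eq_of_prime_eq {φ ψ : Emb K q} (h : φ.prime = ψ.prime) (x : K) :
    ‖φ x‖ = ‖ψ x‖ := by
  rcases eq_or_ne x 0 with rfl | hx
  · simp
  set v := φ.prime
  have hq0 : ((q : ℕ) : K) ≠ 0 := Nat.cast_ne_zero.2 q.2.ne_zero
  have hvx := (v.valuation K).ne_zero_iff.2 hx
  have hvq := (v.valuation K).ne_zero_iff.2 hq0
  have hq : v.valuation K ((q : ℕ) : K) < 1 := by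
    have := (v.valuation_lt_one_iff_mem (K := K) ((q : ℕ) : 𝓞 K)).2 φ.natCast_mem_prime
    simpa using this
  set n := WithZero.log (v.valuation K x)
  set e := WithZero.log (v.valuation K ((q : ℕ) : K))
  have he : e < 0 := by
    rw [← WithZero.exp_log hvq, ← WithZero.exp_zero] at hq
    exact WithZero.exp_lt_exp.1 hq
  have hval : v.valuation K (x ^ e) = v.valuation K (((q : ℕ) : K) ^ n) := by
    rw [map_zpow₀, map_zpow₀, ← WithZero.exp_log hvx, ← WithZero.exp_log hvq,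
      ← WithZero.exp_zsmul, ← WithZero.exp_zsmul, smul_eq_mul, smul_eq_mul, mul_comm]
  have h1 := (φ.valuation_eq_iff _ _).1 hval
  have h2 := (ψ.valuation_eq_iff _ _).1 (h ▸ hval)
  rw [map_zpow₀, map_zpow₀, norm_zpow, norm_zpow, map_natCast] at h1 h2
  exact zpow_left_injOn₀ he.ne (norm_nonneg (φ x)) (norm_nonneg (ψ x)) (h1.trans h2.symm)

theorem samePlace_iff_prime_eq (φ ψ : Emb K q) : φ.SamePlace ψ ↔ φ.prime = ψ.prime := by
  rw [samePlace_iff_norm_eq]
  refine ⟨fun h => HeightOneSpectrum.ext (SetLike.ext fun a => ?_), fun h => Emb.norm_eq_of_prime_eq h⟩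
  rw [Emb.mem_prime_iff, Emb.mem_prime_iff, h]

/-- Every prime comes from an embedding. -/
theorem exists_emb_prime (v : HeightOneSpectrum (𝓞 K)) :
    ∃ (q : Nat.Primes) (φ : Emb K q), φ.prime = v := by
  classical
  obtain ⟨q, hpv⟩ : ∃ q : Nat.Primes, ((q : ℕ) : 𝓞 K) ∈ v.asIdeal := by
    have hN : Ideal.absNorm v.asIdeal ≠ 0 := Ideal.absNorm_ne_zero_iff v.asIdeal |>.2
      (Ideal.finiteQuotientOfFreeOfNeBot _ v.ne_bot)
    obtain ⟨n, hn, hmem⟩ : ∃ n : ℕ, n ≠ 0 ∧ (n : 𝓞 K) ∈ v.asIdeal :=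
      ⟨_, hN, Ideal.absNorm_mem _⟩
    induction n using Nat.recOnMul with
    | zero => exact absurd rfl hn
    | one => exact absurd ((Ideal.eq_top_iff_one _).2 (by simpa using hmem)) v.isPrime.ne_top
    | prime p hp => exact ⟨⟨p, hp⟩, hmem⟩
    | mul a b iha ihb =>
      rw [Nat.cast_mul] at hmem
      rcases v.isPrime.mem_or_mem hmem with h | h
      · exact iha (left_ne_zero_of_mul hn) h
      · exact ihb (right_ne_zero_of_mul hn) h
  refine ⟨q, ?_⟩
  by_contra! hne
  have := Fintype.ofFinite (Emb K q)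
  let s : Finset (HeightOneSpectrum (𝓞 K)) := Finset.univ.image (Emb.prime (q := q))
  have hvs : v ∉ s := fun h => by
    obtain ⟨φ, -, hφ⟩ := Finset.mem_image.1 h
    exact hne φ hφ
  obtain ⟨x, hxv, hxs⟩ : ∃ x ∈ v.asIdeal, ∀ w ∈ s, x ∉ w.asIdeal := by
    by_contra! h
    have hsub : (v.asIdeal : Set (𝓞 K)) ⊆ ⋃ w ∈ (s : Set (HeightOneSpectrum (𝓞 K))), (w.asIdeal : Set (𝓞 K)) :=
      fun x hx => by
        obtain ⟨w, hw, hxw⟩ := h x hx
        exact Set.mem_biUnion hw hxw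
    obtain ⟨w, hw, hle⟩ := (Ideal.subset_union_prime v v fun w _ _ _ => w.isPrime).1 hsub
    exact hvs (HeightOneSpectrum.ext (v.isMaximal.eq_of_le w.isPrime.ne_top hle) ▸ hw)
  have hunit : ∀ φ : Emb K q, ‖φ (x : K)‖ = 1 := fun φ =>
    le_antisymm (φ.norm_le_one_of_isIntegral (RingOfIntegers.isIntegral_coe x))
      (not_lt.1 (hxs φ.prime (Finset.mem_image_of_mem _ (Finset.mem_univ φ))))
  set N := Algebra.norm ℤ x
  have h1 : ‖((N : ℚ) : PadicAlgCl (q : ℕ))‖ = 1 := by
    rw [show (N : ℚ) = Algebra.norm ℚ (x : K) from (Algebra.coe_norm_int x).symm ▸ rfl,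
      ← eq_ratCast (algebraMap ℚ (PadicAlgCl (q : ℕ))),
      Algebra.norm_eq_prod_embeddings ℚ (PadicAlgCl (q : ℕ)) (x : K), norm_prod]
    exact Finset.prod_eq_one fun σ _ => hunit σ.toRingHom
  rw [Rat.cast_intCast, ← map_intCast (algebraMap ℚ_[(q : ℕ)] (PadicAlgCl (q : ℕ))),
    PadicAlgCl.norm_extends, Padic.norm_intCast_eq_one_iff] at h1
  obtain ⟨a, b, hab⟩ := h1
  have hN : (N : 𝓞 K) ∈ v.asIdeal := by
    obtain ⟨c, hc⟩ := Ideal.absNorm_dvd_norm_of_mem hxv
    have := Ideal.absNorm_mem v.asIdeal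
    rw [show N = _ from hc, Int.cast_mul, Int.cast_natCast]
    exact Ideal.mul_mem_right _ _ this
  have h2 : (1 : 𝓞 K) ∈ v.asIdeal := by
    have := congrArg (fun z : ℤ => (z : 𝓞 K)) hab
    push_cast at this
    rw [← this]
    exact Ideal.add_mem _ (Ideal.mul_mem_left _ _ hN) (Ideal.mul_mem_left _ _ hpv)
  exact v.isPrime.ne_top ((Ideal.eq_top_iff_one _).2 h2)

/-- The prime number below a prime. -/
noncomputable def primeBelow (v : HeightOneSpectrum (𝓞 K)) : Nat.Primes :=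
  (exists_emb_prime v).choose

theorem primeBelow_prime (φ : Emb K q) : primeBelow φ.prime = q :=
  φ.primeNumber_eq _ ((exists_emb_prime φ.prime).choose_spec.choose_spec).symm

theorem exists_emb_prime_below (v : HeightOneSpectrum (𝓞 K)) :
    ∃ φ : Emb K (primeBelow v), φ.prime = v :=
  (exists_emb_prime v).choose_spec

theorem finite_setOf_primeBelow (T : Finset Nat.Primes) :
    {v : HeightOneSpectrum (𝓞 K) | primeBelow v ∈ T}.Finite := by
  refine (T.finite_toSet.biUnion fun r _ => Set.finite_range (Emb.prime (K := K) (q := r))).subset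
    fun v hv => ?_
  obtain ⟨φ, hφ⟩ := exists_emb_prime_below v
  exact Set.mem_biUnion hv ⟨φ, hφ⟩

end FermatLib.CFT
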