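import Fermat.Agent.CFT.IdeleSingle
import Fermat.Agent.CFT.IdelePrimes

/-!
Places of fixed fields, ideles supported at one place, coinduced structure.
-/

set_option autoImplicit false

open NumberField

namespace FermatLib.CFT

variable {L : Type} [Field L] [NumberField L] {q : Nat.Primes}

theorem Emb.preComp_one (φ : Emb L q) : φ.preComp 1 = φ := rfl

theorem Emb.preComp_inv_preComp (φ : Emb L q) (g : L ≃ₐ[ℚ] L) :
    (φ.preComp g⁻¹).preComp g = φ := by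
  rw [← preComp_mul, inv_mul_cancel, Emb.preComp_one]

theorem Emb.preComp_preComp_inv (φ : Emb L q) (g : L ≃ₐ[ℚ] L) :
    (φ.preComp g).preComp g⁻¹ = φ := by
  rw [← preComp_mul, mul_inv_cancel, Emb.preComp_one]

theorem Emb.SamePlace.symm {a b : Emb L q} (h : a.SamePlace b) : b.SamePlace a := by
  obtain ⟨τ, rfl⟩ := h
  exact ⟨τ⁻¹, by rw [← postComp_mul, inv_mul_cancel, postComp_one]⟩

theorem Emb.samePlace_postComp_iff {a b : Emb L q} (τ : Gloc q) :
    a.SamePlace (b.postComp τ) ↔ a.SamePlace b :=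
  ⟨fun h => h.trans (Emb.SamePlace.symm ⟨τ, rfl⟩), fun h => h.trans ⟨τ, rfl⟩⟩

/-- `φ` and `ψ` give the same place of `L^H`. -/
def Emb.SamePlaceRel (H : Subgroup (L ≃ₐ[ℚ] L)) (φ ψ : Emb L q) : Prop :=
  ∃ h ∈ H, (φ.preComp h).SamePlace ψ

/-- The relation `SamePlaceRel` as a setoid. -/
def samePlaceSetoid (H : Subgroup (L ≃ₐ[ℚ] L)) (q : Nat.Primes) : Setoid (Emb L q) where
  r := Emb.SamePlaceRel H
  iseqv :=
    { refl := fun φ => ⟨1, one_mem H, Emb.SamePlace.refl φ⟩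
      symm := by
        rintro a b ⟨h, hh, hab⟩
        refine ⟨h⁻¹, inv_mem hh, ?_⟩
        have := (hab.preComp h⁻¹).symm
        rwa [Emb.preComp_preComp_inv] at this
      trans := by
        rintro a b c ⟨h, hh, hab⟩ ⟨k, hk, hbc⟩
        exact ⟨h * k, mul_mem hh hk, (hab.preComp k).trans hbc⟩ }

/-- The places of `L^H` over `q`. -/
abbrev PlacesAbove (H : Subgroup (L ≃ₐ[ℚ] L)) (q : Nat.Primes) : Type :=
  Quotient (samePlaceSetoid H q)

/-- The infinite places of `L^H`, as orbits. -/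
abbrev InfPlacesAbove (H : Subgroup (L ≃ₐ[ℚ] L)) : Type :=
  MulAction.orbitRel.Quotient H (InfinitePlace L)

instance placesAbove_finite (H : Subgroup (L ≃ₐ[ℚ] L)) (q : Nat.Primes) :
    Finite (PlacesAbove H q) := Quotient.finite _

theorem samePlaceRel_bot_iff (φ ψ : Emb L q) :
    Emb.SamePlaceRel (⊥ : Subgroup (L ≃ₐ[ℚ] L)) φ ψ ↔ φ.SamePlace ψ := by
  refine ⟨fun ⟨h, hh, hr⟩ => ?_, fun hr => ⟨1, one_mem _, hr⟩⟩
  rwa [Subgroup.mem_bot.1 hh, Emb.preComp_one] at hr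

/-- An element of `L^H` has one absolute value at each of its places. -/
theorem norm_eq_of_samePlaceRel {H : Subgroup (L ≃ₐ[ℚ] L)} {φ ψ : Emb L q}
    (h : Emb.SamePlaceRel H φ ψ) {x : L} (hx : x ∈ IntermediateField.fixedField H) :
    ‖φ x‖ = ‖ψ x‖ := by
  obtain ⟨g, hg, τ, rfl⟩ := h
  refine ((norm_gloc τ _).trans ?_).symm
  exact congrArg (fun z => ‖φ z‖) ((IntermediateField.mem_fixedField_iff H x).1 hx g hg)

theorem Emb.SamePlaceRel.preComp {H : Subgroup (L ≃ₐ[ℚ] L)} {φ ψ : Emb L q}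
    (h : Emb.SamePlaceRel H φ ψ) {g : L ≃ₐ[ℚ] L} (hg : g ∈ H) :
    Emb.SamePlaceRel H φ (ψ.preComp g) := by
  obtain ⟨k, hk, hs⟩ := h
  exact ⟨k * g, mul_mem hk hg, hs.preComp g⟩

theorem Emb.samePlaceRel_preComp_iff {H : Subgroup (L ≃ₐ[ℚ] L)} {φ ψ : Emb L q}
    {g : L ≃ₐ[ℚ] L} (hg : g ∈ H) :
    Emb.SamePlaceRel H φ (ψ.preComp g) ↔ Emb.SamePlaceRel H φ ψ := by
  refine ⟨fun h => ?_, fun h => h.preComp hg⟩
  have := h.preComp (inv_mem hg)
  rwa [Emb.preComp_preComp_inv] at this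

theorem Emb.samePlaceRel_postComp_iff {H : Subgroup (L ≃ₐ[ℚ] L)} {φ ψ : Emb L q} (τ : Gloc q) :
    Emb.SamePlaceRel H φ (ψ.postComp τ) ↔ Emb.SamePlaceRel H φ ψ :=
  exists_congr fun _ => and_congr_right fun _ => Emb.samePlace_postComp_iff τ

section mk
variable [IsGalois ℚ L]

/-- Embeddings agreeing on `L^H` differ by an element of `H`. -/
theorem exists_mem_preComp_eq (H : Subgroup (L ≃ₐ[ℚ] L)) (φ ψ : Emb L q)
    (h : ∀ x ∈ IntermediateField.fixedField H, φ x = ψ x) : ∃ g ∈ H, φ.preComp g = ψ := by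
  obtain ⟨g, rfl⟩ := Emb.exists_preComp_eq φ ψ
  refine ⟨g, ?_, rfl⟩
  rw [← IntermediateField.fixingSubgroup_fixedField H, IntermediateField.mem_fixingSubgroup_iff]
  exact fun x hx => φ.injective (h x hx).symm

theorem samePlaceRel_iff_norm (H : Subgroup (L ≃ₐ[ℚ] L)) (φ ψ : Emb L q) :
    Emb.SamePlaceRel H φ ψ ↔ ∀ x ∈ IntermediateField.fixedField H, ‖φ x‖ = ‖ψ x‖ := by
  refine ⟨fun h x hx => norm_eq_of_samePlaceRel h hx, fun h => ?_⟩
  let K := IntermediateField.fixedField H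
  let φK : Emb K q := φ.comp (algebraMap K L)
  let ψK : Emb K q := ψ.comp (algebraMap K L)
  obtain ⟨τ, hτ⟩ := (samePlace_iff_norm_eq φK ψK).2 fun x => h x x.2
  obtain ⟨g, hg, he⟩ := exists_mem_preComp_eq H (φ.postComp τ) ψ fun x hx =>
    RingHom.congr_fun hτ (⟨x, hx⟩ : K)
  exact ⟨g, hg, τ, by rw [postComp_preComp, he]⟩

open Classical in
/-- The values of `placeIdele`. -/
noncomputable def placeValues (H : Subgroup (L ≃ₐ[ℚ] L)) (φ : Emb L q) (y : QUnits q)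
    (ψ : Emb L q) : QUnits q :=
  if hψ : Emb.SamePlaceRel H φ ψ then hψ.choose_spec.2.choose.onUnits y else 0

theorem placeValues_apply (H : Subgroup (L ≃ₐ[ℚ] L)) (φ : Emb L q) (y : QUnits q)
    (hy : y.toField ∈ localField H φ) {h : L ≃ₐ[ℚ] L} (hh : h ∈ H) (τ : Gloc q)
    {ψ : Emb L q} (hψ : (φ.preComp h).postComp τ = ψ) :
    placeValues H φ y ψ = τ.onUnits y := by
  classical
  have hrel : Emb.SamePlaceRel H φ ψ := ⟨h, hh, τ, hψ⟩
  rw [placeValues, dif_pos hrel]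
  set k := hrel.choose
  set σ := hrel.choose_spec.2.choose
  have hk : k ∈ H := hrel.choose_spec.1
  have hσ : (φ.preComp k).postComp σ = ψ := hrel.choose_spec.2.choose_spec
  have e : φ.postComp (τ⁻¹ * σ) = φ.preComp (h * k⁻¹) := by
    have h1 := congrArg (fun z : Emb L q => (z.postComp τ⁻¹).preComp k⁻¹) (hσ.trans hψ.symm)
    simp only [← postComp_mul, inv_mul_cancel, postComp_one, ← preComp_mul] at h1
    rw [← postComp_preComp, ← preComp_mul, mul_inv_cancel, Emb.preComp_one] at h1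
    exact h1
  have hfix := (gloc_fixes_localField_iff H φ (τ⁻¹ * σ)).2
    ⟨h * k⁻¹, mul_mem hh (inv_mem hk), e⟩ _ hy
  refine QUnits.toField_injective ?_
  rw [QUnits.toField_onUnits, QUnits.toField_onUnits]
  have := congrArg τ hfix
  simpa [AlgEquiv.mul_apply] using this

theorem placeValues_equivariant (H : Subgroup (L ≃ₐ[ℚ] L)) (φ : Emb L q) (y : QUnits q)
    (hy : y.toField ∈ localField H φ) (τ : Gloc q) (ψ : Emb L q) :
    placeValues H φ y (ψ.postComp τ) = τ.onUnits (placeValues H φ y ψ) := by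
  by_cases hψ : Emb.SamePlaceRel H φ ψ
  · obtain ⟨h, hh, σ, hσ⟩ := hψ
    rw [placeValues_apply H φ y hy hh σ hσ,
      placeValues_apply H φ y hy hh (τ * σ) (by rw [postComp_mul, hσ])]
    rfl
  · rw [placeValues, placeValues, dif_neg hψ,
      dif_neg ((Emb.samePlaceRel_postComp_iff τ).not.2 hψ), map_zero]

/-- The `H`-invariant idele with value `y` at `φ`, supported on that place of `L^H`. -/
noncomputable def placeIdele (H : Subgroup (L ≃ₐ[ℚ] L)) (φ : Emb L q) (y : QUnits q)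
    (hy : y.toField ∈ localField H φ) : Idele L :=
  singlePrime q (placeValues H φ y) (placeValues_equivariant H φ y hy)

theorem placeIdele_apply (H : Subgroup (L ≃ₐ[ℚ] L)) (φ : Emb L q) (y : QUnits q)
    (hy : y.toField ∈ localField H φ) {h : L ≃ₐ[ℚ] L} (hh : h ∈ H) (τ : Gloc q) :
    (placeIdele H φ y hy).fin q ((φ.preComp h).postComp τ) = τ.onUnits y := by
  rw [placeIdele, singlePrime_apply]
  exact placeValues_apply H φ y hy hh τ rfl

theorem placeIdele_apply_self (H : Subgroup (L ≃ₐ[ℚ] L)) (φ : Emb L q) (y : QUnits q)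
    (hy : y.toField ∈ localField H φ) : (placeIdele H φ y hy).fin q φ = y := by
  have := placeIdele_apply H φ y hy (one_mem H) 1
  rwa [postComp_one, Emb.preComp_one, show (1 : Gloc q).onUnits y = y from
    QUnits.toField_injective rfl] at this

theorem placeIdele_apply_of_not_rel (H : Subgroup (L ≃ₐ[ℚ] L)) (φ : Emb L q) (y : QUnits q)
    (hy : y.toField ∈ localField H φ) {ψ : Emb L q} (hψ : ¬ Emb.SamePlaceRel H φ ψ) :
    (placeIdele H φ y hy).fin q ψ = 0 := by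
  rw [placeIdele, singlePrime_apply, placeValues, dif_neg hψ]

theorem placeIdele_apply_of_ne (H : Subgroup (L ≃ₐ[ℚ] L)) (φ : Emb L q) (y : QUnits q)
    (hy : y.toField ∈ localField H φ) {r : Nat.Primes} (hr : r ≠ q) (ψ : Emb L r) :
    (placeIdele H φ y hy).fin r ψ = 0 :=
  singlePrime_apply_of_ne _ _ hr ψ

theorem placeIdele_inf (H : Subgroup (L ≃ₐ[ℚ] L)) (φ : Emb L q) (y : QUnits q)
    (hy : y.toField ∈ localField H φ) (χ : L →+* ℂ) :
    (placeIdele H φ y hy).inf χ = 0 :=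
  singlePrime_inf _ _ χ

theorem placeIdele_mem_fixedPts (H : Subgroup (L ≃ₐ[ℚ] L)) (φ : Emb L q) (y : QUnits q)
    (hy : y.toField ∈ localField H φ) : placeIdele H φ y hy ∈ fixedPts H (Idele L) := by
  rw [mem_fixedPts_subgroup_iff]
  intro g hg
  refine eq_singlePrime _ (fun ψ => ?_) (fun r hr ψ => ?_) fun χ => rfl
  · change (placeIdele H φ y hy).fin q (ψ.preComp g) = placeValues H φ y ψ
    rw [placeIdele, singlePrime_apply]
    by_cases hψ : Emb.SamePlaceRel H φ ψ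
    · obtain ⟨h, hh, σ, hσ⟩ := hψ
      rw [placeValues_apply H φ y hy hh σ hσ]
      exact placeValues_apply H φ y hy (mul_mem hh hg) σ (by rw [preComp_mul, postComp_preComp, hσ])
    · rw [placeValues, placeValues, dif_neg hψ,
        dif_neg ((Emb.samePlaceRel_preComp_iff hg).not.2 hψ)]
  · exact singlePrime_apply_of_ne (placeValues H φ y) (placeValues_equivariant H φ y hy) hr _

open Classical in
/-- The values of `infPlaceIdele`. -/
noncomputable def infPlaceValues (H : Subgroup (L ≃ₐ[ℚ] L)) (φ : L →+* ℂ) (y : CUnits)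
    (ψ : L →+* ℂ) : CUnits :=
  if ∃ h ∈ H, ψ = φ.comp ((h : L ≃ₐ[ℚ] L) : L →+* L) then y
  else if ∃ h ∈ H, ψ = (starRingEnd ℂ).comp (φ.comp ((h : L ≃ₐ[ℚ] L) : L →+* L)) then
    conjUnits y
  else 0

theorem conjUnits_apply_conjUnits (y : CUnits) : conjUnits (conjUnits y) = y :=
  CUnits.toField_injective (by simp)

theorem starRingEnd_comp_comp (ψ : L →+* ℂ) :
    (starRingEnd ℂ).comp ((starRingEnd ℂ).comp ψ) = ψ :=
  RingHom.ext fun _ => Complex.conj_conj _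

theorem infPlaceValues_conj_eq {H : Subgroup (L ≃ₐ[ℚ] L)} {φ : L →+* ℂ} {y : CUnits}
    (hy : ∀ h ∈ H, φ.comp (h : L →+* L) = (starRingEnd ℂ).comp φ → conjUnits y = y)
    {a b : L ≃ₐ[ℚ] L} (ha : a ∈ H) (hb : b ∈ H)
    (he : φ.comp (a : L →+* L) = (starRingEnd ℂ).comp (φ.comp (b : L →+* L))) :
    conjUnits y = y := by
  refine hy (a * b⁻¹) (mul_mem ha (inv_mem hb)) (RingHom.ext fun x => ?_)
  have := RingHom.congr_fun he (b⁻¹ x)
  simpa [AlgEquiv.mul_apply] using this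

theorem infPlaceValues_equivariant (H : Subgroup (L ≃ₐ[ℚ] L)) (φ : L →+* ℂ) (y : CUnits)
    (hy : ∀ h ∈ H, φ.comp (h : L →+* L) = (starRingEnd ℂ).comp φ → conjUnits y = y)
    (ψ : L →+* ℂ) :
    infPlaceValues H φ y ((starRingEnd ℂ).comp ψ) = conjUnits (infPlaceValues H φ y ψ) := by
  classical
  have hA : (∃ h ∈ H, (starRingEnd ℂ).comp ψ = φ.comp ((h : L ≃ₐ[ℚ] L) : L →+* L)) ↔
      ∃ h ∈ H, ψ = (starRingEnd ℂ).comp (φ.comp ((h : L ≃ₐ[ℚ] L) : L →+* L)) :=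
    exists_congr fun h => and_congr_right fun _ =>
      ⟨fun e => by rw [← e, starRingEnd_comp_comp], fun e => by rw [e, starRingEnd_comp_comp]⟩
  have hB : (∃ h ∈ H, (starRingEnd ℂ).comp ψ =
      (starRingEnd ℂ).comp (φ.comp ((h : L ≃ₐ[ℚ] L) : L →+* L))) ↔
      ∃ h ∈ H, ψ = φ.comp ((h : L ≃ₐ[ℚ] L) : L →+* L) :=
    exists_congr fun h => and_congr_right fun _ =>
      ⟨fun e => by rw [← starRingEnd_comp_comp ψ, e, starRingEnd_comp_comp], fun e => by rw [e]⟩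
  rw [infPlaceValues, infPlaceValues, if_congr hA rfl (if_congr hB rfl rfl)]
  by_cases h1 : ∃ h ∈ H, ψ = φ.comp ((h : L ≃ₐ[ℚ] L) : L →+* L) <;>
    by_cases h2 : ∃ h ∈ H, ψ = (starRingEnd ℂ).comp (φ.comp ((h : L ≃ₐ[ℚ] L) : L →+* L))
  · obtain ⟨a, ha, ea⟩ := h1
    obtain ⟨b, hb, eb⟩ := h2
    rw [if_pos ⟨b, hb, eb⟩, if_pos ⟨a, ha, ea⟩,
      infPlaceValues_conj_eq hy ha hb (ea.symm.trans eb)]
  · rw [if_neg h2, if_pos h1, if_pos h1]
  · rw [if_pos h2, if_neg h1, if_pos h2, conjUnits_apply_conjUnits]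
  · rw [if_neg h2, if_neg h1, if_neg h1, if_neg h2, map_zero]

/-- Archimedean analogue of `placeIdele`. -/
noncomputable def infPlaceIdele (H : Subgroup (L ≃ₐ[ℚ] L)) (φ : L →+* ℂ) (y : CUnits)
    (hy : ∀ h ∈ H, φ.comp (h : L →+* L) = (starRingEnd ℂ).comp φ → conjUnits y = y)
    (_hy' : (starRingEnd ℂ).comp φ = φ → conjUnits y = y) : Idele L :=
  singleInf (infPlaceValues H φ y) (infPlaceValues_equivariant H φ y hy)

theorem infPlaceIdele_spec (H : Subgroup (L ≃ₐ[ℚ] L)) (φ : L →+* ℂ) (y : CUnits)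
    (hy : ∀ h ∈ H, φ.comp (h : L →+* L) = (starRingEnd ℂ).comp φ → conjUnits y = y)
    (hy' : (starRingEnd ℂ).comp φ = φ → conjUnits y = y) :
    infPlaceIdele H φ y hy hy' ∈ fixedPts H (Idele L) ∧
      (infPlaceIdele H φ y hy hy').inf φ = y ∧
      (∀ r ψ, (infPlaceIdele H φ y hy hy').fin r ψ = 0) ∧
      ∀ ψ, (∀ h ∈ H, ψ ≠ φ.comp ((h : L ≃ₐ[ℚ] L) : L →+* L) ∧
          ψ ≠ (starRingEnd ℂ).comp (φ.comp ((h : L ≃ₐ[ℚ] L) : L →+* L))) →
        (infPlaceIdele H φ y hy hy').inf ψ = 0 := by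
  classical
  refine ⟨?_, ?_, fun _ _ => rfl, fun ψ hψ => ?_⟩
  · rw [mem_fixedPts_subgroup_iff]
    intro g hg
    refine idele_ext (fun _ _ => rfl) fun ψ => congrArg CUnits.toField ?_
    change infPlaceValues H φ y (ψ.comp (g : L →+* L)) = infPlaceValues H φ y ψ
    have key : ∀ (χ : L →+* ℂ),
        (∃ h ∈ H, ψ.comp (g : L →+* L) = χ.comp ((h : L ≃ₐ[ℚ] L) : L →+* L)) ↔
          ∃ h ∈ H, ψ = χ.comp ((h : L ≃ₐ[ℚ] L) : L →+* L) := by
      intro χ
      constructor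
      · rintro ⟨h, hh, e⟩
        refine ⟨h * g⁻¹, mul_mem hh (inv_mem hg), RingHom.ext fun x => ?_⟩
        have := RingHom.congr_fun e (g⁻¹ x)
        simpa [AlgEquiv.mul_apply] using this
      · rintro ⟨h, hh, rfl⟩
        exact ⟨h * g, mul_mem hh hg, rfl⟩
    simp only [infPlaceValues, ← RingHom.comp_assoc]
    rw [if_congr (key φ) rfl rfl, if_congr (key ((starRingEnd ℂ).comp φ)) rfl rfl]
  · change infPlaceValues H φ y φ = y
    rw [infPlaceValues, if_pos ⟨1, one_mem H, rfl⟩]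
  · change infPlaceValues H φ y ψ = 0
    rw [infPlaceValues, if_neg fun ⟨h, hh, e⟩ => (hψ h hh).1 e,
      if_neg fun ⟨h, hh, e⟩ => (hψ h hh).2 e]

end mk

/-- The value of the local module at its embedding. -/
noncomputable def localPartVal (φ : Emb L q) : localPart φ →+ QUnits q where
  toFun f := f.1.1.1 q φ
  map_zero' := rfl
  map_add' _ _ := rfl

theorem localPart_apply_eq_zero {φ ψ : Emb L q} {f : Idele L} (hf : f ∈ localPart φ)
    (h : ¬ φ.SamePlace ψ) : f.fin q ψ = 0 := by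
  by_contra hne
  obtain ⟨_, hs⟩ := hf.1 q ψ hne
  exact h hs

theorem localPart_apply_of_ne {φ : Emb L q} {f : Idele L} (hf : f ∈ localPart φ) {r : Nat.Primes}
    (hr : r ≠ q) (ψ : Emb L r) : f.fin r ψ = 0 := by
  by_contra hne
  exact hr (hf.1 r ψ hne).choose

theorem mem_localPart_of {φ : Emb L q} {f : Idele L}
    (h1 : ∀ ψ, ¬ φ.SamePlace ψ → f.fin q ψ = 0) (h2 : ∀ r, r ≠ q → ∀ ψ, f.fin r ψ = 0)
    (h3 : ∀ χ, f.inf χ = 0) : f ∈ localPart φ := by
  refine ⟨fun r ψ hne => ?_, funext h3⟩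
  obtain rfl : r = q := by_contra fun hr => hne (h2 r hr ψ)
  exact ⟨rfl, by_contra fun hs => hne (h1 ψ hs)⟩

theorem localPartVal_injective (φ : Emb L q) : Function.Injective (localPartVal φ) := by
  intro a b h
  refine Subtype.ext (idele_ext (fun r ψ => congrArg QUnits.toField ?_)
    fun χ => by rw [Idele.inf, Idele.inf, a.2.2, b.2.2])
  rcases eq_or_ne r q with rfl | hr
  · by_cases hs : φ.SamePlace ψ
    · obtain ⟨τ, rfl⟩ := hs
      exact (a.1.2.1 _ τ φ).trans ((congrArg τ.onUnits h).trans (b.1.2.1 _ τ φ).symm)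
    · rw [localPart_apply_eq_zero a.2 hs, localPart_apply_eq_zero b.2 hs]
  · rw [localPart_apply_of_ne a.2 hr, localPart_apply_of_ne b.2 hr]

theorem localPartVal_smul (φ : Emb L q) (g : decompGroup φ) {τ : Gloc q}
    (hτ : φ.postComp τ = φ.preComp g) (f : localPart φ) :
    localPartVal φ (g • f) = τ.onUnits (localPartVal φ f) := by
  change f.1.1.1 q (φ.preComp g) = _
  rw [← hτ]
  exact f.1.2.1 q τ φ

theorem mem_range_localPartVal [IsGalois ℚ L] (φ : Emb L q) (y : QUnits q) :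
    y ∈ (localPartVal φ).range ↔ y.toField ∈ localField (⊥ : Subgroup (L ≃ₐ[ℚ] L)) φ := by
  constructor
  · rintro ⟨f, rfl⟩
    exact fin_mem_localField_bot f.1 φ
  · intro hy
    refine ⟨⟨placeIdele ⊥ φ y hy, mem_localPart_of (fun ψ hψ => ?_)
      (fun r hr ψ => placeIdele_apply_of_ne _ _ _ hy hr ψ) (placeIdele_inf _ _ _ hy)⟩,
      placeIdele_apply_self ⊥ φ y hy⟩
    exact placeIdele_apply_of_not_rel _ _ _ hy ((samePlaceRel_bot_iff φ ψ).not.2 hψ)

open Classical in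
theorem restrictPlace_equivariant (φ : Emb L q) (f : Idele L) (τ : Gloc q) (ψ : Emb L q) :
    (if φ.SamePlace (ψ.postComp τ) then f.fin q (ψ.postComp τ) else 0) =
      τ.onUnits (if φ.SamePlace ψ then f.fin q ψ else 0) := by
  by_cases h : φ.SamePlace ψ
  · rw [if_pos h, if_pos ((Emb.samePlace_postComp_iff τ).2 h)]
    exact f.2.1 q τ ψ
  · rw [if_neg h, if_neg ((Emb.samePlace_postComp_iff τ).not.2 h), map_zero]

open Classical in
/-- The underlying idele of `restrictPlace`. -/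
noncomputable def restrictPlaceFun (φ : Emb L q) (f : Idele L) : Idele L :=
  singlePrime q (fun ψ => if φ.SamePlace ψ then f.fin q ψ else 0) (restrictPlace_equivariant φ f)

theorem restrictPlaceFun_mem (φ : Emb L q) (f : Idele L) : restrictPlaceFun φ f ∈ localPart φ :=
  mem_localPart_of (fun ψ hψ => by rw [restrictPlaceFun, singlePrime_apply, if_neg hψ])
    (fun _ hr ψ => singlePrime_apply_of_ne _ _ hr ψ) fun _ => rfl

theorem restrictPlaceFun_apply (φ : Emb L q) (f : Idele L) {ψ : Emb L q} (h : φ.SamePlace ψ) :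
    (restrictPlaceFun φ f).fin q ψ = f.fin q ψ := by
  rw [restrictPlaceFun, singlePrime_apply, if_pos h]

/-- Restriction of an idele to the place of `φ`. -/
noncomputable def restrictPlace (φ : Emb L q) : Idele L →+ localPart φ :=
  AddMonoidHom.mk' (fun f => ⟨restrictPlaceFun φ f, restrictPlaceFun_mem φ f⟩)
    fun a b => localPartVal_injective φ (by
      change (restrictPlaceFun φ (a + b)).fin q φ =
        (restrictPlaceFun φ a).fin q φ + (restrictPlaceFun φ b).fin q φ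
      simp only [restrictPlaceFun_apply φ _ (Emb.SamePlace.refl φ)]
      rfl)

theorem restrictPlace_apply (φ : Emb L q) (f : Idele L) {ψ : Emb L q} (h : φ.SamePlace ψ) :
    (restrictPlace φ f : Idele L).fin q ψ = f.fin q ψ :=
  restrictPlaceFun_apply φ f h

theorem restrictPlace_smul (φ : Emb L q) (g : decompGroup φ) (f : Idele L) :
    restrictPlace φ ((g : L ≃ₐ[ℚ] L) • f) = g • restrictPlace φ f := by
  refine localPartVal_injective φ ?_
  change (restrictPlace φ _ : Idele L).fin q φ = (restrictPlace φ f : Idele L).fin q (φ.preComp g)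
  rw [restrictPlace_apply φ _ (Emb.SamePlace.refl φ), restrictPlace_apply φ _ g.2]
  rfl

/-- Ideles supported on the `H`-orbit of the place of `φ`. -/
noncomputable def orbitPart (H : Subgroup (L ≃ₐ[ℚ] L)) (φ : Emb L q) : AddSubgroup (Idele L) where
  carrier := {f | (∀ (r : Nat.Primes) (ψ : Emb L r), f.1.1 r ψ ≠ 0 →
    ∃ h : r = q, Emb.SamePlaceRel H φ (h ▸ ψ)) ∧ f.1.2 = 0}
  zero_mem' := ⟨fun r ψ h => absurd rfl h, rfl⟩
  add_mem' := fun {a b} ha hb => ⟨fun r ψ h => by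
    by_cases hz : a.1.1 r ψ = 0
    · exact hb.1 r ψ (by simpa [hz] using h)
    · exact ha.1 r ψ hz, by simp [ha.2, hb.2]⟩
  neg_mem' := fun {a} ha => ⟨fun r ψ h => ha.1 r ψ (by simpa using h), by simp [ha.2]⟩

theorem mem_orbitPart_iff {H : Subgroup (L ≃ₐ[ℚ] L)} {φ : Emb L q} {f : Idele L} :
    f ∈ orbitPart H φ ↔ (∀ ψ, ¬ Emb.SamePlaceRel H φ ψ → f.fin q ψ = 0) ∧
      (∀ r, r ≠ q → ∀ ψ, f.fin r ψ = 0) ∧ ∀ χ, f.inf χ = 0 := by
  constructor
  · intro hf
    refine ⟨fun ψ hψ => by_contra fun hne => hψ ?_, fun r hr ψ => by_contra fun hne => hr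
      (hf.1 r ψ hne).choose, congrFun hf.2⟩
    obtain ⟨_, hs⟩ := hf.1 q ψ hne
    exact hs
  · rintro ⟨h1, h2, h3⟩
    refine ⟨fun r ψ hne => ?_, funext h3⟩
    obtain rfl : r = q := by_contra fun hr => hne (h2 r hr ψ)
    exact ⟨rfl, by_contra fun hs => hne (h1 ψ hs)⟩

theorem smul_mem_orbitPart {H : Subgroup (L ≃ₐ[ℚ] L)} {φ : Emb L q} {h : L ≃ₐ[ℚ] L}
    (hh : h ∈ H) {f : Idele L} (hf : f ∈ orbitPart H φ) : h • f ∈ orbitPart H φ := by
  obtain ⟨h1, h2, h3⟩ := mem_orbitPart_iff.1 hf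
  exact mem_orbitPart_iff.2 ⟨fun ψ hψ => h1 _ ((Emb.samePlaceRel_preComp_iff hh).not.2 hψ),
    fun r hr ψ => h2 r hr _, fun χ => h3 _⟩

/-- The orbit part is coinduced from the local module. -/
theorem orbitPart_coinduced [IsGalois ℚ L] (H : Subgroup (L ≃ₐ[ℚ] L)) (φ : Emb L q)
    (F : H → localPart φ)
    (hF : ∀ (d h : H) (hd : (d : L ≃ₐ[ℚ] L) ∈ decompGroup φ),
      F (d * h) = (⟨d, hd⟩ : decompGroup φ) • F h) :
    ∃! a : Idele L, a ∈ orbitPart H φ ∧
      ∀ h : H, restrictPlace φ ((h : L ≃ₐ[ℚ] L) • a) = F h := by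
  classical
  have wd : ∀ (ψ : Emb L q) (a b : H), φ.SamePlace (ψ.preComp (a : L ≃ₐ[ℚ] L)⁻¹) →
      φ.SamePlace (ψ.preComp (b : L ≃ₐ[ℚ] L)⁻¹) →
      (F a : Idele L).fin q (ψ.preComp (a : L ≃ₐ[ℚ] L)⁻¹) =
        (F b : Idele L).fin q (ψ.preComp (b : L ≃ₐ[ℚ] L)⁻¹) := by
    intro ψ a b ha hb
    have e : (ψ.preComp (a : L ≃ₐ[ℚ] L)⁻¹).preComp ((a * b⁻¹ : H) : L ≃ₐ[ℚ] L) =
        ψ.preComp (b : L ≃ₐ[ℚ] L)⁻¹ := by
      rw [← preComp_mul]
      push_cast
      rw [inv_mul_cancel_left]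
    have hd : ((a * b⁻¹ : H) : L ≃ₐ[ℚ] L) ∈ decompGroup φ :=
      hb.trans (Emb.SamePlace.symm (e ▸ ha.preComp _))
    have hab := hF (a * b⁻¹) b hd
    rw [inv_mul_cancel_right] at hab
    rw [hab, ← e]
    rfl
  let v : Emb L q → QUnits q := fun ψ =>
    if h : ∃ a : H, φ.SamePlace (ψ.preComp (a : L ≃ₐ[ℚ] L)⁻¹) then
      (F h.choose : Idele L).fin q (ψ.preComp (h.choose : L ≃ₐ[ℚ] L)⁻¹) else 0
  have hv1 : ∀ ψ (a : H), φ.SamePlace (ψ.preComp (a : L ≃ₐ[ℚ] L)⁻¹) →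
      v ψ = (F a : Idele L).fin q (ψ.preComp (a : L ≃ₐ[ℚ] L)⁻¹) := fun ψ a ha => by
    have h : ∃ a : H, φ.SamePlace (ψ.preComp (a : L ≃ₐ[ℚ] L)⁻¹) := ⟨a, ha⟩
    simp only [v, dif_pos h]
    exact wd ψ _ _ h.choose_spec ha
  have hv : ∀ (τ : Gloc q) (ψ : Emb L q), v (ψ.postComp τ) = τ.onUnits (v ψ) := by
    intro τ ψ
    by_cases h : ∃ a : H, φ.SamePlace (ψ.preComp (a : L ≃ₐ[ℚ] L)⁻¹)
    · obtain ⟨a, ha⟩ := h
      rw [hv1 ψ a ha, hv1 (ψ.postComp τ) a
        (by rw [← postComp_preComp]; exact (Emb.samePlace_postComp_iff τ).2 ha), ← postComp_preComp]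
      exact (F a).1.2.1 q τ _
    · have h' : ¬ ∃ a : H, φ.SamePlace ((ψ.postComp τ).preComp (a : L ≃ₐ[ℚ] L)⁻¹) := fun ⟨a, ha⟩ =>
        h ⟨a, (Emb.samePlace_postComp_iff τ).1 (postComp_preComp ψ τ _ ▸ ha)⟩
      simp only [v, dif_neg h, dif_neg h', map_zero]
  refine ⟨singlePrime q v hv, ⟨mem_orbitPart_iff.2 ⟨fun ψ hψ => ?_,
    fun r hr ψ => singlePrime_apply_of_ne v hv hr ψ, singlePrime_inf v hv⟩, fun h => ?_⟩, ?_⟩
  · rw [singlePrime_apply]
    refine dif_neg fun ⟨a, ha⟩ => hψ ⟨a, a.2, ?_⟩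
    have := ha.preComp (a : L ≃ₐ[ℚ] L)
    rwa [Emb.preComp_inv_preComp] at this
  · refine localPartVal_injective φ ?_
    change (restrictPlace φ _ : Idele L).fin q φ = (F h : Idele L).fin q φ
    rw [restrictPlace_apply φ _ (Emb.SamePlace.refl φ), Idele.fin, idele_smul_apply]
    change (singlePrime q v hv).fin q (φ.preComp h) = _
    rw [singlePrime_apply, hv1 _ h (by rw [Emb.preComp_preComp_inv]; exact Emb.SamePlace.refl φ),
      Emb.preComp_preComp_inv]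
  · rintro a ⟨ha, haF⟩
    obtain ⟨h1, h2, h3⟩ := mem_orbitPart_iff.1 ha
    refine eq_singlePrime hv (fun ψ => ?_) h2 h3
    by_cases hψ : Emb.SamePlaceRel H φ ψ
    · obtain ⟨g, hg, hs⟩ := hψ
      have hs' : φ.SamePlace (ψ.preComp g⁻¹) := by
        have := hs.preComp g⁻¹
        rwa [Emb.preComp_preComp_inv] at this
      rw [hv1 ψ (⟨g, hg⟩ : H) hs', ← haF (⟨g, hg⟩ : H), restrictPlace_apply φ _ hs', Idele.fin, Idele.fin,
        idele_smul_apply, Emb.preComp_inv_preComp]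
    · rw [h1 ψ hψ]
      simp only [v]
      rw [dif_neg]
      rintro ⟨g, hs⟩
      refine hψ ⟨g, g.2, ?_⟩
      have := hs.preComp (g : L ≃ₐ[ℚ] L)
      rwa [Emb.preComp_inv_preComp] at this

end FermatLib.CFT
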