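import Fermat.Agent.CFT.CFChiNorm
import Fermat.Agent.CFT.IdelePlaces
import Fermat.Agent.CFT.IdeleDecomp
import Fermat.Agent.CFT.ClassGroupSteps
import Fermat.Agent.CFT.LocalFrobenius

/-!
The characters on invariants of subgroups and their local evaluation.
-/

set_option autoImplicit false

open NumberField

namespace FermatLib.CFT

namespace Chi

variable {L : Type} [Field L] [NumberField L] [IsGalois ℚ L] {R : Nat.Primes} {N : ℕ} [NeZero N]
  (κ : (ZMod (R : ℕ))ˣ →* Multiplicative (ZMod N)) {Lt : Type} [Field Lt] [NumberField Lt]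
  [IsGalois ℚ Lt]

/-- The character on ideles fixed by `H`. -/
noncomputable def chi (H : Subgroup (Lt ≃ₐ[ℚ] Lt)) (f : Idele Lt) : ZMod N :=
  chiTop κ Lt (relNorm (Idele Lt) H ⊤ f)

theorem relNorm_fixed {H : Subgroup (Lt ≃ₐ[ℚ] Lt)} {f : Idele Lt}
    (hf : f ∈ fixedPts H (Idele Lt)) :
    relNorm (Idele Lt) H ⊤ f ∈ fixedPts (⊤ : Subgroup (Lt ≃ₐ[ℚ] Lt)) (Idele Lt) :=
  RelNorm.mem_fixedPts hf

theorem chi_add {H : Subgroup (Lt ≃ₐ[ℚ] Lt)} {f g : Idele Lt} (hf : f ∈ fixedPts H (Idele Lt))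
    (hg : g ∈ fixedPts H (Idele Lt)) : chi κ H (f + g) = chi κ H f + chi κ H g := by
  rw [chi, RelNorm.add', chiTop_add κ (relNorm_fixed hf) (relNorm_fixed hg)]
  rfl

theorem chi_nsmul {H : Subgroup (Lt ≃ₐ[ℚ] Lt)} {f : Idele Lt} (hf : f ∈ fixedPts H (Idele Lt))
    (n : ℕ) : chi κ H (n • f) = n • chi κ H f := by
  induction n with
  | zero => rw [zero_nsmul, zero_nsmul, chi, RelNorm.zero', chiTop_zero]
  | succ n ih => rw [succ_nsmul, succ_nsmul, chi_add κ (nsmul_mem hf n) hf, ih]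

theorem chi_relNorm {K H : Subgroup (Lt ≃ₐ[ℚ] Lt)} (hKH : K ≤ H) {f : Idele Lt}
    (hf : f ∈ fixedPts K (Idele Lt)) : chi κ H (relNorm (Idele Lt) K H f) = chi κ K f := by
  rw [chi, chi, RelNorm.trans' hKH le_top hf]

theorem chi_res {K H : Subgroup (Lt ≃ₐ[ℚ] Lt)} (hKH : K ≤ H) {f : Idele Lt}
    (hf : f ∈ fixedPts H (Idele Lt)) : chi κ K f = K.relIndex H • chi κ H f := by
  have hfK : f ∈ fixedPts K (Idele Lt) := fun g => hf ⟨g, hKH g.2⟩
  rw [← chi_relNorm κ hKH hfK, RelNorm.eq_of_mem_fixedPts hf, chi_nsmul κ hf]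

theorem chi_sub {H : Subgroup (Lt ≃ₐ[ℚ] Lt)} {f g : Idele Lt} (hf : f ∈ fixedPts H (Idele Lt))
    (hg : g ∈ fixedPts H (Idele Lt)) : chi κ H (f - g) = chi κ H f - chi κ H g := by
  have h := chi_add κ (sub_mem hf hg) hg
  rw [sub_add_cancel] at h
  exact eq_sub_of_add_eq h.symm

theorem relNorm_principal {K H : Subgroup (Lt ≃ₐ[ℚ] Lt)} {f : Idele Lt}
    (hf : f ∈ principalIdeles Lt) : relNorm (Idele Lt) K H f ∈ principalIdeles Lt := by
  have := Fintype.ofFinite (H ⧸ K.subgroupOf H)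
  rw [relNorm, finsum_eq_sum_of_fintype]
  exact sum_mem fun c _ => principalIdeles_smul_mem Lt _ hf

theorem chi_principal {H : Subgroup (Lt ≃ₐ[ℚ] Lt)} {f : Idele Lt}
    (hf : f ∈ fixedPts H (Idele Lt)) (hp : f ∈ principalIdeles Lt) : chi κ H f = 0 :=
  chiTop_principal κ (relNorm_fixed hf) (relNorm_principal hp)

open Classical in
/-- The character on idele classes fixed by `H`. -/
noncomputable def chiClass (H : Subgroup (Lt ≃ₐ[ℚ] Lt)) (c : IdeleClass Lt) : ZMod N :=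
  if h : ∃ f ∈ fixedPts H (Idele Lt), QuotientAddGroup.mk f = c then chi κ H h.choose else 0

theorem chiClass_mk {H : Subgroup (Lt ≃ₐ[ℚ] Lt)} {f : Idele Lt}
    (hf : f ∈ fixedPts H (Idele Lt)) : chiClass κ H (QuotientAddGroup.mk f) = chi κ H f := by
  have h : ∃ f' ∈ fixedPts H (Idele Lt), (QuotientAddGroup.mk f' : IdeleClass Lt) =
      QuotientAddGroup.mk f := ⟨f, hf, rfl⟩
  rw [chiClass, dif_pos h]
  have hd := (QuotientAddGroup.eq_iff_sub_mem).mp h.choose_spec.2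
  have h0 := chi_principal κ (sub_mem h.choose_spec.1 hf) hd
  rw [chi_sub κ h.choose_spec.1 hf, sub_eq_zero] at h0
  exact h0

theorem chiClass_nsmul {H : Subgroup (Lt ≃ₐ[ℚ] Lt)} {c : IdeleClass Lt}
    (hc : c ∈ fixedPts H (IdeleClass Lt)) (n : ℕ) :
    chiClass κ H (n • c) = n • chiClass κ H c := by
  obtain ⟨f, hf, rfl⟩ := exists_fixed_idele_of_fixed_class Lt H hc
  rw [← QuotientAddGroup.mk_nsmul, chiClass_mk κ (nsmul_mem hf n), chiClass_mk κ hf, chi_nsmul κ hf]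

theorem chiClass_res {K H : Subgroup (Lt ≃ₐ[ℚ] Lt)} (hKH : K ≤ H) {c : IdeleClass Lt}
    (hc : c ∈ fixedPts H (IdeleClass Lt)) :
    chiClass κ K c = K.relIndex H • chiClass κ H c := by
  obtain ⟨f, hf, rfl⟩ := exists_fixed_idele_of_fixed_class Lt H hc
  rw [chiClass_mk κ hf, chiClass_mk κ (fun g => hf ⟨g, hKH g.2⟩), chi_res κ hKH hf]

section kills

variable {κ} [Algebra L Lt] {ψ : (Lt ≃ₐ[ℚ] Lt) →* Multiplicative (ZMod N)}

theorem chi_norm_eq_zero (hA : IsAuxField L κ Lt ψ) (hκ : Function.Surjective κ)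
    (hcop : (Nat.card κ.ker).Coprime N) {H : Subgroup (Lt ≃ₐ[ℚ] Lt)} {f : Idele Lt}
    (hf : f ∈ fixedPts (ψ.ker ⊓ H : Subgroup (Lt ≃ₐ[ℚ] Lt)) (Idele Lt)) :
    chi κ H (relNorm (Idele Lt) (ψ.ker ⊓ H) H f) = 0 := by
  rw [chi_relNorm κ inf_le_right hf, ← chi_relNorm κ inf_le_left hf]
  exact chiTop_relNorm_ker hA hκ hcop (RelNorm.mem_fixedPts hf)

theorem chiClass_norm_eq_zero (hA : IsAuxField L κ Lt ψ) (hκ : Function.Surjective κ)
    (hcop : (Nat.card κ.ker).Coprime N) {H : Subgroup (Lt ≃ₐ[ℚ] Lt)} {c : IdeleClass Lt}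
    (hc : c ∈ relNormSet (IdeleClass Lt) (ψ.ker ⊓ H) H) : chiClass κ H c = 0 := by
  obtain ⟨d, hd, rfl⟩ := hc
  obtain ⟨f, hf, rfl⟩ := exists_fixed_idele_of_fixed_class Lt _ hd
  have hmap := RelNorm.map' (B := IdeleClass Lt) (QuotientAddGroup.mk' (principalIdeles Lt)) (fun g a => rfl)
    (ψ.ker ⊓ H) H f
  change QuotientAddGroup.mk (relNorm (Idele Lt) (ψ.ker ⊓ H) H f) = _ at hmap
  rw [show relNorm (IdeleClass Lt) (ψ.ker ⊓ H) H (QuotientAddGroup.mk f) =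
    QuotientAddGroup.mk (relNorm (Idele Lt) (ψ.ker ⊓ H) H f) from hmap.symm,
    chiClass_mk κ (RelNorm.mem_fixedPts hf)]
  exact chi_norm_eq_zero hA hκ hcop hf

end kills

section locVal

variable {q : Nat.Primes} {φ : Emb Lt q}

theorem localPart_relNorm_mem {H' H : Subgroup (Lt ≃ₐ[ℚ] Lt)} (hH : H ≤ decompGroup φ)
    {z : Idele Lt} (hz : z ∈ localPart φ) : relNorm (Idele Lt) H' H z ∈ localPart φ := by
  have := Fintype.ofFinite (H ⧸ H'.subgroupOf H)
  rw [relNorm, finsum_eq_sum_of_fintype]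
  exact sum_mem fun c _ => localPart_smul_mem φ (hH c.out.2) hz

/-- The total norm of a local element at its place. -/
theorem fin_relNorm_top_eq {H : Subgroup (Lt ≃ₐ[ℚ] Lt)} (hH : H ≤ decompGroup φ) {z : Idele Lt}
    (hz : z ∈ localPart φ) (hzf : z ∈ fixedPts H (Idele Lt)) :
    (relNorm (Idele Lt) H ⊤ z).fin q φ = (relNorm (Idele Lt) H (decompGroup φ) z).fin q φ := by
  classical
  set D := decompGroup φ
  set u := relNorm (Idele Lt) H D z with hu
  have hul : u ∈ localPart φ := localPart_relNorm_mem le_rfl hz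
  have huf : u ∈ fixedPts D (Idele Lt) := RelNorm.mem_fixedPts hzf
  rw [← RelNorm.trans' hH le_top hzf, ← hu]
  have := Fintype.ofFinite ((⊤ : Subgroup (Lt ≃ₐ[ℚ] Lt)) ⧸ D.subgroupOf ⊤)
  conv_lhs => rw [relNorm, finsum_eq_sum_of_fintype]
  rw [sum_fin_apply, Finset.sum_eq_single (QuotientGroup.mk (1 : (⊤ : Subgroup (Lt ≃ₐ[ℚ] Lt))))]
  · rw [RelNorm.out_smul huf 1]
    rfl
  · intro c _ hc
    by_contra h
    obtain ⟨_, hs⟩ := hul.1 q (φ.preComp ((c.out : (⊤ : Subgroup (Lt ≃ₐ[ℚ] Lt))) : Lt ≃ₐ[ℚ] Lt)) h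
    apply hc
    rw [← QuotientGroup.out_eq' c, QuotientGroup.eq, Subgroup.mem_subgroupOf]
    simpa using D.inv_mem hs
  · intro h; exact absurd (Finset.mem_univ _) h

theorem fin_relNorm_top_of_ne {H : Subgroup (Lt ≃ₐ[ℚ] Lt)} {z : Idele Lt} (hz : z ∈ localPart φ)
    {r : Nat.Primes} (hr : r ≠ q) (ψ : Emb Lt r) :
    (relNorm (Idele Lt) H ⊤ z).fin r ψ = 0 := by
  have := Fintype.ofFinite ((⊤ : Subgroup (Lt ≃ₐ[ℚ] Lt)) ⧸ H.subgroupOf ⊤)
  rw [relNorm, finsum_eq_sum_of_fintype, sum_fin_apply]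
  refine Finset.sum_eq_zero fun c _ => ?_
  by_contra h
  obtain ⟨h', -⟩ := hz.1 r (ψ.preComp _) h
  exact hr h'

theorem inf_relNorm_top {H : Subgroup (Lt ≃ₐ[ℚ] Lt)} {z : Idele Lt} (hz : z ∈ localPart φ)
    (χ : Lt →+* ℂ) : (relNorm (Idele Lt) H ⊤ z).inf χ = 0 := by
  have := Fintype.ofFinite ((⊤ : Subgroup (Lt ≃ₐ[ℚ] Lt)) ⧸ H.subgroupOf ⊤)
  rw [relNorm, finsum_eq_sum_of_fintype, sum_inf_apply]
  exact Finset.sum_eq_zero fun c _ => congrFun hz.2 _

/-- Evaluation of the character on an element supported at one place away from `R`. -/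
theorem chi_localPart (hq : q ≠ R) {H : Subgroup (Lt ≃ₐ[ℚ] Lt)} (hH : H ≤ decompGroup φ)
    {z : Idele Lt} (hz : z ∈ localPart φ) (hzf : z ∈ fixedPts H (Idele Lt)) {v : ℤ}
    (hv : ‖(z.fin q φ).toField‖ ^ H.relIndex (decompGroup φ) = ((q : ℕ) : ℝ) ^ (-v)) :
    chi κ H z = -(v • kappaPrime κ q) := by
  classical
  have hfix := relNorm_fixed hzf
  set φ' : ∀ r : Nat.Primes, Emb Lt r :=
    fun r => if h : r = q then h ▸ φ else Classical.arbitrary _
  have hφ' : φ' q = φ := by simp [φ']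
  rw [chi, chiTop_eq κ hfix (φ' R) φ' (Classical.arbitrary _),
    finsum_eq_single _ q fun r hr => by
      rw [fin_relNorm_top_of_ne hz hr,
        baseVal_eq (y := 1) (by rw [map_one, QUnits.toField_zero]), Padic.valuation_one, zero_smul],
    hφ', fin_relNorm_top_of_ne hz hq.symm, inf_relNorm_top hz, fin_relNorm_top_eq hH hz hzf,
    baseVal_eq (q := R) (y := 1) (by rw [map_one, QUnits.toField_zero]),
    resUnit_eq_one R (k := 0) (by simp), kappaAdd_one]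
  have hsign : signPart κ (0 : CUnits) = 0 := by
    rw [signPart, if_neg]
    simp [CUnits.toField_zero]
  rw [hsign, zero_sub, sub_zero]
  congr 2
  set x := (relNorm (Idele Lt) H (decompGroup φ) z).fin q φ with hx
  have hb : IsBase x := by
    rw [hx, ← fin_relNorm_top_eq hH hz hzf]
    exact isBase_of_fixed hfix φ
  have hnorm : ‖x.toField‖ = ‖(z.fin q φ).toField‖ ^ H.relIndex (decompGroup φ) := by
    have := Fintype.ofFinite (decompGroup φ ⧸ H.subgroupOf (decompGroup φ))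
    rw [hx, relNorm, finsum_eq_sum_of_fintype, sum_fin_apply, toField_sum, norm_prod]
    rw [Finset.prod_congr rfl fun c _ => show _ = ‖(z.fin q φ).toField‖ from ?_,
      Finset.prod_const, Finset.card_univ, ← Nat.card_eq_fintype_card]
    · rfl
    · obtain ⟨τ, hτ⟩ := (c.out : decompGroup φ).2
      change ‖(z.fin q (φ.preComp _)).toField‖ = _
      rw [← hτ, show z.fin q (φ.postComp τ) = Gloc.onUnits τ (z.fin q φ) from z.2.1 q τ φ,
        QUnits.toField_onUnits, CFLocal.norm_gal]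
  have h1 := Padic.norm_eq_zpow_neg_valuation (baseVal_ne_zero hb)
  rw [← norm_algebraMap' (PadicAlgCl (q : ℕ)), algebraMap_baseVal hb, hnorm, hv] at h1
  exact (neg_injective (zpow_right_injective₀ (show (0 : ℝ) < (q : ℕ) by exact_mod_cast q.2.pos)
    (show ((q : ℕ) : ℝ) ≠ 1 by exact_mod_cast q.2.ne_one) h1)).symm

variable {κ} [Algebra L Lt] {ψ : (Lt ≃ₐ[ℚ] Lt) →* Multiplicative (ZMod N)}

/-- Local surjectivity: a local element whose character generates at least `ψ` of the subgroup. -/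
theorem exists_localPart_chi (hA : IsAuxField L κ Lt ψ) (hq : q ≠ R)
    {H : Subgroup (Lt ≃ₐ[ℚ] Lt)} (hH : H ≤ decompGroup φ) :
    ∃ z : Idele Lt, z ∈ localPart φ ∧ z ∈ fixedPts H (Idele Lt) ∧
      ∀ h ∈ H, psiAdd ψ h ∈ AddSubgroup.zmultiples (chi κ H z) := by
  classical
  have : NeZero (R : ℕ) := ⟨R.2.ne_zero⟩
  set E := localField H φ with hE
  set π := Loc.uniformizer E
  have hπ0 : (π : PadicAlgCl (q : ℕ)) ≠ 0 :=
    fun h => (Loc.isUniformizer_uniformizer E).1 (Subtype.ext h)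
  set y : QUnits q := Additive.ofMul (Units.mk0 _ hπ0) with hy
  have hyE : y.toField ∈ localField H φ := π.2
  set z := placeIdele H φ y hyE
  have hzl : z ∈ localPart φ := by
    refine ⟨fun r ψ' h => ?_, funext fun χ => placeIdele_inf H φ y hyE χ⟩
    by_cases hr : r = q
    · subst hr
      refine ⟨rfl, ?_⟩
      obtain ⟨g, hg, hs⟩ : Emb.SamePlaceRel H φ ψ' := by
        by_contra hc
        exact h (placeIdele_apply_of_not_rel H φ y hyE hc)
      exact Emb.SamePlace.trans (hH hg) hs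
    · exact absurd (placeIdele_apply_of_ne H φ y hyE hr ψ') h
  have hzf : z ∈ fixedPts H (Idele Lt) := placeIdele_mem_fixedPts H φ y hyE
  refine ⟨z, hzl, hzf, fun h hh => ?_⟩
  have hidx : H.relIndex (decompGroup φ) = Module.finrank ℚ_[(q : ℕ)] E := by
    have h1 := finrank_localField H φ
    rw [inf_eq_right.mpr hH] at h1
    have h2 := Subgroup.card_mul_index (H.subgroupOf (decompGroup φ))
    rw [Nat.card_congr (Subgroup.subgroupOfEquivOfLe hH).toEquiv] at h2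
    change Nat.card H * H.relIndex (decompGroup φ) = _ at h2
    rw [← h2, mul_comm] at h1
    exact (Nat.eq_of_mul_eq_mul_left Nat.card_pos h1).symm
  have hv : ‖(z.fin q φ).toField‖ ^ H.relIndex (decompGroup φ) =
      ((q : ℕ) : ℝ) ^ (-(Loc.resDeg E : ℤ)) := by
    rw [placeIdele_apply_self, hidx, ← Loc.ramIdx_mul_resDeg E,
      show ‖y.toField‖ = ‖π‖ from rfl, pow_mul, ← Loc.inv_q_eq_pow_ramIdx, zpow_neg, zpow_natCast,
      inv_pow]
  rw [chi_localPart κ hq hH hzl hzf hv]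
  obtain ⟨τ, hτ⟩ : ∃ τ : Gloc q, φ.postComp τ = φ.preComp h := hH hh
  have hfix : Loc.FixesField E τ := fun x =>
    (gloc_fixes_localField_iff H φ τ).mpr ⟨h, hh, hτ⟩ x x.2
  obtain ⟨ζ, hζ⟩ := HasEnoughRootsOfUnity.exists_primitiveRoot (PadicAlgCl (q : ℕ)) (R : ℕ)
  have hnd : ¬ (q : ℕ) ∣ (R : ℕ) := fun hd =>
    hq (Subtype.ext ((Nat.prime_dvd_prime_iff_eq q.2 R.2).mp hd))
  obtain ⟨j, hj⟩ := Loc.exists_rootOfUnity_pow (K := E) hfix hnd hζ.pow_eq_one
  have hqR : ((q : ℕ) : ZMod (R : ℕ)) ≠ 0 := fun h0 => hq (Subtype.ext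
    ((Nat.prime_dvd_prime_iff_eq R.2 q.2).mp ((ZMod.natCast_eq_zero_iff _ _).mp h0)).symm)
  have hψ : psiAdd ψ h = (Loc.resDeg E * j) • kappaPrime κ q := by
    rw [psiAdd_of_gloc hA φ τ h hτ hζ (Units.mk0 _ hqR ^ (Loc.resDeg E * j)) (by
      rw [hj, pow_eq_pow_mod ((q : ℕ) ^ (Loc.resDeg E * j)) hζ.pow_eq_one,
        Units.val_pow_eq_pow_val, Units.val_mk0, ← Nat.cast_pow, ZMod.val_natCast]),
      kappaPrime, dif_neg hqR, kappaAdd, kappaAdd, map_pow, toAdd_pow]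
  refine AddSubgroup.mem_zmultiples_iff.mpr ⟨-(j : ℤ), ?_⟩
  rw [hψ, neg_smul_neg, ← mul_smul, ← natCast_zsmul]
  congr 1
  push_cast
  ring

end locVal

end Chi

end FermatLib.CFT
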