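import Fermat.Agent.CFT.IdelePlaces

/-!
Compatibility of ideles with extensions.
-/

set_option autoImplicit false

open NumberField

namespace FermatLib.CFT

variable {L : Type} [Field L] [NumberField L] {L' : Type} [Field L'] [NumberField L']
  [Algebra L L']

/-- Every embedding extends. -/
theorem exists_emb_extension {M : Type*} [Field M] [IsAlgClosed M] (φ : L →+* M) :
    ∃ φ' : L' →+* M, φ'.comp (algebraMap L L') = φ := by
  letI := φ.toAlgebra
  haveI : IsScalarTower ℚ L L' := IsScalarTower.of_algebraMap_eq' (Subsingleton.elim _ _)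
  haveI : Algebra.IsAlgebraic L L' := Algebra.IsAlgebraic.tower_top (K := ℚ) L
  exact ⟨(IsAlgClosed.lift (R := L) (S := L') (M := M)).toRingHom, AlgHom.comp_algebraMap _⟩

theorem ideleBaseChange_injective : Function.Injective (ideleBaseChange L L') := by
  intro f g h
  refine idele_ext (fun q φ => ?_) (fun φ => ?_)
  · obtain ⟨φ', rfl⟩ := exists_emb_extension (L' := L') φ
    exact congrArg (fun z : Idele L' => (z.fin q φ').toField) h
  · obtain ⟨φ', rfl⟩ := exists_emb_extension (L' := L') φ
    exact congrArg (fun z : Idele L' => CUnits.toField (z.inf φ')) h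

theorem ideleBaseChange_smul (g : L' ≃ₐ[ℚ] L') (h : L ≃ₐ[ℚ] L)
    (hgh : ∀ x, g (algebraMap L L' x) = algebraMap L L' (h x)) (f : Idele L) :
    ideleBaseChange L L' (h • f) = g • ideleBaseChange L L' f := by
  have hq : ∀ (q : Nat.Primes) (φ : Emb L' q),
      Emb.preComp (φ.comp (algebraMap L L')) h = (φ.preComp g).comp (algebraMap L L') :=
    fun q φ => RingHom.ext fun x => congrArg φ (hgh x).symm
  have hi : ∀ φ : L' →+* ℂ, (φ.comp (algebraMap L L')).comp (h : L →+* L) =
      (φ.comp (g : L' →+* L')).comp (algebraMap L L') :=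
    fun φ => RingHom.ext fun x => congrArg φ (hgh x).symm
  exact idele_ext (fun q φ => congrArg (fun z => (f.fin q z).toField) (hq q φ))
    (fun φ => congrArg (fun z => CUnits.toField (f.inf z)) (hi φ))

/-- The inclusion of multiplicative groups. -/
noncomputable def lunitsBaseChange : LUnits L →+ LUnits L' :=
  MonoidHom.toAdditive (Units.map (algebraMap L L' : L →* L'))

theorem ideleBaseChange_principalIdele (x : LUnits L) :
    ideleBaseChange L L' (principalIdele L x) = principalIdele L' (lunitsBaseChange x) :=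
  idele_ext (fun _ _ => rfl) (fun _ => rfl)

theorem classBaseChange_mk (f : Idele L) :
    classBaseChange L L' (QuotientAddGroup.mk f) = QuotientAddGroup.mk (ideleBaseChange L L' f) :=
  rfl

theorem classBaseChange_smul (g : L' ≃ₐ[ℚ] L') (h : L ≃ₐ[ℚ] L)
    (hgh : ∀ x, g (algebraMap L L' x) = algebraMap L L' (h x)) (c : IdeleClass L) :
    classBaseChange L L' (h • c) = g • classBaseChange L L' c :=
  QuotientAddGroup.induction_on c fun f =>
    congrArg (QuotientAddGroup.mk (s := principalIdeles L')) (ideleBaseChange_smul g h hgh f)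

theorem ideleBaseChange_mem_sIdeles_iff (S : Set Nat.Primes) (f : Idele L) :
    ideleBaseChange L L' f ∈ sIdeles L' S ↔ f ∈ sIdeles L S := by
  refine ⟨fun hf q hq φ => ?_, fun hf q hq φ => hf q hq _⟩
  obtain ⟨φ', rfl⟩ := exists_emb_extension (L' := L') φ
  exact hf q hq φ'

section GaloisTop

variable [IsGalois ℚ L']

theorem mem_range_ideleBaseChange {f : Idele L'}
    (hf : ∀ g : L' ≃ₐ[ℚ] L', (∀ x, g (algebraMap L L' x) = algebraMap L L' x) → g • f = f) :
    f ∈ (ideleBaseChange L L').range := by
  have hq : ∀ (q : Nat.Primes) (φ ψ : Emb L' q),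
      φ.comp (algebraMap L L') = ψ.comp (algebraMap L L') → f.1.1 q ψ = f.1.1 q φ := by
    intro q φ ψ he
    obtain ⟨g, rfl⟩ := Emb.exists_preComp_eq φ ψ
    rw [← idele_smul_apply,
      hf g fun x => φ.injective (RingHom.congr_fun he x).symm]
  have hi : ∀ φ ψ : L' →+* ℂ,
      φ.comp (algebraMap L L') = ψ.comp (algebraMap L L') → f.1.2 ψ = f.1.2 φ := by
    intro φ ψ he
    obtain ⟨g, rfl⟩ := exists_comp_eq_inf φ ψ
    rw [← idele_smul_apply_inf,
      hf g fun x => φ.injective (RingHom.congr_fun he x).symm]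
  choose e he using fun (q : Nat.Primes) (φ : Emb L q) => exists_emb_extension (L' := L') φ
  choose ei hei using fun φ : L →+* ℂ => exists_emb_extension (L' := L') φ
  refine ⟨⟨(fun q φ => f.1.1 q (e q φ), fun φ => f.1.2 (ei φ)), fun q τ φ => ?_,
    f.2.2.1.subset fun q ⟨φ, hφ⟩ => ⟨e q φ, hφ⟩, fun φ => ?_⟩,
    idele_ext (fun q φ => ?_) (fun φ => ?_)⟩
  · show f.1.1 q (e q (φ.postComp τ)) = τ.onUnits (f.1.1 q (e q φ))
    rw [← f.2.1 q τ (e q φ)]
    refine hq q _ _ ?_
    rw [he]
    exact congrArg (Emb.postComp τ) (he q φ)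
  · show f.1.2 (ei ((starRingEnd ℂ).comp φ)) = conjUnits (f.1.2 (ei φ))
    rw [← f.2.2.2 (ei φ)]
    refine hi _ _ ?_
    rw [hei, RingHom.comp_assoc, hei]
  · exact congrArg QUnits.toField (hq q φ _ (he q _).symm)
  · exact congrArg CUnits.toField (hi φ _ (hei _).symm)

theorem classBaseChange_injective : Function.Injective (classBaseChange L L') := by
  haveI : IsScalarTower ℚ L L' := IsScalarTower.of_algebraMap_eq' (Subsingleton.elim _ _)
  haveI : IsGalois L L' := IsGalois.tower_top_of_isGalois ℚ L L'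
  haveI : FiniteDimensional L L' := Module.Finite.of_restrictScalars_finite ℚ L L'
  rw [injective_iff_map_eq_zero]
  intro c
  induction c using QuotientAddGroup.induction_on with
  | H f =>
  intro hf
  rw [classBaseChange_mk, QuotientAddGroup.eq_zero_iff, principalIdeles_eq_range] at hf
  obtain ⟨y, hy⟩ := hf
  have hfix : ∀ σ : L' ≃ₐ[L] L', σ (y.val : L') = y.val := fun σ => by
    have h1 : σ.restrictScalars ℚ • ideleBaseChange L L' f = ideleBaseChange L L' f := by
      rw [← ideleBaseChange_smul (σ.restrictScalars ℚ) 1 (fun x => σ.commutes x) f, one_smul]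
    rw [← hy, ← principalIdele_smul] at h1
    exact congrArg (fun z : LUnits L' => (z.val : L')) (principalIdele_injective h1)
  obtain ⟨x, hx⟩ := IntermediateField.mem_bot.1
    ((IsGalois.mem_bot_iff_fixed (F := L) (E := L') _).2 hfix)
  have hx0 : x ≠ 0 := fun h => y.val.ne_zero (by rw [← hx, h, map_zero])
  rw [QuotientAddGroup.eq_zero_iff, principalIdeles_eq_range]
  refine ⟨LUnits.of (Units.mk0 x hx0), ideleBaseChange_injective (L' := L') ?_⟩
  rw [ideleBaseChange_principalIdele, ← hy]
  exact congrArg _ (LUnits.ext_val hx)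

end GaloisTop

end FermatLib.CFT
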