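import Fermat.Agent.CFT.CFAuxPrime
import Fermat.Agent.CFT.CFAuxField
import Fermat.Agent.CFT.CFChi
import Fermat.Agent.CFT.CFAbstract
import Fermat.Agent.CFT.IdeleBaseChange

/-!
Properties of the auxiliary field shared by the global and local constructions.
-/

set_option autoImplicit false

open NumberField

namespace FermatLib.CFT

namespace Chi

variable {p : ℕ} [hp : Fact p.Prime] {R : Nat.Primes}

theorem coprime_card_ker {c : ℕ} {κ : (ZMod (R : ℕ))ˣ →* Multiplicative (ZMod (p ^ c))}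
    (hκ : Function.Surjective κ) (hc : ¬ p ∣ ((R : ℕ) - 1) / p ^ c) :
    (Nat.card κ.ker).Coprime (p ^ c) := by
  have : Fact (R : ℕ).Prime := ⟨R.2⟩
  have h1 := κ.ker.card_mul_index
  have hidx : κ.ker.index = p ^ c := by
    rw [Subgroup.index_ker, MonoidHom.range_eq_top.mpr hκ, Subgroup.card_top,
      Nat.card_eq_fintype_card, Fintype.card_multiplicative, ZMod.card]
  rw [hidx, Nat.card_eq_fintype_card (α := (ZMod (R : ℕ))ˣ), ZMod.card_units] at h1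
  rw [← h1, Nat.mul_div_cancel _ (pow_pos hp.out.pos c)] at hc
  exact Nat.Coprime.pow_right _ ((hp.out.coprime_iff_not_dvd.mpr hc).symm)

variable {L : Type} [Field L] [NumberField L] [IsGalois ℚ L] {c : ℕ}
  {κ : (ZMod (R : ℕ))ˣ →* Multiplicative (ZMod (p ^ c))} {Lt : Type} [Field Lt] [NumberField Lt]
  [IsGalois ℚ Lt] [Algebra L Lt] {ψ : (Lt ≃ₐ[ℚ] Lt) →* Multiplicative (ZMod (p ^ c))}

theorem isPGroup_ker (hA : IsAuxField L κ Lt ψ) :
    IsPGroup p (AlgEquiv.restrictNormalHom L : (Lt ≃ₐ[ℚ] Lt) →* (L ≃ₐ[ℚ] L)).ker := by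
  have hZ : IsPGroup p (Multiplicative (ZMod (p ^ c))) :=
    IsPGroup.of_card (n := c) (by rw [Nat.card_eq_fintype_card, Fintype.card_multiplicative, ZMod.card])
  refine hZ.of_injective (ψ.comp (Subgroup.subtype _)) ?_
  refine (injective_iff_map_eq_one _).2 fun g hg => Subtype.ext ?_
  exact hA.eq_one_of_ker g g.2 hg

theorem apply_algebraMap (g : Lt ≃ₐ[ℚ] Lt) (x : L) :
    g (algebraMap L Lt x) = algebraMap L Lt (AlgEquiv.restrictNormalHom L g x) :=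
  (AlgEquiv.restrictNormal_commutes g L x).symm

theorem restrictNormalHom_eq_one {g : Lt ≃ₐ[ℚ] Lt}
    (h : ∀ x : L, g (algebraMap L Lt x) = algebraMap L Lt x) :
    AlgEquiv.restrictNormalHom L g = 1 :=
  AlgEquiv.ext fun x => (algebraMap L Lt).injective ((apply_algebraMap g x).symm.trans (h x))

theorem mem_range_classBaseChange {a : IdeleClass Lt}
    (ha : ∀ g ∈ (AlgEquiv.restrictNormalHom L : (Lt ≃ₐ[ℚ] Lt) →* (L ≃ₐ[ℚ] L)).ker, g • a = a) :
    a ∈ (classBaseChange L Lt).range := by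
  obtain ⟨f, hf, rfl⟩ := exists_fixed_idele_of_fixed_class Lt
    (AlgEquiv.restrictNormalHom L : (Lt ≃ₐ[ℚ] Lt) →* (L ≃ₐ[ℚ] L)).ker
    (c := a) (fun g => ha g g.2)
  obtain ⟨f', hf'⟩ := mem_range_ideleBaseChange (f := f) fun g hg =>
    hf ⟨g, restrictNormalHom_eq_one hg⟩
  exact ⟨QuotientAddGroup.mk f', by rw [classBaseChange_mk, hf']⟩

theorem chiClass_add {H : Subgroup (Lt ≃ₐ[ℚ] Lt)} {a b : IdeleClass Lt}
    (ha : a ∈ fixedPts H (IdeleClass Lt)) (hb : b ∈ fixedPts H (IdeleClass Lt)) :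
    chiClass κ H (a + b) = chiClass κ H a + chiClass κ H b := by
  obtain ⟨f, hf, rfl⟩ := exists_fixed_idele_of_fixed_class Lt H ha
  obtain ⟨g, hg, rfl⟩ := exists_fixed_idele_of_fixed_class Lt H hb
  rw [← QuotientAddGroup.mk_add, chiClass_mk κ (add_mem hf hg), chiClass_mk κ hf,
    chiClass_mk κ hg, chi_add κ hf hg]

theorem mk_mem_fixedPts {H : Subgroup (Lt ≃ₐ[ℚ] Lt)} {f : Idele Lt}
    (hf : f ∈ fixedPts H (Idele Lt)) :
    (QuotientAddGroup.mk f : IdeleClass Lt) ∈ fixedPts H (IdeleClass Lt) :=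
  fun g => congrArg (fun x : Idele Lt => (QuotientAddGroup.mk x : IdeleClass Lt)) (hf g)

/-- An element generating the image of a `p`-group, taken outside a subgroup of index `p`. -/
theorem psi_mem_zpowers {G : Type*} [Group G] (ψ : G →* Multiplicative (ZMod (p ^ c)))
    {K K'' : Subgroup G} [(K''.subgroupOf K).Normal] (hle : ψ.ker ⊓ K ≤ K'')
    (hidx : K''.relIndex K = p) {g : G} (hg : g ∈ K) (hg' : g ∉ K'') {x : G} (hx : x ∈ K) :
    ψ x ∈ Subgroup.zpowers (ψ g) := by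
  obtain ⟨⟨y0, hy0⟩, hgen⟩ := IsCyclic.exists_generator (α := K.map ψ)
  obtain ⟨x0, hx0, rfl⟩ := hy0
  obtain ⟨i, hi⟩ := Subgroup.mem_zpowers_iff.1 (hgen ⟨ψ g, g, hg, rfl⟩)
  obtain ⟨k, hk⟩ := Subgroup.mem_zpowers_iff.1 (hgen ⟨ψ x, x, hx, rfl⟩)
  have hi' : ψ x0 ^ i = ψ g := by simpa using congrArg Subtype.val hi
  have hk' : ψ x0 ^ k = ψ x := by simpa using congrArg Subtype.val hk
  have hpi : ¬ (p : ℤ) ∣ i := by
    rintro ⟨j, rfl⟩
    have h1 : ((⟨x0, hx0⟩ : K) ^ (K''.subgroupOf K).index : K) ∈ K''.subgroupOf K :=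
      Subgroup.pow_index_mem _ _
    rw [show (K''.subgroupOf K).index = p from hidx, Subgroup.mem_subgroupOf] at h1
    simp only [SubmonoidClass.coe_pow] at h1
    have h2 : (x0 ^ p) ^ j ∈ K'' := K''.zpow_mem h1 j
    have h3 : ((x0 ^ p) ^ j)⁻¹ * g ∈ K'' := hle ⟨by
      show ψ (((x0 ^ p) ^ j)⁻¹ * g) = 1
      rw [map_mul, map_inv, map_zpow, map_pow, ← zpow_natCast, ← zpow_mul, hi', inv_mul_cancel],
      K.mul_mem (K.inv_mem (K.zpow_mem (K.pow_mem hx0 p) j)) hg⟩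
    exact hg' (by simpa [mul_inv_cancel_left] using K''.mul_mem h2 h3)
  obtain ⟨d, hd⟩ : ∃ d : ℕ, orderOf (ψ x0) = p ^ d := by
    have hdvd : orderOf (ψ x0) ∣ p ^ c := by
      simpa [Nat.card_eq_fintype_card, Fintype.card_multiplicative, ZMod.card] using
        orderOf_dvd_natCard (ψ x0)
    obtain ⟨d, -, hd⟩ := (Nat.dvd_prime_pow hp.out).1 hdvd
    exact ⟨d, hd⟩
  have hco : IsCoprime i ((p ^ d : ℕ) : ℤ) := by
    push_cast
    exact (((Nat.prime_iff_prime_int.mp hp.out).coprime_iff_not_dvd).mpr hpi).symm.pow_right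
  obtain ⟨u, v, huv⟩ := hco
  have hv : (ψ x0) ^ (((p ^ d : ℕ) : ℤ)) = 1 := by rw [zpow_natCast, ← hd, pow_orderOf_eq_one]
  have : ψ x0 = ψ g ^ u := by
    conv_lhs => rw [← zpow_one (ψ x0), ← huv]
    rw [zpow_add, mul_comm v, zpow_mul, zpow_mul, hv, one_zpow, mul_one, ← zpow_mul, mul_comm u,
      zpow_mul, hi']
  exact Subgroup.mem_zpowers_iff.2 ⟨u * k, by rw [zpow_mul, ← this, hk']⟩

/-- For a `p`-subgroup some invariant class has character covering `ψ`. -/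
theorem exists_class_cover (hA : IsAuxField L κ Lt ψ) {K : Subgroup (Lt ≃ₐ[ℚ] Lt)}
    (hK : IsPGroup p K) :
    ∃ a ∈ fixedPts K (IdeleClass Lt),
      ∀ g ∈ K, (ψ g).toAdd ∈ AddSubgroup.zmultiples (chiClass κ K a) := by
  by_cases htriv : ψ.ker ⊓ K = K
  · refine ⟨0, zero_mem _, fun g hg => ?_⟩
    have hg' : g ∈ ψ.ker ⊓ K := htriv.symm ▸ hg
    rw [MonoidHom.mem_ker.1 hg'.1, toAdd_one]
    exact zero_mem _
  obtain ⟨K'', hK''W, hK''K, hidx, hnormal⟩ :=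
    exists_normal_index_prime (p := p) hK (inf_le_right : ψ.ker ⊓ K ≤ K) htriv
  obtain ⟨q, hq, φ, g, hg, hg'⟩ := exists_place_not_split (p := p) Lt K'' K hK''K hidx {R}
  have hqR : q ≠ R := fun h => hq (by simp [h])
  obtain ⟨z, hzl, hzf, hcover⟩ := exists_localPart_chi hA hqR (φ := φ)
    (H := decompGroup φ ⊓ K) inf_le_left
  have hfix : relNorm (Idele Lt) (decompGroup φ ⊓ K) K z ∈ fixedPts K (Idele Lt) :=
    RelNorm.mem_fixedPts hzf
  refine ⟨QuotientAddGroup.mk (relNorm (Idele Lt) (decompGroup φ ⊓ K) K z), mk_mem_fixedPts hfix,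
    fun x hx => ?_⟩
  rw [chiClass_mk κ hfix, chi_relNorm κ inf_le_right hzf]
  obtain ⟨i, hi⟩ := Subgroup.mem_zpowers_iff.1 (psi_mem_zpowers ψ hK''W hidx hg.2 hg' hx)
  rw [← hi, toAdd_zpow]
  exact AddSubgroup.zsmul_mem _ (hcover g hg) i

end Chi

end FermatLib.CFT
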