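import Fermat.Agent.CFT.IdeleBasic
import Fermat.Agent.CFT.CFRelNorm

/-!
The character on invariant ideles attached to a character `κ` of `(ZMod r)ˣ`, and its vanishing on
principal ideles.
-/

set_option autoImplicit false

open NumberField

namespace FermatLib.CFT

namespace Chi

/-- The element of `ℚ_[q]` below a value fixed by all local automorphisms. -/
noncomputable def baseVal {q : Nat.Primes} (x : QUnits q) : ℚ_[(q : ℕ)] :=
  Function.invFun (algebraMap ℚ_[(q : ℕ)] (PadicAlgCl (q : ℕ))) x.toField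

/-- Being fixed by all local automorphisms. -/
def IsBase {q : Nat.Primes} (x : QUnits q) : Prop := ∀ τ : Gloc q, τ x.toField = x.toField

theorem algebraMap_baseVal {q : Nat.Primes} {x : QUnits q} (h : IsBase x) :
    algebraMap ℚ_[(q : ℕ)] (PadicAlgCl (q : ℕ)) (baseVal x) = x.toField :=
  Function.invFun_eq ((InfiniteGalois.mem_range_algebraMap_iff_fixed x.toField).mpr h)

theorem baseVal_eq {q : Nat.Primes} {x : QUnits q} {y : ℚ_[(q : ℕ)]}
    (h : algebraMap ℚ_[(q : ℕ)] (PadicAlgCl (q : ℕ)) y = x.toField) : baseVal x = y := by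
  rw [baseVal, ← h]
  exact Function.leftInverse_invFun
    (algebraMap ℚ_[(q : ℕ)] (PadicAlgCl (q : ℕ))).injective y

theorem baseVal_ne_zero {q : Nat.Primes} {x : QUnits q} (h : IsBase x) : baseVal x ≠ 0 :=
  fun h0 => x.toField_ne_zero (by rw [← algebraMap_baseVal h, h0, map_zero])

theorem baseVal_add {q : Nat.Primes} {x y : QUnits q} (hx : IsBase x) (hy : IsBase y) :
    baseVal (x + y) = baseVal x * baseVal y :=
  baseVal_eq (by rw [map_mul, algebraMap_baseVal hx, algebraMap_baseVal hy, QUnits.toField_add])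

theorem valuation_eq_zero_of_unit {q : Nat.Primes} {x : QUnits q} (h : IsBase x)
    (hu : x ∈ QUnits.unitGroup q) : (baseVal x).valuation = 0 := by
  rw [QUnits.mem_unitGroup_iff, ← algebraMap_baseVal h, norm_algebraMap'] at hu
  have h1 := Padic.norm_eq_zpow_neg_valuation (baseVal_ne_zero h)
  rw [hu] at h1
  have h2 := zpow_right_injective₀ (show (0 : ℝ) < (q : ℕ) by exact_mod_cast q.2.pos)
    (show ((q : ℕ) : ℝ) ≠ 1 by exact_mod_cast q.2.ne_one)
    (show ((q : ℕ) : ℝ) ^ (0 : ℤ) = ((q : ℕ) : ℝ) ^ (-(baseVal x).valuation) by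
      rw [zpow_zero]; exact h1)
  omega

variable (R : Nat.Primes)

theorem norm_unitPart {y : ℚ_[(R : ℕ)]} (hy : y ≠ 0) :
    ‖y * ((R : ℕ) : ℚ_[(R : ℕ)]) ^ (-y.valuation)‖ = 1 := by
  rw [norm_mul, norm_zpow, Padic.norm_p, Padic.norm_eq_zpow_neg_valuation hy, inv_zpow', neg_neg,
    ← zpow_add₀ (Nat.cast_ne_zero.mpr R.2.ne_zero), neg_add_cancel, zpow_zero]

open Classical in
/-- The residue of the unit part of a nonzero element of `ℚ_[R]`. -/
noncomputable def resUnit (y : ℚ_[(R : ℕ)]) : (ZMod (R : ℕ))ˣ :=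
  if hy : y = 0 then 1
  else Units.map PadicInt.toZMod.toMonoidHom (PadicInt.mkUnits (norm_unitPart R hy))

theorem coe_resUnit {y : ℚ_[(R : ℕ)]} (hy : y ≠ 0) {z : ℤ_[(R : ℕ)]}
    (hz : (z : ℚ_[(R : ℕ)]) = y * ((R : ℕ) : ℚ_[(R : ℕ)]) ^ (-y.valuation)) :
    (resUnit R y : ZMod (R : ℕ)) = PadicInt.toZMod z := by
  rw [resUnit, dif_neg hy]
  exact congrArg PadicInt.toZMod (Subtype.ext hz.symm)

theorem resUnit_mul {y y' : ℚ_[(R : ℕ)]} (hy : y ≠ 0) (hy' : y' ≠ 0) :
    resUnit R (y * y') = resUnit R y * resUnit R y' := by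
  have h : y * y' ≠ 0 := mul_ne_zero hy hy'
  rw [resUnit, resUnit, resUnit, dif_neg hy, dif_neg hy', dif_neg h, ← map_mul]
  congr 1
  refine Units.ext (Subtype.ext ?_)
  simp only [Units.val_mul, PadicInt.coe_mul, PadicInt.mkUnits_eq]
  rw [Padic.valuation_mul hy hy', neg_add, zpow_add₀ (Nat.cast_ne_zero.mpr R.2.ne_zero)]
  ring

theorem toZMod_eq_one_of_norm_lt {z : ℤ_[(R : ℕ)]} (h : ‖z - 1‖ < 1) : PadicInt.toZMod z = 1 := by
  have hker : z - 1 ∈ RingHom.ker (PadicInt.toZMod (p := (R : ℕ))) := by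
    rw [PadicInt.ker_toZMod]
    exact (IsLocalRing.mem_maximalIdeal _).mpr (PadicInt.mem_nonunits.mpr h)
  rwa [RingHom.mem_ker, map_sub, map_one, sub_eq_zero] at hker

theorem resUnit_eq_one {y : ℚ_[(R : ℕ)]} {k : ℤ}
    (h : ‖y * ((R : ℕ) : ℚ_[(R : ℕ)]) ^ (-k) - 1‖ < 1) : resUnit R y = 1 := by
  set u := y * ((R : ℕ) : ℚ_[(R : ℕ)]) ^ (-k) with hu
  have hu1 : ‖u‖ = 1 := by
    have h1 := IsUltrametricDist.norm_add_eq_max_of_norm_ne_norm (x := u - 1)
      (y := (1 : ℚ_[(R : ℕ)])) (by rw [norm_one]; exact h.ne)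
    rw [sub_add_cancel, norm_one, max_eq_right h.le] at h1
    exact h1
  have hy : y ≠ 0 := fun h0 => by rw [hu, h0, zero_mul, norm_zero] at hu1; exact zero_ne_one hu1
  have hk : y.valuation = k := by
    rw [hu, norm_mul, norm_zpow, Padic.norm_p, Padic.norm_eq_zpow_neg_valuation hy, inv_zpow',
      neg_neg, ← zpow_add₀ (Nat.cast_ne_zero.mpr R.2.ne_zero)] at hu1
    have := zpow_right_injective₀ (show (0 : ℝ) < (R : ℕ) by exact_mod_cast R.2.pos)
      (show ((R : ℕ) : ℝ) ≠ 1 by exact_mod_cast R.2.ne_one) (hu1.trans (zpow_zero _).symm)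
    omega
  refine Units.ext ?_
  rw [coe_resUnit R hy (z := ⟨u, hu1.le⟩) (by rw [hk]), Units.val_one]
  exact toZMod_eq_one_of_norm_lt R h

variable {R} {N : ℕ} (κ : (ZMod (R : ℕ))ˣ →* Multiplicative (ZMod N))

/-- `κ` written additively. -/
def kappaAdd (u : (ZMod (R : ℕ))ˣ) : ZMod N := (κ u).toAdd

@[simp] theorem kappaAdd_one : kappaAdd κ 1 = 0 := by simp [kappaAdd]

theorem kappaAdd_mul (u v : (ZMod (R : ℕ))ˣ) :
    kappaAdd κ (u * v) = kappaAdd κ u + kappaAdd κ v := by simp [kappaAdd]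

/-- `κ q`, zero for `q = R`. -/
noncomputable def kappaPrime (q : Nat.Primes) : ZMod N :=
  if h : ((q : ℕ) : ZMod (R : ℕ)) = 0 then 0 else kappaAdd κ (Units.mk0 _ h)

/-- The contribution of a complex value: `κ (-1)` if it is negative. -/
noncomputable def signPart (z : CUnits) : ZMod N :=
  if (CUnits.toField z).re < 0 then kappaAdd κ (-1) else 0

variable (Lt : Type) [Field Lt] [NumberField Lt] [IsGalois ℚ Lt]

instance nonempty_complexEmb : Nonempty (Lt →+* ℂ) := inferInstance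

/-- The character on invariant ideles. -/
noncomputable def chiTop (f : Idele Lt) : ZMod N :=
  kappaAdd κ (resUnit R (baseVal (f.fin R (Classical.arbitrary _))))
    - ∑ᶠ q : Nat.Primes, (baseVal (f.fin q (Classical.arbitrary _))).valuation • kappaPrime κ q
    - signPart κ (f.inf (Classical.arbitrary _))

variable {Lt}

theorem fin_eq_of_fixed {f : Idele Lt} (hf : f ∈ fixedPts (⊤ : Subgroup (Lt ≃ₐ[ℚ] Lt)) (Idele Lt))
    {q : Nat.Primes} (φ φ' : Emb Lt q) : f.fin q φ' = f.fin q φ := by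
  obtain ⟨g, rfl⟩ := Emb.exists_preComp_eq φ φ'
  have h : g • f = f := hf ⟨g, trivial⟩
  conv_rhs => rw [← h]
  rfl

theorem inf_eq_of_fixed {f : Idele Lt} (hf : f ∈ fixedPts (⊤ : Subgroup (Lt ≃ₐ[ℚ] Lt)) (Idele Lt))
    (φ φ' : Lt →+* ℂ) : f.inf φ' = f.inf φ := by
  obtain ⟨g, rfl⟩ := exists_comp_eq_inf φ φ'
  have h : g • f = f := hf ⟨g, trivial⟩
  conv_rhs => rw [← h]
  rfl

theorem isBase_of_fixed {f : Idele Lt} (hf : f ∈ fixedPts (⊤ : Subgroup (Lt ≃ₐ[ℚ] Lt)) (Idele Lt))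
    {q : Nat.Primes} (φ : Emb Lt q) : IsBase (f.fin q φ) := by
  intro τ
  rw [← QUnits.toField_onUnits]
  exact congrArg QUnits.toField ((f.2.1 q τ φ).symm.trans (fin_eq_of_fixed hf φ (φ.postComp τ)))

theorem im_eq_zero_of_fixed {f : Idele Lt}
    (hf : f ∈ fixedPts (⊤ : Subgroup (Lt ≃ₐ[ℚ] Lt)) (Idele Lt)) (φ : Lt →+* ℂ) :
    (CUnits.toField (f.inf φ)).im = 0 := by
  have h := (f.2.2.2 φ).symm.trans (inf_eq_of_fixed hf φ _)
  have h' := congrArg CUnits.toField h
  rw [CUnits.toField_conjUnits] at h'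
  exact Complex.conj_eq_iff_im.mp h'

theorem chiTop_eq {f : Idele Lt} (hf : f ∈ fixedPts (⊤ : Subgroup (Lt ≃ₐ[ℚ] Lt)) (Idele Lt))
    (φR : Emb Lt R) (φ : ∀ q, Emb Lt q) (χ : Lt →+* ℂ) :
    chiTop κ Lt f = kappaAdd κ (resUnit R (baseVal (f.fin R φR)))
      - ∑ᶠ q : Nat.Primes, (baseVal (f.fin q (φ q))).valuation • kappaPrime κ q
      - signPart κ (f.inf χ) := by
  have e : (fun q : Nat.Primes => f.fin q (Classical.arbitrary (Emb Lt q))) =
      fun q => f.fin q (φ q) := funext fun q => fin_eq_of_fixed hf _ _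
  rw [chiTop, fin_eq_of_fixed hf φR (Classical.arbitrary _), inf_eq_of_fixed hf χ (Classical.arbitrary _)]
  congr 2
  exact finsum_congr fun q => by rw [congrFun e q]

theorem finite_support_valuation {f : Idele Lt}
    (hf : f ∈ fixedPts (⊤ : Subgroup (Lt ≃ₐ[ℚ] Lt)) (Idele Lt)) (φ : ∀ q, Emb Lt q) :
    (Function.support fun q : Nat.Primes =>
      (baseVal (f.fin q (φ q))).valuation • kappaPrime κ q).Finite := by
  refine f.2.2.1.subset fun q hq => ⟨φ q, fun h => hq ?_⟩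
  simp [valuation_eq_zero_of_unit (isBase_of_fixed hf (φ q)) h]

theorem chiTop_add {f g : Idele Lt} (hf : f ∈ fixedPts (⊤ : Subgroup (Lt ≃ₐ[ℚ] Lt)) (Idele Lt))
    (hg : g ∈ fixedPts (⊤ : Subgroup (Lt ≃ₐ[ℚ] Lt)) (Idele Lt)) :
    chiTop κ Lt (f + g) = chiTop κ Lt f + chiTop κ Lt g := by
  set φ : ∀ q, Emb Lt q := fun q => Classical.arbitrary _
  set χ : Lt →+* ℂ := Classical.arbitrary _
  rw [chiTop_eq κ (add_mem hf hg) (φ R) φ χ, chiTop_eq κ hf (φ R) φ χ, chiTop_eq κ hg (φ R) φ χ]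
  have hfin : ∀ q, (f + g).fin q (φ q) = f.fin q (φ q) + g.fin q (φ q) := fun q => rfl
  have h1 : kappaAdd κ (resUnit R (baseVal ((f + g).fin R (φ R)))) =
      kappaAdd κ (resUnit R (baseVal (f.fin R (φ R)))) +
        kappaAdd κ (resUnit R (baseVal (g.fin R (φ R)))) := by
    rw [hfin, baseVal_add (isBase_of_fixed hf _) (isBase_of_fixed hg _),
      resUnit_mul R (baseVal_ne_zero (isBase_of_fixed hf _))
        (baseVal_ne_zero (isBase_of_fixed hg _)), kappaAdd_mul]
  have h2 : ∑ᶠ q : Nat.Primes, (baseVal ((f + g).fin q (φ q))).valuation • kappaPrime κ q =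
      ∑ᶠ q : Nat.Primes, (baseVal (f.fin q (φ q))).valuation • kappaPrime κ q +
        ∑ᶠ q : Nat.Primes, (baseVal (g.fin q (φ q))).valuation • kappaPrime κ q := by
    rw [← finsum_add_distrib (finite_support_valuation κ hf φ) (finite_support_valuation κ hg φ)]
    refine finsum_congr fun q => ?_
    rw [hfin, baseVal_add (isBase_of_fixed hf _) (isBase_of_fixed hg _),
      Padic.valuation_mul (baseVal_ne_zero (isBase_of_fixed hf _))
        (baseVal_ne_zero (isBase_of_fixed hg _)), add_smul]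
  have h3 : signPart κ ((f + g).inf χ) = signPart κ (f.inf χ) + signPart κ (g.inf χ) := by
    set a := CUnits.toField (f.inf χ)
    set b := CUnits.toField (g.inf χ)
    have ha : a.im = 0 := im_eq_zero_of_fixed hf χ
    have hb : b.im = 0 := im_eq_zero_of_fixed hg χ
    have ha0 : a.re ≠ 0 := fun h => CUnits.toField_ne_zero _ (Complex.ext h ha)
    have hb0 : b.re ≠ 0 := fun h => CUnits.toField_ne_zero _ (Complex.ext h hb)
    have hab : (CUnits.toField ((f + g).inf χ)).re = a.re * b.re := by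
      rw [show (f + g).inf χ = f.inf χ + g.inf χ from rfl, CUnits.toField_add, Complex.mul_re, ha,
        hb, mul_zero, sub_zero]
    have h2 : kappaAdd κ (-1) + kappaAdd κ (-1) = 0 := by
      rw [← kappaAdd_mul, neg_one_mul, neg_neg, kappaAdd_one]
    change (if _ then _ else _) = (if a.re < 0 then _ else _) + if b.re < 0 then _ else _
    rw [hab]
    rcases ha0.lt_or_gt with ha1 | ha1 <;> rcases hb0.lt_or_gt with hb1 | hb1
    · rw [if_neg (not_lt.mpr (mul_pos_of_neg_of_neg ha1 hb1).le), if_pos ha1, if_pos hb1, h2]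
    · rw [if_pos (mul_neg_of_neg_of_pos ha1 hb1), if_pos ha1, if_neg (not_lt.mpr hb1.le), add_zero]
    · rw [if_pos (mul_neg_of_pos_of_neg ha1 hb1), if_neg (not_lt.mpr ha1.le), if_pos hb1, zero_add]
    · rw [if_neg (not_lt.mpr (mul_pos ha1 hb1).le), if_neg (not_lt.mpr ha1.le),
        if_neg (not_lt.mpr hb1.le), add_zero]
  rw [h1, h2, h3]
  abel

theorem chiTop_zero : chiTop κ Lt 0 = 0 := by
  have h0 : (0 : Idele Lt) ∈ fixedPts (⊤ : Subgroup (Lt ≃ₐ[ℚ] Lt)) (Idele Lt) := zero_mem _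
  have := chiTop_add κ h0 h0
  rw [add_zero] at this
  exact left_eq_add.mp this

/-- The character as a homomorphism on invariant ideles. -/
noncomputable def chiTopHom : fixedPts (⊤ : Subgroup (Lt ≃ₐ[ℚ] Lt)) (Idele Lt) →+ ZMod N where
  toFun f := chiTop κ Lt f.1
  map_zero' := chiTop_zero κ
  map_add' f g := chiTop_add κ f.2 g.2

/-- The rational numbers inside `LUnits`. -/
noncomputable def ratUnits : Additive ℚˣ →+ LUnits Lt :=
  MonoidHom.toAdditive (Units.map (algebraMap ℚ Lt : ℚ →* Lt))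

theorem ratUnits_fixed (y : Additive ℚˣ) :
    principalIdele Lt (ratUnits y) ∈ fixedPts (⊤ : Subgroup (Lt ≃ₐ[ℚ] Lt)) (Idele Lt) := by
  intro g
  change (g : Lt ≃ₐ[ℚ] Lt) • principalIdele Lt (ratUnits y) = _
  rw [← principalIdele_smul]
  congr 1
  exact LUnits.ext_val ((g : Lt ≃ₐ[ℚ] Lt).commutes _)

theorem chiTop_principal_rat (y : ℚ) (hy : y ≠ 0) :
    chiTop κ Lt (principalIdele Lt (ratUnits (Additive.ofMul (Units.mk0 y hy)))) =
      kappaAdd κ (resUnit R (y : ℚ_[(R : ℕ)]))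
        - ∑ᶠ q : Nat.Primes, ((y : ℚ_[(q : ℕ)]).valuation) • kappaPrime κ q
        - (if y < 0 then kappaAdd κ (-1) else 0) := by
  have hv : ∀ q, baseVal ((principalIdele Lt (ratUnits (Additive.ofMul (Units.mk0 y hy)))).fin q
      (Classical.arbitrary _)) = (y : ℚ_[(q : ℕ)]) := fun q => baseVal_eq (by
    change _ = (Classical.arbitrary (Emb Lt q)) (algebraMap ℚ Lt y)
    simp)
  rw [chiTop]
  simp only [hv]
  congr 1
  change (if ((Classical.arbitrary (Lt →+* ℂ)) (algebraMap ℚ Lt y)).re < 0 then _ else _) = _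
  simp

theorem valuation_neg_one {l : ℕ} [Fact l.Prime] : (-1 : ℚ_[l]).valuation = 0 := by
  have h := Padic.valuation_mul (p := l) (x := -1) (y := -1) (by simp) (by simp)
  rw [neg_one_mul, neg_neg, Padic.valuation_one] at h
  omega

theorem resUnit_natCast {n : ℕ} (hn : ¬ (R : ℕ) ∣ n) :
    (resUnit R (n : ℚ_[(R : ℕ)]) : ZMod (R : ℕ)) = n := by
  have hn0 : n ≠ 0 := fun h => hn (h ▸ dvd_zero _)
  rw [coe_resUnit R (Nat.cast_ne_zero.mpr hn0) (z := (n : ℤ_[(R : ℕ)]))]
  · exact map_natCast _ n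
  · rw [Padic.valuation_natCast, padicValNat.eq_zero_of_not_dvd hn]
    simp

theorem resUnit_self : resUnit R ((R : ℕ) : ℚ_[(R : ℕ)]) = 1 := by
  refine resUnit_eq_one R (k := 1) ?_
  rw [zpow_neg_one, mul_inv_cancel₀ (Nat.cast_ne_zero.mpr R.2.ne_zero), sub_self, norm_zero]
  exact one_pos

theorem chiTop_principal_ratUnits (y : Additive ℚˣ) :
    chiTop κ Lt (principalIdele Lt (ratUnits y)) = 0 := by
  let F : Additive ℚˣ →+ ZMod N :=
    (chiTopHom κ).comp (((principalIdele Lt).comp ratUnits).codRestrict _ ratUnits_fixed)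
  change F y = 0
  obtain ⟨u, rfl⟩ := Additive.ofMul.surjective y
  have hprime : ∀ (n : ℕ) (hn : n.Prime),
      F (Additive.ofMul (Units.mk0 (n : ℚ) (Nat.cast_ne_zero.mpr hn.ne_zero))) = 0 := by
    intro n hn
    refine (chiTop_principal_rat κ _ _).trans ?_
    rw [if_neg (not_lt.mpr (Nat.cast_nonneg n)), sub_zero, finsum_eq_single _ ⟨n, hn⟩]
    · simp only [Rat.cast_natCast, Padic.valuation_natCast, padicValNat.self hn.one_lt,
        Nat.cast_one, one_smul]
      by_cases hR : (R : ℕ) = n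
      · subst hR
        rw [resUnit_self, kappaAdd_one, kappaPrime, dif_pos (ZMod.natCast_self _), sub_zero]
      · have hne : ¬ (R : ℕ) ∣ n := fun h => hR ((Nat.prime_dvd_prime_iff_eq R.2 hn).mp h)
        rw [kappaPrime, dif_neg (by rwa [ZMod.natCast_eq_zero_iff]), sub_eq_zero]
        congr 1
        exact Units.ext (resUnit_natCast hne)
    · intro q hq
      rw [Rat.cast_natCast, Padic.valuation_natCast, padicValNat.eq_zero_of_not_dvd]
      · simp
      · exact fun h => hq (Subtype.ext ((Nat.prime_dvd_prime_iff_eq q.2 hn).mp h))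
  have hnat : ∀ (n : ℕ) (hn : (n : ℚ) ≠ 0), F (Additive.ofMul (Units.mk0 (n : ℚ) hn)) = 0 := by
    intro n
    induction n using Nat.recOnMul with
    | zero => intro hn; simp at hn
    | one => intro hn; rw [show Units.mk0 ((1 : ℕ) : ℚ) hn = 1 from Units.ext (by simp)]; simp
    | prime n hn => exact fun _ => hprime n hn
    | mul a b ha hb =>
      intro hn
      rw [Nat.cast_mul] at hn
      rw [show Units.mk0 ((a * b : ℕ) : ℚ) _ = Units.mk0 (a : ℚ) (left_ne_zero_of_mul hn) *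
        Units.mk0 (b : ℚ) (right_ne_zero_of_mul hn) from Units.ext (by simp), ofMul_mul, map_add,
        ha, hb, add_zero]
  have hneg : F (Additive.ofMul (-1 : ℚˣ)) = 0 := by
    rw [show (-1 : ℚˣ) = Units.mk0 (-1 : ℚ) (by simp) from Units.ext (by simp)]
    refine (chiTop_principal_rat κ _ _).trans ?_
    rw [if_pos (by norm_num), finsum_eq_zero_of_forall_eq_zero fun q => by simp [valuation_neg_one],
      sub_zero, sub_eq_zero]
    congr 1
    refine Units.ext ?_
    rw [coe_resUnit R (by simp) (z := (-1 : ℤ_[(R : ℕ)]))]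
    · simp
    · simp [valuation_neg_one]
  obtain ⟨k, hk⟩ : ∃ k : ℕ, (u : ℚ).num.natAbs = k := ⟨_, rfl⟩
  have hk0 : (k : ℚ) ≠ 0 := Nat.cast_ne_zero.mpr (by rw [← hk]; simpa using u.ne_zero)
  have hd0 : ((u : ℚ).den : ℚ) ≠ 0 := Nat.cast_ne_zero.mpr (u : ℚ).den_nz
  rcases Int.natAbs_eq (u : ℚ).num with h | h
  · have hu : u = Units.mk0 (k : ℚ) hk0 / Units.mk0 _ hd0 := Units.ext (by
      rw [Units.val_div_eq_div_val, Units.val_mk0, Units.val_mk0, ← hk]
      conv_lhs => rw [← Rat.num_div_den (u : ℚ), h]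
      simp)
    rw [hu, ofMul_div, map_sub, hnat, hnat, sub_zero]
  · have hu : u = -1 * (Units.mk0 (k : ℚ) hk0 / Units.mk0 _ hd0) := Units.ext (by
      rw [Units.val_mul, Units.val_div_eq_div_val, Units.val_mk0, Units.val_mk0, ← hk]
      conv_lhs => rw [← Rat.num_div_den (u : ℚ), h]
      simp [neg_div])
    rw [hu, ofMul_mul, map_add, hneg, zero_add, ofMul_div, map_sub, hnat, hnat, sub_zero]

theorem chiTop_principal {f : Idele Lt}
    (hf : f ∈ fixedPts (⊤ : Subgroup (Lt ≃ₐ[ℚ] Lt)) (Idele Lt)) (hp : f ∈ principalIdeles Lt) :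
    chiTop κ Lt f = 0 := by
  rw [principalIdeles_eq_range] at hp
  obtain ⟨x, rfl⟩ := hp
  rw [mem_fixedPts_principalIdele_iff] at hf
  obtain ⟨y, hy⟩ : ∃ y : ℚ, algebraMap ℚ Lt y = (x.val : Lt) := by
    refine (IsGalois.mem_range_algebraMap_iff_fixed _).mpr fun g => ?_
    have : g • x = x := hf ⟨g, trivial⟩
    conv_rhs => rw [← this]
    rfl
  have hy0 : y ≠ 0 := fun h => x.val.ne_zero (by rw [← hy, h, map_zero])
  have hx : x = ratUnits (Additive.ofMul (Units.mk0 y hy0)) := LUnits.ext_val hy.symm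
  rw [hx]
  exact chiTop_principal_ratUnits κ _

end Chi

end FermatLib.CFT
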