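import Fermat.Agent.CFT.CFResidue

/-!
The local field generated by the `r`-th roots of unity over `ℚ_[l]`, for a prime `r ≠ l`.
-/

set_option autoImplicit false

open Polynomial

namespace FermatLib.CFT

namespace CFLocal

variable {l : ℕ} [Fact l.Prime] {r : ℕ}

/-- A root of unity as an element of the ball. -/
noncomputable def rootBall (z : PadicAlgCl l) (hr : r.Prime) (hz : z ^ r = 1) : ball l :=
  ⟨z, le_of_eq (norm_eq_one_of_pow_eq_one' hr.ne_zero hz)⟩

theorem red_rootBall_pow_injective {z : PadicAlgCl l} (hr : r.Prime) (hrl : r ≠ l)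
    (hz : IsPrimitiveRoot z r) {i j : ℕ}
    (h : red (rootBall z hr hz.pow_eq_one) ^ i = red (rootBall z hr hz.pow_eq_one) ^ j) :
    i ≡ j [MOD r] := by
  wlog hij : i ≤ j generalizing i j
  · exact (this h.symm (le_of_not_ge hij)).symm
  rw [← map_pow, ← map_pow, red_eq_red_iff] at h
  simp only [SubmonoidClass.coe_pow, rootBall] at h
  by_contra hne
  obtain ⟨k, rfl⟩ := Nat.exists_eq_add_of_le hij
  have hk : ¬ r ∣ k := by
    intro hd
    apply hne
    rw [Nat.modEq_iff_dvd' hij, Nat.add_sub_cancel_left]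
    exact hd
  have hzk := hz.pow_of_coprime k ((hr.coprime_iff_not_dvd.mpr hk).symm)
  rw [pow_add, show z ^ i - z ^ i * z ^ k = z ^ i * (1 - z ^ k) by ring, norm_mul, norm_pow,
    norm_eq_one_of_pow_eq_one' hr.ne_zero hz.pow_eq_one, one_pow, one_mul,
    norm_one_sub_eq_one hr hrl hzk] at h
  exact lt_irrefl _ h

variable [hr : Fact r.Prime]

/-- `l` as a unit modulo `r`. -/
noncomputable def lUnit (hrl : r ≠ l) : (ZMod r)ˣ :=
  ZMod.unitOfCoprime l ((Nat.coprime_primes Fact.out hr.out).mpr (Ne.symm hrl))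

@[simp] theorem coe_lUnit (hrl : r ≠ l) : ((lUnit hrl : (ZMod r)ˣ) : ZMod r) = l := rfl

theorem gal_eq_pow (τ : PadicAlgCl l ≃ₐ[ℚ_[l]] PadicAlgCl l) {z : PadicAlgCl l}
    (hz : IsPrimitiveRoot z r) : ∃ k, k < r ∧ k.Coprime r ∧ τ z = z ^ k := by
  have h : IsPrimitiveRoot (τ z) r :=
    hz.map_of_injective (f := τ.toAlgHom.toRingHom.toMonoidHom) τ.injective
  obtain ⟨k, hk, hco, h'⟩ := hz.isPrimitiveRoot_iff.mp h
  exact ⟨k, hk, hco, h'.symm⟩

variable (l r) in
/-- Reductions commute with local automorphisms on polynomials with coefficients in the base. -/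
theorem eval₂_red_gal (P : (ZMod l)[X]) (τ : PadicAlgCl l ≃ₐ[ℚ_[l]] PadicAlgCl l) {a : ball l}
    {b : ball l} (hb : (b : PadicAlgCl l) = τ a)
    (h : P.eval₂ (ZMod.castHom dvd_rfl (Res l)) (red a) = 0) :
    P.eval₂ (ZMod.castHom dvd_rfl (Res l)) (red b) = 0 := by
  obtain ⟨Q, hQ⟩ := Polynomial.map_surjective (Int.castRingHom (ZMod l))
    ZMod.intCast_surjective P
  subst hQ
  have hcomp : (ZMod.castHom dvd_rfl (Res l)).comp (Int.castRingHom (ZMod l)) =
      (red (l := l)).comp (Int.castRingHom (ball l)) := RingHom.ext_int _ _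
  rw [eval₂_map, hcomp, ← Polynomial.hom_eval₂, red_eq_zero_iff] at h ⊢
  have key : ((Q.eval₂ (Int.castRingHom (ball l)) b : ball l) : PadicAlgCl l) =
      τ ((Q.eval₂ (Int.castRingHom (ball l)) a : ball l) : PadicAlgCl l) := by
    have h1 : ∀ c : ball l, ((Q.eval₂ (Int.castRingHom (ball l)) c : ball l) : PadicAlgCl l) =
        aeval (c : PadicAlgCl l) Q := by
      intro c
      have := Polynomial.hom_eval₂ Q (Int.castRingHom (ball l)) (ball l).subtype c
      rw [RingHom.ext_int ((ball l).subtype.comp (Int.castRingHom (ball l)))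
        (algebraMap ℤ (PadicAlgCl l))] at this
      rw [aeval_def]
      exact this
    rw [h1, h1, hb]
    exact (Polynomial.aeval_algHom_apply (τ.toAlgHom.restrictScalars ℤ) (a : PadicAlgCl l) Q)
  rwa [key, norm_gal]

/-- The orbit polynomial of a residual root of unity has coefficients in the prime field. -/
theorem exists_map_eq_prod (hrl : r ≠ l) {z : PadicAlgCl l} (hz : IsPrimitiveRoot z r) :
    ∃ P : (ZMod l)[X], P.map (ZMod.castHom dvd_rfl (Res l)) =
      ∏ i ∈ Finset.range (orderOf (lUnit hrl)),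
        (X - C (red (rootBall z hr.out hz.pow_eq_one) ^ l ^ i)) := by
  set zb := red (rootBall z hr.out hz.pow_eq_one) with hzb
  set m := orderOf (lUnit hrl) with hm
  set P0 : (Res l)[X] := ∏ i ∈ Finset.range m, (X - C (zb ^ l ^ i)) with hP0
  have hzr : zb ^ r = 1 := by
    rw [hzb, ← map_pow, ← map_one (red (l := l))]
    congr 1
    exact Subtype.ext hz.pow_eq_one
  have hper : zb ^ l ^ m = zb ^ l ^ 0 := by
    rw [pow_eq_pow_mod _ hzr, pow_eq_pow_mod (l ^ 0) hzr]
    congr 1
    have h1 : ((l ^ m : ℕ) : ZMod r) = ((l ^ 0 : ℕ) : ZMod r) := by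
      rw [Nat.cast_pow, Nat.cast_pow, pow_zero, ← coe_lUnit hrl, ← Units.val_pow_eq_pow_val,
        pow_orderOf_eq_one, Units.val_one]
    exact (ZMod.natCast_eq_natCast_iff' _ _ _).mp h1
  have hfrob : P0.map (frobenius (Res l) l) = P0 := by
    rw [hP0, Polynomial.map_prod]
    simp only [Polynomial.map_sub, map_X, map_C, frobenius_def, ← pow_mul, ← pow_succ]
    have h1 := Finset.prod_range_succ' (fun i => (X - C (zb ^ l ^ i) : (Res l)[X])) m
    rw [Finset.prod_range_succ, hper] at h1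
    exact (mul_right_cancel₀ (X_sub_C_ne_zero _) h1).symm
  have hl : P0 ∈ Polynomial.lifts (ZMod.castHom dvd_rfl (Res l)) := by
    rw [Polynomial.lifts_iff_coeff_lifts]
    intro n
    have := congrArg (fun Q => Polynomial.coeff Q n) hfrob
    simp only [coeff_map, frobenius_def] at this
    exact exists_zmod_of_pow_eq this
  exact (Polynomial.mem_lifts _).mp hl

/-- A local automorphism moves a root of unity of order prime to `l` by a power of `l`. -/
theorem gal_eq_pow_pow (hrl : r ≠ l) (τ : PadicAlgCl l ≃ₐ[ℚ_[l]] PadicAlgCl l) {z : PadicAlgCl l}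
    (hz : IsPrimitiveRoot z r) : ∃ i : ℕ, τ z = z ^ l ^ i := by
  obtain ⟨P, hP⟩ := exists_map_eq_prod hrl hz
  have hmpos : 0 < orderOf (lUnit hrl) := (isOfFinOrder_of_finite _).orderOf_pos
  set zb := red (rootBall z hr.out hz.pow_eq_one) with hzb
  have h0 : P.eval₂ (ZMod.castHom dvd_rfl (Res l)) zb = 0 := by
    rw [← eval_map, hP, eval_prod]
    exact Finset.prod_eq_zero (Finset.mem_range.mpr hmpos) (by simp)
  have hτz : τ z ^ r = 1 := by rw [← map_pow, hz.pow_eq_one, map_one]
  have h1 := eval₂_red_gal l P τ (b := rootBall (τ z) hr.out hτz) rfl h0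
  rw [← eval_map, hP, eval_prod, Finset.prod_eq_zero_iff] at h1
  obtain ⟨i, -, hi⟩ := h1
  rw [eval_sub, eval_X, eval_C, sub_eq_zero] at hi
  obtain ⟨k, -, -, hk⟩ := gal_eq_pow τ hz
  refine ⟨i, hk.trans ?_⟩
  rw [pow_eq_pow_mod k hz.pow_eq_one, pow_eq_pow_mod (l ^ i) hz.pow_eq_one]
  congr 1
  have h2 : rootBall (τ z) hr.out hτz = rootBall z hr.out hz.pow_eq_one ^ k := Subtype.ext hk
  rw [h2, map_pow] at hi
  exact red_rootBall_pow_injective hr.out hrl hz hi

theorem minpoly_roots_stable (hrl : r ≠ l) {z : PadicAlgCl l} (hz : IsPrimitiveRoot z r) {k : ℕ}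
    (hk : (minpoly ℚ_[l] z).aeval (z ^ k) = 0) :
    (minpoly ℚ_[l] z).aeval (z ^ (k * l)) = 0 := by
  classical
  set g := minpoly ℚ_[l] z with hg
  have hint : IsIntegral ℚ_[l] z := Algebra.IsIntegral.isIntegral z
  set G := g.map (algebraMap ℚ_[l] (PadicAlgCl l)) with hG
  have hsplit : G.Splits := IsAlgClosed.splits G
  have hmonic : G.Monic := (minpoly.monic hint).map _
  have hprodG := hsplit.eq_prod_roots_of_monic hmonic
  have hroot : ∀ y ∈ G.roots, y ^ r = 1 := by
    intro y hy
    rw [hG, mem_roots ((minpoly.monic hint).map _).ne_zero, IsRoot, eval_map, ← aeval_def] at hy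
    obtain ⟨σ, rfl⟩ := minpoly.exists_algEquiv_of_root' (Algebra.IsAlgebraic.isAlgebraic z) hy
    rw [← map_pow, hz.pow_eq_one, map_one]
  set G0 : (ball l)[X] :=
    (G.roots.attach.map fun y : {a // a ∈ G.roots} => X - C (rootBall (y : PadicAlgCl l) hr.out (hroot y.1 y.2))).prod
    with hG0
  have hmap : G0.map (ball l).subtype = G := by
    rw [hG0, ← coe_mapRingHom, map_multiset_prod, Multiset.map_map]
    conv_rhs => rw [hprodG]
    congr 1
    conv_rhs => rw [← Multiset.attach_map_val G.roots, Multiset.map_map]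
    refine Multiset.map_congr rfl fun y _ => ?_
    simp [rootBall]
  have hfix : ∀ n, (red (G0.coeff n)) ^ l = red (G0.coeff n) := by
    intro n
    have hco : ((G0.coeff n : ball l) : PadicAlgCl l) =
        algebraMap ℚ_[l] (PadicAlgCl l) (g.coeff n) := by
      rw [← coeff_map, ← hG, ← hmap, coeff_map]
      rfl
    obtain ⟨c, hc⟩ := exists_zmod_eq_red hco.symm
    rw [← hc, ← map_pow, ZMod.pow_card]
  have hfrob : (G0.map (red (l := l))).map (frobenius (Res l) l) = G0.map (red (l := l)) := by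
    ext n
    rw [coeff_map, coeff_map, frobenius_def, hfix]
  have hzk : (rootBall z hr.out hz.pow_eq_one ^ k : ball l) = ⟨z ^ k, _⟩ := Subtype.ext rfl
  have heval : (G0.map (red (l := l))).eval (red (rootBall z hr.out hz.pow_eq_one ^ k)) = 0 := by
    rw [eval_map, eval₂_at_apply]
    have : G0.eval (rootBall z hr.out hz.pow_eq_one ^ k) = 0 := by
      apply (ball l).subtype_injective
      rw [← eval₂_at_apply, ← eval_map, hmap, map_zero, hG, eval_map, ← aeval_def]
      exact hk
    rw [this, map_zero]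
  have heval2 : (G0.map (red (l := l))).eval (red (rootBall z hr.out hz.pow_eq_one ^ (k * l))) = 0 := by
    have h1 : frobenius (Res l) l
        ((G0.map (red (l := l))).eval (red (rootBall z hr.out hz.pow_eq_one ^ k))) = 0 := by
      rw [heval, map_zero]
    rw [← eval₂_at_apply, ← eval_map, hfrob, frobenius_def, ← map_pow, ← pow_mul] at h1
    exact h1
  rw [hG0, ← coe_mapRingHom, map_multiset_prod, Multiset.map_map, eval_multiset_prod,
    Multiset.prod_eq_zero_iff, Multiset.map_map, Multiset.mem_map] at heval2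
  obtain ⟨⟨y, hy⟩, -, hy'⟩ := heval2
  simp only [Function.comp_apply, coe_mapRingHom, Polynomial.map_sub, map_X, map_C, eval_sub,
    eval_X, eval_C, sub_eq_zero] at hy'
  obtain ⟨j, hj, rfl⟩ := hz.eq_pow_of_pow_eq_one (hroot y hy)
  have h3 : rootBall (z ^ j) hr.out (hroot _ hy) = rootBall z hr.out hz.pow_eq_one ^ j :=
    Subtype.ext rfl
  rw [h3, map_pow, map_pow] at hy'
  have h4 := red_rootBall_pow_injective hr.out hrl hz hy'
  have h5 : z ^ (k * l) = z ^ j := by
    rw [pow_eq_pow_mod (k * l) hz.pow_eq_one, pow_eq_pow_mod j hz.pow_eq_one]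
    exact congrArg _ h4
  rw [h5, aeval_def, ← eval_map, ← hG]
  exact isRoot_of_mem_roots hy

/-- Some local automorphism acts on the `r`-th roots of unity as the `l`-th power. -/
theorem exists_gal_eq_pow_self (hrl : r ≠ l) {z : PadicAlgCl l} (hz : IsPrimitiveRoot z r) :
    ∃ τ : PadicAlgCl l ≃ₐ[ℚ_[l]] PadicAlgCl l, τ z = z ^ l := by
  have h1 : (minpoly ℚ_[l] z).aeval (z ^ 1) = 0 := by simp
  have h2 := minpoly_roots_stable hrl hz h1
  rw [one_mul] at h2
  exact minpoly.exists_algEquiv_of_root' (Algebra.IsAlgebraic.isAlgebraic z) h2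

theorem minpoly_natDegree_le (hrl : r ≠ l) {z : PadicAlgCl l} (hz : IsPrimitiveRoot z r) :
    (minpoly ℚ_[l] z).natDegree ≤ orderOf (lUnit hrl) := by
  classical
  set g := minpoly ℚ_[l] z
  have hint : IsIntegral ℚ_[l] z := Algebra.IsIntegral.isIntegral z
  have hsep : g.Separable := Algebra.IsSeparable.isSeparable ℚ_[l] z
  have hcard : g.natDegree = (g.rootSet (PadicAlgCl l)).ncard := by
    rw [Set.ncard_eq_toFinset_card', Set.toFinset_card,
      Polynomial.card_rootSet_eq_natDegree hsep (IsAlgClosed.splits _)]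
  have hsub : g.rootSet (PadicAlgCl l) ⊆
      (fun i => z ^ l ^ i) '' Set.Iio (orderOf (lUnit hrl)) := by
    intro y hy
    rw [mem_rootSet] at hy
    obtain ⟨τ, rfl⟩ := minpoly.exists_algEquiv_of_root' (Algebra.IsAlgebraic.isAlgebraic z) hy.2
    obtain ⟨i, hi⟩ := gal_eq_pow_pow hrl τ hz
    refine ⟨i % orderOf (lUnit hrl), Nat.mod_lt _ (isOfFinOrder_of_finite _).orderOf_pos, ?_⟩
    dsimp only
    rw [hi, pow_eq_pow_mod (l ^ i) hz.pow_eq_one, pow_eq_pow_mod (l ^ (i % _)) hz.pow_eq_one]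
    congr 1
    refine (ZMod.natCast_eq_natCast_iff' _ _ _).mp ?_
    rw [Nat.cast_pow, Nat.cast_pow, ← coe_lUnit hrl, ← Units.val_pow_eq_pow_val,
      ← Units.val_pow_eq_pow_val, pow_mod_orderOf]
  rw [hcard]
  refine (Set.ncard_le_ncard hsub ((Set.finite_Iio _).image _)).trans
    ((Set.ncard_image_le (Set.finite_Iio _)).trans ?_)
  rw [Set.ncard_Iio_nat]

/-- The norm of a polynomial of small degree in a root of unity is the Gauss norm. -/
theorem norm_sum_eq_one (hrl : r ≠ l) {z : PadicAlgCl l} (hz : IsPrimitiveRoot z r)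
    (c : ℕ → ℚ_[l]) (hc : ∀ i < orderOf (lUnit hrl), ‖c i‖ ≤ 1)
    (hone : ∃ i < orderOf (lUnit hrl), c i = 1) :
    ‖∑ i ∈ Finset.range (orderOf (lUnit hrl)), algebraMap ℚ_[l] (PadicAlgCl l) (c i) * z ^ i‖
      = 1 := by
  classical
  set m := orderOf (lUnit hrl) with hm
  have hmem : ∀ i < m, ‖algebraMap ℚ_[l] (PadicAlgCl l) (c i)‖ ≤ 1 := fun i hi =>
    le_of_eq_of_le (PadicAlgCl.norm_extends l _) (hc i hi)
  set zB := rootBall z hr.out hz.pow_eq_one with hzB
  let cB : ℕ → ball l := fun i =>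
    if h : i < m then ⟨algebraMap ℚ_[l] (PadicAlgCl l) (c i), hmem i h⟩ else 0
  set S := ∑ i ∈ Finset.range m, cB i * zB ^ i with hS
  have hScoe : (S : PadicAlgCl l) =
      ∑ i ∈ Finset.range m, algebraMap ℚ_[l] (PadicAlgCl l) (c i) * z ^ i := by
    rw [hS, ← (ball l).coe_subtype, map_sum]
    refine Finset.sum_congr rfl fun i hi => ?_
    simp [cB, Finset.mem_range.mp hi, hzB, rootBall]
  rw [← hScoe]
  refine le_antisymm S.2 ?_
  by_contra hlt
  push Not at hlt
  have hS0 : red S = 0 := red_eq_zero_iff.mpr hlt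
  have hcoef : ∀ i, ∃ n : ZMod l, ZMod.castHom dvd_rfl (Res l) n = red (cB i) := by
    intro i
    by_cases h : i < m
    · exact exists_zmod_eq_red (x := c i) (by simp [cB, h])
    · exact ⟨0, by simp [cB, h]⟩
  choose n hn using hcoef
  set P : (Res l)[X] :=
    ∑ i ∈ Finset.range m, C (ZMod.castHom dvd_rfl (Res l) (n i)) * X ^ i with hP
  obtain ⟨i1, hi1, hci1⟩ := hone
  have hPcoeff : P.coeff i1 = 1 := by
    rw [hP, finsetSum_coeff]
    simp only [coeff_C_mul_X_pow]
    rw [Finset.sum_ite_eq, if_pos (Finset.mem_range.mpr hi1), hn, ← map_one (red (l := l))]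
    congr 1
    ext
    simp [cB, hi1, hci1]
  have hPne : P ≠ 0 := fun h => by rw [h] at hPcoeff; simp at hPcoeff
  have hdeg : P.natDegree < m := by
    refine lt_of_le_of_lt (natDegree_sum_le_of_forall_le _ _ fun i hi =>
      (natDegree_C_mul_X_pow_le _ _).trans (Nat.le_sub_one_of_lt (Finset.mem_range.mp hi))) ?_
    omega
  have heval : P.eval (red zB) = 0 := by
    rw [hP, eval_finsetSum]
    simpa [hS, map_sum, map_mul, map_pow, hn] using hS0
  have hfix : P.map (frobenius (Res l) l) = P := by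
    simp only [hP, Polynomial.map_sum, Polynomial.map_mul, map_C, Polynomial.map_pow, map_X,
      frobenius_def, ← map_pow, ZMod.pow_card]
  have hroots : ∀ i, P.eval (red zB ^ l ^ i) = 0 := by
    intro i
    induction i with
    | zero => simpa using heval
    | succ i ih =>
      have h1 : frobenius (Res l) l (P.eval (red zB ^ l ^ i)) = 0 := by rw [ih, map_zero]
      rw [← eval₂_at_apply, ← eval_map, hfix, frobenius_def, ← pow_mul, ← pow_succ] at h1
      exact h1
  have hinj : Set.InjOn (fun i => red zB ^ l ^ i) (Finset.range m : Set ℕ) := by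
    intro i hi j hj hij
    have h1 := (ZMod.natCast_eq_natCast_iff _ _ _).mpr
      (red_rootBall_pow_injective hr.out hrl hz hij)
    rw [Nat.cast_pow, Nat.cast_pow, ← coe_lUnit hrl, ← Units.val_pow_eq_pow_val,
      ← Units.val_pow_eq_pow_val] at h1
    exact pow_injOn_Iio_orderOf (Finset.mem_range.mp hi) (Finset.mem_range.mp hj)
      (Units.ext h1)
  have hsubset : (Finset.range m).image (fun i => red zB ^ l ^ i) ⊆ P.roots.toFinset := by
    intro y hy
    obtain ⟨i, -, rfl⟩ := Finset.mem_image.mp hy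
    rw [Multiset.mem_toFinset, mem_roots hPne]
    exact hroots i
  have := (Finset.card_le_card hsubset).trans ((Multiset.toFinset_card_le _).trans (card_roots' _))
  rw [Finset.card_image_of_injOn hinj, Finset.card_range] at this
  omega

/-- Elements fixed by the stabiliser of a root of unity have norm an integral power of `l`. -/
theorem exists_zpow_norm_eq (hrl : r ≠ l) {z : PadicAlgCl l} (hz : IsPrimitiveRoot z r)
    {y : PadicAlgCl l} (hy0 : y ≠ 0)
    (hy : ∀ τ : PadicAlgCl l ≃ₐ[ℚ_[l]] PadicAlgCl l, τ z = z → τ y = y) :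
    ∃ n : ℤ, ‖y‖ = (l : ℝ) ^ n := by
  classical
  have hint : IsIntegral ℚ_[l] z := Algebra.IsIntegral.isIntegral z
  have hmem : y ∈ IntermediateField.adjoin ℚ_[l] {z} := by
    rw [← InfiniteGalois.fixedField_fixingSubgroup (IntermediateField.adjoin ℚ_[l] {z})]
    rintro ⟨τ, hτ⟩
    exact hy τ (hτ ⟨z, IntermediateField.mem_adjoin_simple_self _ z⟩)
  rw [← IntermediateField.mem_toSubalgebra,
    IntermediateField.adjoin_simple_toSubalgebra_of_isAlgebraic hint.isAlgebraic,
    Algebra.adjoin_singleton_eq_range_aeval] at hmem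
  obtain ⟨Q, rfl⟩ := hmem
  set m := orderOf (lUnit hrl) with hm
  set g := minpoly ℚ_[l] z
  set Q' := Q %ₘ g with hQ'
  have hQeq : (aeval z).toRingHom Q = aeval z Q' := by
    rw [hQ']
    exact (aeval_modByMonic_eq_self_of_root (minpoly.aeval ℚ_[l] z)).symm
  change aeval z Q ≠ 0 at hy0
  change ∃ n : ℤ, ‖aeval z Q‖ = (l : ℝ) ^ n
  rw [show aeval z Q = aeval z Q' from hQeq] at hy0 ⊢
  have hne : Q' ≠ 0 := fun h => hy0 (by simp [h])
  have hlt : Q'.natDegree < m := lt_of_lt_of_le
    (natDegree_modByMonic_lt Q (minpoly.monic hint) (fun h1 : g = 1 => by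
      have := minpoly.natDegree_pos hint
      change 0 < g.natDegree at this
      rw [h1, natDegree_one] at this
      exact lt_irrefl _ this)) (minpoly_natDegree_le hrl hz)
  obtain ⟨j, hj, hmax⟩ := Finset.exists_max_image (Finset.range m) (fun i => ‖Q'.coeff i‖)
    ⟨0, Finset.mem_range.mpr (by omega)⟩
  have hj0 : Q'.coeff j ≠ 0 := by
    intro h
    apply hne
    ext i
    by_cases hi : i < m
    · have := hmax i (Finset.mem_range.mpr hi)
      rw [h, norm_zero] at this
      simpa using le_antisymm this (norm_nonneg _)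
    · simp [coeff_eq_zero_of_natDegree_lt (show Q'.natDegree < i by omega)]
  have h1 := norm_sum_eq_one hrl hz (fun i => (Q'.coeff j)⁻¹ * Q'.coeff i)
    (fun i hi => by
      rw [norm_mul, norm_inv]
      exact inv_mul_le_one_of_le₀ (hmax i (Finset.mem_range.mpr hi)) (norm_nonneg _))
    ⟨j, Finset.mem_range.mp hj, inv_mul_cancel₀ hj0⟩
  have h2 : aeval z Q' = algebraMap ℚ_[l] (PadicAlgCl l) (Q'.coeff j) *
      ∑ i ∈ Finset.range m,
        algebraMap ℚ_[l] (PadicAlgCl l) ((Q'.coeff j)⁻¹ * Q'.coeff i) * z ^ i := by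
    rw [aeval_eq_sum_range' hlt, Finset.mul_sum]
    refine Finset.sum_congr rfl fun i _ => ?_
    rw [Algebra.smul_def, ← mul_assoc, ← map_mul, ← mul_assoc, mul_inv_cancel₀ hj0, one_mul]
  refine ⟨-(Q'.coeff j).valuation, ?_⟩
  rw [h2, norm_mul, h1, mul_one]
  exact (PadicAlgCl.norm_extends l _).trans (Padic.norm_eq_zpow_neg_valuation hj0)

end CFLocal

end FermatLib.CFT
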