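import Fermat.Agent.CFT.LocalFrobenius

/-!
`ℚ_q(ζ_{q^k})`.
-/

set_option autoImplicit false
set_option linter.unusedSectionVars false

open IntermediateField

namespace FermatLib.CFT.Loc

variable {q : Nat.Primes} {k : ℕ} {ζ : PadicAlgCl (q : ℕ)}

theorem norm_one_sub_pow_le {ξ : PadicAlgCl (q : ℕ)} (hξ : ‖ξ‖ = 1) (i : ℕ) :
    ‖1 - ξ ^ i‖ ≤ ‖1 - ξ‖ := by
  rw [← geom_sum_mul_neg, norm_mul]
  refine mul_le_of_le_one_left (norm_nonneg _) ?_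
  refine IsUltrametricDist.norm_sum_le_of_forall_le_of_nonneg zero_le_one fun j _ => ?_
  rw [norm_pow, hξ, one_pow]

theorem norm_sub_one_pow (hζ : IsPrimitiveRoot ζ ((q : ℕ) ^ (k + 1))) :
    ‖ζ - 1‖ ^ Nat.totient ((q : ℕ) ^ (k + 1)) = ((q : ℕ) : ℝ)⁻¹ := by
  have hne : NeZero ((q : ℕ) ^ (k + 1)) := ⟨pow_ne_zero _ q.2.ne_zero⟩
  have hu : ∀ {ξ : PadicAlgCl (q : ℕ)}, IsPrimitiveRoot ξ ((q : ℕ) ^ (k + 1)) → ‖ξ‖ = 1 :=
    fun hξ => norm_eq_one_of_pow_eq_one hne.out hξ.pow_eq_one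
  have hle : ∀ {ξ η : PadicAlgCl (q : ℕ)}, IsPrimitiveRoot ξ ((q : ℕ) ^ (k + 1)) →
      IsPrimitiveRoot η ((q : ℕ) ^ (k + 1)) → ‖1 - η‖ ≤ ‖1 - ξ‖ := fun {ξ η} hξ hη => by
    obtain ⟨i, -, rfl⟩ := hξ.eq_pow_of_pow_eq_one hη.pow_eq_one
    exact norm_one_sub_pow_le (hu hξ) i
  have h := Polynomial.eval_one_cyclotomic_prime_pow (R := PadicAlgCl (q : ℕ)) (p := (q : ℕ)) k
  rw [Polynomial.cyclotomic_eq_prod_X_sub_primitiveRoots hζ, Polynomial.eval_prod] at h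
  simp only [Polynomial.eval_sub, Polynomial.eval_X, Polynomial.eval_C] at h
  have h2 := congrArg (fun z : PadicAlgCl (q : ℕ) => ‖z‖) h
  simp only [norm_prod, norm_natCast_q] at h2
  rw [← h2, Finset.prod_eq_pow_card (b := ‖1 - ζ‖) fun ξ hξ => ?_, hζ.card_primitiveRoots,
    norm_sub_rev]
  have hξ' := (mem_primitiveRoots (Nat.pos_of_ne_zero hne.out)).1 hξ
  exact le_antisymm (hle hζ hξ') (hle hξ' hζ)

theorem cyclotomic_data (hζ : IsPrimitiveRoot ζ ((q : ℕ) ^ (k + 1))) :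
    Module.finrank ℚ_[(q : ℕ)] (adjoin ℚ_[(q : ℕ)] ({ζ} : Set (PadicAlgCl (q : ℕ)))) =
        Nat.totient ((q : ℕ) ^ (k + 1)) ∧
      (∀ _ : FiniteDimensional ℚ_[(q : ℕ)] (adjoin ℚ_[(q : ℕ)] ({ζ} : Set (PadicAlgCl (q : ℕ)))),
        resDeg (adjoin ℚ_[(q : ℕ)] ({ζ} : Set (PadicAlgCl (q : ℕ)))) = 1) ∧
      minpoly ℚ_[(q : ℕ)] ζ = Polynomial.cyclotomic ((q : ℕ) ^ (k + 1)) ℚ_[(q : ℕ)] := by
  set φn := Nat.totient ((q : ℕ) ^ (k + 1)) with hφn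
  have hpos : 0 < (q : ℕ) ^ (k + 1) := pow_pos q.2.pos _
  have hφ0 : 0 < φn := Nat.totient_pos.2 hpos
  have hint : IsIntegral ℚ_[(q : ℕ)] ζ := Algebra.IsIntegral.isIntegral ζ
  set E : LocalField q := adjoin ℚ_[(q : ℕ)] ({ζ} : Set (PadicAlgCl (q : ℕ))) with hE
  have : FiniteDimensional ℚ_[(q : ℕ)] E := adjoin.finiteDimensional hint
  have hroot : Polynomial.aeval ζ (Polynomial.cyclotomic ((q : ℕ) ^ (k + 1)) ℚ_[(q : ℕ)]) = 0 := by
    rw [Polynomial.aeval_def, Polynomial.eval₂_eq_eval_map, Polynomial.map_cyclotomic,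
      ← Polynomial.IsRoot.def]
    exact hζ.isRoot_cyclotomic hpos
  have hdvd := minpoly.dvd _ _ hroot
  have hdeg : Module.finrank ℚ_[(q : ℕ)] E ≤ φn := by
    rw [adjoin.finrank hint, hφn, ← Polynomial.natDegree_cyclotomic ((q : ℕ) ^ (k + 1)) ℚ_[(q : ℕ)]]
    exact Polynomial.natDegree_le_of_dvd hdvd (Polynomial.cyclotomic_ne_zero _ _)
  set x : E := ⟨ζ, mem_adjoin_simple_self _ ζ⟩ - 1 with hx
  have hxn : ‖x‖ ^ φn = ((q : ℕ) : ℝ)⁻¹ := by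
    rw [hφn]; exact (norm_sub_one_pow hζ : _)
  have hq1 : ((q : ℕ) : ℝ)⁻¹ < 1 := inv_lt_one_of_one_lt₀ (by exact_mod_cast q.2.one_lt)
  have hx0 : x ≠ 0 := fun e => by
    rw [e, norm_zero, zero_pow hφ0.ne'] at hxn
    exact (inv_pos.2 (Nat.cast_pos.2 q.2.pos : (0 : ℝ) < (q : ℕ))).ne hxn
  obtain ⟨a, ha⟩ := exists_zpow_eq_norm E hx0
  have hea : (ramIdx E : ℤ) = a * φn := by
    apply zpow_right_injective₀ (norm_uniformizer_pos E) (norm_uniformizer_lt_one E).ne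
    simp only [zpow_natCast, zpow_mul, ← ha, hxn]
    rw [inv_q_eq_pow_ramIdx E]
  have hle : φn ≤ ramIdx E := by
    have : (0 : ℤ) < a * φn := by rw [← hea]; exact_mod_cast ramIdx_pos E
    have ha1 : 1 ≤ a := by
      by_contra hneg
      nlinarith
    nlinarith
  have hfin : Module.finrank ℚ_[(q : ℕ)] E = φn := by
    refine le_antisymm hdeg (hle.trans ?_)
    rw [← ramIdx_mul_resDeg E]
    exact Nat.le_mul_of_pos_right _ (resDeg_pos E)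
  refine ⟨hfin, fun _ => ?_, ?_⟩
  · have h := ramIdx_mul_resDeg E
    rw [hfin] at h
    have h1 : ramIdx E * resDeg E ≤ ramIdx E * 1 := by rw [h, mul_one]; exact hle
    exact le_antisymm (Nat.le_of_mul_le_mul_left h1 (ramIdx_pos E)) (resDeg_pos E)
  · refine (Polynomial.eq_of_monic_of_dvd_of_natDegree_le (minpoly.monic hint)
      (Polynomial.cyclotomic.monic _ _) hdvd ?_).symm
    rw [Polynomial.natDegree_cyclotomic, ← adjoin.finrank hint, ← hE, hfin]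

theorem finrank_adjoin_rootOfUnity (hζ : IsPrimitiveRoot ζ ((q : ℕ) ^ (k + 1))) :
    Module.finrank ℚ_[(q : ℕ)] (IntermediateField.adjoin ℚ_[(q : ℕ)] ({ζ} : Set _)) =
      Nat.totient ((q : ℕ) ^ (k + 1)) :=
  (cyclotomic_data hζ).1

theorem exists_inertial_rootOfUnity (hζ : IsPrimitiveRoot ζ ((q : ℕ) ^ (k + 1))) {i : ℕ}
    (hi : ¬ (q : ℕ) ∣ i) : ∃ τ : Gloc q, IsInertial τ ∧ τ ζ = ζ ^ i := by
  set E : LocalField q := adjoin ℚ_[(q : ℕ)] ({ζ} : Set (PadicAlgCl (q : ℕ))) with hE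
  have : FiniteDimensional ℚ_[(q : ℕ)] E :=
    adjoin.finiteDimensional (Algebra.IsIntegral.isIntegral ζ)
  obtain ⟨-, hf, hmin⟩ := cyclotomic_data hζ
  have hroot : Polynomial.aeval (ζ ^ i) (minpoly ℚ_[(q : ℕ)] ζ) = 0 := by
    rw [hmin, Polynomial.aeval_def, Polynomial.eval₂_eq_eval_map, Polynomial.map_cyclotomic,
      ← Polynomial.IsRoot.def]
    exact (hζ.pow_of_coprime i (((q.2.coprime_iff_not_dvd).2 hi).symm.pow_right _)).isRoot_cyclotomic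
      (pow_pos q.2.pos _)
  obtain ⟨σ, hσ⟩ := minpoly.exists_algEquiv_of_root'
    (Algebra.IsAlgebraic.isAlgebraic ζ) hroot
  obtain ⟨j, hj⟩ := exists_residue_pow (⊥ : LocalField q) (τ := σ) (fun x => by
    obtain ⟨a, ha⟩ := IntermediateField.mem_bot.1 x.2
    rw [← ha]; exact σ.commutes a) E
  obtain ⟨τ, hτ, hagree⟩ := exists_inertial_agree E (τ := σ) fun x hx =>
    norm_sub_lt_trans (hj x x.2 hx) (pow_pow_sub_lt E (by rw [hf inferInstance]; exact one_dvd _) hx)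
  exact ⟨τ, hτ, by rw [hagree ⟨ζ, mem_adjoin_simple_self _ ζ⟩]; exact hσ⟩

end FermatLib.CFT.Loc
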