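import Mathlib

/-!
Index identities for endomorphisms of abelian groups.
-/

set_option autoImplicit false

namespace FermatLib.CFT.Loc

variable {A C : Type*} [AddCommGroup A] [AddCommGroup C]

theorem index_eq_map_mul_ker (f : A →+ C) (B : AddSubgroup A) :
    B.index = (B.map f).relIndex f.range * (B ⊓ f.ker).relIndex f.ker := by
  rw [← AddSubgroup.relIndex_mul_index (le_sup_left : B ≤ B ⊔ f.ker),
    AddSubgroup.relIndex_sup_left, AddSubgroup.inf_relIndex_right,
    ← AddSubgroup.comap_map_eq, AddSubgroup.index_comap, mul_comm]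

/-- The index of the image of an endomorphism, computed on a subgroup of finite index. -/
theorem index_range_eq (φ : A →+ A) (B : AddSubgroup A) (hB : ∀ b ∈ B, φ b ∈ B)
    (hker : B ⊓ φ.ker = ⊥) (hfin : B.index ≠ 0) :
    φ.range.index = Nat.card φ.ker * (B.map φ).relIndex B := by
  have h1 : B.map φ ≤ B := by rintro _ ⟨b, hb, rfl⟩; exact hB b hb
  have h2 := AddSubgroup.relIndex_mul_index h1
  have h3 := AddSubgroup.relIndex_mul_index (φ.range_eq_map ▸ AddSubgroup.map_mono le_top :
    B.map φ ≤ φ.range)
  have h4 := index_eq_map_mul_ker φ B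
  rw [hker, AddSubgroup.relIndex_bot_left] at h4
  have h5 : (B.map φ).relIndex φ.range ≠ 0 := left_ne_zero_of_mul (h4 ▸ hfin)
  apply mul_left_cancel₀ h5
  rw [h3, ← h2, h4]
  ring

end FermatLib.CFT.Loc
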