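import Fermat.Agent.CFT.LocalDefs
import Fermat.Agent.CFT.LocalIndex

/-!
Residue fields, ramification index and residue degree.
-/

set_option autoImplicit false
set_option linter.unusedSectionVars false

open IntermediateField

namespace FermatLib.CFT.Loc

variable {q : Nat.Primes}

theorem norm_natCast_eq_one {m : ℕ} (hm : ¬ (q : ℕ) ∣ m) :
    ‖(m : PadicAlgCl (q : ℕ))‖ = 1 := by
  rw [← map_natCast (algebraMap ℚ_[(q : ℕ)] (PadicAlgCl (q : ℕ))), norm_algebraMap',
    Padic.norm_natCast_eq_one_iff]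
  exact (q.2.coprime_iff_not_dvd).2 hm

theorem norm_natCast_le_one (m : ℕ) : ‖(m : PadicAlgCl (q : ℕ))‖ ≤ 1 :=
  IsUltrametricDist.norm_natCast_le_one _ m

theorem norm_eq_one_of_pow_eq_one {ζ : PadicAlgCl (q : ℕ)} {m : ℕ} (hm : m ≠ 0)
    (hζ : ζ ^ m = 1) : ‖ζ‖ = 1 :=
  eq_one_of_pow_eq_one' (norm_nonneg ζ) hm (by rw [← norm_pow, hζ, norm_one])
where
  eq_one_of_pow_eq_one' {r : ℝ} {m : ℕ} (h0 : 0 ≤ r) (hm : m ≠ 0) (h : r ^ m = 1) : r = 1 :=
    (pow_eq_one_iff_of_nonneg h0 hm).1 h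

theorem eq_one_of_pow_eq_one {ζ : PadicAlgCl (q : ℕ)} {m : ℕ} (hm : ¬ (q : ℕ) ∣ m)
    (hζ : ζ ^ m = 1) (h : ‖ζ - 1‖ < 1) : ζ = 1 := by
  have hm0 : m ≠ 0 := fun e => hm (e ▸ dvd_zero _)
  have hS : ‖(∑ i ∈ Finset.range m, ζ ^ i) - (m : PadicAlgCl (q : ℕ))‖ < 1 := by
    have : (∑ i ∈ Finset.range m, ζ ^ i) - (m : PadicAlgCl (q : ℕ)) =
        ∑ i ∈ Finset.range m, (ζ ^ i - 1) := by simp [Finset.sum_sub_distrib]
    rw [this]
    refine (IsUltrametricDist.exists_norm_finsetSum_le (Finset.range m) _).elim fun i hi =>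
      lt_of_le_of_lt hi.2 ?_
    rw [← geom_sum_mul, norm_mul]
    refine lt_of_le_of_lt (mul_le_of_le_one_left (norm_nonneg _) ?_) h
    refine IsUltrametricDist.norm_sum_le_of_forall_le_of_nonneg zero_le_one fun j _ => ?_
    rw [norm_pow, norm_eq_one_of_pow_eq_one hm0 hζ, one_pow]
  have hne : (∑ i ∈ Finset.range m, ζ ^ i) ≠ 0 := fun e => by
    rw [e, zero_sub, norm_neg, norm_natCast_eq_one hm] at hS
    exact lt_irrefl _ hS
  have := geom_sum_mul ζ m
  rw [hζ, sub_self] at this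
  exact sub_eq_zero.1 ((mul_eq_zero.1 this).resolve_left hne)

variable (K : LocalField q) [FiniteDimensional ℚ_[(q : ℕ)] K]

theorem isUnit_intRing_iff {x : intRing K} : IsUnit x ↔ ‖(x : K)‖ = 1 := by
  refine ⟨fun h => ?_, fun h => ?_⟩
  · obtain ⟨u, rfl⟩ := h
    refine le_antisymm ((mem_intRing K).1 (u : intRing K).2) ?_
    have h1 : ((u : intRing K) : K) * ((u⁻¹ : (intRing K)ˣ) : intRing K) = (1 : K) :=
      congrArg Subtype.val u.mul_inv
    calc (1 : ℝ) = ‖((u : intRing K) : K)‖ * ‖(((u⁻¹ : (intRing K)ˣ) : intRing K) : K)‖ := by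
          rw [← norm_mul, h1, norm_one]
      _ ≤ _ := mul_le_of_le_one_right (norm_nonneg _) ((mem_intRing K).1 (Subtype.mem _))
  · have hx : (x : K) ≠ 0 := fun e => by simp [e] at h
    exact IsUnit.of_mul_eq_one ⟨(x : K)⁻¹, (mem_intRing K).2 (by rw [norm_inv, h, inv_one])⟩
      (Subtype.ext (mul_inv_cancel₀ hx))

theorem residue_eq_zero_iff {x : intRing K} :
    IsLocalRing.residue (intRing K) x = 0 ↔ ‖(x : K)‖ < 1 := by
  rw [IsLocalRing.residue_eq_zero_iff, IsLocalRing.mem_maximalIdeal, mem_nonunits_iff,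
    isUnit_intRing_iff]
  exact ⟨fun h => lt_of_le_of_ne ((mem_intRing K).1 x.2) h, fun h => h.ne⟩

theorem residue_eq_iff {x y : intRing K} :
    IsLocalRing.residue (intRing K) x = IsLocalRing.residue (intRing K) y ↔
      ‖(x : K) - y‖ < 1 := by
  rw [← sub_eq_zero, ← map_sub, residue_eq_zero_iff]
  rfl

instance finite_residue : Finite (Residue K) := by
  obtain ⟨t, hts, htf, hcov⟩ :=
    (isCompact_closedBall (0 : K) 1).finite_cover_balls zero_lt_one
  have : Finite t := htf.to_subtype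
  refine Finite.of_surjective (fun x : t => IsLocalRing.residue (intRing K)
    ⟨x.1, (mem_intRing K).2 (mem_closedBall_zero_iff.1 (hts x.2))⟩) fun y => ?_
  obtain ⟨a, rfl⟩ := IsLocalRing.residue_surjective y
  obtain ⟨x, hxt, hx⟩ := Set.mem_iUnion₂.1 (hcov (mem_closedBall_zero_iff.2 ((mem_intRing K).1 a.2)))
  refine ⟨⟨x, hxt⟩, (residue_eq_iff K).2 ?_⟩
  rwa [Metric.mem_ball, dist_eq_norm, norm_sub_rev] at hx

theorem charP_residue : CharP (Residue K) (q : ℕ) := by
  refine (CharP.charP_iff_prime_eq_zero q.2).2 ?_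
  rw [← map_natCast (IsLocalRing.residue (intRing K)), residue_eq_zero_iff]
  simpa using norm_q_lt_one K

theorem natCard_residue : Nat.card (Residue K) = (q : ℕ) ^ resDeg K := by
  have := charP_residue K
  have := Fintype.ofFinite (Residue K)
  obtain ⟨n, _, hn⟩ := FiniteField.card (Residue K) (q : ℕ)
  rw [resDeg, Nat.card_eq_fintype_card, hn, Nat.log_pow q.2.one_lt]

theorem resDeg_pos : 0 < resDeg K := by
  have h := Finite.one_lt_card (α := Residue K)
  rw [natCard_residue] at h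
  by_contra h0
  rw [Nat.eq_zero_of_not_pos h0, pow_zero] at h
  exact lt_irrefl _ h

theorem one_lt_card_residue : 1 < (q : ℕ) ^ resDeg K :=
  natCard_residue K ▸ Finite.one_lt_card

theorem ramIdx_pos : 0 < ramIdx K := by
  by_contra h
  have h1 := inv_q_eq_pow_ramIdx K
  rw [Nat.eq_zero_of_not_pos h, pow_zero, inv_eq_one] at h1
  exact q.2.ne_one (by exact_mod_cast h1)

/-- The additive group of integers. -/
noncomputable abbrev intAdd : AddSubgroup K := (intRing K).toSubring.toAddSubgroup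

/-- Multiplication by an integer on the integers. -/
noncomputable def mulInt (c : intRing K) : intAdd K →+ intAdd K :=
  AddMonoidHom.mk' (fun x => ⟨(c : K) * x, (intRing K).mul_mem _ _ c.2 x.2⟩)
    fun x y => Subtype.ext (mul_add _ _ _)

/-- Reduction as an additive map. -/
noncomputable def resAdd : intAdd K →+ Residue K :=
  AddMonoidHom.mk' (fun x => IsLocalRing.residue (intRing K) ⟨x, x.2⟩) fun x y =>
    map_add (IsLocalRing.residue (intRing K)) (⟨x, x.2⟩ : intRing K) ⟨y, y.2⟩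

theorem resAdd_surjective : Function.Surjective (resAdd K) := fun y => by
  obtain ⟨a, rfl⟩ := IsLocalRing.residue_surjective y
  exact ⟨⟨a, a.2⟩, rfl⟩

theorem mulInt_apply (c : intRing K) (x : intAdd K) : ((mulInt K c x : intAdd K) : K) = c * x := rfl

theorem mulInt_injective {c : intRing K} (hc : (c : K) ≠ 0) :
    Function.Injective (mulInt K c) := fun x y h =>
  Subtype.ext (mul_left_cancel₀ hc (congrArg (Subtype.val : intAdd K → K) h))

/-- The uniformiser as an integer. -/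
noncomputable def unifInt : intRing K :=
  ⟨uniformizer K, (mem_intRing K).2 (norm_uniformizer_lt_one K).le⟩

theorem index_range_mulInt_pow (i : ℕ) :
    (mulInt K (unifInt K ^ i)).range.index = ((q : ℕ) ^ resDeg K) ^ i := by
  have h1 : (mulInt K (unifInt K)).range.index = (q : ℕ) ^ resDeg K := by
    have hr : (mulInt K (unifInt K)).range =
        (resAdd K).ker := by
      ext x
      rw [AddMonoidHom.mem_ker, AddMonoidHom.mem_range]
      refine ⟨?_, fun h => ?_⟩
      · rintro ⟨y, rfl⟩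
        refine (residue_eq_zero_iff K).2 ?_
        rw [mulInt_apply, norm_mul]
        exact lt_of_le_of_lt (mul_le_of_le_one_right (norm_nonneg _) ((mem_intRing K).1 y.2))
          (norm_uniformizer_lt_one K)
      · have h' := norm_le_uniformizer K ((residue_eq_zero_iff K).1 h)
        refine ⟨⟨(x : K) / uniformizer K, (mem_intRing K).2 ?_⟩, Subtype.ext ?_⟩
        · rw [norm_div]; exact (div_le_one (norm_uniformizer_pos K)).2 h'
        · rw [mulInt_apply]
          exact mul_div_cancel₀ _ (isUniformizer_uniformizer K).1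
    rw [hr, AddSubgroup.index_ker, AddMonoidHom.range_eq_top.2 (resAdd_surjective K),
      ← natCard_residue]
    exact Nat.card_congr (AddSubgroup.topEquiv).toEquiv
  induction i with
  | zero =>
    rw [pow_zero, pow_zero, AddSubgroup.index_eq_one, AddMonoidHom.range_eq_top]
    exact fun x => ⟨x, Subtype.ext (one_mul _)⟩
  | succ i ih =>
    have hr : (mulInt K (unifInt K ^ (i + 1))).range =
        (mulInt K (unifInt K ^ i)).range.map (mulInt K (unifInt K)) := by
      rw [AddMonoidHom.map_range]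
      congr 1
      ext x
      simp [mulInt_apply, pow_succ']
      ring
    rw [hr, AddSubgroup.index_map_of_injective _
      (mulInt_injective K (isUniformizer_uniformizer K).1), ih, h1, pow_succ]

theorem norm_q_eq : ‖((q : ℕ) : K)‖ = ‖uniformizer K‖ ^ ramIdx K := by
  rw [norm_q_coe, inv_q_eq_pow_ramIdx K]

theorem index_range_mulInt_q :
    (mulInt K ((q : ℕ) : intRing K)).range.index = ((q : ℕ) ^ resDeg K) ^ ramIdx K := by
  rw [← index_range_mulInt_pow]
  congr 1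
  have hq0 := q_ne_zero K
  have hπ : ((unifInt K ^ ramIdx K : intRing K) : K) ≠ 0 := by
    simpa [unifInt] using pow_ne_zero (ramIdx K) (isUniformizer_uniformizer K).1
  have hn : ‖((unifInt K ^ ramIdx K : intRing K) : K)‖ = ‖((q : ℕ) : K)‖ := by
    rw [norm_q_eq K]; simp [unifInt]
  ext x
  constructor
  · rintro ⟨y, rfl⟩
    refine ⟨⟨((q : ℕ) : K) * y / (unifInt K ^ ramIdx K : intRing K), (mem_intRing K).2 ?_⟩,
      Subtype.ext ?_⟩
    · rw [norm_div, norm_mul, hn, mul_div_cancel_left₀ _ (norm_ne_zero_iff.2 hq0)]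
      exact (mem_intRing K).1 y.2
    · simp only [mulInt_apply]
      rw [mul_div_cancel₀ _ hπ]
      rfl
  · rintro ⟨y, rfl⟩
    refine ⟨⟨((unifInt K ^ ramIdx K : intRing K) : K) * y / ((q : ℕ) : K), (mem_intRing K).2 ?_⟩,
      Subtype.ext ?_⟩
    · rw [norm_div, norm_mul, hn, mul_div_cancel_left₀ _ (norm_ne_zero_iff.2 hq0)]
      exact (mem_intRing K).1 y.2
    · simp only [mulInt_apply]
      exact mul_div_cancel₀ _ hq0

end FermatLib.CFT.Loc

namespace FermatLib.CFT.Loc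

variable {q : Nat.Primes} (K : LocalField q) [FiniteDimensional ℚ_[(q : ℕ)] K]

theorem index_range_nsmul_padicInt (n : ℕ) :
    (nsmulAddMonoidHom (q : ℕ) :
      (Fin n → ℤ_[(q : ℕ)]) →+ (Fin n → ℤ_[(q : ℕ)])).range.index = (q : ℕ) ^ n := by
  let ψ : (Fin n → ℤ_[(q : ℕ)]) →+ (Fin n → ZMod (q : ℕ)) :=
    (PadicInt.toZMod (p := (q : ℕ))).toAddMonoidHom.compLeft (Fin n)
  have hψ : Function.Surjective ψ := fun v => by
    choose w hw using fun i => ZMod.ringHom_surjective (PadicInt.toZMod (p := (q : ℕ))) (v i)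
    exact ⟨w, funext hw⟩
  have hker : ψ.ker = (nsmulAddMonoidHom (q : ℕ) :
      (Fin n → ℤ_[(q : ℕ)]) →+ (Fin n → ℤ_[(q : ℕ)])).range := by
    ext v
    rw [AddMonoidHom.mem_ker, AddMonoidHom.mem_range]
    constructor
    · intro h
      have hv : ∀ i, ∃ y, ((q : ℕ) : ℤ_[(q : ℕ)]) * y = v i := fun i => by
        have hi : v i ∈ IsLocalRing.maximalIdeal ℤ_[(q : ℕ)] := by
          rw [← PadicInt.ker_toZMod]
          exact congrFun h i
        rw [PadicInt.maximalIdeal_eq_span_p, Ideal.mem_span_singleton] at hi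
        obtain ⟨y, hy⟩ := hi
        exact ⟨y, hy.symm⟩
      choose w hw using hv
      exact ⟨w, funext fun i => by simp [← hw i]⟩
    · rintro ⟨w, rfl⟩
      funext i
      simp [ψ]
  rw [← hker, AddSubgroup.index_ker, AddMonoidHom.range_eq_top.2 hψ,
    Nat.card_congr (AddSubgroup.topEquiv (G := Fin n → ZMod (q : ℕ))).toEquiv, Nat.card_fun,
    Nat.card_zmod, Nat.card_fin]

theorem ramIdx_mul_resDeg : ramIdx K * resDeg K = Module.finrank ℚ_[(q : ℕ)] K := by
  set n := Module.finrank ℚ_[(q : ℕ)] K with hn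
  let b := Module.finBasis ℚ_[(q : ℕ)] K
  obtain ⟨N, hN⟩ : ∃ N : ℕ, ∀ i, ((q : ℕ) : ℝ)⁻¹ ^ N * ‖b i‖ ≤ 1 := by
    obtain ⟨M, hM⟩ := Finite.bddAbove_range (fun i => ‖b i‖)
    obtain ⟨N, hN⟩ := pow_unbounded_of_one_lt M (show (1 : ℝ) < (q : ℕ) by exact_mod_cast q.2.one_lt)
    refine ⟨N, fun i => ?_⟩
    rw [inv_pow, inv_mul_le_one₀ (pow_pos (by exact_mod_cast q.2.pos) N)]
    exact (hM ⟨i, rfl⟩).trans hN.le
  set c : ℚ_[(q : ℕ)] := ((q : ℕ) : ℚ_[(q : ℕ)]) ^ N with hc
  have hc0 : c ≠ 0 := pow_ne_zero _ (Nat.cast_ne_zero.2 q.2.ne_zero)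
  let e := b.equivFun
  let j₀ : (Fin n → ℤ_[(q : ℕ)]) →+ K :=
    (e.symm.toLinearMap.toAddMonoidHom.comp (DistribSMul.toAddMonoidHom _ c)).comp
      ((PadicInt.Coe.ringHom (p := (q : ℕ))).toAddMonoidHom.compLeft (Fin n))
  have hj₀ : ∀ v, j₀ v = ∑ i, (c * (v i : ℚ_[(q : ℕ)])) • b i := fun v => by
    simp only [j₀, e]
    exact b.equivFun_symm_apply _
  have hmem : ∀ v, j₀ v ∈ intAdd K := fun v => by
    refine (mem_intRing K).2 ?_
    rw [hj₀]
    refine IsUltrametricDist.norm_sum_le_of_forall_le_of_nonneg zero_le_one fun i _ => ?_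
    rw [norm_smul, norm_mul]
    calc ‖c‖ * ‖(v i : ℚ_[(q : ℕ)])‖ * ‖b i‖ ≤ ‖c‖ * 1 * ‖b i‖ := by
          gcongr; exact (v i).2
      _ ≤ 1 := by rw [mul_one, hc, norm_pow, Padic.norm_p]; exact hN i
  let j : (Fin n → ℤ_[(q : ℕ)]) →+ intAdd K := j₀.codRestrict (intAdd K) hmem
  have hjinj : Function.Injective j := fun v w h => by
    have h' : j₀ v = j₀ w := congrArg Subtype.val h
    funext i
    refine PadicInt.ext (mul_left_cancel₀ hc0 ?_)
    exact congrFun (e.symm.injective h') i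
  have hfin : j.range.index ≠ 0 := by
    have hcont : Continuous e := LinearMap.continuous_of_finiteDimensional e.toLinearMap
    obtain ⟨δ, hδ, hball⟩ := Metric.continuousAt_iff.1
      (hcont.continuousAt (x := (0 : K))) ‖c‖ (norm_pos_iff.2 hc0)
    have hsub : ∀ x : intAdd K, ‖(x : K)‖ < δ → x ∈ j.range := fun x hx => by
      have hx' := hball (x := (x : K)) (by rwa [dist_zero_right])
      rw [map_zero, dist_zero_right] at hx'
      have hle : ∀ i, ‖e x i / c‖ ≤ 1 := fun i => by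
        rw [norm_div, div_le_one (norm_pos_iff.2 hc0)]
        exact ((norm_le_pi_norm (e x) i).trans hx'.le)
      refine ⟨fun i => ⟨e x i / c, hle i⟩, Subtype.ext ?_⟩
      show e.symm (c • fun i => e x i / c) = (x : K)
      rw [LinearEquiv.symm_apply_eq]
      funext i
      exact mul_div_cancel₀ _ hc0
    obtain ⟨t, hts, htf, hcov⟩ := (isCompact_closedBall (0 : K) 1).finite_cover_balls hδ
    have : Finite t := htf.to_subtype
    have : Finite (intAdd K ⧸ j.range) := by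
      refine Finite.of_surjective (fun x : t => ((⟨x.1, (mem_intRing K).2
        (mem_closedBall_zero_iff.1 (hts x.2))⟩ : intAdd K) : intAdd K ⧸ j.range)) fun y => ?_
      obtain ⟨a, rfl⟩ := QuotientAddGroup.mk_surjective y
      obtain ⟨x, hxt, hx⟩ :=
        Set.mem_iUnion₂.1 (hcov (mem_closedBall_zero_iff.2 ((mem_intRing K).1 a.2)))
      refine ⟨⟨x, hxt⟩, (QuotientAddGroup.eq.2 (hsub _ ?_))⟩
      rw [Metric.mem_ball, dist_eq_norm] at hx
      simpa [← sub_eq_neg_add] using hx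
    exact AddSubgroup.index_ne_zero_of_finite
  have hcomm : ∀ v, mulInt K ((q : ℕ) : intRing K) (j v) = j (nsmulAddMonoidHom (q : ℕ) v) :=
    fun v => Subtype.ext <| by
      show ((q : ℕ) : K) * j₀ v = j₀ ((q : ℕ) • v)
      rw [map_nsmul, nsmul_eq_mul]
  have hinj := mulInt_injective K (c := ((q : ℕ) : intRing K)) (by simpa using q_ne_zero K)
  have h1 := index_range_eq (mulInt K ((q : ℕ) : intRing K)) j.range
    (by rintro _ ⟨v, rfl⟩; exact ⟨_, (hcomm v).symm⟩)
    (by rw [(AddMonoidHom.ker_eq_bot_iff _).2 hinj, inf_bot_eq]) hfin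
  have h2 : j.range.map (mulInt K ((q : ℕ) : intRing K)) =
      (nsmulAddMonoidHom (q : ℕ) :
        (Fin n → ℤ_[(q : ℕ)]) →+ (Fin n → ℤ_[(q : ℕ)])).range.map j := by
    rw [AddMonoidHom.map_range, AddMonoidHom.map_range]
    congr 1
    exact AddMonoidHom.ext hcomm
  rw [index_range_mulInt_q, (AddMonoidHom.ker_eq_bot_iff _).2 hinj, AddSubgroup.card_bot, one_mul,
    h2, AddMonoidHom.range_eq_map j, AddSubgroup.relIndex_map_map_of_injective _ _ hjinj,
    AddSubgroup.relIndex_top_right, index_range_nsmul_padicInt, ← pow_mul] at h1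
  rw [mul_comm]
  exact Nat.pow_right_injective q.2.two_le h1

variable {K} {F : LocalField q} [FiniteDimensional ℚ_[(q : ℕ)] F]

theorem exists_norm_uniformizer_eq_pow (h : F ≤ K) :
    ∃ m : ℕ, ‖uniformizer F‖ = ‖uniformizer K‖ ^ m := by
  have hne : (inclusion h (uniformizer F)) ≠ 0 :=
    (map_ne_zero _).2 (isUniformizer_uniformizer F).1
  obtain ⟨k, hk⟩ := exists_zpow_eq_norm K hne
  have hk' : ‖uniformizer F‖ = ‖uniformizer K‖ ^ k := hk
  have hk0 : 0 ≤ k := by
    by_contra hneg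
    exact absurd (hk' ▸ one_le_zpow_of_nonpos₀ (norm_uniformizer_pos K)
      (norm_uniformizer_lt_one K).le (by omega)) (norm_uniformizer_lt_one F).not_ge
  exact ⟨k.toNat, by rw [hk', ← zpow_natCast, Int.toNat_of_nonneg hk0]⟩

theorem exists_ramIdx_eq (h : F ≤ K) :
    ∃ m : ℕ, ‖uniformizer F‖ = ‖uniformizer K‖ ^ m ∧ ramIdx K = m * ramIdx F := by
  obtain ⟨m, hm⟩ := exists_norm_uniformizer_eq_pow h
  refine ⟨m, hm, Nat.cast_injective (R := ℤ) (zpow_right_injective₀ (norm_uniformizer_pos K)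
    (norm_uniformizer_lt_one K).ne ?_)⟩
  simp only [zpow_natCast]
  rw [← inv_q_eq_pow_ramIdx K, inv_q_eq_pow_ramIdx F, hm, ← pow_mul]

theorem ramIdx_dvd (h : F ≤ K) : ramIdx F ∣ ramIdx K := by
  obtain ⟨m, -, hm⟩ := exists_ramIdx_eq h
  exact ⟨m, by rw [hm, mul_comm]⟩

theorem ord_incl (h : F ≤ K) (x : LocUnits F) :
    ord K (LocUnits.incl h x) = ((ramIdx K / ramIdx F : ℕ) : ℤ) * ord F x := by
  obtain ⟨m, hm, he⟩ := exists_ramIdx_eq h
  rw [he, Nat.mul_div_cancel _ (ramIdx_pos F)]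
  apply ord_eq_of_norm
  have : ‖(LocUnits.incl h x).el‖ = ‖x.el‖ := rfl
  rw [this, norm_el, hm, zpow_mul, zpow_natCast]

theorem resDeg_dvd (h : F ≤ K) : resDeg F ∣ resDeg K := by
  let ι : intRing F →+* intRing K := ((inclusion h).toRingHom.comp (intRing F).subtype).codRestrict
    (intRing K) fun x => x.2
  let g : intRing F →+* Residue K := (IsLocalRing.residue (intRing K)).comp ι
  have hle : IsLocalRing.maximalIdeal (intRing F) ≤ RingHom.ker g := fun x hx =>
    (residue_eq_zero_iff K).2 ((residue_eq_zero_iff F).1 ((IsLocalRing.residue_eq_zero_iff x).2 hx) :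
      ‖(x : F)‖ < 1)
  let gbar : Residue F →+* Residue K :=
    Ideal.Quotient.lift (IsLocalRing.maximalIdeal (intRing F)) g hle
  letI : Module (Residue F) (Residue K) := gbar.toModule
  have := Fintype.ofFinite (Residue F)
  have := Fintype.ofFinite (Residue K)
  have hc := Module.card_eq_pow_finrank (K := Residue F) (V := Residue K)
  rw [← Nat.card_eq_fintype_card, ← Nat.card_eq_fintype_card, natCard_residue, natCard_residue,
    ← pow_mul] at hc
  exact Dvd.intro _ (Nat.pow_right_injective q.2.two_le hc).symm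

theorem eq_of_le (h : F ≤ K) (he : ramIdx F = ramIdx K) (hf : resDeg F = resDeg K) : F = K :=
  IntermediateField.eq_of_le_of_finrank_eq h
    (by rw [← ramIdx_mul_resDeg, ← ramIdx_mul_resDeg, he, hf])

variable (K)

theorem norm_pow_card_sub_lt {x : K} (hx : ‖x‖ ≤ 1) : ‖x ^ (q : ℕ) ^ resDeg K - x‖ < 1 := by
  have := Fintype.ofFinite (Residue K)
  have h := FiniteField.pow_card (IsLocalRing.residue (intRing K) ⟨x, (mem_intRing K).2 hx⟩)
  rw [← Nat.card_eq_fintype_card, natCard_residue, ← map_pow, residue_eq_iff] at h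
  simpa using h

/-- The roots of unity of order prime to `q` near a given element. -/
theorem exists_rootOfUnity_near {x : PadicAlgCl (q : ℕ)} {M : ℕ} (hM : M ≠ 0)
    (hx : ‖x ^ M - 1‖ < 1) : ∃ ζ : PadicAlgCl (q : ℕ), ζ ^ M = 1 ∧ ‖x - ζ‖ < 1 := by
  have : NeZero M := ⟨hM⟩
  obtain ⟨ζ, hζ⟩ := HasEnoughRootsOfUnity.exists_primitiveRoot (PadicAlgCl (q : ℕ)) M
  have h := congrArg (Polynomial.eval x)
    (Polynomial.X_pow_sub_one_eq_prod (Nat.pos_of_ne_zero hM) hζ)
  simp only [Polynomial.eval_sub, Polynomial.eval_pow, Polynomial.eval_X, Polynomial.eval_one,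
    Polynomial.eval_prod, Polynomial.eval_C] at h
  rw [h, norm_prod] at hx
  by_contra hne
  push Not at hne
  refine absurd hx (not_lt.2 ?_)
  exact Finset.one_le_prod fun η hη =>
    hne η ((Polynomial.mem_nthRootsFinset (Nat.pos_of_ne_zero hM) 1).1 hη)

theorem rootOfUnity_mem {ζ : PadicAlgCl (q : ℕ)} {m : ℕ} (hm : ¬ (q : ℕ) ∣ m) (hζ : ζ ^ m = 1)
    {x : K} (hx : ‖(x : PadicAlgCl (q : ℕ)) - ζ‖ < 1) : ζ ∈ K := by
  have hm0 : m ≠ 0 := fun e => hm (e ▸ dvd_zero _)
  rw [← InfiniteGalois.fixedField_fixingSubgroup K]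
  rintro ⟨τ, hτ⟩
  change τ ζ = ζ
  have hζ1 := norm_eq_one_of_pow_eq_one hm0 hζ
  have hζ0 : ζ ≠ 0 := by rw [← norm_ne_zero_iff, hζ1]; exact one_ne_zero
  have hlt : ‖τ ζ - ζ‖ < 1 := by
    have e : τ ζ - ζ = (τ ζ - x) + ((x : PadicAlgCl (q : ℕ)) - ζ) := by ring
    rw [e]
    refine (IsUltrametricDist.norm_add_le_max _ _).trans_lt (max_lt ?_ hx)
    rw [show (x : PadicAlgCl (q : ℕ)) = τ x from ((IntermediateField.mem_fixingSubgroup_iff _ _).1 hτ
      x x.2).symm, ← map_sub, norm_gloc, norm_sub_rev]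
    exact hx
  have h1 : τ ζ / ζ = 1 := eq_one_of_pow_eq_one (m := m) hm
    (by rw [div_pow, ← map_pow, hζ, map_one, one_div, inv_one])
    (by rw [div_sub_one hζ0, norm_div, hζ1, div_one]; exact hlt)
  exact (div_eq_one_iff_eq hζ0).1 h1

theorem not_dvd_card_sub_one : ¬ (q : ℕ) ∣ (q : ℕ) ^ resDeg K - 1 := fun h => by
  have h1 : (q : ℕ) ∣ (q : ℕ) ^ resDeg K := dvd_pow_self _ (resDeg_pos K).ne'
  have h2 := Nat.dvd_sub h1 h
  rw [Nat.sub_sub_self (Nat.one_le_pow _ _ q.2.pos)] at h2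
  exact q.2.ne_one (Nat.dvd_one.1 h2)

theorem exists_rootOfUnity_sub_lt {x : K} (hx : ‖x‖ = 1) :
    ∃ ζ : K, ζ ^ ((q : ℕ) ^ resDeg K - 1) = 1 ∧ ‖x - ζ‖ < 1 := by
  set M := (q : ℕ) ^ resDeg K - 1 with hM
  have hM0 : M ≠ 0 := by have := one_lt_card_residue K; omega
  have hlt : ‖x ^ M - 1‖ < 1 := by
    have h := norm_pow_card_sub_lt K hx.le
    rw [show (q : ℕ) ^ resDeg K = M + 1 by omega, pow_succ', ← mul_sub_one, norm_mul, hx,
      one_mul] at h
    exact h
  obtain ⟨ζ, hζ, hxζ⟩ := exists_rootOfUnity_near (x := (x : PadicAlgCl (q : ℕ))) hM0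
    (by simpa using hlt)
  exact ⟨⟨ζ, rootOfUnity_mem K (not_dvd_card_sub_one K) hζ hxζ⟩, Subtype.ext (by simpa using hζ),
    by simpa using hxζ⟩

theorem exists_isPrimitiveRoot : ∃ ζ : K, IsPrimitiveRoot ζ ((q : ℕ) ^ resDeg K - 1) := by
  have := Fintype.ofFinite (Residue K)
  obtain ⟨g, hg⟩ := IsCyclic.exists_ofOrder_eq_natCard (α := (Residue K)ˣ)
  obtain ⟨a, ha⟩ := IsLocalRing.residue_surjective (g : Residue K)
  have ha1 : ‖(a : K)‖ = 1 :=
    le_antisymm ((mem_intRing K).1 a.2) (not_lt.1 fun h => g.ne_zero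
      (ha ▸ (residue_eq_zero_iff K).2 h))
  obtain ⟨ζ, hζ, haζ⟩ := exists_rootOfUnity_sub_lt K ha1
  refine ⟨ζ, hζ, fun l hl => ?_⟩
  have hζi : ‖ζ‖ ≤ 1 := by
    have hM0 : (q : ℕ) ^ resDeg K - 1 ≠ 0 := by have := one_lt_card_residue K; omega
    exact (norm_eq_one_of_pow_eq_one (ζ := (ζ : PadicAlgCl (q : ℕ))) hM0
      (by simpa using congrArg Subtype.val hζ)).le
  have hres : IsLocalRing.residue (intRing K) ⟨ζ, (mem_intRing K).2 hζi⟩ = g := by
    rw [← ha, residue_eq_iff, norm_sub_rev]; exact haζ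
  have hgl : g ^ l = 1 := Units.ext <| by
    rw [Units.val_pow_eq_pow_val, ← hres, ← map_pow, Units.val_one,
      ← map_one (IsLocalRing.residue (intRing K))]
    exact congrArg _ (Subtype.ext hl)
  have := orderOf_dvd_of_pow_eq_one hgl
  rwa [hg, Nat.card_units, natCard_residue] at this

theorem dvd_of_isPrimitiveRoot {ζ : K} {m : ℕ} (hm : ¬ (q : ℕ) ∣ m) (hζ : IsPrimitiveRoot ζ m) :
    m ∣ (q : ℕ) ^ resDeg K - 1 := by
  have hm0 : m ≠ 0 := fun e => hm (e ▸ dvd_zero _)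
  have hζm : (ζ : PadicAlgCl (q : ℕ)) ^ m = 1 := by simpa using congrArg Subtype.val hζ.pow_eq_one
  have hζ1 := norm_eq_one_of_pow_eq_one hm0 hζm
  obtain ⟨η, hη, hlt⟩ := exists_rootOfUnity_sub_lt K (x := ζ) hζ1
  have hηM : (η : PadicAlgCl (q : ℕ)) ^ ((q : ℕ) ^ resDeg K - 1) = 1 := by
    simpa using congrArg Subtype.val hη
  have hM0 : (q : ℕ) ^ resDeg K - 1 ≠ 0 := by have := one_lt_card_residue K; omega
  have hη1 := norm_eq_one_of_pow_eq_one hM0 hηM
  have hη0 : (η : PadicAlgCl (q : ℕ)) ≠ 0 := by rw [← norm_ne_zero_iff, hη1]; exact one_ne_zero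
  have h1 : (ζ : PadicAlgCl (q : ℕ)) / η = 1 :=
    eq_one_of_pow_eq_one (m := m * ((q : ℕ) ^ resDeg K - 1))
    (fun h => (q.2.dvd_mul.1 h).elim hm (not_dvd_card_sub_one K))
    (by rw [div_pow, pow_mul, hζm, one_pow, mul_comm, pow_mul, hηM, one_pow, div_one])
    (by rw [div_sub_one hη0, norm_div, hη1, div_one]; exact hlt)
  refine hζ.dvd_of_pow_eq_one _ (Subtype.ext ?_)
  have e : (ζ : PadicAlgCl (q : ℕ)) = η := (div_eq_one_iff_eq hη0).1 h1
  simp [e, hηM]

end FermatLib.CFT.Loc
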