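import Fermat.Agent.CFT.CFResidue
import Fermat.Agent.CFT.LocalResidue
import Fermat.Agent.CFT.LocalCyclotomic

/-!
Norms from the field of `r`-th roots of unity over `ℚ_[r]`: up to powers of `r` they are
congruent to one.
-/

set_option autoImplicit false

open Polynomial

namespace FermatLib.CFT

namespace CFLocal

variable {q : Nat.Primes}

theorem exists_inertial_eq_pow {ζ : PadicAlgCl (q : ℕ)} (hζ : IsPrimitiveRoot ζ (q : ℕ))
    (u : (ZMod (q : ℕ))ˣ) :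
    ∃ τ : Gloc q, Loc.IsInertial τ ∧ τ ζ = ζ ^ ((u : ZMod (q : ℕ)).val) := by
  have hζ' : IsPrimitiveRoot ζ ((q : ℕ) ^ (0 + 1)) := by simpa using hζ
  refine Loc.exists_inertial_rootOfUnity hζ' fun h => ?_
  have hu := (ZMod.natCast_eq_zero_iff (u : ZMod (q : ℕ)).val (q : ℕ)).mpr h
  rw [ZMod.natCast_zmod_val] at hu
  exact u.ne_zero hu

theorem prod_units_one_sub_pow {ζ : PadicAlgCl (q : ℕ)} (hζ : IsPrimitiveRoot ζ (q : ℕ)) :
    ∏ u : (ZMod (q : ℕ))ˣ, (1 - ζ ^ ((u : ZMod (q : ℕ)).val)) = (q : ℕ) := by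
  classical
  have hprod := Polynomial.eval_one_cyclotomic_prime (R := PadicAlgCl (q : ℕ)) (p := (q : ℕ))
  rw [Polynomial.cyclotomic_eq_prod_X_sub_primitiveRoots hζ, Polynomial.eval_prod] at hprod
  simp only [eval_sub, eval_X, eval_C] at hprod
  rw [← hprod]
  refine Finset.prod_bij (fun u _ => ζ ^ ((u : ZMod (q : ℕ)).val)) (fun u _ => ?_)
    (fun u _ v _ h => ?_) (fun μ hμ => ?_) (fun u _ => rfl)
  · rw [mem_primitiveRoots q.2.pos]
    exact hζ.pow_of_coprime _ (ZMod.val_coe_unit_coprime u)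
  · have := hζ.pow_inj (ZMod.val_lt _) (ZMod.val_lt _) h
    exact Units.ext (ZMod.val_injective _ this)
  · obtain ⟨k, hk, hco, rfl⟩ :=
      hζ.isPrimitiveRoot_iff.mp ((mem_primitiveRoots q.2.pos).mp hμ)
    refine ⟨ZMod.unitOfCoprime k hco, Finset.mem_univ _, ?_⟩
    simp [ZMod.val_natCast, Nat.mod_eq_of_lt hk]

/-- Norms from `ℚ_[r](ζ_r)` are `r`-powers times elements congruent to one. -/
theorem exists_norm_prod_sub_one_lt {ζ : PadicAlgCl (q : ℕ)} (hζ : IsPrimitiveRoot ζ (q : ℕ))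
    (τ : (ZMod (q : ℕ))ˣ → Gloc q) (hτ : ∀ u, τ u ζ = ζ ^ ((u : ZMod (q : ℕ)).val))
    {z : PadicAlgCl (q : ℕ)} (hz0 : z ≠ 0)
    (hz : ∀ σ : Gloc q, σ ζ = ζ → σ z = z) :
    ∃ k : ℤ, ‖(∏ u, τ u z) * ((q : ℕ) : PadicAlgCl (q : ℕ)) ^ (-k) - 1‖ < 1 := by
  classical
  set E : LocalField q := IntermediateField.adjoin ℚ_[(q : ℕ)] {ζ} with hE
  have : FiniteDimensional ℚ_[(q : ℕ)] E :=
    IntermediateField.adjoin.finiteDimensional (Algebra.IsIntegral.isIntegral ζ)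
  have hmemfix : ∀ y : PadicAlgCl (q : ℕ), (∀ σ : Gloc q, σ ζ = ζ → σ y = y) → y ∈ E := by
    intro y hy
    rw [← InfiniteGalois.fixedField_fixingSubgroup E]
    rintro ⟨σ, hσ⟩
    exact hy σ (hσ ⟨ζ, IntermediateField.mem_adjoin_simple_self _ ζ⟩)
  have hζ' : IsPrimitiveRoot ζ ((q : ℕ) ^ (0 + 1)) := by simpa using hζ
  have hnorm := Loc.norm_sub_one_pow hζ'
  have hfin := Loc.finrank_adjoin_rootOfUnity hζ'
  have htot : Nat.totient ((q : ℕ) ^ (0 + 1)) = (q : ℕ) - 1 := by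
    rw [zero_add, pow_one, Nat.totient_prime q.2]
  rw [htot] at hnorm hfin
  have hef := Loc.ramIdx_mul_resDeg E
  rw [hfin] at hef
  have hq2 := q.2.two_le
  have hinvlt : ((q : ℕ) : ℝ)⁻¹ < 1 := inv_lt_one_of_one_lt₀ (by exact_mod_cast q.2.one_lt)
  -- the uniformiser
  have hmem1 : 1 - ζ ∈ E :=
    sub_mem (one_mem _) (IntermediateField.mem_adjoin_simple_self _ ζ)
  have hne1 : 1 - ζ ≠ 0 := sub_ne_zero.mpr fun h => hζ.ne_one q.2.one_lt h.symm
  obtain ⟨a, ha⟩ := Loc.exists_zpow_eq_norm E (x := ⟨1 - ζ, hmem1⟩)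
    fun h => hne1 (congrArg Subtype.val h)
  change ‖1 - ζ‖ = ‖Loc.uniformizer E‖ ^ a at ha
  have hpow : ‖1 - ζ‖ ^ ((q : ℕ) - 1) = ((q : ℕ) : ℝ)⁻¹ := by rw [norm_sub_rev]; exact hnorm
  have hram := Loc.inv_q_eq_pow_ramIdx E
  have heq : a * (((q : ℕ) - 1 : ℕ) : ℤ) = (Loc.ramIdx E : ℤ) := by
    apply zpow_right_injective₀ (Loc.norm_uniformizer_pos E) (Loc.norm_uniformizer_lt_one E).ne
    dsimp only
    rw [zpow_mul, ← ha, zpow_natCast, hpow, zpow_natCast, hram]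
  have hram_pos : 0 < Loc.ramIdx E := Loc.ramIdx_pos E
  have hres_pos : 0 < Loc.resDeg E := Loc.resDeg_pos E
  have hramle : Loc.ramIdx E ≤ (q : ℕ) - 1 := by
    calc Loc.ramIdx E = Loc.ramIdx E * 1 := (mul_one _).symm
      _ ≤ Loc.ramIdx E * Loc.resDeg E := Nat.mul_le_mul_left _ hres_pos
      _ = (q : ℕ) - 1 := hef
  have ha1 : a = 1 := by
    have hm : (0 : ℤ) < (((q : ℕ) - 1 : ℕ) : ℤ) := by omega
    have h1 : a * (((q : ℕ) - 1 : ℕ) : ℤ) ≤ 1 * (((q : ℕ) - 1 : ℕ) : ℤ) := by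
      rw [heq, one_mul]; exact_mod_cast hramle
    have h2 : 0 < a := by
      by_contra h
      push Not at h
      have := mul_nonpos_of_nonpos_of_nonneg h hm.le
      omega
    have h3 := le_of_mul_le_mul_right h1 hm
    omega
  have hres : Loc.resDeg E = 1 := by
    rw [ha1, one_mul] at heq
    have h1 : Loc.ramIdx E = (q : ℕ) - 1 := by omega
    rw [h1] at hef
    exact Nat.eq_of_mul_eq_mul_left (show 0 < (q : ℕ) - 1 by omega) (hef.trans (mul_one _).symm)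
  rw [ha1, zpow_one] at ha
  -- decompose z
  obtain ⟨k, hk⟩ := Loc.exists_zpow_eq_norm E (x := ⟨z, hmemfix z hz⟩)
    fun h => hz0 (congrArg Subtype.val h)
  change ‖z‖ = ‖Loc.uniformizer E‖ ^ k at hk
  rw [← ha] at hk
  set w := z * (1 - ζ) ^ (-k) with hw
  have hwnorm : ‖w‖ = 1 := by
    rw [hw, norm_mul, norm_zpow, hk, ← zpow_add₀ (norm_ne_zero_iff.mpr hne1), add_neg_cancel,
      zpow_zero]
  have hwfix : ∀ σ : Gloc q, σ ζ = ζ → σ w = w := by
    intro σ hσ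
    rw [hw, map_mul, map_zpow₀, map_sub, map_one, hσ, hz σ hσ]
  have hwint := Loc.norm_pow_card_sub_lt E (x := ⟨w, hmemfix w hwfix⟩) hwnorm.le
  rw [hres, pow_one] at hwint
  change ‖w ^ (q : ℕ) - w‖ < 1 at hwint
  have hwr : ‖w ^ ((q : ℕ) - 1) - 1‖ < 1 := by
    have e : w ^ (q : ℕ) = w * w ^ ((q : ℕ) - 1) := by
      rw [← pow_succ']; congr 1; omega
    rw [e, show w * w ^ ((q : ℕ) - 1) - w = w * (w ^ ((q : ℕ) - 1) - 1) by ring, norm_mul,
      hwnorm, one_mul] at hwint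
    exact hwint
  -- change lifts to inertial ones
  choose ι hι hι' using exists_inertial_eq_pow hζ
  have hagree : ∀ u, τ u w = ι u w := by
    intro u
    have h1 : ((ι u)⁻¹ * τ u) w = w := hwfix _ (by
      rw [AlgEquiv.mul_apply, hτ u, ← hι' u, AlgEquiv.aut_inv, AlgEquiv.symm_apply_apply])
    rw [AlgEquiv.mul_apply, AlgEquiv.aut_inv, AlgEquiv.symm_apply_eq] at h1
    exact h1
  have hprod : ∏ u, τ u z = ((q : ℕ) : PadicAlgCl (q : ℕ)) ^ k * ∏ u, ι u w := by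
    rw [← prod_units_one_sub_pow hζ, ← Finset.prod_zpow, ← Finset.prod_mul_distrib]
    refine Finset.prod_congr rfl fun u _ => ?_
    have hne2 : (1 - ζ ^ ((u : ZMod (q : ℕ)).val)) = τ u (1 - ζ) := by
      rw [map_sub, map_one, hτ u]
    rw [hne2, ← map_zpow₀, ← hagree u, ← map_mul]
    congr 1
    rw [hw, mul_left_comm, ← zpow_add₀ hne1, add_neg_cancel, zpow_zero, mul_one]
  refine ⟨k, ?_⟩
  rw [hprod, mul_right_comm, ← zpow_add₀ (Nat.cast_ne_zero.mpr q.2.ne_zero), add_neg_cancel,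
    zpow_zero, one_mul]
  -- congruence
  have hb : ∀ u, ‖ι u w‖ ≤ 1 := fun u => (norm_gal _ _).trans hwnorm |>.le
  let W : ball (q : ℕ) := ⟨w, hwnorm.le⟩
  let F : (ZMod (q : ℕ))ˣ → ball (q : ℕ) := fun u => ⟨ι u w, hb u⟩
  have hF : ∀ u, red (F u) = red W := fun u => red_eq_red_iff.mpr (hι u w hwnorm.le)
  have h1 : red (∏ u, F u) = red (W ^ ((q : ℕ) - 1)) := by
    rw [map_prod, Finset.prod_congr rfl fun u _ => hF u, Finset.prod_const, map_pow,
      Finset.card_univ, ZMod.card_units]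
  have h2 : red (W ^ ((q : ℕ) - 1)) = red (1 : ball (q : ℕ)) := red_eq_red_iff.mpr (by simpa using hwr)
  have h3 := red_eq_red_iff.mp (h1.trans h2)
  rw [← (ball (q : ℕ)).coe_subtype, map_prod] at h3
  simpa [F] using h3

end CFLocal

end FermatLib.CFT
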