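import Fermat.Agent.CFT.CFChiDef
import Fermat.Agent.CFT.CFAuxField
import Fermat.Agent.CFT.CFCyclo
import Fermat.Agent.CFT.CFCycloSelf

/-!
The character kills norms from the kernel of `ψ`; the characters on subgroup invariants.
-/

set_option autoImplicit false

open NumberField

namespace FermatLib.CFT

namespace Chi

theorem zsmul_sum_eq_zero {A : Type*} [AddCommGroup A] [Finite A] {M : Type*} [AddCommGroup M]
    (f : A →+ M) (n : A → ℤ) (k : A) (h : ∀ c, n (k + c) = n c) :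
    (∑ᶠ c, n c) • f k = 0 := by
  classical
  have := Fintype.ofFinite A
  set K := AddSubgroup.zmultiples k
  have hinv : ∀ x ∈ K, ∀ c, n (c + x) = n c := by
    intro x hx
    have := AddSubgroup.closure_induction (p := fun x _ => ∀ c, n (c + x) = n c)
      (k := {k}) ?_ ?_ ?_ ?_ (x := x) (by rwa [← AddSubgroup.zmultiples_eq_closure])
    · exact this
    · rintro x rfl c
      rw [add_comm, h]
    · intro c; rw [add_zero]
    · intro a b _ _ ha hb c
      rw [← add_assoc, hb, ha]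
    · intro a _ ha c
      rw [← ha (c + -a), add_assoc, neg_add_cancel, add_zero]
  have hq : ∀ c : A, n c = n (QuotientAddGroup.mk c : A ⧸ K).out := by
    intro c
    obtain ⟨x, hx⟩ := QuotientAddGroup.mk_out_eq_add K c
    rw [hx, hinv x x.2]
  rw [finsum_eq_sum_of_fintype, Finset.sum_congr rfl fun c _ => hq c,
    ← Finset.sum_fiberwise Finset.univ (fun c : A => (QuotientAddGroup.mk c : A ⧸ K))]
  have hfib : ∀ d : A ⧸ K,
      (Finset.univ.filter fun c : A => (QuotientAddGroup.mk c : A ⧸ K) = d).card = addOrderOf k := by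
    intro d
    rw [← Fintype.card_subtype, ← Nat.card_eq_fintype_card, ← Nat.card_zmultiples k]
    refine Nat.card_congr ?_
    exact
      { toFun := fun c => ⟨-d.out + c.1,
          QuotientAddGroup.eq.mp ((QuotientAddGroup.out_eq' d).trans c.2.symm)⟩
        invFun := fun x => ⟨d.out + x.1, by
          rw [← (QuotientAddGroup.out_eq' d)]
          refine (QuotientAddGroup.eq.mpr ?_).symm
          simp only [QuotientAddGroup.out_eq', neg_add_cancel_left]
          exact x.2⟩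
        left_inv := fun c => by simp
        right_inv := fun x => by simp }
  rw [Finset.sum_congr rfl fun d _ => Finset.sum_congr rfl fun c (hc : c ∈ Finset.univ.filter
    fun c : A => (QuotientAddGroup.mk c : A ⧸ K) = d) => by
      rw [(Finset.mem_filter.mp hc).2]]
  simp only [Finset.sum_const, hfib, ← Finset.smul_sum]
  rw [smul_assoc, ← map_zsmul, ← map_nsmul, smul_comm, addOrderOf_nsmul_eq_zero, smul_zero,
    map_zero]

variable {L : Type} [Field L] [NumberField L] [IsGalois ℚ L] {R : Nat.Primes} {N : ℕ} [NeZero N]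
  {κ : (ZMod (R : ℕ))ˣ →* Multiplicative (ZMod N)} {Lt : Type} [Field Lt] [NumberField Lt]
  [IsGalois ℚ Lt] [Algebra L Lt] {ψ : (Lt ≃ₐ[ℚ] Lt) →* Multiplicative (ZMod N)}
  (hA : IsAuxField L κ Lt ψ)

/-- `ψ` written additively. -/
def psiAdd (ψ : (Lt ≃ₐ[ℚ] Lt) →* Multiplicative (ZMod N)) (g : Lt ≃ₐ[ℚ] Lt) : ZMod N :=
  (ψ g).toAdd

include hA in
theorem psiAdd_of_gloc {q : Nat.Primes} (φ : Emb Lt q) (τ : Gloc q) (g : Lt ≃ₐ[ℚ] Lt)
    (h : φ.postComp τ = φ.preComp g) {ζ : PadicAlgCl (q : ℕ)} (hζ : IsPrimitiveRoot ζ (R : ℕ))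
    (j : (ZMod (R : ℕ))ˣ) (hj : τ ζ = ζ ^ (j : ZMod (R : ℕ)).val) : psiAdd ψ g = kappaAdd κ j :=
  congrArg Multiplicative.toAdd
    (hA.psi_spec _ φ (τ : PadicAlgCl (q : ℕ) →+* PadicAlgCl (q : ℕ)) g h ζ hζ j hj)

include hA in
theorem psiAdd_of_conj (φ : Lt →+* ℂ) (g : Lt ≃ₐ[ℚ] Lt)
    (h : φ.comp (g : Lt →+* Lt) = (starRingEnd ℂ).comp φ) : psiAdd ψ g = kappaAdd κ (-1) := by
  have : NeZero (R : ℕ) := ⟨R.2.ne_zero⟩
  obtain ⟨ζ, hζ⟩ := HasEnoughRootsOfUnity.exists_primitiveRoot ℂ (R : ℕ)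
  refine congrArg Multiplicative.toAdd (hA.psi_spec _ φ (starRingEnd ℂ) g h.symm ζ hζ (-1) ?_)
  have hnorm : ‖ζ‖ = 1 := Complex.norm_eq_one_of_pow_eq_one hζ.pow_eq_one R.2.ne_zero
  rw [← Complex.inv_eq_conj hnorm]
  have h1 : ζ * ζ ^ ((-1 : (ZMod (R : ℕ))ˣ) : ZMod (R : ℕ)).val = 1 := by
    rw [← pow_succ', hζ.pow_eq_one_iff_dvd, ← ZMod.natCast_eq_zero_iff]
    simp
  exact eq_inv_of_mul_eq_one_right h1 |>.symm

/-- A section of `ψ`. -/
noncomputable def sec (c : ZMod N) : Lt ≃ₐ[ℚ] Lt := Function.invFun (psiAdd ψ) c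

include hA in
theorem psiAdd_sec (c : ZMod N) : psiAdd ψ (sec (ψ := ψ) c) = c :=
  Function.invFun_eq (let ⟨g, hg⟩ := hA.psi_surjective (Multiplicative.ofAdd c)
    ⟨g, by rw [psiAdd, hg]; rfl⟩)

theorem smul_eq_of_psiAdd_eq {A : Type*} [AddCommGroup A] [DistribMulAction (Lt ≃ₐ[ℚ] Lt) A]
    {b : A} (hb : b ∈ fixedPts ψ.ker A) {g g' : Lt ≃ₐ[ℚ] Lt} (h : psiAdd ψ g = psiAdd ψ g') :
    g • b = g' • b := by
  have hm : g⁻¹ * g' ∈ ψ.ker := by
    rw [MonoidHom.mem_ker, map_mul, map_inv, inv_mul_eq_one]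
    exact Multiplicative.toAdd.injective h
  have := hb ⟨_, hm⟩
  change (g⁻¹ * g') • b = b at this
  conv_lhs => rw [← this]
  rw [← mul_smul, mul_inv_cancel_left]

include hA in
theorem relNorm_ker_eq {A : Type*} [AddCommGroup A] [DistribMulAction (Lt ≃ₐ[ℚ] Lt) A] {b : A}
    (hb : b ∈ fixedPts ψ.ker A) :
    relNorm A ψ.ker ⊤ b = ∑ c : ZMod N, sec (ψ := ψ) c • b := by
  rw [RelNorm.eq_finsum_of_bijective hb
    (fun c : ZMod N => (⟨sec (ψ := ψ) c, Subgroup.mem_top _⟩ : (⊤ : Subgroup (Lt ≃ₐ[ℚ] Lt))))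
    ⟨fun c c' h => ?_, fun x => ?_⟩, finsum_eq_sum_of_fintype]
  · have h' := Subgroup.mem_subgroupOf.mp (QuotientGroup.eq.mp h)
    simp only [Subgroup.coe_mul, Subgroup.coe_inv, MonoidHom.mem_ker, map_mul, map_inv,
      inv_mul_eq_one] at h'
    rw [← psiAdd_sec hA c, ← psiAdd_sec hA c', psiAdd, psiAdd, h']
  · induction x using QuotientGroup.induction_on with
    | H g =>
      refine ⟨psiAdd ψ g, ?_⟩
      rw [QuotientGroup.eq, Subgroup.mem_subgroupOf]
      simp only [Subgroup.coe_mul, Subgroup.coe_inv, MonoidHom.mem_ker, map_mul, map_inv,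
        inv_mul_eq_one]
      exact Multiplicative.toAdd.injective (psiAdd_sec hA (psiAdd ψ g))

theorem toField_sum {q : Nat.Primes} {ι : Type*} (s : Finset ι) (f : ι → QUnits q) :
    (∑ i ∈ s, f i).toField = ∏ i ∈ s, (f i).toField := by
  classical
  induction s using Finset.induction with
  | empty => simp
  | insert a s ha ih => rw [Finset.sum_insert ha, Finset.prod_insert ha, QUnits.toField_add, ih]

theorem cToField_sum {ι : Type*} (s : Finset ι) (f : ι → CUnits) :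
    CUnits.toField (∑ i ∈ s, f i) = ∏ i ∈ s, CUnits.toField (f i) := by
  classical
  induction s using Finset.induction with
  | empty => simp
  | insert a s ha ih => rw [Finset.sum_insert ha, Finset.prod_insert ha, CUnits.toField_add, ih]

theorem sum_fin_apply {ι : Type*} (s : Finset ι) (f : ι → Idele Lt) {q : Nat.Primes}
    (φ : Emb Lt q) : (∑ i ∈ s, f i).fin q φ = ∑ i ∈ s, (f i).fin q φ := by
  classical
  induction s using Finset.induction with
  | empty => simp [Idele.fin]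
  | insert a s ha ih =>
    rw [Finset.sum_insert ha, Finset.sum_insert ha, ← ih]
    rfl

theorem sum_inf_apply {ι : Type*} (s : Finset ι) (f : ι → Idele Lt) (φ : Lt →+* ℂ) :
    (∑ i ∈ s, f i).inf φ = ∑ i ∈ s, (f i).inf φ := by
  classical
  induction s using Finset.induction with
  | empty => simp [Idele.inf]
  | insert a s ha ih =>
    rw [Finset.sum_insert ha, Finset.sum_insert ha, ← ih]
    rfl

/-- Fixing a root of unity makes the value fixed. -/
theorem fixed_of_fixes_root (hA : IsAuxField L κ Lt ψ) {b : Idele Lt}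
    (hb : b ∈ fixedPts ψ.ker (Idele Lt)) {q : Nat.Primes} (φ : Emb Lt q)
    {ζ : PadicAlgCl (q : ℕ)} (hζ : IsPrimitiveRoot ζ (R : ℕ)) (τ : Gloc q) (hτ : τ ζ = ζ) :
    τ (b.fin q φ).toField = (b.fin q φ).toField := by
  obtain ⟨g, hg⟩ := Emb.exists_preComp_eq φ (φ.postComp τ)
  have h1 : psiAdd ψ g = kappaAdd κ 1 := psiAdd_of_gloc hA φ τ g hg.symm hζ 1 (by
    have : Fact (1 < (R : ℕ)) := ⟨R.2.one_lt⟩
    rw [Units.val_one, ZMod.val_one, pow_one, hτ])
  have h2 : g • b = b := by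
    rw [smul_eq_of_psiAdd_eq hb (g' := 1) (by rw [h1]; simp [psiAdd, kappaAdd]), one_smul]
  rw [← QUnits.toField_onUnits]
  refine congrArg QUnits.toField ((b.2.1 q τ φ).symm.trans ?_)
  rw [← hg]
  exact congrArg (fun f : Idele Lt => f.fin q φ) h2

include hA in
theorem valuation_part_eq_zero {b : Idele Lt} (hb : b ∈ fixedPts ψ.ker (Idele Lt))
    (hbase : relNorm (Idele Lt) ψ.ker ⊤ b ∈ fixedPts (⊤ : Subgroup (Lt ≃ₐ[ℚ] Lt)) (Idele Lt))
    (q : Nat.Primes) (φ : Emb Lt q) :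
    (baseVal ((relNorm (Idele Lt) ψ.ker ⊤ b).fin q φ)).valuation • kappaPrime κ q = 0 := by
  classical
  by_cases hR : ((q : ℕ) : ZMod (R : ℕ)) = 0
  · rw [kappaPrime, dif_pos hR, smul_zero]
  have hne : (R : ℕ) ≠ (q : ℕ) := fun h => hR (h ▸ ZMod.natCast_self _)
  have : NeZero (R : ℕ) := ⟨R.2.ne_zero⟩
  obtain ⟨ζ, hζ⟩ := HasEnoughRootsOfUnity.exists_primitiveRoot (PadicAlgCl (q : ℕ)) (R : ℕ)
  obtain ⟨τ, hτ⟩ := CFLocal.exists_gal_eq_pow_self hne hζ
  obtain ⟨g0, hg0⟩ := Emb.exists_preComp_eq φ (φ.postComp τ)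
  have hk : psiAdd ψ g0 = kappaAdd κ (Units.mk0 _ hR) := by
    refine psiAdd_of_gloc hA φ τ g0 hg0.symm hζ _ ?_
    rw [hτ, pow_eq_pow_mod (q : ℕ) hζ.pow_eq_one, Units.val_mk0, ZMod.val_natCast]
  set z : ZMod N → PadicAlgCl (q : ℕ) := fun c => ((sec (ψ := ψ) c • b).fin q φ).toField with hz
  have hzn : ∀ c, ∃ m : ℤ, ‖z c‖ = ((q : ℕ) : ℝ) ^ m := fun c =>
    CFLocal.exists_zpow_norm_eq hne hζ (QUnits.toField_ne_zero _) fun σ hσ =>
      fixed_of_fixes_root hA hb (φ.preComp (sec (ψ := ψ) c)) hζ σ hσ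
  choose m hm using hzn
  have hinv : ∀ c, ‖z (psiAdd ψ g0 + c)‖ = ‖z c‖ := by
    intro c
    have e : sec (ψ := ψ) (psiAdd ψ g0 + c) • b = g0 • sec (ψ := ψ) c • b := by
      rw [← mul_smul]
      refine smul_eq_of_psiAdd_eq hb ?_
      rw [psiAdd_sec hA]
      simp only [psiAdd, map_mul, toAdd_mul]
      congr 1
      exact (psiAdd_sec hA c).symm
    show ‖((sec (ψ := ψ) (psiAdd ψ g0 + c) • b).fin q φ).toField‖ = _
    rw [e, show (g0 • sec (ψ := ψ) c • b).fin q φ =
      (sec (ψ := ψ) c • b).fin q (φ.preComp g0) from rfl, hg0,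
      show (sec (ψ := ψ) c • b).fin q (φ.postComp τ) = Gloc.onUnits τ ((sec (ψ := ψ) c • b).fin q φ)
        from (sec (ψ := ψ) c • b).2.1 q τ φ, QUnits.toField_onUnits, CFLocal.norm_gal]
  have hmi : ∀ c, m (psiAdd ψ g0 + c) = m c := fun c =>
    zpow_right_injective₀ (show (0 : ℝ) < (q : ℕ) by exact_mod_cast q.2.pos)
      (show ((q : ℕ) : ℝ) ≠ 1 by exact_mod_cast q.2.ne_one)
      (show ((q : ℕ) : ℝ) ^ m (psiAdd ψ g0 + c) = ((q : ℕ) : ℝ) ^ m c by rw [← hm, ← hm, hinv])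
  set B := baseVal ((relNorm (Idele Lt) ψ.ker ⊤ b).fin q φ)
  have hB : algebraMap ℚ_[(q : ℕ)] (PadicAlgCl (q : ℕ)) B = ∏ c : ZMod N, z c := by
    rw [algebraMap_baseVal (isBase_of_fixed hbase φ), relNorm_ker_eq hA hb, sum_fin_apply,
      toField_sum]
  have hv : -B.valuation = ∑ᶠ c, m c := by
    rw [finsum_eq_sum_of_fintype]
    apply zpow_right_injective₀ (show (0 : ℝ) < (q : ℕ) by exact_mod_cast q.2.pos)
      (show ((q : ℕ) : ℝ) ≠ 1 by exact_mod_cast q.2.ne_one)
    dsimp only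
    rw [← Padic.norm_eq_zpow_neg_valuation (baseVal_ne_zero (isBase_of_fixed hbase φ)),
      ← norm_algebraMap' (PadicAlgCl (q : ℕ)), hB, norm_prod]
    simp only [hm]
    clear_value z
    induction (Finset.univ : Finset (ZMod N)) using Finset.induction with
    | empty => simp
    | insert a s ha ih =>
      rw [Finset.prod_insert ha, Finset.sum_insert ha, ih,
        zpow_add₀ (Nat.cast_ne_zero.mpr q.2.ne_zero)]
  rw [kappaPrime, dif_neg hR, ← hk, ← neg_neg B.valuation, hv, neg_smul, neg_eq_zero]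
  exact zsmul_sum_eq_zero (AddMonoidHom.id (ZMod N)) m (psiAdd ψ g0) hmi

include hA in
theorem sign_part_eq_zero {b : Idele Lt} (hb : b ∈ fixedPts ψ.ker (Idele Lt)) (φ : Lt →+* ℂ) :
    signPart κ ((relNorm (Idele Lt) ψ.ker ⊤ b).inf φ) = 0 := by
  classical
  obtain ⟨g0, hg0⟩ := exists_comp_eq_inf φ ((starRingEnd ℂ).comp φ)
  have hk := psiAdd_of_conj hA φ g0 hg0
  unfold signPart
  split_ifs with hneg
  swap; · rfl
  rw [← hk]
  by_contra h0
  set k := psiAdd ψ g0 with hk0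
  set z : ZMod N → ℂ := fun c => CUnits.toField ((sec (ψ := ψ) c • b).inf φ) with hz
  have hinv : ∀ c, z (k + c) = starRingEnd ℂ (z c) := by
    intro c
    have e : sec (ψ := ψ) (k + c) • b = g0 • sec (ψ := ψ) c • b := by
      rw [← mul_smul]
      refine smul_eq_of_psiAdd_eq hb ?_
      rw [psiAdd_sec hA]
      simp only [hk0, psiAdd, map_mul, toAdd_mul]
      congr 1
      exact (psiAdd_sec hA c).symm
    show CUnits.toField ((sec (ψ := ψ) (k + c) • b).inf φ) = _
    rw [e, show (g0 • sec (ψ := ψ) c • b).inf φ =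
      (sec (ψ := ψ) c • b).inf (φ.comp (g0 : Lt →+* Lt)) from rfl, hg0,
      show (sec (ψ := ψ) c • b).inf ((starRingEnd ℂ).comp φ) =
        conjUnits ((sec (ψ := ψ) c • b).inf φ) from (sec (ψ := ψ) c • b).2.2.2 φ,
      CUnits.toField_conjUnits]
  have hkk : k + k = 0 := by
    rw [hk, ← kappaAdd_mul, neg_one_mul, neg_neg, kappaAdd_one]
  set S := Finset.univ.filter fun c : ZMod N => c.val < (k + c).val with hS
  have hcompl : (Finset.univ.filter fun c : ZMod N => ¬ c.val < (k + c).val) =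
      S.image (k + ·) := by
    ext c
    simp only [hS, Finset.mem_filter, Finset.mem_univ, true_and, Finset.mem_image, not_lt]
    constructor
    · intro h
      refine ⟨k + c, ?_, by rw [← add_assoc, hkk, zero_add]⟩
      rw [← add_assoc, hkk, zero_add]
      refine lt_of_le_of_ne h fun e => h0 ?_
      simpa using ZMod.val_injective N e
    · rintro ⟨a, ha, rfl⟩
      rw [← add_assoc, hkk, zero_add]
      exact ha.le
  have hprod : ∏ c : ZMod N, z c = ∏ c ∈ S, ((Complex.normSq (z c) : ℝ) : ℂ) := by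
    rw [← Finset.prod_filter_mul_prod_filter_not Finset.univ
      (fun c : ZMod N => c.val < (k + c).val), hcompl,
      Finset.prod_image (fun a _ a' _ h => add_left_cancel h), ← hS, ← Finset.prod_mul_distrib]
    exact Finset.prod_congr rfl fun c _ => by rw [hinv, Complex.mul_conj]
  rw [relNorm_ker_eq hA hb, sum_inf_apply, cToField_sum, hprod, ← Complex.ofReal_prod,
    Complex.ofReal_re] at hneg
  exact not_le.mpr hneg (Finset.prod_nonneg fun c _ => Complex.normSq_nonneg _)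

include hA in
theorem res_part_eq_zero (hκ : Function.Surjective κ) (hcop : (Nat.card κ.ker).Coprime N) {b : Idele Lt}
    (hb : b ∈ fixedPts ψ.ker (Idele Lt))
    (hbase : relNorm (Idele Lt) ψ.ker ⊤ b ∈ fixedPts (⊤ : Subgroup (Lt ≃ₐ[ℚ] Lt)) (Idele Lt))
    (φ : Emb Lt R) :
    kappaAdd κ (resUnit R (baseVal ((relNorm (Idele Lt) ψ.ker ⊤ b).fin R φ))) = 0 := by
  classical
  have : NeZero (R : ℕ) := ⟨R.2.ne_zero⟩
  obtain ⟨ζ, hζ⟩ := HasEnoughRootsOfUnity.exists_primitiveRoot (PadicAlgCl (R : ℕ)) (R : ℕ)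
  choose τ hτi hτ using CFLocal.exists_inertial_eq_pow hζ
  choose g hg using fun u => Emb.exists_preComp_eq φ (φ.postComp (τ u))
  have hgu : ∀ u, psiAdd ψ (g u) = kappaAdd κ u := fun u =>
    psiAdd_of_gloc hA φ (τ u) (g u) (hg u).symm hζ u (hτ u)
  set z := (b.fin R φ).toField with hz
  obtain ⟨k, hk⟩ := CFLocal.exists_norm_prod_sub_one_lt hζ τ hτ (z := z)
    (QUnits.toField_ne_zero _) fun σ hσ => fixed_of_fixes_root hA hb φ hζ σ hσ
  set B := baseVal ((relNorm (Idele Lt) ψ.ker ⊤ b).fin R φ)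
  have hτz : ∀ u, τ u z = ((sec (ψ := ψ) (kappaAdd κ u) • b).fin R φ).toField := by
    intro u
    rw [smul_eq_of_psiAdd_eq hb (g' := g u) (by rw [psiAdd_sec hA, hgu u]),
      show (g u • b).fin R φ = b.fin R (φ.preComp (g u)) from rfl, hg u,
      show b.fin R (φ.postComp (τ u)) = Gloc.onUnits (τ u) (b.fin R φ) from b.2.1 R (τ u) φ,
      QUnits.toField_onUnits]
  have hpow : algebraMap ℚ_[(R : ℕ)] (PadicAlgCl (R : ℕ)) (B ^ Nat.card κ.ker) = ∏ u, τ u z := by
    rw [map_pow, algebraMap_baseVal (isBase_of_fixed hbase φ), relNorm_ker_eq hA hb, sum_fin_apply,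
      toField_sum, ← Finset.prod_pow,
      ← Finset.prod_fiberwise Finset.univ (fun u : (ZMod (R : ℕ))ˣ => kappaAdd κ u)]
    refine Finset.prod_congr rfl fun c _ => ?_
    have hcard : (Finset.univ.filter fun u : (ZMod (R : ℕ))ˣ => kappaAdd κ u = c).card =
        Nat.card κ.ker := by
      obtain ⟨σ, hσ⟩ : ∃ u0, kappaAdd κ u0 = c :=
        let ⟨u0, hu0⟩ := hκ (Multiplicative.ofAdd c)
        ⟨u0, by rw [kappaAdd, hu0]; rfl⟩
      rw [← Fintype.card_subtype, ← Nat.card_eq_fintype_card]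
      exact Nat.card_congr
        { toFun := fun u => ⟨σ⁻¹ * u.1, by
            rw [MonoidHom.mem_ker, map_mul, map_inv, inv_mul_eq_one]
            exact Multiplicative.toAdd.injective (hσ.trans u.2.symm)⟩
          invFun := fun x => ⟨σ * x.1, by
            rw [kappaAdd_mul, hσ, show kappaAdd κ (x : (ZMod (R : ℕ))ˣ) = 0 by
              rw [kappaAdd, MonoidHom.mem_ker.mp x.2, toAdd_one], add_zero]⟩
          left_inv := fun u => by simp
          right_inv := fun x => by simp }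
    rw [← hcard, ← Finset.prod_const]
    refine Finset.prod_congr rfl fun u hu => ?_
    rw [hτz u, (Finset.mem_filter.mp hu).2]
  rw [← hpow, ← map_natCast (algebraMap ℚ_[(R : ℕ)] (PadicAlgCl (R : ℕ))), ← map_zpow₀, ← map_mul,
    ← map_one (algebraMap ℚ_[(R : ℕ)] (PadicAlgCl (R : ℕ))), ← map_sub, norm_algebraMap'] at hk
  have hB0 : B ≠ 0 := baseVal_ne_zero (isBase_of_fixed hbase φ)
  have h1 : resUnit R B ^ Nat.card κ.ker = 1 := by
    rw [← resUnit_eq_one R hk]
    generalize Nat.card κ.ker = n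
    induction n with
    | zero => rw [pow_zero, pow_zero]; exact (resUnit_eq_one R (k := 0) (by simp)).symm
    | succ n ih => rw [pow_succ, pow_succ, ih, resUnit_mul R (pow_ne_zero _ hB0) hB0]
  have h2 : Nat.card κ.ker • kappaAdd κ (resUnit R B) = 0 := by
    rw [kappaAdd, ← toAdd_pow, ← map_pow, h1, map_one, toAdd_one]
  have h3 : addOrderOf (kappaAdd κ (resUnit R B)) = 1 :=
    Nat.eq_one_of_dvd_coprimes hcop (addOrderOf_dvd_of_nsmul_eq_zero h2)
      (by simpa using addOrderOf_dvd_natCard (kappaAdd κ (resUnit R B)))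
  exact AddMonoid.addOrderOf_eq_one_iff.mp h3

include hA in
/-- The character kills norms from `ψ.ker`. -/
theorem chiTop_relNorm_ker (hκ : Function.Surjective κ) (hcop : (Nat.card κ.ker).Coprime N) {b : Idele Lt}
    (hb : b ∈ fixedPts ψ.ker (Idele Lt)) :
    chiTop κ Lt (relNorm (Idele Lt) ψ.ker ⊤ b) = 0 := by
  have hbase := RelNorm.mem_fixedPts (H := (⊤ : Subgroup (Lt ≃ₐ[ℚ] Lt))) hb
  rw [chiTop, res_part_eq_zero hA hκ hcop hb hbase, sign_part_eq_zero hA hb,
    finsum_eq_zero_of_forall_eq_zero fun q => valuation_part_eq_zero hA hb hbase q _]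
  simp

end Chi

end FermatLib.CFT
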