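import Fermat.Agent.CFT.CFAuxSetup

/-!
The global class formation.
-/

set_option autoImplicit false

open NumberField

namespace FermatLib.CFT

namespace Chi

variable {p : ℕ} [hp : Fact p.Prime]

theorem exists_class_chiTop_eq_one {R : Nat.Primes} {N : ℕ} [NeZero N]
    {κ : (ZMod (R : ℕ))ˣ →* Multiplicative (ZMod N)} (hκ : Function.Surjective κ) (Lt : Type)
    [Field Lt] [NumberField Lt] [IsGalois ℚ Lt] :
    ∃ f ∈ fixedPts (⊤ : Subgroup (Lt ≃ₐ[ℚ] Lt)) (Idele Lt), chi κ ⊤ f = 1 := by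
  classical
  have : Fact (R : ℕ).Prime := ⟨R.2⟩
  obtain ⟨u, hu⟩ := hκ (Multiplicative.ofAdd 1)
  set n := (u : ZMod (R : ℕ)).val with hn
  have hnd : ¬ (R : ℕ) ∣ n := fun h => u.ne_zero (by
    rw [← ZMod.natCast_zmod_val (u : ZMod (R : ℕ)), ← hn]
    exact (ZMod.natCast_eq_zero_iff _ _).2 h)
  have hn0 : (n : PadicAlgCl (R : ℕ)) ≠ 0 :=
    Nat.cast_ne_zero.2 fun h => hnd (h ▸ dvd_zero _)
  set φ : Emb Lt R := Classical.arbitrary _
  set y : QUnits R := Additive.ofMul (Units.mk0 _ hn0) with hy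
  have hyE : y.toField ∈ localField (⊤ : Subgroup (Lt ≃ₐ[ℚ] Lt)) φ := natCast_mem _ n
  set f := placeIdele ⊤ φ y hyE with hf
  have hfix := placeIdele_mem_fixedPts ⊤ φ y hyE
  refine ⟨f, hfix, ?_⟩
  rw [chi, RelNorm.eq_of_mem_fixedPts hfix, Subgroup.relIndex_self, one_smul,
    chiTop_eq κ hfix φ (fun q => Classical.arbitrary (Emb Lt q)) (Classical.arbitrary _),
    finsum_eq_zero_of_forall_eq_zero fun q => ?_, placeIdele_inf, placeIdele_apply_self,
    baseVal_eq (y := (n : ℚ_[(R : ℕ)])) (by rw [map_natCast]; rfl)]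
  · rw [show resUnit R (n : ℚ_[(R : ℕ)]) = u from Units.ext (by
      rw [resUnit_natCast hnd, hn, ZMod.natCast_zmod_val])]
    simp [signPart, kappaAdd, hu]
  · by_cases hqR : q = R
    · subst hqR
      rw [kappaPrime, dif_pos (ZMod.natCast_self _), smul_zero]
    · rw [placeIdele_apply_of_ne ⊤ φ y hyE hqR,
        baseVal_eq (y := 1) (by rw [map_one, QUnits.toField_zero]), Padic.valuation_one, zero_smul]

theorem dvd_of_pow_dvd_mul {s c g' i m : ℕ} (hg' : ¬ p ∣ g') (hsc : s ≤ c)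
    {idx : ℕ} (hidx : p ^ i * idx = p ^ s * g') (h : p ^ c ∣ m * idx * p ^ (c - s)) :
    p ^ i ∣ m := by
  have h1 : p ^ s ∣ m * idx := by
    rw [← Nat.mul_dvd_mul_iff_right (pow_pos hp.out.pos (c - s)), ← pow_add,
      Nat.add_sub_cancel' hsc]
    exact h
  have h2 : p ^ s * p ^ i ∣ p ^ s * (m * g') := by
    have h3 := Nat.mul_dvd_mul_left (p ^ i) h1
    rw [show p ^ i * (m * idx) = m * (p ^ i * idx) by ring, hidx] at h3
    rw [mul_comm (p ^ s) (p ^ i), show p ^ s * (m * g') = m * (p ^ s * g') by ring]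
    exact h3
  exact (Nat.Coprime.pow_left _ (hp.out.coprime_iff_not_dvd.mpr hg')).dvd_of_dvd_mul_right
    ((Nat.mul_dvd_mul_iff_left (pow_pos hp.out.pos s)).1 h2)

theorem hasSteps_ideleClass (L : Type) [Field L] [NumberField L] [IsGalois ℚ L] :
    CFAbs.HasSteps p (L ≃ₐ[ℚ] L) (IdeleClass L) :=
  CFAbs.hasSteps_of_normal fun K' K hle hn _ hidx =>
    haveI := hn
    ideleClass_isCyclicStep L K' K hle hidx

theorem ideleClass_formation (L : Type) [Field L] [NumberField L] [IsGalois ℚ L] :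
    IsPClassFormation p (L ≃ₐ[ℚ] L) (IdeleClass L) := by
  classical
  obtain ⟨s, g', hg', hG⟩ := Nat.exists_eq_pow_mul_and_not_dvd
    (n := Nat.card (L ≃ₐ[ℚ] L)) Nat.card_pos.ne' p hp.out.ne_one
  obtain ⟨r, hr, hdvd⟩ := AuxPrime.exists_prime_pow_dvd_sub_one p s
  obtain ⟨R, rfl⟩ : ∃ R : Nat.Primes, (R : ℕ) = r := ⟨⟨r, hr⟩, rfl⟩
  haveI : Fact (R : ℕ).Prime := ⟨R.2⟩
  obtain ⟨c, κ, hκ, hc, hcr, -⟩ := AuxPrime.exists_kappa p (R : ℕ)
  have hsc : s ≤ c := by
    by_contra h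
    push Not at h
    apply hc
    obtain ⟨d, hd⟩ := (pow_dvd_pow p h).trans hdvd
    rw [pow_succ, mul_assoc] at hd
    rw [hd, Nat.mul_div_cancel_left _ (pow_pos hp.out.pos c)]
    exact dvd_mul_right p d
  obtain ⟨Lt, _, _, _, _, ψ, hA⟩ := exists_isAuxField L hκ
  set π : (Lt ≃ₐ[ℚ] Lt) →* (L ≃ₐ[ℚ] L) := AlgEquiv.restrictNormalHom L
  have hπ : Function.Surjective π := AlgEquiv.restrictNormalHom_surjective Lt
  have hπp : IsPGroup p π.ker := isPGroup_ker hA
  have hcop := coprime_card_ker hκ hc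
  obtain ⟨f, hf, hf1⟩ := exists_class_chiTop_eq_one hκ Lt
  set a : IdeleClass Lt := QuotientAddGroup.mk f
  have ha : a ∈ fixedPts (⊤ : Subgroup (Lt ≃ₐ[ℚ] Lt)) (IdeleClass Lt) := mk_mem_fixedPts hf
  set e := p ^ (c - s) • a with he
  have heG : e ∈ fixedPts (Lt ≃ₐ[ℚ] Lt) (IdeleClass Lt) :=
    nsmul_mem (show a ∈ fixedPts (Lt ≃ₐ[ℚ] Lt) (IdeleClass Lt) from fun g => ha ⟨g, trivial⟩) _
  have hchi : ∀ (H : Subgroup (Lt ≃ₐ[ℚ] Lt)) (m : ℕ),
      chiClass κ H (m • e) = ((m * H.index * p ^ (c - s) : ℕ) : ZMod (p ^ c)) := by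
    intro H m
    have hH : a ∈ fixedPts H (IdeleClass Lt) := fun g => ha ⟨g, trivial⟩
    rw [he, ← mul_nsmul', chiClass_nsmul κ hH, chiClass_res κ le_top ha, chiClass_mk κ hf, hf1,
      Subgroup.relIndex_top_right, nsmul_eq_mul, nsmul_eq_mul]
    push_cast
    ring
  have hsteps : CFAbs.HasSteps p (Lt ≃ₐ[ℚ] Lt) (IdeleClass Lt) := hasSteps_ideleClass Lt
  have hKe : e ∈ relNormSet (IdeleClass Lt) (ψ.ker ⊓ π.ker) π.ker := by
    obtain ⟨a', ha', hcover⟩ := exists_class_cover hA hπp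
    refine CFAbs.mem_relNormSet_of_chi_eq_zero ψ hsteps hπp (chiClass κ π.ker)
      (fun x hx y hy => chiClass_add hx hy) (fun x hx => chiClass_norm_eq_zero hA hκ hcop hx)
      ha' hcover (fun g => heG _) ?_
    have := hchi π.ker 1
    rw [one_nsmul] at this
    rw [this, ZMod.natCast_eq_zero_iff, one_mul, Subgroup.index_ker,
      MonoidHom.range_eq_top.mpr hπ, Subgroup.card_top, hG, mul_right_comm, ← pow_add,
      Nat.add_sub_cancel' hsc]
    exact dvd_mul_right _ _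
  obtain ⟨u, hu, -, hord⟩ := CFAbs.exists_inflated_gen π hπ hπp (classBaseChange L Lt)
    (fun g x => classBaseChange_smul g (π g) (fun y => apply_algebraMap g y) x)
    classBaseChange_injective (fun x hx => mem_range_classBaseChange hx) hsteps ψ heG hKe
    (fun P hP m hm => by
      have h0 := chiClass_norm_eq_zero hA hκ hcop hm
      rw [hchi, ZMod.natCast_eq_zero_iff, Subgroup.index_comap_of_surjective _ hπ] at h0
      obtain ⟨i, hi⟩ := IsPGroup.iff_card.1 hP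
      rw [hi]
      exact dvd_of_pow_dvd_mul hg' hsc (by rw [← hi, Subgroup.card_mul_index, hG]) h0)
  exact CFAbs.isPClassFormation_of_gen (hasSteps_ideleClass L) hu hord

end Chi

end FermatLib.CFT
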