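import Fermat.Agent.CFT.CohBasic
import Fermat.Agent.CFT.CFRelNorm

/-!
Relative norms and cyclic steps along injective homomorphisms of groups and compatible maps of
modules.
-/

set_option autoImplicit false

namespace FermatLib.CFT

namespace RelNorm

variable {G G' : Type*} [Group G] [Group G'] {A A' : Type*} [AddCommGroup A] [AddCommGroup A']
  [DistribMulAction G A] [DistribMulAction G' A'] (e : G →* G') (φ : A →+ A')

theorem map_fixedPts (hc : ∀ g a, φ (g • a) = e g • φ a) {K : Subgroup G} {a : A}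
    (ha : a ∈ fixedPts K A) : φ a ∈ fixedPts (K.map e) A' := by
  rintro ⟨_, g, hg, rfl⟩
  change e g • φ a = φ a
  rw [← hc]
  exact congrArg φ (ha ⟨g, hg⟩)

theorem map_hom [Finite G] (he : Function.Injective e) (hc : ∀ g a, φ (g • a) = e g • φ a)
    (K' K : Subgroup G) {a : A} (ha : a ∈ fixedPts K' A) :
    φ (relNorm A K' K a) = relNorm A' (K'.map e) (K.map e) (φ a) := by
  have := Fintype.ofFinite (K ⧸ K'.subgroupOf K)
  rw [eq_finsum_of_bijective (map_fixedPts e φ hc ha)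
    (fun c : K ⧸ K'.subgroupOf K => (⟨e c.out, c.out, c.out.2, rfl⟩ : K.map e)) ⟨fun c c' h => ?_,
    fun x => ?_⟩]
  · rw [relNorm, finsum_eq_sum_of_fintype, finsum_eq_sum_of_fintype, map_sum]
    exact Finset.sum_congr rfl fun c _ => hc _ _
  · obtain ⟨k, hk, hke⟩ := Subgroup.mem_subgroupOf.1 (QuotientGroup.eq.1 h)
    rw [← QuotientGroup.out_eq' c, ← QuotientGroup.out_eq' c', QuotientGroup.eq,
      Subgroup.mem_subgroupOf]
    have : k = ((c.out)⁻¹ * c'.out : K) := he (by rw [hke]; simp)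
    rwa [← this]
  · induction x using QuotientGroup.induction_on with
    | H y =>
      obtain ⟨_, g, hg, rfl⟩ := y
      refine ⟨QuotientGroup.mk ⟨g, hg⟩, QuotientGroup.eq.2 (Subgroup.mem_subgroupOf.2 ⟨_,
        Subgroup.mem_subgroupOf.1 (QuotientGroup.eq.1
          (QuotientGroup.out_eq' (QuotientGroup.mk ⟨g, hg⟩ : K ⧸ K'.subgroupOf K))), ?_⟩)⟩
      simp

theorem isCyclicStep_of_equiv [Finite G] {p : ℕ} (e : G ≃* G') (φ : A ≃+ A')
    (hc : ∀ g a, φ (g • a) = e g • φ a) {K' K : Subgroup G}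
    (h : IsCyclicStep A' p (K'.map e.toMonoidHom) (K.map e.toMonoidHom)) :
    IsCyclicStep A p K' K := by
  classical
  have hfix : ∀ (H : Subgroup G) (a : A),
      a ∈ fixedPts H A ↔ φ a ∈ fixedPts (H.map e.toMonoidHom) A' := fun H a =>
    ⟨map_fixedPts e.toMonoidHom φ.toAddMonoidHom hc, fun ha g => φ.injective (by
      change φ ((g : G) • a) = φ a
      rw [hc]
      exact ha ⟨e (g : G), g, g.2, rfl⟩)⟩
  have hn : ∀ a ∈ fixedPts K' A, φ (relNorm A K' K a) =
      relNorm A' (K'.map e.toMonoidHom) (K.map e.toMonoidHom) (φ a) := fun a ha =>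
    map_hom e.toMonoidHom φ.toAddMonoidHom e.injective hc K' K ha
  have hset : ∀ b : A, b ∈ relNormSet A K' K ↔
      φ b ∈ relNormSet A' (K'.map e.toMonoidHom) (K.map e.toMonoidHom) := fun b => by
    constructor
    · rintro ⟨a, ha, rfl⟩
      exact ⟨φ a, (hfix K' a).1 ha, (hn a ha).symm⟩
    · rintro ⟨a', ha', hb⟩
      obtain ⟨a, rfl⟩ := φ.surjective a'
      exact ⟨a, (hfix K' a).2 ha', φ.injective (by rw [hn a ((hfix K' a).2 ha'), hb])⟩
  refine ⟨?_, fun s hs hsep => ?_, fun g hg hg' a ha h0 => ?_⟩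
  · obtain ⟨b', hb', hb''⟩ := h.exists_not_norm
    obtain ⟨b, rfl⟩ := φ.surjective b'
    exact ⟨b, (hfix K b).2 hb', fun hb => hb'' ((hset b).1 hb)⟩
  · rw [← Finset.card_image_of_injective s φ.injective]
    refine h.norm_index_le _ (fun b hb => ?_) fun b hb c hc' hbc => ?_
    · obtain ⟨x, hx, rfl⟩ := Finset.mem_image.1 hb
      exact (hfix K x).1 (hs x hx)
    · obtain ⟨x, hx, rfl⟩ := Finset.mem_image.1 hb
      obtain ⟨y, hy, rfl⟩ := Finset.mem_image.1 hc'
      rw [hsep x hx y hy ((hset _).2 (by rwa [map_sub]))]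
  · obtain ⟨b', hb', hb''⟩ := h.h1 (e g) ⟨g, hg, rfl⟩
      (fun ⟨k, hk, hke⟩ => hg' ((e.injective hke : k = g) ▸ hk)) (φ a) ((hfix K' a).1 ha)
      (by rw [← hn a ha, h0, map_zero])
    obtain ⟨b, rfl⟩ := φ.surjective b'
    exact ⟨b, (hfix K' b).2 hb', φ.injective (by rw [map_sub, hc, hb''])⟩

end RelNorm

end FermatLib.CFT
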