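import Fermat.Agent.CFT.CFGlobal
import Fermat.Agent.CFT.CFTransfer

/-!
Archimedean local classes inject into global classes.
-/

set_option autoImplicit false

open NumberField

namespace FermatLib.CFT

namespace Chi

/-- Carry cocycles are additive in the character up to coboundaries. -/
theorem cupChar_mul_sub_mem_B2 {G A : Type*} [Group G] [AddCommGroup A] [DistribMulAction G A]
    {N : ℕ} [NeZero N] (θ σ : G →* Multiplicative (ZMod N)) {a : A} (ha : a ∈ fixedPts G A) :
    cupChar (θ * σ) a - (cupChar θ a + cupChar σ a) ∈ B2 G A := by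
  refine mem_B2_iff.2 ⟨fun x => -((((θ x).toAdd.val + (σ x).toAdd.val) / N) • a), fun x y => ?_⟩
  simp only [cupChar, Pi.sub_apply, Pi.add_apply, MonoidHom.mul_apply, map_mul, toAdd_mul,
    ZMod.val_add, smul_neg, smul_comm x, ha x]
  have hN : 0 < N := NeZero.pos N
  have key : ∀ u v u' v' : ℕ,
      ((u + v) % N + (u' + v') % N) / N + (u + v) / N + (u' + v') / N =
        (u + u') / N + (v + v') / N + ((u + u') % N + (v + v') % N) / N := fun u v u' v' => by
    have e1 : ∀ s t : ℕ, (s % N + t % N) / N + s / N + t / N = (s + t) / N := fun s t => by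
      have h1 := Nat.mod_add_div s N
      have h2 := Nat.mod_add_div t N
      rw [show s + t = (s % N + t % N) + N * (s / N + t / N) by rw [mul_add]; omega,
        Nat.add_mul_div_left _ _ hN]
      omega
    have h1 := e1 (u + v) (u' + v')
    have h2 := e1 (u + u') (v + v')
    rw [show u + v + (u' + v') = u + u' + (v + v') by omega] at h1
    omega
  generalize (θ x).toAdd.val = u, (σ x).toAdd.val = v, (θ y).toAdd.val = u', (σ y).toAdd.val = v'
  have hk := congrArg (fun n : ℕ => n • a) (key u v u' v')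
  simp only [add_smul] at hk
  rw [eq_sub_of_add_eq (eq_sub_of_add_eq hk)]
  abel

variable {L : Type} [Field L] [NumberField L] [IsGalois ℚ L]

omit [IsGalois ℚ L] in
theorem eq_one_of_comp_eq {φ : L →+* ℂ} {g : L ≃ₐ[ℚ] L}
    (h : φ.comp (g : L →+* L) = φ) : g = 1 :=
  AlgEquiv.ext fun x => φ.injective (RingHom.congr_fun h x)

omit [IsGalois ℚ L] in
theorem eq_of_comp_eq {φ : L →+* ℂ} {g g' : L ≃ₐ[ℚ] L}
    (h : φ.comp (g : L →+* L) = φ.comp (g' : L →+* L)) : g = g' :=
  AlgEquiv.ext fun x => φ.injective (RingHom.congr_fun h x)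

open Classical in
/-- A negative real value at a complex place of `L` over a real place is not trivial globally. -/
theorem cupChar_not_mem_B2 {φ : L →+* ℂ} {c : L ≃ₐ[ℚ] L}
    (hc : φ.comp (c : L →+* L) = (starRingEnd ℂ).comp φ) (hc1 : c ≠ 1)
    {H : Subgroup (L ≃ₐ[ℚ] L)} (hcH : c ∈ H) (hH2 : ∀ g ∈ H, g = 1 ∨ g = c)
    {a : Idele L} (ha : a ∈ infPart φ) (hfix : a ∈ fixedPts H (Idele L))
    (hneg : (CUnits.toField (a.inf φ)).re < 0)
    {f : H × H → Idele L} (hf : ∀ x y : H, f (x, y) = if x ≠ 1 ∧ y ≠ 1 then a else 0) :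
    (fun t => (QuotientAddGroup.mk (f t) : IdeleClass L)) ∉ B2 H (IdeleClass L) := by
  classical
  intro h
  haveI : Fact (Nat.Prime 2) := ⟨Nat.prime_two⟩
  obtain ⟨r, hr, hdvd⟩ := AuxPrime.exists_prime_pow_dvd_sub_one 2 1
  obtain ⟨R, rfl⟩ : ∃ R : Nat.Primes, (R : ℕ) = r := ⟨⟨r, hr⟩, rfl⟩
  haveI : Fact (R : ℕ).Prime := ⟨R.2⟩
  obtain ⟨n, κ, hκ, hkc, -, hkord⟩ := AuxPrime.exists_kappa 2 (R : ℕ)
  obtain ⟨Lt, _, _, _, _, ψ, hA⟩ := exists_isAuxField L hκ
  have hcop := coprime_card_ker hκ hkc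
  have hm1 : (-1 : (ZMod (R : ℕ))ˣ) ≠ 1 := by
    intro e
    have e' : ((-1 : (ZMod (R : ℕ))ˣ) : ZMod (R : ℕ)) = 1 := by rw [e, Units.val_one]
    have h2 : ((2 : ℕ) : ZMod (R : ℕ)) = 0 := by
      simp only [Units.val_neg, Units.val_one] at e'
      push_cast
      linear_combination -e'
    have := Nat.le_of_dvd (by norm_num) ((ZMod.natCast_eq_zero_iff _ _).1 h2)
    have h3 := R.2.two_le
    omega
  set k0 := kappaAdd κ (-1) with hk0def
  have hk0 : k0 ≠ 0 := by
    intro e
    have h1 := hkord (-1) 1 (by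
      rw [pow_one]
      exact orderOf_eq_prime (by rw [neg_one_sq]) hm1)
    have e' : κ (-1) = 1 := Multiplicative.toAdd.injective (e.trans toAdd_one.symm)
    rw [e', orderOf_one] at h1
    norm_num at h1
  have hkk : k0 + k0 = 0 := by
    rw [hk0def, ← kappaAdd_mul, neg_one_mul, neg_neg, kappaAdd_one]
  -- the embedding upstairs and its conjugation
  letI : Algebra L ℂ := φ.toAlgebra
  haveI : FiniteDimensional L Lt := FiniteDimensional.right ℚ L Lt
  set φt : Lt →+* ℂ := (IsAlgClosed.lift : Lt →ₐ[L] ℂ).toRingHom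
  have hover : ∀ x : L, φt (algebraMap L Lt x) = φ x :=
    fun x => (IsAlgClosed.lift : Lt →ₐ[L] ℂ).commutes x
  obtain ⟨ct, hct⟩ := exists_comp_eq_inf φt ((starRingEnd ℂ).comp φt)
  set π : (Lt ≃ₐ[ℚ] Lt) →* (L ≃ₐ[ℚ] L) := AlgEquiv.restrictNormalHom L
  have hπ : ∀ g x, φ (π g x) = φt (g (algebraMap L Lt x)) := fun g x => by
    rw [apply_algebraMap, hover]
  have hπct : π ct = c := AlgEquiv.ext fun x => φ.injective (by
    rw [hπ, show φt (ct (algebraMap L Lt x)) = starRingEnd ℂ (φt (algebraMap L Lt x)) from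
      RingHom.congr_fun hct _, hover]
    exact (RingHom.congr_fun hc x).symm)
  set Ht := H.comap π
  set D2 := infDecompGroup φt
  have hD2mem : ∀ g : Lt ≃ₐ[ℚ] Lt, g ∈ D2 → g = 1 ∨ g = ct := by
    rintro g (e | e)
    · exact Or.inl (eq_one_of_comp_eq e)
    · exact Or.inr (eq_of_comp_eq (e.trans hct.symm))
  have hD2le : D2 ≤ Ht := fun g hg => by
    rcases hD2mem g hg with rfl | rfl
    · exact Ht.one_mem
    · show π g ∈ H
      rw [hπct]; exact hcH
  let πH : Ht →* H := (π.comp Ht.subtype).codRestrict H fun x => x.2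
  have hHtp : IsPGroup 2 Ht := by
    refine (IsPGroup.of_card (n := 1) ?_ : IsPGroup 2 H).comap_of_ker_isPGroup π (isPGroup_ker hA)
    rw [Nat.card_eq_fintype_card, pow_one, Fintype.card_eq_nat_card]
    rw [Nat.card_eq_two_iff]
    refine ⟨1, ⟨c, hcH⟩, fun e => hc1 (congrArg Subtype.val e).symm, ?_⟩
    ext ⟨g, hg⟩
    simp only [Set.mem_insert_iff, Set.mem_singleton_iff, Set.mem_univ, iff_true]
    rcases hH2 g hg with rfl | rfl
    · exact Or.inl rfl
    · exact Or.inr rfl
  -- the element upstairs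
  have hreal : conjUnits (a.inf φ) = a.inf φ := by
    rw [← a.2.2.2 φ, ← hc]
    exact congrArg (fun x : Idele L => x.inf φ) (hfix ⟨c, hcH⟩)
  set B := ideleBaseChange L Lt a
  have hB : B ∈ fixedPts Ht (Idele Lt) := fun g => by
    change (g : Lt ≃ₐ[ℚ] Lt) • B = B
    rw [← ideleBaseChange_smul (g : Lt ≃ₐ[ℚ] Lt) (π g) (fun x => apply_algebraMap _ x) a]
    exact congrArg _ (hfix (πH g))
  set at' := infPlaceIdele D2 φt (a.inf φ) (fun _ _ _ => hreal) (fun _ => hreal) with hat'
  obtain ⟨hat1, hat2, hat3, hat4⟩ :=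
    infPlaceIdele_spec D2 φt (a.inf φ) (fun _ _ _ => hreal) (fun _ => hreal)
  rw [← hat'] at hat1 hat2 hat3 hat4
  have hsupp : ∀ χ, at'.inf χ ≠ 0 → χ = φt ∨ χ = (starRingEnd ℂ).comp φt := by
    intro χ hne
    by_contra hcon
    push Not at hcon
    refine hne (hat4 χ fun g hg => ?_)
    rcases hD2mem g hg with rfl | rfl
    · exact hcon
    · constructor
      · rw [hct]; exact hcon.2
      · rw [hct, starRingEnd_comp_comp]; exact hcon.1
  have hval : ∀ χ, χ = φt ∨ χ = (starRingEnd ℂ).comp φt → at'.inf χ = a.inf φ := by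
    rintro χ (rfl | rfl)
    · exact hat2
    · exact ((at'.2.2.2 φt).trans (congrArg conjUnits hat2)).trans hreal
  have hcoset : ∀ (χ : Lt →+* ℂ) (g g' : Lt ≃ₐ[ℚ] Lt), χ.comp (g : Lt →+* Lt) = φt →
      (χ.comp (g' : Lt →+* Lt) = φt ∨ χ.comp (g' : Lt →+* Lt) = (starRingEnd ℂ).comp φt) →
      g⁻¹ * g' ∈ D2 := by
    intro χ g g' e e'
    have : χ.comp (g' : Lt →+* Lt) = φt.comp ((g⁻¹ * g' : Lt ≃ₐ[ℚ] Lt) : Lt →+* Lt) := by
      rw [← e]
      exact RingHom.ext fun x => congrArg χ (g.apply_symm_apply (g' x)).symm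
    rcases e' with e' | e'
    · exact Or.inl (this.symm.trans e')
    · exact Or.inr (this.symm.trans e')
  have hsum : relNorm (Idele Lt) D2 Ht at' = B := by
    have := Fintype.ofFinite (Ht ⧸ D2.subgroupOf Ht)
    rw [relNorm, finsum_eq_sum_of_fintype]
    refine idele_ext (fun r χ => congrArg QUnits.toField ?_) fun χ => congrArg CUnits.toField ?_
    · rw [sum_fin_apply]
      refine (Finset.sum_eq_zero fun x _ => ?_).trans (ha.1 r _).symm
      exact hat3 r (χ.preComp (((x.out : Ht) : Lt ≃ₐ[ℚ] Lt)))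
    rw [sum_inf_apply]
    obtain ⟨g, hg⟩ := exists_comp_eq_inf χ φt
    have hBval : B.inf χ = a.inf (χ.comp (algebraMap L Lt)) := rfl
    have hχ : χ.comp (algebraMap L Lt) = φ.comp ((π g⁻¹ : L ≃ₐ[ℚ] L) : L →+* L) :=
      RingHom.ext fun x => by
        change χ (algebraMap L Lt x) = φ (π g⁻¹ x)
        rw [hπ, ← hg]
        exact congrArg χ (g.apply_symm_apply _).symm
    by_cases hgH : g ∈ Ht
    · rw [Finset.sum_eq_single (QuotientGroup.mk (⟨g, hgH⟩ : Ht))]
      · change ((((QuotientGroup.mk (⟨g, hgH⟩ : Ht) : Ht ⧸ D2.subgroupOf Ht).out : Ht) :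
          Lt ≃ₐ[ℚ] Lt) • at').inf χ = _
        rw [RelNorm.out_smul hat1]
        change at'.inf (χ.comp (g : Lt →+* Lt)) = _
        rw [hg, hat2, hBval, hχ]
        exact (congrArg (fun x : Idele L => x.inf φ) (hfix ⟨π g⁻¹, Ht.inv_mem hgH⟩)).symm
      · intro x _ hx
        by_contra hne
        apply hx
        rw [← QuotientGroup.out_eq' x]
        refine (QuotientGroup.eq.2 (Subgroup.mem_subgroupOf.2 ?_)).symm
        exact hcoset χ g _ hg (hsupp _ hne)
      · intro hh; exact absurd (Finset.mem_univ _) hh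
    · have hz : B.inf χ = 0 := by
        by_contra hne
        refine hgH (Ht.inv_mem_iff.1 ?_)
        rw [hBval] at hne
        show π g⁻¹ ∈ H
        rcases ha.2 _ hne with e | e <;> rw [hχ] at e
        · rw [eq_one_of_comp_eq e]; exact H.one_mem
        · rw [eq_of_comp_eq (e.trans hc.symm)]; exact hcH
      rw [hz]
      refine Finset.sum_eq_zero fun x _ => ?_
      by_contra hne
      refine hgH ?_
      have h1 := hD2le (hcoset χ g _ hg (hsupp _ hne))
      have h2 := Ht.mul_mem (x.out : Ht).2 (Ht.inv_mem h1)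
      simpa using h2
  -- the characters
  let σ0 : H →* Multiplicative (ZMod (2 ^ n)) :=
    { toFun := fun x => if x = 1 then 1 else Multiplicative.ofAdd k0
      map_one' := if_pos rfl
      map_mul' := fun x y => by
        have hcc : (⟨c, hcH⟩ : H) * ⟨c, hcH⟩ = 1 := Subtype.ext (eq_one_of_comp_eq (φ := φ)
          (RingHom.ext fun z => by
            change φ (c (c z)) = φ z
            rw [show φ (c (c z)) = starRingEnd ℂ (φ (c z)) from RingHom.congr_fun hc _,
              show φ (c z) = starRingEnd ℂ (φ z) from RingHom.congr_fun hc _, Complex.conj_conj]))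
        have hne : (⟨c, hcH⟩ : H) ≠ 1 := fun e => hc1 (congrArg Subtype.val e)
        rcases hH2 x.1 x.2 with ex | ex <;> rcases hH2 y.1 y.2 with ey | ey
        · obtain rfl : x = 1 := Subtype.ext ex
          simp
        · obtain rfl : x = 1 := Subtype.ext ex
          simp
        · obtain rfl : y = 1 := Subtype.ext ey
          simp
        · obtain rfl : x = ⟨c, hcH⟩ := Subtype.ext ex
          obtain rfl : y = ⟨c, hcH⟩ := Subtype.ext ey
          rw [hcc, if_pos rfl, if_neg hne, ← ofAdd_add, hkk, ofAdd_zero] }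
  have hcup : cupChar σ0 a = f := by
    funext ⟨x, y⟩
    rw [hf]
    have hval0 : k0.val + k0.val = 2 ^ n := by
      have h0 : 0 < k0.val := Nat.pos_of_ne_zero fun e => hk0 ((ZMod.val_eq_zero k0).1 e)
      have h1 := ZMod.val_add k0 k0
      rw [hkk, ZMod.val_zero] at h1
      have h2 := ZMod.val_lt k0
      obtain ⟨t, ht⟩ := Nat.dvd_of_mod_eq_zero h1.symm
      rcases t with _ | _ | t
      · omega
      · omega
      · nlinarith
    by_cases hx : x = 1 <;> by_cases hy : y = 1 <;>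
      simp [cupChar, σ0, hx, hy, hval0, Nat.div_eq_of_lt (ZMod.val_lt k0),
        Nat.div_self (pow_pos two_pos n)]
  set σ := σ0.comp πH with hσ
  set θ := (ψ.comp Ht.subtype) * σ⁻¹ with hθ
  have hθD : ∀ g : Ht, (g : Lt ≃ₐ[ℚ] Lt) ∈ D2 → θ g = 1 := by
    intro g hg
    rw [hθ, MonoidHom.mul_apply, MonoidHom.inv_apply, mul_inv_eq_one]
    rcases hD2mem _ hg with e | e
    · have e' : g = 1 := Subtype.ext e
      rw [e', map_one, map_one]
    · have h1 : πH g ≠ 1 := fun e' => hc1 (by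
        rw [← hπct, ← e]
        exact congrArg Subtype.val e')
      change ψ (g : Lt ≃ₐ[ℚ] Lt) = σ0 (πH g)
      rw [show σ0 (πH g) = Multiplicative.ofAdd k0 from if_neg h1, e]
      exact Multiplicative.toAdd.injective (psiAdd_of_conj hA φt ct hct)
  set K := θ.ker.map Ht.subtype
  have hKle : K ≤ Ht := Subgroup.map_subtype_le _
  have hD2K : D2 ≤ K := fun g hg => ⟨⟨g, hD2le hg⟩, hθD _ hg, rfl⟩
  let mkT : Idele Lt →+ IdeleClass Lt := QuotientAddGroup.mk' (principalIdeles Lt)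
  have hBc : mkT B ∈ fixedPts Ht (IdeleClass Lt) := mk_mem_fixedPts hB
  have hσB : cupChar σ (mkT B) ∈ B2 Ht (IdeleClass Lt) := by
    have hcC : IsCompat (A := IdeleClass L) (B := IdeleClass Lt) πH (classBaseChange L Lt) :=
      fun g x => classBaseChange_smul (g : Lt ≃ₐ[ℚ] Lt) (π g) (fun z => apply_algebraMap _ z) x
    convert cochainMap2_mem_B2 hcC h using 1
    funext t
    change cupChar σ (mkT B) t = classBaseChange L Lt (QuotientAddGroup.mk (f (πH t.1, πH t.2)))
    rw [← hcup, classBaseChange_mk]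
    simp only [cupChar, hσ, map_nsmul]
    rfl
  have hθB : cupChar θ (mkT B) ∈ B2 Ht (IdeleClass Lt) := by
    have hstep := hasSteps_ideleClass (p := 2) Lt
    have h1 : H1Trivial θ.ker (IdeleClass Lt) := by
      have e : θ.ker = K.subgroupOf Ht :=
        (Subgroup.comap_map_eq_self_of_injective Subtype.coe_injective _).symm
      rw [e]
      exact (devissage_h1 K (hHtp.to_le hKle) (hstep K (hHtp.to_le hKle))).subgroupOf hKle
    rw [cupChar_mem_B2_iff θ h1 hBc]
    set x0 := relNorm (Idele Lt) D2 K at'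
    have hx0 : x0 ∈ fixedPts K (Idele Lt) := RelNorm.mem_fixedPts hat1
    have hx0' : mkT x0 ∈ fixedPts θ.ker (IdeleClass Lt) := fun g =>
      mk_mem_fixedPts hx0 ⟨((g : Ht) : Lt ≃ₐ[ℚ] Lt), g, g.2, rfl⟩
    refine ⟨mkT x0, hx0', ?_⟩
    have h2 := RelNorm.map_hom (G := Ht) (A := IdeleClass Lt) (A' := IdeleClass Lt) Ht.subtype
      (AddMonoidHom.id (IdeleClass Lt)) Subtype.coe_injective
      (by intro g a; rfl) θ.ker ⊤ hx0'
    rw [← MonoidHom.range_eq_map, Ht.range_subtype] at h2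
    refine h2.trans ?_
    rw [AddMonoidHom.id_apply]
    have h3 : mkT (relNorm (Idele Lt) K Ht x0) = relNorm (IdeleClass Lt) K Ht (mkT x0) :=
      RelNorm.map' (A := Idele Lt) (B := IdeleClass Lt) mkT (fun _ _ => rfl) K Ht x0
    rw [← h3, RelNorm.trans' hD2K hKle hat1, hsum]
  have hprod : θ * σ = ψ.comp Ht.subtype := by rw [hθ, inv_mul_cancel_right]
  have h5 : cupChar (θ * σ) (mkT B) ∈ B2 Ht (IdeleClass Lt) := by
    convert add_mem (cupChar_mul_sub_mem_B2 θ σ hBc) (add_mem hθB hσB) using 1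
    funext t
    simp only [Pi.add_apply, Pi.sub_apply]
    abel
  rw [hprod,
    CFAbs.cupChar_res_mem_B2_iff ψ (hasSteps_ideleClass Lt) hHtp hBc] at h5
  have h6 := chiClass_norm_eq_zero hA hκ hcop h5
  change chiClass κ Ht (QuotientAddGroup.mk B) = 0 at h6
  rw [chiClass_mk κ hB, ← hsum, chi_relNorm κ hD2le hat1, chi] at h6
  have htop := relNorm_fixed hat1
  rw [chiTop_eq κ htop (Classical.arbitrary _) (fun q => Classical.arbitrary _) φt] at h6
  have hfin : ∀ (q : Nat.Primes) (ψ' : Emb Lt q),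
      (relNorm (Idele Lt) D2 ⊤ at').fin q ψ' = 0 := fun q ψ' => by
    have := Fintype.ofFinite ((⊤ : Subgroup (Lt ≃ₐ[ℚ] Lt)) ⧸ D2.subgroupOf ⊤)
    rw [relNorm, finsum_eq_sum_of_fintype, sum_fin_apply]
    exact Finset.sum_eq_zero fun x _ => hat3 q (ψ'.preComp ((x.out : (⊤ : Subgroup (Lt ≃ₐ[ℚ] Lt))) : Lt ≃ₐ[ℚ] Lt))
  have hinf : (relNorm (Idele Lt) D2 ⊤ at').inf φt = a.inf φ := by
    have := Fintype.ofFinite ((⊤ : Subgroup (Lt ≃ₐ[ℚ] Lt)) ⧸ D2.subgroupOf ⊤)
    rw [relNorm, finsum_eq_sum_of_fintype, sum_inf_apply,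
      Finset.sum_eq_single (QuotientGroup.mk (1 : (⊤ : Subgroup (Lt ≃ₐ[ℚ] Lt))))]
    · rw [RelNorm.out_smul hat1, OneMemClass.coe_one, one_smul]
      exact hat2
    · intro x _ hx
      by_contra hne
      apply hx
      rw [← QuotientGroup.out_eq' x]
      refine (QuotientGroup.eq.2 (Subgroup.mem_subgroupOf.2 ?_)).symm
      exact hcoset φt 1 _ rfl (hsupp _ hne)
    · intro hh; exact absurd (Finset.mem_univ _) hh
  have hb1 : ∀ q : Nat.Primes, baseVal (0 : QUnits q) = 1 := fun q =>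
    baseVal_eq (by rw [map_one, QUnits.toField_zero])
  simp only [hfin, hb1, Padic.valuation_one, zero_smul, finsum_zero, hinf,
    resUnit_eq_one R (k := 0) (show ‖(1 : ℚ_[(R : ℕ)]) * _ - 1‖ < 1 by simp), kappaAdd_one,
    sub_zero, zero_sub, neg_eq_zero, signPart, if_pos hneg] at h6
  exact hk0 h6

end Chi

end FermatLib.CFT
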