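import Fermat.Agent.CFT.CFLocalSetup

/-!
The local class formation.
-/

set_option autoImplicit false

open NumberField

namespace FermatLib.CFT

namespace Chi

variable {p : ℕ} [hp : Fact p.Prime] {L : Type} [Field L] [NumberField L] [IsGalois ℚ L]
  {q : Nat.Primes}

variable (p) in
/-- The data produced by the auxiliary field at a finite place. -/
structure LocalAux (φ : Emb L q) (R : Nat.Primes) (c : ℕ)
    (κ : (ZMod (R : ℕ))ˣ →* Multiplicative (ZMod (p ^ c))) (Lt : Type) [Field Lt] [NumberField Lt]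
    [IsGalois ℚ Lt] [Algebra L Lt] (ψ : (Lt ≃ₐ[ℚ] Lt) →* Multiplicative (ZMod (p ^ c)))
    (φt : Emb Lt q) : Prop where
  isAux : IsAuxField L κ Lt ψ
  kappa_surj : Function.Surjective κ
  coprime : (Nat.card κ.ker).Coprime (p ^ c)
  liesAbove : φt.comp (algebraMap L Lt) = φ
  ne : q ≠ R
  exists_order : ∃ b s g' : ℕ, ¬ p ∣ g' ∧ Nat.card (decompGroup φ) = p ^ s * g' ∧ s ≤ b ∧
    addOrderOf (kappaPrime κ q) = p ^ b

theorem exists_localAux (φ : Emb L q) : ∃ (R : Nat.Primes) (c : ℕ)
    (κ : (ZMod (R : ℕ))ˣ →* Multiplicative (ZMod (p ^ c))) (Lt : Type) (_ : Field Lt)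
    (_ : NumberField Lt) (_ : IsGalois ℚ Lt) (_ : Algebra L Lt)
    (ψ : (Lt ≃ₐ[ℚ] Lt) →* Multiplicative (ZMod (p ^ c))) (φt : Emb Lt q),
    LocalAux p φ R c κ Lt ψ φt := by
  obtain ⟨s, g', hg', hD⟩ := Nat.exists_eq_pow_mul_and_not_dvd
    (n := Nat.card (decompGroup φ)) Nat.card_pos.ne' p hp.out.ne_one
  obtain ⟨r, hr, hrl, hord⟩ :=
    AuxPrime.exists_prime_orderOf p q.2 (b := max 2 s) (le_max_left _ _)
  obtain ⟨R, rfl⟩ : ∃ R : Nat.Primes, (R : ℕ) = r := ⟨⟨r, hr⟩, rfl⟩
  haveI : Fact (R : ℕ).Prime := ⟨R.2⟩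
  obtain ⟨c, κ, hκ, hc, -, hkord⟩ := AuxPrime.exists_kappa p (R : ℕ)
  obtain ⟨Lt, i1, i2, i3, i4, ψ, hA⟩ := exists_isAuxField L hκ
  obtain ⟨φt, hφt⟩ := exists_emb_over (Lt := Lt) φ
  have hne : q ≠ R := fun h => hrl (by rw [h])
  refine ⟨R, c, κ, Lt, i1, i2, i3, i4, ψ, φt, hA, hκ, coprime_card_ker hκ hc, hφt, hne,
    max 2 s, s, g', hg', hD, le_max_right _ _, ?_⟩
  have hq0 : ((q : ℕ) : ZMod (R : ℕ)) ≠ 0 := fun h => hrl
    ((Nat.prime_dvd_prime_iff_eq R.2 q.2).mp ((ZMod.natCast_eq_zero_iff _ _).mp h))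
  rw [kappaPrime, dif_neg hq0, kappaAdd]
  exact Eq.trans rfl (hkord (Units.mk0 _ hq0) _ (by rw [← orderOf_units, Units.val_mk0, hord]))

variable {R : Nat.Primes} {c : ℕ} {κ : (ZMod (R : ℕ))ˣ →* Multiplicative (ZMod (p ^ c))} {Lt : Type}
  [Field Lt] [NumberField Lt] [IsGalois ℚ Lt] [Algebra L Lt]
  {ψ : (Lt ≃ₐ[ℚ] Lt) →* Multiplicative (ZMod (p ^ c))} {φ : Emb L q} {φt : Emb Lt q}

theorem coe_relNorm_localPart {K' K : Subgroup (decompGroup φt)} {a : localPart φt}
    (ha : a ∈ fixedPts K' (localPart φt)) :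
    (relNorm (localPart φt) K' K a : Idele Lt) =
      relNorm (Idele Lt) (K'.map (decompGroup φt).subtype) (K.map (decompGroup φt).subtype)
        (a : Idele Lt) :=
  RelNorm.map_hom (decompGroup φt).subtype (localPart φt).subtype Subtype.coe_injective
    (fun _ _ => rfl) K' K ha

/-- The basic local element: the prime itself at the place. -/
theorem exists_local_prime (hne : q ≠ R) : ∃ a : localPart φt, (∀ g : decompGroup φt, g • a = a) ∧
    chi κ (decompGroup φt) (a : Idele Lt) = -kappaPrime κ q := by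
  have hq0 : ((q : ℕ) : PadicAlgCl (q : ℕ)) ≠ 0 := Nat.cast_ne_zero.2 q.2.ne_zero
  obtain ⟨a, ha⟩ : Additive.ofMul (Units.mk0 _ hq0) ∈ (localPartVal φt).range := by
    rw [mem_range_localPartVal]
    exact natCast_mem _ _
  have hfix : ∀ g : decompGroup φt, g • a = a := fun g => localPartVal_injective φt (by
    obtain ⟨τ, hτ⟩ := g.2
    rw [localPartVal_smul φt g hτ, ha]
    exact QUnits.toField_injective ((QUnits.toField_onUnits τ _).trans (map_natCast τ _)))
  refine ⟨a, hfix, ?_⟩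
  rw [chi_localPart κ hne le_rfl a.2 (fun g => congrArg Subtype.val (hfix g)) (v := 1), one_smul]
  rw [Subgroup.relIndex_self, pow_one, zpow_neg_one]
  change ‖(localPartVal φt a).toField‖ = _
  rw [ha]
  exact CFLocal.norm_natCast_self

/-- The local class and its inflation. -/
theorem exists_local_class (hl : LocalAux p φ R c κ Lt ψ φt) :
    ∃ (u : decompGroup φ × decompGroup φ → localPart φ) (e : localPart φt),
      u ∈ Z2 (decompGroup φ) (localPart φ) ∧ (∀ g : decompGroup φt, g • e = e) ∧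
      cupChar (ψ.comp (decompGroup φt).subtype) e -
        cochainMap2 (decompRes φ φt hl.liesAbove) (localInfl φ φt) u ∈
        B2 (decompGroup φt) (localPart φt) ∧
      (∀ P : Subgroup (decompGroup φ), IsPGroup p P → ∀ m : ℕ,
        m • cochainMap2 P.subtype (AddMonoidHom.id _) u ∈ B2 P (localPart φ) → Nat.card P ∣ m) ∧
      (∀ P : Subgroup (decompGroup φ), IsPGroup p P → ∀ m : ℕ,
        m • chi κ ((P.comap (decompRes φ φt hl.liesAbove)).map (decompGroup φt).subtype)
          (e : Idele Lt) = 0 → Nat.card P ∣ m) := by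
  classical
  obtain ⟨b, s, g', hg', hD, hsb, hord⟩ := hl.exists_order
  obtain ⟨a, hafix, ha⟩ := exists_local_prime (κ := κ) (φt := φt) hl.ne
  set π := decompRes φ φt hl.liesAbove
  have hπ : Function.Surjective π := decompRes_surjective φ φt hl.liesAbove
  set ψD := ψ.comp (decompGroup φt).subtype with hψD
  set e := p ^ (b - s) • a with he
  have hef : ∀ g : decompGroup φt, g • e = e := fun g => by
    rw [he, smul_comm, hafix]
  have haD : (a : Idele Lt) ∈ fixedPts (decompGroup φt) (Idele Lt) :=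
    fun g => congrArg Subtype.val (hafix g)
  have hmapfix : ∀ (H : Subgroup (decompGroup φt)) (x : localPart φt),
      x ∈ fixedPts H (localPart φt) →
        (x : Idele Lt) ∈ fixedPts (H.map (decompGroup φt).subtype) (Idele Lt) := fun H x hx =>
    RelNorm.map_fixedPts (decompGroup φt).subtype (localPart φt).subtype (fun _ _ => rfl) hx
  have hchi : ∀ (H : Subgroup (decompGroup φt)) (m : ℕ),
      chi κ (H.map (decompGroup φt).subtype) ((m • e : localPart φt) : Idele Lt) =
        -((m * H.index * p ^ (b - s)) • kappaPrime κ q) := by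
    intro H m
    have hle : H.map (decompGroup φt).subtype ≤ decompGroup φt := Subgroup.map_subtype_le H
    have hidx : (H.map (decompGroup φt).subtype).relIndex (decompGroup φt) = H.index := by
      rw [Subgroup.relIndex, Subgroup.subgroupOf,
        Subgroup.comap_map_eq_self_of_injective Subtype.coe_injective]
    rw [he, AddSubgroupClass.coe_nsmul, AddSubgroupClass.coe_nsmul, ← mul_nsmul',
      chi_nsmul κ (fun g => haD ⟨g, hle g.2⟩), chi_res κ hle haD, ha, hidx, smul_neg, smul_neg,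
      ← mul_nsmul']
    congr 2
    ring
  have hkill : ∀ (H : Subgroup (decompGroup φt)) (x : localPart φt),
      x ∈ relNormSet (localPart φt) (ψD.ker ⊓ H) H →
        chi κ (H.map (decompGroup φt).subtype) (x : Idele Lt) = 0 := by
    rintro H _ ⟨y, hy, rfl⟩
    have hmap : (ψD.ker ⊓ H).map (decompGroup φt).subtype =
        ψ.ker ⊓ H.map (decompGroup φt).subtype := by
      ext g
      constructor
      · rintro ⟨x, ⟨hx1, hx2⟩, rfl⟩
        exact ⟨hx1, x, hx2, rfl⟩
      · rintro ⟨hg1, x, hx2, rfl⟩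
        exact ⟨x, ⟨hg1, hx2⟩, rfl⟩
    have h1 := hmapfix _ y hy
    rw [hmap] at h1
    rw [coe_relNorm_localPart hy, hmap]
    exact chi_norm_eq_zero hl.isAux hl.kappa_surj hl.coprime h1
  have hπp : IsPGroup p π.ker := by
    refine (isPGroup_ker hl.isAux).of_injective ?_ ?_
    · exact ((decompGroup φt).subtype.comp π.ker.subtype).codRestrict _ fun x =>
        congrArg Subtype.val (MonoidHom.mem_ker.1 x.2)
    · intro x y h
      have h' : ((x : decompGroup φt) : Lt ≃ₐ[ℚ] Lt) = ((y : decompGroup φt) : Lt ≃ₐ[ℚ] Lt) :=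
        congrArg (fun z => (z : (AlgEquiv.restrictNormalHom L).ker).1) h
      exact Subtype.ext (Subtype.ext h')
  have hsteps := hasSteps_localPart (p := p) φt
  have hK : e ∈ relNormSet (localPart φt) (ψD.ker ⊓ π.ker) π.ker := by
    obtain ⟨z, hzl, hzf, hcover⟩ := exists_localPart_chi hl.isAux hl.ne (φ := φt)
      (H := π.ker.map (decompGroup φt).subtype) (Subgroup.map_subtype_le _)
    refine CFAbs.mem_relNormSet_of_chi_eq_zero ψD hsteps hπp
      (fun x => chi κ (π.ker.map (decompGroup φt).subtype) (x : Idele Lt))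
      (fun x hx y hy => chi_add κ (hmapfix _ x hx) (hmapfix _ y hy)) (hkill π.ker) (a := ⟨z, hzl⟩)
      (fun g => Subtype.ext (hzf ⟨_, g.1, g.2, rfl⟩))
      (fun g hg => hcover _ ⟨g, hg, rfl⟩) (fun g => hef _) ?_
    have h0 := hchi π.ker 1
    rw [one_nsmul] at h0
    rw [h0, neg_eq_zero, ← addOrderOf_dvd_iff_nsmul_eq_zero, hord, Subgroup.index_ker,
      MonoidHom.range_eq_top.mpr hπ, Subgroup.card_top, hD, one_mul, mul_right_comm, ← pow_add,
      Nat.add_sub_cancel' hsb]
    exact dvd_mul_right _ _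
  have hord' : ∀ P : Subgroup (decompGroup φ), IsPGroup p P → ∀ m : ℕ,
      chi κ ((P.comap π).map (decompGroup φt).subtype) ((m • e : localPart φt) : Idele Lt) = 0 →
        Nat.card P ∣ m := by
    intro P hP m h
    rw [hchi, neg_eq_zero, ← addOrderOf_dvd_iff_nsmul_eq_zero, hord,
      Subgroup.index_comap_of_surjective _ hπ] at h
    obtain ⟨i, hi⟩ := IsPGroup.iff_card.1 hP
    rw [hi]
    exact dvd_of_pow_dvd_mul hg' hsb (by rw [← hi, Subgroup.card_mul_index, hD]) h
  obtain ⟨u, hu, hue, hordu⟩ := CFAbs.exists_inflated_gen π hπ hπp (localInfl φ φt)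
    (localInfl_smul φ φt hl.liesAbove) (localInfl_injective φ φt hl.liesAbove)
    (fun x hx => mem_range_localInfl φ φt hl.liesAbove hx) hsteps ψD hef hK
    (fun P hP m hm => hord' P hP m (hkill _ _ hm))
  refine ⟨u, e, hu, hef, hue, hordu, fun P hP m hm => hord' P hP m ?_⟩
  rw [AddSubgroupClass.coe_nsmul, chi_nsmul κ (hmapfix _ e fun g => hef _), hm]

theorem localPart_formation (φ : Emb L q) : IsPClassFormation p (decompGroup φ) (localPart φ) := by
  obtain ⟨R, c, κ, Lt, _, _, _, _, ψ, φt, hl⟩ := exists_localAux (p := p) φ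
  obtain ⟨u, e, hu, -, -, hord, -⟩ := exists_local_class hl
  exact CFAbs.isPClassFormation_of_gen (hasSteps_localPart φ) hu hord

end Chi

end FermatLib.CFT
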