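import Fermat.Agent.CFT.CohBasic

/-!
Shapiro's lemma in degrees zero, one and two for a module which is coinduced along a projection.

`IsCoinducedOn H S π` says that the `G`-stable subgroup `S` of `A` is coinduced from the
`H`-module `B` through `π`: the map `a ↦ (x ↦ π (x • a))` is a bijection from `S` to the
`H`-equivariant functions `G → B`.
-/

set_option autoImplicit false

namespace FermatLib.CFT

variable {G : Type*} [Group G] (H : Subgroup G) {A : Type*} [AddCommGroup A] [DistribMulAction G A]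
  (S : AddSubgroup A) {B : Type*} [AddCommGroup B] [DistribMulAction H B] (π : A →+ B)

/-- `S` is coinduced from `B` along `π`. -/
structure IsCoinducedOn : Prop where
  smul_mem : ∀ (g : G), ∀ a ∈ S, g • a ∈ S
  compat : ∀ (h : H), ∀ a ∈ S, π ((h : G) • a) = h • π a
  exists_unique : ∀ F : G → B, (∀ (h : H) (x : G), F (h * x) = h • F x) →
    ∃! a, a ∈ S ∧ ∀ x, π (x • a) = F x

variable {H S π}

open scoped Classical in
/-- The `H`-component of an element of `G` for right cosets, the identity on `H`. -/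
noncomputable def shapiroRetr (H : Subgroup G) (w : G) : H :=
  if hw : w ∈ H then ⟨w, hw⟩ else
    ⟨w * (QuotientGroup.mk w⁻¹ : G ⧸ H).out, by
      have := QuotientGroup.eq.1 (QuotientGroup.out_eq' (QuotientGroup.mk w⁻¹ : G ⧸ H))
      simpa using H.inv_mem this⟩

theorem shapiroRetr_coe (h : H) : shapiroRetr H (h : G) = h := dif_pos h.2

theorem shapiroRetr_mul (h : H) (w : G) : shapiroRetr H (h * w) = h * shapiroRetr H w := by
  by_cases hw : w ∈ H
  · rw [show shapiroRetr H w = ⟨w, hw⟩ from dif_pos hw,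
      show shapiroRetr H ((h : G) * w) = _ from dif_pos (H.mul_mem h.2 hw)]
    rfl
  · have hw' : (h : G) * w ∉ H := fun e => hw ((H.mul_mem_cancel_left h.2).1 e)
    apply Subtype.ext
    simp only [shapiroRetr, dif_neg hw, dif_neg hw', Subgroup.coe_mul, mul_inv_rev,
      QuotientGroup.mk_mul_of_mem w⁻¹ (H.inv_mem h.2), mul_assoc]

namespace IsCoinducedOn

variable (hS : IsCoinducedOn H S π)
include hS

theorem ext {a b : A} (ha : a ∈ S) (hb : b ∈ S) (h : ∀ x : G, π (x • a) = π (x • b)) : a = b := by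
  obtain ⟨c, -, hc⟩ := hS.exists_unique (fun x => π (x • b)) fun k x => by
    rw [mul_smul, hS.compat k _ (hS.smul_mem x b hb)]
  rw [hc a ⟨ha, h⟩, hc b ⟨hb, fun _ => rfl⟩]

/-- Shapiro injectivity in degree two. -/
theorem h2_injective {f : G × G → A} (hf : f ∈ Z2 G A) (hval : ∀ t, f t ∈ S)
    (h : (fun t : H × H => π (f ((t.1 : G), (t.2 : G)))) ∈ B2 H B) :
    ∃ c : G → A, (∀ g, c g ∈ S) ∧ d1 G A c = f := by
  obtain ⟨b, hb⟩ := mem_B2_iff.1 h
  obtain ⟨u, hu⟩ : ∃ u : G → B,
      ∀ (k : H) (w : G), π (f ((k : G), w)) + u (k * w) = k • u w + b k := by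
    refine ⟨fun w =>
      b (shapiroRetr H w) - π (f ((shapiroRetr H w : G), (shapiroRetr H w : G)⁻¹ * w)),
      fun k w => ?_⟩
    have hcz := congrArg π (mem_Z2_iff.1 hf (k : G) (shapiroRetr H w)
      ((shapiroRetr H w : G)⁻¹ * w))
    rw [mul_inv_cancel_left, map_add, map_add, hS.compat k _ (hval _), hb k (shapiroRetr H w)]
      at hcz
    simp only [shapiroRetr_mul, Subgroup.coe_mul, mul_inv_rev, mul_assoc, inv_mul_cancel_left,
      smul_sub]
    rw [eq_sub_of_add_eq' hcz]
    abel
  have hex : ∀ g, ∃ a ∈ S, ∀ x, π (x • a) = π (f (x, g)) + u (x * g) - u x := fun g => by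
    obtain ⟨a, ⟨ha, hx⟩, -⟩ := hS.exists_unique
      (fun x => π (f (x, g)) + u (x * g) - u x) fun k x => by
        have e1 := congrArg π (mem_Z2_iff.1 hf (k : G) x g)
        rw [map_add, map_add, hS.compat k _ (hval _)] at e1
        have e2 := hu k (x * g)
        have e3 := hu k x
        rw [← mul_assoc] at e2
        rw [eq_sub_of_add_eq e1.symm, eq_sub_of_add_eq' e2, eq_sub_of_add_eq' e3, smul_sub,
          smul_add]
        abel
    exact ⟨a, ha, hx⟩
  choose c hc hx using hex
  refine ⟨c, hc, funext fun ⟨g, g'⟩ => hS.ext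
    (add_mem (sub_mem (hS.smul_mem g _ (hc g')) (hc _)) (hc g)) (hval _) fun x => ?_⟩
  have e := congrArg π (mem_Z2_iff.1 hf x g g')
  rw [map_add, map_add] at e
  rw [d1_apply, smul_add, smul_sub, map_add, map_sub, ← mul_smul, hx, hx, hx,
    eq_sub_of_add_eq e, mul_assoc]
  abel

/-- Shapiro surjectivity in degree two. -/
theorem h2_surjective {z : H × H → B} (hz : z ∈ Z2 H B) :
    ∃ f ∈ Z2 G A, (∀ t, f t ∈ S) ∧ ∀ k k' : H, π (f ((k : G), (k' : G))) = z (k, k') := by
  let v : G → G → B := fun w y =>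
    z (shapiroRetr H w, (shapiroRetr H w)⁻¹ * shapiroRetr H (w * y))
  have hv : ∀ (k : H) (w y : G), v (k * w) y + z (k, shapiroRetr H w) =
      k • v w y + z (k, shapiroRetr H (w * y)) := by
    intro k w y
    have := mem_Z2_iff.1 hz k (shapiroRetr H w)
      ((shapiroRetr H w)⁻¹ * shapiroRetr H (w * y))
    rw [mul_inv_cancel_left] at this
    rw [this]
    simp only [v, mul_assoc, shapiroRetr_mul, mul_inv_rev, inv_mul_cancel_left]
  have hex : ∀ t : G × G, ∃ a ∈ S, ∀ x,
      π (x • a) = v (x * t.1) t.2 - v x (t.1 * t.2) + v x t.1 := fun t => by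
    obtain ⟨a, ⟨ha, hx⟩, -⟩ := hS.exists_unique
      (fun x => v (x * t.1) t.2 - v x (t.1 * t.2) + v x t.1) fun k x => by
        rw [mul_assoc (k : G), eq_sub_of_add_eq (hv k (x * t.1) t.2),
          eq_sub_of_add_eq (hv k x (t.1 * t.2)), eq_sub_of_add_eq (hv k x t.1), ← mul_assoc x,
          smul_add, smul_sub]
        abel
    exact ⟨a, ha, hx⟩
  choose f hf hx using hex
  refine ⟨f, mem_Z2_iff.2 fun g g' g'' => hS.ext (add_mem (hS.smul_mem g _ (hf _)) (hf _))
    (add_mem (hf _) (hf _)) fun x => ?_, hf, fun k k' => ?_⟩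
  · simp only [smul_add, map_add, ← mul_smul, hx, mul_assoc]
    abel
  · have e := hx ((k : G), (k' : G)) 1
    rw [one_smul, one_mul] at e
    have h1 : ∀ m : H, v 1 (m : G) = z (1, 1) := fun m => by
      simp only [v, one_mul, show shapiroRetr H (1 : G) = 1 from shapiroRetr_coe 1,
        shapiroRetr_coe, inv_one]
      exact Z2_map_one_left hz m
    rw [← Subgroup.coe_mul, h1, h1, sub_add_cancel] at e
    rw [e]
    simp only [v, ← Subgroup.coe_mul, shapiroRetr_coe, inv_mul_cancel_left]

end IsCoinducedOn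

end FermatLib.CFT
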