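import Fermat.Agent.CFT.CFLocalFormation
import Fermat.Agent.CFT.CohShapiro

/-!
Local classes inject into global classes.
-/

set_option autoImplicit false

open NumberField

namespace FermatLib.CFT

namespace Chi

variable {p : ℕ} [hp : Fact p.Prime] {L : Type} [Field L] [NumberField L] [IsGalois ℚ L]
  {q : Nat.Primes} {Lt : Type} [Field Lt] [NumberField Lt] [IsGalois ℚ Lt] [Algebra L Lt]

/-- The projection to a place of the norm from its decomposition group. -/
theorem restrictPlace_relNorm (φt : Emb Lt q) (H : Subgroup (Lt ≃ₐ[ℚ] Lt)) (e : localPart φt)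
    (he : ∀ g : decompGroup φt, g • e = e) :
    restrictPlace φt (relNorm (Idele Lt) (decompGroup φt ⊓ H) H (e : Idele Lt)) = e := by
  classical
  apply localPartVal_injective φt
  have := Fintype.ofFinite (H ⧸ (decompGroup φt ⊓ H).subgroupOf H)
  have hef : (e : Idele Lt) ∈ fixedPts (decompGroup φt ⊓ H : Subgroup (Lt ≃ₐ[ℚ] Lt)) (Idele Lt) :=
    fun g => congrArg Subtype.val (he ⟨g, g.2.1⟩)
  change (restrictPlace φt _ : Idele Lt).fin q φt = _
  rw [restrictPlace_apply φt _ (Emb.SamePlace.refl φt), relNorm, finsum_eq_sum_of_fintype,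
    sum_fin_apply, Finset.sum_eq_single (QuotientGroup.mk (1 : H))]
  · rw [RelNorm.out_smul hef 1, OneMemClass.coe_one, one_smul]
    rfl
  · intro c _ hc
    by_contra h
    obtain ⟨_, hs⟩ := e.2.1 q (φt.preComp ((c.out : H) : Lt ≃ₐ[ℚ] Lt)) h
    apply hc
    rw [← QuotientGroup.out_eq' c, QuotientGroup.eq, Subgroup.mem_subgroupOf]
    refine ⟨?_, ((c.out)⁻¹ * 1 : H).2⟩
    simpa using (decompGroup φt).inv_mem hs
  · intro h; exact absurd (Finset.mem_univ _) h

theorem ideleBaseChange_mem_orbitPart {φ : Emb L q} {φt : Emb Lt q}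
    (hover : φt.comp (algebraMap L Lt) = φ) {H : Subgroup (Lt ≃ₐ[ℚ] Lt)}
    (hH : (AlgEquiv.restrictNormalHom L : (Lt ≃ₐ[ℚ] Lt) →* (L ≃ₐ[ℚ] L)).ker ≤ H) {a : Idele L}
    (ha : a ∈ localPart φ) : ideleBaseChange L Lt a ∈ orbitPart H φt := by
  refine mem_orbitPart_iff.2 ⟨fun ψ' hψ => ?_, fun r hr ψ' => ?_, fun χ => congrFun ha.2 _⟩
  · by_contra hne
    obtain ⟨_, τ, hτ⟩ := ha.1 q (ψ'.comp (algebraMap L Lt)) hne
    obtain ⟨g, hg⟩ := Emb.exists_preComp_eq (φt.postComp τ) ψ'
    refine hψ ⟨g, hH (MonoidHom.mem_ker.2 (AlgEquiv.ext fun x => φ.injective (τ.injective ?_))), τ,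
      hg⟩
    subst hover
    change τ (φt (algebraMap L Lt _)) = τ (φt (algebraMap L Lt x))
    rw [← apply_algebraMap, show τ (φt (g (algebraMap L Lt x))) = ψ' (algebraMap L Lt x) from
      RingHom.congr_fun hg _]
    exact (RingHom.congr_fun hτ x).symm
  · by_contra hne
    obtain ⟨h, -⟩ := ha.1 r (ψ'.comp (algebraMap L Lt)) hne
    exact hr h

theorem localPart_injective (φ : Emb L q) (H : Subgroup (L ≃ₐ[ℚ] L)) (hHD : H ≤ decompGroup φ)
    (hH : IsPGroup p H) {f : H × H → Idele L} (hf : f ∈ Z2 H (Idele L))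
    (hval : ∀ t, f t ∈ localPart φ)
    (h : (fun t => (QuotientAddGroup.mk (f t) : IdeleClass L)) ∈ B2 H (IdeleClass L)) :
    ∃ b : H → Idele L, (∀ t, b t ∈ localPart φ) ∧ d1 H (Idele L) b = f := by
  classical
  obtain ⟨R, c, κ, Lt, _, _, _, _, ψ, φt, hl⟩ := exists_localAux (p := p) φ
  obtain ⟨u, e, hu, hef, hue, hordu, hordχ⟩ := exists_local_class hl
  let H' : Subgroup (decompGroup φ) := H.subgroupOf (decompGroup φ)
  have hH' : IsPGroup p H' := hH.of_equiv (Subgroup.subgroupOfEquivOfLe hHD).symm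
  let ι : H →* decompGroup φ := Subgroup.inclusion hHD
  let toH' : H →* H' := ι.codRestrict H' fun x => x.2
  let fromH' : H' →* H := (Subgroup.subgroupOfEquivOfLe hHD).toMonoidHom
  let f' : H' × H' → localPart φ := fun t => ⟨f (fromH' t.1, fromH' t.2), hval _⟩
  have hf' : f' ∈ Z2 H' (localPart φ) := mem_Z2_iff.2 fun x y z => Subtype.ext (by
    have := mem_Z2_iff.1 hf (fromH' x) (fromH' y) (fromH' z)
    rw [← map_mul, ← map_mul] at this
    exact this)
  obtain ⟨m, hm, hfu⟩ := (CFAbs.h2_of_gen hH' (hasSteps_localPart φ) hu (hordu H' hH')).2 f' hf'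
  obtain ⟨b, hb⟩ := hfu
  let U : H × H → Idele L := cochainMap2 ι (localPart φ).subtype u
  have hcU : IsCompat ι (localPart φ).subtype := fun x a => rfl
  have hfU : f = d1 H (Idele L) (fun x => (b (toH' x) : Idele L)) + m • U := by
    funext ⟨x, y⟩
    have := congrArg (fun a : localPart φ => (a : Idele L)) (congrFun hb (toH' x, toH' y))
    simp only [d1_apply, Pi.sub_apply, Pi.smul_apply, AddSubgroup.coe_sub, AddSubgroup.coe_add,
      AddSubgroupClass.coe_nsmul, ← map_mul] at this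
    simp only [d1_apply, Pi.add_apply, Pi.smul_apply]
    refine (eq_add_of_sub_eq this.symm).trans ?_
    rfl
  have hm0 : m = 0 := by
    refine Nat.eq_zero_of_dvd_of_lt (hordχ H' hH' m ?_) hm
    set π := (AlgEquiv.restrictNormalHom L : (Lt ≃ₐ[ℚ] Lt) →* (L ≃ₐ[ℚ] L))
    set Ht := H.comap π
    have hHtp : IsPGroup p Ht := hH.comap_of_ker_isPGroup π (isPGroup_ker hl.isAux)
    let πH : Ht →* H := (π.comp Ht.subtype).codRestrict H fun x => x.2
    set Dt' := (decompGroup φt).subgroupOf Ht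
    let j : Dt' →* decompGroup φt :=
      (Ht.subtype.comp Dt'.subtype).codRestrict _ fun x => x.2
    letI : DistribMulAction Dt' (localPart φt) := DistribMulAction.compHom _ j
    have hcoind : IsCoinducedOn Dt' (orbitPart Ht φt) (restrictPlace φt) :=
      { smul_mem := fun g a ha => smul_mem_orbitPart g.2 ha
        compat := fun k a _ => restrictPlace_smul φt (j k) a
        exists_unique := fun F hF =>
          orbitPart_coinduced Ht φt F fun d x hd => hF ⟨d, hd⟩ x }
    set Hd := decompGroup φt ⊓ Ht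
    have hHd : (H'.comap (decompRes φ φt hl.liesAbove)).map (decompGroup φt).subtype = Hd := by
      ext g
      constructor
      · rintro ⟨x, hx, rfl⟩
        exact ⟨x.2, hx⟩
      · rintro ⟨hg1, hg2⟩
        exact ⟨⟨g, hg1⟩, hg2, rfl⟩
    rw [hHd]
    have heHd : (e : Idele Lt) ∈ fixedPts Hd (Idele Lt) :=
      fun g => congrArg Subtype.val (hef ⟨g, g.2.1⟩)
    set A := relNorm (Idele Lt) Hd Ht (e : Idele Lt)
    have hA : A ∈ fixedPts Ht (Idele Lt) := RelNorm.mem_fixedPts heHd
    have hAorb : A ∈ orbitPart Ht φt := by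
      have := Fintype.ofFinite (Ht ⧸ Hd.subgroupOf Ht)
      show relNorm (Idele Lt) Hd Ht (e : Idele Lt) ∈ _
      rw [relNorm, finsum_eq_sum_of_fintype]
      refine sum_mem fun c _ => smul_mem_orbitPart c.out.2 ?_
      exact ⟨fun r ψ' hne => by
        obtain ⟨rfl, hs⟩ := e.2.1 r ψ' hne
        exact ⟨rfl, 1, one_mem _, hs⟩, e.2.2⟩
    set ψt := ψ.comp Ht.subtype
    have hcB : IsCompat πH (ideleBaseChange L Lt) := fun g a =>
      ideleBaseChange_smul (g : Lt ≃ₐ[ℚ] Lt) (π g) (fun x => apply_algebraMap _ x) a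
    set F := cupChar ψt A - cochainMap2 πH (ideleBaseChange L Lt) U with hF
    have hFZ : F ∈ Z2 Ht (Idele Lt) :=
      sub_mem (cupChar_mem_Z2 ψt hA)
        (cochainMap2_mem_Z2 hcB (cochainMap2_mem_Z2 hcU hu))
    have hker : π.ker ≤ Ht := fun g hg => by
      show π g ∈ H
      rw [MonoidHom.mem_ker.1 hg]; exact one_mem H
    have hFval : ∀ t, F t ∈ orbitPart Ht φt := fun t => sub_mem (nsmul_mem hAorb _)
      (ideleBaseChange_mem_orbitPart hl.liesAbove hker (u _).2)
    have hFB : (fun t : Dt' × Dt' => restrictPlace φt (F ((t.1 : Ht), (t.2 : Ht)))) ∈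
        B2 Dt' (localPart φt) := by
      have hcj : IsCompat j (AddMonoidHom.id (localPart φt)) := fun _ _ => rfl
      convert cochainMap2_mem_B2 hcj hue using 1
      funext ⟨x, y⟩
      simp only [hF, Pi.sub_apply, map_sub, cochainMap2_apply, AddMonoidHom.id_apply]
      congr 1
      simp only [cupChar, map_nsmul]
      rw [show restrictPlace φt A = e from restrictPlace_relNorm φt Ht e hef]
      rfl
    obtain ⟨cc, -, hcc⟩ := hcoind.h2_injective hFZ hFval hFB
    let mkL : Idele L →+ IdeleClass L := QuotientAddGroup.mk' (principalIdeles L)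
    let mkT : Idele Lt →+ IdeleClass Lt := QuotientAddGroup.mk' (principalIdeles Lt)
    have hcm : IsCompat (A := Idele L) (B := IdeleClass L) (MonoidHom.id H) mkL := by intro x a; rfl
    have hmU : m • cochainMap2 (MonoidHom.id H) mkL U ∈ B2 H (IdeleClass L) := by
      have h1 : cochainMap2 (MonoidHom.id H) mkL f ∈ B2 H (IdeleClass L) := h
      rw [hfU, map_add, map_nsmul] at h1
      exact (add_mem_cancel_left (cochainMap2_mem_B2 hcm ⟨_, rfl⟩)).1 h1
    have hcT : IsCompat (A := Idele Lt) (B := IdeleClass Lt) (MonoidHom.id Ht) mkT := by intro x a; rfl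
    have h2 : cochainMap2 (MonoidHom.id Ht) mkT F ∈ B2 Ht (IdeleClass Lt) :=
      cochainMap2_mem_B2 hcT ⟨cc, hcc⟩
    have hcC : IsCompat (A := IdeleClass L) (B := IdeleClass Lt) πH (classBaseChange L Lt) := fun g a =>
      classBaseChange_smul (g : Lt ≃ₐ[ℚ] Lt) (π g) (fun x => apply_algebraMap _ x) a
    have h3 := add_mem (nsmul_mem h2 m) (cochainMap2_mem_B2 hcC hmU)
    have h5 : cupChar ψt (m • (QuotientAddGroup.mk A : IdeleClass Lt)) ∈ B2 Ht (IdeleClass Lt) := by
      convert h3 using 1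
      funext t
      simp only [hF, map_nsmul, Pi.add_apply, Pi.smul_apply, cochainMap2, AddMonoidHom.coe_mk,
        ZeroHom.coe_mk, Pi.sub_apply, MonoidHom.id_apply, map_sub]
      have e1 : ∀ x : Idele L, classBaseChange L Lt (mkL x) = mkT (ideleBaseChange L Lt x) :=
        fun x => rfl
      rw [e1]
      refine Eq.trans ?_ (nsmul_add (M := IdeleClass Lt) _ _ m)
      refine Eq.trans ?_ (congrArg (m • ·) (sub_add_cancel _ _).symm)
      simp only [cupChar, map_nsmul, smul_comm m]
      rfl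
    have hAc : (QuotientAddGroup.mk A : IdeleClass Lt) ∈ fixedPts Ht (IdeleClass Lt) :=
      mk_mem_fixedPts hA
    rw [CFAbs.cupChar_res_mem_B2_iff ψ (hasSteps_ideleClass Lt) hHtp (nsmul_mem hAc m)] at h5
    have h4 := chiClass_norm_eq_zero hl.isAux hl.kappa_surj hl.coprime h5
    rw [chiClass_nsmul κ hAc, chiClass_mk κ hA, chi_relNorm κ inf_le_right heHd] at h4
    exact h4
  refine ⟨fun x => (b (toH' x) : Idele L), fun x => (b _).2, ?_⟩
  rw [hfU, hm0, zero_nsmul, add_zero]

end Chi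

end FermatLib.CFT
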