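import Fermat.Agent.CFT.CohInflation

/-!
Second cohomology of cyclic quotients; cup products with characters.
-/

set_option autoImplicit false

namespace FermatLib.CFT

variable {G : Type*} [Group G] {A : Type*} [AddCommGroup A] [DistribMulAction G A]

/-- `g` generates `G` modulo `N`, with order `d`. -/
structure IsCyclicGen (N : Subgroup G) (g : G) (d : ℕ) : Prop where
  pos : 0 < d
  pow_mem_iff : ∀ i : ℕ, g ^ i ∈ N ↔ d ∣ i
  exists_pow : ∀ x : G, ∃ i : ℕ, (g ^ i)⁻¹ * x ∈ N

theorem IsCyclicGen.pow_d_mem {N : Subgroup G} {g : G} {d : ℕ} (hg : IsCyclicGen N g d) :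
    g ^ d ∈ N := (hg.pow_mem_iff d).2 dvd_rfl

theorem IsCyclicGen.bijective {N : Subgroup G} {g : G} {d : ℕ} (hg : IsCyclicGen N g d) :
    Function.Bijective fun i : Fin d => (QuotientGroup.mk (g ^ (i : ℕ)) : G ⧸ N) := by
  constructor
  · intro i j hij
    have h := QuotientGroup.eq.1 hij
    apply Fin.ext
    rcases le_total (i : ℕ) j with hle | hle
    · rw [← Nat.add_sub_cancel' hle, pow_add, inv_mul_cancel_left, hg.pow_mem_iff] at h
      have := Nat.eq_zero_of_dvd_of_lt h (lt_of_le_of_lt (Nat.sub_le _ _) j.isLt)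
      omega
    · have h' := N.inv_mem h
      rw [mul_inv_rev, inv_inv, ← Nat.add_sub_cancel' hle, pow_add, inv_mul_cancel_left,
        hg.pow_mem_iff] at h'
      have := Nat.eq_zero_of_dvd_of_lt h' (lt_of_le_of_lt (Nat.sub_le _ _) i.isLt)
      omega
  · intro q
    obtain ⟨x, rfl⟩ := QuotientGroup.mk_surjective q
    obtain ⟨i, hi⟩ := hg.exists_pow x
    refine ⟨⟨i % d, Nat.mod_lt _ hg.pos⟩, QuotientGroup.eq.2 ?_⟩
    have hd : g ^ (d * (i / d)) ∈ N := (hg.pow_mem_iff _).2 (Dvd.intro _ rfl)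
    have := N.mul_mem hd hi
    have e : g ^ i = g ^ (i % d) * g ^ (d * (i / d)) := by rw [← pow_add, Nat.mod_add_div]
    rwa [e, mul_inv_rev, mul_assoc, mul_inv_cancel_left] at this

/-- A relative norm is computed by any system of representatives. -/
theorem relNorm_eq_sum {H' H : Subgroup G} {ι : Type*} [Fintype ι] (s : ι → H)
    (hs : Function.Bijective fun i => (QuotientGroup.mk (s i) : H ⧸ H'.subgroupOf H))
    {a : A} (ha : a ∈ fixedPts H' A) : relNorm A H' H a = ∑ i, (s i : G) • a := by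
  rw [← finsum_eq_sum_of_fintype]
  refine (finsum_eq_of_bijective (f := fun i => (s i : G) • a) _ hs fun i => ?_).symm
  obtain ⟨x, hx⟩ := QuotientGroup.mk_out_eq_mul (H'.subgroupOf H) (s i)
  rw [hx, Subgroup.coe_mul, mul_smul]
  exact congrArg _ (mem_fixedPts_subgroup.1 ha _ x.2).symm

omit [DistribMulAction G A] in
theorem sum_range_smul_telescope {b : G → A} (g : G) (d : ℕ) :
    ∑ j ∈ Finset.range d, (b (g ^ (j + 1)) - b (g ^ j)) = b (g ^ d) - b 1 := by
  simpa using Finset.sum_range_sub (fun j => b (g ^ j)) d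

/-- The obstruction element of an inflated cocycle is invariant. -/
theorem cyclicClass_mem_fixedPts {N : Subgroup G} {g : G} {d : ℕ} (hg : IsCyclicGen N g d)
    {f : G × G → A} (hf : f ∈ Z2 G A) (hi : IsInflatedCochain N f) :
    ∑ j ∈ Finset.range d, f (g ^ j, g) ∈ fixedPts G A := by
  let a := ∑ j ∈ Finset.range d, f (g ^ j, g)
  have hga : g • a = a := by
    have e : ∀ j, g • f (g ^ j, g) =
        f (g ^ (j + 1), g) + f (g, g ^ j) - f (g, g ^ (j + 1)) := by
      intro j
      have := mem_Z2_iff.1 hf g (g ^ j) g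
      rw [← pow_succ, ← pow_succ'] at this
      exact eq_sub_of_add_eq this
    have hd0 : f (g ^ d, g) = 0 := hi.left_zero _ hg.pow_d_mem g
    have h0 : f (g ^ 0, g) = 0 := hi.left_zero _ (by simp) g
    have hd1 : f (g, g ^ d) = 0 := hi.right_zero g _ hg.pow_d_mem
    have h1 : f (g, g ^ 0) = 0 := hi.right_zero g _ (by simp)
    have s1 := Finset.sum_range_sub (fun j => f (g ^ j, g)) d
    have s2 := Finset.sum_range_sub (fun j => f (g, g ^ j)) d
    rw [hd0, h0, sub_zero, Finset.sum_sub_distrib, sub_eq_zero] at s1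
    rw [hd1, h1, sub_zero, Finset.sum_sub_distrib, sub_eq_zero] at s2
    simp only [a, Finset.smul_sum, e, Finset.sum_sub_distrib, Finset.sum_add_distrib, s1, s2,
      add_sub_cancel_right]
  intro x
  obtain ⟨i, hix⟩ := hg.exists_pow x
  have hN : ∀ n ∈ N, n • a = a := fun n hn => by
    simp only [a, Finset.smul_sum]
    exact Finset.sum_congr rfl fun j _ => hi.fixed _ _ n hn
  have hgi : ∀ i : ℕ, g ^ i • a = a := by
    intro i
    induction i with
    | zero => simp
    | succ i ih => rw [pow_succ, mul_smul, hga, ih]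
  calc x • a = (g ^ i * ((g ^ i)⁻¹ * x)) • a := by rw [mul_inv_cancel_left]
    _ = a := by rw [mul_smul, hN _ hix, hgi]

/-- An inflated cocycle of a cyclic quotient whose obstruction is a norm is a coboundary. -/
theorem mem_B2_of_cyclic {N : Subgroup G} [N.Normal] {g : G} {d : ℕ} (hg : IsCyclicGen N g d)
    {f : G × G → A} (hf : f ∈ Z2 G A) (hi : IsInflatedCochain N f)
    {β : A} (hβ : ∀ n ∈ N, n • β = β)
    (hsum : ∑ j ∈ Finset.range d, f (g ^ j, g) = ∑ j ∈ Finset.range d, g ^ j • β) :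
    f ∈ B2 G A := by
  classical
  let B : ℕ → A := fun i => ∑ j ∈ Finset.range i, (g ^ j • β - f (g ^ j, g))
  have hper : ∀ j, g ^ (d + j) • β - f (g ^ (d + j), g) = g ^ j • β - f (g ^ j, g) := by
    intro j
    rw [pow_add, (Commute.refl g).pow_pow d j |>.eq, mul_smul, hβ _ hg.pow_d_mem,
      hi.left_mul _ _ _ hg.pow_d_mem]
  have hBd : B d = 0 := by simp only [B, Finset.sum_sub_distrib, hsum, sub_self]
  have hB : ∀ i t, B (d * t + i) = B i := by
    intro i t
    induction t with
    | zero => simp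
    | succ t ih =>
      rw [show d * (t + 1) + i = d + (d * t + i) by ring, ← ih]
      simp only [B, Finset.sum_range_add _ d, hper]
      exact (add_eq_right).2 hBd
  choose k hk using hg.exists_pow
  let b : G → A := fun x => B (k x)
  have hb : ∀ x i, (g ^ i)⁻¹ * x ∈ N → b x = B i := by
    intro x i hi'
    have h : (g ^ k x)⁻¹ * g ^ i ∈ N := by
      have := N.mul_mem (hk x) (N.inv_mem hi')
      rwa [mul_inv_rev, inv_inv, ← mul_assoc, mul_inv_cancel_right] at this
    rcases le_total (k x) i with hle | hle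
    · rw [← Nat.add_sub_cancel' hle, pow_add, inv_mul_cancel_left, hg.pow_mem_iff] at h
      obtain ⟨t, ht⟩ := h
      have : i = d * t + k x := by omega
      rw [this, hB]
    · have h' := N.inv_mem h
      rw [mul_inv_rev, inv_inv, ← Nat.add_sub_cancel' hle, pow_add, inv_mul_cancel_left,
        hg.pow_mem_iff] at h'
      obtain ⟨t, ht⟩ := h'
      have : k x = d * t + i := by omega
      show B (k x) = B i
      rw [this, hB]
  have hbN : ∀ n ∈ N, b n = 0 := fun n hn => by
    rw [hb n 0 (by simpa using hn)]; simp [B]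
  have hbmul : ∀ x, ∀ n ∈ N, b (x * n) = b x := fun x n hn =>
    hb (x * n) (k x) (by rw [← mul_assoc]; exact N.mul_mem (hk x) hn)
  let h := f - d1 G A b
  have hh : h ∈ Z2 G A := sub_d1_mem_Z2 hf b
  have hhN : ∀ x, ∀ n ∈ N, h (x, n) = 0 := fun x n hn => by
    simp [h, d1_apply, hbN n hn, hbmul x n hn, hi.right_zero x n hn]
  have hhg : ∀ x, h (x, g) = 0 := by
    intro x
    have h1 : b g = β := by
      rw [hb g 1 (by simp)]
      simp [B, hi.left_zero 1 N.one_mem g]
    have h2 : b (x * g) = B (k x + 1) := by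
      refine hb _ _ ?_
      have := Subgroup.Normal.conj_mem' ‹_› _ (hk x) g
      rwa [pow_succ, mul_inv_rev, mul_assoc, ← mul_assoc _ x g, ← mul_assoc]
    have e : x = g ^ k x * ((g ^ k x)⁻¹ * x) := by group
    have h3 : x • β = g ^ k x • β := by
      conv_lhs => rw [e, mul_smul, hβ _ (hk x)]
    have h4 : f (x, g) = f (g ^ k x, g) := by
      conv_lhs => rw [e, hi.left_mul _ _ _ (hk x)]
    simp only [h, Pi.sub_apply, d1_apply, h1, h2, h3, h4, b]
    simp only [B, Finset.sum_range_succ]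
    abel
  have hall : ∀ y x, h (x, y) = 0 := by
    have hmul : ∀ y z, (∀ x, h (x, y) = 0) → (∀ x, h (x, z) = 0) → ∀ x, h (x, y * z) = 0 :=
      fun y z hy hz x => by rw [Z2_apply_mul_of_right hh hz, hy]
    have hpow : ∀ i : ℕ, ∀ x, h (x, g ^ i) = 0 := by
      intro i
      induction i with
      | zero => exact fun x => by rw [pow_zero]; exact hhN x 1 N.one_mem
      | succ i ih => rw [pow_succ]; exact hmul _ _ ih hhg
    intro y
    have := hmul _ _ (hpow (k y)) (fun x => hhN x _ (hk y))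
    rwa [mul_inv_cancel_left] at this
  refine ⟨b, ?_⟩
  funext ⟨x, y⟩
  exact (sub_eq_zero.1 (hall y x)).symm

/-- Converse: the obstruction element of a coboundary is a norm. -/
theorem exists_sum_eq_of_mem_B2 {N : Subgroup G} [N.Normal] (h1 : H1Trivial N A) {g : G} {d : ℕ}
    (hg : IsCyclicGen N g d) {f : G × G → A} (hi : IsInflatedCochain N f) (hf : f ∈ B2 G A) :
    ∃ β : A, (∀ n ∈ N, n • β = β) ∧
      ∑ j ∈ Finset.range d, f (g ^ j, g) = ∑ j ∈ Finset.range d, g ^ j • β := by
  obtain ⟨b, hb⟩ := mem_B2_iff.1 hf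
  obtain ⟨c, hc⟩ := mem_B1_iff.1 (h1 (fun x : N => b x) (mem_Z1_iff.2 fun x y => by
    have h := hb (x : G) y
    rw [hi.left_zero _ x.2] at h
    have h' := h.symm
    rw [sub_add_eq_add_sub, sub_eq_zero] at h'
    exact h'.symm))
  let b1 := b - d0 G A c
  have hb1 : ∀ x y, f (x, y) = x • b1 y - b1 (x * y) + b1 x := fun x y => by
    rw [hb]; simp only [b1, Pi.sub_apply, d0_apply, smul_sub, mul_smul]; abel
  have hv : ∀ n ∈ N, b1 n = 0 := fun n hn => by
    have := hc ⟨n, hn⟩
    simp only at this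
    simp [b1, d0_apply, this]
  have hmul : ∀ x, ∀ n ∈ N, b1 (x * n) = b1 x := fun x n hn => by
    have h' := (hb1 x n).symm
    rw [hi.right_zero x n hn, hv n hn, smul_zero, zero_sub, neg_add_eq_zero] at h'
    exact h'
  refine ⟨b1 g, fun n hn => ?_, ?_⟩
  · have h' := (hb1 n g).symm
    have e : n * g = g * (g⁻¹ * n * g) := by group
    rw [hi.left_zero n hn, hv n hn, add_zero, sub_eq_zero, e,
      hmul g _ (Subgroup.Normal.conj_mem' ‹_› n hn g)] at h'
    exact h'
  · have e : ∀ j, f (g ^ j, g) = g ^ j • b1 g - (b1 (g ^ (j + 1)) - b1 (g ^ j)) := fun j => by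
      rw [hb1, pow_succ]; abel
    rw [Finset.sum_congr rfl fun j _ => e j, Finset.sum_sub_distrib, sum_range_smul_telescope,
      hv _ hg.pow_d_mem, hv _ N.one_mem, sub_zero, sub_zero]

end FermatLib.CFT
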