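import Mathlib

/-!
Low-degree cohomology of a group acting on an additive abelian group: cochain-level definitions.
Theory: `Fermat.Agent.CFT.Coh*`.
-/

set_option autoImplicit false

namespace FermatLib.CFT

section
variable (G : Type*) [Group G] (A : Type*) [AddCommGroup A] [DistribMulAction G A]

/-- `a ↦ (g ↦ g • a - a)`. -/
def d0 : A →+ (G → A) where
  toFun a g := g • a - a
  map_zero' := by funext g; simp
  map_add' a b := by funext g; simp only [smul_add, Pi.add_apply]; abel

/-- Differential on 1-cochains. -/
def d1 : (G → A) →+ (G × G → A) where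
  toFun f x := x.1 • f x.2 - f (x.1 * x.2) + f x.1
  map_zero' := by funext x; simp
  map_add' a b := by funext x; simp only [smul_add, Pi.add_apply]; abel

/-- Differential on 2-cochains. -/
def d2 : (G × G → A) →+ (G × G × G → A) where
  toFun f x := x.1 • f (x.2.1, x.2.2) - f (x.1 * x.2.1, x.2.2) + f (x.1, x.2.1 * x.2.2)
    - f (x.1, x.2.1)
  map_zero' := by funext x; simp
  map_add' a b := by funext x; simp only [smul_add, Pi.add_apply]; abel

def Z1 : AddSubgroup (G → A) := (d1 G A).ker
def B1 : AddSubgroup (G → A) := (d0 G A).range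
def Z2 : AddSubgroup (G × G → A) := (d2 G A).ker
def B2 : AddSubgroup (G × G → A) := (d1 G A).range

/-- First cohomology. -/
abbrev H1' : Type _ := (Z1 G A) ⧸ (B1 G A).addSubgroupOf (Z1 G A)
/-- Second cohomology. -/
abbrev H2' : Type _ := (Z2 G A) ⧸ (B2 G A).addSubgroupOf (Z2 G A)

def H1Trivial : Prop := ∀ f ∈ Z1 G A, f ∈ B1 G A
def H2Trivial : Prop := ∀ f ∈ Z2 G A, f ∈ B2 G A

/-- The invariants. -/
def fixedPts : AddSubgroup A where
  carrier := {a | ∀ g : G, g • a = a}
  zero_mem' := fun g => smul_zero g
  add_mem' := fun ha hb g => by rw [smul_add, ha g, hb g]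
  neg_mem' := fun ha g => by rw [smul_neg, ha g]

/-- The norm map (zero if `G` is infinite). -/
noncomputable def normMap : A →+ A where
  toFun a := ∑ᶠ g : G, g • a
  map_zero' := by simp
  map_add' a b := by
    classical
    by_cases h : Finite G
    · have := Fintype.ofFinite G
      simp only [finsum_eq_sum_of_fintype, smul_add, Finset.sum_add_distrib]
    · have : Infinite G := not_finite_iff_infinite.mp h
      have key : ∀ c : A, ∑ᶠ g : G, g • c = 0 := by
        intro c
        rcases eq_or_ne c 0 with rfl | hc
        · simp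
        · apply finsum_of_infinite_support
          have : Function.support (fun g : G => g • c) = Set.univ :=
            Set.eq_univ_of_forall fun g => (smul_ne_zero_iff_ne g).2 hc
          rw [this]; exact Set.infinite_univ
      simp only [key a, key b, key (a + b), add_zero]

/-- The norms inside the invariants: `a` is a norm. -/
noncomputable def normGroup : AddSubgroup A := (normMap G A).range

end

section map
variable {G H : Type*} [Group G] [Group H] {A B : Type*} [AddCommGroup A] [AddCommGroup B]
  [DistribMulAction G A] [DistribMulAction H B]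

/-- Pull back along `f` and push along `φ`. -/
def cochainMap1 (f : H →* G) (φ : A →+ B) : (G → A) →+ (H → B) where
  toFun x h := φ (x (f h))
  map_zero' := by funext h; simp
  map_add' a b := by funext h; simp

/-- Pull back along `f` and push along `φ`. -/
def cochainMap2 (f : H →* G) (φ : A →+ B) : (G × G → A) →+ (H × H → B) where
  toFun x h := φ (x (f h.1, f h.2))
  map_zero' := by funext h; simp
  map_add' a b := by funext h; simp

/-- Compatibility of a pair of maps. -/
def IsCompat (f : H →* G) (φ : A →+ B) : Prop := ∀ (h : H) (a : A), φ (f h • a) = h • φ a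

/-- The carry cocycle `a ∪ δψ` of a character `ψ : G → ℤ/N` and an element `a`. -/
def cupChar {N : ℕ} (ψ : G →* Multiplicative (ZMod N)) (a : A) : G × G → A :=
  fun x => ((((ψ x.1).toAdd).val + ((ψ x.2).toAdd).val) / N) • a

end map

section cf
variable (p : ℕ) (G : Type*) [Group G] (A : Type*) [AddCommGroup A] [DistribMulAction G A]

/-- The class formation axioms for all `p`-subgroups of `G`. -/
structure IsPClassFormation : Prop where
  h1 : ∀ H : Subgroup G, IsPGroup p H → H1Trivial H A
  card_h2 : ∀ H : Subgroup G, IsPGroup p H → Nat.card (H2' H A) = Nat.card H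
  /-- a class of `G` restricting to a generator of `H2` of every `p`-subgroup -/
  exists_gen : ∃ u : G × G → A, u ∈ Z2 G A ∧ ∀ K : Subgroup G, IsPGroup p K →
    ∀ f ∈ Z2 K A, ∃ m : ℤ, f - m • cochainMap2 K.subtype (AddMonoidHom.id A) u ∈ B2 K A

end cf

end FermatLib.CFT

namespace FermatLib.CFT

section rel
variable {G : Type*} [Group G] (A : Type*) [AddCommGroup A] [DistribMulAction G A]

/-- Relative norm: sum over a system of representatives of `H / H'`. -/
noncomputable def relNorm (H' H : Subgroup G) (a : A) : A :=
  ∑ᶠ c : H ⧸ H'.subgroupOf H, ((c.out : H) : G) • a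

/-- The norms from `H'`-invariants inside the `H`-invariants. -/
def relNormSet (H' H : Subgroup G) : Set A :=
  {b | ∃ a ∈ fixedPts H' A, relNorm A H' H a = b}

/-- Degree `p` axiom for a pair `H' ⊴ H`: norm index `p` and trivial first cohomology. -/
structure IsCyclicStep (p : ℕ) (H' H : Subgroup G) : Prop where
  exists_not_norm : ∃ b ∈ fixedPts H A, b ∉ relNormSet A H' H
  norm_index_le : ∀ s : Finset A, (∀ b ∈ s, b ∈ fixedPts H A) →
    (∀ b ∈ s, ∀ c ∈ s, b - c ∈ relNormSet A H' H → b = c) → s.card ≤ p
  h1 : ∀ g ∈ H, g ∉ H' → ∀ a ∈ fixedPts H' A, relNorm A H' H a = 0 →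
    ∃ b ∈ fixedPts H' A, g • b - b = a

end rel

end FermatLib.CFT
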