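import Fermat.Agent.CFT.FirstOrbit
import Fermat.Agent.CFT.CohDefs

/-!
Cyclic steps in terms of Herbrand orders.
-/

set_option autoImplicit false

namespace FermatLib.CFT

open Herbrand

variable {G : Type*} [Group G] (A : Type*) [AddCommGroup A] [DistribMulAction G A]

/-- The action of `g` as an additive endomorphism. -/
noncomputable def smulEnd (g : G) : AddMonoid.End A := DistribSMul.toAddMonoidHom A g

theorem smulEnd_apply (g : G) (a : A) : smulEnd A g a = g • a := rfl

theorem smulEnd_pow_apply (g : G) (i : ℕ) (a : A) : (smulEnd A g ^ i) a = g ^ i • a := by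
  induction i with
  | zero => rw [pow_zero, pow_zero, one_smul]; rfl
  | succ n ih =>
    rw [pow_succ', pow_succ', mul_smul, ← ih]
    rfl

theorem mem_fixedPts_iff_forall (K : Subgroup G) (a : A) :
    a ∈ fixedPts K A ↔ ∀ h ∈ K, h • a = a :=
  ⟨fun ha h hh => ha ⟨h, hh⟩, fun ha h => ha h.1 h.2⟩

variable {A} {p : ℕ} {H' H : Subgroup G} {g : G} (hc : CyclicPair p H' H g)

include hc in
theorem isOrderP_fixedPts : IsOrderP p (smulEnd A g) (fixedPts H' A) where
  mem a ha := by
    rw [mem_fixedPts_iff_forall] at ha ⊢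
    intro h hh
    rw [smulEnd_apply, ← mul_smul, show h * g = g * (g⁻¹ * h * g) by group, mul_smul,
      ha _ (hc.conj_mem' h hh)]
  pow_eq a ha := by
    rw [smulEnd_pow_apply]
    exact (mem_fixedPts_iff_forall A H' a).1 ha _ hc.pow_mem

include hc in
theorem fixedPts_inf_ker :
    fixedPts H' A ⊓ (endDiff (smulEnd A g)).ker = fixedPts H A := by
  ext a
  constructor
  · rintro ⟨ha, h0⟩
    have hg : g • a = a := sub_eq_zero.1 h0
    have hp : ∀ i : ℕ, g ^ i • a = a := fun i => by
      induction i with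
      | zero => rw [pow_zero, one_smul]
      | succ n ih => rw [pow_succ, mul_smul, hg, ih]
    rw [mem_fixedPts_iff_forall]
    intro h hh
    obtain ⟨i, -, h', hh', rfl⟩ := hc.exists_pow h hh
    rw [mul_smul, (mem_fixedPts_iff_forall A H' a).1 ha h' hh', hp]
  · intro ha
    rw [mem_fixedPts_iff_forall] at ha
    exact ⟨(mem_fixedPts_iff_forall A H' a).2 fun h hh => ha h (hc.le hh),
      sub_eq_zero.2 (ha g hc.gmem)⟩

include hc in
theorem relNorm_eq_endNorm [hp : Fact p.Prime] {a : A} (ha : a ∈ fixedPts H' A) :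
    relNorm A H' H a = endNorm p (smulEnd A g) a := by
  classical
  have hbij : Function.Bijective
      (fun i : Fin p => (QuotientGroup.mk (⟨g, hc.gmem⟩ ^ (i : ℕ)) : H ⧸ H'.subgroupOf H)) := by
    constructor
    · have aux : ∀ i j : ℕ, i ≤ j → j < p → g ^ (j - i) ∈ H' → i = j := by
        intro i j hij hjp h
        by_contra hne
        have := Nat.le_of_dvd (by omega) (hc.dvd_of_pow_mem _ h)
        omega
      intro i j e
      have e' : ((g ^ (i : ℕ))⁻¹ * g ^ (j : ℕ)) ∈ H' := by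
        simpa using Subgroup.mem_subgroupOf.1 (QuotientGroup.eq.1 e)
      apply Fin.ext
      rcases le_total (i : ℕ) j with h | h
      · refine aux _ _ h j.2 ?_
        rwa [show g ^ ((j : ℕ) - i) = (g ^ (i : ℕ))⁻¹ * g ^ (j : ℕ) by
          rw [eq_inv_mul_iff_mul_eq, ← pow_add, Nat.add_sub_cancel' h]]
      · refine (aux _ _ h i.2 ?_).symm
        rw [show g ^ ((i : ℕ) - j) = ((g ^ (i : ℕ))⁻¹ * g ^ (j : ℕ))⁻¹ by
          rw [mul_inv_rev, inv_inv, eq_inv_mul_iff_mul_eq, ← pow_add, Nat.add_sub_cancel' h]]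
        exact H'.inv_mem e'
    · intro c
      induction c using QuotientGroup.induction_on with
      | H h =>
        obtain ⟨i, hi, h', hh', e⟩ := hc.exists_pow h.1 h.2
        refine ⟨⟨i, hi⟩, QuotientGroup.eq.2 (Subgroup.mem_subgroupOf.2 ?_)⟩
        simpa [e] using hh'
  rw [relNorm, ← finsum_comp_equiv (Equiv.ofBijective _ hbij), finsum_eq_sum_of_fintype,
    endNorm_apply, Finset.sum_range]
  refine Finset.sum_congr rfl fun i _ => ?_
  rw [smulEnd_pow_apply, Equiv.ofBijective_apply]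
  obtain ⟨h', e⟩ := QuotientGroup.mk_out_eq_mul (H'.subgroupOf H) (⟨g, hc.gmem⟩ ^ (i : ℕ))
  rw [show ((Quotient.out (QuotientGroup.mk (⟨g, hc.gmem⟩ ^ (i : ℕ)) : H ⧸ H'.subgroupOf H) : H) : G)
      = g ^ (i : ℕ) * ((h' : H) : G) from by
    rw [show Quotient.out (QuotientGroup.mk (⟨g, hc.gmem⟩ ^ (i : ℕ)) : H ⧸ H'.subgroupOf H) = _
      from e]
    simp, mul_smul,
    (mem_fixedPts_iff_forall A H' a).1 ha _ (Subgroup.mem_subgroupOf.1 h'.2)]

include hc in
theorem relNormSet_eq [Fact p.Prime] :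
    relNormSet A H' H = ((fixedPts H' A).map (endNorm p (smulEnd A g)) : Set A) := by
  ext b
  constructor
  · rintro ⟨a, ha, rfl⟩
    exact ⟨a, ha, (relNorm_eq_endNorm hc ha).symm⟩
  · rintro ⟨a, ha, rfl⟩
    exact ⟨a, ha, relNorm_eq_endNorm hc ha⟩

include hc in
theorem hOrd_fixedPts_eq :
    hOrd (endDiff (smulEnd A g)) (endNorm p (smulEnd A g)) (fixedPts H' A) =
      ((fixedPts H' A).map (endNorm p (smulEnd A g))).relIndex (fixedPts H A) := by
  rw [hOrd, fixedPts_inf_ker hc]

include hc in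
theorem hOrd_norm_eq_one_iff [Fact p.Prime] :
    hOrd (endNorm p (smulEnd A g)) (endDiff (smulEnd A g)) (fixedPts H' A) = 1 ↔
      ∀ a ∈ fixedPts H' A, relNorm A H' H a = 0 → ∃ b ∈ fixedPts H' A, g • b - b = a := by
  rw [hOrd_eq_one_iff]
  constructor
  · intro h a ha h0
    exact h a ha (by rw [← relNorm_eq_endNorm hc ha, h0])
  · intro h a ha h0
    exact h a ha (by rw [relNorm_eq_endNorm hc ha, h0])

include hc in
/-- A norm index bound in finite-set form bounds the Herbrand order. -/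
theorem hOrd_fixedPts_le [Fact p.Prime] {k : ℕ}
    (h : ∀ s : Finset A, (∀ b ∈ s, b ∈ fixedPts H A) →
      (∀ b ∈ s, ∀ c ∈ s, b - c ∈ relNormSet A H' H → b = c) → s.card ≤ k) :
    hOrd (endDiff (smulEnd A g)) (endNorm p (smulEnd A g)) (fixedPts H' A) ≠ 0 ∧
      hOrd (endDiff (smulEnd A g)) (endNorm p (smulEnd A g)) (fixedPts H' A) ≤ k := by
  classical
  rw [hOrd_fixedPts_eq hc]
  set N := (fixedPts H' A).map (endNorm p (smulEnd A g)) with hN
  let Q := fixedPts H A ⧸ N.addSubgroupOf (fixedPts H A)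
  have hQ : ∀ t : Finset Q, t.card ≤ k := by
    intro t
    let r : Q → A := fun c => ((Quotient.out c : fixedPts H A) : A)
    have hinj : ∀ c ∈ t, ∀ d ∈ t, r c - r d ∈ relNormSet A H' H → c = d := by
      intro c _ d _ hcd
      rw [relNormSet_eq hc] at hcd
      rw [← QuotientAddGroup.out_eq' c, ← QuotientAddGroup.out_eq' d, QuotientAddGroup.eq]
      refine AddSubgroup.mem_addSubgroupOf.2 ?_
      have := N.neg_mem hcd
      simpa [r, sub_eq_add_neg, add_comm, hN] using this
    have hr : Function.Injective r := fun c d e => Quotient.out_injective (Subtype.ext e)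
    rw [← Finset.card_image_of_injective t hr]
    refine h _ (fun b hb => ?_) fun b hb c hc' hbc => ?_
    · obtain ⟨c, -, rfl⟩ := Finset.mem_image.1 hb
      exact (Quotient.out c : fixedPts H A).2
    · obtain ⟨b', hb', rfl⟩ := Finset.mem_image.1 hb
      obtain ⟨c', hc'', rfl⟩ := Finset.mem_image.1 hc'
      rw [hinj b' hb' c' hc'' hbc]
  have hfin : Finite Q := by
    by_contra hinf
    have := not_finite_iff_infinite.1 hinf
    obtain ⟨t, ht⟩ := Infinite.exists_subset_card_eq Q (k + 1)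
    have := hQ t
    omega
  have := Fintype.ofFinite Q
  refine ⟨?_, ?_⟩
  · show Nat.card Q ≠ 0
    exact Nat.card_pos.ne'
  · show Nat.card Q ≤ k
    rw [Nat.card_eq_fintype_card]
    exact hQ Finset.univ

include hc in
/-- The degree `p` axiom gives Herbrand orders `p` and `1`. -/
theorem hOrd_of_isCyclicStep [hp : Fact p.Prime] (hg : g ∉ H') (hs : IsCyclicStep A p H' H) :
    hOrd (endDiff (smulEnd A g)) (endNorm p (smulEnd A g)) (fixedPts H' A) = p ∧
      hOrd (endNorm p (smulEnd A g)) (endDiff (smulEnd A g)) (fixedPts H' A) = 1 := by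
  refine ⟨?_, (hOrd_norm_eq_one_iff hc).2 (hs.h1 g hc.gmem hg)⟩
  obtain ⟨hne, hle⟩ := hOrd_fixedPts_le hc hs.norm_index_le
  rw [hOrd_fixedPts_eq hc] at hne hle ⊢
  set N := (fixedPts H' A).map (endNorm p (smulEnd A g))
  let Q := fixedPts H A ⧸ N.addSubgroupOf (fixedPts H A)
  have hQ : ∀ c : Q, p • c = 0 := by
    intro c
    induction c using QuotientAddGroup.induction_on with
    | H b =>
      rw [← QuotientAddGroup.mk_nsmul, QuotientAddGroup.eq_zero_iff, AddSubgroup.mem_addSubgroupOf,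
        AddSubgroup.coe_nsmul]
      obtain ⟨hb, h0⟩ := (fixedPts_inf_ker hc).ge b.2
      exact ⟨b.1, hb, endNorm_eq_nsmul h0⟩
  have h1 : N.relIndex (fixedPts H A) ≠ 1 := by
    rw [Ne, AddSubgroup.relIndex_eq_one]
    intro hle'
    obtain ⟨b, hb, hb'⟩ := hs.exists_not_norm
    apply hb'
    rw [relNormSet_eq hc]
    exact hle' hb
  have : Finite Q := Nat.finite_of_card_ne_zero hne
  obtain ⟨c, hc0⟩ : ∃ c : Q, c ≠ 0 := by
    by_contra hall
    rw [not_exists] at hall
    have : Subsingleton Q := ⟨fun a b => (not_not.1 (hall a)).trans (not_not.1 (hall b)).symm⟩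
    exact h1 (Nat.card_eq_one_iff_unique.2 ⟨this, inferInstance⟩)
  have hdvd : addOrderOf c ∣ Nat.card Q := addOrderOf_dvd_natCard c
  have hord : addOrderOf c = p :=
    ((Nat.dvd_prime hp.out).1 (addOrderOf_dvd_of_nsmul_eq_zero (hQ c))).resolve_left
      (fun e => hc0 (AddMonoid.addOrderOf_eq_one_iff.1 e))
  rw [hord] at hdvd
  exact le_antisymm hle (Nat.le_of_dvd (Nat.pos_of_ne_zero hne) hdvd)

end FermatLib.CFT
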