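import Fermat.Agent.CFT.LocalUnitsLattice

/-!
The units of a local field have Herbrand quotient one for an automorphism of finite order.
-/

set_option autoImplicit false
set_option linter.unusedSectionVars false

open scoped NNReal

namespace FermatLib.CFT.Loc

open Herbrand

variable {𝕜 L : Type*} [NontriviallyNormedField 𝕜] [NormedField L] [NormedAlgebra 𝕜 L]
  [IsUltrametricDist L] {σ : L ≃ₐ[𝕜] L} (Λ : UnitLattice σ)

namespace UnitLattice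

/-- The bound on the `k`-th level. -/
def bound (k : ℕ) : ℝ := ‖Λ.c‖ ^ k * Λ.r

theorem bound_nonneg (k : ℕ) : 0 ≤ Λ.bound k :=
  mul_nonneg (pow_nonneg (norm_nonneg _) _) Λ.r_nonneg

theorem bound_lt_one (k : ℕ) : Λ.bound k < 1 :=
  lt_of_le_of_lt (mul_le_of_le_one_left Λ.r_nonneg (pow_le_one₀ (norm_nonneg _) Λ.c_lt.le)) Λ.r_lt

theorem bound_sq_le (k : ℕ) : Λ.bound k * Λ.bound k ≤ Λ.δ * ‖Λ.c‖ ^ (k + 1) := by
  calc Λ.bound k * Λ.bound k = ‖Λ.c‖ ^ k * (‖Λ.c‖ ^ k * (Λ.r * Λ.r)) := by rw [bound]; ring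
    _ ≤ ‖Λ.c‖ ^ k * (1 * (Λ.δ * ‖Λ.c‖)) := by
        refine mul_le_mul_of_nonneg_left ?_ (pow_nonneg (norm_nonneg _) _)
        exact mul_le_mul (pow_le_one₀ (norm_nonneg _) Λ.c_lt.le) Λ.sq_le
          (mul_nonneg Λ.r_nonneg Λ.r_nonneg) zero_le_one
    _ = Λ.δ * ‖Λ.c‖ ^ (k + 1) := by ring

theorem norm_pow_mul_le {m : L} (hm : m ∈ Λ.M) (k : ℕ) : ‖Λ.c ^ k * m‖ ≤ Λ.bound k := by
  rw [norm_mul, norm_pow]
  exact mul_le_mul_of_nonneg_left (Λ.norm_le m hm) (pow_nonneg (norm_nonneg _) _)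

theorem mem_of_norm_le {e : L} {k : ℕ} (he : ‖e‖ ≤ Λ.δ * ‖Λ.c‖ ^ k) :
    ∃ m ∈ Λ.M, e = Λ.c ^ k * m := by
  refine ⟨e / Λ.c ^ k, Λ.mem_of_le _ ?_, (mul_div_cancel₀ _ (pow_ne_zero _ Λ.c_ne)).symm⟩
  rw [norm_div, norm_pow]
  exact (div_le_iff₀ (pow_pos (norm_pos_iff.2 Λ.c_ne) _)).2 he

theorem delta_mul_pow_succ_le (k : ℕ) : Λ.δ * ‖Λ.c‖ ^ (k + 1) ≤ Λ.δ * ‖Λ.c‖ ^ k :=
  mul_le_mul_of_nonneg_left (pow_le_pow_of_le_one (norm_nonneg _) Λ.c_lt.le (Nat.le_succ k))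
    Λ.δ_pos.le

theorem norm_sub_one_le {x : L} {k : ℕ} (h : ∃ m ∈ Λ.M, x - 1 = Λ.c ^ k * m) :
    ‖x - 1‖ ≤ Λ.bound k := by
  obtain ⟨m, hm, e⟩ := h
  rw [e]
  exact Λ.norm_pow_mul_le hm k

theorem norm_eq_one {x : L} {k : ℕ} (h : ∃ m ∈ Λ.M, x - 1 = Λ.c ^ k * m) : ‖x‖ = 1 :=
  norm_eq_one_of_sub_one_lt ((Λ.norm_sub_one_le h).trans_lt (Λ.bound_lt_one k))

/-- The subgroup `1 + c ^ k M` of units. -/
def level (k : ℕ) : AddSubgroup (Additive Lˣ) where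
  carrier := {x | ∃ m ∈ Λ.M, unitVal x - 1 = Λ.c ^ k * m}
  zero_mem' := ⟨0, Λ.M.zero_mem, by simp [unitVal]⟩
  add_mem' := fun {x y} ⟨m, hm, hx⟩ ⟨n, hn, hy⟩ => by
    obtain ⟨w, hw, e⟩ := Λ.mem_of_norm_le (e := (unitVal x - 1) * (unitVal y - 1)) (k := k) (by
      rw [norm_mul, hx, hy]
      exact ((mul_le_mul (Λ.norm_pow_mul_le hm k) (Λ.norm_pow_mul_le hn k) (norm_nonneg _)
        (Λ.bound_nonneg k)).trans (Λ.bound_sq_le k)).trans (Λ.delta_mul_pow_succ_le k))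
    refine ⟨w + (m + n), Λ.M.add_mem hw (Λ.M.add_mem hm hn), ?_⟩
    rw [mul_add, mul_add, ← e, ← hx, ← hy]
    simp only [unitVal, toMul_add, Units.val_mul]
    ring
  neg_mem' := fun {x} ⟨m, hm, hx⟩ => by
    have h1 := Λ.norm_eq_one ⟨m, hm, hx⟩
    have h2 := norm_div_sub_one_sub_le (x := (1 : L)) (z := unitVal x) (w := -(Λ.c ^ k * m))
      (Λ.bound_nonneg k) h1 (Λ.norm_sub_one_le ⟨m, hm, hx⟩)
      (by rw [norm_neg]; exact Λ.norm_pow_mul_le hm k)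
      (by rw [← hx, show (1 : L) - unitVal x - -(unitVal x - 1) = 0 by ring, norm_zero]
          exact mul_self_nonneg _)
    obtain ⟨w, hw, e⟩ :=
      Λ.mem_of_norm_le ((h2.trans (Λ.bound_sq_le k)).trans (Λ.delta_mul_pow_succ_le k))
    refine ⟨w - m, Λ.M.sub_mem hw hm, ?_⟩
    simp only [unitVal, toMul_neg, Units.val_inv_eq_inv_val]
    rw [mul_sub, ← e]
    simp only [unitVal, one_div]
    ring

theorem level_le_normOne (k : ℕ) : Λ.level k ≤ normOne L := fun _ hx => Λ.norm_eq_one hx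

theorem oneBall_le_level : oneBall L ⟨Λ.δ, Λ.δ_pos.le⟩ ≤ Λ.level 0 := fun x hx =>
  ⟨unitVal x - 1, Λ.mem_of_le _ hx.2, by rw [pow_zero, one_mul]⟩

theorem map_mem_level {k : ℕ} {x : Additive Lˣ} (hx : x ∈ Λ.level k) :
    unitsEnd σ x ∈ Λ.level k := by
  obtain ⟨m, hm, e⟩ := hx
  refine ⟨σ m, Λ.map_mem m hm, ?_⟩
  have h := congrArg σ e
  rw [map_sub, map_one, map_mul, map_pow, Λ.map_c] at h
  exact h

theorem tendsto_level {ε : ℝ} (hε : 0 < ε) :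
    ∃ i, ∀ x ∈ Λ.level i, ‖unitVal x - 1‖ < ε := by
  obtain ⟨i, hi⟩ := exists_pow_lt_of_lt_one hε Λ.c_lt
  exact ⟨i, fun x hx => (Λ.norm_sub_one_le hx).trans_lt
    ((mul_le_of_le_one_right (pow_nonneg (norm_nonneg _) _) Λ.r_lt.le).trans_lt hi)⟩

/-- The unit `1 + c ^ k m`. -/
noncomputable def mkUnit {m : L} (hm : m ∈ Λ.M) (k : ℕ) : Additive Lˣ :=
  Additive.ofMul (Units.mk0 (1 + Λ.c ^ k * m) fun h => by
    have := Λ.norm_eq_one (x := 1 + Λ.c ^ k * m) (k := k) ⟨m, hm, by ring⟩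
    rw [h, norm_zero] at this
    exact zero_ne_one this)

theorem unitVal_mkUnit {m : L} (hm : m ∈ Λ.M) (k : ℕ) :
    unitVal (Λ.mkUnit hm k) = 1 + Λ.c ^ k * m := rfl

theorem mkUnit_mem {m : L} (hm : m ∈ Λ.M) (k : ℕ) : Λ.mkUnit hm k ∈ Λ.level k :=
  ⟨m, hm, by rw [unitVal_mkUnit]; ring⟩

theorem mkUnit_mem_zero {m : L} (hm : m ∈ Λ.M) (k : ℕ) : Λ.mkUnit hm k ∈ Λ.level 0 := by
  refine ⟨Λ.c ^ k * m, ?_, by rw [unitVal_mkUnit]; ring⟩
  induction k with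
  | zero => simpa using hm
  | succ k ih => rw [pow_succ', mul_assoc]; exact Λ.mul_mem _ ih

/-- A first order step. -/
theorem sub_mem_level_succ {k : ℕ} {x z : Additive Lˣ} {m w m₂ : L} (hm : m ∈ Λ.M)
    (hx : unitVal x - 1 = Λ.c ^ k * m) (hm₂ : m₂ ∈ Λ.M) (hw : m - w = Λ.c * m₂)
    (hz1 : ‖unitVal z‖ = 1)
    (hz : ‖unitVal z - 1 - Λ.c ^ k * w‖ ≤ Λ.bound k * Λ.bound k) :
    x - z ∈ Λ.level (k + 1) := by
  have hwM : w ∈ Λ.M := by
    rw [show w = m - Λ.c * m₂ by rw [← hw]; ring]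
    exact Λ.M.sub_mem hm (Λ.mul_mem _ hm₂)
  have ha := Λ.bound_nonneg k
  have hzb : ‖unitVal z - 1‖ ≤ Λ.bound k := by
    rw [show unitVal z - 1 = (unitVal z - 1 - Λ.c ^ k * w) + Λ.c ^ k * w by ring]
    exact (IsUltrametricDist.norm_add_le_max _ _).trans (max_le
      (hz.trans (mul_le_of_le_one_left ha (Λ.bound_lt_one k).le)) (Λ.norm_pow_mul_le hwM k))
  have h := norm_div_sub_one_sub_le (x := unitVal x) (w := Λ.c ^ k * (Λ.c * m₂)) ha hz1 hzb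
    (Λ.norm_pow_mul_le (Λ.mul_mem _ hm₂) k)
    (by
      rw [← hw, mul_sub, ← hx,
        show unitVal x - unitVal z - (unitVal x - 1 - Λ.c ^ k * w) =
          -(unitVal z - 1 - Λ.c ^ k * w) by ring, norm_neg]
      exact hz)
  obtain ⟨e, he, he'⟩ := Λ.mem_of_norm_le (h.trans (Λ.bound_sq_le k))
  refine ⟨e + m₂, Λ.M.add_mem he hm₂, ?_⟩
  simp only [unitVal, toMul_sub, Units.val_div_eq_div_val] at he' ⊢
  rw [mul_add, ← he', pow_succ]
  ring

variable (hσ : ∀ x, ‖σ x‖ = ‖x‖)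

include hσ in
theorem norm_pow_apply (i : ℕ) (x : L) : ‖(σ ^ i) x‖ = ‖x‖ := by
  induction i with
  | zero => rfl
  | succ i ih => rw [pow_succ', AlgEquiv.mul_apply, hσ, ih]

theorem pow_map_c (i : ℕ) : (σ ^ i) Λ.c = Λ.c := by
  induction i with
  | zero => rfl
  | succ i ih => rw [pow_succ', AlgEquiv.mul_apply, ih, Λ.map_c]

include hσ in
theorem norm_endNorm_sub_le {m : L} (hm : m ∈ Λ.M) (k : ℕ) (y : Additive Lˣ)
    (hy : unitVal y = 1 + Λ.c ^ k * m) :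
    ‖unitVal (endNorm Λ.d (unitsEnd σ) y) - 1 -
      Λ.c ^ k * ∑ i ∈ Finset.range Λ.d, (σ ^ i) m‖ ≤ Λ.bound k * Λ.bound k := by
  rw [unitVal_endNorm, hy, Finset.mul_sum, ← sub_add_eq_sub_sub]
  simp only [map_add, map_one, map_mul, map_pow, Λ.pow_map_c]
  refine norm_prod_one_add_sub_le _ _ (Λ.bound_nonneg k) (Λ.bound_lt_one k).le fun i _ => ?_
  rw [norm_mul, norm_pow_apply hσ, ← norm_mul]
  exact Λ.norm_pow_mul_le hm k

variable [ProperSpace L]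

theorem isCompact_level : IsCompact (unitVal '' (Λ.level 0 : Set (Additive Lˣ))) := by
  have e : unitVal '' (Λ.level 0 : Set (Additive Lˣ)) = (fun m : L => 1 + m) '' (Λ.M : Set L) := by
    ext a
    constructor
    · rintro ⟨x, ⟨m, hm, hx⟩, rfl⟩
      exact ⟨m, hm, by rw [pow_zero, one_mul] at hx; simp [← hx]⟩
    · rintro ⟨m, hm, rfl⟩
      exact ⟨_, Λ.mkUnit_mem hm 0, by simp [unitVal_mkUnit]⟩
  rw [e]
  refine IsCompact.image ?_ (continuous_const.add continuous_id)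
  exact Metric.isCompact_of_isClosed_isBounded Λ.isClosed
    ((Metric.isBounded_closedBall (x := (0 : L)) (r := Λ.r)).subset fun m hm =>
      mem_closedBall_zero_iff.2 (Λ.norm_le m hm))

include hσ in
theorem continuous_sigma : Continuous σ :=
  (AddMonoidHomClass.isometry_of_norm σ hσ).continuous

theorem unitVal_mem_ne_zero {a : L} (ha : a ∈ unitVal '' (Λ.level 0 : Set (Additive Lˣ))) :
    a ≠ 0 := by
  obtain ⟨x, -, rfl⟩ := ha
  exact Units.ne_zero _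

include hσ in
theorem hOrd_level_fixed :
    hOrd (endDiff (unitsEnd σ)) (endNorm Λ.d (unitsEnd σ)) (Λ.level 0) = 1 := by
  rw [hOrd_eq_one_iff]
  intro x hx h0
  have hpr := (isOrderP_top σ (d := Λ.d) (by rw [Λ.d_eq, pow_orderOf_eq_one])).isHPair
  refine exists_map_eq_of_approx
    (Φ' := fun a => ∏ i ∈ Finset.range Λ.d, (σ ^ i) a) (unitVal_endNorm σ Λ.d)
    (Λ.level 0) Λ.isCompact_level
    (continuous_finsetProd _ fun i _ =>
      (AddMonoidHomClass.isometry_of_norm _ (norm_pow_apply hσ i)).continuous).continuousOn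
    Λ.level (endDiff (unitsEnd σ)).ker Λ.level_le_normOne (fun ε hε => Λ.tendsto_level hε)
    (fun y _ => hpr.left_right y trivial) ?_ hx h0
  rintro k a ⟨m, hm, ha⟩ haP
  have hfix : σ m = m := by
    have h1 : σ (unitVal a) = unitVal a :=
      congrArg unitVal (sub_eq_zero.1 (show unitsEnd σ a - a = 0 from haP))
    have h2 := congrArg σ ha
    rw [map_sub, map_one, map_mul, map_pow, Λ.map_c, h1, ha] at h2
    exact (mul_left_cancel₀ (pow_ne_zero _ Λ.c_ne) h2).symm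
  obtain ⟨m', hm', e⟩ := Λ.exists_trace m hm hfix
  refine ⟨Λ.mkUnit hm' k, Λ.mkUnit_mem_zero hm' k, ?_⟩
  refine Λ.sub_mem_level_succ (w := ∑ i ∈ Finset.range Λ.d, (σ ^ i) m') hm ha Λ.M.zero_mem
    (by rw [e, sub_self, mul_zero]) ?_
    (Λ.norm_endNorm_sub_le hσ hm' k _ (Λ.unitVal_mkUnit hm' k))
  rw [unitVal_endNorm, norm_prod]
  exact Finset.prod_eq_one fun i _ => by
    rw [norm_pow_apply hσ]
    exact Λ.norm_eq_one (Λ.mkUnit_mem hm' k)

include hσ in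
theorem hOrd_level_kernel :
    hOrd (endNorm Λ.d (unitsEnd σ)) (endDiff (unitsEnd σ)) (Λ.level 0) = 1 := by
  rw [hOrd_eq_one_iff]
  intro x hx h0
  have hpr := (isOrderP_top σ (d := Λ.d) (by rw [Λ.d_eq, pow_orderOf_eq_one])).isHPair
  refine exists_map_eq_of_approx (Φ' := fun a => σ a / a) (unitVal_endDiff σ)
    (Λ.level 0) Λ.isCompact_level
    ((continuous_sigma hσ).continuousOn.div continuousOn_id fun a ha => Λ.unitVal_mem_ne_zero ha)
    Λ.level (endNorm Λ.d (unitsEnd σ)).ker Λ.level_le_normOne (fun ε hε => Λ.tendsto_level hε)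
    (fun y _ => hpr.right_left y trivial) ?_ hx h0
  rintro k a ⟨m, hm, ha⟩ haP
  have hTr : ‖∑ i ∈ Finset.range Λ.d, (σ ^ i) m‖ ≤ Λ.δ * ‖Λ.c‖ := by
    have h := Λ.norm_endNorm_sub_le hσ hm k a (by rw [← ha]; ring)
    rw [show endNorm Λ.d (unitsEnd σ) a = 0 from haP] at h
    simp only [unitVal, toMul_zero, Units.val_one, sub_self, zero_sub, norm_neg, norm_mul,
      norm_pow] at h
    have h' := h.trans (Λ.bound_sq_le k)
    rw [pow_succ, mul_left_comm] at h'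
    exact le_of_mul_le_mul_left h' (pow_pos (norm_pos_iff.2 Λ.c_ne) _)
  set T := ∑ i ∈ Finset.range Λ.d, (σ ^ i) m with hT
  have htM : T / Λ.c ∈ Λ.M := Λ.mem_of_le _ (by
    rw [norm_div]; exact (div_le_iff₀ (norm_pos_iff.2 Λ.c_ne)).2 hTr)
  have hTσ : σ T = T := by
    rw [hT, map_sum]
    conv_rhs => rw [← sum_range_shift (fun j => (σ ^ j) m) (d := Λ.d) 1
      (fun j => by simp [pow_add, Λ.d_eq, pow_orderOf_eq_one])]
    exact Finset.sum_congr rfl fun j _ => by rw [add_comm 1 j, pow_succ']; rfl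
  obtain ⟨m', hm', e⟩ := Λ.exists_trace _ htM (by rw [map_div₀, hTσ, Λ.map_c])
  obtain ⟨y, hy, e'⟩ := Λ.exists_diff (m - Λ.c * m') (Λ.M.sub_mem hm (Λ.mul_mem _ hm')) (by
    simp only [map_sub, map_mul, Λ.pow_map_c, Finset.sum_sub_distrib, ← Finset.mul_sum, e]
    rw [mul_div_cancel₀ _ Λ.c_ne, sub_self])
  refine ⟨Λ.mkUnit hy k, Λ.mkUnit_mem_zero hy k, ?_⟩
  have hy1 := Λ.norm_eq_one (Λ.mkUnit_mem hy k)
  refine Λ.sub_mem_level_succ (w := σ y - y) hm ha hm' (by rw [e']; ring) ?_ ?_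
  · rw [unitVal_endDiff, norm_div, hσ, div_self]
    rw [hy1]; exact one_ne_zero
  rw [unitVal_endDiff]
  refine norm_div_sub_one_sub_le (Λ.bound_nonneg k) hy1 (Λ.norm_sub_one_le (Λ.mkUnit_mem hy k))
    (Λ.norm_pow_mul_le (Λ.M.sub_mem (Λ.map_mem _ hy) hy) k) ?_
  rw [Λ.unitVal_mkUnit hy k, map_add, map_one, map_mul, map_pow, Λ.map_c]
  rw [show 1 + Λ.c ^ k * σ y - (1 + Λ.c ^ k * y) - Λ.c ^ k * (σ y - y) = 0 by ring, norm_zero]
  exact mul_self_nonneg _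

end UnitLattice

/-- The units have Herbrand quotient one. -/
theorem hOrd_normOne [ProperSpace L] [FiniteDimensional 𝕜 L] [CompleteSpace 𝕜]
    (hσ : ∀ x, ‖σ x‖ = ‖x‖) :
    hOrd (endDiff (unitsEnd σ)) (endNorm (orderOf σ) (unitsEnd σ)) (normOne L) =
        hOrd (endNorm (orderOf σ) (unitsEnd σ)) (endDiff (unitsEnd σ)) (normOne L) ∧
      hOrd (endDiff (unitsEnd σ)) (endNorm (orderOf σ) (unitsEnd σ)) (normOne L) ≠ 0 := by
  obtain ⟨Λ⟩ := exists_unitLattice σ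
  rw [← Λ.d_eq]
  set D := endDiff (unitsEnd σ)
  set N := endNorm Λ.d (unitsEnd σ)
  set V := Λ.level 0
  have hO : IsOrderP Λ.d (unitsEnd σ) (normOne L) :=
    (isOrderP_top σ (d := Λ.d) (by rw [Λ.d_eq, pow_orderOf_eq_one])).mono le_top
      fun x hx => (hσ _).trans hx
  have hsV : V ≤ V.comap (unitsEnd σ) := fun x hx => Λ.map_mem_level hx
  let φ : Additive Lˣ →+ Additive Lˣ ⧸ V := QuotientAddGroup.mk' V
  let s' : AddMonoid.End (Additive Lˣ ⧸ V) := QuotientAddGroup.map V V (unitsEnd σ) hsV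
  have hcomm : ∀ x ∈ normOne L, φ (unitsEnd σ x) = s' (φ x) := fun x _ => rfl
  have hc := comm_endDiff (B := Additive Lˣ) (B' := Additive Lˣ ⧸ V) (p := Λ.d) (s := unitsEnd σ) φ s' (X := normOne L) hO.mem hcomm
  have hO' : IsOrderP (B := Additive Lˣ ⧸ V) Λ.d s' ((normOne L).map φ) := by
    refine ⟨?_, ?_⟩
    · rintro _ ⟨x, hx, rfl⟩
      exact ⟨unitsEnd σ x, hO.mem x hx, rfl⟩
    · rintro _ ⟨x, hx, rfl⟩
      have hi : ∀ i, φ ((unitsEnd σ ^ i) x) = (s' ^ i) (φ x) := fun i => by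
        induction i with
        | zero => rfl
        | succ n ih =>
          rw [pow_succ', pow_succ']
          show φ (unitsEnd σ ((unitsEnd σ ^ n) x)) = s' ((s' ^ n) (φ x))
          rw [← ih]
          rfl
      rw [← hi, hO.pow_eq x hx]
  have hker : normOne L ⊓ φ.ker = V := by
    rw [QuotientAddGroup.ker_mk']
    exact inf_eq_right.2 (Λ.level_le_normOne 0)
  have hidx : V.relIndex (normOne L) ≠ 0 :=
    relIndex_normOne_ne_zero (show (0 : ℝ≥0) < ⟨Λ.δ, Λ.δ_pos.le⟩ from Λ.δ_pos) Λ.oneBall_le_level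
  have hfin : Finite ((normOne L).map φ) := by
    refine Nat.finite_of_card_ne_zero ?_
    rw [← AddSubgroup.relIndex_ker, QuotientAddGroup.ker_mk']
    exact hidx
  obtain ⟨e1, e2⟩ := hOrd_finite hO'.isHPair
  have m := hOrd_mult (B' := Additive Lˣ ⧸ V) φ (f' := endDiff s') (g' := endNorm Λ.d s') hO.isHPair hc.1 hc.2
  rw [hker, Λ.hOrd_level_fixed hσ, Λ.hOrd_level_kernel hσ, one_mul, one_mul, ← e1] at m
  refine ⟨(mul_left_cancel₀ e2 m).symm, hOrd_ne_zero (B' := Additive Lˣ ⧸ V) φ (f' := endDiff s') (g' := endNorm Λ.d s') hO.isHPair hc.1 hc.2 ?_ e2⟩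
  rw [hker, Λ.hOrd_level_fixed hσ]
  exact one_ne_zero

end FermatLib.CFT.Loc
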