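import Fermat.Agent.CFT.LocalGalois
import Fermat.Agent.CFT.LocalUnitsLevel
import Fermat.Agent.CFT.FirstStep
import Fermat.Agent.CFT.CohCyclic

/-!
Herbrand orders of the multiplicative group of a local field for a cyclic step.
-/

set_option autoImplicit false
set_option linter.unusedSectionVars false

namespace FermatLib.CFT

/-- `g` generates `H` modulo the normal subgroup `H'`, with order `d`. -/
structure Loc.CycGen {G : Type*} [Group G] (H' H : Subgroup G) (g : G) (d : ℕ) : Prop where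
  le : H' ≤ H
  gmem : g ∈ H
  conj_mem : ∀ h ∈ H', g * h * g⁻¹ ∈ H'
  conj_mem' : ∀ h ∈ H', g⁻¹ * h * g ∈ H'
  gen : IsCyclicGen (H'.subgroupOf H) (⟨g, gmem⟩ : H) d

namespace Loc

open Herbrand

section group

variable {G : Type*} [Group G] [Finite G] {H' H : Subgroup G} {g : G}

theorem exists_cycGen (hle : H' ≤ H) [hn : (H'.subgroupOf H).Normal] (hg : g ∈ H)
    (hgen : ∀ h ∈ H, ∃ i : ℕ, (g ^ i)⁻¹ * h ∈ H') : CycGen H' H g (H'.relIndex H) := by
  set π := QuotientGroup.mk' (H'.subgroupOf H)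
  have hgen' : IsCyclicGen (H'.subgroupOf H) (⟨g, hg⟩ : H) (orderOf (π ⟨g, hg⟩)) := by
    refine ⟨orderOf_pos _, fun i => ?_, fun x => ?_⟩
    · rw [orderOf_dvd_iff_pow_eq_one, ← map_pow]
      exact (QuotientGroup.eq_one_iff _).symm
    · obtain ⟨i, hi⟩ := hgen x x.2
      exact ⟨i, Subgroup.mem_subgroupOf.2 (by simpa using hi)⟩
  have hd : orderOf (π ⟨g, hg⟩) = H'.relIndex H := by
    have := Nat.card_eq_of_bijective _ hgen'.bijective
    rw [Nat.card_fin] at this
    exact this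
  refine ⟨hle, hg, fun h hh => ?_, fun h hh => ?_, hd ▸ hgen'⟩
  · exact Subgroup.mem_subgroupOf.1
      (hn.conj_mem ⟨h, hle hh⟩ (Subgroup.mem_subgroupOf.2 hh) ⟨g, hg⟩)
  · simpa using Subgroup.mem_subgroupOf.1
      (hn.conj_mem ⟨h, hle hh⟩ (Subgroup.mem_subgroupOf.2 hh) ⟨g, hg⟩⁻¹)

variable {d : ℕ} (hc : CycGen H' H g d)

include hc in
theorem CycGen.pow_mem_iff (i : ℕ) : g ^ i ∈ H' ↔ d ∣ i := by
  rw [← hc.gen.pow_mem_iff i]
  simp [Subgroup.mem_subgroupOf]

include hc in
theorem CycGen.exists_pow {h : G} (hh : h ∈ H) : ∃ i : ℕ, (g ^ i)⁻¹ * h ∈ H' := by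
  obtain ⟨i, hi⟩ := hc.gen.exists_pow ⟨h, hh⟩
  exact ⟨i, by simpa [Subgroup.mem_subgroupOf] using hi⟩

variable {A : Type*} [AddCommGroup A] [DistribMulAction G A]

include hc in
theorem CycGen.relNorm_eq {a : A} (ha : a ∈ fixedPts H' A) :
    relNorm A H' H a = endNorm d (smulEnd A g) a := by
  rw [relNorm_eq_sum (fun i : Fin d => (⟨g, hc.gmem⟩ : H) ^ (i : ℕ)) hc.gen.bijective ha,
    endNorm_apply, Finset.sum_range]
  exact Finset.sum_congr rfl fun i _ => by rw [smulEnd_pow_apply]; simp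

include hc in
theorem CycGen.relNormSet_eq :
    relNormSet A H' H = ((fixedPts H' A).map (endNorm d (smulEnd A g)) : Set A) := by
  ext b
  constructor
  · rintro ⟨a, ha, rfl⟩
    exact ⟨a, ha, (hc.relNorm_eq ha).symm⟩
  · rintro ⟨a, ha, rfl⟩
    exact ⟨a, ha, hc.relNorm_eq ha⟩

include hc in
theorem CycGen.fixedPts_inf_ker :
    fixedPts H' A ⊓ (endDiff (smulEnd A g)).ker = fixedPts H A := by
  ext a
  constructor
  · rintro ⟨ha, h0⟩
    have hg : g • a = a := sub_eq_zero.1 h0
    have hp : ∀ i : ℕ, g ^ i • a = a := fun i => by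
      induction i with
      | zero => rw [pow_zero, one_smul]
      | succ n ih => rw [pow_succ, mul_smul, hg, ih]
    rw [mem_fixedPts_iff_forall]
    intro h hh
    obtain ⟨i, hi⟩ := hc.exists_pow hh
    rw [show h = g ^ i * ((g ^ i)⁻¹ * h) by group, mul_smul,
      (mem_fixedPts_iff_forall A H' a).1 ha _ hi, hp]
  · intro ha
    rw [mem_fixedPts_iff_forall] at ha
    exact ⟨(mem_fixedPts_iff_forall A H' a).2 fun h hh => ha h (hc.le hh),
      sub_eq_zero.2 (ha g hc.gmem)⟩

include hc in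
theorem CycGen.isOrderP : IsOrderP d (smulEnd A g) (fixedPts H' A) where
  mem a ha := by
    rw [mem_fixedPts_iff_forall] at ha ⊢
    intro h hh
    rw [smulEnd_apply, ← mul_smul, show h * g = g * (g⁻¹ * h * g) by group, mul_smul,
      ha _ (hc.conj_mem' h hh)]
  pow_eq a ha := by
    rw [smulEnd_pow_apply]
    exact (mem_fixedPts_iff_forall A H' a).1 ha _ ((hc.pow_mem_iff d).2 dvd_rfl)

end group

variable {q : Nat.Primes} (K : LocalField q) [FiniteDimensional ℚ_[(q : ℕ)] K]
  {H' H : Subgroup ((↥K) ≃ₐ[ℚ_[(q : ℕ)]] (↥K))} {g : (↥K) ≃ₐ[ℚ_[(q : ℕ)]] (↥K)} {d : ℕ}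

theorem mem_fixedPts_locUnits {x : LocUnits K} :
    x ∈ fixedPts H (LocUnits K) ↔ ∀ h ∈ H, h x.el = x.el := by
  rw [mem_fixedPts_iff_forall]
  refine forall₂_congr fun h _ => ⟨fun e => ?_, fun e => LocUnits.ext' ((LocUnits.el_smul h x).trans e)⟩
  conv_rhs => rw [← e, LocUnits.el_smul]

theorem mem_fixedPts_iff_fixedField {x : LocUnits K} :
    x ∈ fixedPts H (LocUnits K) ↔ x.el ∈ IntermediateField.fixedField H := by
  rw [mem_fixedPts_locUnits, IntermediateField.mem_fixedField_iff]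

/-- The value group of the invariants. -/
theorem map_ord_fixedPts (H : Subgroup ((↥K) ≃ₐ[ℚ_[(q : ℕ)]] (↥K))) :
    (fixedPts H (LocUnits K)).map (ord K) =
      AddSubgroup.zmultiples (Nat.card ↥(inertia K ⊓ H) : ℤ) := by
  have he : ramIdx K / ramIdx (fixedLF K H) = Nat.card ↥(inertia K ⊓ H) := by
    rw [← card_inertia_inf K H, Nat.mul_div_cancel _ (ramIdx_pos _)]
  have key : ∀ y, ord K (LocUnits.incl (fixedLF_le K H) y) =
      (Nat.card ↥(inertia K ⊓ H) : ℤ) * ord (fixedLF K H) y := fun y => by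
    rw [ord_incl, he]
  ext n
  rw [AddSubgroup.mem_zmultiples_iff]
  constructor
  · rintro ⟨x, hx, rfl⟩
    let y : LocUnits (fixedLF K H) := LocUnits.mk0 ⟨(x.el : PadicAlgCl (q : ℕ)),
      (mem_fixedLF K H).2 ((mem_fixedPts_locUnits K).1 hx)⟩
      fun e => x.el_ne_zero (Subtype.ext (congrArg (fun z : fixedLF K H => (z : PadicAlgCl (q : ℕ))) e))
    have e : LocUnits.incl (fixedLF_le K H) y = x := LocUnits.ext' (Subtype.ext rfl)
    exact ⟨ord (fixedLF K H) y, by rw [← e, key, zsmul_eq_mul, mul_comm]; simp⟩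
  · rintro ⟨k, rfl⟩
    obtain ⟨y, hy⟩ := ord_surjective (fixedLF K H) k
    refine ⟨LocUnits.incl (fixedLF_le K H) y, (mem_fixedPts_locUnits K).2 ?_, ?_⟩
    · exact (mem_fixedLF K H).1 y.el.2
    · rw [key, hy, zsmul_eq_mul, mul_comm]; simp

variable (hc : CycGen H' H g d)

/-- Transporting Hilbert 90 and the unit Herbrand quotient along an equivariant injection. -/
theorem hOrd_transfer {𝕜 L A : Type*} [NontriviallyNormedField 𝕜] [CompleteSpace 𝕜] [NormedField L]
    [NormedAlgebra 𝕜 L] [IsUltrametricDist L] [ProperSpace L] [FiniteDimensional 𝕜 L]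
    [AddCommGroup A] (σ : L ≃ₐ[𝕜] L) (hσ : ∀ x, ‖σ x‖ = ‖x‖) (d : ℕ) (hd : orderOf σ = d)
    (ι : Additive Lˣ →+ A) (hι : Function.Injective ι) (t : AddMonoid.End A)
    (hcomm : ∀ x, ι (unitsEnd σ x) = t (ι x)) {X U : AddSubgroup A}
    (himg : (⊤ : AddSubgroup (Additive Lˣ)).map ι = X) (himgU : (normOne L).map ι = U) :
    hOrd (endNorm d t) (endDiff t) X = 1 ∧
      hOrd (endDiff t) (endNorm d t) U = hOrd (endNorm d t) (endDiff t) U ∧
      hOrd (endDiff t) (endNorm d t) U ≠ 0 := by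
  subst hd himg himgU
  have hO := isOrderP_top σ (d := orderOf σ) (pow_orderOf_eq_one σ)
  have hcd := comm_endDiff (p := orderOf σ) ι t hO.mem (fun x _ => hcomm x)
  have hOu : IsOrderP (orderOf σ) (unitsEnd σ) (normOne L) :=
    hO.mono le_top fun x hx => (hσ _).trans hx
  have hbot : ∀ Y : AddSubgroup (Additive Lˣ), Y ⊓ ι.ker = ⊥ := fun Y => by
    rw [(AddMonoidHom.ker_eq_bot_iff ι).2 hι, inf_bot_eq]
  obtain ⟨hU, hU0⟩ := hOrd_normOne hσ
  refine ⟨?_, ?_, ?_⟩
  · rw [hOrd_map_of_injOn ι hO.isHPair.symm hcd.2 hcd.1 (hbot _)]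
    exact hOrd_units_h90 σ
  · rw [hOrd_map_of_injOn ι hOu.isHPair (fun x _ => hcd.1 x trivial)
      (fun x _ => hcd.2 x trivial) (hbot _),
      hOrd_map_of_injOn ι hOu.isHPair.symm (fun x _ => hcd.2 x trivial)
      (fun x _ => hcd.1 x trivial) (hbot _)]
    exact hU
  · rw [hOrd_map_of_injOn ι hOu.isHPair (fun x _ => hcd.1 x trivial)
      (fun x _ => hcd.2 x trivial) (hbot _)]
    exact hU0

theorem apply_mem_fixedField {u : (↥K) ≃ₐ[ℚ_[(q : ℕ)]] (↥K)} (hu : ∀ h ∈ H', u⁻¹ * h * u ∈ H')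
    {x : K} (hx : x ∈ IntermediateField.fixedField H') :
    u x ∈ IntermediateField.fixedField H' := by
  rw [IntermediateField.mem_fixedField_iff] at hx ⊢
  intro h hh
  have := congrArg u (hx _ (hu h hh))
  rwa [← AlgEquiv.mul_apply, ← mul_assoc, ← mul_assoc, mul_inv_cancel, one_mul,
    AlgEquiv.mul_apply] at this

/-- The automorphism of the field fixed by `H'` induced by `g`. -/
theorem exists_restrict (hc : CycGen H' H g d) :
    ∃ σ : IntermediateField.fixedField H' ≃ₐ[ℚ_[(q : ℕ)]] IntermediateField.fixedField H',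
      (∀ x, ((σ x : IntermediateField.fixedField H') : K) = g (x : K)) ∧ orderOf σ = d := by
  let σ : IntermediateField.fixedField H' ≃ₐ[ℚ_[(q : ℕ)]] IntermediateField.fixedField H' :=
    { toFun := fun x => ⟨g (x : K), apply_mem_fixedField K hc.conj_mem' x.2⟩
      invFun := fun x => ⟨g.symm (x : K), apply_mem_fixedField K (u := g⁻¹)
        (fun h hh => by rw [inv_inv]; exact hc.conj_mem h hh) x.2⟩
      left_inv := fun x => Subtype.ext (g.symm_apply_apply (x : K))
      right_inv := fun x => Subtype.ext (g.apply_symm_apply (x : K))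
      map_mul' := fun x y => Subtype.ext (map_mul g (x : K) y)
      map_add' := fun x y => Subtype.ext (map_add g (x : K) y)
      commutes' := fun r => Subtype.ext (g.commutes r) }
  have hσi : ∀ (i : ℕ) x, (((σ ^ i) x : IntermediateField.fixedField H') : K) = (g ^ i) (x : K) :=
    fun i x => by
      induction i with
      | zero => rfl
      | succ n ih =>
        rw [pow_succ', pow_succ', AlgEquiv.mul_apply, AlgEquiv.mul_apply, ← ih]
        rfl
  refine ⟨σ, fun x => rfl, Nat.dvd_antisymm ?_ ?_⟩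
  · rw [orderOf_dvd_iff_pow_eq_one]
    refine AlgEquiv.ext fun x => Subtype.ext ?_
    rw [hσi]
    exact (IntermediateField.mem_fixedField_iff _ _).1 x.2 _ ((hc.pow_mem_iff d).2 dvd_rfl)
  · refine (hc.pow_mem_iff _).1 ((SetLike.ext_iff.1
      (IntermediateField.fixingSubgroup_fixedField H') _).1
      ((IntermediateField.mem_fixingSubgroup_iff _ _).2 fun x hx => ?_))
    have := hσi (orderOf σ) ⟨x, hx⟩
    rw [pow_orderOf_eq_one] at this
    exact this.symm

/-- Hilbert 90 and the Herbrand quotient of units, on the field fixed by `H'`. -/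
theorem hOrd_fixed_aux (hc : CycGen H' H g d) :
    hOrd (endNorm d (smulEnd (LocUnits K) g)) (endDiff (smulEnd (LocUnits K) g))
        (fixedPts H' (LocUnits K)) = 1 ∧
      hOrd (endDiff (smulEnd (LocUnits K) g)) (endNorm d (smulEnd (LocUnits K) g))
          (fixedPts H' (LocUnits K) ⊓ unitGroup K) =
        hOrd (endNorm d (smulEnd (LocUnits K) g)) (endDiff (smulEnd (LocUnits K) g))
          (fixedPts H' (LocUnits K) ⊓ unitGroup K) ∧
      hOrd (endDiff (smulEnd (LocUnits K) g)) (endNorm d (smulEnd (LocUnits K) g))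
          (fixedPts H' (LocUnits K) ⊓ unitGroup K) ≠ 0 := by
  obtain ⟨σ, hσg, hord⟩ := exists_restrict K hc
  have : ProperSpace (IntermediateField.fixedField H') :=
    FiniteDimensional.proper ℚ_[(q : ℕ)] (IntermediateField.fixedField H')
  let ι : Additive (IntermediateField.fixedField H')ˣ →+ LocUnits K :=
    MonoidHom.toAdditive (Units.map ((IntermediateField.fixedField H').val :
      IntermediateField.fixedField H' →* ↥K))
  have hιel : ∀ x, (ι x).el = ((unitVal x : IntermediateField.fixedField H') : ↥K) := fun _ => rfl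
  have himg : (⊤ : AddSubgroup (Additive (IntermediateField.fixedField H')ˣ)).map ι =
      fixedPts H' (LocUnits K) := by
    ext x
    rw [mem_fixedPts_iff_fixedField K, AddSubgroup.mem_map]
    constructor
    · rintro ⟨y, -, hy⟩
      rw [← hy, hιel]
      exact (unitVal y).2
    · intro hx
      refine ⟨Additive.ofMul (Units.mk0 ⟨x.el, hx⟩ fun e => x.el_ne_zero (congrArg Subtype.val e)),
        trivial, LocUnits.ext' ?_⟩
      rw [hιel]
      rfl
  refine hOrd_transfer σ (fun x => ?_) d hord ι ?_ (smulEnd (LocUnits K) g) (fun x => ?_) himg ?_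
  · show ‖((σ x : IntermediateField.fixedField H') : ↥K)‖ = ‖(x : ↥K)‖
    rw [hσg, norm_algEquiv]
  · intro x y e
    have e' := congrArg LocUnits.el e
    rw [hιel, hιel] at e'
    exact unitVal_injective (Subtype.ext e')
  · refine LocUnits.ext' ?_
    rw [smulEnd_apply, LocUnits.el_smul, hιel, hιel, unitVal_unitsEnd, hσg]
  · rw [← himg]
    ext x
    rw [AddSubgroup.mem_inf, AddSubgroup.mem_map, AddSubgroup.mem_map]
    constructor
    · rintro ⟨y, hy, hxy⟩
      refine ⟨⟨y, trivial, hxy⟩, (mem_unitGroup K).2 ?_⟩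
      rw [← hxy, hιel]
      exact hy
    · rintro ⟨⟨y, -, hxy⟩, hx1⟩
      refine ⟨y, ?_, hxy⟩
      rw [← hxy, mem_unitGroup, hιel] at hx1
      exact hx1

theorem relIndex_zmultiples_mul {k : ℕ} (hk : k ≠ 0) (n : ℕ) :
    (AddSubgroup.zmultiples ((n * k : ℕ) : ℤ)).relIndex (AddSubgroup.zmultiples (k : ℤ)) = n := by
  let μ : ℤ →+ ℤ := AddMonoidHom.mulRight (k : ℤ)
  have hμ : Function.Injective μ := fun a b h =>
    mul_right_cancel₀ (by exact_mod_cast hk) (h : a * (k : ℤ) = b * k)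
  have e : ∀ a : ℤ, (AddSubgroup.zmultiples a).map μ = AddSubgroup.zmultiples (a * k) :=
    fun a => AddMonoidHom.map_zmultiples μ a
  rw [Nat.cast_mul, ← one_mul (k : ℤ), ← e, ← mul_assoc, mul_one, ← e,
    AddSubgroup.relIndex_map_map_of_injective _ _ hμ, Int.zmultiples_one,
    AddSubgroup.relIndex_top_right, Int.index_zmultiples, Int.natAbs_natCast]

theorem ord_endNorm (x : LocUnits K) :
    ord K (endNorm d (smulEnd (LocUnits K) g) x) = d * ord K x := by
  rw [endNorm_apply, map_sum,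
    Finset.sum_congr rfl fun i _ => by rw [smulEnd_pow_apply, ord_smul], Finset.sum_const,
    Finset.card_range, nsmul_eq_mul]

include hc in
theorem map_ord_map_norm :
    ((fixedPts H' (LocUnits K)).map (endNorm d (smulEnd (LocUnits K) g))).map (ord K) =
      AddSubgroup.zmultiples ((d * Nat.card ↥(inertia K ⊓ H') : ℕ) : ℤ) := by
  rw [show ((d * Nat.card ↥(inertia K ⊓ H') : ℕ) : ℤ) =
    AddMonoidHom.mulLeft (d : ℤ) (Nat.card ↥(inertia K ⊓ H') : ℤ) by push_cast; rfl,
    ← AddMonoidHom.map_zmultiples, ← map_ord_fixedPts, AddSubgroup.map_map, AddSubgroup.map_map]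
  congr 1
  exact AddMonoidHom.ext fun x => ord_endNorm K x

include hc in
/-- The local norm index. -/
theorem hOrd_fixed_eq :
    hOrd (endDiff (smulEnd (LocUnits K) g)) (endNorm d (smulEnd (LocUnits K) g))
      (fixedPts H' (LocUnits K)) = d := by
  obtain ⟨h1, h2, h3⟩ := hOrd_fixed_aux K hc
  set D := endDiff (smulEnd (LocUnits K) g)
  set N := endNorm d (smulEnd (LocUnits K) g)
  set X := fixedPts H' (LocUnits K)
  set k := Nat.card ↥(inertia K ⊓ H')
  have hk : k ≠ 0 := Nat.card_pos.ne'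
  let Z : ℤ →+ ℤ := 0
  let T : ℤ →+ ℤ := nsmulAddMonoidHom d
  have hf : ∀ x ∈ X, ord K (D x) = Z (ord K x) := fun x _ => by
    simp only [D, endDiff_apply, map_sub, smulEnd_apply, ord_smul, sub_self]
    rfl
  have hg : ∀ x ∈ X, ord K (N x) = T (ord K x) := fun x _ => by
    rw [ord_endNorm]; simp [T]
  have m := hOrd_mult (ord K) hc.isOrderP.isHPair hf hg
  have hC : X.map (ord K) = AddSubgroup.zmultiples (k : ℤ) := map_ord_fixedPts K H'
  have hC1 : hOrd Z T (X.map (ord K)) = d := by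
    rw [hC, hOrd, show Z.ker = ⊤ from AddMonoidHom.ker_zero, inf_top_eq,
      AddMonoidHom.map_zmultiples,
      show T (k : ℤ) = ((d * k : ℕ) : ℤ) by simp [T], relIndex_zmultiples_mul hk]
  have hC2 : hOrd T Z (X.map (ord K)) = 1 := by
    rw [hOrd_eq_one_iff, hC]
    intro x _ hx
    refine ⟨0, zero_mem _, ?_⟩
    have hd := hc.gen.pos
    have : d • x = 0 := hx
    rw [smul_eq_zero] at this
    rw [map_zero]
    exact (this.resolve_left hd.ne').symm
  rw [show X ⊓ (ord K).ker = X ⊓ unitGroup K from rfl, hC1, hC2, ← h2, h1, mul_one, mul_one] at m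
  exact (mul_left_cancel₀ h3 m).symm

include hc in
/-- The part of the norm index supplied by units. -/
theorem norm_index_split :
    d = (AddSubgroup.zmultiples ((d * Nat.card ↥(inertia K ⊓ H') : ℕ) : ℤ)).relIndex
          (AddSubgroup.zmultiples (Nat.card ↥(inertia K ⊓ H) : ℤ)) *
      ((fixedPts H' (LocUnits K)).map (endNorm d (smulEnd (LocUnits K) g)) ⊓ unitGroup K).relIndex
        (fixedPts H (LocUnits K) ⊓ unitGroup K) := by
  have hle := (hc.isOrderP (A := LocUnits K)).isHPair.map_right_le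
  rw [hc.fixedPts_inf_ker] at hle
  have h := hOrd_fixed_eq K hc
  rw [hOrd, hc.fixedPts_inf_ker, relIndex_split (ord K) hle, map_ord_map_norm K hc,
    map_ord_fixedPts] at h
  exact h.symm

include hc in
theorem exists_unit_norm (hk : Nat.card ↥(inertia K ⊓ H) = Nat.card ↥(inertia K ⊓ H'))
    {b : LocUnits K} (hb : b ∈ fixedPts H (LocUnits K)) (hb1 : b ∈ unitGroup K) :
    ∃ a ∈ fixedPts H' (LocUnits K), a ∈ unitGroup K ∧ relNorm (LocUnits K) H' H a = b := by
  have h := norm_index_split K hc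
  rw [hk, relIndex_zmultiples_mul Nat.card_pos.ne'] at h
  have h1 := (mul_eq_left₀ hc.gen.pos.ne').1 h.symm
  obtain ⟨⟨a, ha, rfl⟩, -⟩ := AddSubgroup.relIndex_eq_one.1 h1 ⟨hb, hb1⟩
  refine ⟨a, ha, ?_, hc.relNorm_eq ha⟩
  have : (d : ℤ) * ord K a = 0 := (ord_endNorm K a).symm.trans hb1
  exact (mul_eq_zero.1 this).resolve_left (by exact_mod_cast hc.gen.pos.ne')

end Loc

end FermatLib.CFT
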