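import Fermat.Agent.CFT.LocalGalois
import Fermat.Agent.CFT.LocalUnitsHerbrand

/-!
Cohomology of the multiplicative group and of the units of a local field.
-/

set_option autoImplicit false
set_option linter.unusedSectionVars false

namespace FermatLib.CFT.Loc

open Herbrand

variable {q : Nat.Primes} (K : LocalField q) [FiniteDimensional ℚ_[(q : ℕ)] K]
  (H H' : Subgroup ((↥K) ≃ₐ[ℚ_[(q : ℕ)]] (↥K)))

/-- Hilbert 90. -/
theorem locUnits_h1Trivial : H1Trivial H (LocUnits K) := by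
  intro f hf
  rw [mem_Z1_iff] at hf
  have := Fintype.ofFinite H
  obtain ⟨t, ht⟩ : ∃ t : K, ∑ h : H, (f h).el * h.1 t ≠ 0 := by
    by_contra hall
    push Not at hall
    have hinj : Function.Injective fun h : H => ((h.1 : (↥K) ≃ₐ[ℚ_[(q : ℕ)]] (↥K)) : (↥K) →* (↥K)) :=
      fun a b e => Subtype.ext (AlgEquiv.ext fun z => DFunLike.congr_fun e z)
    have hli := (linearIndependent_monoidHom (↥K) (↥K)).comp _ hinj
    rw [Fintype.linearIndependent_iff] at hli
    exact (f 1).el_ne_zero (hli (fun h => (f h).el) (funext fun t => by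
      rw [Finset.sum_apply]
      simpa [smul_eq_mul] using hall t) 1)
  refine mem_B1_iff.2 ⟨-LocUnits.mk0 _ ht, fun g => LocUnits.ext' ?_⟩
  set b := ∑ h : H, (f h).el * h.1 t
  have hb : (f g).el * g.1 b = b := by
    rw [map_sum, Finset.mul_sum]
    refine Fintype.sum_equiv (Equiv.mulLeft g) _ _ fun h => ?_
    have e : (f (g * h)).el = g.1 (f h).el * (f g).el := by
      rw [hf g h]; rfl
    rw [Equiv.coe_mulLeft, e, map_mul, Subgroup.coe_mul, AlgEquiv.mul_apply]
    ring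
  have hb0 : g.1 b ≠ 0 := (map_ne_zero g.1).2 ht
  show (f g).el = (g.1 • -LocUnits.mk0 b ht - -LocUnits.mk0 b ht).el
  rw [sub_eq_add_neg, neg_neg, LocUnits.el_add, LocUnits.el_smul, LocUnits.el_neg,
    LocUnits.el_mk0, map_inv₀, mul_comm, ← div_eq_mul_inv, eq_div_iff hb0]
  exact hb

/-- The local cyclic step. -/
theorem locUnits_isCyclicStep {p : ℕ} [Fact p.Prime] (hle : H' ≤ H)
    [(H'.subgroupOf H).Normal] (hidx : H'.relIndex H = p) :
    IsCyclicStep (LocUnits K) p H' H := by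
  classical
  have step : ∀ g ∈ H, g ∉ H' → CycGen H' H g p := fun g hg hg' => hidx ▸ exists_cycGen hle hg
    fun h hh => by
      obtain ⟨i, -, h', hh', rfl⟩ := (exists_cyclicPair p hle hidx hg hg').exists_pow h hh
      exact ⟨i, by simpa using hh'⟩
  obtain ⟨g, hg, hg'⟩ : ∃ g ∈ H, g ∉ H' := SetLike.not_le_iff_exists.1 fun h =>
    (Fact.out : p.Prime).ne_one (hidx.symm.trans (Subgroup.relIndex_eq_one.2 h))
  have hc := step g hg hg'
  have hp := hOrd_fixed_eq K hc
  rw [hOrd, hc.fixedPts_inf_ker] at hp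
  set N := (fixedPts H' (LocUnits K)).map (endNorm p (smulEnd (LocUnits K) g))
  refine ⟨?_, fun s hs hsep => ?_, fun u hu hu' a ha h0 => ?_⟩
  · obtain ⟨b, hb, hb'⟩ := SetLike.not_le_iff_exists.1 fun h : fixedPts H (LocUnits K) ≤ N =>
      (Fact.out : p.Prime).ne_one (hp.symm.trans (AddSubgroup.relIndex_eq_one.2 h))
    refine ⟨b, hb, ?_⟩
    rw [hc.relNormSet_eq]
    exact hb'
  · let Q := fixedPts H (LocUnits K) ⧸ N.addSubgroupOf (fixedPts H (LocUnits K))
    have : Finite Q := Nat.finite_of_card_ne_zero (hp.trans_ne (Fact.out : p.Prime).ne_zero)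
    let r : {x // x ∈ s} → Q := fun x => QuotientAddGroup.mk ⟨x, hs x x.2⟩
    have hr : Function.Injective r := fun x y e => Subtype.ext <| (hsep y y.2 x x.2 (by
      rw [hc.relNormSet_eq, sub_eq_neg_add]
      exact AddSubgroup.mem_addSubgroupOf.1 (QuotientAddGroup.eq.1 e))).symm
    have := Nat.card_le_card_of_injective r hr
    rw [Nat.card_eq_fintype_card, Fintype.card_coe] at this
    exact this.trans hp.le
  · have hu2 := step u hu hu'
    exact hOrd_eq_one_iff.1 (hOrd_fixed_aux K hu2).1 a ha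
      (by rw [← hu2.relNorm_eq ha, h0])

/-- In an unramified step every unit is the norm of a unit. -/
theorem exists_unit_relNorm (hle : H' ≤ H) [(H'.subgroupOf H).Normal] (hI : inertia K ⊓ H ≤ H')
    {b : LocUnits K} (hb : b ∈ fixedPts H (LocUnits K)) (hb1 : b ∈ unitGroup K) :
    ∃ a ∈ fixedPts H' (LocUnits K), a ∈ unitGroup K ∧ relNorm (LocUnits K) H' H a = b := by
  obtain ⟨g, hg, -, hgen⟩ := exists_frobenius_generator K H
  have hc := exists_cycGen hle hg fun h hh => by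
    obtain ⟨j, hj⟩ := hgen h hh
    exact ⟨j, hI ⟨hj, H.mul_mem (H.inv_mem (H.pow_mem hg j)) hh⟩⟩
  refine exists_unit_norm K hc ?_ hb hb1
  rw [show inertia K ⊓ H' = inertia K ⊓ H from
    le_antisymm (inf_le_inf_left _ hle) (le_inf inf_le_left hI)]

theorem unitGroup_h1Trivial (hI : inertia K ⊓ H = ⊥) : H1Trivial H (unitGroup K) := by
  intro f hf
  obtain ⟨a, ha⟩ := mem_B1_iff.1 (locUnits_h1Trivial K H (fun h => (f h : LocUnits K))
    (mem_Z1_iff.2 fun x y => by rw [mem_Z1_iff.1 hf x y]; rfl))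
  obtain ⟨z, hz, hzo⟩ : ord K a ∈ (fixedPts H (LocUnits K)).map (ord K) := by
    rw [map_ord_fixedPts, hI, Subgroup.card_bot, Nat.cast_one, Int.zmultiples_one]
    trivial
  have hmem : a - z ∈ unitGroup K := by
    show ord K (a - z) = 0
    rw [map_sub, hzo, sub_self]
  refine mem_B1_iff.2 ⟨⟨a - z, hmem⟩, fun h => Subtype.ext ?_⟩
  show (f h : LocUnits K) = h • (a - z) - (a - z)
  rw [ha h, smul_sub, (mem_fixedPts.1 hz h)]
  abel

/-- A cyclic group has trivial second cohomology once every invariant is a norm. -/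
theorem h2Trivial_of_norm {G A : Type*} [Group G] [AddCommGroup A] [DistribMulAction G A] {g : G}
    {d : ℕ} (hg : IsCyclicGen (⊥ : Subgroup G) g d)
    (hnorm : ∀ a ∈ fixedPts G A, ∃ β : A, ∑ j ∈ Finset.range d, g ^ j • β = a) :
    H2Trivial G A := by
  intro f hf
  have h1 : H1Trivial (⊥ : Subgroup G) A := fun c hc' => mem_B1_iff.2 ⟨0, fun x => by
    obtain rfl : x = 1 := Subsingleton.elim _ _
    rw [Z1_map_one hc', smul_zero, sub_zero]⟩
  have hres : cochainMap2 (⊥ : Subgroup G).subtype (AddMonoidHom.id A) f ∈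
      B2 (⊥ : Subgroup G) A := mem_B2_iff.2 ⟨fun _ => f (1, 1), fun x y => by
    obtain rfl : x = 1 := Subsingleton.elim _ _
    obtain rfl : y = 1 := Subsingleton.elim _ _
    rw [one_smul, sub_add_cancel]
    rfl⟩
  obtain ⟨c, hci⟩ := exists_sub_d1_inflated h1 hf hres
  have hf' := sub_d1_mem_Z2 hf c
  obtain ⟨β, hβ⟩ := hnorm _ (cyclicClass_mem_fixedPts hg hf' hci)
  have hB := mem_B2_of_cyclic hg hf' hci (β := β)
    (fun n hn => by rw [Subgroup.mem_bot.1 hn, one_smul]) hβ.symm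
  simpa using (B2 G A).add_mem hB ⟨c, rfl⟩

theorem unitGroup_h2Trivial (hI : inertia K ⊓ H = ⊥) : H2Trivial H (unitGroup K) := by
  obtain ⟨g, hg, -, hgen⟩ := exists_frobenius_generator K H
  have hnb : ((⊥ : Subgroup ((↥K) ≃ₐ[ℚ_[(q : ℕ)]] (↥K))).subgroupOf H).Normal := by
    rw [Subgroup.bot_subgroupOf]; infer_instance
  have hc := exists_cycGen (H' := (⊥ : Subgroup ((↥K) ≃ₐ[ℚ_[(q : ℕ)]] (↥K)))) bot_le hg
    fun h hh => by
      obtain ⟨j, hj⟩ := hgen h hh
      exact ⟨j, hI ▸ ⟨hj, H.mul_mem (H.inv_mem (H.pow_mem hg j)) hh⟩⟩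
  set d := (⊥ : Subgroup ((↥K) ≃ₐ[ℚ_[(q : ℕ)]] (↥K))).relIndex H
  let g' : H := ⟨g, hg⟩
  have hgen' : IsCyclicGen (⊥ : Subgroup H) g' d := Subgroup.bot_subgroupOf H ▸ hc.gen
  refine h2Trivial_of_norm hgen' fun S hfixed => ?_
  have hS : (S : LocUnits K) ∈ fixedPts H (LocUnits K) :=
    (mem_fixedPts_iff_forall _ H _).2 fun h hh => congrArg Subtype.val (hfixed ⟨h, hh⟩)
  obtain ⟨a, ha, ha1, haN⟩ := exists_unit_norm K hc (by rw [hI, inf_bot_eq]) hS S.2
  refine ⟨⟨a, ha1⟩, Subtype.ext ?_⟩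
  rw [AddSubgroup.val_finsetSum]
  show _ = (S : LocUnits K)
  rw [← haN, hc.relNorm_eq ha, endNorm_apply]
  exact Finset.sum_congr rfl fun i _ => by rw [smulEnd_pow_apply]; rfl

end FermatLib.CFT.Loc
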