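import Fermat.Agent.CFT.CFAuxSetup
import Fermat.Agent.CFT.CFTransfer
import Fermat.Agent.CFT.CFGlobal
import Fermat.Agent.CFT.IdeleDecomp
import Fermat.Agent.CFT.LocalUnits

/-!
The decomposition group upstairs, its projection, and the inclusion of local modules.
-/

set_option autoImplicit false

open NumberField

namespace FermatLib.CFT

namespace Chi

variable {L : Type} [Field L] [NumberField L] [IsGalois ℚ L] {q : Nat.Primes}

theorem hasSteps_localPart {p : ℕ} [Fact p.Prime] (φ : Emb L q) :
    CFAbs.HasSteps p (decompGroup φ) (localPart φ) := by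
  refine CFAbs.hasSteps_of_normal fun K' K hle hn _ hidx => ?_
  refine RelNorm.isCyclicStep_of_equiv (decompEquiv φ) (localPartEquiv φ) (localPartEquiv_smul φ) ?_
  have : ((K'.map (decompEquiv φ).toMonoidHom).subgroupOf (K.map (decompEquiv φ).toMonoidHom)).Normal := by
    constructor
    rintro ⟨x, hx⟩ hx' ⟨y, hy⟩
    obtain ⟨a, ha, rfl⟩ := hx
    obtain ⟨b, hb, rfl⟩ := hy
    obtain ⟨a', ha', he⟩ := Subgroup.mem_subgroupOf.1 hx'
    have haK' : a ∈ K' := (decompEquiv φ).injective he ▸ ha'
    refine Subgroup.mem_subgroupOf.2 ⟨b * a * b⁻¹, ?_,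
      (by rw [map_mul, map_mul, map_inv]; rfl)⟩
    exact Subgroup.mem_subgroupOf.1 (hn.conj_mem ⟨a, ha⟩ (Subgroup.mem_subgroupOf.2 haK') ⟨b, hb⟩)
  exact Loc.locUnits_isCyclicStep (completion φ) _ _ (Subgroup.map_mono hle)
    ((Subgroup.relIndex_map_map_of_injective K' K (f := (decompEquiv φ).toMonoidHom)
      (decompEquiv φ).injective).trans hidx)

variable {Lt : Type} [Field Lt] [NumberField Lt] [IsGalois ℚ Lt] [Algebra L Lt]

/-- An embedding over a given one. -/
theorem exists_emb_over (φ : Emb L q) : ∃ φt : Emb Lt q, φt.comp (algebraMap L Lt) = φ := by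
  letI : Algebra L (PadicAlgCl (q : ℕ)) := φ.toAlgebra
  haveI : FiniteDimensional L Lt := FiniteDimensional.right ℚ L Lt
  exact ⟨(IsAlgClosed.lift : Lt →ₐ[L] PadicAlgCl (q : ℕ)).toRingHom,
    (IsAlgClosed.lift : Lt →ₐ[L] PadicAlgCl (q : ℕ)).comp_algebraMap⟩

variable (φ : Emb L q) (φt : Emb Lt q) (hover : φt.comp (algebraMap L Lt) = φ)

include hover in
theorem restrict_mem_decompGroup {g : Lt ≃ₐ[ℚ] Lt} (hg : g ∈ decompGroup φt) :
    AlgEquiv.restrictNormalHom L g ∈ decompGroup φ := by
  obtain ⟨τ, hτ⟩ := hg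
  refine ⟨τ, ?_⟩
  subst hover
  refine RingHom.ext fun x => (RingHom.congr_fun hτ (algebraMap L Lt x)).trans ?_
  exact congrArg φt (apply_algebraMap g x)

/-- Restriction of decomposition groups. -/
noncomputable def decompRes : decompGroup φt →* decompGroup φ :=
  ((AlgEquiv.restrictNormalHom L).comp (decompGroup φt).subtype).codRestrict _
    fun g => restrict_mem_decompGroup φ φt hover g.2

theorem decompRes_coe (g : decompGroup φt) :
    (decompRes φ φt hover g : L ≃ₐ[ℚ] L) = AlgEquiv.restrictNormalHom L (g : Lt ≃ₐ[ℚ] Lt) := rfl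

theorem decompRes_surjective : Function.Surjective (decompRes φ φt hover) := by
  rintro ⟨d, τ, hτ⟩
  obtain ⟨g, hg⟩ := Emb.exists_preComp_eq φt (φt.postComp τ)
  refine ⟨⟨g, τ, hg.symm⟩, Subtype.ext (AlgEquiv.ext fun x => φ.injective ?_)⟩
  subst hover
  change φt (algebraMap L Lt _) = φt (algebraMap L Lt (d x))
  rw [decompRes_coe, ← apply_algebraMap, show φt (g (algebraMap L Lt x)) = τ (φt (algebraMap L Lt x))
    from RingHom.congr_fun hg _]
  exact RingHom.congr_fun hτ x

/-- The inclusion of local modules. -/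
noncomputable def localInfl : localPart φ →+ localPart φt :=
  ((restrictPlace φt).comp (ideleBaseChange L Lt)).comp (localPart φ).subtype

include hover in
theorem localPartVal_localInfl (a : localPart φ) :
    localPartVal φt (localInfl φ φt a) = localPartVal φ a := by
  subst hover
  exact restrictPlace_apply φt _ (Emb.SamePlace.refl φt)

include hover in
theorem localInfl_injective : Function.Injective (localInfl φ φt) := fun a b h =>
  localPartVal_injective φ (by
    rw [← localPartVal_localInfl φ φt hover a, h, localPartVal_localInfl φ φt hover b])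

theorem localInfl_smul (g : decompGroup φt) (a : localPart φ) :
    localInfl φ φt (decompRes φ φt hover g • a) = g • localInfl φ φt a := by
  change restrictPlace φt (ideleBaseChange L Lt ((decompRes φ φt hover g : L ≃ₐ[ℚ] L) • (a : Idele L))) = _
  rw [ideleBaseChange_smul (g : Lt ≃ₐ[ℚ] Lt) (decompRes φ φt hover g : L ≃ₐ[ℚ] L)
    (fun x => apply_algebraMap _ x), restrictPlace_smul]
  rfl

include hover in
theorem mem_range_localInfl {a : localPart φt}
    (ha : ∀ g ∈ (decompRes φ φt hover).ker, g • a = a) : a ∈ (localInfl φ φt).range := by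
  obtain ⟨f, hf⟩ : localPartVal φt a ∈ (localPartVal φ).range := by
    rw [mem_range_localPartVal, mem_localField_iff]
    rintro τ ⟨h, hh, hτ⟩
    obtain rfl := Subgroup.mem_bot.1 hh
    obtain ⟨g, hg⟩ := Emb.exists_preComp_eq φt (φt.postComp τ)
    have hker : (⟨g, τ, hg.symm⟩ : decompGroup φt) ∈ (decompRes φ φt hover).ker := by
      refine Subtype.ext (AlgEquiv.ext fun x => φ.injective ?_)
      subst hover
      change φt (algebraMap L Lt _) = φt (algebraMap L Lt x)
      rw [decompRes_coe, ← apply_algebraMap,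
        show φt (g (algebraMap L Lt x)) = τ (φt (algebraMap L Lt x)) from RingHom.congr_fun hg _]
      exact RingHom.congr_fun hτ x
    rw [← QUnits.toField_onUnits]
    refine congrArg QUnits.toField ?_
    conv_rhs => rw [← ha _ hker]
    exact (localPartVal_smul φt ⟨g, τ, hg.symm⟩ hg.symm a).symm
  exact ⟨f, localPartVal_injective φt (by rw [localPartVal_localInfl φ φt hover, hf])⟩

end Chi

end FermatLib.CFT
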