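import Mathlib

/-!
The residue ring of the unit ball of `PadicAlgCl l` and elementary congruences.
-/

set_option autoImplicit false

open Polynomial

namespace FermatLib.CFT

namespace CFLocal

variable {l : ℕ} [Fact l.Prime]

theorem norm_gal (τ : PadicAlgCl l ≃ₐ[ℚ_[l]] PadicAlgCl l) (x : PadicAlgCl l) : ‖τ x‖ = ‖x‖ := by
  rw [← PadicAlgCl.spectralNorm_eq, ← PadicAlgCl.spectralNorm_eq]
  exact (spectralNorm_eq_of_equiv τ x).symm

variable (l)

/-- The unit ball. -/
noncomputable def ball : Subring (PadicAlgCl l) where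
  carrier := {x | ‖x‖ ≤ 1}
  mul_mem' {a b} ha hb := by
    show ‖a * b‖ ≤ 1
    rw [norm_mul]
    exact mul_le_one₀ ha (norm_nonneg _) hb
  one_mem' := le_of_eq norm_one
  add_mem' {a b} ha hb :=
    le_trans (IsUltrametricDist.norm_add_le_max a b) (max_le ha hb)
  zero_mem' := by show ‖(0 : PadicAlgCl l)‖ ≤ 1; simp
  neg_mem' {a} ha := by show ‖-a‖ ≤ 1; rwa [norm_neg]

/-- The ideal of topologically nilpotent elements of the ball. -/
noncomputable def ballIdeal : Ideal (ball l) where
  carrier := {x | ‖(x : PadicAlgCl l)‖ < 1}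
  add_mem' {a b} ha hb := lt_of_le_of_lt (IsUltrametricDist.norm_add_le_max _ _) (max_lt ha hb)
  zero_mem' := by simp
  smul_mem' c x hx := by
    show ‖((c : PadicAlgCl l) * x)‖ < 1
    rw [norm_mul]
    exact lt_of_le_of_lt (mul_le_of_le_one_left (norm_nonneg _) c.2) hx

instance ballIdeal_isPrime : (ballIdeal l).IsPrime where
  ne_top' := by
    rw [Ne, Ideal.eq_top_iff_one]
    intro h
    change ‖((1 : ball l) : PadicAlgCl l)‖ < 1 at h
    simp at h
  mem_or_mem' {a b} h := by
    change ‖((a : PadicAlgCl l) * b)‖ < 1 at h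
    show ‖(a : PadicAlgCl l)‖ < 1 ∨ ‖(b : PadicAlgCl l)‖ < 1
    by_contra hc
    push Not at hc
    rw [norm_mul, le_antisymm a.2 hc.1, le_antisymm b.2 hc.2, one_mul] at h
    exact lt_irrefl _ h

/-- The residue ring. -/
abbrev Res : Type := ball l ⧸ ballIdeal l

variable {l}

/-- Reduction. -/
noncomputable def red : ball l →+* Res l := Ideal.Quotient.mk _

theorem red_surjective : Function.Surjective (red (l := l)) := Ideal.Quotient.mk_surjective

theorem red_eq_red_iff {a b : ball l} :
    red a = red b ↔ ‖(a : PadicAlgCl l) - b‖ < 1 := by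
  rw [red, Ideal.Quotient.eq]
  rfl

theorem red_eq_zero_iff {a : ball l} : red a = 0 ↔ ‖(a : PadicAlgCl l)‖ < 1 := by
  rw [← map_zero (red (l := l)), red_eq_red_iff]
  simp

theorem norm_natCast_self : ‖(l : PadicAlgCl l)‖ = (l : ℝ)⁻¹ := by
  rw [← map_natCast (algebraMap ℚ_[l] (PadicAlgCl l)) l]
  exact (PadicAlgCl.norm_extends l (l : ℚ_[l])).trans Padic.norm_p

theorem norm_natCast_self_lt : ‖(l : PadicAlgCl l)‖ < 1 := by
  rw [norm_natCast_self]
  exact inv_lt_one_of_one_lt₀ (by exact_mod_cast (Fact.out : l.Prime).one_lt)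

instance res_charP : CharP (Res l) l := by
  have hzero : ((l : ℕ) : Res l) = 0 := by
    rw [← map_natCast (red (l := l)), red_eq_zero_iff]
    simpa using norm_natCast_self_lt (l := l)
  exact (CharP.charP_iff_prime_eq_zero Fact.out).mpr hzero

/-- Integers of the base have residues in the prime field. -/
theorem exists_zmod_eq_red {a : ball l} {x : ℚ_[l]} (h : algebraMap ℚ_[l] (PadicAlgCl l) x = a) :
    ∃ n : ZMod l, ZMod.castHom dvd_rfl (Res l) n = red a := by
  have hx : ‖x‖ ≤ 1 := by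
    rw [← PadicAlgCl.norm_extends]
    show ‖algebraMap ℚ_[l] (PadicAlgCl l) x‖ ≤ 1
    rw [h]
    exact a.2
  obtain ⟨k, hk⟩ : ∃ k : ℤ, ‖x - k‖ < 1 := by
    obtain ⟨k, -, hk⟩ := PadicInt.exists_mem_range (⟨x, hx⟩ : ℤ_[l])
    refine ⟨k, ?_⟩
    have := PadicInt.mem_nonunits.mp ((IsLocalRing.mem_maximalIdeal _).mp hk)
    simpa [PadicInt.norm_def] using this
  refine ⟨(k : ZMod l), ?_⟩
  rw [map_intCast, ← map_intCast (red (l := l)), red_eq_red_iff]
  have : ((k : ball l) : PadicAlgCl l) - a = algebraMap ℚ_[l] (PadicAlgCl l) (k - x) := by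
    rw [map_sub, map_intCast, h]
    simp
  rw [this]
  refine lt_of_eq_of_lt (PadicAlgCl.norm_extends l _) ?_
  rwa [norm_sub_rev]

/-- The roots of `X ^ l - X` in a domain of characteristic `l` form the prime field. -/
theorem exists_zmod_of_pow_eq' {R : Type*} [CommRing R] [IsDomain R] [CharP R l] {c : R}
    (hc : c ^ l = c) : ∃ n : ZMod l, ZMod.castHom dvd_rfl R n = c := by
  classical
  set f := ZMod.castHom (dvd_refl l) R
  have hl := (Fact.out : l.Prime).one_lt
  have hdeg : (X ^ l - X : R[X]).natDegree = l := by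
    rw [natDegree_sub_eq_left_of_natDegree_lt] <;> rw [natDegree_X_pow]
    rw [natDegree_X]
    exact hl
  have hne : (X ^ l - X : R[X]) ≠ 0 := fun h => by rw [h, natDegree_zero] at hdeg; omega
  by_contra hcon
  push Not at hcon
  have hsub : insert c (Finset.univ.image f) ⊆ (X ^ l - X : R[X]).roots.toFinset := by
    intro y hy
    rw [Multiset.mem_toFinset, mem_roots hne]
    simp only [Finset.mem_insert, Finset.mem_image, Finset.mem_univ, true_and] at hy
    rcases hy with rfl | ⟨n, rfl⟩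
    · simp [hc]
    · simp [← map_pow, ZMod.pow_card]
  have h1 := (Finset.card_le_card hsub).trans ((Multiset.toFinset_card_le _).trans (card_roots' _))
  rw [Finset.card_insert_of_notMem (by simpa using hcon),
    Finset.card_image_of_injective _ f.injective, Finset.card_univ, ZMod.card, hdeg] at h1
  omega

theorem exists_zmod_of_pow_eq {c : Res l} (hc : c ^ l = c) :
    ∃ n : ZMod l, ZMod.castHom dvd_rfl (Res l) n = c :=
  exists_zmod_of_pow_eq' hc

/-- A root of unity as an element of the ball. -/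
theorem norm_eq_one_of_pow_eq_one' {z : PadicAlgCl l} {r : ℕ} (hr : r ≠ 0) (h : z ^ r = 1) :
    ‖z‖ = 1 := by
  have := congrArg norm h
  rw [norm_pow, norm_one] at this
  exact (pow_eq_one_iff_of_nonneg (norm_nonneg _) hr).mp this

theorem norm_one_sub_eq_one {z : PadicAlgCl l} {r : ℕ} (hr : r.Prime) (hrl : r ≠ l)
    (hz : IsPrimitiveRoot z r) : ‖1 - z‖ = 1 := by
  classical
  have := Fact.mk hr
  have hprod := Polynomial.eval_one_cyclotomic_prime (R := PadicAlgCl l) (p := r)
  rw [Polynomial.cyclotomic_eq_prod_X_sub_primitiveRoots hz, Polynomial.eval_prod] at hprod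
  simp only [eval_sub, eval_X, eval_C] at hprod
  have hnorm : ∏ μ ∈ primitiveRoots r (PadicAlgCl l), ‖1 - μ‖ = 1 := by
    rw [← norm_prod, hprod, ← map_natCast (algebraMap ℚ_[l] (PadicAlgCl l)) r]
    refine (PadicAlgCl.norm_extends l _).trans ?_
    rw [Padic.norm_natCast_eq_one_iff]
    exact (Nat.coprime_primes Fact.out hr).mpr (Ne.symm hrl)
  have hle : ∀ μ ∈ primitiveRoots r (PadicAlgCl l), ‖1 - μ‖ ≤ 1 := by
    intro μ hμ
    have h1 := norm_eq_one_of_pow_eq_one' hr.ne_zero ((mem_primitiveRoots hr.pos).mp hμ).pow_eq_one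
    rw [sub_eq_add_neg]
    exact (IsUltrametricDist.norm_add_le_max _ _).trans (by simp [h1])
  refine le_antisymm (hle z ((mem_primitiveRoots hr.pos).mpr hz)) ?_
  rw [← hnorm, ← Finset.prod_erase_mul _ _ ((mem_primitiveRoots hr.pos).mpr hz)]
  exact mul_le_of_le_one_left (norm_nonneg _)
    (Finset.prod_le_one (fun _ _ => norm_nonneg _) fun μ hμ => hle μ (Finset.mem_erase.mp hμ).2)

end CFLocal

end FermatLib.CFT
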