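import Fermat.Agent.CFT.CFGlobal
import Fermat.Agent.CFT.CFLocalInj
import Fermat.Agent.CFT.CFInfInj

/-!
The main statements of the class formation.
-/

set_option autoImplicit false

open NumberField

namespace FermatLib.CFT

variable {p : ℕ} [Fact p.Prime] (L : Type) [Field L] [NumberField L] [IsGalois ℚ L]

/-- Idele classes form a class formation on `p`-parts. -/
theorem ideleClass_isPClassFormation :
    IsPClassFormation p (L ≃ₐ[ℚ] L) (IdeleClass L) :=
  Chi.ideleClass_formation L

/-- The local module at a place forms a class formation on `p`-parts. -/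
theorem localPart_isPClassFormation {q : Nat.Primes} (φ : Emb L q) :
    IsPClassFormation p (decompGroup φ) (localPart φ) :=
  Chi.localPart_formation φ

/-- Local classes inject in global classes. -/
theorem localPart_h2_injective {q : Nat.Primes} (φ : Emb L q) (H : Subgroup (L ≃ₐ[ℚ] L))
    (hHD : H ≤ decompGroup φ) (hH : IsPGroup p H) {f : H × H → Idele L}
    (hf : f ∈ Z2 H (Idele L)) (hval : ∀ t, f t ∈ localPart φ)
    (h : (fun t => (QuotientAddGroup.mk (f t) : IdeleClass L)) ∈ B2 H (IdeleClass L)) :
    ∃ b : H → Idele L, (∀ t, b t ∈ localPart φ) ∧ d1 H (Idele L) b = f :=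
  Chi.localPart_injective φ H hHD hH hf hval h

end FermatLib.CFT
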