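import Fermat.Agent.CFT.CohDevissage

/-!
Low-degree cohomology toolkit: main statements. Proofs in `Fermat/Agent/CFT/Coh*.lean`.
-/

set_option autoImplicit false

namespace FermatLib.CFT

variable {G : Type*} [Group G] {A : Type*} [AddCommGroup A] [DistribMulAction G A]
  {p : ℕ} [Fact p.Prime]

/-- Dévissage: cyclic steps of order `p` bound `H1` and `H2` of a `p`-group. -/
theorem devissage_h1 [Finite G] (H : Subgroup G) (hH : IsPGroup p H)
    (hstep : ∀ K' K : Subgroup G, K' ≤ K → K ≤ H → K'.relIndex K = p →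
      IsCyclicStep A p K' K) :
    H1Trivial H A :=
  devissage_h1_aux H hH hstep

/-- Dévissage bound: classes killed by restriction to `N ≤ H` form at most `[H : N]` classes. -/
theorem devissage_h2 [Finite G] (H N : Subgroup G) (hH : IsPGroup p H) (hN : N ≤ H)
    (hstep : ∀ K' K : Subgroup G, K' ≤ K → K ≤ H → K'.relIndex K = p →
      IsCyclicStep A p K' K)
    (s : Finset (H × H → A)) (hs : ∀ f ∈ s, f ∈ Z2 H A)
    (hres : ∀ f ∈ s, cochainMap2 (Subgroup.inclusion hN) (AddMonoidHom.id A) f ∈ B2 N A)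
    (hsep : ∀ f ∈ s, ∀ f' ∈ s, f - f' ∈ B2 H A → f = f') :
    s.card ≤ N.relIndex H :=
  devissage_h2_aux H N hH hN hstep s hs hres hsep

/-- `a ∪ δψ` is a cocycle for invariant `a`. -/
theorem cupChar_mem_Z2 {N : ℕ} [NeZero N] (ψ : G →* Multiplicative (ZMod N))
    {a : A} (ha : a ∈ fixedPts G A) : cupChar ψ a ∈ Z2 G A :=
  cupChar_mem_Z2_aux ψ ha

/-- `a ∪ δψ` vanishes exactly for norms from the kernel of `ψ`. -/
theorem cupChar_mem_B2_iff [Finite G] {N : ℕ} [NeZero N] (ψ : G →* Multiplicative (ZMod N))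
    (h1 : H1Trivial ψ.ker A) {a : A} (ha : a ∈ fixedPts G A) :
    cupChar ψ a ∈ B2 G A ↔ a ∈ relNormSet A ψ.ker ⊤ :=
  cupChar_mem_B2_iff_aux ψ h1 ha

/-- Inflation is injective on `H2` when `H1` of the kernel is trivial. -/
theorem inflation_injective {G₁ : Type*} [Group G₁] {B : Type*} [AddCommGroup B]
    [DistribMulAction G₁ B] (π : G →* G₁) (hπ : Function.Surjective π) (φ : B →+ A)
    (hφ : ∀ (g : G) (b : B), φ (π g • b) = g • φ b) (hinj : Function.Injective φ)
    (hrange : ∀ a : A, (∀ g ∈ π.ker, g • a = a) → a ∈ φ.range)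
    (h1 : H1Trivial π.ker A) {f : G₁ × G₁ → B} (hf : f ∈ Z2 G₁ B)
    (h : cochainMap2 π φ f ∈ B2 G A) : f ∈ B2 G₁ B :=
  inflation_injective_aux π hπ φ hφ hinj hrange h1 hf h

/-- Classes killed on the kernel are inflated. -/
theorem inflation_range {G₁ : Type*} [Group G₁] {B : Type*} [AddCommGroup B]
    [DistribMulAction G₁ B] (π : G →* G₁) (hπ : Function.Surjective π) (φ : B →+ A)
    (hφ : ∀ (g : G) (b : B), φ (π g • b) = g • φ b) (hinj : Function.Injective φ)
    (hrange : ∀ a : A, (∀ g ∈ π.ker, g • a = a) → a ∈ φ.range)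
    (h1 : H1Trivial π.ker A) {f : G × G → A} (hf : f ∈ Z2 G A)
    (h : cochainMap2 π.ker.subtype (AddMonoidHom.id A) f ∈ B2 π.ker A) :
    ∃ f' ∈ Z2 G₁ B, f - cochainMap2 π φ f' ∈ B2 G A :=
  inflation_range_aux π hπ φ hφ hinj hrange h1 hf h

/-- Restriction to a subgroup has kernel killed by the index, in degree one. -/
theorem index_smul_mem_B1 [Finite G] (H : Subgroup G) {f : G → A} (hf : f ∈ Z1 G A)
    (h : cochainMap1 H.subtype (AddMonoidHom.id A) f ∈ B1 H A) : H.index • f ∈ B1 G A :=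
  index_smul_mem_B1_aux H hf h

/-- Restriction to a subgroup has kernel killed by the index, in degree two. -/
theorem index_smul_mem_B2 [Finite G] (H : Subgroup G) {f : G × G → A} (hf : f ∈ Z2 G A)
    (h : cochainMap2 H.subtype (AddMonoidHom.id A) f ∈ B2 H A) : H.index • f ∈ B2 G A :=
  index_smul_mem_B2_aux H hf h

end FermatLib.CFT
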