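import Fermat.Agent.CFT.CohDefs

/-!
Cochain toolkit: pointwise forms of the cocycle conditions, functoriality, normalisation.
-/

set_option autoImplicit false

namespace FermatLib.CFT

section pointwise
variable {G : Type*} [Group G] {A : Type*} [AddCommGroup A] [DistribMulAction G A]

theorem d0_apply (a : A) (g : G) : d0 G A a g = g • a - a := rfl

theorem d1_apply (f : G → A) (x y : G) :
    d1 G A f (x, y) = x • f y - f (x * y) + f x := rfl

theorem d2_apply (f : G × G → A) (x y z : G) :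
    d2 G A f (x, y, z) = x • f (y, z) - f (x * y, z) + f (x, y * z) - f (x, y) := rfl

theorem mem_Z1_iff {f : G → A} : f ∈ Z1 G A ↔ ∀ x y, f (x * y) = x • f y + f x := by
  constructor
  · intro h x y
    have e := congrFun (AddMonoidHom.mem_ker.1 h) (x, y)
    rw [d1_apply, Pi.zero_apply, sub_add_eq_add_sub, sub_eq_zero] at e
    exact e.symm
  · intro h
    refine AddMonoidHom.mem_ker.2 (funext fun ⟨x, y⟩ => ?_)
    rw [d1_apply, Pi.zero_apply, h]
    abel

theorem mem_B1_iff {f : G → A} : f ∈ B1 G A ↔ ∃ a : A, ∀ g, f g = g • a - a :=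
  ⟨fun ⟨a, ha⟩ => ⟨a, fun g => (congrFun ha g).symm⟩,
    fun ⟨a, ha⟩ => ⟨a, funext fun g => (ha g).symm⟩⟩

theorem mem_Z2_iff {f : G × G → A} :
    f ∈ Z2 G A ↔ ∀ x y z, x • f (y, z) + f (x, y * z) = f (x * y, z) + f (x, y) := by
  constructor
  · intro h x y z
    have e := congrFun (AddMonoidHom.mem_ker.1 h) (x, y, z)
    rw [d2_apply, Pi.zero_apply, sub_add_eq_add_sub, sub_sub, sub_eq_zero] at e
    exact e
  · intro h
    refine AddMonoidHom.mem_ker.2 (funext fun ⟨x, y, z⟩ => ?_)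
    rw [d2_apply, Pi.zero_apply, sub_add_eq_add_sub, sub_sub, h x y z]
    abel

theorem mem_B2_iff {f : G × G → A} :
    f ∈ B2 G A ↔ ∃ b : G → A, ∀ x y, f (x, y) = x • b y - b (x * y) + b x :=
  ⟨fun ⟨b, hb⟩ => ⟨b, fun x y => (congrFun hb (x, y)).symm⟩,
    fun ⟨b, hb⟩ => ⟨b, funext fun ⟨x, y⟩ => (hb x y).symm⟩⟩

theorem d1_d0 (a : A) : d1 G A (d0 G A a) = 0 := by
  funext ⟨x, y⟩
  simp only [d1_apply, d0_apply, Pi.zero_apply, smul_sub, mul_smul]
  abel

theorem d2_d1 (b : G → A) : d2 G A (d1 G A b) = 0 := by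
  funext ⟨x, y, z⟩
  simp only [d2_apply, d1_apply, Pi.zero_apply, smul_sub, smul_add, mul_smul, mul_assoc]
  abel

theorem B1_le_Z1 : B1 G A ≤ Z1 G A := fun f ⟨a, ha⟩ => by
  rw [← ha]; exact AddMonoidHom.mem_ker.2 (d1_d0 a)

theorem B2_le_Z2 : B2 G A ≤ Z2 G A := fun f ⟨a, ha⟩ => by
  rw [← ha]; exact AddMonoidHom.mem_ker.2 (d2_d1 a)

theorem Z1_map_one {f : G → A} (hf : f ∈ Z1 G A) : f 1 = 0 := by
  simpa using (mem_Z1_iff.1 hf 1 1)

theorem Z2_map_one_left {f : G × G → A} (hf : f ∈ Z2 G A) (y : G) : f (1, y) = f (1, 1) := by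
  have h := mem_Z2_iff.1 hf 1 1 y
  simp only [one_mul, one_smul] at h
  exact add_left_cancel h

theorem Z2_map_one_right {f : G × G → A} (hf : f ∈ Z2 G A) (x : G) :
    f (x, 1) = x • f (1, 1) := by
  have h := mem_Z2_iff.1 hf x 1 1
  simp only [mul_one] at h
  exact (add_right_cancel h).symm

theorem sub_d1_mem_Z2 {f : G × G → A} (hf : f ∈ Z2 G A) (b : G → A) :
    f - d1 G A b ∈ Z2 G A :=
  sub_mem hf (B2_le_Z2 ⟨b, rfl⟩)

theorem sub_d0_mem_Z1 {f : G → A} (hf : f ∈ Z1 G A) (a : A) : f - d0 G A a ∈ Z1 G A :=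
  sub_mem hf (B1_le_Z1 ⟨a, rfl⟩)

/-- The zero set of a one-cocycle is a subgroup. -/
def Z1zeroSubgroup {f : G → A} (hf : f ∈ Z1 G A) : Subgroup G where
  carrier := {g | f g = 0}
  one_mem' := Z1_map_one hf
  mul_mem' := fun {a b} ha hb => by
    simp only [Set.mem_ofPred_eq] at *
    rw [mem_Z1_iff.1 hf, ha, hb, smul_zero, add_zero]
  inv_mem' := fun {a} ha => by
    simp only [Set.mem_ofPred_eq] at *
    have h := mem_Z1_iff.1 hf a⁻¹ a
    rw [inv_mul_cancel, Z1_map_one hf, ha, smul_zero, zero_add] at h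
    exact h.symm

theorem mem_fixedPts {a : A} : a ∈ fixedPts G A ↔ ∀ g : G, g • a = a := Iff.rfl

theorem mem_fixedPts_subgroup {H : Subgroup G} {a : A} :
    a ∈ fixedPts H A ↔ ∀ g ∈ H, g • a = a :=
  ⟨fun h g hg => h ⟨g, hg⟩, fun h g => h g g.2⟩

end pointwise

section functoriality
variable {G H K : Type*} [Group G] [Group H] [Group K] {A B C : Type*} [AddCommGroup A]
  [AddCommGroup B] [AddCommGroup C]

theorem cochainMap1_apply (f : H →* G) (φ : A →+ B) (x : G → A) (h : H) :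
    cochainMap1 f φ x h = φ (x (f h)) := rfl

theorem cochainMap2_apply (f : H →* G) (φ : A →+ B) (x : G × G → A) (h h' : H) :
    cochainMap2 f φ x (h, h') = φ (x (f h, f h')) := rfl

variable [DistribMulAction G A] [DistribMulAction H B]

theorem cochainMap1_d0 {f : H →* G} {φ : A →+ B} (hc : IsCompat f φ) (a : A) :
    cochainMap1 f φ (d0 G A a) = d0 H B (φ a) := by
  funext h
  rw [cochainMap1_apply, d0_apply, d0_apply, map_sub, hc]

theorem cochainMap2_d1 {f : H →* G} {φ : A →+ B} (hc : IsCompat f φ) (b : G → A) :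
    cochainMap2 f φ (d1 G A b) = d1 H B (cochainMap1 f φ b) := by
  funext ⟨x, y⟩
  simp only [cochainMap1_apply, cochainMap2_apply, d1_apply, map_sub, map_add, map_mul, hc x]

theorem cochainMap1_mem_Z1 {f : H →* G} {φ : A →+ B} (hc : IsCompat f φ) {x : G → A}
    (hx : x ∈ Z1 G A) : cochainMap1 f φ x ∈ Z1 H B :=
  mem_Z1_iff.2 fun a b => by
    simp only [cochainMap1_apply, map_mul, mem_Z1_iff.1 hx, map_add, hc a]

theorem cochainMap1_mem_B1 {f : H →* G} {φ : A →+ B} (hc : IsCompat f φ) {x : G → A}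
    (hx : x ∈ B1 G A) : cochainMap1 f φ x ∈ B1 H B := by
  obtain ⟨a, rfl⟩ := hx
  exact ⟨φ a, (cochainMap1_d0 hc a).symm⟩

theorem cochainMap2_mem_Z2 {f : H →* G} {φ : A →+ B} (hc : IsCompat f φ) {x : G × G → A}
    (hx : x ∈ Z2 G A) : cochainMap2 f φ x ∈ Z2 H B :=
  mem_Z2_iff.2 fun a b c => by
    have h := congrArg φ (mem_Z2_iff.1 hx (f a) (f b) (f c))
    simpa only [cochainMap2_apply, map_mul, map_add, hc a] using h

theorem cochainMap2_mem_B2 {f : H →* G} {φ : A →+ B} (hc : IsCompat f φ) {x : G × G → A}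
    (hx : x ∈ B2 G A) : cochainMap2 f φ x ∈ B2 H B := by
  obtain ⟨b, rfl⟩ := hx
  exact ⟨cochainMap1 f φ b, (cochainMap2_d1 hc b).symm⟩

theorem isCompat_subtype (S : Subgroup G) :
    IsCompat S.subtype (AddMonoidHom.id A) := fun _ _ => rfl

theorem isCompat_inclusion {S T : Subgroup G} (h : S ≤ T) :
    IsCompat (Subgroup.inclusion h) (AddMonoidHom.id A) := fun _ _ => rfl

end functoriality

end FermatLib.CFT
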