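import Fermat.Agent.CFT.CohBasic

/-!
Connecting maps for a short exact sequence, in degrees zero and one.
-/

set_option autoImplicit false

namespace FermatLib.CFT

variable {G : Type*} [Group G] {A B C : Type*} [AddCommGroup A] [AddCommGroup B] [AddCommGroup C]
  [DistribMulAction G A] [DistribMulAction G B] [DistribMulAction G C]

/-- A short exact sequence of `G`-modules. -/
structure IsSES (G : Type*) [Group G] {A B C : Type*} [AddCommGroup A] [AddCommGroup B]
    [AddCommGroup C] [DistribMulAction G A] [DistribMulAction G B] [DistribMulAction G C]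
    (ι : A →+ B) (π : B →+ C) : Prop where
  inj : Function.Injective ι
  surj : Function.Surjective π
  exact : ∀ b, π b = 0 ↔ ∃ a, ι a = b
  map_smul_left : ∀ (g : G) a, ι (g • a) = g • ι a
  map_smul_right : ∀ (g : G) b, π (g • b) = g • π b

namespace IsSES

variable {ι : A →+ B} {π : B →+ C} (h : IsSES G ι π)
include h

theorem comp_eq_zero (a : A) : π (ι a) = 0 := (h.exact _).2 ⟨a, rfl⟩

theorem d1_map_left (f : G → A) (t : G × G) :
    d1 G B (fun g => ι (f g)) t = ι (d1 G A f t) := by
  obtain ⟨x, y⟩ := t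
  rw [d1_apply, d1_apply, map_add, map_sub, h.map_smul_left]

theorem d1_map_right (f : G → B) (t : G × G) :
    d1 G C (fun g => π (f g)) t = π (d1 G B f t) := by
  obtain ⟨x, y⟩ := t
  rw [d1_apply, d1_apply, map_add, map_sub, h.map_smul_right]

theorem map_left_mem_Z2_iff {f : G × G → A} : (fun t => ι (f t)) ∈ Z2 G B ↔ f ∈ Z2 G A := by
  refine mem_Z2_iff.trans (Iff.trans ?_ mem_Z2_iff.symm)
  simp only [← h.map_smul_left, ← map_add, h.inj.eq_iff]

/-- The connecting map in degree one. -/
theorem exists_delta1 {z : G → C} (hz : z ∈ Z1 G C) :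
    ∃ (x : G → B) (a : G × G → A), (∀ g, π (x g) = z g) ∧ a ∈ Z2 G A ∧
      ∀ t, ι (a t) = d1 G B x t := by
  choose x hx using fun g => h.surj (z g)
  have hker : ∀ t, ∃ a, ι a = d1 G B x t := fun t => (h.exact _).1 (by
    rw [← h.d1_map_right, funext hx, show d1 G C z = 0 from hz, Pi.zero_apply])
  choose a ha using hker
  refine ⟨x, a, hx, h.map_left_mem_Z2_iff.1 ?_, ha⟩
  rw [funext ha]
  exact B2_le_Z2 ⟨x, rfl⟩

end IsSES

end FermatLib.CFT
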