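import Fermat.Agent.CFT.CohBasic

/-!
Cocycles killed on a subgroup: normalisation along cosets and the bound by the index.
-/

set_option autoImplicit false

namespace FermatLib.CFT

variable {G : Type*} [Group G] {A : Type*} [AddCommGroup A] [DistribMulAction G A]

theorem Z1_sub_d0_restrict {H : Subgroup G} {f : G → A}
    (h : cochainMap1 H.subtype (AddMonoidHom.id A) f ∈ B1 H A) :
    ∃ a : A, ∀ x ∈ H, (f - d0 G A a) x = 0 := by
  obtain ⟨a, ha⟩ := mem_B1_iff.1 h
  refine ⟨a, fun x hx => ?_⟩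
  have e : f x = x • a - a := ha ⟨x, hx⟩
  simp [d0_apply, e]

theorem Z1_apply_mul_of_right {f : G → A} (hf : f ∈ Z1 G A) {x : G} (hx : f x = 0) (g : G) :
    f (g * x) = f g := by
  rw [mem_Z1_iff.1 hf, hx, smul_zero, zero_add]

theorem Z2_apply_mul_of_right {f : G × G → A} (hf : f ∈ Z2 G A) {x : G}
    (hx : ∀ g, f (g, x) = 0) (g k : G) : f (g, k * x) = f (g, k) := by
  have h := mem_Z2_iff.1 hf g k x
  simpa [hx] using h

/-- A class killed on `H` has a representative vanishing when the second variable is in `H`. -/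
theorem exists_sub_d1_vanish_right {H : Subgroup G} {f : G × G → A} (hf : f ∈ Z2 G A)
    (h : cochainMap2 H.subtype (AddMonoidHom.id A) f ∈ B2 H A) :
    ∃ c : G → A, ∀ g, ∀ x ∈ H, (f - d1 G A c) (g, x) = 0 := by
  classical
  obtain ⟨b, hb⟩ := mem_B2_iff.1 h
  let b' : G → A := fun g => if hg : g ∈ H then b ⟨g, hg⟩ else 0
  let f' := f - d1 G A b'
  have hf' : f' ∈ Z2 G A := sub_d1_mem_Z2 hf b'
  have hvan : ∀ x ∈ H, ∀ y ∈ H, f' (x, y) = 0 := by
    intro x hx y hy
    have e : f (x, y) = x • b ⟨y, hy⟩ - b ⟨x * y, H.mul_mem hx hy⟩ + b ⟨x, hx⟩ :=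
      hb ⟨x, hx⟩ ⟨y, hy⟩
    simp only [f', Pi.sub_apply, d1_apply, b', dif_pos hx, dif_pos hy,
      dif_pos (H.mul_mem hx hy), e, sub_self]
  let r : G → G := fun k => (QuotientGroup.mk k : G ⧸ H).out
  let c : G → A := fun k => -f' (r k, (r k)⁻¹ * k)
  have hr : ∀ k, (r k)⁻¹ * k ∈ H := fun k =>
    QuotientGroup.eq.1 (QuotientGroup.out_eq' (QuotientGroup.mk k : G ⧸ H))
  have hrmul : ∀ k, ∀ x ∈ H, r (k * x) = r k := fun k x hx => by
    simp only [r, QuotientGroup.mk_mul_of_mem k hx]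
  have hc0 : ∀ x ∈ H, c x = 0 := by
    intro x hx
    have h1 : r x ∈ H := by
      have h2 := H.mul_mem hx (H.inv_mem (hr x))
      rwa [mul_inv_rev, inv_inv, mul_inv_cancel_left] at h2
    simp only [c, hvan _ h1 _ (hr x), neg_zero]
  refine ⟨b' + c, fun g x hx => ?_⟩
  have e : (f - d1 G A (b' + c)) (g, x) = f' (g, x) - d1 G A c (g, x) := by
    simp only [f', map_add, Pi.sub_apply, Pi.add_apply]; abel
  have hcz := mem_Z2_iff.1 hf' (r g) ((r g)⁻¹ * g) x
  rw [hvan _ (hr g) _ hx, smul_zero, zero_add, mul_inv_cancel_left] at hcz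
  have hgx : c (g * x) = -f' (r g, (r g)⁻¹ * g * x) := by
    simp only [c, hrmul g x hx, mul_assoc]
  rw [e, d1_apply, hc0 x hx, smul_zero, hgx, hcz]
  simp only [c]
  abel

/-- A one-cocycle killed on a subgroup of finite index is killed by the index. -/
theorem index_smul_mem_B1_aux [Finite G] (H : Subgroup G) {f : G → A} (hf : f ∈ Z1 G A)
    (h : cochainMap1 H.subtype (AddMonoidHom.id A) f ∈ B1 H A) : H.index • f ∈ B1 G A := by
  classical
  have := Fintype.ofFinite (G ⧸ H)
  obtain ⟨a, ha⟩ := Z1_sub_d0_restrict h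
  let f' := f - d0 G A a
  have hf' : f' ∈ Z1 G A := sub_d0_mem_Z1 hf a
  let F : G ⧸ H → A := Quotient.lift f' fun k k' hkk' => by
    have hm : k⁻¹ * k' ∈ H := QuotientGroup.leftRel_apply.1 hkk'
    simpa using (Z1_apply_mul_of_right hf' (ha _ hm) k).symm
  have hF : ∀ k, F (QuotientGroup.mk k) = f' k := fun k => rfl
  have hsum : ∀ g, g • (∑ q, F q) = (∑ q, F q) - H.index • f' g := by
    intro g
    have e : ∀ q : G ⧸ H, g • F q = F (g • q) - f' g := by
      intro q
      obtain ⟨k, rfl⟩ := QuotientGroup.mk_surjective q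
      rw [MulAction.Quotient.smul_mk, hF, hF]
      have := mem_Z1_iff.1 hf' g k
      simp only [smul_eq_mul, this, add_sub_cancel_right]
    rw [Finset.smul_sum, Finset.sum_congr rfl fun q _ => e q, Finset.sum_sub_distrib,
      Finset.sum_const, Finset.card_univ, Subgroup.index_eq_card, Nat.card_eq_fintype_card,
      ← Equiv.sum_comp (MulAction.toPerm g) F]
    rfl
  refine mem_B1_iff.2 ⟨H.index • a - ∑ q, F q, fun g => ?_⟩
  rw [Pi.smul_apply, smul_sub, hsum, smul_comm g H.index a]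
  simp only [f', Pi.sub_apply, d0_apply, smul_sub]
  abel

/-- A two-cocycle killed on a subgroup of finite index is killed by the index. -/
theorem index_smul_mem_B2_aux [Finite G] (H : Subgroup G) {f : G × G → A} (hf : f ∈ Z2 G A)
    (h : cochainMap2 H.subtype (AddMonoidHom.id A) f ∈ B2 H A) : H.index • f ∈ B2 G A := by
  classical
  have := Fintype.ofFinite (G ⧸ H)
  obtain ⟨c, hc⟩ := exists_sub_d1_vanish_right hf h
  let f' := f - d1 G A c
  have hf' : f' ∈ Z2 G A := sub_d1_mem_Z2 hf c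
  let F : G → G ⧸ H → A := fun g => Quotient.lift (fun k => f' (g, k)) fun k k' hkk' => by
    have hm : k⁻¹ * k' ∈ H := QuotientGroup.leftRel_apply.1 hkk'
    simpa using (Z2_apply_mul_of_right hf' (fun g => hc g _ hm) g k).symm
  have hF : ∀ g k, F g (QuotientGroup.mk k) = f' (g, k) := fun g k => rfl
  suffices hmem : H.index • f' ∈ B2 G A by
    have : H.index • f = H.index • f' + d1 G A (H.index • c) := by
      simp only [f', smul_sub, map_nsmul, sub_add_cancel]
    rw [this]
    exact add_mem hmem ⟨_, rfl⟩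
  refine mem_B2_iff.2 ⟨fun g => ∑ q, F g q, fun g k => ?_⟩
  have e : ∀ q : G ⧸ H, f' (g, k) = g • F k q - F (g * k) q + F g (k • q) := by
    intro q
    obtain ⟨l, rfl⟩ := QuotientGroup.mk_surjective q
    rw [MulAction.Quotient.smul_mk, hF, hF, hF]
    have h' := mem_Z2_iff.1 hf' g k l
    simp only [smul_eq_mul]
    rw [sub_add_eq_add_sub, h', add_sub_cancel_left]
  have hk : ∑ q, F g (k • q) = ∑ q, F g q := Equiv.sum_comp (MulAction.toPerm k) (F g)
  calc (H.index • f') (g, k) = ∑ _q : G ⧸ H, f' (g, k) := by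
        rw [Finset.sum_const, Finset.card_univ, Subgroup.index_eq_card,
          Nat.card_eq_fintype_card]; rfl
    _ = ∑ q, (g • F k q - F (g * k) q + F g (k • q)) := Finset.sum_congr rfl fun q _ => e q
    _ = g • (∑ q, F k q) - ∑ q, F (g * k) q + ∑ q, F g q := by
        rw [Finset.sum_add_distrib, Finset.sum_sub_distrib, ← Finset.smul_sum, hk]

end FermatLib.CFT
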