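import Fermat.Agent.CFT.CohBasic

/-!
Corestriction on cochains of degree at most two and the projection formula.
-/

set_option autoImplicit false

namespace FermatLib.CFT

section
variable {G : Type*} [Group G] (H : Subgroup G)

/-- The `H`-component: `g * c.out = (g • c).out * coresComp H g c`. -/
noncomputable def coresComp (g : G) (c : G ⧸ H) : H :=
  ⟨(g • c).out⁻¹ * (g * c.out), by
    apply QuotientGroup.eq.1
    rw [QuotientGroup.out_eq']
    exact congrArg (g • ·) (QuotientGroup.out_eq' c).symm⟩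

theorem out_mul_coresComp (g : G) (c : G ⧸ H) :
    (g • c).out * (coresComp H g c : G) = g * c.out := mul_inv_cancel_left _ _

theorem coresComp_mul (g g' : G) (c : G ⧸ H) :
    coresComp H (g * g') c = coresComp H g (g' • c) * coresComp H g' c := by
  apply Subtype.ext
  apply mul_left_cancel (a := ((g * g') • c).out)
  calc _ = g * g' * c.out := out_mul_coresComp H _ c
    _ = g * ((g' • c).out * (coresComp H g' c : G)) := by rw [out_mul_coresComp, mul_assoc]
    _ = _ := by rw [← mul_assoc, ← out_mul_coresComp H g (g' • c), mul_assoc, mul_smul]; rfl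

variable [Finite G] {A : Type*} [AddCommGroup A] [DistribMulAction G A]

/-- Corestriction of one-cochains. -/
noncomputable def cores1 : (H → A) →+ (G → A) where
  toFun x g := ∑ᶠ c : G ⧸ H, (g • c).out • x (coresComp H g c)
  map_zero' := by funext g; simp
  map_add' a b := by
    funext g
    simp only [Pi.add_apply, smul_add]
    exact finsum_add_distrib (Set.toFinite _) (Set.toFinite _)

/-- Corestriction of two-cochains. -/
noncomputable def cores2 : (H × H → A) →+ (G × G → A) where
  toFun f t := ∑ᶠ c : G ⧸ H,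
    ((t.1 * t.2) • c).out • f (coresComp H t.1 (t.2 • c), coresComp H t.2 c)
  map_zero' := by funext g; simp
  map_add' a b := by
    funext g
    simp only [Pi.add_apply, smul_add]
    exact finsum_add_distrib (Set.toFinite _) (Set.toFinite _)

theorem cores1_apply [Fintype (G ⧸ H)] (x : H → A) (g : G) :
    cores1 H x g = ∑ c : G ⧸ H, (g • c).out • x (coresComp H g c) :=
  finsum_eq_sum_of_fintype _

theorem cores2_apply [Fintype (G ⧸ H)] (f : H × H → A) (g g' : G) :
    cores2 H f (g, g') = ∑ c : G ⧸ H,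
      ((g * g') • c).out • f (coresComp H g (g' • c), coresComp H g' c) :=
  finsum_eq_sum_of_fintype _

theorem cores2_d1 (x : H → A) : cores2 H (d1 H A x) = d1 G A (cores1 H x) := by
  have := Fintype.ofFinite (G ⧸ H)
  funext ⟨g, g'⟩
  have hre : ∑ c : G ⧸ H, (g • (g' • c)).out • x (coresComp H g (g' • c)) =
      ∑ c : G ⧸ H, (g • c).out • x (coresComp H g c) :=
    Equiv.sum_comp (MulAction.toPerm g') fun c => (g • c).out • x (coresComp H g c)
  rw [d1_apply, cores1_apply, cores1_apply, cores1_apply, cores2_apply, ← hre, Finset.smul_sum,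
    ← Finset.sum_sub_distrib, ← Finset.sum_add_distrib]
  refine Finset.sum_congr rfl fun c _ => ?_
  rw [d1_apply, ← coresComp_mul, smul_add, smul_sub, Subgroup.smul_def, ← mul_smul, mul_smul g g' c,
    out_mul_coresComp, mul_smul g]

theorem cores2_mem_B2 {f : H × H → A} (hf : f ∈ B2 H A) : cores2 H f ∈ B2 G A := by
  obtain ⟨x, rfl⟩ := hf
  exact ⟨cores1 H x, (cores2_d1 H x).symm⟩

theorem cores2_mem_Z2 {f : H × H → A} (hf : f ∈ Z2 H A) : cores2 H f ∈ Z2 G A := by
  have := Fintype.ofFinite (G ⧸ H)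
  refine mem_Z2_iff.2 fun g g' g'' => ?_
  have hre : ∑ c : G ⧸ H, ((g * g') • (g'' • c)).out •
      f (coresComp H g (g' • (g'' • c)), coresComp H g' (g'' • c)) = cores2 H f (g, g') := by
    rw [cores2_apply]
    exact Equiv.sum_comp (MulAction.toPerm g'')
      fun c => ((g * g') • c).out • f (coresComp H g (g' • c), coresComp H g' c)
  rw [← hre, cores2_apply, cores2_apply, cores2_apply, Finset.smul_sum, ← Finset.sum_add_distrib,
    ← Finset.sum_add_distrib]
  refine Finset.sum_congr rfl fun c _ => ?_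
  simp only [← mul_smul, coresComp_mul, mul_assoc]
  have e : (g * (((g' * g'') • c).out)) =
      ((g * (g' * g'')) • c).out * (coresComp H g ((g' * g'') • c) : G) := by
    rw [mul_smul g, out_mul_coresComp]
  rw [e, mul_smul, ← smul_add, ← smul_add]
  congr 1
  exact mem_Z2_iff.1 hf _ _ _

variable {X : Type*} [AddCommGroup X] [DistribMulAction G X]

/-- The corestriction of an `H`-equivariant homomorphism. -/
noncomputable def cores0Hom (f : X →+ A) : X →+ A where
  toFun x := ∑ᶠ c : G ⧸ H, c.out • f (c.out⁻¹ • x)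
  map_zero' := by simp
  map_add' a b := by
    simp only [smul_add, map_add]
    exact finsum_add_distrib (Set.toFinite _) (Set.toFinite _)

theorem cores0Hom_apply [Fintype (G ⧸ H)] (f : X →+ A) (x : X) :
    cores0Hom H f x = ∑ c : G ⧸ H, c.out • f (c.out⁻¹ • x) :=
  finsum_eq_sum_of_fintype _

omit [Finite G] in
theorem smul_conj_eq_of_mk_eq {f : X →+ A} (hf : ∀ h ∈ H, ∀ x, f (h • x) = h • f x) {g g' : G}
    (hgg' : g⁻¹ * g' ∈ H) (x : X) : g' • f (g'⁻¹ • x) = g • f (g⁻¹ • x) := by
  obtain ⟨h, hh, rfl⟩ : ∃ h ∈ H, g' = g * h := ⟨_, hgg', (mul_inv_cancel_left _ _).symm⟩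
  rw [mul_inv_rev, mul_smul, mul_smul, hf _ (H.inv_mem hh), smul_inv_smul]

theorem cores0Hom_smul {f : X →+ A} (hf : ∀ h ∈ H, ∀ x, f (h • x) = h • f x) (g : G) (x : X) :
    cores0Hom H f (g • x) = g • cores0Hom H f x := by
  have := Fintype.ofFinite (G ⧸ H)
  rw [cores0Hom_apply, cores0Hom_apply, Finset.smul_sum]
  refine (Equiv.sum_comp (MulAction.toPerm g) _).symm.trans (Finset.sum_congr rfl fun c _ => ?_)
  show (g • c).out • f ((g • c).out⁻¹ • g • x) = g • c.out • f (c.out⁻¹ • x)
  have hh : (g * c.out)⁻¹ * (g • c).out ∈ H := by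
    have := H.inv_mem (coresComp H g c).2
    simpa [coresComp, mul_assoc] using this
  rw [smul_conj_eq_of_mk_eq H hf hh, mul_inv_rev, ← mul_smul _ g, inv_mul_cancel_right, mul_smul]

/-- Projection formula. -/
theorem cores2_comp_res {f : X →+ A} (hf : ∀ h ∈ H, ∀ x, f (h • x) = h • f x) {ξ : G × G → X}
    (hξ : ξ ∈ Z2 G X) :
    cores2 H (fun t : H × H => f (ξ ((t.1 : G), (t.2 : G)))) -
      (fun t => cores0Hom H f (ξ t)) ∈ B2 G A := by
  have := Fintype.ofFinite (G ⧸ H)
  let F : G ⧸ H → X →+ A := fun c =>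
    (DistribSMul.toAddMonoidHom A c.out).comp (f.comp (DistribSMul.toAddMonoidHom X c.out⁻¹))
  have hF : ∀ c x, F c x = c.out • f (c.out⁻¹ • x) := fun _ _ => rfl
  have hFeq : ∀ (g : G) c x, F (g • c) (g • x) = g • F c x := by
    intro g c x
    rw [hF, hF]
    have hh : (g * c.out)⁻¹ * (g • c).out ∈ H := by
      have := H.inv_mem (coresComp H g c).2
      simpa [coresComp, mul_assoc] using this
    rw [smul_conj_eq_of_mk_eq H hf hh, mul_inv_rev, ← mul_smul _ g, inv_mul_cancel_right,
      mul_smul]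
  let β : G → G ⧸ H → X := fun g c =>
    ξ ((g • c).out, (coresComp H g c : G)) - ξ (g, c.out)
  refine mem_B2_iff.2 ⟨fun g => ∑ c, F (g • c) (β g c), fun g g' => ?_⟩
  have hre : ∑ c, F (g • g' • c) (β g (g' • c)) = ∑ c, F (g • c) (β g c) :=
    Equiv.sum_comp (MulAction.toPerm g') fun c => F (g • c) (β g c)
  have hT : cores0Hom H f (ξ (g, g')) = ∑ c, F ((g * g') • c) (ξ (g, g')) := by
    rw [cores0Hom_apply]
    exact (Equiv.sum_comp (MulAction.toPerm (g * g')) fun c => F c (ξ (g, g'))).symm
  simp only [Pi.sub_apply]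
  rw [cores2_apply, hT, ← hre, Finset.smul_sum, ← Finset.sum_sub_distrib,
    ← Finset.sum_sub_distrib, ← Finset.sum_add_distrib]
  refine Finset.sum_congr rfl fun c _ => ?_
  rw [← hFeq, ← mul_smul g g' c, ← map_sub, ← map_add]
  have key : ((g * g') • c).out • f (ξ ((coresComp H g (g' • c) : G), (coresComp H g' c : G))) =
      F ((g * g') • c)
        (((g * g') • c).out • ξ ((coresComp H g (g' • c) : G), (coresComp H g' c : G))) := by
    rw [hF, inv_smul_smul]
  rw [key, ← map_sub]
  congr 1
  have c1 := mem_Z2_iff.1 hξ ((g * g') • c).out (coresComp H g (g' • c)) (coresComp H g' c)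
  have c2 := mem_Z2_iff.1 hξ g (g' • c).out (coresComp H g' c)
  have c3 := mem_Z2_iff.1 hξ g g' c.out
  rw [← Subgroup.coe_mul, ← coresComp_mul, mul_smul g, out_mul_coresComp, ← mul_smul] at c1
  rw [out_mul_coresComp] at c2
  rw [eq_sub_of_add_eq c1, ← sub_eq_of_eq_add c2, ← sub_eq_of_eq_add' c3]
  simp only [β, smul_sub, mul_smul g g' c]
  abel

/-- Corestriction after restriction is multiplication by the index. -/
theorem cores2_res {f : G × G → A} (hf : f ∈ Z2 G A) :
    cores2 H (fun t : H × H => f ((t.1 : G), (t.2 : G))) - H.index • f ∈ B2 G A := by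
  have := Fintype.ofFinite (G ⧸ H)
  have h := cores2_comp_res H (f := AddMonoidHom.id A) (fun _ _ _ => rfl) hf
  have e : (fun t => cores0Hom H (AddMonoidHom.id A) (f t)) = H.index • f := by
    funext t
    rw [cores0Hom_apply, Pi.smul_apply, Subgroup.index_eq_card, Nat.card_eq_fintype_card,
      ← Finset.card_univ, ← Finset.sum_const]
    exact Finset.sum_congr rfl fun c _ => smul_inv_smul _ _
  rw [e] at h
  exact h

end

end FermatLib.CFT
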