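import Fermat.Agent.CFT.CohCyclic

/-!
The carry cocycle `a ∪ δψ` of a character.
-/

set_option autoImplicit false

namespace FermatLib.CFT

variable {G : Type*} [Group G] {A : Type*} [AddCommGroup A] [DistribMulAction G A]
  {N : ℕ} [NeZero N] (ψ : G →* Multiplicative (ZMod N))

theorem cupChar_mem_Z2_aux {a : A} (ha : a ∈ fixedPts G A) : cupChar ψ a ∈ Z2 G A := by
  refine mem_Z2_iff.2 fun x y z => ?_
  simp only [cupChar, map_mul, toAdd_mul, ZMod.val_add, smul_comm x, ha x, ← add_smul]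
  congr 1
  have hN : 0 < N := NeZero.pos N
  generalize ((ψ x).toAdd).val = u
  generalize ((ψ y).toAdd).val = v
  generalize ((ψ z).toAdd).val = w
  have h1 : (u + (v + w) % N) / N + (v + w) / N = (u + v + w) / N := by
    rw [← Nat.add_mul_div_left _ _ hN, add_assoc, Nat.mod_add_div, add_assoc u]
  have h2 : ((u + v) % N + w) / N + (u + v) / N = (u + v + w) / N := by
    rw [← Nat.add_mul_div_left _ _ hN, add_right_comm, Nat.mod_add_div]
  omega

theorem isInflatedCochain_cupChar {a : A} (ha : a ∈ fixedPts G A) :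
    IsInflatedCochain ψ.ker (cupChar ψ a) := by
  have h0 : ∀ x ∈ ψ.ker, (ψ x).toAdd = 0 := fun x hx => by
    rw [MonoidHom.mem_ker.1 hx, toAdd_one]
  refine ⟨fun x hx g => ?_, fun g x hx => ?_, fun g k x hx => ?_, fun g k x hx => ?_,
    fun g k x hx => ?_⟩
  · simp [cupChar, h0 x hx, Nat.div_eq_of_lt (ZMod.val_lt _)]
  · simp [cupChar, h0 x hx, Nat.div_eq_of_lt (ZMod.val_lt _)]
  · simp [cupChar, map_mul, toAdd_mul, h0 x hx]
  · simp [cupChar, map_mul, toAdd_mul, h0 x hx]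
  · simp only [cupChar]
    rw [smul_comm x, ha x]

/-- The image of a character is generated by one element. -/
theorem exists_isCyclicGen_char (ψ : G →* Multiplicative (ZMod N)) :
    ∃ (g : G) (d m : ℕ), N = d * m ∧ ((ψ g).toAdd : ZMod N) = (m : ZMod N) ∧
      IsCyclicGen ψ.ker g d := by
  let S : AddSubgroup ℤ :=
    { carrier := {z | ∃ x : G, (ψ x).toAdd = (z : ZMod N)}
      zero_mem' := ⟨1, by simp⟩
      add_mem' := fun {a b} ⟨x, hx⟩ ⟨y, hy⟩ => ⟨x * y, by simp [map_mul, toAdd_mul, hx, hy]⟩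
      neg_mem' := fun {a} ⟨x, hx⟩ => ⟨x⁻¹, by simp [map_inv, toAdd_inv, hx]⟩ }
  obtain ⟨z, hz⟩ := Int.subgroup_cyclic S
  have hzS : (z.natAbs : ℤ) ∈ S := by
    have : z ∈ S := hz ▸ AddSubgroup.subset_closure rfl
    rcases Int.natAbs_eq z with h | h
    · rwa [← h]
    · rw [h] at this; simpa using neg_mem this
  have hdvd : ∀ w ∈ S, (z.natAbs : ℤ) ∣ w := fun w hw => by
    rw [hz, AddSubgroup.mem_closure_singleton] at hw
    obtain ⟨t, rfl⟩ := hw
    exact Int.natAbs_dvd.2 (Dvd.intro_left t (smul_eq_mul t z).symm)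
  have hNS : (N : ℤ) ∈ S := ⟨1, by simp⟩
  obtain ⟨g, hgψ⟩ := hzS
  obtain ⟨d, hd⟩ := Int.natCast_dvd_natCast.1 (hdvd _ hNS)
  have hN : 0 < N := NeZero.pos N
  have hm : 0 < z.natAbs := Nat.pos_of_ne_zero fun h => by rw [h, zero_mul] at hd; omega
  have hd0 : 0 < d := Nat.pos_of_ne_zero fun h => by rw [h, mul_zero] at hd; omega
  rw [Int.cast_natCast] at hgψ
  refine ⟨g, d, z.natAbs, by rw [hd, mul_comm], hgψ, hd0, fun i => ?_, fun x => ?_⟩
  · have h : z.natAbs * d ∣ i * z.natAbs ↔ d ∣ i := by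
      rw [mul_comm i]; exact Nat.mul_dvd_mul_iff_left hm
    rw [← h, ← hd, ← ZMod.natCast_eq_zero_iff, MonoidHom.mem_ker,
      ← toAdd_eq_zero, map_pow, toAdd_pow, hgψ, Nat.cast_mul, nsmul_eq_mul]
  · have : (((ψ x).toAdd).val : ℤ) ∈ S :=
      ⟨x, by rw [Int.cast_natCast, ZMod.natCast_zmod_val]⟩
    obtain ⟨t, ht⟩ := Int.natCast_dvd_natCast.1 (hdvd _ this)
    refine ⟨t, ?_⟩
    rw [MonoidHom.mem_ker, ← toAdd_eq_zero, map_mul, map_inv, map_pow, toAdd_mul, toAdd_inv,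
      toAdd_pow, hgψ, nsmul_eq_mul, ← Nat.cast_mul, mul_comm, ← ht, ZMod.natCast_zmod_val,
      neg_add_cancel]

/-- The obstruction element of `a ∪ δψ` is `a`. -/
theorem sum_cupChar {g : G} {d m : ℕ} (hN : N = d * m) (hd : 1 < d)
    (hg : ((ψ g).toAdd : ZMod N) = (m : ZMod N)) (a : A) :
    ∑ j ∈ Finset.range d, cupChar ψ a (g ^ j, g) = a := by
  have hNpos : 0 < N := NeZero.pos N
  have hm : 0 < m := Nat.pos_of_ne_zero fun h => by rw [h, mul_zero] at hN; omega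
  obtain ⟨d', rfl⟩ : ∃ d', d = d' + 1 := ⟨d - 1, by omega⟩
  have hgj : ∀ j ≤ d', ((ψ (g ^ j)).toAdd).val = j * m := fun j hj => by
    rw [map_pow, toAdd_pow, hg, nsmul_eq_mul, ← Nat.cast_mul, ZMod.val_natCast,
      Nat.mod_eq_of_lt]
    rw [hN]; exact Nat.mul_lt_mul_of_pos_right (by omega) hm
  have hmN : m < N := by
    rw [hN]; calc m = 1 * m := (one_mul m).symm
      _ < (d' + 1) * m := Nat.mul_lt_mul_of_pos_right (by omega) hm
  have hc : ∀ j ≤ d', cupChar ψ a (g ^ j, g) = if j = d' then a else 0 := by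
    intro j hj
    simp only [cupChar, hgj j hj, hg, ZMod.val_natCast]
    rw [Nat.mod_eq_of_lt hmN, show j * m + m = (j + 1) * m by ring, hN,
      Nat.mul_div_mul_right _ _ hm]
    split_ifs with h
    · rw [h, Nat.div_self (by omega), one_smul]
    · rw [Nat.div_eq_of_lt (by omega), zero_smul]
  rw [Finset.sum_congr rfl fun j hj => hc j (Nat.lt_succ_iff.1 (Finset.mem_range.1 hj)),
    Finset.sum_ite_eq' (Finset.range (d' + 1)) d' (fun _ => a)]
  simp

/-- Norms from the kernel of a cyclic generator as sums over powers. -/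
theorem relNorm_top_eq_sum {K : Subgroup G} {g : G} {d : ℕ} (hg : IsCyclicGen K g d) {β : A}
    (hβ : β ∈ fixedPts K A) : relNorm A K ⊤ β = ∑ j ∈ Finset.range d, g ^ j • β := by
  rw [relNorm_eq_sum (fun i : Fin d => (⟨g ^ (i : ℕ), Subgroup.mem_top _⟩ : (⊤ : Subgroup G)))
    ⟨fun i j h => hg.bijective.1 (QuotientGroup.eq.2 (QuotientGroup.eq.1 h :)), fun q => ?_⟩ hβ,
    ← Fin.sum_univ_eq_sum_range]
  obtain ⟨x, rfl⟩ := QuotientGroup.mk_surjective q
  obtain ⟨i, hi⟩ := hg.bijective.2 (QuotientGroup.mk (x : G))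
  exact ⟨i, QuotientGroup.eq.2 (QuotientGroup.eq.1 hi :)⟩

theorem cupChar_mem_B2_iff_aux (h1 : H1Trivial ψ.ker A) {a : A} (ha : a ∈ fixedPts G A) :
    cupChar ψ a ∈ B2 G A ↔ a ∈ relNormSet A ψ.ker ⊤ := by
  obtain ⟨g, d, m, hN, hg, hgen⟩ := exists_isCyclicGen_char ψ
  rcases Nat.lt_or_ge 1 d with hd | hd
  · constructor
    · intro h
      obtain ⟨β, hβ, hsum⟩ :=
        exists_sum_eq_of_mem_B2 h1 hgen (isInflatedCochain_cupChar ψ ha) h
      refine ⟨β, mem_fixedPts_subgroup.2 hβ, ?_⟩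
      rw [relNorm_top_eq_sum hgen (mem_fixedPts_subgroup.2 hβ), ← hsum, sum_cupChar ψ hN hd hg]
    · rintro ⟨β, hβ, rfl⟩
      refine mem_B2_of_cyclic hgen (cupChar_mem_Z2_aux ψ ha) (isInflatedCochain_cupChar ψ ha)
        (mem_fixedPts_subgroup.1 hβ) ?_
      rw [sum_cupChar ψ hN hd hg, relNorm_top_eq_sum hgen hβ]
  · obtain rfl : d = 1 := le_antisymm hd hgen.pos
    have hker : ∀ x : G, x ∈ ψ.ker := fun x => by
      obtain ⟨i, hi⟩ := hgen.exists_pow x
      have := ψ.ker.mul_mem ((hgen.pow_mem_iff i).2 (one_dvd i)) hi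
      rwa [mul_inv_cancel_left] at this
    refine iff_of_true ?_ ⟨a, mem_fixedPts_subgroup.2 fun x _ => ha x, ?_⟩
    · have : cupChar ψ a = 0 :=
        funext fun ⟨x, y⟩ => (isInflatedCochain_cupChar ψ ha).left_zero x (hker x) y
      rw [this]; exact zero_mem _
    · rw [relNorm_top_eq_sum hgen (mem_fixedPts_subgroup.2 fun x _ => ha x)]
      simp

end FermatLib.CFT
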