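import Fermat.Agent.CFT.CohBasic

/-!
Transport of cohomology along compatible isomorphisms.
-/

set_option autoImplicit false

namespace FermatLib.CFT

section equiv
variable {G H : Type*} [Group G] [Group H] {A B : Type*} [AddCommGroup A] [AddCommGroup B]
  [DistribMulAction G A] [DistribMulAction H B]

theorem IsCompat.symm {e : H ≃* G} {φ : A ≃+ B} (hc : IsCompat (e : H →* G) (φ : A →+ B)) :
    IsCompat (e.symm : G →* H) (φ.symm : B →+ A) := fun g b => by
  apply φ.injective
  have := hc (e.symm g) (φ.symm b)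
  simpa using this.symm

theorem cochainMap2_mem_B2_iff {e : H ≃* G} {φ : A ≃+ B}
    (hc : IsCompat (e : H →* G) (φ : A →+ B)) {x : G × G → A} :
    cochainMap2 (e : H →* G) (φ : A →+ B) x ∈ B2 H B ↔ x ∈ B2 G A := by
  refine ⟨fun h => ?_, cochainMap2_mem_B2 hc⟩
  have := cochainMap2_mem_B2 hc.symm h
  convert this using 1
  funext ⟨a, b⟩
  simp [cochainMap2_apply]

theorem H1Trivial.of_equiv {e : H ≃* G} {φ : A ≃+ B}
    (hc : IsCompat (e : H →* G) (φ : A →+ B)) (h : H1Trivial G A) : H1Trivial H B := by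
  intro f hf
  have := cochainMap1_mem_B1 hc (h _ (cochainMap1_mem_Z1 hc.symm hf))
  convert this using 1
  funext a
  simp [cochainMap1_apply]

theorem H2Trivial.of_equiv {e : H ≃* G} {φ : A ≃+ B}
    (hc : IsCompat (e : H →* G) (φ : A →+ B)) (h : H2Trivial G A) : H2Trivial H B := by
  intro f hf
  have := cochainMap2_mem_B2 hc (h _ (cochainMap2_mem_Z2 hc.symm hf))
  convert this using 1
  funext ⟨a, b⟩
  simp [cochainMap2_apply]

end equiv

section restrict
variable {G : Type*} [Group G] {A : Type*} [AddCommGroup A] [DistribMulAction G A]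
  {K H : Subgroup G}

theorem isCompat_subgroupOf (hle : K ≤ H) :
    IsCompat ((Subgroup.subgroupOfEquivOfLe hle : K.subgroupOf H ≃* K) : K.subgroupOf H →* K)
      ((AddEquiv.refl A : A ≃+ A) : A →+ A) := fun _ _ => rfl

theorem H1Trivial.subgroupOf (hle : K ≤ H) (h : H1Trivial K A) :
    H1Trivial (K.subgroupOf H) A :=
  h.of_equiv (isCompat_subgroupOf hle)

theorem H2Trivial.subgroupOf (hle : K ≤ H) (h : H2Trivial K A) :
    H2Trivial (K.subgroupOf H) A :=
  h.of_equiv (isCompat_subgroupOf hle)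

theorem cochainMap2_subgroupOf_mem_B2_iff (hle : K ≤ H) {f : H × H → A} :
    cochainMap2 (K.subgroupOf H).subtype (AddMonoidHom.id A) f ∈ B2 (K.subgroupOf H) A ↔
      cochainMap2 (Subgroup.inclusion hle) (AddMonoidHom.id A) f ∈ B2 K A :=
  cochainMap2_mem_B2_iff (x := cochainMap2 (Subgroup.inclusion hle) (AddMonoidHom.id A) f)
    (isCompat_subgroupOf hle)

theorem fixedPts_subgroupOf (hle : K ≤ H) : fixedPts (K.subgroupOf H) A = fixedPts K A := by
  ext a
  exact ⟨fun h => mem_fixedPts_subgroup.2 fun g hg => h ⟨⟨g, hle hg⟩, hg⟩,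
    fun h g => mem_fixedPts_subgroup.1 h _ g.2⟩

end restrict

end FermatLib.CFT
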