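import Fermat.Agent.CFT.CohCup
import Fermat.Agent.CFT.CohTransfer

/-!
Devissage: cyclic steps of order `p` control `H1` and `H2` of `p`-groups.
-/

set_option autoImplicit false

namespace FermatLib.CFT

section step
variable {G : Type*} [Group G] {A : Type*} [AddCommGroup A] [DistribMulAction G A]

theorem H1Trivial_of_cyclic_quotient {N : Subgroup G} [N.Normal] (h1 : H1Trivial N A) {g : G}
    {d : ℕ} (hg : IsCyclicGen N g d)
    (hnorm : ∀ a ∈ fixedPts N A, ∑ j ∈ Finset.range d, g ^ j • a = 0 →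
      ∃ b ∈ fixedPts N A, g • b - b = a) : H1Trivial G A := by
  intro f hf
  obtain ⟨c, hc⟩ := Z1_sub_d0_restrict (h1 _ (cochainMap1_mem_Z1 (isCompat_subtype N) hf))
  let f' := f - d0 G A c
  have hf' : f' ∈ Z1 G A := sub_d0_mem_Z1 hf c
  have hmul : ∀ x, ∀ n ∈ N, f' (x * n) = f' x := fun x n hn =>
    Z1_apply_mul_of_right hf' (hc n hn) x
  have hfix : ∀ x, f' x ∈ fixedPts N A := fun x => mem_fixedPts_subgroup.2 fun n hn => by
    have h := mem_Z1_iff.1 hf' n x
    have e : n * x = x * (x⁻¹ * n * x) := by group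
    rw [e, hmul x _ (Subgroup.Normal.conj_mem' ‹_› n hn x), show f' n = 0 from hc n hn,
      add_zero] at h
    exact h.symm
  have hsum : ∑ j ∈ Finset.range d, g ^ j • f' g = 0 := by
    have e : ∀ j, g ^ j • f' g = f' (g ^ (j + 1)) - f' (g ^ j) := fun j => by
      rw [pow_succ, mem_Z1_iff.1 hf', add_sub_cancel_right]
    rw [Finset.sum_congr rfl fun j _ => e j, sum_range_smul_telescope,
      show f' (g ^ d) = 0 from hc _ hg.pow_d_mem, Z1_map_one hf', sub_zero]
  obtain ⟨b, hb, hgb⟩ := hnorm _ (hfix g) hsum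
  have hf'' : f' - d0 G A b ∈ Z1 G A := sub_d0_mem_Z1 hf' b
  have hgZ : g ∈ Z1zeroSubgroup hf'' :=
    show (f' - d0 G A b) g = 0 by rw [Pi.sub_apply, d0_apply, hgb, sub_self]
  have hNZ : N ≤ Z1zeroSubgroup hf'' := fun n hn =>
    show (f' - d0 G A b) n = 0 by
      rw [Pi.sub_apply, d0_apply, mem_fixedPts_subgroup.1 hb n hn, sub_self, sub_zero]
      exact hc n hn
  refine mem_B1_iff.2 ⟨c + b, fun x => ?_⟩
  obtain ⟨i, hi⟩ := hg.exists_pow x
  have hx : x ∈ Z1zeroSubgroup hf'' := by
    have := (Z1zeroSubgroup hf'').mul_mem ((Z1zeroSubgroup hf'').pow_mem hgZ i) (hNZ hi)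
    rwa [mul_inv_cancel_left] at this
  have e : (f' - d0 G A b) x = 0 := hx
  simp only [f', Pi.sub_apply, d0_apply] at e
  rw [sub_sub, sub_eq_zero] at e
  rw [e, smul_add]
  abel

theorem card_le_of_cyclic_quotient {N : Subgroup G} [N.Normal] (h1 : H1Trivial N A) {g : G}
    {d : ℕ} (hg : IsCyclicGen N g d) {M : ℕ}
    (hindex : ∀ s : Finset A, (∀ b ∈ s, b ∈ fixedPts G A) →
      (∀ b ∈ s, ∀ c ∈ s,
        (∃ β ∈ fixedPts N A, b - c = ∑ j ∈ Finset.range d, g ^ j • β) → b = c) → s.card ≤ M)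
    (s : Finset (G × G → A)) (hs : ∀ f ∈ s, f ∈ Z2 G A)
    (hres : ∀ f ∈ s, cochainMap2 N.subtype (AddMonoidHom.id A) f ∈ B2 N A)
    (hsep : ∀ f ∈ s, ∀ f' ∈ s, f - f' ∈ B2 G A → f = f') : s.card ≤ M := by
  classical
  choose c hc using fun f : s => exists_sub_d1_inflated h1 (hs _ f.2) (hres _ f.2)
  let cls : s → A := fun f => ∑ j ∈ Finset.range d, ((f : G × G → A) - d1 G A (c f)) (g ^ j, g)
  have key : ∀ f f' : s, (∃ β ∈ fixedPts N A,
      cls f - cls f' = ∑ j ∈ Finset.range d, g ^ j • β) → f = f' := by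
    rintro f f' ⟨β, hβ, he⟩
    apply Subtype.ext
    apply hsep _ f.2 _ f'.2
    have hcoc := sub_mem (sub_d1_mem_Z2 (hs _ f.2) (c f)) (sub_d1_mem_Z2 (hs _ f'.2) (c f'))
    have hmem : ((f : G × G → A) - d1 G A (c f)) - ((f' : G × G → A) - d1 G A (c f')) ∈
        B2 G A := by
      refine mem_B2_of_cyclic hg hcoc ⟨fun x hx y => ?_, fun x y hy => ?_, fun x y n hn => ?_,
        fun x y n hn => ?_, fun x y n hn => ?_⟩ (mem_fixedPts_subgroup.1 hβ) ?_
      · rw [Pi.sub_apply, (hc f).left_zero x hx, (hc f').left_zero x hx, sub_zero]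
      · rw [Pi.sub_apply, (hc f).right_zero x y hy, (hc f').right_zero x y hy, sub_zero]
      · rw [Pi.sub_apply ((f : G × G → A) - _), Pi.sub_apply ((f : G × G → A) - _),
          (hc f).left_mul x y n hn, (hc f').left_mul x y n hn]
      · rw [Pi.sub_apply ((f : G × G → A) - _), Pi.sub_apply ((f : G × G → A) - _),
          (hc f).right_mul x y n hn, (hc f').right_mul x y n hn]
      · rw [Pi.sub_apply ((f : G × G → A) - _), smul_sub, (hc f).fixed x y n hn,
          (hc f').fixed x y n hn]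
      · rw [← he]; simp only [cls, Pi.sub_apply, Finset.sum_sub_distrib]
    have e : (f : G × G → A) - f' = ((f : G × G → A) - d1 G A (c f)) -
        ((f' : G × G → A) - d1 G A (c f')) + d1 G A (c f - c f') := by
      rw [map_sub]; abel
    rw [e]
    exact add_mem hmem ⟨_, rfl⟩
  have hinj : Function.Injective cls := fun f f' h =>
    key f f' ⟨0, zero_mem _, by simp [h]⟩
  have hle := hindex (Finset.univ.image cls) ?_ ?_
  · rwa [Finset.card_image_of_injective _ hinj, Finset.card_univ, Fintype.card_coe] at hle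
  · intro b hb
    obtain ⟨f, -, rfl⟩ := Finset.mem_image.1 hb
    exact cyclicClass_mem_fixedPts hg (sub_d1_mem_Z2 (hs _ f.2) (c f)) (hc f)
  · intro b hb b' hb' h
    obtain ⟨f, -, rfl⟩ := Finset.mem_image.1 hb
    obtain ⟨f', -, rfl⟩ := Finset.mem_image.1 hb'
    rw [key f f' h]

end step

variable {G : Type*} [Group G] [Finite G] {A : Type*} [AddCommGroup A] [DistribMulAction G A]
  {p : ℕ} [Fact p.Prime]

theorem exists_isCyclicGen_of_index_prime {P : Type*} [Group P] {N : Subgroup P} [N.Normal]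
    (hN : N.index = p) : ∃ g : P, g ∉ N ∧ IsCyclicGen N g p := by
  have hp : p.Prime := Fact.out
  have : Fact p.Prime := ‹_›
  have hcard : Nat.card (P ⧸ N) = p := hN
  obtain ⟨g, hg⟩ : ∃ g : P, g ∉ N := by
    by_contra h
    push Not at h
    have : N = ⊤ := eq_top_iff.2 fun x _ => h x
    rw [this, Subgroup.index_top] at hN
    exact hp.one_lt.ne hN
  have hg1 : (QuotientGroup.mk g : P ⧸ N) ≠ 1 := fun h => hg ((QuotientGroup.eq_one_iff g).1 h)
  have : Finite (P ⧸ N) := Nat.finite_of_card_ne_zero (hcard ▸ hp.pos.ne')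
  have hord : orderOf (QuotientGroup.mk g : P ⧸ N) = p := by
    have := orderOf_dvd_natCard (QuotientGroup.mk g : P ⧸ N)
    rw [hcard] at this
    rcases (Nat.dvd_prime hp).1 this with h | h
    · exact absurd (orderOf_eq_one_iff.1 h) hg1
    · exact h
  refine ⟨g, hg, hp.pos, fun i => ?_, fun x => ?_⟩
  · rw [← QuotientGroup.eq_one_iff, QuotientGroup.mk_pow, ← orderOf_dvd_iff_pow_eq_one, hord]
  · have hx : (QuotientGroup.mk x : P ⧸ N) ∈ Subgroup.zpowers (QuotientGroup.mk g : P ⧸ N) :=
      mem_zpowers_of_prime_card hcard hg1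
    obtain ⟨i, hi⟩ := (mem_powers_iff_mem_zpowers).2 hx
    exact ⟨i, QuotientGroup.eq.1 (by rw [QuotientGroup.mk_pow]; exact hi)⟩

theorem exists_normal_index_prime {H N : Subgroup G} (hH : IsPGroup p H) (hN : N ≤ H)
    (hne : N ≠ H) : ∃ K : Subgroup G, N ≤ K ∧ K ≤ H ∧ K.relIndex H = p ∧
      (K.subgroupOf H).Normal := by
  have hp : p.Prime := Fact.out
  obtain ⟨m, hm⟩ := IsPGroup.iff_card.1 hH
  obtain ⟨n, hn⟩ := IsPGroup.iff_card.1 (hH.to_subgroup (N.subgroupOf H))
  have hnm : n < m := by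
    by_contra h
    push Not at h
    have h1 : p ^ n ∣ p ^ m := hn ▸ hm ▸ Subgroup.card_subgroup_dvd_card _
    have h2 : Nat.card (N.subgroupOf H) = Nat.card H := by
      rw [hn, hm]
      exact le_antisymm (Nat.le_of_dvd (pow_pos hp.pos _) h1) (Nat.pow_le_pow_right hp.pos h)
    exact hne (le_antisymm hN (Subgroup.subgroupOf_eq_top.1 ((Subgroup.card_eq_iff_eq_top _).1 h2)))
  obtain ⟨K, hK, hNK⟩ := Sylow.exists_subgroup_card_pow_prime_le (G := H) p
    (n := n) (m := m - 1) (hm ▸ pow_dvd_pow p (Nat.sub_le m 1)) _ hn (by omega)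
  have hidx : K.index = p := by
    have := Subgroup.card_mul_index K
    conv_rhs at this => rw [hm, show m = m - 1 + 1 by omega, pow_succ]
    rw [hK] at this
    exact Nat.eq_of_mul_eq_mul_left (pow_pos hp.pos _) this
  refine ⟨K.map H.subtype, fun x hx => ?_, ?_, ?_, ?_⟩
  · exact ⟨⟨x, hN hx⟩, hNK hx, rfl⟩
  · exact Subgroup.map_subtype_le K
  · rw [Subgroup.relIndex, Subgroup.subgroupOf, Subgroup.comap_map_eq_self_of_injective
      H.subtype_injective, hidx]
  · rw [Subgroup.subgroupOf, Subgroup.comap_map_eq_self_of_injective H.subtype_injective]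
    refine Subgroup.normal_of_index_eq_minFac_card ?_
    rw [hidx, hm, Nat.Prime.pow_minFac hp (by omega)]

omit [Finite G] in
/-- The hypothesis of a cyclic step, inside the bigger group. -/
theorem isCyclicStep_data {K H : Subgroup G} (_hle : K ≤ H) (hidx : K.relIndex H = p)
    [(K.subgroupOf H).Normal] :
    ∃ g : H, (g : G) ∉ K ∧ IsCyclicGen (K.subgroupOf H) g p ∧
      ∀ a ∈ fixedPts K A, relNorm A K H a = ∑ j ∈ Finset.range p, g ^ j • a := by
  obtain ⟨g, hg, hgen⟩ := exists_isCyclicGen_of_index_prime (N := K.subgroupOf H) (p := p) hidx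
  refine ⟨g, hg, hgen, fun a ha => ?_⟩
  rw [relNorm_eq_sum (fun i : Fin p => g ^ (i : ℕ)) hgen.bijective ha,
    ← Fin.sum_univ_eq_sum_range (fun j => g ^ j • a)]
  rfl

theorem devissage_h1_aux (H : Subgroup G) (hH : IsPGroup p H)
    (hstep : ∀ K' K : Subgroup G, K' ≤ K → K ≤ H → K'.relIndex K = p →
      IsCyclicStep A p K' K) : H1Trivial H A := by
  induction hc : Nat.card H using Nat.strong_induction_on generalizing H with
  | _ c ih =>
    by_cases hbot : (⊥ : Subgroup G) = H
    · subst hbot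
      intro f hf
      refine mem_B1_iff.2 ⟨0, fun x => ?_⟩
      have hx : x = 1 := Subsingleton.elim _ _
      rw [hx, Z1_map_one hf]; simp
    obtain ⟨K, -, hKH, hidx, hnormal⟩ := exists_normal_index_prime hH bot_le hbot
    have hlt : Nat.card K < c := by
      have := Subgroup.card_mul_index (K.subgroupOf H)
      rw [Nat.card_congr (Subgroup.subgroupOfEquivOfLe hKH).toEquiv, hc] at this
      rw [← this]
      exact lt_mul_of_one_lt_right Nat.card_pos
        (lt_of_lt_of_eq (Fact.out : p.Prime).one_lt hidx.symm)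
    have h1K : H1Trivial K A := ih _ hlt K (hH.to_le hKH)
      (fun K'' K' h h' => hstep K'' K' h (h'.trans hKH)) rfl
    obtain ⟨g, hg, hgen, hnorm⟩ := isCyclicStep_data (A := A) hKH hidx
    refine H1Trivial_of_cyclic_quotient (h1K.subgroupOf hKH) hgen fun a ha hsum => ?_
    rw [fixedPts_subgroupOf hKH] at ha ⊢
    exact (hstep K H hKH le_rfl hidx).h1 g g.2 hg a ha (by rw [hnorm a ha, hsum])

theorem devissage_h2_aux (H N : Subgroup G) (hH : IsPGroup p H) (hN : N ≤ H)
    (hstep : ∀ K' K : Subgroup G, K' ≤ K → K ≤ H → K'.relIndex K = p →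
      IsCyclicStep A p K' K)
    (s : Finset (H × H → A)) (hs : ∀ f ∈ s, f ∈ Z2 H A)
    (hres : ∀ f ∈ s, cochainMap2 (Subgroup.inclusion hN) (AddMonoidHom.id A) f ∈ B2 N A)
    (hsep : ∀ f ∈ s, ∀ f' ∈ s, f - f' ∈ B2 H A → f = f') :
    s.card ≤ N.relIndex H := by
  classical
  induction hc : Nat.card H using Nat.strong_induction_on generalizing H with
  | _ c ih =>
    by_cases hNH : N = H
    · subst hNH
      rw [Subgroup.relIndex_self]
      refine Finset.card_le_one.2 fun f hf f' hf' => hsep f hf f' hf' ?_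
      exact sub_mem (hres f hf) (hres f' hf')
    obtain ⟨K, hNK, hKH, hidx, hnormal⟩ := exists_normal_index_prime hH hN hNH
    have hlt : Nat.card K < c := by
      have := Subgroup.card_mul_index (K.subgroupOf H)
      rw [Nat.card_congr (Subgroup.subgroupOfEquivOfLe hKH).toEquiv, hc] at this
      rw [← this]
      exact lt_mul_of_one_lt_right Nat.card_pos
        (lt_of_lt_of_eq (Fact.out : p.Prime).one_lt hidx.symm)
    have hstepK : ∀ K'' K' : Subgroup G, K'' ≤ K' → K' ≤ K → K''.relIndex K' = p →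
        IsCyclicStep A p K'' K' := fun K'' K' h h' => hstep K'' K' h (h'.trans hKH)
    have h1K : H1Trivial (K.subgroupOf H) A :=
      (devissage_h1_aux K (hH.to_le hKH) hstepK).subgroupOf hKH
    obtain ⟨g, hg, hgen, hnorm⟩ := isCyclicStep_data (A := A) hKH hidx
    let res : (H × H → A) →+ (K × K → A) :=
      cochainMap2 (Subgroup.inclusion hKH) (AddMonoidHom.id A)
    -- fibres of the restriction
    have hfibre : ∀ f₀ ∈ s, (s.filter fun f => res f - res f₀ ∈ B2 K A).card ≤ p := by
      intro f₀ hf₀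
      rw [← Finset.card_image_of_injective _ (sub_left_injective (b := f₀))]
      refine card_le_of_cyclic_quotient h1K hgen (fun t ht hsep' => ?_) _ ?_ ?_ ?_
      · refine (hstep K H hKH le_rfl hidx).norm_index_le t ht fun b hb b' hb' h => ?_
        refine hsep' b hb b' hb' ?_
        obtain ⟨β, hβ, he⟩ := h
        exact ⟨β, by rwa [fixedPts_subgroupOf hKH], by rw [← hnorm β hβ, he]⟩
      · simp only [Finset.mem_image, Finset.mem_filter]
        rintro _ ⟨f, ⟨hf, -⟩, rfl⟩
        exact sub_mem (hs f hf) (hs f₀ hf₀)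
      · simp only [Finset.mem_image, Finset.mem_filter]
        rintro _ ⟨f, ⟨hf, hf'⟩, rfl⟩
        rw [cochainMap2_subgroupOf_mem_B2_iff hKH, map_sub]
        exact hf'
      · simp only [Finset.mem_image, Finset.mem_filter]
        rintro _ ⟨f, ⟨hf, -⟩, rfl⟩ _ ⟨f', ⟨hf', -⟩, rfl⟩ h
        rw [sub_sub_sub_cancel_right] at h
        rw [hsep f hf f' hf' h]
    -- choose representatives of the restricted classes
    let π : (K × K → A) → (K × K → A) ⧸ B2 K A := QuotientAddGroup.mk
    let t : Finset ((K × K → A) ⧸ B2 K A) := s.image fun f => π (res f)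
    have hsel : ∀ x : t, ∃ f ∈ s, π (res f) = x.1 := fun x => Finset.mem_image.1 x.2
    choose sel hsel₁ hsel₂ using hsel
    let t' : Finset (K × K → A) := Finset.univ.image fun x => res (sel x)
    have ht' : t.card ≤ t'.card := by
      rw [Finset.card_image_of_injective _ fun x y h => Subtype.ext (by
        rw [← hsel₂ x, ← hsel₂ y]; exact congrArg π h), Finset.card_univ, Fintype.card_coe]
    have hbound : t'.card ≤ N.relIndex K := by
      refine ih _ hlt K (hH.to_le hKH) hNK hstepK t' ?_ ?_ ?_ rfl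
      · simp only [t', Finset.mem_image, Finset.mem_univ, true_and]
        rintro _ ⟨x, rfl⟩
        exact cochainMap2_mem_Z2 (isCompat_inclusion hKH) (hs _ (hsel₁ x))
      · simp only [t', Finset.mem_image, Finset.mem_univ, true_and]
        rintro _ ⟨x, rfl⟩
        exact hres _ (hsel₁ x)
      · simp only [t', Finset.mem_image, Finset.mem_univ, true_and]
        rintro _ ⟨x, rfl⟩ _ ⟨y, rfl⟩ h
        have : (x : (K × K → A) ⧸ B2 K A) = y := by
          rw [← hsel₂ x, ← hsel₂ y]
          exact (QuotientAddGroup.eq_iff_sub_mem).2 h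
        rw [Subtype.ext this]
    have hcard : s.card ≤ p * t.card := by
      refine Finset.card_le_mul_card_image s p fun x hx => ?_
      obtain ⟨f₀, hf₀, rfl⟩ := Finset.mem_image.1 hx
      refine le_trans (le_of_eq (congrArg Finset.card (Finset.filter_congr fun f _ => ?_)))
        (hfibre f₀ hf₀)
      exact QuotientAddGroup.eq_iff_sub_mem
    calc s.card ≤ p * N.relIndex K :=
          hcard.trans (Nat.mul_le_mul_left p (ht'.trans hbound))
      _ = N.relIndex H := by rw [← Subgroup.relIndex_mul_relIndex N K H hNK hKH, hidx, mul_comm]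

end FermatLib.CFT
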