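import Fermat.Agent.CFT.CohCor

/-!
Cocycles killed on a normal subgroup with trivial first cohomology are inflated.
-/

set_option autoImplicit false

namespace FermatLib.CFT

variable {G : Type*} [Group G] {A : Type*} [AddCommGroup A] [DistribMulAction G A]

/-- A 2-cochain factoring through `G ⧸ N` with values fixed by `N` and normalised along `N`. -/
structure IsInflatedCochain (N : Subgroup G) (f : G × G → A) : Prop where
  left_zero : ∀ x ∈ N, ∀ g, f (x, g) = 0
  right_zero : ∀ g, ∀ x ∈ N, f (g, x) = 0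
  left_mul : ∀ g k, ∀ x ∈ N, f (g * x, k) = f (g, k)
  right_mul : ∀ g k, ∀ x ∈ N, f (g, k * x) = f (g, k)
  fixed : ∀ g k, ∀ x ∈ N, x • f (g, k) = f (g, k)

theorem isInflatedCochain_of_vanish {N : Subgroup G} [N.Normal] {f : G × G → A} (hf : f ∈ Z2 G A)
    (hl : ∀ x ∈ N, ∀ g, f (x, g) = 0) (hr : ∀ g, ∀ x ∈ N, f (g, x) = 0) :
    IsInflatedCochain N f := by
  have hrm : ∀ g k, ∀ x ∈ N, f (g, k * x) = f (g, k) := fun g k x hx =>
    Z2_apply_mul_of_right hf (fun g => hr g x hx) g k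
  have hlm : ∀ g k, ∀ x ∈ N, f (g * x, k) = f (g, k) := by
    intro g k x hx
    have h := mem_Z2_iff.1 hf g x k
    rw [hl x hx k, smul_zero, zero_add, hr g x hx, add_zero] at h
    have e : x * k = k * (k⁻¹ * x * k) := by group
    rw [← h, e, hrm g k _ (Subgroup.Normal.conj_mem' ‹_› x hx k)]
  refine ⟨hl, hr, hlm, hrm, fun g k x hx => ?_⟩
  have h := mem_Z2_iff.1 hf x g k
  rw [hl x hx (g * k), hl x hx g, add_zero, add_zero] at h
  have e : x * g = g * (g⁻¹ * x * g) := by group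
  rw [h, e, hlm g k _ (Subgroup.Normal.conj_mem' ‹_› x hx g)]

/-- The inflation normal form. -/
theorem exists_sub_d1_inflated {N : Subgroup G} [N.Normal] (h1 : H1Trivial N A)
    {f : G × G → A} (hf : f ∈ Z2 G A)
    (h : cochainMap2 N.subtype (AddMonoidHom.id A) f ∈ B2 N A) :
    ∃ c : G → A, IsInflatedCochain N (f - d1 G A c) := by
  classical
  obtain ⟨c, hc⟩ := exists_sub_d1_vanish_right hf h
  let f2 := f - d1 G A c
  have hf2 : f2 ∈ Z2 G A := sub_d1_mem_Z2 hf c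
  replace hc : ∀ g, ∀ x ∈ N, f2 (g, x) = 0 := hc
  have hrm : ∀ g k, ∀ x ∈ N, f2 (g, k * x) = f2 (g, k) := fun g k x hx =>
    Z2_apply_mul_of_right hf2 (fun g => hc g x hx) g k
  have hu : ∀ k, ∃ a : A, ∀ x : N, f2 ((x : G), k) = (x : G) • a - a := by
    intro k
    refine mem_B1_iff.1 (h1 (fun x : N => f2 ((x : G), k)) (mem_Z1_iff.2 fun x y => ?_))
    have h' := mem_Z2_iff.1 hf2 (x : G) (y : G) k
    have e : (y : G) * k = k * (k⁻¹ * y * k) := by group
    rw [e, hrm _ k _ (Subgroup.Normal.conj_mem' ‹_› _ y.2 k), hc (x : G) y y.2, add_zero] at h'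
    exact h'.symm
  choose u hu' using hu
  let r : G → G := fun k => (QuotientGroup.mk k : G ⧸ N).out
  have hr : ∀ k, (r k)⁻¹ * k ∈ N := fun k =>
    QuotientGroup.eq.1 (QuotientGroup.out_eq' (QuotientGroup.mk k : G ⧸ N))
  let c' : G → A := fun k => if k ∈ N then 0 else u (r k)
  have hc'0 : ∀ x ∈ N, c' x = 0 := fun x hx => if_pos hx
  have hc'mul : ∀ g, ∀ x ∈ N, c' (g * x) = c' g := by
    intro g x hx
    simp only [c', r, N.mul_mem_cancel_right hx, QuotientGroup.mk_mul_of_mem g hx]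
  have hc'left : ∀ x ∈ N, ∀ g, c' (x * g) = c' g := by
    intro x hx g
    have e : x * g = g * (g⁻¹ * x * g) := by group
    rw [e, hc'mul g _ (Subgroup.Normal.conj_mem' ‹_› x hx g)]
  refine ⟨c + c', ?_⟩
  have e : f - d1 G A (c + c') = f2 - d1 G A c' := by simp [f2, map_add, sub_sub]
  rw [e]
  refine isInflatedCochain_of_vanish (sub_d1_mem_Z2 hf2 c') (fun x hx g => ?_) fun g x hx => ?_
  · rw [Pi.sub_apply, d1_apply, hc'left x hx g, hc'0 x hx, add_zero]
    by_cases hg : g ∈ N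
    · rw [hc x g hg, hc'0 g hg]; simp
    · have := hu' (r g) ⟨x, hx⟩
      have e2 : f2 (x, g) = f2 (x, r g) := by
        conv_lhs => rw [← mul_inv_cancel_left (r g) g]
        rw [hrm x (r g) _ (hr g)]
      rw [e2, this]
      simp only [c', if_neg hg]
      abel
  · have h2 : f2 (g, x) = 0 := hc g x hx
    rw [Pi.sub_apply, d1_apply, h2, hc'0 x hx, hc'mul g x hx, smul_zero]
    abel

variable {G₁ : Type*} [Group G₁] {B : Type*} [AddCommGroup B] [DistribMulAction G₁ B]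

theorem inflation_injective_aux (π : G →* G₁) (hπ : Function.Surjective π) (φ : B →+ A)
    (hφ : ∀ (g : G) (b : B), φ (π g • b) = g • φ b) (hinj : Function.Injective φ)
    (hrange : ∀ a : A, (∀ g ∈ π.ker, g • a = a) → a ∈ φ.range)
    (h1 : H1Trivial π.ker A) {f : G₁ × G₁ → B} (hf : f ∈ Z2 G₁ B)
    (h : cochainMap2 π φ f ∈ B2 G A) : f ∈ B2 G₁ B := by
  obtain ⟨a, ha⟩ := mem_B2_iff.1 h
  let e : B := f (1, 1)
  let a0 : G → A := fun g => a g - φ e
  have ha0 : ∀ x y, φ (f (π x, π y) - π x • e) = x • a0 y - a0 (x * y) + a0 x := by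
    intro x y
    rw [map_sub, ← cochainMap2_apply π φ f, ha x y, hφ]
    simp only [a0, smul_sub]
    abel
  have hz : ∀ x ∈ π.ker, ∀ y, x • a0 y - a0 (x * y) + a0 x = 0 := fun x hx y => by
    rw [← ha0, MonoidHom.mem_ker.1 hx, one_smul, Z2_map_one_left hf, sub_self, map_zero]
  have hz' : ∀ x, ∀ y ∈ π.ker, x • a0 y - a0 (x * y) + a0 x = 0 := fun x y hy => by
    rw [← ha0, MonoidHom.mem_ker.1 hy, Z2_map_one_right hf, sub_self, map_zero]
  obtain ⟨c, hc⟩ := mem_B1_iff.1 (h1 (fun x : π.ker => a0 x) (mem_Z1_iff.2 fun x y => by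
    have h' := hz x x.2 (y : G)
    rw [sub_add_eq_add_sub, sub_eq_zero] at h'
    exact h'.symm))
  let a1 : G → A := a0 - d0 G A c
  have hv : ∀ n ∈ π.ker, a1 n = 0 := fun n hn => by
    have := hc ⟨n, hn⟩
    simp only at this
    simp [a1, d0_apply, this]
  have hd : ∀ x y, x • a1 y - a1 (x * y) + a1 x = x • a0 y - a0 (x * y) + a0 x := fun x y => by
    simp only [a1, Pi.sub_apply, d0_apply, smul_sub, mul_smul]
    abel
  have hmul : ∀ g, ∀ n ∈ π.ker, a1 (g * n) = a1 g := by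
    intro g n hn
    have h' := (hd g n).trans (hz' g n hn)
    rw [hv n hn, smul_zero, zero_sub, neg_add_eq_zero] at h'
    exact h'
  have hfix : ∀ g, a1 g ∈ φ.range := by
    refine fun g => hrange _ fun n hn => ?_
    have h' := (hd n g).trans (hz n hn g)
    have e2 : n * g = g * (g⁻¹ * n * g) := by group
    rw [hv n hn, add_zero, sub_eq_zero, e2,
      hmul g _ (Subgroup.Normal.conj_mem' inferInstance n hn g)] at h'
    exact h'
  choose s hs using hπ
  choose b hb using fun x => (hfix (s x))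
  have hb' : ∀ g, φ (b (π g)) = a1 g := by
    intro g
    have hn : g⁻¹ * s (π g) ∈ π.ker := by simp [MonoidHom.mem_ker, hs]
    rw [hb, ← hmul g _ hn, mul_inv_cancel_left]
  have key : ∀ x y, f (x, y) - x • e = x • b y - b (x * y) + b x := by
    intro x y
    obtain ⟨x', rfl⟩ : ∃ g, π g = x := ⟨_, hs x⟩
    obtain ⟨y', rfl⟩ : ∃ g, π g = y := ⟨_, hs y⟩
    apply hinj
    rw [ha0, ← hd, map_add, map_sub (φ) (π x' • b (π y')), hφ, ← map_mul, hb', hb', hb']
  refine mem_B2_iff.2 ⟨fun x => b x + e, fun x y => ?_⟩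
  rw [sub_eq_iff_eq_add.1 (key x y)]
  simp only [smul_add]
  abel

theorem inflation_range_aux (π : G →* G₁) (hπ : Function.Surjective π) (φ : B →+ A)
    (hφ : ∀ (g : G) (b : B), φ (π g • b) = g • φ b) (hinj : Function.Injective φ)
    (hrange : ∀ a : A, (∀ g ∈ π.ker, g • a = a) → a ∈ φ.range)
    (h1 : H1Trivial π.ker A) {f : G × G → A} (hf : f ∈ Z2 G A)
    (h : cochainMap2 π.ker.subtype (AddMonoidHom.id A) f ∈ B2 π.ker A) :
    ∃ f' ∈ Z2 G₁ B, f - cochainMap2 π φ f' ∈ B2 G A := by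
  obtain ⟨c, hc⟩ := exists_sub_d1_inflated h1 hf h
  let f3 := f - d1 G A c
  have hf3 : f3 ∈ Z2 G A := sub_d1_mem_Z2 hf c
  choose s hs using hπ
  choose f' hf' using fun t : G₁ × G₁ => hrange (f3 (s t.1, s t.2))
    fun n hn => hc.fixed (s t.1) (s t.2) n hn
  have key : ∀ x y, φ (f' (π x, π y)) = f3 (x, y) := by
    intro x y
    have hn : ∀ g : G, g⁻¹ * s (π g) ∈ π.ker := fun g => by simp [MonoidHom.mem_ker, hs]
    rw [hf']
    conv_lhs => rw [← mul_inv_cancel_left x (s (π x)), ← mul_inv_cancel_left y (s (π y))]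
    exact (hc.left_mul _ _ _ (hn x)).trans (hc.right_mul _ _ _ (hn y))
  refine ⟨f', mem_Z2_iff.2 fun x y z => ?_, c, ?_⟩
  · obtain ⟨x, rfl⟩ : ∃ g, π g = x := ⟨_, hs x⟩
    obtain ⟨y, rfl⟩ : ∃ g, π g = y := ⟨_, hs y⟩
    obtain ⟨z, rfl⟩ : ∃ g, π g = z := ⟨_, hs z⟩
    apply hinj
    rw [map_add, map_add, hφ, ← map_mul, ← map_mul, key, key, key, key]
    exact mem_Z2_iff.1 hf3 x y z
  · have : cochainMap2 π φ f' = f3 := funext fun ⟨x, y⟩ => key x y
    rw [this, sub_sub_cancel]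

end FermatLib.CFT
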