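import Fermat.Agent.CFT.CohDefs
import Mathlib

/-!
Ideles of a number field described by their values on all embeddings into the `PadicAlgCl q`
and into `ℂ`, and the idele class group.
-/

set_option autoImplicit false

open NumberField

namespace FermatLib.CFT

instance factPrimeNatPrimes (q : Nat.Primes) : Fact (q : ℕ).Prime := ⟨q.2⟩

/-- The absolute Galois group of `ℚ_q`. -/
abbrev Gloc (q : Nat.Primes) : Type := PadicAlgCl (q : ℕ) ≃ₐ[ℚ_[(q : ℕ)]] PadicAlgCl (q : ℕ)

/-- The units of `PadicAlgCl q`, written additively. -/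
abbrev QUnits (q : Nat.Primes) : Type := Additive (PadicAlgCl (q : ℕ))ˣ

/-- `τ` applied to an element of `QUnits`. -/
noncomputable def Gloc.onUnits {q : Nat.Primes} (τ : Gloc q) : QUnits q →+ QUnits q :=
  MonoidHom.toAdditive (Units.map (τ : PadicAlgCl (q : ℕ) →* PadicAlgCl (q : ℕ)))

variable (L : Type) [Field L] [NumberField L]

/-- All embeddings of `L` into `PadicAlgCl q`. -/
abbrev Emb (q : Nat.Primes) : Type := L →+* PadicAlgCl (q : ℕ)

variable {L}

/-- An embedding followed by a local automorphism. -/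
noncomputable def Emb.postComp {q : Nat.Primes} (τ : Gloc q) (φ : Emb L q) : Emb L q :=
  (τ : PadicAlgCl (q : ℕ) →+* PadicAlgCl (q : ℕ)).comp φ

/-- An automorphism followed by an embedding. -/
noncomputable def Emb.preComp {q : Nat.Primes} (φ : Emb L q) (g : L ≃ₐ[ℚ] L) : Emb L q :=
  φ.comp (g : L →+* L)

/-- The size of a value. -/
noncomputable def QUnits.size {q : Nat.Primes} (x : QUnits q) : NNReal :=
  ‖((x.toMul : (PadicAlgCl (q : ℕ))ˣ) : PadicAlgCl (q : ℕ))‖₊

/-- Being a local unit. -/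
noncomputable def QUnits.unitGroup (q : Nat.Primes) : AddSubgroup (QUnits q) where
  carrier := {x | QUnits.size x = 1}
  zero_mem' := by simp [QUnits.size]
  add_mem' := fun {a b} ha hb => by
    simp only [Set.mem_ofPred_eq, QUnits.size] at *
    simp [nnnorm_mul, ha, hb]
  neg_mem' := fun {a} ha => by
    simp only [Set.mem_ofPred_eq, QUnits.size] at *
    simp [nnnorm_inv, ha]

variable (L)

/-- The units of `ℂ`, written additively. -/
abbrev CUnits : Type := Additive ℂˣ

/-- Complex conjugation on `CUnits`. -/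
noncomputable def conjUnits : CUnits →+ CUnits :=
  MonoidHom.toAdditive (Units.map (starRingEnd ℂ : ℂ →* ℂ))

/-- The ambient group of families of values. -/
abbrev IdeleFamily : Type := (∀ q : Nat.Primes, Emb L q → QUnits q) × ((L →+* ℂ) → CUnits)

/-- Ideles: equivariant families of values, units almost everywhere. -/
noncomputable def ideleSubgroup : AddSubgroup (IdeleFamily L) where
  carrier := {f | (∀ q (τ : Gloc q) (φ : Emb L q), f.1 q (φ.postComp τ) = τ.onUnits (f.1 q φ)) ∧
    {q : Nat.Primes | ∃ φ : Emb L q, f.1 q φ ∉ QUnits.unitGroup q}.Finite ∧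
    ∀ φ : L →+* ℂ, f.2 ((starRingEnd ℂ).comp φ) = conjUnits (f.2 φ)}
  zero_mem' := ⟨fun q τ φ => by simp, by simp, fun φ => by simp⟩
  add_mem' := fun {a b} ha hb => ⟨fun q τ φ => by simp [ha.1 q τ φ, hb.1 q τ φ],
    (ha.2.1.union hb.2.1).subset fun q ⟨φ, hφ⟩ => by
      by_cases h : a.1 q φ ∈ QUnits.unitGroup q
      · exact Or.inr ⟨φ, fun h' => hφ (add_mem h h')⟩
      · exact Or.inl ⟨φ, h⟩,
    fun φ => by simp [ha.2.2 φ, hb.2.2 φ]⟩
  neg_mem' := fun {a} ha => ⟨fun q τ φ => by simp [ha.1 q τ φ],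
    ha.2.1.subset fun q ⟨φ, hφ⟩ => ⟨φ, fun h => hφ (neg_mem h)⟩,
    fun φ => by simp [ha.2.2 φ]⟩

/-- Ideles of `L`. -/
abbrev Idele : Type := ↥(ideleSubgroup L)

variable {L} in
/-- The value at an embedding into `PadicAlgCl q`. -/
abbrev Idele.fin (f : Idele L) (q : Nat.Primes) (φ : Emb L q) : QUnits q := f.1.1 q φ

variable {L} in
/-- The value at an embedding into `ℂ`. -/
abbrev Idele.inf (f : Idele L) (φ : L →+* ℂ) : CUnits := f.1.2 φ

/-- The Galois action `(g • f) φ = f (φ ∘ g)`. -/
noncomputable instance ideleAction : DistribMulAction (L ≃ₐ[ℚ] L) (Idele L) where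
  smul g f := ⟨(fun q φ => f.1.1 q (φ.preComp g), fun φ => f.1.2 (φ.comp (g : L →+* L))),
    fun q τ φ => f.2.1 q τ (φ.preComp g),
    f.2.2.1.subset fun q ⟨φ, hφ⟩ => ⟨φ.preComp g, hφ⟩,
    fun φ => f.2.2.2 (φ.comp (g : L →+* L))⟩
  one_smul f := rfl
  mul_smul g h f := rfl
  smul_zero g := rfl
  smul_add g a b := rfl

@[simp] theorem idele_smul_apply (g : L ≃ₐ[ℚ] L) (f : Idele L) (q : Nat.Primes) (φ : Emb L q) :
    (g • f).1.1 q φ = f.1.1 q (φ.preComp g) := rfl

@[simp] theorem idele_smul_apply_inf (g : L ≃ₐ[ℚ] L) (f : Idele L) (φ : L →+* ℂ) :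
    (g • f).1.2 φ = f.1.2 (φ.comp (g : L →+* L)) := rfl

/-- The multiplicative group of `L`, written additively, as a Galois module. -/
def LUnits : Type := Additive Lˣ

noncomputable instance : AddCommGroup (LUnits L) := inferInstanceAs (AddCommGroup (Additive Lˣ))

variable {L} in
/-- Wrap a unit of `L`. -/
def LUnits.of (x : Lˣ) : LUnits L := Additive.ofMul x

variable {L} in
/-- Unwrap a unit of `L`. -/
def LUnits.val (x : LUnits L) : Lˣ := Additive.toMul x

noncomputable instance lunitsAction : DistribMulAction (L ≃ₐ[ℚ] L) (LUnits L) where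
  smul g x := LUnits.of (Units.map (g : L →* L) x.val)
  one_smul x := congrArg LUnits.of (Units.ext rfl)
  mul_smul g h x := congrArg LUnits.of (Units.ext rfl)
  smul_zero g := congrArg LUnits.of (Units.ext (map_one g))
  smul_add g a b := congrArg LUnits.of (Units.ext (map_mul g _ _))

/-- The value family of a principal idele. -/
noncomputable def principalFamily (x : LUnits L) (q : Nat.Primes) (φ : Emb L q) : QUnits q :=
  Additive.ofMul (Units.map (φ : L →* PadicAlgCl (q : ℕ)) x.val)

theorem principalFamily_equivariant (x : LUnits L) (q : Nat.Primes) (τ : Gloc q) (φ : Emb L q) :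
    principalFamily L x q (φ.postComp τ) = τ.onUnits (principalFamily L x q φ) :=
  congrArg Additive.ofMul (Units.ext rfl)

/-- The value family of a principal idele at infinity. -/
noncomputable def principalFamilyInf (x : LUnits L) (φ : L →+* ℂ) : CUnits :=
  Additive.ofMul (Units.map (φ : L →* ℂ) x.val)

/-- The family of a principal idele, additive in `x`. -/
noncomputable def principalHom : LUnits L →+ IdeleFamily L where
  toFun x := (principalFamily L x, principalFamilyInf L x)
  map_zero' := Prod.ext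
    (funext fun q => funext fun φ =>
      congrArg Additive.ofMul (map_one (Units.map (φ : L →* PadicAlgCl (q : ℕ)))))
    (funext fun φ => congrArg Additive.ofMul (map_one (Units.map (φ : L →* ℂ))))
  map_add' x y := Prod.ext
    (funext fun q => funext fun φ =>
      congrArg Additive.ofMul (map_mul (Units.map (φ : L →* PadicAlgCl (q : ℕ))) x.val y.val))
    (funext fun φ => congrArg Additive.ofMul (map_mul (Units.map (φ : L →* ℂ)) x.val y.val))

/-- Subgroup of principal ideles. (That every family of this shape is an idele is proved in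
`Fermat.Agent.CFT.Idele*`.) -/
noncomputable def principalIdeles : AddSubgroup (Idele L) :=
  (principalHom L).range.addSubgroupOf (ideleSubgroup L)

theorem mem_principalIdeles_iff {f : Idele L} :
    f ∈ principalIdeles L ↔ ∃ x : LUnits L, principalHom L x = f.1 := Iff.rfl

/-- Idele class group. -/
abbrev IdeleClass : Type := Idele L ⧸ principalIdeles L

theorem principalIdeles_smul_mem (g : L ≃ₐ[ℚ] L) {f : Idele L} (hf : f ∈ principalIdeles L) :
    g • f ∈ principalIdeles L := by
  obtain ⟨x, hx⟩ := hf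
  refine ⟨g • x, Prod.ext (funext fun q => funext fun φ => ?_) (funext fun φ => ?_)⟩
  · refine Eq.trans ?_ (congrFun (congrFun (congrArg Prod.fst hx) q) (φ.preComp g))
    exact congrArg Additive.ofMul (Units.ext rfl)
  · refine Eq.trans ?_ (congrFun (congrArg Prod.snd hx) (φ.comp (g : L →+* L)))
    exact congrArg Additive.ofMul (Units.ext rfl)

/-- The action of `g` as an additive map on ideles. -/
noncomputable def ideleSmulHom (g : L ≃ₐ[ℚ] L) : Idele L →+ Idele L where
  toFun f := g • f
  map_zero' := smul_zero g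
  map_add' := smul_add g

noncomputable instance ideleClassAction : DistribMulAction (L ≃ₐ[ℚ] L) (IdeleClass L) where
  smul g c := QuotientAddGroup.map (principalIdeles L) (principalIdeles L) (ideleSmulHom L g)
    (fun f hf => (principalIdeles_smul_mem L g hf : ideleSmulHom L g f ∈ principalIdeles L)) c
  one_smul c := QuotientAddGroup.induction_on c fun f => rfl
  mul_smul g h c := QuotientAddGroup.induction_on c fun f => rfl
  smul_zero g := map_zero _
  smul_add g a b := map_add _ a b

/-- Ideles which are units at every prime outside `S`. -/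
noncomputable def sIdeles (S : Set Nat.Primes) : AddSubgroup (Idele L) where
  carrier := {f | ∀ q, q ∉ S → ∀ φ : Emb L q, f.1.1 q φ ∈ QUnits.unitGroup q}
  zero_mem' := fun q _ φ => zero_mem _
  add_mem' := fun ha hb q hq φ => add_mem (ha q hq φ) (hb q hq φ)
  neg_mem' := fun ha q hq φ => neg_mem (ha q hq φ)

/-- `U^S`: trivial on `S` and at infinity, units outside `S`. -/
noncomputable def unitIdelesOutside (S : Set Nat.Primes) : AddSubgroup (Idele L) where
  carrier := {f | (∀ q (φ : Emb L q), f.1.1 q φ ∈ QUnits.unitGroup q ∧ (q ∈ S → f.1.1 q φ = 0)) ∧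
    f.1.2 = 0}
  zero_mem' := ⟨fun q φ => ⟨zero_mem _, fun _ => rfl⟩, rfl⟩
  add_mem' := fun {a b} ha hb => ⟨fun q φ => ⟨add_mem (ha.1 q φ).1 (hb.1 q φ).1, fun h => by
    simp [(ha.1 q φ).2 h, (hb.1 q φ).2 h]⟩, by simp [ha.2, hb.2]⟩
  neg_mem' := fun {a} ha => ⟨fun q φ => ⟨neg_mem (ha.1 q φ).1, fun h => by simp [(ha.1 q φ).2 h]⟩,
    by simp [ha.2]⟩

variable {L}

/-- Local automorphism orbit: the place determined by `φ`. -/
def Emb.SamePlace {q : Nat.Primes} (φ ψ : Emb L q) : Prop := ∃ τ : Gloc q, φ.postComp τ = ψ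

theorem Emb.SamePlace.refl {q : Nat.Primes} (φ : Emb L q) : φ.SamePlace φ := ⟨1, rfl⟩

theorem Emb.SamePlace.trans {q : Nat.Primes} {a b c : Emb L q} (h : a.SamePlace b)
    (h' : b.SamePlace c) : a.SamePlace c := by
  obtain ⟨τ, rfl⟩ := h; obtain ⟨σ, rfl⟩ := h'; exact ⟨σ * τ, rfl⟩

theorem Emb.SamePlace.preComp {q : Nat.Primes} {a b : Emb L q} (h : a.SamePlace b)
    (g : L ≃ₐ[ℚ] L) : (a.preComp g).SamePlace (b.preComp g) := by
  obtain ⟨τ, rfl⟩ := h; exact ⟨τ, rfl⟩

/-- The decomposition group of the place of `φ`. -/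
noncomputable def decompGroup {q : Nat.Primes} (φ : Emb L q) : Subgroup (L ≃ₐ[ℚ] L) where
  carrier := {g | φ.SamePlace (φ.preComp g)}
  one_mem' := Emb.SamePlace.refl φ
  mul_mem' := fun {a b} ha hb => (Emb.SamePlace.trans hb (ha.preComp b) :)
  inv_mem' := fun {a} ha => by
    obtain ⟨τ, hτ⟩ := ha
    refine ⟨τ⁻¹, RingHom.ext fun x => ?_⟩
    have := RingHom.congr_fun hτ (a⁻¹ x)
    change τ⁻¹ (φ x) = φ (a⁻¹ x)
    rw [AlgEquiv.aut_inv, AlgEquiv.symm_apply_eq]
    change τ (φ (a⁻¹ x)) = φ (a (a⁻¹ x)) at this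
    rw [this]
    simp

/-- The automorphisms congruent to the identity on integers at the place of `φ`. -/
noncomputable def inertiaGroup {q : Nat.Primes} (φ : Emb L q) : Set (L ≃ₐ[ℚ] L) :=
  {g | g ∈ decompGroup φ ∧ ∀ x : L, ‖φ x‖ ≤ 1 → ‖φ (g x) - φ x‖ < 1}

/-- `L` is unramified at `q` relative to the subgroup `H` (i.e. over its fixed field). -/
def IsUnramifiedAtRel (H : Subgroup (L ≃ₐ[ℚ] L)) (q : Nat.Primes) : Prop :=
  ∀ φ : Emb L q, ∀ g ∈ H, g ∈ inertiaGroup φ → g = 1

/-- The local module at the place of `φ`: ideles supported on that place. -/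
noncomputable def localPart {q : Nat.Primes} (φ : Emb L q) : AddSubgroup (Idele L) where
  carrier := {f | (∀ (r : Nat.Primes) (ψ : Emb L r), f.1.1 r ψ ≠ 0 →
    ∃ h : r = q, φ.SamePlace (h ▸ ψ)) ∧ f.1.2 = 0}
  zero_mem' := ⟨fun r ψ h => absurd rfl h, rfl⟩
  add_mem' := fun {a b} ha hb => ⟨fun r ψ h => by
    by_cases hz : a.1.1 r ψ = 0
    · exact hb.1 r ψ (by simpa [hz] using h)
    · exact ha.1 r ψ hz, by simp [ha.2, hb.2]⟩
  neg_mem' := fun {a} ha => ⟨fun r ψ h => ha.1 r ψ (by simpa using h), by simp [ha.2]⟩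

theorem localPart_smul_mem {q : Nat.Primes} (φ : Emb L q) {g : L ≃ₐ[ℚ] L}
    (hg : g ∈ decompGroup φ) {f : Idele L} (hf : f ∈ localPart φ) : g • f ∈ localPart φ := by
  refine ⟨fun r ψ h => ?_, ?_⟩
  swap
  · funext χ
    rw [idele_smul_apply_inf, hf.2]
    rfl
  obtain ⟨rfl, hs⟩ := hf.1 r (ψ.preComp g) h
  refine ⟨rfl, ?_⟩
  have h2 : (φ.preComp g⁻¹).SamePlace ψ := by
    have := hs.preComp g⁻¹
    have e : (ψ.preComp g).preComp g⁻¹ = ψ := RingHom.ext fun x => congrArg ψ (g.apply_symm_apply x)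
    rwa [e] at this
  exact Emb.SamePlace.trans ((decompGroup φ).inv_mem hg) h2

noncomputable instance localPartAction {q : Nat.Primes} (φ : Emb L q) :
    DistribMulAction (decompGroup φ) (localPart φ) where
  smul g f := ⟨(g : L ≃ₐ[ℚ] L) • (f : Idele L), localPart_smul_mem φ g.2 f.2⟩
  one_smul f := rfl
  mul_smul g h f := rfl
  smul_zero g := rfl
  smul_add g a b := rfl

/-- The decomposition group of the archimedean place of `φ`. -/
noncomputable def infDecompGroup (φ : L →+* ℂ) : Subgroup (L ≃ₐ[ℚ] L) where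
  carrier := {g | φ.comp (g : L →+* L) = φ ∨ φ.comp (g : L →+* L) = (starRingEnd ℂ).comp φ}
  one_mem' := Or.inl rfl
  mul_mem' := fun {a b} ha hb => by
    have e : φ.comp ((a * b : L ≃ₐ[ℚ] L) : L →+* L) =
        (φ.comp (a : L →+* L)).comp (b : L →+* L) := rfl
    rcases ha with ha | ha <;> rcases hb with hb | hb
    · exact Or.inl (by rw [e, ha, hb])
    · exact Or.inr (by rw [e, ha, hb])
    · exact Or.inr (by rw [e, ha, RingHom.comp_assoc, hb])
    · exact Or.inl (by
        rw [e, ha, RingHom.comp_assoc, hb]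
        exact RingHom.ext fun x => Complex.conj_conj _)
  inv_mem' := fun {a} ha => by
    rcases ha with ha | ha
    · refine Or.inl (RingHom.ext fun x => ?_)
      have := RingHom.congr_fun ha (a⁻¹ x)
      simpa using this.symm
    · refine Or.inr (RingHom.ext fun x => ?_)
      have := congrArg (starRingEnd ℂ) (RingHom.congr_fun ha (a⁻¹ x))
      simpa using this.symm

/-- The local module at an archimedean place. -/
noncomputable def infPart (φ : L →+* ℂ) : AddSubgroup (Idele L) where
  carrier := {f | (∀ (r : Nat.Primes) (ψ : Emb L r), f.1.1 r ψ = 0) ∧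
    ∀ ψ : L →+* ℂ, f.1.2 ψ ≠ 0 → ψ = φ ∨ ψ = (starRingEnd ℂ).comp φ}
  zero_mem' := ⟨fun r ψ => rfl, fun ψ h => absurd rfl h⟩
  add_mem' := fun {a b} ha hb => ⟨fun r ψ => by simp [ha.1 r ψ, hb.1 r ψ], fun ψ h => by
    by_cases hz : a.1.2 ψ = 0
    · exact hb.2 ψ (by simpa [hz] using h)
    · exact ha.2 ψ hz⟩
  neg_mem' := fun {a} ha => ⟨fun r ψ => by simp [ha.1 r ψ], fun ψ h => ha.2 ψ (by simpa using h)⟩

section baseChange
variable (L) (L' : Type) [Field L'] [NumberField L'] [Algebra L L']

/-- Inclusion of ideles of `L` in ideles of an extension `L'`. -/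
noncomputable def ideleBaseChange : Idele L →+ Idele L' where
  toFun f := ⟨(fun q φ => f.1.1 q (φ.comp (algebraMap L L')),
      fun φ => f.1.2 (φ.comp (algebraMap L L'))),
    fun q τ φ => f.2.1 q τ (φ.comp (algebraMap L L')),
    f.2.2.1.subset fun q ⟨φ, hφ⟩ => ⟨φ.comp (algebraMap L L'), hφ⟩,
    fun φ => f.2.2.2 (φ.comp (algebraMap L L'))⟩
  map_zero' := rfl
  map_add' _ _ := rfl

theorem ideleBaseChange_principal {f : Idele L} (hf : f ∈ principalIdeles L) :
    ideleBaseChange L L' f ∈ principalIdeles L' := by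
  obtain ⟨x, hx⟩ := hf
  refine ⟨LUnits.of (Units.map (algebraMap L L' : L →* L') x.val),
    Prod.ext (funext fun q => funext fun φ => ?_) (funext fun φ => ?_)⟩
  · refine Eq.trans ?_ (congrFun (congrFun (congrArg Prod.fst hx) q) (φ.comp (algebraMap L L')))
    exact congrArg Additive.ofMul (Units.ext rfl)
  · refine Eq.trans ?_ (congrFun (congrArg Prod.snd hx) (φ.comp (algebraMap L L')))
    exact congrArg Additive.ofMul (Units.ext rfl)

/-- Inclusion of idele classes. -/
noncomputable def classBaseChange : IdeleClass L →+ IdeleClass L' :=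
  QuotientAddGroup.map (principalIdeles L) (principalIdeles L') (ideleBaseChange L L')
    (fun f hf => (ideleBaseChange_principal L L' hf : ideleBaseChange L L' f ∈ principalIdeles L'))

end baseChange

end FermatLib.CFT
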