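import Fermat.Agent.CFT.CohDefs
import Fermat.Agent.CFT.IdeleDefs
import Mathlib

/-!
Presentations of finite Galois modules by lattices and the groups `Ext¹` computed from them.
-/

set_option autoImplicit false

namespace FermatLib.CFT

/-- The free `ℤ[G]`-module on `ι`, as integer functions. -/
def Pres (ι G : Type*) : Type _ := ι → G → ℤ

instance (ι G : Type*) : AddCommGroup (Pres ι G) := inferInstanceAs (AddCommGroup (ι → G → ℤ))

variable {ι G : Type*} [Group G]

instance : DistribMulAction G (Pres ι G) where
  smul g f := fun i h => f i (g⁻¹ * h)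
  one_smul f := funext fun i => funext fun h => by
    show f i (1⁻¹ * h) = f i h
    rw [inv_one, one_mul]
  mul_smul g g' f := funext fun i => funext fun h => by
    show f i ((g * g')⁻¹ * h) = f i (g'⁻¹ * (g⁻¹ * h))
    rw [mul_inv_rev, mul_assoc]
  smul_zero g := rfl
  smul_add g a b := rfl

@[simp] theorem Pres.smul_apply (g : G) (f : Pres ι G) (i : ι) (h : G) :
    (g • f) i h = f i (g⁻¹ * h) := rfl

variable [Fintype ι] [Fintype G] {V : Type*} [AddCommGroup V] [DistribMulAction G V]

/-- The presentation map sending the generator `i` to `v i`. -/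
def presMap (v : ι → V) : Pres ι G →+ V where
  toFun f := ∑ i, ∑ g, f i g • (g • v i)
  map_zero' := by
    show ∑ i, ∑ g, (0 : ℤ) • (g • v i) = 0
    simp
  map_add' a b := by
    show ∑ i, ∑ g, (a i g + b i g) • (g • v i) = _
    simp [add_smul, Finset.sum_add_distrib]

theorem presMap_smul (v : ι → V) (g : G) (f : Pres ι G) :
    presMap v (g • f) = g • presMap v f := by
  show ∑ i, ∑ h, f i (g⁻¹ * h) • (h • v i) = g • ∑ i, ∑ h, f i h • (h • v i)
  rw [Finset.smul_sum]
  refine Finset.sum_congr rfl fun i _ => ?_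
  rw [Finset.smul_sum]
  refine Fintype.sum_equiv (Equiv.mulLeft g⁻¹) _ _ fun h => ?_
  show f i (g⁻¹ * h) • (h • v i) = g • (f i (g⁻¹ * h) • ((g⁻¹ * h) • v i))
  rw [smul_comm g (f i (g⁻¹ * h)), ← mul_smul, ← mul_assoc, mul_inv_cancel, one_mul]

/-- The relation lattice of a presentation. -/
def presKer (v : ι → V) : AddSubgroup (Pres ι G) := (presMap (G := G) v).ker

instance presKerAction (v : ι → V) : DistribMulAction G (presKer (G := G) v) where
  smul g x := ⟨g • (x : Pres ι G), by
    show presMap v (g • (x : Pres ι G)) = 0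
    rw [presMap_smul, x.2, smul_zero]⟩
  one_smul x := Subtype.ext (one_smul G (x : Pres ι G))
  mul_smul g h x := Subtype.ext (mul_smul g h (x : Pres ι G))
  smul_zero g := Subtype.ext (smul_zero g)
  smul_add g a b := Subtype.ext (smul_add g (a : Pres ι G) (b : Pres ι G))

variable (G) in
/-- Equivariant additive maps. -/
def equivHom (X A : Type*) [AddCommGroup X] [AddCommGroup A] [DistribMulAction G X]
    [DistribMulAction G A] : AddSubgroup (X →+ A) where
  carrier := {h | ∀ (g : G) (x : X), h (g • x) = g • h x}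
  zero_mem' := fun g x => (smul_zero g).symm
  add_mem' := fun {a b} ha hb g x => by
    simp only [AddMonoidHom.add_apply, ha g x, hb g x, smul_add]
  neg_mem' := fun {a} ha g x => by simp only [AddMonoidHom.neg_apply, ha g x, smul_neg]

variable (G) (A : Type*) [AddCommGroup A] [DistribMulAction G A]

/-- Restriction of equivariant maps to the relation lattice. -/
def presRestr (v : ι → V) : equivHom G (Pres ι G) A →+ equivHom G (presKer (G := G) v) A where
  toFun h := ⟨(h : Pres ι G →+ A).comp (presKer (G := G) v).subtype, fun g x => h.2 g x⟩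
  map_zero' := rfl
  map_add' _ _ := rfl

/-- `Ext¹_G(V, A)` computed from the presentation `v`. -/
abbrev ext1 (v : ι → V) : Type _ :=
  equivHom G (presKer (G := G) v) A ⧸ (presRestr G A v).range

section idele
variable (L : Type) [Field L] [NumberField L]

/-- Ideles supported at one rational prime. -/
noncomputable def primeIdeles (q : Nat.Primes) : AddSubgroup (Idele L) where
  carrier := {f | (∀ r, r ≠ q → ∀ φ : Emb L r, f.1.1 r φ = 0) ∧ f.1.2 = 0}
  zero_mem' := ⟨fun r _ φ => rfl, rfl⟩
  add_mem' := fun {a b} ha hb => ⟨fun r hr φ => by simp [ha.1 r hr φ, hb.1 r hr φ],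
    by simp [ha.2, hb.2]⟩
  neg_mem' := fun {a} ha => ⟨fun r hr φ => by simp [ha.1 r hr φ], by simp [ha.2]⟩

/-- Ideles supported at infinity. -/
noncomputable def infIdeles : AddSubgroup (Idele L) where
  carrier := {f | ∀ r (φ : Emb L r), f.1.1 r φ = 0}
  zero_mem' := fun r φ => rfl
  add_mem' := fun {a b} ha hb r φ => by simp [ha r φ, hb r φ]
  neg_mem' := fun {a} ha r φ => by simp [ha r φ]

noncomputable instance primeIdelesAction (q : Nat.Primes) :
    DistribMulAction (L ≃ₐ[ℚ] L) (primeIdeles L q) where
  smul g f := ⟨g • (f : Idele L), fun r hr φ => f.2.1 r hr (φ.preComp g), by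
    funext χ; rw [idele_smul_apply_inf, f.2.2]; rfl⟩
  one_smul f := rfl
  mul_smul g h f := rfl
  smul_zero g := rfl
  smul_add g a b := rfl

noncomputable instance infIdelesAction : DistribMulAction (L ≃ₐ[ℚ] L) (infIdeles L) where
  smul g f := ⟨g • (f : Idele L), fun r φ => f.2 r (φ.preComp g)⟩
  one_smul f := rfl
  mul_smul g h f := rfl
  smul_zero g := rfl
  smul_add g a b := rfl

theorem unitIdelesOutside_smul_mem (S : Set Nat.Primes) (g : L ≃ₐ[ℚ] L) {f : Idele L}
    (hf : f ∈ unitIdelesOutside L S) : g • f ∈ unitIdelesOutside L S :=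
  ⟨fun q φ => hf.1 q (φ.preComp g), by funext χ; rw [idele_smul_apply_inf, hf.2]; rfl⟩

/-- Idele classes modulo units outside `S`. -/
abbrev ClassModUnits (S : Set Nat.Primes) : Type :=
  IdeleClass L ⧸ (unitIdelesOutside L S).map (QuotientAddGroup.mk' (principalIdeles L))

noncomputable instance classModUnitsAction (S : Set Nat.Primes) :
    DistribMulAction (L ≃ₐ[ℚ] L) (ClassModUnits L S) where
  smul g c := QuotientAddGroup.map _ _ (DistribSMul.toAddMonoidHom (IdeleClass L) g)
    (fun x hx => by
      obtain ⟨f, hf, rfl⟩ := hx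
      exact ⟨g • f, unitIdelesOutside_smul_mem L S g hf, rfl⟩) c
  one_smul c := QuotientAddGroup.induction_on c fun x => by
    exact congrArg QuotientAddGroup.mk (one_smul (L ≃ₐ[ℚ] L) x)
  mul_smul g h c := QuotientAddGroup.induction_on c fun x => by
    exact congrArg QuotientAddGroup.mk (mul_smul g h x)
  smul_zero g := map_zero _
  smul_add g a b := map_add _ a b

end idele

end FermatLib.CFT
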