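import Fermat.Agent.CFT.DualInv
import Fermat.Agent.CFT.PresDefs

/-!
A level of the duality between extension classes and first cohomology: the axioms, the connecting
cochains and the vanishing of the pairing on restricted maps and on unit valued maps.
-/

set_option autoImplicit false

namespace FermatLib.CFT

variable {p : ℕ} {Γ G : Type*} [Group Γ] [Group G]
  {C C₀ : Type*} [AddCommGroup C] [AddCommGroup C₀] [DistribMulAction Γ C] [DistribMulAction G C₀]

/-- A level: a class formation over `Γ` with invariants of `ker π` coming from `C₀`, units whose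
classes die, and norms lying in `p C₀ + U₀`. -/
structure IsDualLevel (p : ℕ) (π : Γ →* G) (bc : C₀ →+ C) (U₀ : AddSubgroup C₀) : Prop where
  surj : Function.Surjective π
  formation : IsPClassFormation p Γ C
  compat : IsCompat π bc
  inj : Function.Injective bc
  range_fixed : ∀ c : C, (∀ g ∈ π.ker, g • c = c) → c ∈ bc.range
  units_smul : ∀ (g : G), ∀ u ∈ U₀, g • u ∈ U₀
  units_killed : ∀ f ∈ Z2 Γ C, (∀ t, f t ∈ U₀.map bc) → ∃ m : ℕ, ¬ p ∣ m ∧ m • f ∈ B2 Γ C
  norm_index : ∀ (c : C₀) (d : C), bc c = normMap π.ker C d → ∃ e : C₀, ∃ u ∈ U₀, c = p • e + u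

theorem mem_B2_of_nsmul_mem [Fact p.Prime] {A : Type*} [AddCommGroup A] {B : AddSubgroup A}
    {f : A} {m : ℕ} (hm : ¬ p ∣ m) (h : m • f ∈ B) (hp : p • f ∈ B) : f ∈ B := by
  obtain ⟨a, b, hab⟩ := Nat.isCoprime_iff_coprime.2
    ((Fact.out : p.Prime).coprime_iff_not_dvd.2 hm).symm
  have e : a • (m • f) + b • (p • f) = f := by
    rw [← natCast_zsmul, ← natCast_zsmul f p, ← mul_smul, ← mul_smul, ← add_smul, hab, one_smul]
  rw [← e]
  exact add_mem (AddSubgroup.zsmul_mem _ h _) (AddSubgroup.zsmul_mem _ hp _)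

section conn
variable {ι : Type*} [Fintype ι] [Fintype G] {V : Type*} [AddCommGroup V] [DistribMulAction G V]

/-- `π`-twisted one-cocycles. -/
def piZ1 (π : Γ →* G) (V : Type*) [AddCommGroup V] [DistribMulAction G V] :
    AddSubgroup (Γ → V) where
  carrier := {w | ∀ s t, w (s * t) = π s • w t + w s}
  zero_mem' := fun s t => by simp
  add_mem' := fun {a b} ha hb s t => by
    simp only [Pi.add_apply, ha s t, hb s t, smul_add]; abel
  neg_mem' := fun {a} ha s t => by simp only [Pi.neg_apply, ha s t, smul_neg, neg_add]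

/-- `π`-twisted coboundaries. -/
def piB1 (π : Γ →* G) (V : Type*) [AddCommGroup V] [DistribMulAction G V] :
    AddSubgroup (Γ → V) where
  carrier := {w | ∃ a : V, ∀ s, w s = π s • a - a}
  zero_mem' := ⟨0, fun s => by simp⟩
  add_mem' := fun {a b} ⟨x, hx⟩ ⟨y, hy⟩ => ⟨x + y, fun s => by
    simp only [Pi.add_apply, hx s, hy s, smul_add]; abel⟩
  neg_mem' := fun {a} ⟨x, hx⟩ => ⟨-x, fun s => by simp only [Pi.neg_apply, hx s, smul_neg]; abel⟩

theorem mem_piZ1 {π : Γ →* G} {w : Γ → V} :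
    w ∈ piZ1 π V ↔ ∀ s t, w (s * t) = π s • w t + w s := Iff.rfl

/-- `ξ` is the coboundary of a lift of `w`. -/
def IsConnecting (π : Γ →* G) (v : ι → V) (w : Γ → V) (ξ : Γ × Γ → presKer (G := G) v) : Prop :=
  ∃ w' : Γ → Pres ι G, (∀ s, presMap v (w' s) = w s) ∧
    ∀ s t, (ξ (s, t) : Pres ι G) = π s • w' t - w' (s * t) + w' s

theorem exists_isConnecting (π : Γ →* G) {v : ι → V}
    (hv : Function.Surjective (presMap (G := G) v)) {w : Γ → V} (hw : w ∈ piZ1 π V) :
    ∃ ξ, IsConnecting π v w ξ := by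
  choose lift hlift using hv
  refine ⟨fun z => ⟨π z.1 • lift (w z.2) - lift (w (z.1 * z.2)) + lift (w z.1), ?_⟩,
    fun s => lift (w s), fun s => hlift _, fun s t => rfl⟩
  show presMap v _ = 0
  rw [map_add, map_sub, presMap_smul, hlift, hlift, hlift, mem_piZ1.1 hw]
  abel

theorem isConnecting_add {π : Γ →* G} {v : ι → V} {w w' : Γ → V}
    {ξ ξ' : Γ × Γ → presKer (G := G) v} (h : IsConnecting π v w ξ) (h' : IsConnecting π v w' ξ') :
    IsConnecting π v (w + w') (ξ + ξ') := by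
  obtain ⟨a, ha, ha'⟩ := h
  obtain ⟨b, hb, hb'⟩ := h'
  refine ⟨a + b, fun s => by simp [ha, hb], fun s t => ?_⟩
  show ((ξ (s, t) + ξ' (s, t) : presKer (G := G) v) : Pres ι G) = _
  rw [AddSubgroup.coe_add, ha', hb']
  simp only [Pi.add_apply, smul_add]
  abel

/-- The cocycle pairing a map on relations with a connecting cochain. -/
def pairCocycle {v : ι → V} (bc : C₀ →+ C) (h : presKer (G := G) v →+ C₀)
    (ξ : Γ × Γ → presKer (G := G) v) : Γ × Γ → C :=
  fun t => bc (h (ξ t))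

variable {π : Γ →* G} {bc : C₀ →+ C} {U₀ : AddSubgroup C₀} {v : ι → V}

theorem IsConnecting.cocycle {w : Γ → V} {ξ : Γ × Γ → presKer (G := G) v}
    (hξ : IsConnecting π v w ξ) (r s t : Γ) :
    π r • ξ (s, t) + ξ (r, s * t) = ξ (r * s, t) + ξ (r, s) := by
  obtain ⟨w', -, hw'⟩ := hξ
  apply Subtype.ext
  rw [AddSubgroup.coe_add, AddSubgroup.coe_add]
  show π r • (ξ (s, t) : Pres ι G) + _ = _
  rw [hw', hw', hw', hw', smul_add, smul_sub, map_mul, mul_smul, mul_assoc]
  abel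

theorem pairCocycle_mem_Z2 (hL : IsDualLevel p π bc U₀)
    {h : presKer (G := G) v →+ C₀} (hh : h ∈ equivHom G (presKer (G := G) v) C₀)
    {w : Γ → V} {ξ : Γ × Γ → presKer (G := G) v} (hξ : IsConnecting π v w ξ) :
    pairCocycle bc h ξ ∈ Z2 Γ C := by
  refine TN.mem_Z2.2 fun r s t => ?_
  have e := congrArg (fun x => bc (h x)) (hξ.cocycle r s t)
  simp only [map_add, hh (π r)] at e
  rw [hL.compat] at e
  exact e

theorem pairCocycle_mem_killed (hL : IsDualLevel p π bc U₀) (hpV : ∀ x : V, p • x = 0)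
    {h : presKer (G := G) v →+ C₀} (hh : h ∈ equivHom G (presKer (G := G) v) C₀)
    {w : Γ → V} {ξ : Γ × Γ → presKer (G := G) v} (hξ : IsConnecting π v w ξ) :
    pairCocycle bc h ξ ∈ classesKilled p Γ C := by
  refine mem_classesKilled.2 ⟨pairCocycle_mem_Z2 hL hh hξ, ?_⟩
  obtain ⟨w', hw', hξ'⟩ := hξ
  have hmem : ∀ s, p • w' s ∈ presKer (G := G) v := fun s => by
    show presMap v _ = 0
    rw [map_nsmul, hw', hpV]
  refine TN.mem_B2.2 ⟨fun s => bc (h ⟨p • w' s, hmem s⟩), fun s t => ?_⟩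
  have e : p • ξ (s, t) = π s • (⟨p • w' t, hmem t⟩ : presKer (G := G) v)
      - ⟨p • w' (s * t), hmem (s * t)⟩ + ⟨p • w' s, hmem s⟩ := by
    apply Subtype.ext
    rw [AddSubgroup.coe_nsmul, hξ', AddSubgroup.coe_add, AddSubgroup.coe_sub]
    show p • (π s • w' t - w' (s * t) + w' s) = π s • (p • w' t) - p • w' (s * t) + p • w' s
    rw [nsmul_add, nsmul_sub, smul_comm (π s) p]
  have := congrArg (fun x => bc (h x)) e
  simp only [map_add, map_sub, map_nsmul, hh (π s)] at this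
  rw [hL.compat] at this
  exact this

theorem pairCocycle_restrict_mem_B2 (hL : IsDualLevel p π bc U₀)
    {F : Pres ι G →+ C₀} (hF : F ∈ equivHom G (Pres ι G) C₀)
    {w : Γ → V} {ξ : Γ × Γ → presKer (G := G) v} (hξ : IsConnecting π v w ξ) :
    pairCocycle bc (F.comp (presKer (G := G) v).subtype) ξ ∈ B2 Γ C := by
  obtain ⟨w', -, hw'⟩ := hξ
  refine TN.mem_B2.2 ⟨fun s => bc (F (w' s)), fun s t => ?_⟩
  show bc (F (ξ (s, t) : Pres ι G)) = _
  rw [hw', map_add, map_sub, hF (π s), map_add, map_sub, hL.compat]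

variable [Fact p.Prime]

theorem pairCocycle_units_mem_B2 (hL : IsDualLevel p π bc U₀) (hpV : ∀ x : V, p • x = 0)
    {h : presKer (G := G) v →+ C₀} (hh : h ∈ equivHom G (presKer (G := G) v) C₀)
    (hU : ∀ x, h x ∈ U₀) {w : Γ → V} {ξ : Γ × Γ → presKer (G := G) v}
    (hξ : IsConnecting π v w ξ) : pairCocycle bc h ξ ∈ B2 Γ C := by
  have hk := mem_classesKilled.1 (pairCocycle_mem_killed hL hpV hh hξ)
  obtain ⟨m, hm, hmB⟩ := hL.units_killed _ hk.1 fun t => ⟨_, hU (ξ t), rfl⟩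
  exact mem_B2_of_nsmul_mem hm hmB hk.2

end conn

end FermatLib.CFT
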