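import Fermat.Agent.CFT.TateNakayama
import Fermat.Agent.CFT.IdeleBaseChange
import Fermat.Agent.CFT.ClassFormation
import Fermat.Agent.CFT.ClassGroupSteps

/-!
Subfields of `ℚ̄` as levels of the idele class formation: restriction of automorphisms, inclusion of
classes, vanishing of first cohomology and injectivity of inflation.
-/

set_option autoImplicit false

open NumberField

namespace FermatLib.CFT

/-- Classes are killed at every prime, hence killed. -/
theorem h1Trivial_of_forall_prime {G : Type*} [Group G] [Finite G] {A : Type*} [AddCommGroup A]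
    [DistribMulAction G A]
    (h : ∀ (ℓ : ℕ) [Fact ℓ.Prime] (H : Subgroup G), IsPGroup ℓ H → H1Trivial H A) :
    H1Trivial G A := by
  intro f hf
  let cls : H1' G A := QuotientAddGroup.mk ⟨f, hf⟩
  suffices h0 : cls = 0 from
    AddSubgroup.mem_addSubgroupOf.1 ((QuotientAddGroup.eq_zero_iff (N := (B1 G A).addSubgroupOf (Z1 G A)) _).1 h0)
  refine AddMonoid.addOrderOf_eq_one_iff.1 (Nat.eq_one_iff_not_exists_prime_dvd.2 fun ℓ hℓ hdvd => ?_)
  haveI := Fact.mk hℓ
  let P : Sylow ℓ G := default
  have hk : (P : Subgroup G).index • cls = 0 := by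
    rw [← QuotientAddGroup.mk_nsmul, QuotientAddGroup.eq_zero_iff]
    exact index_smul_mem_B1 _ hf (h ℓ _ P.isPGroup' _ (cochainMap1_mem_Z1 (isCompat_subtype _) hf))
  exact P.not_dvd_index (hdvd.trans (addOrderOf_dvd_of_nsmul_eq_zero hk))

/-- Injectivity of inflation, with the compatibility first. -/
theorem inflation_injective_of_compat {G G₁ A B : Type*} [Group G] [Group G₁] [AddCommGroup A]
    [AddCommGroup B] [DistribMulAction G A] [DistribMulAction G₁ B] {π : G →* G₁} {φ : B →+ A}
    (hc : IsCompat π φ) (hπ : Function.Surjective π) (hinj : Function.Injective φ)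
    (hrange : ∀ a : A, (∀ g ∈ π.ker, g • a = a) → a ∈ φ.range)
    (h1 : H1Trivial π.ker A) {f : G₁ × G₁ → B} (hf : f ∈ Z2 G₁ B)
    (h : cochainMap2 π φ f ∈ B2 G A) : f ∈ B2 G₁ B :=
  inflation_injective π hπ φ hc hinj hrange h1 hf h

local notation "ℚbar" => AlgebraicClosure ℚ

section level
variable {F F' F'' : IntermediateField ℚ ℚbar}

/-- The algebra structure of an inclusion of subfields. -/
@[reducible] noncomputable def algLe (h : F ≤ F') : Algebra F F' :=
  (IntermediateField.inclusion h).toRingHom.toAlgebra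

/-- Restriction of automorphisms to a Galois subfield. -/
noncomputable def galRes [IsGalois ℚ F] (h : F ≤ F') : (F' ≃ₐ[ℚ] F') →* (F ≃ₐ[ℚ] F) :=
  letI := algLe h
  haveI : IsScalarTower ℚ F F' := IsScalarTower.of_algebraMap_eq fun _ => rfl
  AlgEquiv.restrictNormalHom F

theorem galRes_spec [IsGalois ℚ F] (h : F ≤ F') (g : F' ≃ₐ[ℚ] F') (x : F) :
    IntermediateField.inclusion h (galRes h g x) = g (IntermediateField.inclusion h x) := by
  letI := algLe h
  haveI : IsScalarTower ℚ F F' := IsScalarTower.of_algebraMap_eq fun _ => rfl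
  exact AlgEquiv.restrictNormal_commutes g F x

theorem galRes_surjective [IsGalois ℚ F] [IsGalois ℚ F'] (h : F ≤ F') :
    Function.Surjective (galRes h) := by
  letI := algLe h
  haveI : IsScalarTower ℚ F F' := IsScalarTower.of_algebraMap_eq fun _ => rfl
  exact AlgEquiv.restrictNormalHom_surjective F'

theorem galRes_comp [IsGalois ℚ F] [IsGalois ℚ F'] (h : F ≤ F') (h' : F' ≤ F'')
    (g : F'' ≃ₐ[ℚ] F'') : galRes h (galRes h' g) = galRes (h.trans h') g := by
  ext x
  have e1 := congrArg (IntermediateField.inclusion h') (galRes_spec h (galRes h' g) x)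
  rw [galRes_spec h' g] at e1
  exact (congrArg Subtype.val e1).trans (congrArg Subtype.val (galRes_spec (h.trans h') g x)).symm

variable [NumberField F] [NumberField F'] [NumberField F'']

/-- Inclusion of idele classes of subfields. -/
noncomputable def classLe (h : F ≤ F') : IdeleClass F →+ IdeleClass F' :=
  @classBaseChange F _ _ F' _ _ (algLe h)

theorem classLe_comp (h : F ≤ F') (h' : F' ≤ F'') (c : IdeleClass F) :
    classLe h' (classLe h c) = classLe (h.trans h') c :=
  QuotientAddGroup.induction_on c fun _ => rfl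

variable [IsGalois ℚ F]

theorem classLe_compat (h : F ≤ F') :
    IsCompat (A := IdeleClass F) (B := IdeleClass F') (galRes h) (classLe h) := fun g c =>
  @classBaseChange_smul F _ _ F' _ _ (algLe h) g (galRes h g)
    (fun x => (galRes_spec h g x).symm) c

variable [IsGalois ℚ F']

theorem classLe_injective (h : F ≤ F') : Function.Injective (classLe h) :=
  @classBaseChange_injective F _ _ F' _ _ (algLe h) _

theorem mem_range_classLe (h : F ≤ F') {c : IdeleClass F'}
    (hc : ∀ g ∈ (galRes h).ker, g • c = c) : c ∈ (classLe h).range := by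
  obtain ⟨f, hf, rfl⟩ := exists_fixed_idele_of_fixed_class F' (galRes h).ker
    (c := c) fun g => hc g g.2
  letI := algLe h
  obtain ⟨f0, rfl⟩ := mem_range_ideleBaseChange (L := F) (L' := F') (f := f) fun g hg =>
    hf ⟨g, MonoidHom.mem_ker.2 (AlgEquiv.ext fun x =>
      (IntermediateField.inclusion h).injective ((galRes_spec h g x).trans (hg x)))⟩
  exact ⟨QuotientAddGroup.mk f0, rfl⟩

theorem ideleClass_h1Trivial (H : Subgroup (F ≃ₐ[ℚ] F)) : H1Trivial H (IdeleClass F) := by
  refine h1Trivial_of_forall_prime fun ℓ _ K hK => ?_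
  exact ((ideleClass_isPClassFormation (p := ℓ) F).h1 (K.map H.subtype) (hK.map _)).of_equiv
    (e := K.equivMapOfInjective H.subtype Subtype.val_injective) (φ := AddEquiv.refl _)
    fun _ _ => rfl

/-- Inflation of idele class two-cochains. -/
noncomputable def classInfl (h : F ≤ F') :
    ((F ≃ₐ[ℚ] F) × (F ≃ₐ[ℚ] F) → IdeleClass F) →+
      ((F' ≃ₐ[ℚ] F') × (F' ≃ₐ[ℚ] F') → IdeleClass F') :=
  cochainMap2 (A := IdeleClass F) (B := IdeleClass F') (galRes h) (classLe h)

theorem classInfl_mem_B2_iff (h : F ≤ F') {f : (F ≃ₐ[ℚ] F) × (F ≃ₐ[ℚ] F) → IdeleClass F}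
    (hf : f ∈ Z2 (F ≃ₐ[ℚ] F) (IdeleClass F)) :
    classInfl h f ∈ B2 (F' ≃ₐ[ℚ] F') (IdeleClass F') ↔ f ∈ B2 (F ≃ₐ[ℚ] F) (IdeleClass F) := by
  have hinj : Function.Injective (classLe h) := classLe_injective h
  have hcompat : IsCompat (A := IdeleClass F) (B := IdeleClass F') (galRes h) (classLe h) :=
    classLe_compat h
  have hrange : ∀ c : IdeleClass F', (∀ g ∈ (galRes h).ker, g • c = c) → c ∈ (classLe h).range :=
    fun c hc => mem_range_classLe h hc
  have h1 := ideleClass_h1Trivial (F := F') (galRes h).ker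
  refine ⟨fun hB => ?_, cochainMap2_mem_B2 hcompat⟩
  exact inflation_injective_of_compat hcompat (galRes_surjective h) hinj hrange h1 hf hB

omit [IsGalois ℚ F'] in
theorem classInfl_comp [IsGalois ℚ F'] (h : F ≤ F') (h' : F' ≤ F'')
    (f : (F ≃ₐ[ℚ] F) × (F ≃ₐ[ℚ] F) → IdeleClass F) :
    classInfl h' (classInfl h f) = classInfl (h.trans h') f := by
  funext ⟨a, b⟩
  simp only [classInfl, cochainMap2_apply, classLe_comp, galRes_comp]

end level

end FermatLib.CFT
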