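import Fermat.Agent.CFT.DualLift

/-!
The perfect pairing between extension classes of classes modulo units and first cohomology at a
level, with finiteness, equality of orders and naturality in the presented module.
-/

set_option autoImplicit false

namespace FermatLib.CFT

variable {p : ℕ} [Fact p.Prime] {Γ G : Type*} [Group Γ] [Finite Γ] [Group G] [Fintype G]
  {C C₀ Q : Type*} [AddCommGroup C] [AddCommGroup C₀] [AddCommGroup Q] [DistribMulAction Γ C]
  [DistribMulAction G C₀] [DistribMulAction G Q]
  {π : Γ →* G} {bc : C₀ →+ C} {U₀ : AddSubgroup C₀}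
  {ι : Type*} [Fintype ι] {V : Type*} [AddCommGroup V] [DistribMulAction G V] {v : ι → V}

/-- First cohomology of `Γ` with values in a `G`-module. -/
abbrev piH1 (π : Γ →* G) (V : Type*) [AddCommGroup V] [DistribMulAction G V] : Type _ :=
  piZ1 π V ⧸ (piB1 π V).addSubgroupOf (piZ1 π V)

omit [Finite Γ] in
/-- The pairing cocycle of a coboundary dies. -/
theorem pairCocycle_coboundary_mem_B2 (hL : IsDualLevel p π bc U₀)
    {h : presKer (G := G) v →+ C₀} (hh : h ∈ equivHom G (presKer (G := G) v) C₀)
    (hv : Function.Surjective (presMap (G := G) v))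
    {w : Γ → V} (hw : w ∈ piB1 π V) {ξ : Γ × Γ → presKer (G := G) v}
    (hξ : IsConnecting π v w ξ) : pairCocycle bc h ξ ∈ B2 Γ C := by
  obtain ⟨w', hw', hξ'⟩ := hξ
  obtain ⟨a, ha⟩ := hw
  obtain ⟨a', rfl⟩ := hv a
  let d : Γ → presKer (G := G) v := fun s => ⟨w' s - (π s • a' - a'), by
    show presMap v _ = 0
    rw [map_sub, map_sub, presMap_smul, hw', ha, sub_self]⟩
  refine TN.mem_B2.2 ⟨fun s => bc (h (d s)), fun s t => ?_⟩
  have e : ξ (s, t) = π s • d t - d (s * t) + d s := by
    apply Subtype.ext
    rw [hξ', AddSubgroup.coe_add, AddSubgroup.coe_sub]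
    show _ = π s • (w' t - (π t • a' - a')) - (w' (s * t) - (π (s * t) • a' - a'))
      + (w' s - (π s • a' - a'))
    rw [map_mul, mul_smul, smul_sub, smul_sub]
    abel
  have := congrArg (fun x => bc (h x)) e
  simp only [map_add, map_sub, hh (π s)] at this
  rw [hL.compat] at this
  exact this

/-- The data of the pairing at a level: a quotient by the units with lifting of maps, and an
invariant detecting classes killed by `p`. -/
structure DualPairingData (p : ℕ) (π : Γ →* G) (bc : C₀ →+ C) (U₀ : AddSubgroup C₀) (v : ι → V)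
    (pr : C₀ →+ Q) (inv : classesKilled p Γ C →+ ZMod p) : Prop where
  level : IsDualLevel p π bc U₀
  killed : ∀ x : V, p • x = 0
  gen : Function.Surjective (presMap (G := G) v)
  pr_surj : Function.Surjective pr
  pr_smul : ∀ (g : G) (c : C₀), pr (g • c) = g • pr c
  pr_ker : ∀ c, pr c = 0 ↔ c ∈ U₀
  lift : ∀ hq ∈ equivHom G (presKer (G := G) v) Q,
    ∃ h ∈ equivHom G (presKer (G := G) v) C₀, ∀ x, pr (h x) = hq x
  inv_eq_zero : ∀ f : classesKilled p Γ C, inv f = 0 ↔ (f : Γ × Γ → C) ∈ B2 Γ C

namespace DualPairingData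

variable {pr : C₀ →+ Q} {inv : classesKilled p Γ C →+ ZMod p}
  (D : DualPairingData p π bc U₀ v pr inv)
include D

omit [Finite Γ] in
theorem inv_eq_inv {f f' : Γ × Γ → C} (hf : f ∈ classesKilled p Γ C)
    (hf' : f' ∈ classesKilled p Γ C) (h : f - f' ∈ B2 Γ C) : inv ⟨f, hf⟩ = inv ⟨f', hf'⟩ := by
  rw [← sub_eq_zero, ← map_sub, D.inv_eq_zero]
  exact h

/-- The value of the pairing. -/
noncomputable def val (h : equivHom G (presKer (G := G) v) C₀) (w : piZ1 π V) : ZMod p :=
  inv ⟨pairCocycle bc (h : presKer (G := G) v →+ C₀)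
      (Classical.choose (exists_isConnecting π D.gen w.2)),
    pairCocycle_mem_killed D.level D.killed h.2
      (Classical.choose_spec (exists_isConnecting π D.gen w.2))⟩

omit [Finite Γ] in
/-- The value of the pairing may be computed with any connecting cochain. -/
theorem val_eq (h : equivHom G (presKer (G := G) v) C₀) (w : piZ1 π V)
    {ξ : Γ × Γ → presKer (G := G) v} (hξ : IsConnecting π v (w : Γ → V) ξ) :
    D.val h w = inv ⟨pairCocycle bc (h : presKer (G := G) v →+ C₀) ξ,
      pairCocycle_mem_killed D.level D.killed h.2 hξ⟩ := by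
  refine D.inv_eq_inv _ _ ?_
  set ξ₀ := Classical.choose (exists_isConnecting π D.gen w.2)
  have hξ₀ := Classical.choose_spec (exists_isConnecting π D.gen w.2)
  obtain ⟨a, ha, ha'⟩ := hξ
  have hneg : IsConnecting π v (-(w : Γ → V)) (-ξ) :=
    ⟨-a, fun s => by simp [ha], fun s t => by
      rw [Pi.neg_apply, AddSubgroup.coe_neg, ha']
      simp only [Pi.neg_apply, smul_neg]
      abel⟩
  have hsum := isConnecting_add hξ₀ hneg
  rw [add_neg_cancel] at hsum
  convert pairCocycle_coboundary_mem_B2 D.level h.2 D.gen (zero_mem _) hsum using 1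
  funext t
  simp [pairCocycle, sub_eq_add_neg, ξ₀]

omit [Finite Γ] in
theorem val_add_left (h h' : equivHom G (presKer (G := G) v) C₀) (w : piZ1 π V) :
    D.val (h + h') w = D.val h w + D.val h' w := by
  rw [val, val, val, ← map_add]
  refine congrArg inv (Subtype.ext (funext fun t => ?_))
  simp [pairCocycle]

omit [Finite Γ] in
theorem val_add_right (h : equivHom G (presKer (G := G) v) C₀) (w w' : piZ1 π V) :
    D.val h (w + w') = D.val h w + D.val h w' := by
  obtain ⟨ξ, hξ⟩ := exists_isConnecting π D.gen w.2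
  obtain ⟨ξ', hξ'⟩ := exists_isConnecting π D.gen w'.2
  have hs : IsConnecting π v ((w + w' : piZ1 π V) : Γ → V) (ξ + ξ') := isConnecting_add hξ hξ'
  rw [D.val_eq h _ hs, D.val_eq h _ hξ, D.val_eq h _ hξ', ← map_add]
  refine congrArg inv (Subtype.ext (funext fun t => ?_))
  simp [pairCocycle]

omit [Finite Γ] in
theorem val_eq_zero_of_mem_piB1 (h : equivHom G (presKer (G := G) v) C₀) (w : piZ1 π V)
    (hw : (w : Γ → V) ∈ piB1 π V) : D.val h w = 0 :=
  (D.inv_eq_zero _).2 (pairCocycle_coboundary_mem_B2 D.level h.2 D.gen hw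
    (Classical.choose_spec (exists_isConnecting π D.gen w.2)))

omit [Finite Γ] in
theorem val_eq_zero_of_units (h : equivHom G (presKer (G := G) v) C₀)
    (hU : ∀ x, (h : presKer (G := G) v →+ C₀) x ∈ U₀) (w : piZ1 π V) : D.val h w = 0 :=
  (D.inv_eq_zero _).2 (pairCocycle_units_mem_B2 D.level D.killed h.2 hU
    (Classical.choose_spec (exists_isConnecting π D.gen w.2)))

omit [Finite Γ] in
theorem val_eq_zero_of_restrict (h : equivHom G (presKer (G := G) v) C₀) (F : Pres ι G →+ C₀)
    (hF : F ∈ equivHom G (Pres ι G) C₀)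
    (hU : ∀ x : presKer (G := G) v, (h : presKer (G := G) v →+ C₀) x - F x ∈ U₀) (w : piZ1 π V) :
    D.val h w = 0 := by
  let r : equivHom G (presKer (G := G) v) C₀ :=
    ⟨F.comp (presKer (G := G) v).subtype, fun g x => hF g (x : Pres ι G)⟩
  have h1 : D.val r w = 0 := (D.inv_eq_zero _).2 (pairCocycle_restrict_mem_B2 D.level hF
    (Classical.choose_spec (exists_isConnecting π D.gen w.2)))
  have h2 : D.val (h - r) w = 0 := D.val_eq_zero_of_units (h - r) hU w
  have := D.val_add_left (h - r) r w
  rw [sub_add_cancel, h1, h2, add_zero] at this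
  exact this

/-- The pairing on maps to `C₀`. -/
noncomputable def valHom (h : equivHom G (presKer (G := G) v) C₀) : piH1 π V →+ ZMod p :=
  QuotientAddGroup.lift _ (AddMonoidHom.mk' (D.val h) (D.val_add_right h))
    fun w hw => D.val_eq_zero_of_mem_piB1 h w hw

omit [Finite Γ] in
theorem valHom_mk (h : equivHom G (presKer (G := G) v) C₀) (w : piZ1 π V) :
    D.valHom h (QuotientAddGroup.mk w) = D.val h w := rfl

/-- A lift of a map to classes modulo units. -/
noncomputable def liftQ (hq : equivHom G (presKer (G := G) v) Q) :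
    equivHom G (presKer (G := G) v) C₀ :=
  ⟨Classical.choose (D.lift hq hq.2), (Classical.choose_spec (D.lift hq hq.2)).1⟩

omit [Finite Γ] in
theorem valHom_eq_of_pr (h : equivHom G (presKer (G := G) v) C₀)
    (hq : equivHom G (presKer (G := G) v) Q)
    (e : ∀ x, pr ((h : presKer (G := G) v →+ C₀) x) = (hq : presKer (G := G) v →+ Q) x) :
    D.valHom (D.liftQ hq) = D.valHom h := by
  refine AddMonoidHom.ext fun c => ?_
  induction c using QuotientAddGroup.induction_on with
  | H w =>
    rw [valHom_mk, valHom_mk, ← sub_eq_zero]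
    have h2 : D.val (D.liftQ hq - h) w = 0 := D.val_eq_zero_of_units _ (fun x => by
      rw [← D.pr_ker]
      show pr (Classical.choose (D.lift hq hq.2) x - _) = 0
      rw [map_sub, (Classical.choose_spec (D.lift hq hq.2)).2, e, sub_self]) w
    have := D.val_add_left (D.liftQ hq - h) h w
    rw [sub_add_cancel, h2, zero_add] at this
    rw [this, sub_self]

/-- The pairing on maps to classes modulo units. -/
noncomputable def valQ : equivHom G (presKer (G := G) v) Q →+ (piH1 π V →+ ZMod p) :=
  AddMonoidHom.mk' (fun hq => D.valHom (D.liftQ hq)) fun a b => by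
    rw [D.valHom_eq_of_pr (D.liftQ a + D.liftQ b) (a + b) fun x => ?_]
    · refine AddMonoidHom.ext fun c => ?_
      induction c using QuotientAddGroup.induction_on with
      | H w =>
        rw [AddMonoidHom.add_apply, valHom_mk, valHom_mk, valHom_mk, D.val_add_left]
    · simp only [AddSubgroup.coe_add, AddMonoidHom.add_apply, map_add]
      exact congrArg₂ (· + ·) ((Classical.choose_spec (D.lift a a.2)).2 x)
        ((Classical.choose_spec (D.lift b b.2)).2 x)

omit [Finite Γ] in
theorem valQ_apply (hq : equivHom G (presKer (G := G) v) Q)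
    (h : equivHom G (presKer (G := G) v) C₀)
    (e : ∀ x, pr ((h : presKer (G := G) v →+ C₀) x) = (hq : presKer (G := G) v →+ Q) x)
    (w : piZ1 π V) : D.valQ hq (QuotientAddGroup.mk w) = D.val h w := by
  show D.valHom (D.liftQ hq) _ = _
  rw [D.valHom_eq_of_pr h hq e, valHom_mk]

omit [Finite Γ] in
/-- Restricted maps pair to zero. -/
theorem valQ_presRestr (F : equivHom G (Pres ι G) Q) : D.valQ (presRestr G Q v F) = 0 := by
  obtain ⟨hfP, hgP⟩ := pres_free_finite (ι := ι) (G := G)
  obtain ⟨L, hL⟩ := Module.projective_lifting_property (R := ℤ) pr.toIntLinearMap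
    (F : Pres ι G →+ Q).toIntLinearMap D.pr_surj
  obtain ⟨e, he⟩ := pres_relTriv (ι := ι) (G := G)
  let F0 : Pres ι G →+ C₀ := ∑ c : G, (DistribSMul.toAddMonoidHom C₀ c).comp
    (L.toAddMonoidHom.comp (e.comp (DistribSMul.toAddMonoidHom _ c⁻¹)))
  have hF0 : ∀ y, F0 y = ∑ c : G, c • L (e (c⁻¹ • y)) := fun y => by simp [F0]
  have hF0eq : F0 ∈ equivHom G (Pres ι G) C₀ := fun g y => by
    rw [hF0, hF0, Finset.smul_sum]
    exact (Fintype.sum_equiv (Equiv.mulLeft g) _ _ fun c => by simp [mul_smul]).symm
  have hpr : ∀ y, pr (F0 y) = (F : Pres ι G →+ Q) y := fun y => by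
    have hF' : ∀ (c : G) z, c • (F : Pres ι G →+ Q) z = (F : Pres ι G →+ Q) (c • z) :=
      fun c z => (F.2 c z).symm
    have hL' : ∀ z, pr (L z) = (F : Pres ι G →+ Q) z := LinearMap.congr_fun hL
    rw [hF0, map_sum]
    simp only [D.pr_smul, hL', hF']
    rw [← map_sum, he]
  refine AddMonoidHom.ext fun c => ?_
  induction c using QuotientAddGroup.induction_on with
  | H w =>
    let r : equivHom G (presKer (G := G) v) C₀ :=
      ⟨F0.comp (presKer (G := G) v).subtype, fun g x => hF0eq g (x : Pres ι G)⟩
    rw [D.valQ_apply _ r (fun x => hpr _)]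
    exact D.val_eq_zero_of_restrict r F0 hF0eq (fun x => by
      rw [show (r : presKer (G := G) v →+ C₀) x = F0 x from rfl, sub_self]; exact zero_mem _) w

/-- The pairing between extension classes and first cohomology. -/
noncomputable def pairing : ext1 G Q v →+ (piH1 π V →+ ZMod p) :=
  QuotientAddGroup.lift _ D.valQ (by rintro _ ⟨F, rfl⟩; exact D.valQ_presRestr F)

/-- The pairing is nondegenerate on the side of extension classes. -/
theorem pairing_injective : Function.Injective D.pairing := by
  rw [injective_iff_map_eq_zero]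
  intro c hc
  induction c using QuotientAddGroup.induction_on with
  | H hq =>
    let h := D.liftQ hq
    have hlift : ∀ x, pr ((h : presKer (G := G) v →+ C₀) x) = (hq : presKer (G := G) v →+ Q) x :=
      (Classical.choose_spec (D.lift hq hq.2)).2
    obtain ⟨F, hF, hFU⟩ := D.level.exists_extension D.killed h.2 fun w ξ hw hξ => by
      have h0 : D.valQ hq (QuotientAddGroup.mk ⟨w, hw⟩) = 0 := DFunLike.congr_fun hc _
      rw [D.valQ_apply hq h hlift, D.val_eq h ⟨w, hw⟩ hξ, D.inv_eq_zero] at h0
      exact h0
    refine (QuotientAddGroup.eq_zero_iff _).2 ⟨⟨pr.comp F, fun g y => by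
      rw [AddMonoidHom.comp_apply, AddMonoidHom.comp_apply, hF, D.pr_smul]⟩,
      Subtype.ext (AddMonoidHom.ext fun x => ?_)⟩
    show pr (F x) = _
    rw [← hlift, ← sub_eq_zero, ← map_sub, D.pr_ker, ← neg_sub]
    exact neg_mem (hFU x)

/-- The pairing is nondegenerate on the side of cohomology classes. -/
theorem pairing_flip_injective {c : piH1 π V} (hc : ∀ e : ext1 G Q v, D.pairing e c = 0) :
    c = 0 := by
  induction c using QuotientAddGroup.induction_on with
  | H w =>
    obtain ⟨ξ, hξ⟩ := exists_isConnecting π D.gen w.2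
    refine (QuotientAddGroup.eq_zero_iff _).2 (D.level.mem_piB1_of_pairing D.killed hξ fun h hh => ?_)
    let hq : equivHom G (presKer (G := G) v) Q := ⟨pr.comp h, fun g x => by
      rw [AddMonoidHom.comp_apply, AddMonoidHom.comp_apply, hh, D.pr_smul]⟩
    have h0 : D.valQ hq (QuotientAddGroup.mk w) = 0 := hc (QuotientAddGroup.mk hq)
    rw [D.valQ_apply hq ⟨h, hh⟩ (fun x => rfl), D.val_eq ⟨h, hh⟩ w hξ, D.inv_eq_zero] at h0
    exact h0

end DualPairingData

theorem natCard_hom_zmod_of_module {M : Type*} [AddCommGroup M] [Finite M] [Module (ZMod p) M] :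
    Nat.card (M →+ ZMod p) = Nat.card M := by
  have h1 : Nat.card (Module.Dual (ZMod p) M)
      = Nat.card (ZMod p) ^ Module.finrank (ZMod p) (Module.Dual (ZMod p) M) :=
    Module.natCard_eq_pow_finrank
  have h2 : Nat.card M = Nat.card (ZMod p) ^ Module.finrank (ZMod p) M :=
    Module.natCard_eq_pow_finrank
  rw [Nat.card_congr (AddMonoidHom.toZModLinearMapEquiv p).toEquiv, h1, h2,
    Subspace.dual_finrank_eq]

/-- A finite group killed by `p` has as many homomorphisms to `ZMod p` as elements. -/
theorem natCard_hom_zmod {M : Type*} [AddCommGroup M] [Finite M] (hM : ∀ x : M, p • x = 0) :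
    Nat.card (M →+ ZMod p) = Nat.card M :=
  @natCard_hom_zmod_of_module p _ M _ _ (AddCommGroup.zmodModule hM)

namespace DualPairingData

variable [Finite V] {pr : C₀ →+ Q} {inv : classesKilled p Γ C →+ ZMod p}
  (D : DualPairingData p π bc U₀ v pr inv)
include D

/-- Extension classes are finite. -/
theorem finite_ext1 : Finite (ext1 G Q v) :=
  haveI : Finite (piH1 π V →+ ZMod p) := Finite.of_injective _ DFunLike.coe_injective
  Finite.of_injective _ D.pairing_injective

omit [Finite Γ] [Finite V] in
theorem nsmul_piH1_eq_zero (c : piH1 π V) : p • c = 0 := by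
  induction c using QuotientAddGroup.induction_on with
  | H w =>
    rw [← QuotientAddGroup.mk_nsmul, QuotientAddGroup.eq_zero_iff]
    have : p • w = 0 := Subtype.ext (funext fun s => by simpa using D.killed ((w : Γ → V) s))
    rw [this]
    exact zero_mem _

/-- Extension classes and cohomology classes are equally many. -/
theorem natCard_ext1 : Nat.card (ext1 G Q v) = Nat.card (piH1 π V) := by
  haveI := D.finite_ext1
  haveI : Finite (piH1 π V →+ ZMod p) := Finite.of_injective _ DFunLike.coe_injective
  haveI : Finite (ext1 G Q v →+ ZMod p) := Finite.of_injective _ DFunLike.coe_injective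
  refine le_antisymm ((Nat.card_le_card_of_injective _ D.pairing_injective).trans
    (natCard_hom_zmod D.nsmul_piH1_eq_zero).le) ?_
  have hflip : Function.Injective fun c : piH1 π V =>
      (AddMonoidHom.mk' (fun e => D.pairing e c) fun a b => by
        rw [map_add, AddMonoidHom.add_apply] : ext1 G Q v →+ ZMod p) := fun c c' hcc => by
    refine sub_eq_zero.1 (D.pairing_flip_injective fun e => ?_)
    have e' : D.pairing e c = D.pairing e c' := DFunLike.congr_fun hcc e
    rw [map_sub, e', sub_self]
  refine (Nat.card_le_card_of_injective _ hflip).trans (natCard_hom_zmod fun e => ?_).le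
  refine D.pairing_injective ?_
  rw [map_zero, map_nsmul]
  ext c
  simp

/-- The pairing identifies extension classes with all characters of cohomology. -/
theorem pairing_bijective : Function.Bijective D.pairing := by
  haveI := D.finite_ext1
  haveI : Finite (piH1 π V →+ ZMod p) := Finite.of_injective _ DFunLike.coe_injective
  rw [Nat.bijective_iff_injective_and_card]
  exact ⟨D.pairing_injective, by rw [natCard_hom_zmod D.nsmul_piH1_eq_zero, D.natCard_ext1]⟩

end DualPairingData

section naturality
variable {V' : Type*} [AddCommGroup V'] [DistribMulAction G V'] (α : V →+ V')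
  (hα : ∀ (g : G) (x : V), α (g • x) = g • α x)

include hα in
omit [Fact p.Prime] in
theorem presMap_comp (y : Pres ι G) : presMap (fun i => α (v i)) y = α (presMap v y) := by
  show ∑ i, ∑ g, y i g • (g • α (v i)) = α (∑ i, ∑ g, y i g • (g • v i))
  simp [map_sum, map_zsmul, hα]

/-- Relations of a presentation are relations of its image. -/
def presKerIncl : presKer (G := G) v →+ presKer (G := G) (fun i => α (v i)) :=
  AddMonoidHom.mk' (fun x => ⟨x, by
    show presMap (fun i => α (v i)) (x : Pres ι G) = 0
    rw [presMap_comp α hα, (x.2 : presMap v (x : Pres ι G) = 0), map_zero]⟩)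
    fun _ _ => rfl

omit [Fact p.Prime] [Finite Γ] in
theorem isConnecting_map {w : Γ → V} {ξ : Γ × Γ → presKer (G := G) v}
    (hξ : IsConnecting π v w ξ) :
    IsConnecting π (fun i => α (v i)) (fun s => α (w s)) (fun t => presKerIncl α hα (ξ t)) := by
  obtain ⟨a, ha, ha'⟩ := hξ
  exact ⟨a, fun s => by rw [presMap_comp α hα, ha], ha'⟩

/-- Pulling maps back to the relations of the source. -/
def presKerPull (A : Type*) [AddCommGroup A] [DistribMulAction G A] :
    equivHom G (presKer (G := G) (fun i => α (v i))) A →+ equivHom G (presKer (G := G) v) A :=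
  AddMonoidHom.mk' (fun h => ⟨(h : _ →+ A).comp (presKerIncl α hα), fun g x => by
    rw [AddMonoidHom.comp_apply, AddMonoidHom.comp_apply, ← h.2]
    rfl⟩) fun _ _ => rfl

omit [Finite Γ] in
/-- The pairing is natural in the presented module. -/
theorem DualPairingData.valQ_natural {pr : C₀ →+ Q} {inv : classesKilled p Γ C →+ ZMod p}
    (D : DualPairingData p π bc U₀ v pr inv)
    (D' : DualPairingData p π bc U₀ (fun i => α (v i)) pr inv)
    (hq : equivHom G (presKer (G := G) (fun i => α (v i))) Q) (w : piZ1 π V)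
    (hw : (fun s => α ((w : Γ → V) s)) ∈ piZ1 π V') :
    D'.valQ hq (QuotientAddGroup.mk ⟨_, hw⟩)
      = D.valQ (presKerPull α hα Q hq) (QuotientAddGroup.mk w) := by
  obtain ⟨ξ, hξ⟩ := exists_isConnecting π D.gen w.2
  let h := D'.liftQ hq
  have hlift : ∀ x, pr ((h : presKer (G := G) (fun i => α (v i)) →+ C₀) x)
      = (hq : presKer (G := G) (fun i => α (v i)) →+ Q) x :=
    (Classical.choose_spec (D'.lift hq hq.2)).2
  rw [D'.valQ_apply hq h hlift, D.valQ_apply _ (presKerPull α hα C₀ h) (fun x => hlift _),
    D'.val_eq h _ (isConnecting_map α hα hξ), D.val_eq _ _ hξ]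
  rfl

end naturality

end FermatLib.CFT
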