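import Fermat.Agent.CFT.IdeleLocalField
import Fermat.Agent.Galois.CyclotomicFrobenius
import Fermat.Prelude.Def_GaloisRep_CompletionBridge

/-!
The decomposition group of `padicPlace q` is the image of the local Galois group: an automorphism
preserving the unit disc preserves the norm, hence extends by continuity.
-/

set_option autoImplicit false

open scoped Pointwise

namespace FermatLib.CFT

variable {q : Nat.Primes}

local notation "Qbar" => AlgebraicClosure ℚ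

/-- The norm on `ℚ̄` is determined by its unit disc. -/
theorem norm_padicEmbedding_apply_eq {σ : Qbar ≃ₐ[ℚ] Qbar}
    (hσ : σ ∈ (padicPlace (q : ℕ)).decompositionSubgroup ℚ) (x : Qbar) :
    ‖padicEmbedding (q : ℕ) (σ x)‖ = ‖padicEmbedding (q : ℕ) x‖ := by
  have hle : ∀ y, ‖padicEmbedding (q : ℕ) (σ y)‖ ≤ 1 ↔ ‖padicEmbedding (q : ℕ) y‖ ≤ 1 := by
    intro y
    have h1 := ValuationSubring.mem_pointwise_smul_iff_inv_smul_mem (g := σ)
      (S := padicPlace (q : ℕ)) (x := σ y)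
    rw [MulAction.mem_stabilizer_iff.mp hσ] at h1
    have h2 : σ y ∈ padicPlace (q : ℕ) ↔ y ∈ padicPlace (q : ℕ) := by
      rw [h1, AlgEquiv.smul_def, AlgEquiv.aut_inv, AlgEquiv.symm_apply_apply]
    simpa [mem_padicPlace_iff, ← NNReal.coe_le_coe] using h2
  suffices key : ∀ τ : Qbar ≃ₐ[ℚ] Qbar,
      (∀ y, ‖padicEmbedding (q : ℕ) (τ y)‖ ≤ 1 ↔ ‖padicEmbedding (q : ℕ) y‖ ≤ 1) →
      ∀ y, ‖padicEmbedding (q : ℕ) y‖ ≤ ‖padicEmbedding (q : ℕ) (τ y)‖ by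
    refine le_antisymm ?_ (key σ hle x)
    have := key σ.symm (fun y => by
      have := hle (σ.symm y)
      rw [AlgEquiv.apply_symm_apply] at this
      exact this.symm) (σ x)
    rwa [AlgEquiv.symm_apply_apply] at this
  intro τ hτ y
  by_contra hlt
  rw [not_le] at hlt
  have hy0 : y ≠ 0 := fun h => by simp [h] at hlt
  set a := ‖padicEmbedding (q : ℕ) (τ y)‖
  set b := ‖padicEmbedding (q : ℕ) y‖
  have ha : 0 < a := norm_pos_iff.2 (by simpa using hy0)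
  have hq : (1 : ℝ) < ((q : ℕ) : ℝ) := by exact_mod_cast q.2.one_lt
  obtain ⟨m, hm⟩ := pow_unbounded_of_one_lt ((q : ℕ) : ℝ) ((one_lt_div ha).2 hlt)
  obtain ⟨n, hn, hn'⟩ := exists_mem_Ioc_zpow (pow_pos (ha.trans hlt) m) hq
  have hnorm : ∀ z : Qbar, ‖padicEmbedding (q : ℕ) (z ^ m * ((q : ℕ) : Qbar) ^ n)‖ =
      ‖padicEmbedding (q : ℕ) z‖ ^ m * (((q : ℕ) : ℝ)⁻¹) ^ n := fun z => by
    rw [map_mul, map_pow, map_zpow₀, map_natCast, norm_mul, norm_pow, norm_zpow,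
      ← map_natCast (algebraMap ℚ_[(q : ℕ)] (PadicAlgCl (q : ℕ))), norm_algebraMap',
      Padic.norm_p]
  have h1 := hnorm y
  have h2 := hnorm (τ y)
  have hqn : (0 : ℝ) < ((q : ℕ) : ℝ) ^ n := zpow_pos (zero_lt_one.trans hq) n
  have h3 := hτ (y ^ m * ((q : ℕ) : Qbar) ^ n)
  rw [map_mul, map_pow, map_zpow₀, map_natCast, h2, h1, inv_zpow, ← div_eq_mul_inv,
    ← div_eq_mul_inv, div_le_one hqn, div_le_one hqn] at h3
  rw [div_pow, lt_div_iff₀ (pow_pos ha m)] at hm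
  rw [zpow_add_one₀ (zero_lt_one.trans hq).ne'] at hn'
  have hbig : ¬ b ^ m ≤ ((q : ℕ) : ℝ) ^ n := not_le.2 hn
  refine hbig (h3.mp ?_)
  nlinarith [hm, hn', zero_lt_one.trans hq]

/-- Linear combinations with the same norm at rational coefficients have the same norm. -/
theorem norm_combination_eq_of_rat {ι : Type*} [Fintype ι] {z w : ι → PadicAlgCl (q : ℕ)}
    (h : ∀ c : ι → ℚ, ‖∑ i, (c i : PadicAlgCl (q : ℕ)) * z i‖ =
      ‖∑ i, (c i : PadicAlgCl (q : ℕ)) * w i‖)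
    (c : ι → ℚ_[(q : ℕ)]) :
    ‖∑ i, algebraMap ℚ_[(q : ℕ)] (PadicAlgCl (q : ℕ)) (c i) * z i‖ =
      ‖∑ i, algebraMap ℚ_[(q : ℕ)] (PadicAlgCl (q : ℕ)) (c i) * w i‖ := by
  have hcont : ∀ z : ι → PadicAlgCl (q : ℕ), Continuous fun c : ι → ℚ_[(q : ℕ)] =>
      ‖∑ i, algebraMap ℚ_[(q : ℕ)] (PadicAlgCl (q : ℕ)) (c i) * z i‖ := fun z =>
    (continuous_finsetSum _ fun i _ =>
      ((continuous_algebraMap _ _).comp (continuous_apply i)).mul continuous_const).norm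
  refine congrFun ((DenseRange.piMap fun _ : ι => Padic.denseRange_ratCast (q : ℕ)).equalizer
    (hcont z) (hcont w) (funext fun c => ?_)) c
  simpa [Pi.map] using h c

/-- Polynomial expressions with the same norm at rational coefficients have the same norm. -/
theorem norm_finsetCombination_eq_of_rat {ι : Type*} (s : Finset ι)
    {z w : ι → PadicAlgCl (q : ℕ)}
    (h : ∀ c : ι → ℚ, ‖∑ i ∈ s, (c i : PadicAlgCl (q : ℕ)) * z i‖ =
      ‖∑ i ∈ s, (c i : PadicAlgCl (q : ℕ)) * w i‖)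
    (c : ι → ℚ_[(q : ℕ)]) :
    ‖∑ i ∈ s, algebraMap ℚ_[(q : ℕ)] (PadicAlgCl (q : ℕ)) (c i) * z i‖ =
      ‖∑ i ∈ s, algebraMap ℚ_[(q : ℕ)] (PadicAlgCl (q : ℕ)) (c i) * w i‖ := by
  classical
  rw [← Finset.sum_coe_sort, ← Finset.sum_coe_sort s]
  refine norm_combination_eq_of_rat (z := fun i : s => z i) (w := fun i : s => w i)
    (fun c => ?_) (fun i : s => c i)
  have := h fun i => if hi : i ∈ s then c ⟨i, hi⟩ else 0
  rw [← Finset.sum_coe_sort, ← Finset.sum_coe_sort s] at this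
  simpa using this

/-- A norm preserving automorphism of `ℚ̄` extends to a local automorphism. -/
theorem exists_gloc_extending {σ : Qbar ≃ₐ[ℚ] Qbar}
    (hσ : ∀ x, ‖padicEmbedding (q : ℕ) (σ x)‖ = ‖padicEmbedding (q : ℕ) x‖) :
    ∃ τ : Gloc q, ∀ x, τ (padicEmbedding (q : ℕ) x) = padicEmbedding (q : ℕ) (σ x) := by
  classical
  let e := padicEmbedding (q : ℕ)
  let P := MvPolynomial Qbar ℚ_[(q : ℕ)]
  let φ₁ : P →ₐ[ℚ_[(q : ℕ)]] PadicAlgCl (q : ℕ) := MvPolynomial.aeval fun x => e x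
  let φ₂ : P →ₐ[ℚ_[(q : ℕ)]] PadicAlgCl (q : ℕ) := MvPolynomial.aeval fun x => e (σ x)
  have hnorm : ∀ p : P, ‖φ₁ p‖ = ‖φ₂ p‖ := by
    intro p
    simp only [φ₁, φ₂]
    refine norm_finsetCombination_eq_of_rat p.support
      (z := fun d => ∏ i ∈ d.support, e i ^ d i)
      (w := fun d => ∏ i ∈ d.support, e (σ i) ^ d i) (fun c => ?_) (fun d => p.coeff d)
    have h := (hσ (∑ d ∈ p.support, (c d : Qbar) * ∏ i ∈ d.support, i ^ d i)).symm
    simpa only [e, map_sum, map_mul, map_prod, map_pow, map_ratCast] using h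
  have hker : ∀ p ∈ RingHom.ker φ₁, φ₂ p = 0 := fun p hp => by
    rw [← norm_eq_zero, ← hnorm, norm_eq_zero]
    exact hp
  let E : IntermediateField ℚ_[(q : ℕ)] (PadicAlgCl (q : ℕ)) :=
    φ₁.range.toIntermediateField fun x hx => φ₁.range.inv_mem_of_algebraic (x := ⟨x, hx⟩)
      (Algebra.IsAlgebraic.isAlgebraic x)
  let θ : E →ₐ[ℚ_[(q : ℕ)]] PadicAlgCl (q : ℕ) :=
    (Ideal.Quotient.liftₐ (RingHom.ker φ₁) φ₂ hker).comp
      (Ideal.quotientKerEquivRange φ₁).symm.toAlgHom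
  let τ₀ : PadicAlgCl (q : ℕ) →ₐ[ℚ_[(q : ℕ)]] PadicAlgCl (q : ℕ) :=
    θ.liftNormal (PadicAlgCl (q : ℕ))
  refine ⟨AlgEquiv.ofBijective τ₀ (Algebra.IsAlgebraic.algHom_bijective τ₀), fun x => ?_⟩
  have hx : φ₁ (MvPolynomial.X x) = e x := MvPolynomial.aeval_X _ x
  have h1 : τ₀ (e x) = θ ⟨e x, MvPolynomial.X x, hx⟩ :=
    θ.liftNormal_commutes (PadicAlgCl (q : ℕ)) ⟨e x, MvPolynomial.X x, hx⟩
  show τ₀ (e x) = e (σ x)
  rw [h1]
  have h2 : (Ideal.quotientKerEquivRange φ₁).symm ⟨e x, MvPolynomial.X x, hx⟩ =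
      Ideal.Quotient.mk _ (MvPolynomial.X x) := by
    rw [AlgEquiv.symm_apply_eq]
    exact Subtype.ext hx.symm
  show Ideal.Quotient.liftₐ (RingHom.ker φ₁) φ₂ hker
    ((Ideal.quotientKerEquivRange φ₁).symm ⟨e x, _⟩) = e (σ x)
  rw [h2]
  exact MvPolynomial.aeval_X _ x

theorem decompositionSubgroup_padicPlace_eq (q : Nat.Primes) :
    (padicPlace (q : ℕ)).decompositionSubgroup ℚ = (localGaloisToGlobal (q : ℕ)).range := by
  refine le_antisymm (fun σ hσ => ?_) ?_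
  · obtain ⟨τ, hτ⟩ := exists_gloc_extending (norm_padicEmbedding_apply_eq hσ)
    exact ⟨τ, AlgEquiv.ext fun x => (padicEmbedding (q : ℕ)).toRingHom.injective
      ((padicEmbedding_localGaloisToGlobal (q : ℕ) τ x).trans (hτ x))⟩
  · rintro _ ⟨τ, rfl⟩
    exact localGaloisToGlobal_mem_decompositionSubgroup (q : ℕ) τ

end FermatLib.CFT
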