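import Fermat.Agent.CFT.IdeleLocalField
import Fermat.Agent.CFT.IdeleBridgeDecomp
import Fermat.Agent.Galois.PlaceFiniteLevel
import Fermat.Prelude.Def_GroupCohomology_ContinuousUnramified

/-!
Bridge between embeddings and the places of `ℚ̄` used by the Prelude.
-/

set_option autoImplicit false

open NumberField
open scoped Pointwise

namespace FermatLib.CFT

variable {q : Nat.Primes}

/-- The embedding of a subfield of `ℚ̄` given by `padicEmbedding`. -/
noncomputable def stdEmb (F : IntermediateField ℚ (AlgebraicClosure ℚ)) (q : Nat.Primes) :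
    Emb F q :=
  (padicEmbedding (q : ℕ)).toRingHom.comp (algebraMap F (AlgebraicClosure ℚ))

theorem padicPlace_liesOverPrime (q : Nat.Primes) :
    (padicPlace (q : ℕ)).LiesOverPrime (q : ℕ) :=
  FermatLib.Galois.padicPlace_liesOverPrime (q : ℕ)

theorem exists_smul_padicPlace_eq (A : ValuationSubring (AlgebraicClosure ℚ))
    (hA : A.LiesOverPrime (q : ℕ)) :
    ∃ g : AlgebraicClosure ℚ ≃ₐ[ℚ] AlgebraicClosure ℚ, g • padicPlace (q : ℕ) = A :=
  FermatLib.Galois.exists_smul_padicPlace_eq hA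

theorem decompositionSubgroup_padicPlace (q : Nat.Primes) :
    (padicPlace (q : ℕ)).decompositionSubgroup ℚ = (localGaloisToGlobal (q : ℕ)).range :=
  decompositionSubgroup_padicPlace_eq q

theorem mem_padicPlace_iff_norm (x : AlgebraicClosure ℚ) :
    x ∈ padicPlace (q : ℕ) ↔ ‖padicEmbedding (q : ℕ) x‖ ≤ 1 :=
  (mem_padicPlace_iff (q : ℕ)).trans NNReal.coe_le_coe.symm

theorem mem_nonunits_padicPlace_iff (x : AlgebraicClosure ℚ) :
    x ∈ (padicPlace (q : ℕ)).nonunits ↔ ‖padicEmbedding (q : ℕ) x‖ < 1 := by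
  rcases eq_or_ne x 0 with rfl | hx
  · simp
  rw [ValuationSubring.mem_nonunits_iff_or, mem_padicPlace_iff_norm, not_le, map_inv₀, norm_inv]
  have hpos : 0 < ‖padicEmbedding (q : ℕ) x‖ := norm_pos_iff.2 (by simpa using hx)
  exact ⟨fun h => h.elim (fun h0 => absurd h0 hx) fun h => (one_lt_inv₀ hpos).1 h,
    fun h => Or.inr ((one_lt_inv₀ hpos).2 h)⟩

variable (F : IntermediateField ℚ (AlgebraicClosure ℚ)) [NumberField F] [IsGalois ℚ F]

omit [IsGalois ℚ F] in
theorem mem_decompGroup_stdEmb_iff (g : F ≃ₐ[ℚ] F) :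
    g ∈ decompGroup (stdEmb F q) ↔
      ∃ τ : Gloc q, ∀ x : F, ((g x : F) : AlgebraicClosure ℚ) =
        localGaloisToGlobal (q : ℕ) τ x :=
  exists_congr fun τ => ⟨fun h x => (padicEmbedding (q : ℕ)).toRingHom.injective
      ((RingHom.congr_fun h x).symm.trans (padicEmbedding_localGaloisToGlobal (q : ℕ) τ x).symm),
    fun h => RingHom.ext fun x => ((congrArg (padicEmbedding (q : ℕ)) (h x)).trans
      (padicEmbedding_localGaloisToGlobal (q : ℕ) τ x)).symm⟩

theorem mem_inertiaGroup_stdEmb_iff (g : F ≃ₐ[ℚ] F) :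
    g ∈ inertiaGroup (stdEmb F q) ↔
      ∃ σ ∈ (padicPlace (q : ℕ)).inertiaSubgroupIn ℚ, ∀ x : F,
        ((g x : F) : AlgebraicClosure ℚ) = σ x := by
  constructor
  · rintro ⟨-, h⟩
    obtain ⟨σ, hσ, hres⟩ := FermatLib.Galois.exists_inertia_restrictNormal_eq F q.2
      (padicPlace_liesOverPrime q) (s := g) (fun a => by
        change g • a - a ∈ FermatLib.Galois.placePrime F (padicPlace (q : ℕ))
        rw [FermatLib.Galois.mem_placePrime_iff, mem_nonunits_padicPlace_iff]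
        have h1 := h (a : F) ((stdEmb F q).norm_le_one_of_isIntegral (NumberField.RingOfIntegers.isIntegral_coe a))
        rw [← map_sub] at h1
        exact h1)
    refine ⟨σ, hσ, fun x => ?_⟩
    rw [← hres]
    exact AlgEquiv.restrictNormal_commutes σ F x
  · rintro ⟨σ, hσ, hx⟩
    obtain ⟨hd, hres⟩ := FermatLib.Galois.mem_inertiaSubgroupIn_iff_forall_mem.mp hσ
    rw [decompositionSubgroup_padicPlace] at hd
    obtain ⟨τ, rfl⟩ := hd
    refine ⟨(mem_decompGroup_stdEmb_iff F g).2 ⟨τ, hx⟩, fun x hx1 => ?_⟩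
    have h1 := hres (x : AlgebraicClosure ℚ) ((mem_padicPlace_iff_norm _).2 hx1)
    rw [← hx x, mem_nonunits_padicPlace_iff, map_sub] at h1
    exact h1

theorem conj_mem_inertiaGroup {L : Type} [Field L] [NumberField L] (φ : Emb L q) (h : L ≃ₐ[ℚ] L)
    {g : L ≃ₐ[ℚ] L} (hg : g ∈ inertiaGroup (φ.preComp h)) : h * g * h⁻¹ ∈ inertiaGroup φ := by
  obtain ⟨⟨τ, hτ⟩, hres⟩ := hg
  refine ⟨⟨τ, RingHom.ext fun x => ?_⟩, fun x hx => ?_⟩
  · have h1 := RingHom.congr_fun hτ (h⁻¹ x)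
    change τ (φ (h (h⁻¹ x))) = φ (h (g (h⁻¹ x))) at h1
    rwa [AlgEquiv.aut_inv, AlgEquiv.apply_symm_apply] at h1
  · have h1 := hres (h⁻¹ x)
    change ‖φ (h (h⁻¹ x))‖ ≤ 1 → ‖φ (h (g (h⁻¹ x))) - φ (h (h⁻¹ x))‖ < 1 at h1
    rw [AlgEquiv.aut_inv, AlgEquiv.apply_symm_apply] at h1
    exact h1 hx

theorem isUnramifiedOutside_iff (S : Finset Nat.Primes) :
    F.IsUnramifiedOutside S ↔
      ∀ q ∉ S, IsUnramifiedAtRel (⊤ : Subgroup (F ≃ₐ[ℚ] F)) q := by
  constructor
  · intro h q hq φ g _ hg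
    obtain ⟨k, rfl⟩ := Emb.exists_preComp_eq (stdEmb F q) φ
    obtain ⟨σ, hσ, hx⟩ := (mem_inertiaGroup_stdEmb_iff F _).1 (conj_mem_inertiaGroup _ k hg)
    have h1 : k * g * k⁻¹ = 1 := AlgEquiv.ext fun x => Subtype.ext ((hx x).trans
      ((IntermediateField.mem_fixingSubgroup_iff F σ).1
        (h.2 q hq _ (padicPlace_liesOverPrime q) hσ) x x.2))
    rwa [mul_inv_eq_one, mul_eq_left] at h1
  · intro h
    refine ⟨inferInstance, fun q hq A hA σ hσ => ?_⟩
    obtain ⟨γ, hγ⟩ := exists_smul_padicPlace_eq A hA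
    have hp : γ⁻¹ • A = padicPlace (q : ℕ) := by rw [← hγ, inv_smul_smul]
    have hσ' := FermatLib.Galois.inertia_conj_mem γ⁻¹ hσ
    rw [hp, inv_inv] at hσ'
    set ρ := AlgEquiv.restrictNormalHom (F := ℚ) (K₁ := AlgebraicClosure ℚ) F
    have h1 : ρ (γ⁻¹ * σ * γ) = 1 := by
      refine h q hq (stdEmb F q) _ trivial ((mem_inertiaGroup_stdEmb_iff F _).2 ⟨_, hσ', fun x => ?_⟩)
      exact AlgEquiv.restrictNormal_commutes _ F x
    rw [map_mul, map_mul, map_inv, mul_eq_one_iff_eq_inv] at h1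
    have h2 : ρ σ = 1 := by
      rwa [inv_mul_eq_iff_eq_mul, mul_inv_cancel] at h1
    rw [IntermediateField.mem_fixingSubgroup_iff]
    intro x hx
    have h3 := AlgEquiv.restrictNormal_commutes σ F ⟨x, hx⟩
    rw [show σ.restrictNormal F = 1 from h2] at h3
    exact h3.symm

end FermatLib.CFT
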