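import Fermat.Agent.CFT.GWDefs
import Fermat.Agent.CFT.IdeleBridge
import Fermat.Agent.Galois.FrobeniusElement

/-!
Classes unramified at a prime and change of the finite set `S`.
-/

set_option autoImplicit false

open CategoryTheory Module groupCohomology ExtCitation
open scoped Pointwise

local instance gwQbarIsGalois : IsGalois ℚ (AlgebraicClosure ℚ) :=
  haveI : IsAlgClosure ℚ (AlgebraicClosure ℚ) := ⟨inferInstance, AlgebraicClosure.isAlgebraic ℚ⟩
  IsAlgClosure.isGalois ℚ (AlgebraicClosure ℚ)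

namespace FermatLib.CFT

variable {p : ℕ} [Fact p.Prime]

local notation "Γℚ" => AlgebraicClosure ℚ ≃ₐ[ℚ] AlgebraicClosure ℚ

/-- `N` is unramified outside `S`. -/
def GWUnramifiedOutside (N : Rep (ZMod p) Γℚ) (S : Finset Nat.Primes) : Prop :=
  ∀ q : Nat.Primes, q ∉ S → ∀ A : ValuationSubring (AlgebraicClosure ℚ),
    A.LiesOverPrime (q : ℕ) → ∀ g ∈ A.inertiaSubgroupIn ℚ, N.ρ g = 1

theorem GWUnramifiedOutside.mono {N : Rep (ZMod p) Γℚ} {S T : Finset Nat.Primes}
    (h : GWUnramifiedOutside N S) (hST : S ⊆ T) : GWUnramifiedOutside N T :=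
  fun q hq => h q fun hqS => hq (hST hqS)

theorem primeLocalPlace_eq (q : Nat.Primes) : primeLocalPlace q = padicPlace (q : ℕ) := rfl

/-- Inertia at the standard place comes from the local group. -/
theorem exists_local_of_mem_inertia (q : Nat.Primes) {σ : Γℚ}
    (hσ : σ ∈ (primeLocalPlace q).inertiaSubgroupIn ℚ) :
    ∃ g, primeLocalToGlobal q g = σ := by
  have h := Galois.inertiaSubgroupIn_le_decompositionSubgroup hσ
  rw [primeLocalPlace_eq, decompositionSubgroup_padicPlace] at h
  exact h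

/-- Inertia at any place over `q` is conjugate to inertia at the standard place. -/
theorem exists_conj_inertia (q : Nat.Primes) {A : ValuationSubring (AlgebraicClosure ℚ)}
    (hA : A.LiesOverPrime (q : ℕ)) {σ : Γℚ} (hσ : σ ∈ A.inertiaSubgroupIn ℚ) :
    ∃ (h : Γℚ) (g : primeLocalGaloisGroup q),
      primeLocalToGlobal q g ∈ (primeLocalPlace q).inertiaSubgroupIn ℚ ∧
        σ = h * primeLocalToGlobal q g * h⁻¹ := by
  obtain ⟨h, rfl⟩ := exists_smul_padicPlace_eq A hA
  rw [Galois.mem_inertiaSubgroupIn_smul] at hσ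
  obtain ⟨g, hg⟩ := exists_local_of_mem_inertia q hσ
  refine ⟨h, g, ?_, ?_⟩
  · rw [hg]; exact hσ
  · rw [hg]; group

variable {N : Rep (ZMod p) Γℚ}

/-- The unramified classes as a subspace. -/
def unramifiedSub (q : Nat.Primes) (N : Rep (ZMod p) Γℚ) :
    Submodule (ZMod p) (H1 (Rep.res (primeLocalToGlobal q) N)) where
  carrier := unramifiedClasses q N
  zero_mem' := ⟨0, isLevelConstant₁_const (r := primeLocalToGlobal q) (0 : N), fun _ _ => rfl, map_zero _⟩
  add_mem' := by
    rintro _ _ ⟨a, ha, ha', rfl⟩ ⟨b, hb, hb', rfl⟩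
    exact ⟨a + b, ha.add hb, fun g hg => by
      show a g + b g = 0
      rw [ha' g hg, hb' g hg, add_zero], map_add _ _ _⟩
  smul_mem' := by
    rintro r _ ⟨a, ha, ha', rfl⟩
    exact ⟨r • a, ha.comp (r • ·), fun g hg => by
      show r • a g = 0
      rw [ha' g hg, smul_zero], map_smul _ _ _⟩

theorem mem_unramifiedSub_iff (q : Nat.Primes) (x : H1 (Rep.res (primeLocalToGlobal q) N)) :
    x ∈ unramifiedSub q N ↔ x ∈ unramifiedClasses q N := ⟨fun h => h, fun h => h⟩

theorem span_unramifiedClasses (q : Nat.Primes) (N : Rep (ZMod p) Γℚ) :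
    Submodule.span (ZMod p) (unramifiedClasses q N) = unramifiedSub q N :=
  (Submodule.span_eq (unramifiedSub q N) :)

theorem unramifiedSub_le_continuousH1 (q : Nat.Primes) (N : Rep (ZMod p) Γℚ) :
    unramifiedSub q N ≤ continuousH1 (primeLocalToGlobal q) (Rep.res (primeLocalToGlobal q) N) := by
  intro x hx
  obtain ⟨c, hc, -, rfl⟩ := (mem_unramifiedSub_iff q x).1 hx
  exact H1π_mem_continuousH1 _ _ hc

section loc
variable {S : Finset Nat.Primes} (q : Nat.Primes)

/-- The restriction of a global class to the local group at `q`. -/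
noncomputable abbrev resAt (N : Rep (ZMod p) Γℚ) :
    H1 N →ₗ[ZMod p] H1 (Rep.res (primeLocalToGlobal q) N) :=
  (groupCohomology.map (primeLocalToGlobal q) (𝟙 (Rep.res (primeLocalToGlobal q) N)) 1).hom

theorem resAt_H1π (c : cocycles₁ N) :
    resAt q N ((H1π N).hom c) =
      (H1π _).hom (mapCocycles₁ (primeLocalToGlobal q) (𝟙 (Rep.res (primeLocalToGlobal q) N)) c) :=
  H1π_comp_map_apply (primeLocalToGlobal q) (𝟙 _) c

/-- A class unramified outside `S` restricts to an unramified class at `q ∉ S`. -/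
theorem resAt_mem_unramified {x : H1 N} (hx : x ∈ continuousH1S S N) (hq : q ∉ S) :
    resAt q N x ∈ unramifiedSub q N := by
  obtain ⟨c, ⟨F, hF, hc⟩, rfl⟩ := (mem_continuousH1S_iff S N x).1 hx
  rw [mem_unramifiedSub_iff]
  refine ⟨mapCocycles₁ (primeLocalToGlobal q) (𝟙 (Rep.res (primeLocalToGlobal q) N)) c,
    ⟨F, hF.1, fun g s hs => ?_⟩, fun g hg => ?_, (resAt_H1π q c).symm⟩
  · show c (primeLocalToGlobal q (g * s)) = c (primeLocalToGlobal q g)
    rw [map_mul, hc _ _ hs]
  · show c (primeLocalToGlobal q g) = 0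
    have := hc 1 _ (hF.2 q hq _ (padicPlace_liesOverPrime q) hg)
    rw [one_mul] at this
    rw [this, cocycles₁_map_one]

/-- A class unramified outside `T` which is unramified at each prime of `T` outside `S` is
unramified outside `S`. -/
theorem mem_continuousH1S_of_unramified {T : Finset Nat.Primes}
    (hsm : GWUnramifiedOutside N S)
    {x : H1 N} (hx : x ∈ continuousH1S T N)
    (hur : ∀ r ∈ T, r ∉ S → resAt r N x ∈ unramifiedSub r N) :
    x ∈ continuousH1S S N := by
  obtain ⟨c, ⟨F, hF, hc⟩, rfl⟩ := (mem_continuousH1S_iff T N x).1 hx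
  refine (mem_continuousH1S_iff S N _).2 ⟨c, ?_, rfl⟩
  have hc1 : ∀ s ∈ F.fixingSubgroup, c s = 0 := fun s hs => by
    have := hc 1 s hs
    rwa [one_mul, cocycles₁_map_one] at this
  have key : ∀ r : Nat.Primes, r ∉ S → ∀ A : ValuationSubring (AlgebraicClosure ℚ),
      A.LiesOverPrime (r : ℕ) → ∀ σ ∈ A.inertiaSubgroupIn ℚ, c σ = 0 ∧ N.ρ σ = 1 := by
    intro r hr A hA σ hσ
    refine ⟨?_, hsm r hr A hA σ hσ⟩
    by_cases hrT : r ∈ T
    · obtain ⟨b, hb, hb0, hbx⟩ := hur r hrT hr
      obtain ⟨h, g, hg, rfl⟩ := exists_conj_inertia r hA hσ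
      have hρ : N.ρ (primeLocalToGlobal r g) = 1 := hsm r hr _ (padicPlace_liesOverPrime r) _ hg
      obtain ⟨a, ha⟩ : ∃ a : N, ∀ g : primeLocalGaloisGroup r,
          N.ρ (primeLocalToGlobal r g) a - a =
            b g - c (primeLocalToGlobal r g) := by
        rw [resAt_H1π r c] at hbx
        have := (H1π_eq_iff _ _).1 hbx
        obtain ⟨a, ha⟩ := this
        refine ⟨a, fun g => ?_⟩
        have := congrFun ha g
        rwa [d₀₁_hom_apply] at this
      have hcg : c (primeLocalToGlobal r g) = 0 := by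
        have := ha g
        rw [hρ, hb0 g hg] at this
        simpa using this.symm
      rw [(mem_cocycles₁_iff c).1 c.2, (mem_cocycles₁_iff c).1 c.2, hcg, map_zero, zero_add,
        map_mul, hρ, mul_one]
      have h3 := (mem_cocycles₁_iff c).1 c.2 h h⁻¹
      rw [mul_inv_cancel, cocycles₁_map_one] at h3
      exact h3.symm
    · exact hc1 σ (hF.2 r hrT A hA hσ)
  let K : Subgroup Γℚ :=
    { carrier := {g | c g = 0}
      one_mem' := cocycles₁_map_one c
      mul_mem' := fun {a b} (ha : c a = 0) (hb : c b = 0) => by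
        show c (a * b) = 0
        rw [(mem_cocycles₁_iff c).1 c.2, hb, ha, map_zero, add_zero]
      inv_mem' := fun {a} (ha : c a = 0) => by
        show c a⁻¹ = 0
        have h3 := (mem_cocycles₁_iff c).1 c.2 a⁻¹ a
        rw [inv_mul_cancel, cocycles₁_map_one, ha, map_zero, zero_add] at h3
        exact h3.symm }
  have := hF.1
  have hopen : IsOpen (K : Set Γℚ) :=
    Subgroup.isOpen_mono (H₁ := F.fixingSubgroup) (fun s hs => hc1 s hs)
      (IntermediateField.fixingSubgroup_isOpen F)
  have hfix : (IntermediateField.fixedField K).fixingSubgroup = K :=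
    InfiniteGalois.fixingSubgroup_fixedField ⟨K, Subgroup.isClosed_of_isOpen K hopen⟩
  have hle : IntermediateField.fixedField K ≤ F := by
    rw [← InfiniteGalois.fixedField_fixingSubgroup F]
    exact fun x hx s => hx ⟨s.1, hc1 s.1 s.2⟩
  refine ⟨IntermediateField.fixedField K,
    ⟨FiniteDimensional.of_injective (IntermediateField.inclusion hle).toLinearMap
      (IntermediateField.inclusion_injective hle), fun r hr A hA σ hσ => ?_⟩, fun g s hs => ?_⟩
  · rw [hfix]
    exact (key r hr A hA σ hσ).1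
  · rw [hfix] at hs
    rw [(mem_cocycles₁_iff c).1 c.2, (hs : c s = 0), map_zero, zero_add]

end loc

end FermatLib.CFT
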