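import Fermat.Agent.CFT.DualBasic
import Fermat.Agent.CFT.DualPairing
import Fermat.Agent.CFT.GWUnramified
import Fermat.Agent.CFT.IdeleBridge

/-!
Classes unramified outside `S` of a module split by a finite Galois level, as first cohomology of
larger finite levels unramified outside `S`.
-/

set_option autoImplicit false

open CategoryTheory groupCohomology ExtCitation NumberField

namespace FermatLib.CFT

local notation "Γℚ" => AlgebraicClosure ℚ ≃ₐ[ℚ] AlgebraicClosure ℚ
local notation "ℚbar" => AlgebraicClosure ℚ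

/-- Restriction to a Galois subfield of `ℚ̄`. -/
noncomputable def resLevel (F : IntermediateField ℚ ℚbar) [IsGalois ℚ F] : Γℚ →* (F ≃ₐ[ℚ] F) :=
  AlgEquiv.restrictNormalHom (F := ℚ) (K₁ := ℚbar) F

theorem coe_resLevel (F : IntermediateField ℚ ℚbar) [IsGalois ℚ F] (s : Γℚ) (x : F) :
    ((resLevel F s x : F) : ℚbar) = s x :=
  AlgEquiv.restrictNormal_commutes s F x

theorem resLevel_surjective (F : IntermediateField ℚ ℚbar) [IsGalois ℚ F] :
    Function.Surjective (resLevel F) :=
  haveI : Normal ℚ ℚbar :=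
    haveI : IsAlgClosure ℚ ℚbar := ⟨inferInstance, AlgebraicClosure.isAlgebraic ℚ⟩
    IsAlgClosure.normal ℚ ℚbar
  AlgEquiv.restrictNormalHom_surjective ℚbar

theorem resLevel_eq_one_iff (F : IntermediateField ℚ ℚbar) [IsGalois ℚ F] (s : Γℚ) :
    resLevel F s = 1 ↔ s ∈ F.fixingSubgroup := by
  rw [IntermediateField.mem_fixingSubgroup_iff]
  constructor
  · intro h x hx
    have := coe_resLevel F s ⟨x, hx⟩
    rw [h] at this
    exact this.symm
  · intro h
    exact AlgEquiv.ext fun x => Subtype.ext ((coe_resLevel F s x).trans (h x x.2))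

theorem galRes_resLevel {F F' : IntermediateField ℚ ℚbar} [IsGalois ℚ F] [IsGalois ℚ F']
    (h : F ≤ F') (s : Γℚ) : galRes h (resLevel F' s) = resLevel F s := by
  refine AlgEquiv.ext fun x => Subtype.ext ?_
  have h1 := congrArg Subtype.val (galRes_spec h (resLevel F' s) x)
  rw [coe_resLevel] at h1
  exact h1.trans (coe_resLevel F s x).symm

variable {p : ℕ} [Fact p.Prime] {N : Rep (ZMod p) Γℚ} {F₀ : IntermediateField ℚ ℚbar}
  [IsGalois ℚ F₀] {V : Type} [AddCommGroup V] [DistribMulAction (F₀ ≃ₐ[ℚ] F₀) V]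
  (e : N ≃+ V) (he : ∀ (s : Γℚ) (x : N), e (N.ρ s x) = resLevel F₀ s • e x)

section level
variable {F : IntermediateField ℚ ℚbar} [IsGalois ℚ F] (h : F₀ ≤ F)

include he in
theorem levelCocycle_mem (c : piZ1 (galRes h) V) :
    (fun s => e.symm (c.1 (resLevel F s))) ∈ cocycles₁ N := by
  rw [mem_cocycles₁_iff]
  intro s t
  refine e.injective ?_
  rw [map_add, he, AddEquiv.apply_symm_apply, AddEquiv.apply_symm_apply,
    AddEquiv.apply_symm_apply, map_mul, c.2, galRes_resLevel]

/-- Inflation of a cocycle of a level. -/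
noncomputable def levelCocycle : piZ1 (galRes h) V →+ cocycles₁ N :=
  AddMonoidHom.mk' (fun c => ⟨_, levelCocycle_mem e he h c⟩) fun a b =>
    Subtype.ext (funext fun s => map_add e.symm (a.1 (resLevel F s)) (b.1 (resLevel F s)))

theorem levelCocycle_apply (c : piZ1 (galRes h) V) (s : Γℚ) :
    levelCocycle e he h c s = e.symm (c.1 (resLevel F s)) := rfl

theorem H1π_levelCocycle_eq_zero_iff (c : piZ1 (galRes h) V) :
    (H1π N).hom (levelCocycle e he h c) = 0 ↔ (c : (F ≃ₐ[ℚ] F) → V) ∈ piB1 (galRes h) V := by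
  rw [← map_zero (H1π N).hom, H1π_eq_iff]
  constructor
  · rintro ⟨a, ha⟩
    refine ⟨e a, fun g => ?_⟩
    obtain ⟨s, rfl⟩ := resLevel_surjective F g
    have h1 : N.ρ s a - a = e.symm (c.1 (resLevel F s)) := by
      have := congrFun ha s
      rw [d₀₁_hom_apply] at this
      rw [this]
      exact sub_zero _
    rw [galRes_resLevel, ← he, ← map_sub, h1, AddEquiv.apply_symm_apply]
  · rintro ⟨a, ha⟩
    refine ⟨e.symm a, funext fun s => e.injective ?_⟩
    rw [d₀₁_hom_apply, map_sub, he, AddEquiv.apply_symm_apply]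
    show _ = e (e.symm (c.1 (resLevel F s)) - 0)
    rw [sub_zero, AddEquiv.apply_symm_apply, ha, galRes_resLevel]

/-- Inflation of classes of a level. -/
noncomputable def levelClass : piH1 (galRes h) V →+ H1 N :=
  QuotientAddGroup.lift _ ((H1π N).hom.toAddMonoidHom.comp (levelCocycle e he h)) fun c hc =>
    AddMonoidHom.mem_ker.mpr
      ((H1π_levelCocycle_eq_zero_iff e he h c).2 (AddSubgroup.mem_addSubgroupOf.mp hc))

theorem levelClass_mk (c : piZ1 (galRes h) V) :
    levelClass e he h (QuotientAddGroup.mk c) = (H1π N).hom (levelCocycle e he h c) := rfl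

theorem levelClass_injective : Function.Injective (levelClass e he h) := by
  rw [injective_iff_map_eq_zero]
  intro w hw
  induction w using QuotientAddGroup.induction_on with
  | _ c =>
    rw [QuotientAddGroup.eq_zero_iff, AddSubgroup.mem_addSubgroupOf]
    exact (H1π_levelCocycle_eq_zero_iff e he h c).1 hw

theorem levelClass_mem_continuousH1S {S : Finset Nat.Primes} (hF : F.IsUnramifiedOutside S)
    (w : piH1 (galRes h) V) : levelClass e he h w ∈ continuousH1S S N := by
  induction w using QuotientAddGroup.induction_on with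
  | _ c =>
    refine (mem_continuousH1S_iff S N _).2 ⟨levelCocycle e he h c, ⟨F, hF, fun g s hs => ?_⟩, rfl⟩
    rw [levelCocycle_apply, levelCocycle_apply, map_mul, (resLevel_eq_one_iff F s).2 hs, mul_one]

theorem levelClass_range_mono {F' : IntermediateField ℚ ℚbar} [IsGalois ℚ F'] (h' : F ≤ F') :
    (levelClass e he h).range ≤ (levelClass e he (h.trans h')).range := by
  rintro _ ⟨w, rfl⟩
  induction w using QuotientAddGroup.induction_on with
  | _ c =>
    refine ⟨QuotientAddGroup.mk ⟨fun g => c.1 (galRes h' g), fun a b => ?_⟩, ?_⟩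
    · show c.1 (galRes h' (a * b)) = _
      rw [map_mul, c.2, galRes_comp]
    · rw [levelClass_mk, levelClass_mk]
      refine congrArg (H1π N).hom (Subtype.ext (funext fun s => ?_))
      show e.symm (c.1 (galRes h' (resLevel F' s))) = _
      rw [galRes_resLevel]
      rfl

/-- A map of modules commutes with inflation. -/
theorem levelClass_natural {N' : Rep (ZMod p) Γℚ} {W : Type} [AddCommGroup W]
    [DistribMulAction (F₀ ≃ₐ[ℚ] F₀) W] (e' : N' ≃+ W)
    (he' : ∀ (s : Γℚ) (x : N'), e' (N'.ρ s x) = resLevel F₀ s • e' x)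
    (f : N ⟶ N') (π : V →+ W) (hπ : ∀ (g : F₀ ≃ₐ[ℚ] F₀) x, π (g • x) = g • π x)
    (hf : ∀ x : N, e' (f.hom x) = π (e x)) (c : piZ1 (galRes h) V) :
    (groupCohomology.map (MonoidHom.id Γℚ) f 1).hom (levelClass e he h (QuotientAddGroup.mk c)) =
      levelClass e' he' h (QuotientAddGroup.mk
        ⟨fun g => π (c.1 g), fun a b => by
          show π (c.1 (a * b)) = galRes h a • π (c.1 b) + π (c.1 a)
          rw [c.2, map_add, hπ]⟩) := by
  rw [levelClass_mk, levelClass_mk]
  refine (H1π_comp_map_apply (MonoidHom.id Γℚ) f _).trans ?_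
  refine congrArg (H1π N').hom (Subtype.ext (funext fun s => e'.injective ?_))
  show e' (f.hom (e.symm (c.1 (resLevel F s)))) = e' (e'.symm (π (c.1 (resLevel F s))))
  rw [hf, AddEquiv.apply_symm_apply, AddEquiv.apply_symm_apply]

end level

include he in
/-- A class unramified outside `S` comes from a Galois level unramified outside `S` above any
given one. -/
theorem exists_levelClass_eq {F' : IntermediateField ℚ ℚbar} [IsGalois ℚ F'] (h₀ : F₀ ≤ F')
    {S : Finset Nat.Primes} (hF' : F'.IsUnramifiedOutside S) {w : H1 N}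
    (hw : w ∈ continuousH1S S N) :
    ∃ (F : IntermediateField ℚ ℚbar) (_ : IsGalois ℚ F) (h : F' ≤ F),
      F.IsUnramifiedOutside S ∧ w ∈ (levelClass e he (h₀.trans h)).range := by
  obtain ⟨c, ⟨E, hE, hc⟩, rfl⟩ := (mem_continuousH1S_iff S N w).1 hw
  haveI := hE.1
  haveI := hF'.1
  haveI : IsGalois ℚ ℚbar :=
    haveI : IsAlgClosure ℚ ℚbar := ⟨inferInstance, AlgebraicClosure.isAlgebraic ℚ⟩
    IsAlgClosure.isGalois ℚ ℚbar
  have hc0 : ∀ s ∈ E.fixingSubgroup, c s = 0 := fun s hs => by
    have := hc 1 s hs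
    rwa [one_mul, cocycles₁_map_one] at this
  have hρ : ∀ s ∈ F'.fixingSubgroup, N.ρ s = 1 := fun s hs => by
    refine LinearMap.ext fun x => e.injective ?_
    rw [he, ← galRes_resLevel h₀, (resLevel_eq_one_iff F' s).2 hs, map_one, one_smul]
    rfl
  have hmul := (mem_cocycles₁_iff c).1 c.2
  let K : Subgroup Γℚ :=
    { carrier := {s | s ∈ F'.fixingSubgroup ∧ c s = 0}
      one_mem' := ⟨one_mem _, cocycles₁_map_one c⟩
      mul_mem' := fun {a b} ha hb => ⟨mul_mem ha.1 hb.1, by
        rw [hmul, hb.2, ha.2, map_zero, add_zero]⟩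
      inv_mem' := fun {a} ha => ⟨inv_mem ha.1, by
        have h3 := hmul a a⁻¹
        rw [mul_inv_cancel, cocycles₁_map_one, ha.2, add_zero, hρ a ha.1] at h3
        exact h3.symm⟩ }
  haveI hN : K.Normal := ⟨fun s hs g => ⟨by
      rw [← resLevel_eq_one_iff, map_mul, map_mul, (resLevel_eq_one_iff F' s).2 hs.1, mul_one,
        ← map_mul, mul_inv_cancel, map_one], by
      rw [hmul, hmul, hs.2, map_zero, zero_add, map_mul, hρ s hs.1, mul_one]
      have h3 := hmul g g⁻¹
      rw [mul_inv_cancel, cocycles₁_map_one] at h3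
      exact h3.symm⟩⟩
  have hle : (E ⊔ F').fixingSubgroup ≤ K := fun s hs =>
    ⟨IntermediateField.fixingSubgroup_antitone le_sup_right hs,
      hc0 s (IntermediateField.fixingSubgroup_antitone le_sup_left hs)⟩
  have hopen : IsOpen (K : Set Γℚ) :=
    haveI := IntermediateField.finiteDimensional_sup E F'
    Subgroup.isOpen_mono hle (IntermediateField.fixingSubgroup_isOpen _)
  set F := IntermediateField.fixedField K with hFdef
  have hfix : F.fixingSubgroup = K :=
    InfiniteGalois.fixingSubgroup_fixedField ⟨K, Subgroup.isClosed_of_isOpen K hopen⟩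
  have hF'F : F' ≤ F := fun x hx s =>
    (IntermediateField.mem_fixingSubgroup_iff F' s.1).1 s.2.1 x hx
  have hFle : F ≤ E ⊔ F' := by
    rw [← InfiniteGalois.fixedField_fixingSubgroup (E ⊔ F')]
    exact fun x hx s => hx ⟨s.1, hle s.2⟩
  have hur : F.IsUnramifiedOutside S := (hE.sup hF').of_le hFle
  haveI := hur.1
  haveI : IsGalois ℚ F := by
    have h0 : IsGalois ℚ _ := (InfiniteGalois.normal_iff_isGalois F).1 (by rw [hfix]; exact hN)
    exact { to_normal := by convert h0.to_normal using 2; exact Subsingleton.elim _ _ }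
  refine ⟨F, inferInstance, hF'F, hur, ?_⟩
  have hwell : ∀ s t, resLevel F s = resLevel F t → c s = c t := fun s t hst => by
    have h1 : s⁻¹ * t ∈ K := by
      rw [← hfix, ← resLevel_eq_one_iff, map_mul, map_inv, hst, inv_mul_cancel]
    conv_rhs => rw [← mul_inv_cancel_left s t]
    rw [hmul, h1.2, map_zero, zero_add]
  set r := Function.surjInv (resLevel_surjective F)
  have hr : ∀ g, resLevel F (r g) = g := Function.surjInv_eq (resLevel_surjective F)
  refine ⟨QuotientAddGroup.mk ⟨fun g => e (c (r g)), fun a b => ?_⟩, ?_⟩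
  · show e (c (r (a * b))) = galRes (h₀.trans hF'F) a • e (c (r b)) + e (c (r a))
    rw [hwell (r (a * b)) (r a * r b) (by rw [map_mul, hr, hr, hr]), hmul, map_add, he,
      ← galRes_resLevel (h₀.trans hF'F), hr]
  · rw [levelClass_mk]
    refine congrArg (H1π N).hom (Subtype.ext (funext fun s => ?_))
    show e.symm (e (c (r (resLevel F s)))) = c s
    rw [hwell _ s (hr _)]
    exact e.symm_apply_apply _

include he in
/-- If all larger unramified levels have as many classes as `F'`, these are all the classes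
unramified outside `S`. -/
theorem continuousH1S_eq_range_levelClass {F' : IntermediateField ℚ ℚbar} [IsGalois ℚ F']
    (h₀ : F₀ ≤ F') {S : Finset Nat.Primes} (hF' : F'.IsUnramifiedOutside S)
    [Finite (piH1 (galRes h₀) V)]
    (hcard : ∀ (F : IntermediateField ℚ ℚbar) (_ : IsGalois ℚ F) (h : F' ≤ F),
      F.IsUnramifiedOutside S → Finite (piH1 (galRes (h₀.trans h)) V) ∧
        Nat.card (piH1 (galRes (h₀.trans h)) V) = Nat.card (piH1 (galRes h₀) V)) :
    (continuousH1S S N).toAddSubgroup = (levelClass e he h₀).range ∧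
      FiniteDimensional (ZMod p) (continuousH1S S N) ∧
      Nat.card (continuousH1S S N) = Nat.card (piH1 (galRes h₀) V) := by
  have heq : (continuousH1S S N).toAddSubgroup = (levelClass e he h₀).range := by
    refine le_antisymm (fun w hw => ?_) ?_
    · obtain ⟨F, hF, h, hur, hmem⟩ := exists_levelClass_eq e he h₀ hF' hw
      obtain ⟨hfin, hc⟩ := hcard F hF h hur
      haveI : Finite (levelClass e he (h₀.trans h)).range :=
        Finite.of_surjective _ (levelClass e he (h₀.trans h)).rangeRestrict_surjective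
      haveI : Finite (levelClass e he h₀).range :=
        Finite.of_surjective _ (levelClass e he h₀).rangeRestrict_surjective
      have h1 : Nat.card (levelClass e he h₀).range =
          Nat.card (levelClass e he (h₀.trans h)).range :=
        ((Nat.card_congr (AddMonoidHom.ofInjective (levelClass_injective e he h₀)).toEquiv).symm.trans
          hc.symm).trans
          (Nat.card_congr (AddMonoidHom.ofInjective (levelClass_injective e he (h₀.trans h))).toEquiv)
      rwa [AddSubgroup.eq_of_le_of_card_ge (levelClass_range_mono e he h₀ h) h1.ge]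
    · rintro _ ⟨x, rfl⟩
      exact levelClass_mem_continuousH1S e he h₀ hF' x
  let E : piH1 (galRes h₀) V ≃ continuousH1S S N :=
    (AddMonoidHom.ofInjective (levelClass_injective e he h₀)).toEquiv.trans
      (Equiv.subtypeEquivRight fun w => (SetLike.ext_iff.1 heq w).symm)
  haveI : Finite (continuousH1S S N) := Finite.of_equiv _ E
  exact ⟨heq, Module.Finite.of_finite, (Nat.card_congr E).symm⟩

end FermatLib.CFT
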