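import Fermat.Agent.CFT.DualGlobal

/-!
Counting the classes unramified outside `T` at the class field: the classes at larger fields are not
more.
-/

set_option autoImplicit false

open CategoryTheory Module groupCohomology ExtCitation NumberField

namespace FermatLib.CFT

local notation "Γℚ" => AlgebraicClosure ℚ ≃ₐ[ℚ] AlgebraicClosure ℚ
local notation "ℚbar" => AlgebraicClosure ℚ

variable {p : ℕ} [Fact p.Prime] {M : Rep (ZMod p) Γℚ} {T : Finset Nat.Primes}
  (D : GWKummer.Level M T)
  {V : Type} [AddCommGroup V] [Module (ZMod p) V] (σ : Representation (ZMod p) D.Gal V)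
  {ι : Type} [Fintype ι] (v : ι → RepMod σ)

/-- An injective family of inflation maps from the classes at the fields over the level onto the
classes unramified outside `T`. -/
structure IsInflationFamily
    (J : ∀ (F : IntermediateField ℚ ℚbar) [NumberField F] [IsGalois ℚ F] (h : D.field ≤ F),
      piH1 (galRes h) (RepMod σ) →+ H1 (inflRep D σ)) : Prop where
  injective : ∀ (F : IntermediateField ℚ ℚbar) [NumberField F] [IsGalois ℚ F] (h : D.field ≤ F),
    Function.Injective (J F h)
  mem : ∀ (F : IntermediateField ℚ ℚbar) [NumberField F] [IsGalois ℚ F] (h : D.field ≤ F),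
    (∀ q ∉ T, IsUnramifiedAtRel (⊤ : Subgroup (F ≃ₐ[ℚ] F)) q) →
      ∀ c, J F h c ∈ continuousH1S T (inflRep D σ)
  mono : ∀ (F F' : IntermediateField ℚ ℚbar) [NumberField F] [IsGalois ℚ F] [NumberField F']
    [IsGalois ℚ F'] (h : D.field ≤ F) (h' : F ≤ F'), (J F h).range ≤ (J F' (h.trans h')).range
  exists_level : ∀ (F : IntermediateField ℚ ℚbar) [NumberField F] [IsGalois ℚ F]
    (_h : D.field ≤ F), (∀ q ∉ T, IsUnramifiedAtRel (⊤ : Subgroup (F ≃ₐ[ℚ] F)) q) →
      ∀ x ∈ continuousH1S T (inflRep D σ),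
        ∃ (F' : IntermediateField ℚ ℚbar) (_ : NumberField F') (_ : IsGalois ℚ F')
          (h' : D.field ≤ F'), F ≤ F' ∧
          (∀ q ∉ T, IsUnramifiedAtRel (⊤ : Subgroup (F' ≃ₐ[ℚ] F')) q) ∧ x ∈ (J F' h').range

variable [FiniteDimensional (ZMod p) V]
  {J : ∀ (F : IntermediateField ℚ ℚbar) [NumberField F] [IsGalois ℚ F] (h : D.field ≤ F),
    piH1 (galRes h) (RepMod σ) →+ H1 (inflRep D σ)}
  {F : IntermediateField ℚ ℚbar} [NumberField F] [IsGalois ℚ F] {h : D.field ≤ F}

/-- Every class unramified outside `T` comes from the class field. -/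
theorem range_inflation_eq (hJ : IsInflationFamily D σ J) (E : IsExponentLevel p T D.field F h)
    (hv : Function.Surjective (presMap (G := D.Gal) v)) (hlift : LiftsToClasses D σ v)
    {x : H1 (inflRep D σ)} : x ∈ continuousH1S T (inflRep D σ) ↔ x ∈ (J F h).range := by
  refine ⟨fun hx => ?_, fun ⟨c, hc⟩ => hc ▸ hJ.mem F h E.unramified c⟩
  obtain ⟨F', hnf, hgal, h₂, hle, hur, hx'⟩ := hJ.exists_level F h E.unramified x hx
  have hcard : Nat.card (piH1 (galRes h) (RepMod σ)) = Nat.card (piH1 (galRes h₂) (RepMod σ)) :=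
    (natCard_ext1_eq_natCard_piH1 D σ v E le_rfl E.unramified hv hlift).2.symm.trans
      (natCard_ext1_eq_natCard_piH1 D σ v E hle hur hv hlift).2
  have hle' : (J F h).range ≤ (J F' h₂).range := hJ.mono F F' h hle
  haveI : Finite (piH1 (galRes h₂) (RepMod σ)) := inferInstance
  haveI : Finite (J F' h₂).range := Finite.of_surjective _ (J F' h₂).rangeRestrict_surjective
  rw [AddSubgroup.eq_of_le_of_card_ge hle' ?_]
  · exact hx'
  · rw [← Nat.card_congr (AddMonoidHom.ofInjective (hJ.injective F h)).toEquiv,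
      ← Nat.card_congr (AddMonoidHom.ofInjective (hJ.injective F' h₂)).toEquiv, hcard]

/-- Duality, dimension form. -/
theorem natCard_ext1_classModUnits_of (hJ : IsInflationFamily D σ J) (hpT : pPrime p ∈ T)
    (hv : Function.Surjective (presMap (G := D.Gal) v)) (hlift : LiftsToClasses D σ v) :
    FiniteDimensional (ZMod p) (continuousH1S T (inflRep D σ)) ∧
    Finite (ext1 D.Gal (ClassModUnits D.field (T : Set Nat.Primes)) v) ∧
    Nat.card (ext1 D.Gal (ClassModUnits D.field (T : Set Nat.Primes)) v) =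
      Nat.card (continuousH1S T (inflRep D σ)) := by
  obtain ⟨F₀, hnf, hgal, h₀, E⟩ := exists_isExponentLevel_level D hpT
  obtain ⟨hfin, hcard⟩ := natCard_ext1_eq_natCard_piH1 D σ v E le_rfl E.unramified hv hlift
  let e : piH1 (galRes h₀) (RepMod σ) ≃ continuousH1S T (inflRep D σ) :=
    (Equiv.ofInjective _ (hJ.injective F₀ h₀)).trans
      (Equiv.subtypeEquivRight fun x => (range_inflation_eq D σ v hJ E hv hlift (x := x)).symm)
  haveI : Finite (continuousH1S T (inflRep D σ)) := Finite.of_equiv _ e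
  exact ⟨Module.Finite.of_finite, hfin, hcard.trans (Nat.card_congr e)⟩

variable {W : Type} [AddCommGroup W] [Module (ZMod p) W] [FiniteDimensional (ZMod p) W]
  (τ : Representation (ZMod p) D.Gal W)
  {J' : ∀ (F : IntermediateField ℚ ℚbar) [NumberField F] [IsGalois ℚ F] (h : D.field ≤ F),
    piH1 (galRes h) (RepMod τ) →+ H1 (inflRep D τ)}

/-- Duality, naturality form. -/
theorem natCard_range_ext1Pull_classModUnits_of (hJ : IsInflationFamily D σ J)
    (hJ' : IsInflationFamily D τ J') (hpT : pPrime p ∈ T)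
    (π : V →ₗ[ZMod p] W) (hπ : ∀ g x, π (σ g x) = τ g (π x))
    (π' : RepMod σ →+ RepMod τ) (hπ'e : ∀ (g : D.Gal) x, π' (g • x) = g • π' x)
    (hπ's : Function.Surjective π')
    (hnat : ∀ (F : IntermediateField ℚ ℚbar) [NumberField F] [IsGalois ℚ F] (h : D.field ≤ F) c,
      inflH1Map D π hπ (J F h c) = J' F h (piH1Map π' hπ'e (galRes h) c))
    (hv : Function.Surjective (presMap (G := D.Gal) v)) (hlift : LiftsToClasses D σ v)
    (hlift' : LiftsToClasses D τ (π' ∘ v)) :
    Nat.card ↥(ext1Pull (ClassModUnits D.field (T : Set Nat.Primes)) π' hπ'e v).range =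
      Nat.card ((continuousH1S T (inflRep D σ)).map (inflH1Map D π hπ)) := by
  obtain ⟨F₀, hnf, hgal, h₀, E⟩ := exists_isExponentLevel_level D hpT
  rw [natCard_range_ext1Pull_eq D σ v τ E π' hπ'e hπ's hv hlift hlift']
  refine Nat.card_eq_of_bijective
    (fun c => ⟨J' F₀ h₀ c.1, ?_⟩) ⟨fun a b hab => ?_, fun y => ?_⟩
  · obtain ⟨a, ha⟩ := c.2
    refine ⟨J F₀ h₀ a, hJ.mem F₀ h₀ E.unramified a, ?_⟩
    rw [← ha]
    exact hnat F₀ h₀ a
  · exact Subtype.ext (hJ'.injective F₀ h₀ (congrArg Subtype.val hab :))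
  · obtain ⟨x, hx, hxy⟩ := y.2
    obtain ⟨a, rfl⟩ := (range_inflation_eq D σ v hJ E hv hlift).1 hx
    exact ⟨⟨_, a, rfl⟩, Subtype.ext ((hnat F₀ h₀ a).symm.trans hxy)⟩

end FermatLib.CFT
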