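import Fermat.Agent.CFT.DualClasses
import Fermat.Agent.CFT.DualEuler

/-!
The inflation maps from the classes at finite levels form an inflation family.
-/

set_option autoImplicit false

open CategoryTheory Module groupCohomology ExtCitation NumberField

namespace FermatLib.CFT

local notation "Γℚ" => AlgebraicClosure ℚ ≃ₐ[ℚ] AlgebraicClosure ℚ
local notation "ℚbar" => AlgebraicClosure ℚ

variable {p : ℕ} [Fact p.Prime] {M : Rep (ZMod p) Γℚ} {T : Finset Nat.Primes}
  (D : GWKummer.Level M T)
  {V : Type} [AddCommGroup V] [Module (ZMod p) V] (σ : Representation (ZMod p) D.Gal V)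

theorem toRepMod_inflRep (s : Γℚ) (x : inflRep D σ) :
    toRepMod σ ((inflRep D σ).ρ s x) = resLevel D.field s • toRepMod σ x := rfl

/-- Inflation from the classes at a field over the level. -/
noncomputable def inflClasses (F : IntermediateField ℚ ℚbar) [NumberField F] [IsGalois ℚ F]
    (h : D.field ≤ F) : piH1 (galRes h) (RepMod σ) →+ H1 (inflRep D σ) :=
  levelClass (N := inflRep D σ) (toRepMod σ) (toRepMod_inflRep D σ) h

theorem isInflationFamily_inflClasses : IsInflationFamily D σ (inflClasses D σ) where
  injective F _ _ h := levelClass_injective (N := inflRep D σ) (toRepMod σ) (toRepMod_inflRep D σ) h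
  mem F _ _ h hur := levelClass_mem_continuousH1S (N := inflRep D σ) (toRepMod σ)
    (toRepMod_inflRep D σ) h ((isUnramifiedOutside_iff F T).2 hur)
  mono F F' _ _ _ _ h h' :=
    levelClass_range_mono (N := inflRep D σ) (toRepMod σ) (toRepMod_inflRep D σ) h h'
  exists_level F _ _ h hur x hx := by
    obtain ⟨F', hgal, hle, hur', hx'⟩ := exists_levelClass_eq (N := inflRep D σ) (toRepMod σ)
      (toRepMod_inflRep D σ) h ((isUnramifiedOutside_iff F T).2 hur) hx
    haveI := hur'.1
    haveI : NumberField F' := @NumberField.mk _ _ inferInstance hur'.1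
    exact ⟨F', inferInstance, hgal, h.trans hle, hle, (isUnramifiedOutside_iff F' T).1 hur', hx'⟩

variable {W : Type} [AddCommGroup W] [Module (ZMod p) W] (τ : Representation (ZMod p) D.Gal W)

theorem inflH1Map_inflClasses (π : V →ₗ[ZMod p] W) (hπ : ∀ g x, π (σ g x) = τ g (π x))
    (π' : RepMod σ →+ RepMod τ) (hπ' : ∀ x, π' (toRepMod σ x) = toRepMod τ (π x))
    (hπ'e : ∀ (g : D.Gal) x, π' (g • x) = g • π' x)
    (F : IntermediateField ℚ ℚbar) [NumberField F] [IsGalois ℚ F] (h : D.field ≤ F)
    (c : piH1 (galRes h) (RepMod σ)) :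
    inflH1Map D π hπ (inflClasses D σ F h c) =
      inflClasses D τ F h (piH1Map π' hπ'e (galRes h) c) := by
  induction c using QuotientAddGroup.induction_on with
  | _ w =>
    exact levelClass_natural (N := inflRep D σ) (toRepMod σ) (toRepMod_inflRep D σ) h
      (N' := inflRep D τ) (toRepMod τ) (toRepMod_inflRep D τ) _ π' hπ'e (fun x => (hπ' x).symm) w

end FermatLib.CFT
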