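import Fermat.Agent.CFT.DualEuler
import Fermat.Agent.CFT.DualInflation

/-!
Duality between `Ext¹_G(V, C_T)` and `H¹(G_T, V)`: both counts, given the lifting of maps to idele
classes.
-/

set_option autoImplicit false

open CategoryTheory Module groupCohomology ExtCitation NumberField

namespace FermatLib.CFT

local notation "Γℚ" => AlgebraicClosure ℚ ≃ₐ[ℚ] AlgebraicClosure ℚ
local notation "ℚbar" => AlgebraicClosure ℚ

variable {p : ℕ} [Fact p.Prime] {M : Rep (ZMod p) Γℚ} {T : Finset Nat.Primes}
  (D : GWKummer.Level M T)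
  {V : Type} [AddCommGroup V] [Module (ZMod p) V] (σ : Representation (ZMod p) D.Gal V)

variable {W : Type} [AddCommGroup W] [Module (ZMod p) W] (τ : Representation (ZMod p) D.Gal W)

variable [FiniteDimensional (ZMod p) V] {ι : Type} [Fintype ι] (v : ι → RepMod σ)

/-- Duality, dimension form, given lifting to idele classes. -/
theorem natCard_ext1_classModUnits_of_lifts (hpT : pPrime p ∈ T)
    (hv : Function.Surjective (presMap (G := D.Gal) v)) (hlift : LiftsToClasses D σ v) :
    FiniteDimensional (ZMod p) (continuousH1S T (inflRep D σ)) ∧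
    Finite (ext1 D.Gal (ClassModUnits D.field (T : Set Nat.Primes)) v) ∧
    Nat.card (ext1 D.Gal (ClassModUnits D.field (T : Set Nat.Primes)) v) =
      Nat.card (continuousH1S T (inflRep D σ)) :=
  natCard_ext1_classModUnits_of D σ v (isInflationFamily_inflClasses D σ) hpT hv hlift

/-- Duality, naturality form, given lifting to idele classes. -/
theorem natCard_range_ext1Pull_classModUnits_of_lifts (hpT : pPrime p ∈ T)
    (π : V →ₗ[ZMod p] W) (hπ : ∀ g x, π (σ g x) = τ g (π x)) (hsurj : Function.Surjective π)
    (π' : RepMod σ →+ RepMod τ) (hπ' : ∀ x, π' (toRepMod σ x) = toRepMod τ (π x))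
    (hπ'e : ∀ (g : D.Gal) x, π' (g • x) = g • π' x)
    (hv : Function.Surjective (presMap (G := D.Gal) v)) (hlift : LiftsToClasses D σ v)
    (hlift' : LiftsToClasses D τ (π' ∘ v)) :
    Nat.card ↥(ext1Pull (ClassModUnits D.field (T : Set Nat.Primes)) π' hπ'e v).range =
      Nat.card ((continuousH1S T (inflRep D σ)).map (inflH1Map D π hπ)) := by
  haveI : FiniteDimensional (ZMod p) W := Module.Finite.of_surjective π hsurj
  have hπ's : Function.Surjective π' := fun y => by
    obtain ⟨w, rfl⟩ := (toRepMod τ).surjective y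
    obtain ⟨x, rfl⟩ := hsurj w
    exact ⟨toRepMod σ x, hπ' x⟩
  exact natCard_range_ext1Pull_classModUnits_of D σ v τ (isInflationFamily_inflClasses D σ)
    (isInflationFamily_inflClasses D τ) hpT π hπ π' hπ'e hπ's
    (fun F _ _ h c => inflH1Map_inflClasses D σ τ π hπ π' hπ' hπ'e F h c) hv hlift hlift'

end FermatLib.CFT
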