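import Fermat.Agent.CFT.DualPairing

/-!
Transposed maps of groups killed by `p` have images of equal order, and the map on first cohomology
of a level induced by a map of coefficient modules.
-/

set_option autoImplicit false

namespace FermatLib.CFT

variable {p : ℕ} [Fact p.Prime]

theorem exists_extend_hom_zmod_of_module {H : Type*} [AddCommGroup H] [Module (ZMod p) H]
    (K : AddSubgroup H) (φ : K →+ ZMod p) : ∃ ψ : H →+ ZMod p, ∀ x : K, ψ x = φ x := by
  let K' : Submodule (ZMod p) H := AddSubgroup.toZModSubmodule p K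
  have hK : ∀ x, x ∈ K' → x ∈ K := fun x hx => hx
  let ι' : K' →+ K := AddMonoidHom.mk' (fun x => ⟨(x : H), hK _ x.2⟩) fun _ _ => rfl
  obtain ⟨ψ, hψ⟩ := LinearMap.exists_extend ((φ.comp ι').toZModLinearMap p)
  exact ⟨ψ.toAddMonoidHom, fun x => LinearMap.congr_fun hψ ⟨x.1, x.2⟩⟩

/-- A homomorphism to `ZMod p` on a subgroup of a group killed by `p` extends. -/
theorem exists_extend_hom_zmod {H : Type*} [AddCommGroup H] (hH : ∀ x : H, p • x = 0)
    (K : AddSubgroup H) (φ : K →+ ZMod p) : ∃ ψ : H →+ ZMod p, ∀ x : K, ψ x = φ x := by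
  letI := AddCommGroup.zmodModule hH
  obtain ⟨ψ, hψ⟩ := exists_extend_hom_zmod_of_module K φ
  exact ⟨ψ, hψ⟩

/-- If two pairings into `ZMod p` identify `f` with the transpose of `g`, the images of `f` and `g`
are equally many. -/
theorem natCard_range_of_transpose {E E' H H' : Type*} [AddCommGroup E] [AddCommGroup E']
    [AddCommGroup H] [AddCommGroup H'] [Finite H] (hH' : ∀ x : H', p • x = 0)
    (P : E →+ (H →+ ZMod p)) (P' : E' →+ (H' →+ ZMod p))
    (hP : Function.Bijective P) (hP' : Function.Bijective P') (f : E' →+ E) (g : H →+ H')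
    (hfg : ∀ e c, P (f e) c = P' e (g c)) : Nat.card f.range = Nat.card g.range := by
  classical
  haveI : Finite g.range := Finite.of_surjective _ g.rangeRestrict_surjective
  rw [← natCard_hom_zmod (M := g.range) (p := p) fun x => Subtype.ext (hH' x.1)]
  let pick : ∀ e : f.range, E' := fun e => e.2.choose
  have hpick : ∀ e : f.range, f (pick e) = e := fun e => e.2.choose_spec
  have key : ∀ a b : E', f a = f b → ∀ x : g.range, P' a x = P' b x := by
    rintro a b hab ⟨_, c, rfl⟩
    rw [← hfg, ← hfg, hab]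
  refine Nat.card_eq_of_bijective
    (fun e => (P' (pick e)).comp g.range.subtype) ⟨fun a b hab => ?_, fun φ => ?_⟩
  · refine Subtype.ext (hP.1 (AddMonoidHom.ext fun c => ?_))
    rw [← hpick a, ← hpick b, hfg, hfg]
    exact DFunLike.congr_fun hab ⟨g c, c, rfl⟩
  · obtain ⟨ψ, hψ⟩ := exists_extend_hom_zmod hH' g.range φ
    obtain ⟨e, he⟩ := hP'.2 ψ
    refine ⟨⟨f e, e, rfl⟩, AddMonoidHom.ext fun x => ?_⟩
    show P' (pick _) x = φ x
    rw [key (pick ⟨f e, e, rfl⟩) e (hpick _) x, he, hψ]

section map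
variable {Γ G : Type*} [Group Γ] [Group G] [Fintype G] {π : Γ →* G}
  {V W : Type*} [AddCommGroup V] [DistribMulAction G V] [AddCommGroup W] [DistribMulAction G W]
  (α : V →+ W) (hα : ∀ (g : G) (x : V), α (g • x) = g • α x)

include hα in
theorem comp_mem_piZ1 {w : Γ → V} (hw : w ∈ piZ1 π V) : (fun s => α (w s)) ∈ piZ1 π W := fun s t => by
  show α (w (s * t)) = π s • α (w t) + α (w s)
  rw [mem_piZ1.1 hw, map_add, hα]

/-- Functoriality of the cohomology of a level. -/
def piH1Map (π : Γ →* G) : piH1 π V →+ piH1 π W :=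
  QuotientAddGroup.map _ _
    (AddMonoidHom.mk' (fun w : piZ1 π V => (⟨_, comp_mem_piZ1 α hα w.2⟩ : piZ1 π W))
      fun a b => Subtype.ext (funext fun s => map_add α _ _))
    fun w hw => by
      obtain ⟨a, ha⟩ := hw
      exact ⟨α a, fun s => by
        show α ((w : Γ → V) s) = _
        rw [show (w : Γ → V) s = π s • a - a from ha s, map_sub, hα]⟩

end map

end FermatLib.CFT
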