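import Fermat.Agent.CFT.IdeleDescent
import Fermat.Agent.CFT.IdeleFieldUnits

/-!
Finiteness of ideal classes, units at a finite set of primes.
-/

set_option autoImplicit false

open NumberField IsDedekindDomain

namespace FermatLib.CFT

variable (L : Type) [Field L] [NumberField L]

/-- Elements that are units outside `T`. -/
noncomputable def tUnits (T : Set Nat.Primes) : AddSubgroup (LUnits L) :=
  (sIdeles L T).comap (principalIdele L)

variable {L}

theorem mem_tUnits_iff (T : Set Nat.Primes) (x : LUnits L) :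
    x ∈ tUnits L T ↔ ∀ q, q ∉ T → ∀ φ : Emb L q, ‖φ x.val‖ = 1 :=
  forall_congr' fun q => imp_congr_right fun _ => forall_congr' fun φ =>
    QUnits.mem_unitGroup_iff _

theorem smul_mem_tUnits (T : Set Nat.Primes) (g : L ≃ₐ[ℚ] L) {x : LUnits L}
    (hx : x ∈ tUnits L T) : g • x ∈ tUnits L T := by
  rw [mem_tUnits_iff] at hx ⊢
  exact fun q hq φ => hx q hq (φ.preComp g)

/-- Elements of `L^H` as invariant elements of `L`. -/
noncomputable def fixedToLUnits (H : Subgroup (L ≃ₐ[ℚ] L)) :
    LUnits (IntermediateField.fixedField H) →+ LUnits L :=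
  MonoidHom.toAdditive (Units.map (algebraMap (IntermediateField.fixedField H) L :
    IntermediateField.fixedField H →* L))

@[simp] theorem fixedToLUnits_val (H : Subgroup (L ≃ₐ[ℚ] L))
    (x : LUnits (IntermediateField.fixedField H)) :
    ((fixedToLUnits H x).val : L) = ((x.val : IntermediateField.fixedField H) : L) := rfl

theorem fixedToLUnits_injective (H : Subgroup (L ≃ₐ[ℚ] L)) :
    Function.Injective (fixedToLUnits H) := fun _ _ h =>
  LUnits.ext_val (Subtype.ext (congrArg (fun z : LUnits L => (z.val : L)) h))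

theorem fixedToLUnits_mem (H : Subgroup (L ≃ₐ[ℚ] L))
    (x : LUnits (IntermediateField.fixedField H)) :
    fixedToLUnits H x ∈ fixedPts H (LUnits L) :=
  (LUnits.mem_fixedPts_iff H _).2 (x.val : IntermediateField.fixedField H).2

variable [IsGalois ℚ L]

variable (L) in
/-- For large `T`, invariant ideles are invariant `T`-ideles up to invariant principal ideles. -/
theorem exists_primes_generate : ∃ T : Finset Nat.Primes, ∀ T' : Set Nat.Primes, ↑T ⊆ T' →
    ∀ (H : Subgroup (L ≃ₐ[ℚ] L)), ∀ f ∈ fixedPts H (Idele L),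
      ∃ x ∈ fixedPts H (LUnits L), f - principalIdele L x ∈ sIdeles L T' := by
  classical
  choose T hT using fun H : Subgroup (L ≃ₐ[ℚ] L) =>
    exists_primes_generate_field (IntermediateField.fixedField H)
  have := Fintype.ofFinite (Subgroup (L ≃ₐ[ℚ] L))
  refine ⟨Finset.univ.biUnion T, fun T' hT' H f hf => ?_⟩
  obtain ⟨g, hg, -⟩ := exists_fixedField_idele H hf
  obtain ⟨x, hx⟩ := hT H T' (fun q hq => hT' (Finset.mem_coe.2
    (Finset.mem_biUnion.2 ⟨H, Finset.mem_univ H, hq⟩))) g
  refine ⟨fixedToLUnits H x, fixedToLUnits_mem H x, fun q hq φ => ?_⟩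
  have h := hx q hq (φ.restrictFixed H)
  rw [QUnits.mem_unitGroup_iff] at h ⊢
  refine Eq.trans (congrArg norm ?_) h
  change ((f.fin q φ) + -(principalFamily L (fixedToLUnits H x) q φ)).toField =
    ((g.fin q (φ.restrictFixed H)) +
      -(principalFamily _ x q (φ.restrictFixed H))).toField
  rw [hg q φ]
  rfl

/-- The primes of `L^H` above `T`. -/
noncomputable def fixedPrimesOver (H : Subgroup (L ≃ₐ[ℚ] L)) (T : Finset Nat.Primes) :
    Finset (HeightOneSpectrum (𝓞 (IntermediateField.fixedField H))) :=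
  (finite_setOf_primeBelow T).toFinset

theorem mem_fixedPrimesOver {H : Subgroup (L ≃ₐ[ℚ] L)} {T : Finset Nat.Primes}
    {v : HeightOneSpectrum (𝓞 (IntermediateField.fixedField H))} :
    v ∈ fixedPrimesOver H T ↔ primeBelow v ∈ T :=
  Set.Finite.mem_toFinset _

/-- The `T`-units of `L^H` are the invariant `T`-units of `L`. -/
noncomputable def primeUnitsEquiv (H : Subgroup (L ≃ₐ[ℚ] L)) (T : Finset Nat.Primes) :
    ↥(primeUnits (IntermediateField.fixedField H) (fixedPrimesOver H T : Set _)) ≃+
      ↥(tUnits L (T : Set Nat.Primes) ⊓ fixedPts H (LUnits L)) :=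
  AddEquiv.ofBijective
    (((fixedToLUnits H).comp (AddSubgroup.subtype (primeUnits (IntermediateField.fixedField H)
      (fixedPrimesOver H T : Set _)))).codRestrict
      (tUnits L (T : Set Nat.Primes) ⊓ fixedPts H (LUnits L)) fun x =>
      ⟨(mem_tUnits_iff _ _).2 fun q hq φ => x.2 q (φ.restrictFixed H) fun hmem => hq (by
        rw [Finset.mem_coe, mem_fixedPrimesOver, primeBelow_prime] at hmem
        exact hmem), fixedToLUnits_mem H x.1⟩)
    ⟨fun _ _ h => Subtype.ext (fixedToLUnits_injective H (congrArg Subtype.val h)), fun y => by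
      have hy := (LUnits.mem_fixedPts_iff H y.1).1 y.2.2
      have hne : (⟨_, hy⟩ : IntermediateField.fixedField H) ≠ 0 := fun h =>
        y.1.val.ne_zero (congrArg Subtype.val h)
      refine ⟨⟨LUnits.of (Units.mk0 _ hne), fun q ψ hψ => ?_⟩,
        Subtype.ext (LUnits.ext_val rfl)⟩
      obtain ⟨φ, rfl⟩ := Emb.exists_restrictFixed_eq H ψ
      refine (mem_tUnits_iff _ _).1 y.2.1 q (fun hq => hψ ?_) φ
      rw [Finset.mem_coe, mem_fixedPrimesOver, primeBelow_prime]
      exact hq⟩

theorem tUnits_fixed_fg (H : Subgroup (L ≃ₐ[ℚ] L)) (T : Finset Nat.Primes) :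
    (tUnits L (T : Set Nat.Primes) ⊓ fixedPts H (LUnits L)).FG := by
  rw [← AddGroup.fg_iff_addSubgroup_fg, ← Module.Finite.iff_addGroup_fg]
  have := primeUnits_finite (IntermediateField.fixedField H) (fixedPrimesOver H T)
  exact Module.Finite.equiv (primeUnitsEquiv H T).toIntLinearEquiv

theorem samePlaceRel_iff_prime_eq (H : Subgroup (L ≃ₐ[ℚ] L)) {q : Nat.Primes} (φ ψ : Emb L q) :
    Emb.SamePlaceRel H φ ψ ↔ (φ.restrictFixed H).prime = (ψ.restrictFixed H).prime := by
  rw [← samePlace_iff_prime_eq, samePlace_iff_norm_eq, samePlaceRel_iff_norm]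
  exact ⟨fun h x => h x x.2, fun h x hx => h ⟨x, hx⟩⟩

/-- The prime of `L^H` at an orbit of embeddings. -/
noncomputable def placeToPrime (H : Subgroup (L ≃ₐ[ℚ] L)) (T : Finset Nat.Primes) :
    (Σ q : T, PlacesAbove H q.1) → fixedPrimesOver H T :=
  fun c => ⟨Quotient.lift (fun φ => (φ.restrictFixed H).prime)
    (fun φ ψ h => (samePlaceRel_iff_prime_eq H φ ψ).1 h) c.2, by
      obtain ⟨⟨q, hq⟩, c⟩ := c
      induction c using Quotient.inductionOn with
      | h φ =>
        rw [mem_fixedPrimesOver]
        simpa [primeBelow_prime] using hq⟩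

theorem placeToPrime_bijective (H : Subgroup (L ≃ₐ[ℚ] L)) (T : Finset Nat.Primes) :
    Function.Bijective (placeToPrime H T) := by
  constructor
  · rintro ⟨⟨q, hq⟩, c⟩ ⟨⟨r, hr⟩, d⟩ h
    induction c using Quotient.inductionOn with
    | h φ =>
      induction d using Quotient.inductionOn with
      | h ψ =>
        replace h : (φ.restrictFixed H).prime = (ψ.restrictFixed H).prime :=
          congrArg Subtype.val h
        obtain rfl : r = q := Emb.primeNumber_eq _ _ h
        exact congrArg (Sigma.mk _) (Quotient.sound ((samePlaceRel_iff_prime_eq H φ ψ).2 h))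
  · rintro ⟨v, hv⟩
    obtain ⟨χ, hχ⟩ := exists_emb_prime_below v
    obtain ⟨φ, hφ⟩ := Emb.exists_restrictFixed_eq H χ
    refine ⟨⟨⟨primeBelow v, mem_fixedPrimesOver.1 hv⟩, Quotient.mk _ φ⟩, Subtype.ext ?_⟩
    change (φ.restrictFixed H).prime = v
    rw [hφ, hχ]

theorem card_fixedPrimesOver (H : Subgroup (L ≃ₐ[ℚ] L)) (T : Finset Nat.Primes) :
    (fixedPrimesOver H T).card = ∑ q ∈ T, Nat.card (PlacesAbove H q) := by
  rw [← Nat.card_eq_finsetCard, ← Nat.card_congr (Equiv.ofBijective _ (placeToPrime_bijective H T)),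
    Nat.card_sigma, ← Finset.sum_coe_sort T]

theorem card_infPlacesAbove (H : Subgroup (L ≃ₐ[ℚ] L)) :
    Nat.card (InfPlacesAbove H) = Fintype.card (InfinitePlace (IntermediateField.fixedField H)) := by
  let K := IntermediateField.fixedField H
  let F : InfPlacesAbove H → InfinitePlace K :=
    Quotient.lift (fun w => w.comap (algebraMap K L)) (by
      rintro w w' ⟨g, rfl⟩
      refine InfinitePlace.ext _ _ fun x => ?_
      change w' (((g : L ≃ₐ[ℚ] L)).symm (x : L)) = w' (x : L)
      rw [← AlgEquiv.aut_inv, (IntermediateField.mem_fixedField_iff H _).1 x.2 _ (inv_mem g.2)])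
  rw [← Nat.card_eq_fintype_card]
  refine Nat.card_congr (Equiv.ofBijective F ⟨?_, fun v => ?_⟩)
  · intro c d
    induction c using Quotient.inductionOn with
    | h w =>
      induction d using Quotient.inductionOn with
      | h w' =>
        intro h
        change w.comap (algebraMap K L) = w'.comap (algebraMap K L) at h
        rw [← InfinitePlace.mk_embedding w, ← InfinitePlace.mk_embedding w',
          InfinitePlace.comap_mk, InfinitePlace.comap_mk, InfinitePlace.mk_eq_iff] at h
        refine Quotient.sound ?_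
        change w ∈ MulAction.orbit H w'
        rcases h with h | h
        · obtain ⟨g, hg, he⟩ := (restrictFixedInf_eq_iff H w.embedding w'.embedding).1 h
          refine ⟨⟨g, hg⟩, ?_⟩
          change (g : L ≃ₐ[ℚ] L) • w' = w
          rw [← InfinitePlace.mk_embedding w', ← InfinitePlace.mk_embedding w, ← he,
            InfinitePlace.smul_mk]
          exact congrArg InfinitePlace.mk (RingHom.ext fun x => by simp)
        · obtain ⟨g, hg, he⟩ := (restrictFixedInf_eq_iff H
            (ComplexEmbedding.conjugate w.embedding) w'.embedding).1 h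
          refine ⟨⟨g, hg⟩, ?_⟩
          change (g : L ≃ₐ[ℚ] L) • w' = w
          rw [← InfinitePlace.mk_embedding w', ← he, InfinitePlace.smul_mk]
          refine Eq.trans (congrArg InfinitePlace.mk (RingHom.ext fun x => ?_))
            ((InfinitePlace.mk_conjugate_eq w.embedding).trans (InfinitePlace.mk_embedding w))
          simp
  · obtain ⟨w, hw⟩ := InfinitePlace.comap_surjective (K := L) v
    exact ⟨Quotient.mk _ w, hw⟩

/-- The rank of the `T`-units of `L^H`. -/
theorem tUnits_fixed_rank (H : Subgroup (L ≃ₐ[ℚ] L)) (T : Finset Nat.Primes) :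
    Module.finrank ℤ ↥(tUnits L (T : Set Nat.Primes) ⊓ fixedPts H (LUnits L)) + 1 =
      Nat.card (InfPlacesAbove H) + ∑ q ∈ T, Nat.card (PlacesAbove H q) := by
  rw [← (primeUnitsEquiv H T).toIntLinearEquiv.finrank_eq, primeUnits_finrank,
    card_fixedPrimesOver, card_infPlacesAbove]

end FermatLib.CFT
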