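import Fermat.Agent.CFT.GWGlobIdele
import Fermat.Agent.CFT.IdeleFiniteness

/-!
Finiteness of the classes of the dual twist unramified outside `S`, from
finiteness of ideal classes and finite generation of `T`-units.
-/

set_option autoImplicit false

open CategoryTheory groupCohomology ExtCitation NumberField

namespace FermatLib.CFT.GWKummer

open FermatLib.CFT

local notation "Γℚ" => AlgebraicClosure ℚ ≃ₐ[ℚ] AlgebraicClosure ℚ
local notation "Qbar" => AlgebraicClosure ℚ

variable {p : ℕ} [Fact p.Prime] {M : Rep (ZMod p) Γℚ} {S : Finset Nat.Primes} (D : Level M S)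

/-- A finitely generated subgroup has finite image modulo `p`-th powers. -/
theorem finite_map_modNsmul {A : Type*} [AddCommGroup A] (U : AddSubgroup A) (hU : U.FG) :
    Finite (U.map (QuotientAddGroup.mk' (nsmulAddMonoidHom p : A →+ A).range)) := by
  set W := U.map (QuotientAddGroup.mk' (nsmulAddMonoidHom p : A →+ A).range)
  haveI : AddGroup.FG U := (AddGroup.fg_iff_addSubgroup_fg U).2 hU
  haveI : AddGroup.FG W := AddGroup.fg_of_surjective
    (f := (QuotientAddGroup.mk' (nsmulAddMonoidHom p : A →+ A).range).addSubgroupMap U)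
    (AddMonoidHom.addSubgroupMap_surjective _ _)
  refine AddCommGroup.finite_of_fg_isAddTorsion W fun w => ?_
  rw [isOfFinAddOrder_iff_nsmul_eq_zero]
  refine ⟨p, (Fact.out : p.Prime).pos, Subtype.ext ?_⟩
  obtain ⟨⟨a⟩, ha⟩ := w
  show p • (QuotientAddGroup.mk a : A ⧸ (nsmulAddMonoidHom p : A →+ A).range) = 0
  rw [← QuotientAddGroup.mk_nsmul, QuotientAddGroup.eq_zero_iff]
  exact ⟨a, rfl⟩

variable {ι : Type*} [Fintype ι] {v : ι → D.Mod}

/-- The generator values of a map modulo `p`-th powers. -/
noncomputable def kummerSignature (h : presKer (G := D.Gal) v →+ LUnits D.field) (t : ι × D.Gal) :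
    LUnits D.field ⧸ (nsmulAddMonoidHom p : LUnits D.field →+ LUnits D.field).range :=
  QuotientAddGroup.mk (h ⟨p • presSingle t.1 t.2, nsmul_mem_presKer D.nsmul_mod _⟩)

/-- The signatures of unramified maps lie in a finite set. -/
theorem exists_finite_signature :
    ∃ W : Set (LUnits D.field ⧸ (nsmulAddMonoidHom p : LUnits D.field →+ LUnits D.field).range),
      W.Finite ∧ ∀ h : equivHom D.Gal (presKer (G := D.Gal) v) (LUnits D.field),
        IsUnramifiedMap D (h : presKer (G := D.Gal) v →+ LUnits D.field) →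
        ∀ t, kummerSignature D (h : presKer (G := D.Gal) v →+ LUnits D.field) t ∈ W := by
  classical
  obtain ⟨T₀, hT₀⟩ := exists_primes_generate_field D.field
  set T := T₀ ∪ S with hT
  have hfg : (tUnits D.field (T : Set Nat.Primes)).FG := by
    have := tUnits_fixed_fg (⊥ : Subgroup D.Gal) T
    rwa [show tUnits D.field (T : Set Nat.Primes) ⊓ fixedPts (⊥ : Subgroup D.Gal) (LUnits D.field) =
      tUnits D.field (T : Set Nat.Primes) from inf_eq_left.2 fun x _ g => by
        rw [Subsingleton.elim g 1, one_smul]] at this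
  have := finite_map_modNsmul (p := p) _ hfg
  refine ⟨_, Set.toFinite (((tUnits D.field (T : Set Nat.Primes)).map
    (QuotientAddGroup.mk' (nsmulAddMonoidHom p : LUnits D.field →+ LUnits D.field).range) :
      AddSubgroup _) : Set _), fun h hunr t => ?_⟩
  obtain ⟨F', -, -, hF'⟩ := exists_free_idele D h hunr (fun _ => 0)
    (fun q _ σ b => by simp) 0 (fun σ b => by simp)
  set b := presSingle t.1 t.2
  obtain ⟨y, hy⟩ := hT₀ (T : Set Nat.Primes) (by simp [hT]) ((F' : Pres ι D.Gal →+ Idele D.field) b)
  refine ⟨_, ?_, show QuotientAddGroup.mk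
    ((h : presKer (G := D.Gal) v →+ LUnits D.field) ⟨p • b, nsmul_mem_presKer D.nsmul_mod b⟩ - p • y) =
      kummerSignature D _ t from ?_⟩
  · show principalIdele D.field _ ∈ sIdeles D.field (T : Set Nat.Primes)
    intro q hq φ
    have hqS : q ∉ S := fun h' => hq (by simp [hT, h'])
    have h1 := hF' q hqS ⟨p • b, nsmul_mem_presKer D.nsmul_mod b⟩ φ
    have h2 : (p • ((F' : Pres ι D.Gal →+ Idele D.field) b - principalIdele D.field y)).fin q φ ∈
        QUnits.unitGroup q := AddSubgroup.nsmul_mem _ hy p q hq φ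
    have e : principalIdele D.field ((h : presKer (G := D.Gal) v →+ LUnits D.field)
          ⟨p • b, nsmul_mem_presKer D.nsmul_mod b⟩ - p • y) =
        (principalIdele D.field ((h : presKer (G := D.Gal) v →+ LUnits D.field)
          ⟨p • b, nsmul_mem_presKer D.nsmul_mod b⟩) -
            (F' : Pres ι D.Gal →+ Idele D.field) (p • b)) +
          p • ((F' : Pres ι D.Gal →+ Idele D.field) b - principalIdele D.field y) := by
      rw [map_sub, map_nsmul, map_nsmul, nsmul_sub]; abel
    rw [e]
    exact add_mem h1 h2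
  · refine QuotientAddGroup.eq.2 ⟨y, ?_⟩
    show p • y = _
    abel

variable {ζ : AlgebraicClosure ℚ} (hζ : IsPrimitiveRoot ζ p)

include hζ in
/-- Classes whose maps have equal signatures differ by a cocycle trivial on the level. -/
theorem apply_eq_of_signature_eq (hv : Function.Surjective (presMap (G := D.Gal) v))
    {h h' : presKer (G := D.Gal) v →+ LUnits D.field}
    {c c' : cocycles₁ (M.dualTwist (cycloChar p))}
    (H : IsPair D.res v ((toQbarU D).comp h) (fun σ => muMap D hζ (c σ)))
    (H' : IsPair D.res v ((toQbarU D).comp h') (fun σ => muMap D hζ (c' σ)))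
    (hsig : ∀ t, kummerSignature D h t = kummerSignature D h' t) {σ : Γℚ} (hσ : D.res σ = 1) :
    c σ = c' σ := by
  obtain ⟨e, he, hc⟩ := H
  obtain ⟨e', he', hc'⟩ := H'
  refine muMap_injective D hζ (AddMonoidHom.ext fun x => ?_)
  obtain ⟨b, rfl⟩ := hv x
  rw [hc, hc', hσ, inv_one, one_smul, sub_eq_sub_iff_sub_eq_sub]
  have key : (DistribSMul.toAddMonoidHom QbarU σ).comp (e - e') = e - e' := free_ext fun i g => by
    obtain ⟨y, hy⟩ := QuotientAddGroup.eq.1 (hsig (i, g)).symm
    set d := (e - e') (presSingle i g)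
    have h1 : p • (d - toQbarU D y) = 0 := by
      have hy' : h ⟨p • presSingle i g, nsmul_mem_presKer D.nsmul_mod _⟩ =
          h' ⟨p • presSingle i g, nsmul_mem_presKer D.nsmul_mod _⟩ + p • y := by
        show _ = _ + (nsmulAddMonoidHom p) y
        rw [hy]; abel
      have h2 : p • d = toQbarU D (p • y) := by
        show p • (e - e') (presSingle i g) = _
        rw [AddMonoidHom.sub_apply, nsmul_sub, ← map_nsmul e, ← map_nsmul e',
          show e (p • presSingle i g) = toQbarU D (h ⟨p • presSingle i g, nsmul_mem_presKer D.nsmul_mod _⟩)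
            from he ⟨p • presSingle i g, nsmul_mem_presKer D.nsmul_mod _⟩,
          show e' (p • presSingle i g) = toQbarU D (h' ⟨p • presSingle i g, nsmul_mem_presKer D.nsmul_mod _⟩)
            from he' ⟨p • presSingle i g, nsmul_mem_presKer D.nsmul_mod _⟩, hy', map_add]
        abel
      rw [nsmul_sub, h2, map_nsmul, sub_self]
    obtain ⟨a, ha⟩ := exists_rootHom_eq hζ h1
    have h3 : σ • (d - toQbarU D y) = d - toQbarU D y := by
      rw [← ha, smul_rootHom, show cycloChar p σ = 1 from
        D.cyclo σ ((D.res_eq_one_iff σ).1 hσ), Units.val_one, one_mul]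
    have h4 : σ • toQbarU D y = toQbarU D y := by rw [← toQbarU_smul, hσ, one_smul]
    show σ • d = d
    rw [← sub_add_cancel d (toQbarU D y), smul_add, h3, h4]
  have := DFunLike.congr_fun key b
  rw [AddMonoidHom.comp_apply, AddMonoidHom.sub_apply, DistribSMul.toAddMonoidHom_apply,
    smul_sub] at this
  exact this

include D in
/-- The classes unramified outside `S` form a finite set. -/
theorem finite_continuousH1S_dualTwist [FiniteDimensional (ZMod p) M] :
    Finite (continuousH1S S (M.dualTwist (cycloChar p))) := by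
  classical
  haveI : NeZero p := ⟨(Fact.out : p.Prime).ne_zero⟩
  obtain ⟨ζ, hζ⟩ := HasEnoughRootsOfUnity.exists_primitiveRoot (AlgebraicClosure ℚ) p
  haveI : Finite M := Module.finite_of_finite (ZMod p)
  haveI : Finite (M.dualTwist (cycloChar p)) := Module.finite_of_finite (ZMod p)
  haveI : Fintype D.Mod := Fintype.ofFinite _
  let v : D.Mod → D.Mod := id
  have hv : Function.Surjective (presMap (G := D.Gal) v) := fun x =>
    ⟨presSingle x 1, by rw [presMap_presSingle, one_smul]; rfl⟩
  choose c hc hcx using fun x : continuousH1S S (M.dualTwist (cycloChar p)) =>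
    (mem_continuousH1S_iff S _ _).1 x.2
  choose h hpair hunr using fun x => exists_map_of_class D hζ (v := v) (c x) (hc x)
  obtain ⟨W, hW, hWmem⟩ := exists_finite_signature D (v := v)
  haveI := hW.to_subtype
  let Φ : continuousH1S S (M.dualTwist (cycloChar p)) → (D.Mod × D.Gal → W) :=
    fun x t => ⟨_, hWmem (h x) (hunr x) t⟩
  let Ψ : continuousH1S S (M.dualTwist (cycloChar p)) → (D.Gal → M.dualTwist (cycloChar p)) :=
    fun x g => c x (Function.surjInv D.res_surjective g)
  refine Finite.of_injective (fun x => (Φ x, Ψ x)) fun x x' hxx => Subtype.ext ?_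
  rw [← hcx x, ← hcx x']
  congr 1
  refine cocycles₁_ext fun σ => ?_
  set τ := Function.surjInv D.res_surjective (D.res σ)
  have hτ : c x τ = c x' τ := congrFun (congrArg Prod.snd hxx) (D.res σ)
  have hk : D.res (τ⁻¹ * σ) = 1 := by
    rw [map_mul, map_inv, Function.surjInv_eq D.res_surjective, inv_mul_cancel]
  have hker := apply_eq_of_signature_eq D hζ hv (hpair x) (hpair x')
    (fun t => congrArg Subtype.val (congrFun (congrArg Prod.fst hxx) t)) hk
  have e : ∀ y, c y σ =
      (M.dualTwist (cycloChar p)).ρ τ (c y (τ⁻¹ * σ)) + c y τ := fun y => by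
    conv_lhs => rw [← mul_inv_cancel_left τ σ]
    exact (mem_cocycles₁_iff _).1 (c y).2 τ _
  rw [e x, e x', hker, hτ]

end FermatLib.CFT.GWKummer
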