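import Fermat.Agent.CFT.GWKSeqBase
import Fermat.Agent.CFT.GWGlobFinite

/-!
The sequence `0 → Hom_G(M, μ) → ⊕_v H⁰_v(M') → Hom_G(M, C_T) → Ш¹_T(M') → 0`, counted.
-/

set_option autoImplicit false

open CategoryTheory groupCohomology ExtCitation NumberField

namespace FermatLib.CFT.GWKummer

open FermatLib.CFT

local notation "Γℚ" => AlgebraicClosure ℚ ≃ₐ[ℚ] AlgebraicClosure ℚ
local notation "Qbar" => AlgebraicClosure ℚ

variable {p : ℕ} [Fact p.Prime] {M : Rep.{0, 0, 0} (ZMod p) Γℚ} {T : Finset Nat.Primes} (D : Level M T)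

local notation "M'" => M.dualTwist (cycloChar p)
local notation "CT" => ClassModUnits D.field (T : Set Nat.Primes)
local notation "mkT" => classModUnitsMk D.field (T : Set Nat.Primes)

/-- A value whose multiple by `p` is a unit is a unit. -/
theorem kseq_unit_of_nsmul {q : Nat.Primes} {z : QUnits q}
    (h : p • z ∈ QUnits.unitGroup q) : z ∈ QUnits.unitGroup q := by
  have h4 : ∀ n : ℕ, (n • z).toField = z.toField ^ n := fun n => by
    induction n with
    | zero => simp
    | succ n ih => rw [succ_nsmul, QUnits.toField_add, ih, pow_succ]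
  rw [QUnits.mem_unitGroup_iff, h4, norm_pow] at h
  rw [QUnits.mem_unitGroup_iff]
  exact (pow_eq_one_iff_of_nonneg (norm_nonneg _) (Fact.out : p.Prime).ne_zero).1 h

section equivariance

variable {B : Type*} [AddCommGroup B] [DistribMulAction D.Gal B]

/-- Equivariant maps into the units of `ℚ̄` descend to the level. -/
theorem kseq_descend (F : B →+ QbarU) (hF : ∀ σ b, F (D.res σ • b) = σ • F b) :
    ∃ E : equivHom D.Gal B (LUnits D.field),
      ∀ b, toQbarU D ((E : B →+ LUnits D.field) b) = F b := by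
  have : IsGalois ℚ Qbar :=
    have : IsAlgClosure ℚ Qbar := ⟨inferInstance, AlgebraicClosure.isAlgebraic ℚ⟩
    IsAlgClosure.isGalois ℚ Qbar
  have hdesc : ∀ b, ∃ y, toQbarU D y = F b := fun b => by
    have hmem : (F b).el ∈ D.field := by
      suffices hfix : (F b).el ∈ IntermediateField.fixedField D.field.fixingSubgroup by
        rwa [InfiniteGalois.fixedField_fixingSubgroup] at hfix
      rw [IntermediateField.mem_fixedField_iff]
      intro σ hσ
      have := hF σ b
      rw [(D.res_eq_one_iff σ).2 hσ, one_smul] at this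
      exact ((congrArg QbarU.el this).trans (QbarU.el_smul σ _)).symm
    exact ⟨LUnits.of (Units.mk0 ⟨(F b).el, hmem⟩ fun h => (F b).el_ne_zero
      (congrArg Subtype.val h)), QbarU.el_injective rfl⟩
  choose y hy using hdesc
  refine ⟨⟨AddMonoidHom.mk' y fun a b => toQbarU_injective D (by
    rw [map_add, hy, hy, hy, map_add]), fun g x => ?_⟩, hy⟩
  obtain ⟨σ, rfl⟩ := D.res_surjective g
  refine toQbarU_injective D ?_
  show toQbarU D (y _) = toQbarU D (D.res σ • y x)
  rw [toQbarU_smul, hy, hy]
  exact hF σ x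

/-- An equivariant idele map with trivial class has an equivariant principal part. -/
theorem kseq_principal_part (F : B →+ Idele D.field)
    (hF : ∀ (g : D.Gal) b, F (g • b) = g • F b) (h0 : ∀ b, mkT (F b) = 0) :
    ∃ E : equivHom D.Gal B (LUnits D.field), ∀ b,
      F b - principalIdele D.field ((E : B →+ LUnits D.field) b) ∈
        unitIdelesOutside D.field (T : Set Nat.Primes) := by
  choose a ha using fun b => (classModUnitsMk_eq_zero_iff D.field _ (F b)).1 (h0 b)
  refine ⟨⟨AddMonoidHom.mk' a fun b b' =>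
    eq_of_sub_principalIdele_mem D.field _ (ha (b + b')) ?_, fun g b =>
    eq_of_sub_principalIdele_mem D.field _ (ha (g • b)) ?_⟩, ha⟩
  · rw [map_add, map_add, add_sub_add_comm]
    exact add_mem (ha b) (ha b')
  · show F (g • b) - principalIdele D.field (g • a b) ∈ _
    rw [hF, principalIdele_smul, ← smul_sub]
    exact unitIdelesOutside_smul_mem D.field _ g (ha b)

/-- Equivariant idele maps with equal values at `T` and infinity and unit difference outside `T`
differ by units outside `T`. -/
theorem kseq_sub_mem (A A' : B →+ Idele D.field) (hA : ∀ (g : D.Gal) b, A (g • b) = g • A b)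
    (hA' : ∀ (g : D.Gal) b, A' (g • b) = g • A' b)
    (hT : ∀ q ∈ T, ∀ b, localValue D.field q (A b) = localValue D.field q (A' b))
    (hinf : ∀ b, infValue D.field (A b) = infValue D.field (A' b))
    (hout : ∀ q ∉ T, ∀ b ψ, (A b - A' b).fin q ψ ∈ QUnits.unitGroup q) (b : B) :
    A b - A' b ∈ unitIdelesOutside D.field (T : Set Nat.Primes) := by
  refine sub_mem_unitIdelesOutside D (fun q hq ψ => hout q hq b ψ) (fun q hq g => ?_) fun g => ?_
  · rw [smul_sub, ← hA, ← hA', map_sub, hT q hq, sub_self]
  · rw [smul_sub, ← hA, ← hA', map_sub, hinf, sub_self]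

end equivariance

/-- An idele of the units outside `T` vanishes at the standard embedding of a prime of `T`. -/
theorem kseq_localValue_eq {f f' : Idele D.field}
    (h : f - f' ∈ unitIdelesOutside D.field (T : Set Nat.Primes)) {q : Nat.Primes} (hq : q ∈ T) :
    localValue D.field q f = localValue D.field q f' := by
  rw [← sub_eq_zero, ← map_sub]
  exact (h.1 q (stdEmb D.field q)).2 (Finset.mem_coe.2 hq)

/-- An idele of the units outside `T` vanishes at infinity. -/
theorem kseq_infValue_eq {f f' : Idele D.field}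
    (h : f - f' ∈ unitIdelesOutside D.field (T : Set Nat.Primes)) :
    infValue D.field f = infValue D.field f' := by
  rw [← sub_eq_zero, ← map_sub, infValue_apply]
  exact congrFun h.2 _

variable {ζ : AlgebraicClosure ℚ} (hζ : IsPrimitiveRoot ζ p)

section invariants

variable {Γ : Type} [Group Γ] {f : Γ →* Γℚ} {Ω : Type*} [AddCommGroup Ω] [DistribMulAction Γ Ω]
  {φ : QbarU →+ Ω}

/-- An invariant functional gives an equivariant map. -/
theorem kseq_equivariant (hφ : ∀ σ w, φ (f σ • w) = σ • φ w) {a : M'}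
    (ha : ∀ σ, (M').ρ (f σ) a = a) (σ : Γ) (x : D.Mod) :
    φ (muMap D hζ a (D.res (f σ) • x)) = σ • φ (muMap D hζ a x) := by
  conv_lhs => rw [← ha σ, muMap_ρ, inv_smul_smul, hφ]

/-- An equivariant map gives an invariant functional. -/
theorem kseq_invariant (hφ : ∀ σ w, φ (f σ • w) = σ • φ w) (hinj : Function.Injective φ) {a : M'}
    (heq : ∀ σ x, φ (muMap D hζ a (D.res (f σ) • x)) = σ • φ (muMap D hζ a x)) (σ : Γ) :
    (M').ρ (f σ) a = a :=
  muMap_injective D hζ (AddMonoidHom.ext fun x => hinj (by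
    rw [muMap_ρ, hφ, ← heq, smul_inv_smul]))

/-- The family of the zero cocycle. -/
theorem kseq_dualFamily_zero {Γ : Type} [Group Γ] {Ω : Type*} [AddCommGroup Ω] (φ : QbarU →+ Ω) :
    dualFamily D hζ φ (fun _ : Γ => (0 : M')) = 0 :=
  funext fun σ => by
    show φ.comp (muMap D hζ 0) = 0
    rw [map_zero, AddMonoidHom.comp_zero]

end invariants

/-- The local invariants. -/
abbrev KLoc (_D : Level M T) : Type :=
  ∀ v : extArithIndex T, ↥(Rep.res (extArithLoc T v) (M')).ρ.invariants

/-- The functional at infinity. -/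
abbrev kInfFun (f : KLoc D) : M' := (f (Sum.inl ())).1

/-- The functional at a prime of `T`. -/
abbrev kFinFun (f : KLoc D) (q : ↥T) : M' := (f (Sum.inr q)).1

theorem kFinFun_equivariant (f : KLoc D) (q : ↥T) (τ : Gloc q.1) (x : D.Mod) :
    ((toQUnits q.1).comp (muMap D hζ (kFinFun D f q))) (locRes D q.1 τ • x) =
      Gloc.onUnits (q := q.1) τ (((toQUnits q.1).comp (muMap D hζ (kFinFun D f q))) x) :=
  kseq_equivariant D hζ (f := primeLocalToGlobal q.1) (toQUnits_smul q.1)
    (fun σ => (f (Sum.inr q)).2 σ) τ x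

theorem kInfFun_equivariant (f : KLoc D) (x : D.Mod) :
    (toCUnits.comp (muMap D hζ (kInfFun D f))) (D.res complexConjugation • x) =
      conjUnits ((toCUnits.comp (muMap D hζ (kInfFun D f))) x) := by
  have h := kseq_equivariant D hζ (f := archimedeanLoc) toCUnits_smul
    (fun σ => (f (Sum.inl ())).2 σ) archimedeanGen x
  rwa [archimedeanGen_smul] at h

/-- Local invariants as equivariant maps into ideles supported at `T` and infinity. -/
noncomputable def kIdele (f : KLoc D) : D.Mod →+ Idele D.field :=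
  infLift (stdEmbInf D) (D.res complexConjugation) (conj_stdEmbInf D)
      (toCUnits.comp (muMap D hζ (kInfFun D f))) (kInfFun_equivariant D hζ f) +
    ∑ q : ↥T, localLift (stdEmb D.field q.1) (fun τ => locRes D q.1 τ) (stdEmb_postComp D q.1)
      ((toQUnits q.1).comp (muMap D hζ (kFinFun D f q))) (kFinFun_equivariant D hζ f q)

theorem kIdele_fin (f : KLoc D) (x : D.Mod) (r : Nat.Primes) (ψ : Emb D.field r) :
    (kIdele D hζ f x).fin r ψ = ∑ q : ↥T, (localLift (stdEmb D.field q.1) (fun τ => locRes D q.1 τ)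
      (stdEmb_postComp D q.1) ((toQUnits q.1).comp (muMap D hζ (kFinFun D f q)))
      (kFinFun_equivariant D hζ f q) x).fin r ψ := by
  let ev : Idele D.field →+ QUnits r :=
    { toFun := fun g => g.fin r ψ, map_zero' := rfl, map_add' := fun _ _ => rfl }
  show ev (kIdele D hζ f x) = _
  rw [kIdele, AddMonoidHom.add_apply, map_add,
    show ev (infLift _ _ _ _ _ x) = 0 from rfl, zero_add, AddMonoidHom.finsetSum_apply, map_sum]
  rfl

theorem kIdele_localValue (f : KLoc D) (x : D.Mod) {q : Nat.Primes} (hq : q ∈ T) :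
    localValue D.field q (kIdele D hζ f x) = toQUnits q (muMap D hζ (kFinFun D f ⟨q, hq⟩) x) := by
  rw [localValue_apply, kIdele_fin, Finset.sum_eq_single (⟨q, hq⟩ : ↥T)]
  · exact localLift_fin_self _ _ _ _ _ x
  · intro r _ hr
    exact localLift_apply_of_ne _ _ _ _ _ x (fun h => hr (Subtype.ext h.symm)) _
  · exact fun h => absurd (Finset.mem_univ _) h

theorem kIdele_fin_outside (f : KLoc D) (x : D.Mod) {q : Nat.Primes} (hq : q ∉ T)
    (ψ : Emb D.field q) : (kIdele D hζ f x).fin q ψ = 0 := by
  rw [kIdele_fin]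
  refine Finset.sum_eq_zero fun r _ => ?_
  exact localLift_apply_of_ne _ _ _ _ _ x (fun h => hq (by rw [h]; exact r.2)) _

theorem kIdele_infValue (f : KLoc D) (x : D.Mod) :
    infValue D.field (kIdele D hζ f x) = toCUnits (muMap D hζ (kInfFun D f) x) := by
  rw [kIdele, AddMonoidHom.add_apply, map_add, AddMonoidHom.finsetSum_apply, map_sum,
    Finset.sum_eq_zero (fun r _ => ?_), add_zero, infValue_apply]
  · exact infLift_inf_self _ _ _ _ _ x
  · rw [infValue_apply]
    exact congrFun (localLift_mem _ _ _ _ _ x).2 _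

theorem kIdele_smul (f : KLoc D) (g : D.Gal) (x : D.Mod) :
    kIdele D hζ f (g • x) = g • kIdele D hζ f x := by
  simp only [kIdele, AddMonoidHom.add_apply, AddMonoidHom.finsetSum_apply, smul_add,
    Finset.smul_sum, infLift_smul, localLift_smul]

/-- The map from the local invariants to `Hom_G(M, C_T)`. -/
noncomputable def kPsi : KLoc D →+ equivHom D.Gal D.Mod CT :=
  AddMonoidHom.mk' (fun f => ⟨(mkT).comp (kIdele D hζ f), fun g x => by
    show mkT (kIdele D hζ f (g • x)) = g • mkT (kIdele D hζ f x)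
    rw [kIdele_smul, classModUnitsMk_smul]⟩) fun f g => Subtype.ext (AddMonoidHom.ext fun x => by
      show mkT (kIdele D hζ (f + g) x) = mkT (kIdele D hζ f x) + mkT (kIdele D hζ g x)
      rw [← map_add, ← sub_eq_zero, ← map_sub, classModUnitsMk_eq_zero_iff]
      refine ⟨0, ?_⟩
      rw [map_zero, sub_zero]
      refine kseq_sub_mem D (kIdele D hζ (f + g)) (kIdele D hζ f + kIdele D hζ g)
        (kIdele_smul D hζ _) (fun a b => ?_) (fun q hq b => ?_) (fun b => ?_)
        (fun q hq b ψ => ?_) x
      · simp only [AddMonoidHom.add_apply, kIdele_smul, smul_add]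
      · rw [AddMonoidHom.add_apply, map_add, kIdele_localValue D hζ _ _ hq,
          kIdele_localValue D hζ _ _ hq, kIdele_localValue D hζ _ _ hq, ← map_add,
          ← AddMonoidHom.add_apply, ← map_add]
        rfl
      · rw [AddMonoidHom.add_apply, map_add, kIdele_infValue, kIdele_infValue, kIdele_infValue,
          ← map_add, ← AddMonoidHom.add_apply, ← map_add]
        rfl
      · show (kIdele D hζ (f + g) b).fin q ψ -
          ((kIdele D hζ f b).fin q ψ + (kIdele D hζ g b).fin q ψ) ∈ _
        rw [kIdele_fin_outside D hζ _ _ hq, kIdele_fin_outside D hζ _ _ hq,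
          kIdele_fin_outside D hζ _ _ hq, add_zero, sub_zero]
        exact zero_mem _)

theorem kPsi_apply (f : KLoc D) (x : D.Mod) :
    (kPsi D hζ f : D.Mod →+ CT) x = mkT (kIdele D hζ f x) := rfl

/-- The diagonal map. -/
noncomputable def kDiag : ↥(M').ρ.invariants →+ KLoc D where
  toFun a v := ⟨a.1, fun σ => a.2 (extArithLoc T v σ)⟩
  map_zero' := rfl
  map_add' _ _ := rfl

theorem kDiag_injective : Function.Injective (kDiag D) := fun a b h =>
  Subtype.ext (show ((kDiag D a (Sum.inl ())).1 : M') = (kDiag D b (Sum.inl ())).1 by rw [h])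

include hζ in
theorem kPsi_ker_eq : (kPsi D hζ).ker = (kDiag D).range := by
  refine AddSubgroup.ext fun f => ⟨fun hf => ?_, ?_⟩
  · have h0 : ∀ x, mkT (kIdele D hζ f x) = 0 := fun x => by
      rw [← kPsi_apply, hf]
      rfl
    obtain ⟨E, hE⟩ := kseq_principal_part D (kIdele D hζ f) (kIdele_smul D hζ f) h0
    obtain ⟨a, ha⟩ := exists_muMap_eq D hζ ((toQbarU D).comp (E : D.Mod →+ LUnits D.field))
    have hinv : ∀ σ, (M').ρ σ a = a := kseq_invariant D hζ (f := MonoidHom.id Γℚ)
      (φ := AddMonoidHom.id QbarU) (fun _ _ => rfl) Function.injective_id fun σ x => by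
        show muMap D hζ a (D.res σ • x) = σ • muMap D hζ a x
        rw [ha, AddMonoidHom.comp_apply, AddMonoidHom.comp_apply, E.2, toQbarU_smul]
    refine ⟨⟨a, hinv⟩, funext fun v => Subtype.ext (muMap_injective D hζ ?_)⟩
    show muMap D hζ a = muMap D hζ (f v).1
    rcases v with u | q
    · refine AddMonoidHom.ext fun x => toCUnits_injective ?_
      rw [← kIdele_infValue, kseq_infValue_eq D (hE x), infValue_principal, ha]
      rfl
    · refine AddMonoidHom.ext fun x => toQUnits_injective q.1 ?_
      rw [show toQUnits q.1 (muMap D hζ (f (Sum.inr q)).1 x) =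
          toQUnits q.1 (muMap D hζ (kFinFun D f ⟨q.1, q.2⟩) x) from rfl,
        ← kIdele_localValue D hζ f x q.2, kseq_localValue_eq D (hE x) q.2, localValue_principal,
        ha]
      rfl
  · rintro ⟨a, rfl⟩
    obtain ⟨E, hE⟩ := kseq_descend D (muMap D hζ a.1)
      (kseq_equivariant D hζ (f := MonoidHom.id Γℚ) (φ := AddMonoidHom.id QbarU) (fun _ _ => rfl)
        (fun σ => a.2 σ))
    refine Subtype.ext (AddMonoidHom.ext fun x => ?_)
    show mkT (kIdele D hζ (kDiag D a) x) = 0
    rw [classModUnitsMk_eq_zero_iff]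
    refine ⟨(E : D.Mod →+ LUnits D.field) x, ?_⟩
    refine kseq_sub_mem D (kIdele D hζ (kDiag D a))
      ((principalIdele D.field).comp (E : D.Mod →+ LUnits D.field)) (kIdele_smul D hζ _)
      (fun g b => ?_) (fun q hq b => ?_) (fun b => ?_) (fun q hq b ψ => ?_) x
    · rw [AddMonoidHom.comp_apply, AddMonoidHom.comp_apply, E.2, principalIdele_smul]
    · rw [AddMonoidHom.comp_apply, kIdele_localValue D hζ _ _ hq, localValue_principal, hE]
      rfl
    · rw [AddMonoidHom.comp_apply, kIdele_infValue, infValue_principal, hE]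
      rfl
    · refine kseq_unit_of_nsmul (p := p) ?_
      show p • ((kIdele D hζ (kDiag D a) b).fin q ψ -
        (principalIdele D.field ((E : D.Mod →+ LUnits D.field) b)).fin q ψ) ∈ _
      rw [kIdele_fin_outside D hζ _ _ hq]
      refine AddSubgroup.nsmul_mem _ (sub_mem (zero_mem _) (kseq_unit_of_nsmul (p := p) ?_)) p
      let ev : LUnits D.field →+ QUnits q :=
        { toFun := fun y => (principalIdele D.field y).fin q ψ
          map_zero' := by rw [map_zero]; rfl
          map_add' := fun y z => by rw [map_add]; rfl }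
      show p • ev _ ∈ _
      rw [← map_nsmul, ← map_nsmul, D.nsmul_mod, map_zero, map_zero]
      exact zero_mem _

section relation

variable {ι : Type} [Fintype ι] (v : ι → D.Mod)

/-- `η` is related to the class `x` through a lift to ideles and its Kummer pair. -/
def KRel (η : equivHom D.Gal D.Mod CT) (x : H1 (M')) : Prop :=
  ∃ (F : equivHom D.Gal (Pres ι D.Gal) (Idele D.field))
    (h : equivHom D.Gal (presKer (G := D.Gal) v) (LUnits D.field)) (c : cocycles₁ (M')),
    (∀ b, mkT ((F : Pres ι D.Gal →+ Idele D.field) b) = (η : D.Mod →+ CT) (presMap v b)) ∧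
    (∀ y : presKer (G := D.Gal) v, (F : Pres ι D.Gal →+ Idele D.field) y -
      principalIdele D.field ((h : presKer (G := D.Gal) v →+ LUnits D.field) y) ∈
        unitIdelesOutside D.field (T : Set Nat.Primes)) ∧
    IsPair D.res v ((toQbarU D).comp (h : presKer (G := D.Gal) v →+ LUnits D.field))
      (fun σ => muMap D hζ (c σ)) ∧
    IsLevelConstantS₁ T c ∧ (H1π (M')).hom c = x

theorem KRel.sub {η η' : equivHom D.Gal D.Mod CT} {x x' : H1 (M')}
    (H : KRel D hζ v η x) (H' : KRel D hζ v η' x') : KRel D hζ v (η - η') (x - x') := by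
  obtain ⟨F, h, c, hF, hu, hp, hc, rfl⟩ := H
  obtain ⟨F', h', c', hF', hu', hp', hc', rfl⟩ := H'
  refine ⟨F - F', h - h', c - c', fun b => ?_, fun y => ?_, ?_, ?_, map_sub (H1π (M')).hom c c'⟩
  · show mkT ((F : Pres ι D.Gal →+ Idele D.field) b - (F' : Pres ι D.Gal →+ Idele D.field) b) = _
    rw [map_sub, hF, hF']
    rfl
  · show ((F : Pres ι D.Gal →+ Idele D.field) y - (F' : Pres ι D.Gal →+ Idele D.field) y) -
      principalIdele D.field ((h : presKer (G := D.Gal) v →+ LUnits D.field) y -
        (h' : presKer (G := D.Gal) v →+ LUnits D.field) y) ∈ _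
    rw [map_sub, sub_sub_sub_comm]
    exact sub_mem (hu y) (hu' y)
  · have h1 := hp.sub D.res hp'
    convert h1 using 1
    · exact AddMonoidHom.ext fun y => map_sub (toQbarU D) _ _
    · exact funext fun σ => map_sub (muMap D hζ) _ _
  · obtain ⟨K, hK, hK'⟩ := hc
    obtain ⟨K₂, hK₂, hK₂'⟩ := hc'
    refine ⟨K ⊔ K₂, hK.sup hK₂, fun g s hs => ?_⟩
    show c (g * s) - c' (g * s) = c g - c' g
    rw [hK' g s (IntermediateField.fixingSubgroup_antitone le_sup_left hs),
      hK₂' g s (IntermediateField.fixingSubgroup_antitone le_sup_right hs)]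

theorem kRel_kPsi (f : KLoc D) : KRel D hζ v (kPsi D hζ f) 0 := by
  refine ⟨⟨(kIdele D hζ f).comp (presMap v), fun g b => ?_⟩, 0, 0, fun b => rfl, fun y => ?_, ?_,
    ?_, map_zero _⟩
  · rw [AddMonoidHom.comp_apply, AddMonoidHom.comp_apply, presMap_smul, kIdele_smul]
  · show kIdele D hζ f (presMap v (y : Pres ι D.Gal)) - principalIdele D.field 0 ∈ _
    rw [show presMap v (y : Pres ι D.Gal) = 0 from y.2, map_zero, map_zero, sub_zero]
    exact zero_mem _
  · refine ⟨0, fun y => ?_, fun σ b => ?_⟩
    · show (0 : QbarU) = toQbarU D 0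
      rw [map_zero]
    · show muMap D hζ 0 _ = σ • (0 : QbarU) - 0
      rw [map_zero, AddMonoidHom.zero_apply, smul_zero, sub_zero]
  · exact isLevelConstantS₁_const T (0 : M')

/-- A vanishing global class and a cohomologous family. -/
theorem kseq_H1π_eq_zero_iff (c : cocycles₁ (M')) :
    (H1π (M')).hom c = 0 ↔ IsCohomologous D.res (fun σ => muMap D hζ (c σ)) 0 := by
  rw [← map_zero (H1π (M')).hom, H1π_eq_iff]
  constructor
  · rintro ⟨a, ha⟩
    refine ⟨muMap D hζ a, fun σ x => ?_⟩
    have h1 : c σ = (M').ρ σ a - a := by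
      have := congrFun ha σ
      rw [d₀₁_hom_apply] at this
      rw [this]
      exact (sub_zero (c σ)).symm
    show muMap D hζ (c σ) x - 0 = _
    rw [sub_zero, h1, map_sub, AddMonoidHom.sub_apply, muMap_ρ]
  · rintro ⟨η, hη⟩
    obtain ⟨a, rfl⟩ := exists_muMap_eq D hζ η
    refine ⟨a, funext fun σ => muMap_injective D hζ (AddMonoidHom.ext fun x => ?_)⟩
    have h1 : muMap D hζ (c σ) x - 0 =
        σ • muMap D hζ a ((D.res σ)⁻¹ • x) - muMap D hζ a x := hη σ x
    rw [d₀₁_hom_apply]
    show muMap D hζ ((M').ρ σ a - a) x = muMap D hζ (c σ - 0) x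
    rw [map_sub, map_sub, map_zero, AddMonoidHom.sub_apply, AddMonoidHom.sub_apply,
      AddMonoidHom.zero_apply, muMap_ρ, h1]

theorem kRel_eq_zero (hv : Function.Surjective (presMap (G := D.Gal) v)) {x : H1 (M')}
    (H : KRel D hζ v 0 x) : x = 0 := by
  obtain ⟨F, h, c, hF, hu, hp, -, rfl⟩ := H
  obtain ⟨E, hE⟩ := kseq_principal_part D (F : Pres ι D.Gal →+ Idele D.field) F.2
    fun b => (hF b).trans rfl
  have hEh : ∀ y : presKer (G := D.Gal) v,
      (E : Pres ι D.Gal →+ LUnits D.field) y =
        (h : presKer (G := D.Gal) v →+ LUnits D.field) y := fun y =>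
    eq_of_sub_principalIdele_mem D.field _ (hE _) (hu y)
  have h0 := isPair_restr D.res (v := v) (F := (toQbarU D).comp (E : Pres ι D.Gal →+ LUnits D.field))
    fun σ b => by
      rw [AddMonoidHom.comp_apply, AddMonoidHom.comp_apply, E.2, toQbarU_smul]
  rw [show ((toQbarU D).comp (E : Pres ι D.Gal →+ LUnits D.field)).comp
      (presKer (G := D.Gal) v).subtype =
      (toQbarU D).comp (h : presKer (G := D.Gal) v →+ LUnits D.field) from
    AddMonoidHom.ext fun y => congrArg (toQbarU D) (hEh y)] at h0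
  exact (kseq_H1π_eq_zero_iff D hζ c).2 (hp.cohomologous D.res hv h0)

theorem exists_kPsi_eq (hv : Function.Surjective (presMap (G := D.Gal) v))
    {η : equivHom D.Gal D.Mod CT} (H : KRel D hζ v η 0) : η ∈ (kPsi D hζ).range := by
  obtain ⟨F, h, c, hF, hu, hp, -, hc0⟩ := H
  obtain ⟨Fg, hFg, hFgh⟩ := hp.exists_extension D.res ((kseq_H1π_eq_zero_iff D hζ c).1 hc0)
  obtain ⟨E, hE⟩ := kseq_descend D Fg hFg
  let J : Pres ι D.Gal →+ Idele D.field := (F : Pres ι D.Gal →+ Idele D.field) -
    (principalIdele D.field).comp (E : Pres ι D.Gal →+ LUnits D.field)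
  have hJ : ∀ (g : D.Gal) b, J (g • b) = g • J b := fun g b => by
    simp only [J, AddMonoidHom.sub_apply, AddMonoidHom.comp_apply]
    rw [F.2, E.2, principalIdele_smul, smul_sub]
  have hJker : ∀ y : presKer (G := D.Gal) v,
      J y ∈ unitIdelesOutside D.field (T : Set Nat.Primes) := fun y => by
    have e : (E : Pres ι D.Gal →+ LUnits D.field) y =
        (h : presKer (G := D.Gal) v →+ LUnits D.field) y :=
      toQbarU_injective D ((hE _).trans (hFgh y))
    simp only [J, AddMonoidHom.sub_apply, AddMonoidHom.comp_apply, e]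
    exact hu y
  have hfin : ∀ q : ↥T, ∃ a : M', (∀ σ, (M').ρ (primeLocalToGlobal q.1 σ) a = a) ∧
      ∀ b, toQUnits q.1 (muMap D hζ a (presMap v b)) = localValue D.field q.1 (J b) := by
    intro q
    have hle : (presMap (G := D.Gal) v).ker ≤ ((localValue D.field q.1).comp J).ker := fun y hy => by
      show localValue D.field q.1 (J y) = 0
      rw [← map_zero (localValue D.field q.1)]
      exact kseq_localValue_eq D (by rw [sub_zero]; exact hJker ⟨y, hy⟩) q.2
    obtain ⟨a, ha⟩ := exists_toQUnits_muMap D hζ q.1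
      ((presMap (G := D.Gal) v).liftOfSurjective hv ⟨_, hle⟩)
    have hab : ∀ b, toQUnits q.1 (muMap D hζ a (presMap v b)) = localValue D.field q.1 (J b) :=
      fun b => (DFunLike.congr_fun ha _).trans
        (AddMonoidHom.liftOfRightInverse_comp_apply _ _ _ ⟨_, hle⟩ b)
    refine ⟨a, kseq_invariant D hζ (toQUnits_smul q.1) (toQUnits_injective q.1) fun σ x => ?_, hab⟩
    obtain ⟨b, rfl⟩ := hv x
    rw [← presMap_smul, hab, hab, hJ]
    exact localValue_smul D q.1 σ (J b)
  have hinf : ∃ a : M', (∀ σ, (M').ρ (archimedeanLoc σ) a = a) ∧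
      ∀ b, toCUnits (muMap D hζ a (presMap v b)) = infValue D.field (J b) := by
    have hle : (presMap (G := D.Gal) v).ker ≤ ((infValue D.field).comp J).ker := fun y hy => by
      show infValue D.field (J y) = 0
      rw [← map_zero (infValue D.field)]
      exact kseq_infValue_eq D (by rw [sub_zero]; exact hJker ⟨y, hy⟩)
    obtain ⟨a, ha⟩ := exists_toCUnits_muMap D hζ
      ((presMap (G := D.Gal) v).liftOfSurjective hv ⟨_, hle⟩)
    have hab : ∀ b, toCUnits (muMap D hζ a (presMap v b)) = infValue D.field (J b) :=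
      fun b => (DFunLike.congr_fun ha _).trans
        (AddMonoidHom.liftOfRightInverse_comp_apply _ _ _ ⟨_, hle⟩ b)
    refine ⟨a, kseq_invariant D hζ toCUnits_smul toCUnits_injective fun σ x => ?_, hab⟩
    obtain ⟨b, rfl⟩ := hv x
    rw [← presMap_smul, hab, hab, hJ]
    exact infValue_smul D σ (J b)
  choose a ha hab using hfin
  obtain ⟨a₀, ha₀, ha₀b⟩ := hinf
  let f : KLoc D := fun w => match w with
    | Sum.inl _ => ⟨a₀, ha₀⟩
    | Sum.inr q => ⟨a q, ha q⟩
  refine ⟨f, Subtype.ext (AddMonoidHom.ext fun x => ?_)⟩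
  obtain ⟨b, rfl⟩ := hv x
  show mkT (kIdele D hζ f (presMap v b)) = (η : D.Mod →+ CT) (presMap v b)
  have h1 : mkT ((F : Pres ι D.Gal →+ Idele D.field) b) = mkT (J b) := by
    have h2 : mkT (principalIdele D.field ((E : Pres ι D.Gal →+ LUnits D.field) b)) = 0 :=
      (classModUnitsMk_eq_zero_iff D.field _ _).2
        ⟨(E : Pres ι D.Gal →+ LUnits D.field) b, by rw [sub_self]; exact zero_mem _⟩
    simp only [J, AddMonoidHom.sub_apply, AddMonoidHom.comp_apply, map_sub, h2, sub_zero]
  rw [← hF, h1, eq_comm, ← sub_eq_zero, ← map_sub, classModUnitsMk_eq_zero_iff]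
  refine ⟨0, ?_⟩
  rw [map_zero, sub_zero]
  refine kseq_sub_mem D J ((kIdele D hζ f).comp (presMap v)) hJ (fun g y => ?_)
    (fun q hq y => ?_) (fun y => ?_) (fun q hq y ψ => ?_) b
  · rw [AddMonoidHom.comp_apply, AddMonoidHom.comp_apply, presMap_smul, kIdele_smul]
  · rw [AddMonoidHom.comp_apply, kIdele_localValue D hζ _ _ hq]
    exact (hab ⟨q, hq⟩ y).symm
  · rw [AddMonoidHom.comp_apply, kIdele_infValue]
    exact (ha₀b y).symm
  · show (J y).fin q ψ - (kIdele D hζ f (presMap v y)).fin q ψ ∈ _
    rw [kIdele_fin_outside D hζ _ _ hq, sub_zero]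
    refine kseq_unit_of_nsmul (p := p) ?_
    have h3 := ((hJker ⟨p • y, nsmul_mem_presKer D.nsmul_mod y⟩).1 q ψ).1
    let ev : Idele D.field →+ QUnits q :=
      { toFun := fun g => g.fin q ψ, map_zero' := rfl, map_add' := fun _ _ => rfl }
    show p • ev (J y) ∈ _
    rw [← map_nsmul, ← map_nsmul]
    exact h3

include hζ in
/-- The classes related to an equivariant map are locally trivial, and exist. -/
theorem exists_kRel (hpT : pPrime p ∈ T) (hv : Function.Surjective (presMap (G := D.Gal) v))
    (η : equivHom D.Gal D.Mod CT) : ∃ x ∈ sha₁ T (M'), KRel D hζ v η x := by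
  obtain ⟨F, hFsmul, hF⟩ := exists_equivariant_lift (G := D.Gal) mkT
    (classModUnitsMk_smul D.field _) (classModUnitsMk_surjective D.field _)
    ((η : D.Mod →+ CT).comp (presMap v)) fun g b => by
      rw [AddMonoidHom.comp_apply, AddMonoidHom.comp_apply, presMap_smul, η.2]
  obtain ⟨h, hu⟩ := kseq_principal_part D (F.comp (presKer (G := D.Gal) v).subtype)
    (fun g y => hFsmul g y) fun y => by
      rw [AddMonoidHom.comp_apply, hF, AddMonoidHom.comp_apply]
      show (η : D.Mod →+ CT) (presMap v (y : Pres ι D.Gal)) = 0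
      rw [show presMap v (y : Pres ι D.Gal) = 0 from y.2, map_zero]
  have hunr := isUnramifiedMap_of_decomp D (h : presKer (G := D.Gal) v →+ LUnits D.field) F
    fun q _ y => by
      rw [← neg_sub, map_neg]
      exact neg_mem ((hu y).1 q (stdEmb D.field q)).1
  obtain ⟨c, hc, hp⟩ := exists_class_of_map D hζ hpT hv h hunr
  have hH : (H1π (M')).hom c ∈ continuousH1S T (M') :=
    (mem_continuousH1S_iff T _ _).2 ⟨c, hc, rfl⟩
  refine ⟨_, ⟨hH, LinearMap.mem_ker.2 (funext fun w => ?_)⟩, ⟨F, hFsmul⟩, h, c, hF, hu, hp, hc,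
    rfl⟩
  rw [locTotal_apply]
  refine (H1π_comp_map_apply (extArithLoc T w) (𝟙 _) c).trans ?_
  show _ = (0 : H1 (Rep.res (extArithLoc T w) (M')))
  rw [← map_zero (H1π (Rep.res (extArithLoc T w) (M'))).hom]
  rcases w with u | q
  · refine H1π_eq_of_isCohomologous D hζ archimedeanLoc toCUnits toCUnits_smul toCUnits_injective
      (exists_toCUnits_muMap D hζ) ?_
    have h0 : IsPair (infRes D) v ((infValue D.field).comp ((principalIdele D.field).comp
        (h : presKer (G := D.Gal) v →+ LUnits D.field))) 0 := by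
      have h1 := isPair_restr (infRes D) (v := v) (F := (infValue D.field).comp F)
        fun σ b => by
          rw [AddMonoidHom.comp_apply, AddMonoidHom.comp_apply, hFsmul]
          exact infValue_smul D σ (F b)
      convert h1 using 1
      exact AddMonoidHom.ext fun y => (kseq_infValue_eq D (hu y)).symm
    have h2 := (isPair_inf D hζ hp).cohomologous (infRes D) hv h0
    rw [← kseq_dualFamily_zero D hζ toCUnits] at h2
    exact h2
  · refine H1π_eq_of_isCohomologous D hζ (primeLocalToGlobal q.1) (toQUnits q.1)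
      (toQUnits_smul q.1) (toQUnits_injective q.1) (exists_toQUnits_muMap D hζ q.1) ?_
    have h0 : IsPair (locRes D q.1) v ((localValue D.field q.1).comp ((principalIdele D.field).comp
        (h : presKer (G := D.Gal) v →+ LUnits D.field))) 0 := by
      have h1 := isPair_restr (locRes D q.1) (v := v) (F := (localValue D.field q.1).comp F)
        fun σ b => by
          rw [AddMonoidHom.comp_apply, AddMonoidHom.comp_apply, hFsmul]
          exact localValue_smul D q.1 σ (F b)
      convert h1 using 1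
      exact AddMonoidHom.ext fun y => (kseq_localValue_eq D (hu y) q.2).symm
    have h2 := (isPair_local D hζ hp q.1).cohomologous (locRes D q.1) hv h0
    rw [← kseq_dualFamily_zero D hζ (toQUnits q.1)] at h2
    exact h2

include hζ in
/-- Every locally trivial class is related to an equivariant map. -/
theorem exists_kRel_of_sha (hv : Function.Surjective (presMap (G := D.Gal) v)) {x : H1 (M')}
    (hx : x ∈ sha₁ T (M')) : ∃ η, KRel D hζ v η x := by
  classical
  obtain ⟨c, hc, rfl⟩ := (mem_continuousH1S_iff T _ _).1 hx.1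
  obtain ⟨h, hp, hunr⟩ := exists_map_of_class D hζ (v := v) c hc
  have hloc : ∀ w, (H1π (Rep.res (extArithLoc T w) (M'))).hom
      (mapCocycles₁ (extArithLoc T w) (𝟙 (Rep.res (extArithLoc T w) (M'))) c) =
      (H1π (Rep.res (extArithLoc T w) (M'))).hom 0 := fun w => by
    have h1 := congrFun (LinearMap.mem_ker.1 hx.2) w
    rw [locTotal_apply] at h1
    rw [map_zero]
    exact (H1π_comp_map_apply (extArithLoc T w) (𝟙 _) c).symm.trans h1
  have hFq : ∀ q ∈ T, ∃ Fq : Pres ι D.Gal →+ QUnits q, IsEquivariantFree (locRes D q) Fq ∧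
      ∀ y : presKer (G := D.Gal) v, Fq y = localValue D.field q (principalIdele D.field
        ((h : presKer (G := D.Gal) v →+ LUnits D.field) y)) := fun q hq => by
    have h1 := isCohomologous_dualFamily D hζ (primeLocalToGlobal q) (toQUnits q) (toQUnits_smul q)
      (c' := 0) (hloc (Sum.inr ⟨q, hq⟩))
    refine (isPair_local D hζ hp q).exists_extension (locRes D q) ?_
    rw [← kseq_dualFamily_zero D hζ (toQUnits q)]
    exact h1
  choose Fq hFq₁ hFq₂ using hFq
  obtain ⟨Finf, hFinf₁, hFinf₂⟩ : ∃ Fi : Pres ι D.Gal →+ CUnits, IsEquivariantFree (infRes D) Fi ∧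
      ∀ y : presKer (G := D.Gal) v, Fi y = infValue D.field (principalIdele D.field
        ((h : presKer (G := D.Gal) v →+ LUnits D.field) y)) := by
    have h1 := isCohomologous_dualFamily D hζ archimedeanLoc toCUnits toCUnits_smul
      (c' := 0) (hloc (Sum.inl ()))
    refine (isPair_inf D hζ hp).exists_extension (infRes D) ?_
    rw [← kseq_dualFamily_zero D hζ toCUnits]
    exact h1
  obtain ⟨F', hF'T, hF'inf, hF'out⟩ := exists_free_idele D h hunr
    (fun q => if hq : q ∈ T then Fq q hq else 0)
    (fun q hq => by rw [dif_pos hq]; exact hFq₁ q hq) Finf hFinf₁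
  have hsub : ∀ y : presKer (G := D.Gal) v, (F' : Pres ι D.Gal →+ Idele D.field) y -
      principalIdele D.field ((h : presKer (G := D.Gal) v →+ LUnits D.field) y) ∈
        unitIdelesOutside D.field (T : Set Nat.Primes) := fun y => by
    refine kseq_sub_mem D ((F' : Pres ι D.Gal →+ Idele D.field).comp
        (presKer (G := D.Gal) v).subtype)
      ((principalIdele D.field).comp (h : presKer (G := D.Gal) v →+ LUnits D.field))
      (fun g z => F'.2 g _) (fun g z => ?_) (fun q hq z => ?_) (fun z => ?_)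
      (fun q hq z ψ => ?_) y
    · rw [AddMonoidHom.comp_apply, AddMonoidHom.comp_apply, h.2, principalIdele_smul]
    · rw [AddMonoidHom.comp_apply, AddMonoidHom.comp_apply]
      show localValue D.field q ((F' : Pres ι D.Gal →+ Idele D.field) z) = _
      rw [hF'T q hq, dif_pos hq, hFq₂ q hq]
    · rw [AddMonoidHom.comp_apply, AddMonoidHom.comp_apply]
      show infValue D.field ((F' : Pres ι D.Gal →+ Idele D.field) z) = _
      rw [hF'inf, hFinf₂]
    · have h2 := neg_mem (hF'out q hq z ψ)
      show ((F' : Pres ι D.Gal →+ Idele D.field) z).fin q ψ -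
        (principalIdele D.field ((h : presKer (G := D.Gal) v →+ LUnits D.field) z)).fin q ψ ∈ _
      rw [← neg_sub]
      exact h2
  have hle : (presMap (G := D.Gal) v).ker ≤
      ((mkT).comp (F' : Pres ι D.Gal →+ Idele D.field)).ker := fun y hy =>
    (classModUnitsMk_eq_zero_iff D.field _ _).2 ⟨_, hsub ⟨y, hy⟩⟩
  let η₀ : D.Mod →+ CT := (presMap (G := D.Gal) v).liftOfSurjective hv ⟨_, hle⟩
  have hη : ∀ b, η₀ (presMap v b) = mkT ((F' : Pres ι D.Gal →+ Idele D.field) b) := fun b =>
    AddMonoidHom.liftOfRightInverse_comp_apply _ _ _ ⟨_, hle⟩ b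
  refine ⟨⟨η₀, fun g m => ?_⟩, F', h, c, fun b => (hη b).symm, hsub, hp, hc, rfl⟩
  obtain ⟨b, rfl⟩ := hv m
  rw [← presMap_smul, hη, hη, F'.2, classModUnitsMk_smul]

end relation

include D in
/-- The counted sequence. -/
theorem natCard_equivHom_kseq (hpT : pPrime p ∈ T) [FiniteDimensional (ZMod p) M] :
    FiniteDimensional (ZMod p) (sha₁ T (M')) ∧
    Finite (equivHom D.Gal D.Mod CT) ∧
    Nat.card (equivHom D.Gal D.Mod CT) * Nat.card (M').ρ.invariants =
      Nat.card (sha₁ T (M')) *
        ∏ v, Nat.card (Rep.res (extArithLoc T v) (M')).ρ.invariants := by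
  classical
  have : NeZero p := ⟨(Fact.out : p.Prime).ne_zero⟩
  obtain ⟨ζ, hζ⟩ := HasEnoughRootsOfUnity.exists_primitiveRoot (AlgebraicClosure ℚ) p
  have : Finite M := Module.finite_of_finite (ZMod p)
  have : Finite (M') := Module.finite_of_finite (ZMod p)
  haveI : Fintype D.Mod := Fintype.ofFinite _
  haveI := finite_continuousH1S_dualTwist D
  haveI hsha : Finite (sha₁ T (M')) := Finite.of_injective
    (fun x => (⟨x.1, x.2.1⟩ : continuousH1S T (M'))) fun a b h =>
      Subtype.ext (congrArg (fun z : continuousH1S T (M') => z.1) h)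
  let v : D.Mod → D.Mod := id
  have hv : Function.Surjective (presMap (G := D.Gal) v) := fun x =>
    ⟨presSingle x 1, by rw [presMap_presSingle, one_smul]; rfl⟩
  choose Φ hΦsha hΦ using exists_kRel D hζ v hpT hv
  have key : ∀ η η', Φ η = Φ η' ↔ η - η' ∈ (kPsi D hζ).range := fun η η' => by
    have h1 := (hΦ η).sub D hζ v (hΦ η')
    constructor
    · intro h
      rw [h, sub_self] at h1
      exact exists_kPsi_eq D hζ v hv h1
    · rintro ⟨f, hf⟩
      rw [← hf] at h1
      have h2 := h1.sub D hζ v (kRel_kPsi D hζ v f)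
      rw [sub_self, sub_zero] at h2
      exact sub_eq_zero.1 (kRel_eq_zero D hζ v hv h2)
  let Φ' : (equivHom D.Gal D.Mod CT ⧸ (kPsi D hζ).range) → sha₁ T (M') :=
    fun q => Quotient.liftOn' q (fun η => ⟨Φ η, hΦsha η⟩) fun η η' h => Subtype.ext <| by
      rw [QuotientAddGroup.leftRel_apply] at h
      refine ((key η' η).2 ?_).symm
      rwa [← neg_add_eq_sub]
  have hΦ' : Function.Bijective Φ' := by
    refine ⟨fun q q' h => ?_, fun x => ?_⟩
    · induction q using QuotientAddGroup.induction_on with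
      | H η =>
        induction q' using QuotientAddGroup.induction_on with
        | H η' =>
          refine QuotientAddGroup.eq.2 ?_
          rw [neg_add_eq_sub]
          exact (key η' η).1 (congrArg Subtype.val h).symm
    · obtain ⟨η, hη⟩ := exists_kRel_of_sha D hζ v hv x.2
      refine ⟨QuotientAddGroup.mk η, Subtype.ext ?_⟩
      have h2 := (hΦ η).sub D hζ v hη
      rw [sub_self] at h2
      exact sub_eq_zero.1 (kRel_eq_zero D hζ v hv h2)
  have hK := AddSubgroup.card_eq_card_quotient_mul_card_addSubgroup (kPsi D hζ).range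
  rw [Nat.card_congr (Equiv.ofBijective Φ' hΦ')] at hK
  have hL := AddSubgroup.card_eq_card_quotient_mul_card_addSubgroup (kPsi D hζ).ker
  rw [Nat.card_congr (QuotientAddGroup.quotientKerEquivRange (kPsi D hζ)).toEquiv] at hL
  have hdiag : Nat.card (kPsi D hζ).ker = Nat.card (M').ρ.invariants := by
    rw [kPsi_ker_eq D hζ]
    exact (Nat.card_congr (AddMonoidHom.ofInjective (kDiag_injective D)).toEquiv).symm
  have hpi : Nat.card (KLoc D) = ∏ w, Nat.card (Rep.res (extArithLoc T w) (M')).ρ.invariants :=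
    Nat.card_pi
  rw [hpi, hdiag] at hL
  haveI hfinLoc : Finite (KLoc D) := by
    haveI : ∀ w, Finite ↥(Rep.res (extArithLoc T w) (M')).ρ.invariants := fun w =>
      haveI : Finite (Rep.res (extArithLoc T w) (M')) := inferInstanceAs (Finite (M'))
      inferInstance
    infer_instance
  haveI : Finite (kPsi D hζ).range :=
    Finite.of_surjective _ (kPsi D hζ).rangeRestrict_surjective
  refine ⟨Module.Finite.of_finite, Nat.finite_of_card_ne_zero ?_, ?_⟩
  · rw [hK]
    exact mul_ne_zero Nat.card_pos.ne' Nat.card_pos.ne'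
  · rw [hK, hL, mul_assoc]

end FermatLib.CFT.GWKummer
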