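import Fermat.Agent.CFT.GWGlobSetting
import Fermat.Agent.CFT.GWKSeq
import Fermat.Agent.CFT.PresDefs

/-!
Inputs of the global Euler characteristic: the maps for
duality of `Ext¹` into the classes modulo units with `H¹` (proved in `GWEulerDual`) and the
sequence of locally trivial classes.
-/

set_option autoImplicit false

open CategoryTheory Module groupCohomology ExtCitation

namespace FermatLib.CFT

local notation "Γℚ" => AlgebraicClosure ℚ ≃ₐ[ℚ] AlgebraicClosure ℚ

section repMod

variable {k G V : Type} [CommRing k] [Group G] [AddCommGroup V] [Module k V]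
  (σ : Representation k G V)

/-- The module of a representation, with the action as an instance. -/
def RepMod (_σ : Representation k G V) : Type := V

instance : AddCommGroup (RepMod σ) := inferInstanceAs (AddCommGroup V)

/-- The identity onto the module of a representation. -/
def toRepMod : V ≃+ RepMod σ := AddEquiv.refl V

instance repModAction : DistribMulAction G (RepMod σ) where
  smul g x := toRepMod σ (σ g ((toRepMod σ).symm x))
  one_smul x := by
    show toRepMod σ (σ 1 ((toRepMod σ).symm x)) = x
    rw [map_one]
    rfl
  mul_smul g h x := by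
    show toRepMod σ (σ (g * h) ((toRepMod σ).symm x)) = _
    rw [map_mul]
    rfl
  smul_zero g := map_zero (σ g)
  smul_add g a b := map_add (σ g) _ _

@[simp] theorem smul_toRepMod (g : G) (x : V) : g • toRepMod σ x = toRepMod σ (σ g x) := rfl

end repMod

section pull

variable {G : Type*} [Group G] [Fintype G] {ι : Type*} [Fintype ι]
  {V W : Type*} [AddCommGroup V] [DistribMulAction G V] [AddCommGroup W] [DistribMulAction G W]

theorem presMap_comp_apply (π : V →+ W) (hπ : ∀ (g : G) x, π (g • x) = g • π x) (v : ι → V)
    (f : Pres ι G) : presMap (π ∘ v) f = π (presMap v f) := by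
  show ∑ i, ∑ g, f i g • (g • π (v i)) = π (∑ i, ∑ g, f i g • (g • v i))
  simp only [map_sum, map_zsmul, hπ]

/-- `Ext¹(W, A) → Ext¹(V, A)` along a map `π : V → W`, on presentations by the same generators. -/
def ext1Pull (A : Type*) [AddCommGroup A] [DistribMulAction G A] (π : V →+ W)
    (hπ : ∀ (g : G) x, π (g • x) = g • π x) (v : ι → V) :
    ext1 G A (π ∘ v) →+ ext1 G A v :=
  have hle : presKer (G := G) v ≤ presKer (G := G) (π ∘ v) := fun x (hx : presMap v x = 0) => by
    show presMap (π ∘ v) x = 0
    rw [presMap_comp_apply π hπ, hx, map_zero]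
  QuotientAddGroup.map (presRestr G A (π ∘ v)).range (presRestr G A v).range
    { toFun := fun h => ⟨(h : presKer (G := G) (π ∘ v) →+ A).comp (AddSubgroup.inclusion hle),
        fun g x => h.2 g (AddSubgroup.inclusion hle x)⟩
      map_zero' := rfl
      map_add' := fun _ _ => rfl }
    (by
      rintro _ ⟨h, rfl⟩
      exact ⟨h, rfl⟩)

end pull

variable {p : ℕ} [Fact p.Prime] {M : Rep (ZMod p) Γℚ} {T : Finset Nat.Primes}
  (D : GWKummer.Level M T)

/-- A representation of the Galois group of the level as one of the absolute Galois group. -/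
noncomputable abbrev inflRep {V : Type} [AddCommGroup V] [Module (ZMod p) V]
    (σ : Representation (ZMod p) D.Gal V) : Rep (ZMod p) Γℚ :=
  Rep.of (σ.comp D.res)

/-- The map on first cohomology induced by an equivariant map. -/
noncomputable def inflH1Map {V W : Type} [AddCommGroup V] [Module (ZMod p) V] [AddCommGroup W]
    [Module (ZMod p) W] {σ : Representation (ZMod p) D.Gal V}
    {τ : Representation (ZMod p) D.Gal W} (π : V →ₗ[ZMod p] W)
    (hπ : ∀ g x, π (σ g x) = τ g (π x)) : H1 (inflRep D σ) →ₗ[ZMod p] H1 (inflRep D τ) :=
  (groupCohomology.map (MonoidHom.id Γℚ)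
    (Rep.ofHom (π.intertwiningMap_of_isIntertwiningMap (σ.comp D.res) (τ.comp D.res)
      fun s x => hπ (D.res s) x) : inflRep D σ ⟶ inflRep D τ) 1).hom

end FermatLib.CFT
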