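import Fermat.Agent.CFT.DualInstance
import Fermat.Agent.CFT.DualTranspose
import Fermat.Agent.CFT.GWEulerInterface

/-!
The pairing of `Ext¹_G(V, C_T)` with the classes at the class field of a level.
-/

set_option autoImplicit false

open CategoryTheory Module groupCohomology ExtCitation NumberField

namespace FermatLib.CFT

local notation "Γℚ" => AlgebraicClosure ℚ ≃ₐ[ℚ] AlgebraicClosure ℚ
local notation "ℚbar" => AlgebraicClosure ℚ

variable {p : ℕ} [Fact p.Prime] {M : Rep (ZMod p) Γℚ} {T : Finset Nat.Primes}
  (D : GWKummer.Level M T)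
  {V : Type} [AddCommGroup V] [Module (ZMod p) V] (σ : Representation (ZMod p) D.Gal V)
  {ι : Type} [Fintype ι] (v : ι → RepMod σ)

theorem nsmul_repMod (x : RepMod σ) : p • x = 0 := by
  obtain ⟨y, rfl⟩ := (toRepMod σ).surjective x
  rw [← map_nsmul, ← Nat.cast_smul_eq_nsmul (ZMod p) p y, ZMod.natCast_self, zero_smul, map_zero]

instance finite_repMod [FiniteDimensional (ZMod p) V] : Finite (RepMod σ) :=
  haveI : Finite V := Module.finite_of_finite (ZMod p)
  inferInstanceAs (Finite V)

/-- Maps from relations to classes modulo units lift to idele classes. -/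
def LiftsToClasses : Prop :=
  ∀ hq ∈ equivHom D.Gal (presKer (G := D.Gal) v) (ClassModUnits D.field (T : Set Nat.Primes)),
    ∃ h ∈ equivHom D.Gal (presKer (G := D.Gal) v) (IdeleClass D.field),
      ∀ x, (QuotientAddGroup.mk (h x) : ClassModUnits D.field (T : Set Nat.Primes)) = hq x

theorem exists_isExponentLevel_level (hpT : pPrime p ∈ T) :
    ∃ (F' : IntermediateField ℚ ℚbar) (_ : NumberField F') (_ : IsGalois ℚ F') (h : D.field ≤ F'),
      IsExponentLevel p T D.field F' h := by
  obtain ⟨ζ, hζ⟩ := HasEnoughRootsOfUnity.exists_primitiveRoot ℚbar p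
  obtain ⟨ζ₀, hζ₀, -⟩ := D.isPrimitiveRoot hζ
  exact exists_isExponentLevel D.field ⟨ζ₀, hζ₀⟩ D.isTotallyComplex T hpT
    ((isUnramifiedOutside_iff D.field T).1 D.unramified)

variable {F' F'' : IntermediateField ℚ ℚbar} [NumberField F'] [NumberField F'']
  [IsGalois ℚ F'] [IsGalois ℚ F''] {h : D.field ≤ F'}

/-- The pairing data at a field over the class field. -/
theorem dualPairingData (E : IsExponentLevel p T D.field F' h) (h' : F' ≤ F'')
    (hur : ∀ q ∉ T, IsUnramifiedAtRel (⊤ : Subgroup (F'' ≃ₐ[ℚ] F'')) q)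
    (hv : Function.Surjective (presMap (G := D.Gal) v)) (hlift : LiftsToClasses D σ v) :
    DualPairingData (Γ := F'' ≃ₐ[ℚ] F'') (G := D.Gal) (C := IdeleClass F'')
      (C₀ := IdeleClass D.field) (Q := ClassModUnits D.field (T : Set Nat.Primes)) p
      (galRes (h.trans h')) (classLe (h.trans h'))
      (unitClassesOutside D.field (T : Set Nat.Primes)) v
      (QuotientAddGroup.mk' _) (globalInv p F'') where
  level := E.isDualLevel h' hur
  killed := nsmul_repMod D σ
  gen := hv
  pr_surj := QuotientAddGroup.mk'_surjective _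
  pr_smul := fun _ _ => rfl
  pr_ker := fun c => QuotientAddGroup.eq_zero_iff c
  lift := hlift
  inv_eq_zero := globalInv_eq_zero_iff p F''

variable [FiniteDimensional (ZMod p) V]

/-- Extension classes are finite and as many as the classes at any field over the class field. -/
theorem natCard_ext1_eq_natCard_piH1 (E : IsExponentLevel p T D.field F' h) (h' : F' ≤ F'')
    (hur : ∀ q ∉ T, IsUnramifiedAtRel (⊤ : Subgroup (F'' ≃ₐ[ℚ] F'')) q)
    (hv : Function.Surjective (presMap (G := D.Gal) v)) (hlift : LiftsToClasses D σ v) :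
    Finite (ext1 D.Gal (ClassModUnits D.field (T : Set Nat.Primes)) v) ∧
      Nat.card (ext1 D.Gal (ClassModUnits D.field (T : Set Nat.Primes)) v) =
        Nat.card (piH1 (galRes (h.trans h')) (RepMod σ)) :=
  have D₀ := dualPairingData D σ v E h' hur hv hlift
  ⟨D₀.finite_ext1, D₀.natCard_ext1⟩

variable {W : Type} [AddCommGroup W] [Module (ZMod p) W] [FiniteDimensional (ZMod p) W]
  (τ : Representation (ZMod p) D.Gal W)

/-- Pulling back extension classes is the transpose of pushing classes forward. -/
theorem natCard_range_ext1Pull_eq (E : IsExponentLevel p T D.field F' h)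
    (π' : RepMod σ →+ RepMod τ) (hπ'e : ∀ (g : D.Gal) x, π' (g • x) = g • π' x)
    (hπ's : Function.Surjective π') (hv : Function.Surjective (presMap (G := D.Gal) v))
    (hlift : LiftsToClasses D σ v) (hlift' : LiftsToClasses D τ (π' ∘ v)) :
    Nat.card ↥(ext1Pull (ClassModUnits D.field (T : Set Nat.Primes)) π' hπ'e v).range =
      Nat.card ↥(piH1Map π' hπ'e (galRes h)).range := by
  have hv' : Function.Surjective (presMap (G := D.Gal) (π' ∘ v)) := fun y => by
    obtain ⟨x, rfl⟩ := hπ's y
    obtain ⟨a, rfl⟩ := hv x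
    exact ⟨a, presMap_comp_apply π' hπ'e v a⟩
  have D₀ := dualPairingData D σ v E le_rfl E.unramified hv hlift
  have D₁ := dualPairingData D τ (π' ∘ v) E le_rfl E.unramified hv' hlift'
  refine natCard_range_of_transpose D₁.nsmul_piH1_eq_zero D₀.pairing D₁.pairing D₀.pairing_bijective
    D₁.pairing_bijective _ (piH1Map π' hπ'e (galRes h)) fun e c => ?_
  induction e using QuotientAddGroup.induction_on with
  | H hq =>
    induction c using QuotientAddGroup.induction_on with
    | H w =>
      exact (DualPairingData.valQ_natural π' hπ'e D₀ D₁ hq w (comp_mem_piZ1 π' hπ'e w.2)).symm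

end FermatLib.CFT
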