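import Fermat.Agent.CFT.SecondExistenceField

/-!
The existence theorem for exponent `p`.
-/

set_option autoImplicit false
set_option linter.unusedVariables false

open NumberField

namespace FermatLib.CFT

variable {p : ℕ} [Fact p.Prime]

/-- Existence theorem for exponent `p` with ramification in `S`. -/
theorem exists_classField_exponent (L₀ : IntermediateField ℚ (AlgebraicClosure ℚ))
    [NumberField L₀] [IsGalois ℚ L₀] (hμ : ∃ ζ : L₀, IsPrimitiveRoot ζ p)
    (hi : p = 2 → IsTotallyComplex L₀)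
    (S : Finset Nat.Primes) (hpS : ⟨p, Fact.out⟩ ∈ S)
    (hL₀ : ∀ q ∉ S, IsUnramifiedAtRel (⊤ : Subgroup (L₀ ≃ₐ[ℚ] L₀)) q) :
    ∃ (L : IntermediateField ℚ (AlgebraicClosure ℚ)) (_ : NumberField L) (_ : IsGalois ℚ L)
      (hle : L₀ ≤ L),
      let alg : Algebra L₀ L := (IntermediateField.inclusion hle).toRingHom.toAlgebra
      let H : Subgroup (L ≃ₐ[ℚ] L) :=
        { carrier := {g | ∀ x : L₀, g (IntermediateField.inclusion hle x) =
            IntermediateField.inclusion hle x}
          one_mem' := fun x => rfl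
          mul_mem' := fun {a b} ha hb x => by
            rw [AlgEquiv.mul_apply, hb x, ha x]
          inv_mem' := fun {a} ha x => by
            rw [AlgEquiv.aut_inv, AlgEquiv.symm_apply_eq, ha x] }
      (∀ g ∈ H, g ^ p = 1) ∧ (∀ g ∈ H, ∀ h ∈ H, g * h = h * g) ∧
      (∀ q ∉ S, IsUnramifiedAtRel (⊤ : Subgroup (L ≃ₐ[ℚ] L)) q) ∧
      ∀ (c : IdeleClass L₀) (d : IdeleClass L),
        @classBaseChange L₀ _ _ L _ _ alg c = normMap H (IdeleClass L) d →
        ∃ (e : IdeleClass L₀) (u : Idele L₀), u ∈ unitIdelesOutside L₀ (S : Set Nat.Primes) ∧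
          c = p • e + QuotientAddGroup.mk u := by
  classical
  obtain ⟨ζ, hζ⟩ := hμ
  have : NeZero p := ⟨(Fact.out : p.Prime).ne_zero⟩
  obtain ⟨T, hT, hST, hval⟩ := exists_minimal_places (K := L₀) ⟨ζ, hζ⟩ S hpS
  obtain ⟨P, hP⟩ := exists_dualSystem (K := L₀) ⟨ζ, hζ⟩ T
    (relIndex_placeUnits_ne_zero ⟨ζ, hζ⟩ T)
  choose a ha hna hoth using hP.dual
  let a' : P → LUnits L₀ := fun v => a v.1 v.2
  refine ⟨rootField L₀ p a', rootField_numberField a', rootField_isGalois a', le_rootField a',
    ?_⟩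
  intro alg H
  letI : Algebra L₀ (rootField L₀ p a') := alg
  have := rootField_numberField (p := p) a'
  have := rootField_isGalois (p := p) a'
  have hmu := hζ.map_of_injective (algebraMap L₀ (rootField L₀ p a')).injective
  -- the action of `H` on a generator
  have hact : ∀ y : rootField L₀ p a', (y : AlgebraicClosure ℚ) ∈ conjugateRoots p a' →
      ∀ g ∈ H, ∃ j : ℕ, g y = algebraMap L₀ (rootField L₀ p a') ζ ^ j * y := by
    intro y hy g hg
    obtain ⟨i, σ, x, -, hx⟩ := pow_mem_base a' hy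
    have hyp : y ^ p = algebraMap L₀ (rootField L₀ p a') x.val := Subtype.ext hx
    obtain ⟨j, -, hj⟩ := hmu.eq_pow_of_pow_eq_one (ξ := g y / y) (by
      rw [div_pow, ← map_pow g, hyp, show g (algebraMap L₀ (rootField L₀ p a') x.val) =
        algebraMap L₀ (rootField L₀ p a') x.val from hg x.val, div_self]
      exact (map_ne_zero _).2 x.val.ne_zero)
    exact ⟨j, ((eq_div_iff (exists_ne_zero_root hyp)).1 hj).symm⟩
  have hfixζ : ∀ g ∈ H, ∀ j : ℕ, g (algebraMap L₀ (rootField L₀ p a') ζ ^ j) =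
      algebraMap L₀ (rootField L₀ p a') ζ ^ j := fun g hg j => by
    rw [map_pow]; exact congrArg (· ^ j) (hg ζ)
  have hfixbase : ∀ g ∈ H, ∀ n : ℕ, ∀ x : L₀,
      (g ^ n) (IntermediateField.inclusion (le_rootField a') x) =
        IntermediateField.inclusion (le_rootField a') x := fun g hg n => pow_mem hg n
  refine ⟨fun g hg => ?_, fun g hg h hh => ?_, fun q hq φ g _ hgi => ?_, fun c d hcd => ?_⟩
  · refine rootField_ext a' (fun x => hfixbase g hg p x) fun y hy => ?_
    obtain ⟨j, hj⟩ := hact y hy g hg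
    have key : ∀ n : ℕ, (g ^ n) y = algebraMap L₀ (rootField L₀ p a') ζ ^ (n * j) * y := by
      intro n
      induction n with
      | zero => simp
      | succ n ih =>
        rw [pow_succ', AlgEquiv.mul_apply, ih, map_mul, hfixζ g hg, hj, ← mul_assoc, ← pow_add]
        ring_nf
    rw [key, pow_mul, hmu.pow_eq_one, one_pow, one_mul, AlgEquiv.one_apply]
  · refine rootField_ext a' (fun x => ?_) fun y hy => ?_
    · rw [AlgEquiv.mul_apply, AlgEquiv.mul_apply, hh x, hg x, hh x]
    · obtain ⟨j, hj⟩ := hact y hy g hg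
      obtain ⟨k, hk⟩ := hact y hy h hh
      rw [AlgEquiv.mul_apply, AlgEquiv.mul_apply, hk, hj, map_mul, map_mul, hfixζ g hg,
        hfixζ h hh, hj, hk]
      ring
  · have hqp : (q : ℕ) ≠ p := fun h => hq (by
      rwa [show q = (⟨p, Fact.out⟩ : Nat.Primes) from Subtype.ext h])
    have htower : IsScalarTower ℚ L₀ (rootField L₀ p a') :=
      IsScalarTower.of_algebraMap_eq' (Subsingleton.elim _ _)
    let φ₀ : Emb L₀ q := φ.comp (algebraMap L₀ (rootField L₀ p a'))
    have hres : ∀ x : L₀, algebraMap L₀ (rootField L₀ p a') (g.restrictNormal L₀ x) =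
        g (algebraMap L₀ (rootField L₀ p a') x) := fun x =>
      AlgEquiv.restrictNormal_commutes g L₀ x
    have hg0 : g.restrictNormal L₀ = 1 := by
      refine hL₀ q hq φ₀ _ (Subgroup.mem_top _) ⟨?_, fun x hx => ?_⟩
      · obtain ⟨τ, hτ⟩ := hgi.1
        exact ⟨τ, RingHom.ext fun x =>
          (RingHom.congr_fun hτ (algebraMap L₀ (rootField L₀ p a') x)).trans
            (congrArg φ (hres x)).symm⟩
      · have h1 := hgi.2 (algebraMap L₀ (rootField L₀ p a') x) hx
        rw [← hres x] at h1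
        exact h1
    have hgfix : ∀ x : L₀, g (algebraMap L₀ (rootField L₀ p a') x) =
        algebraMap L₀ (rootField L₀ p a') x := fun x => by
      rw [← hres x, hg0, AlgEquiv.one_apply]
    refine rootField_ext a' (fun x => hgfix x) fun y hy => ?_
    obtain ⟨i, σ, x, rfl, hx⟩ := pow_mem_base a' hy
    obtain ⟨z, hz⟩ := ((hval (a' i) (ha i.1 i.2)).smul σ) q hq φ₀
    exact fix_root_of_inertia hζ hqp φ hgi hgfix (x := σ • a' i) (Subtype.ext hx) hz
  · have hroot : ∀ v : P, ∃ b : rootField L₀ p a',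
        b ^ p = algebraMap L₀ (rootField L₀ p a') (a' v).val := fun v => by
      obtain ⟨r, hr⟩ := IsAlgClosed.exists_pow_nat_eq
        (((a' v).val : L₀) : AlgebraicClosure ℚ) (Fact.out : p.Prime).pos
      exact ⟨⟨r, IntermediateField.subset_adjoin _ _ (Or.inr ⟨v, 1, hr⟩)⟩, Subtype.ext hr⟩
    choose b hb using hroot
    have hH : H = fixerSubgroup L₀ (rootField L₀ p a') := SetLike.ext fun _ => Iff.rfl
    have hnp : ∀ v : P, ¬ IsGlobalPow p (a' v) := fun v => by
      rintro ⟨y, hy⟩
      refine hna v.1 v.2 fun φ _ => ?_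
      show principalFamily L₀ (a' v) v.1.1 φ ∈ _
      rw [← hy]
      exact ⟨_, (principalIdele L₀ y).fin_mem_localUnits _ φ,
        (map_nsmul ((Pi.evalAddMonoidHom (fun _ : Emb L₀ v.1.1 => QUnits v.1.1) φ).comp
          (AddMonoidHom.mk' (fun f : Idele L₀ => fun ψ => f.fin v.1.1 ψ) fun _ _ => rfl))
          p (principalIdele L₀ y)).symm.trans
        (congrArg (fun f : Idele L₀ => f.fin v.1.1 φ) (map_nsmul (principalIdele L₀) p y).symm)⟩
    have hstep := fun v : P => isKummerStep_elementFixer (L := rootField L₀ p a') hζ (hb v)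
      (exists_moved (hb v) (hnp v))
    obtain ⟨e, u, hu, hceq⟩ := hP.exists_of_forall_mem hT a' (fun v => ha v.1 v.2)
      (fun v w hne => hoth v.1 v.2 w.1 w.2 fun h => hne (Subtype.ext h))
      (fun v => normClasses (rootField L₀ p a')
        (fixerSubgroup L₀ (rootField L₀ p a') ⊓ elementFixer (b v))
        (fixerSubgroup L₀ (rootField L₀ p a')))
      (fun v => (hstep v).isKummerNormGroup) (c := c) (fun v => by
        rw [mem_normClasses_iff]
        refine ⟨relNorm (IdeleClass (rootField L₀ p a')) ⊥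
          (fixerSubgroup L₀ (rootField L₀ p a') ⊓ elementFixer (b v)) d,
          RelNorm.mem_fixedPts (fun g => by
            rw [show g = 1 from Subsingleton.elim g 1, one_smul]), ?_⟩
        rw [hcd, RelNorm.trans' bot_le inf_le_left (fun g => by
          rw [show g = 1 from Subsingleton.elim g 1, one_smul])]
        rw [RelNorm.eq_finsum_of_bijective (H' := (⊥ : Subgroup _))
          (fun g => by rw [show g = 1 from Subsingleton.elim g 1, one_smul]) id
          ⟨fun x y h => ?_, fun x => ?_⟩]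
        · simp only [normMap]
          rfl
        · have h' := QuotientGroup.eq.1 h
          rw [Subgroup.mem_subgroupOf, Subgroup.mem_bot] at h'
          exact inv_mul_eq_one.1 (Subtype.ext h')
        · exact QuotientGroup.mk_surjective x)
    refine ⟨e, u, ⟨fun q φ => ⟨(hu.1 q φ).1, fun hqS => (hu.1 q φ).2 ?_⟩, funext hu.2⟩, hceq⟩
    exact hST ((mem_placesOver φ.place).2 hqS)

end FermatLib.CFT
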