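import Fermat.Agent.CFT.DualBasic
import Fermat.Agent.CFT.Existence

/-!
The level `L` of exponent `p` over a Galois field `L₀`, unramified outside `S`, in the form
consumed by the algebraic duality core (`π = galRes`, `j = classLe`, the norm axiom).
-/

set_option autoImplicit false

open NumberField

namespace FermatLib.CFT

local notation "ℚbar" => AlgebraicClosure ℚ

variable {p : ℕ} [Fact p.Prime]

/-- The classes of unit ideles trivial on `S` and at infinity. -/
noncomputable def unitClassesOutside (L : Type) [Field L] [NumberField L] (S : Set Nat.Primes) :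
    AddSubgroup (IdeleClass L) :=
  (unitIdelesOutside L S).map (QuotientAddGroup.mk' (principalIdeles L))

theorem smul_mem_unitClassesOutside {L : Type} [Field L] [NumberField L] {S : Set Nat.Primes}
    (g : L ≃ₐ[ℚ] L) {c : IdeleClass L} (hc : c ∈ unitClassesOutside L S) :
    g • c ∈ unitClassesOutside L S := by
  obtain ⟨f, hf, rfl⟩ := hc
  refine ⟨g • f, ⟨fun q φ => ⟨?_, fun hq => ?_⟩, funext fun χ => ?_⟩, rfl⟩
  · exact (hf.1 q (φ.preComp g)).1
  · exact (hf.1 q (φ.preComp g)).2 hq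
  · rw [idele_smul_apply_inf, hf.2]
    rfl

theorem mem_galRes_ker_iff {F F' : IntermediateField ℚ ℚbar} [NumberField F] [IsGalois ℚ F]
    (h : F ≤ F') (g : F' ≃ₐ[ℚ] F') :
    g ∈ (galRes h).ker ↔ ∀ x : F, g (IntermediateField.inclusion h x) =
      IntermediateField.inclusion h x := by
  rw [MonoidHom.mem_ker]
  refine ⟨fun hg x => ?_, fun hg => AlgEquiv.ext fun x => ?_⟩
  · rw [← galRes_spec h g x, hg, AlgEquiv.one_apply]
  · exact (IntermediateField.inclusion h).injective ((galRes_spec h g x).trans (hg x))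

/-- Being a level of exponent `p` over `F`, unramified outside `S`, whose norms are, modulo
`p`-th powers, classes of units outside `S`. -/
structure IsExponentLevel (p : ℕ) (S : Finset Nat.Primes) (F F' : IntermediateField ℚ ℚbar)
    [NumberField F] [IsGalois ℚ F] [NumberField F'] [IsGalois ℚ F'] (h : F ≤ F') : Prop where
  pow_eq_one : ∀ g ∈ (galRes h).ker, g ^ p = 1
  comm : ∀ g ∈ (galRes h).ker, ∀ g' ∈ (galRes h).ker, g * g' = g' * g
  unramified : ∀ q ∉ S, IsUnramifiedAtRel (⊤ : Subgroup (F' ≃ₐ[ℚ] F')) q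
  norm_mem : ∀ (c : IdeleClass F) (d : IdeleClass F'),
    classLe h c = ∑ᶠ k : (galRes h).ker, (k : F' ≃ₐ[ℚ] F') • d →
      ∃ e : IdeleClass F, c - p • e ∈ unitClassesOutside F (S : Set Nat.Primes)

/-- Every base with the `p`-th roots of unity, unramified outside `S ∋ p`, has such a level. -/
theorem exists_isExponentLevel (F : IntermediateField ℚ ℚbar) [NumberField F] [IsGalois ℚ F]
    (hμ : ∃ ζ : F, IsPrimitiveRoot ζ p) (hi : p = 2 → IsTotallyComplex F) (S : Finset Nat.Primes)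
    (hpS : ⟨p, Fact.out⟩ ∈ S) (hF : ∀ q ∉ S, IsUnramifiedAtRel (⊤ : Subgroup (F ≃ₐ[ℚ] F)) q) :
    ∃ (F' : IntermediateField ℚ ℚbar) (_ : NumberField F') (_ : IsGalois ℚ F') (h : F ≤ F'),
      IsExponentLevel p S F F' h := by
  obtain ⟨F', hnf, hgal, h, hpow, hcomm, hur, hnorm⟩ :=
    exists_classField_exponent (p := p) F hμ hi S hpS hF
  refine ⟨F', hnf, hgal, h, fun g hg => hpow g ((mem_galRes_ker_iff h g).1 hg),
    fun g hg g' hg' => hcomm g ((mem_galRes_ker_iff h g).1 hg) g'
      ((mem_galRes_ker_iff h g').1 hg'), hur, fun c d hcd => ?_⟩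
  have key : ∑ᶠ k : (galRes h).ker, (k : F' ≃ₐ[ℚ] F') • d = _ :=
    finsum_eq_of_bijective (g := fun k : {g : F' ≃ₐ[ℚ] F' //
        ∀ x : F, g (IntermediateField.inclusion h x) = IntermediateField.inclusion h x} =>
          (k : F' ≃ₐ[ℚ] F') • d)
      (fun k => ⟨(k : F' ≃ₐ[ℚ] F'), (mem_galRes_ker_iff h _).1 k.2⟩)
      ⟨fun a b hab => Subtype.ext (congrArg Subtype.val hab :), fun k =>
        ⟨⟨(k : F' ≃ₐ[ℚ] F'), (mem_galRes_ker_iff h _).2 k.2⟩, Subtype.ext rfl⟩⟩
      fun k => rfl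
  obtain ⟨e, u, hu, rfl⟩ := hnorm c d (hcd.trans key)
  exact ⟨e, by rw [add_sub_cancel_left]; exact ⟨u, hu, rfl⟩⟩

end FermatLib.CFT
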