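import Fermat.Agent.CFT.CohDefs

/-!
Descent of cochains to a decomposition group, for modules of equivariant families.

`J` is a `G`-module with an evaluation `ev : J →+ A` at a base point, equivariant along
`ρ : Γ →* G`. An element of `J` is recovered from the function `h ↦ ev (h • x)`, so the lemmas
return such functions.
-/

set_option autoImplicit false

namespace FermatLib.CFT.S55

variable {G : Type*} [Group G] {Γ : Type*} [Group Γ] {A : Type*} [AddCommGroup A]
  [DistribMulAction Γ A] {J : Type*} [AddCommGroup J] [DistribMulAction G J]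

theorem z2_apply {f : G × G → J} (hf : f ∈ Z2 G J) (g h k : G) :
    g • f (h, k) - f (g * h, k) + f (g, h * k) - f (g, h) = 0 :=
  congrFun (AddMonoidHom.mem_ker.mp hf) (g, h, k)

/-- A 2-cocycle whose value at the base point bounds a cochain of the decomposition group bounds,
on families. -/
theorem exists_family_of_z2 (ρ : Γ →* G) (ev : J →+ A)
    (hev : ∀ (τ : Γ) (x : J), ev (ρ τ • x) = τ • ev x)
    {f : G × G → J} (hf : f ∈ Z2 G J) (y : Γ → A) (hy0 : ∀ σ τ : Γ, ρ σ = ρ τ → y σ = y τ)
    (hy : ∀ σ τ : Γ, σ • y τ - y (σ * τ) + y σ = ev (f (ρ σ, ρ τ))) :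
    ∃ F : G → G → A, (∀ (τ : Γ) (g h : G), F g (ρ τ * h) = τ • F g h) ∧
      (∀ g g' h : G, F g' (h * g) - F (g * g') h + F g h = ev (h • f (g, g'))) ∧
      ∀ U : AddSubgroup A, (∀ τ, y τ ∈ U) → (∀ g h, ev (f (g, h)) ∈ U) → ∀ g h, F g h ∈ U := by
  classical
  let D : Subgroup G := ρ.range
  let r : G → G := fun k => (Quotient.mk (QuotientGroup.rightRel D) k).out
  have hr : ∀ k, k * (r k)⁻¹ ∈ D := fun k => by
    have := Quotient.mk_out (s := QuotientGroup.rightRel D) k
    exact QuotientGroup.rightRel_apply.mp this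
  have hrs : ∀ (σ : Γ) (k : G), r (ρ σ * k) = r k := fun σ k => by
    refine congrArg Quotient.out (Quotient.sound ?_)
    refine QuotientGroup.rightRel_apply.mpr ?_
    rw [mul_inv_rev, mul_inv_cancel_left]
    exact inv_mem ⟨σ, rfl⟩
  choose t ht using hr
  let B : G → A := fun k => y (t k) - ev (f (ρ (t k), r k))
  have key : ∀ (σ : Γ) (k : G), σ • B k = ev (f (ρ σ, k)) + B (ρ σ * k) - y σ := by
    intro σ k
    have hk : ρ (t k) * r k = k := by rw [ht k]; group
    have e1 : ρ (t (ρ σ * k)) = ρ (σ * t k) := by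
      rw [map_mul, ht, ht, hrs]; group
    have e2 : B (ρ σ * k) = y (σ * t k) - ev (f (ρ σ * ρ (t k), r k)) := by
      simp only [B, hrs]
      rw [hy0 _ _ e1, e1, map_mul]
    have e3 := congrArg ev (z2_apply hf (ρ σ) (ρ (t k)) (r k))
    rw [hk, map_sub, map_add, map_sub, hev, map_zero] at e3
    rw [e2]
    simp only [B, smul_sub]
    linear_combination (norm := abel) (hy σ (t k)) - e3
  refine ⟨fun g h => ev (f (h, g)) + B (h * g) - B h, fun τ g h => ?_, fun g g' h => ?_,
    fun U hU hf' g h => ?_⟩
  · have e3 := congrArg ev (z2_apply hf (ρ τ) h g)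
    rw [map_sub, map_add, map_sub, hev, map_zero] at e3
    simp only [smul_sub, smul_add, key, mul_assoc]
    linear_combination (norm := abel) -e3
  · have e3 := congrArg ev (z2_apply hf h g g')
    rw [map_sub, map_add, map_sub, map_zero] at e3
    simp only [mul_assoc]
    linear_combination (norm := abel) -e3
  · exact sub_mem (add_mem (hf' _ _) (sub_mem (hU _) (hf' _ _))) (sub_mem (hU _) (hf' _ _))

end FermatLib.CFT.S55
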