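import Fermat.Agent.CFT.GWGlobLift
import Fermat.Agent.CFT.IdeleDecomp
import Fermat.Agent.CFT.LocalUnits
import Fermat.Agent.CFT.S55Shapiro
import Fermat.Agent.CFT.CohTransfer

/-!
Unit ideles outside `S` have no 2-classes when the field is unramified outside `S`.
-/

set_option autoImplicit false

namespace FermatLib.CFT.GWKummer

open FermatLib.CFT

variable {L : Type} [Field L] [NumberField L] [IsGalois ℚ L] {q : Nat.Primes}

/-- A member of the completion as a value. -/
noncomputable def complVal (φ : Emb L q) : LocUnits (completion φ) →+ QUnits q where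
  toFun x := Additive.ofMul (Units.map (IntermediateField.val (completion φ) : completion φ →* _) x.val)
  map_zero' := QUnits.toField_injective rfl
  map_add' _ _ := QUnits.toField_injective rfl

theorem toField_complVal (φ : Emb L q) (x : LocUnits (completion φ)) :
    (complVal φ x).toField = (x.el : PadicAlgCl (q : ℕ)) := rfl

/-- The component at the place of `φ`, in the completion. -/
noncomputable def completionComp (φ : Emb L q) : Idele L →+ LocUnits (completion φ) :=
  (localPartEquiv φ).toAddMonoidHom.comp (restrictPlace φ)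

theorem completionComp_el (φ : Emb L q) (f : Idele L) :
    ((completionComp φ f).el : PadicAlgCl (q : ℕ)) = (f.fin q φ).toField :=
  (localPartEquiv_el φ _).trans (congrArg QUnits.toField
    (restrictPlace_apply φ f (Emb.SamePlace.refl φ)))

theorem complVal_completionComp (φ : Emb L q) (f : Idele L) :
    complVal φ (completionComp φ f) = f.fin q φ :=
  QUnits.toField_injective ((toField_complVal φ _).trans (completionComp_el φ f))

theorem exists_unit_family_at (φ : Emb L q)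
    (hur : IsUnramifiedAtRel (⊤ : Subgroup (L ≃ₐ[ℚ] L)) q)
    {f : (L ≃ₐ[ℚ] L) × (L ≃ₐ[ℚ] L) → Idele L} (hf : f ∈ Z2 (L ≃ₐ[ℚ] L) (Idele L))
    (hu : ∀ t ψ, (f t).fin q ψ ∈ QUnits.unitGroup q) :
    ∃ v : (L ≃ₐ[ℚ] L) → Emb L q → QUnits q,
      (∀ g (τ : Gloc q) ψ, v g (ψ.postComp τ) = τ.onUnits (v g ψ)) ∧
      (∀ g ψ, v g ψ ∈ QUnits.unitGroup q) ∧
      ∀ g g' ψ, v g' (ψ.preComp g) - v (g * g') ψ + v g ψ = (f (g, g')).fin q ψ := by
  let Γ := completion φ ≃ₐ[ℚ_[(q : ℕ)]] completion φ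
  let ρ : Γ →* (L ≃ₐ[ℚ] L) := (decompGroup φ).subtype.comp (decompEquiv φ).symm.toMonoidHom
  let ev : Idele L →+ LocUnits (completion φ) := completionComp φ
  have hev : ∀ (τ : Γ) (x : Idele L), ev (ρ τ • x) = τ • ev x := fun τ x => by
    show localPartEquiv φ (restrictPlace φ (((decompEquiv φ).symm τ : L ≃ₐ[ℚ] L) • x)) = _
    rw [restrictPlace_smul, localPartEquiv_smul, MulEquiv.apply_symm_apply]
    rfl
  have hevu : ∀ t, ev (f t) ∈ Loc.unitGroup (completion φ) := fun t => by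
    rw [Loc.mem_unitGroup]
    show ‖((completionComp φ (f t)).el : PadicAlgCl (q : ℕ))‖ = 1
    rw [completionComp_el]
    exact (QUnits.mem_unitGroup_iff _).1 (hu t φ)
  have hI : Loc.inertia (completion φ) ⊓ (⊤ : Subgroup Γ) = ⊥ := by
    rw [inf_top_eq, eq_bot_iff]
    intro t ht
    obtain ⟨a, rfl⟩ := (decompEquiv φ).surjective t
    rw [Subgroup.mem_bot, show a = 1 from
      Subtype.ext (hur φ a trivial ((mem_inertiaGroup_iff φ a).2 ht)), map_one]
  let z : (⊤ : Subgroup Γ) × (⊤ : Subgroup Γ) → Loc.unitGroup (completion φ) :=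
    fun t => ⟨ev (f (ρ t.1, ρ t.2)), hevu _⟩
  have hz : z ∈ Z2 (⊤ : Subgroup Γ) (Loc.unitGroup (completion φ)) := by
    refine AddMonoidHom.mem_ker.mpr (funext fun t => Subtype.ext ?_)
    have h := congrArg ev (S55.z2_apply hf (ρ t.1) (ρ t.2.1) (ρ t.2.2))
    rw [map_sub, map_add, map_sub, hev, map_zero, ← map_mul, ← map_mul] at h
    exact h
  obtain ⟨y₀, hy₀⟩ := Loc.unitGroup_h2Trivial (completion φ) ⊤ hI z hz
  let y : Γ → LocUnits (completion φ) := fun τ => (y₀ ⟨τ, trivial⟩ : LocUnits (completion φ))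
  have hρ : Function.Injective ρ := fun a b h =>
    (decompEquiv φ).symm.injective (Subtype.ext h)
  obtain ⟨F, hF1, hF2, hF3⟩ := S55.exists_family_of_z2 ρ ev hev hf y
    (fun a b h => by rw [hρ h])
    (fun a b => congrArg Subtype.val (congrFun hy₀ (⟨a, trivial⟩, ⟨b, trivial⟩)))
  have hFu := hF3 (Loc.unitGroup (completion φ)) (fun τ => (y₀ ⟨τ, trivial⟩).2) fun g h => hevu _
  refine ⟨fun g ψ => complVal φ (F g (autOf φ ψ)), fun g τ ψ => ?_, fun g ψ => ?_,
    fun g g' ψ => ?_⟩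
  · set a := autOf φ (φ.postComp τ) with ha
    have had : a ∈ decompGroup φ := ⟨τ, (preComp_autOf φ _).symm⟩
    have e : autOf φ (ψ.postComp τ) = ρ (decompEquiv φ ⟨a, had⟩) * autOf φ ψ := by
      show _ = ((decompEquiv φ).symm (decompEquiv φ ⟨a, had⟩) : L ≃ₐ[ℚ] L) * autOf φ ψ
      rw [MulEquiv.symm_apply_apply]
      refine φ.preComp_injective ?_
      rw [preComp_autOf, preComp_mul]
      show _ = (φ.preComp a).preComp (autOf φ ψ)
      rw [show φ.preComp a = φ.postComp τ from preComp_autOf φ _, ← postComp_preComp,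
        preComp_autOf]
    show complVal φ (F g (autOf φ (ψ.postComp τ))) = _
    rw [e, hF1]
    exact QUnits.toField_injective
      (decompEquiv_eq_gloc φ ⟨a, had⟩ (preComp_autOf φ _).symm (F g (autOf φ ψ)).el)
  · exact (QUnits.mem_unitGroup_iff _).2 ((Loc.mem_unitGroup (completion φ)).1 (hFu g _))
  · have e : autOf φ (ψ.preComp g) = autOf φ ψ * g := by
      refine φ.preComp_injective ?_
      rw [preComp_autOf, preComp_mul, preComp_autOf]
    show complVal φ (F g' (autOf φ (ψ.preComp g))) - complVal φ (F (g * g') (autOf φ ψ)) +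
      complVal φ (F g (autOf φ ψ)) = _
    rw [e, ← map_sub, ← map_add, hF2, complVal_completionComp]
    show (f (g, g')).fin q (φ.preComp (autOf φ ψ)) = _
    rw [preComp_autOf]

/-- Every 2-cocycle with values in the units outside `S` bounds a cochain with such values. -/
theorem exists_unitIdeles_cochain {S : Set Nat.Primes}
    (hur : ∀ q ∉ S, IsUnramifiedAtRel (⊤ : Subgroup (L ≃ₐ[ℚ] L)) q)
    {f : (L ≃ₐ[ℚ] L) × (L ≃ₐ[ℚ] L) → Idele L} (hf : f ∈ Z2 (L ≃ₐ[ℚ] L) (Idele L))
    (hU : ∀ t, f t ∈ unitIdelesOutside L S) :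
    ∃ b : (L ≃ₐ[ℚ] L) → Idele L, (∀ g, b g ∈ unitIdelesOutside L S) ∧
      d1 (L ≃ₐ[ℚ] L) (Idele L) b = f := by
  classical
  have hloc : ∀ q : Nat.Primes, q ∉ S → _ := fun q hq =>
    exists_unit_family_at (Classical.arbitrary (Emb L q)) (hur q hq) hf fun t ψ => ((hU t).1 q ψ).1
  choose v hv1 hv2 hv3 using hloc
  let w : (L ≃ₐ[ℚ] L) → ∀ q, Emb L q → QUnits q := fun g q ψ =>
    if h : q ∈ S then 0 else v q h g ψ
  have hw : ∀ g q ψ, w g q ψ ∈ QUnits.unitGroup q := fun g q ψ => by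
    by_cases h : q ∈ S
    · simp only [w, dif_pos h]; exact zero_mem _
    · simp only [w, dif_neg h]; exact hv2 q h g ψ
  let b : (L ≃ₐ[ℚ] L) → Idele L := fun g => ⟨(w g, 0), fun q τ ψ => by
    by_cases h : q ∈ S
    · simp only [w, dif_pos h, map_zero]
    · simp only [w, dif_neg h]; exact hv1 q h g τ ψ,
    Set.finite_empty.subset fun q ⟨ψ, hψ⟩ => (hψ (hw g q ψ)).elim,
    fun ψ => (map_zero conjUnits).symm⟩
  refine ⟨b, fun g => ⟨fun q ψ => ⟨hw g q ψ, fun h => dif_pos h⟩, rfl⟩, funext fun ⟨g, g'⟩ => ?_⟩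
  refine Subtype.ext (Prod.ext (funext fun q => funext fun ψ => ?_) (funext fun χ => ?_))
  · show w g' q (ψ.preComp g) - w (g * g') q ψ + w g q ψ = (f (g, g')).fin q ψ
    by_cases h : q ∈ S
    · simp only [w, dif_pos h, sub_self, add_zero]
      exact (((hU (g, g')).1 q ψ).2 h).symm
    · simp only [w, dif_neg h]
      exact hv3 q h g g' ψ
  · show (0 : CUnits) - 0 + 0 = (f (g, g')).inf χ
    rw [sub_self, add_zero]
    exact (congrFun (hU (g, g')).2 χ).symm

/-- The class of such a cocycle in the idele classes is zero. -/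
theorem unitIdeles_class_mem_B2 {S : Set Nat.Primes}
    (hur : ∀ q ∉ S, IsUnramifiedAtRel (⊤ : Subgroup (L ≃ₐ[ℚ] L)) q)
    {f : (L ≃ₐ[ℚ] L) × (L ≃ₐ[ℚ] L) → Idele L} (hf : f ∈ Z2 (L ≃ₐ[ℚ] L) (Idele L))
    (hU : ∀ t, f t ∈ unitIdelesOutside L S) :
    (fun t => (QuotientAddGroup.mk (f t) : IdeleClass L)) ∈ B2 (L ≃ₐ[ℚ] L) (IdeleClass L) := by
  obtain ⟨b, -, rfl⟩ := exists_unitIdeles_cochain hur hf hU
  exact ⟨fun g => QuotientAddGroup.mk (b g), rfl⟩

end FermatLib.CFT.GWKummer
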