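import Fermat.Agent.CFT.DualPairing
import Fermat.Agent.CFT.DualLevel
import Fermat.Agent.CFT.GWGlobUnits

/-!
The duality axioms hold at the class field of exponent `p` and at every larger Galois field
unramified outside `S`.
-/

set_option autoImplicit false

open NumberField

namespace FermatLib.CFT

local notation "ℚbar" => AlgebraicClosure ℚ

variable {p : ℕ} [Fact p.Prime] {S : Finset Nat.Primes}
  {F F' F'' : IntermediateField ℚ ℚbar} [NumberField F] [NumberField F'] [NumberField F'']
  [IsGalois ℚ F] [IsGalois ℚ F'] [IsGalois ℚ F'']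

omit [Fact p.Prime] in
/-- Unit ideles stay unit ideles in a larger field. -/
theorem ideleBaseChange_mem_unitIdelesOutside {L L' : Type} [Field L] [NumberField L] [Field L']
    [NumberField L'] [Algebra L L'] {T : Set Nat.Primes} {f : Idele L}
    (hf : f ∈ unitIdelesOutside L T) : ideleBaseChange L L' f ∈ unitIdelesOutside L' T :=
  ⟨fun q φ => hf.1 q (φ.comp (algebraMap L L')),
    funext fun φ => congrFun hf.2 (φ.comp (algebraMap L L'))⟩

omit [Fact p.Prime] in
/-- No nonzero principal idele is trivial at infinity. -/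
theorem eq_zero_of_mem_principal_of_inf {L : Type} [Field L] [NumberField L] {f : Idele L}
    (hf : f ∈ principalIdeles L) (h : f.1.2 = 0) : f = 0 := by
  obtain ⟨x, hx⟩ := hf
  have hfx : principalIdele L x = f := Subtype.ext hx
  obtain ⟨ψ⟩ : Nonempty (L →+* ℂ) := inferInstance
  have h1 : CUnits.toField ((principalIdele L x).inf ψ) = CUnits.toField (0 : CUnits) := by
    rw [hfx]; exact congrArg CUnits.toField (congrFun h ψ)
  have h2 : ψ (x.val : L) = ψ 1 := by rw [map_one]; exact h1
  have hx0 : x = 0 := by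
    refine Additive.toMul.injective (Units.ext ?_)
    exact ψ.injective h2
  rw [← hfx, hx0, map_zero]

omit [Fact p.Prime] in
/-- Classes of unit ideles outside `S` have no two-classes at an unramified field. -/
theorem mem_B2_of_unitClassesOutside {L : Type} [Field L] [NumberField L] [IsGalois ℚ L]
    {T : Set Nat.Primes} (hur : ∀ q ∉ T, IsUnramifiedAtRel (⊤ : Subgroup (L ≃ₐ[ℚ] L)) q)
    {f : (L ≃ₐ[ℚ] L) × (L ≃ₐ[ℚ] L) → IdeleClass L} (hf : f ∈ Z2 (L ≃ₐ[ℚ] L) (IdeleClass L))
    (hU : ∀ t, f t ∈ unitClassesOutside L T) : f ∈ B2 (L ≃ₐ[ℚ] L) (IdeleClass L) := by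
  choose u hu hfu using hU
  have huZ : u ∈ Z2 (L ≃ₐ[ℚ] L) (Idele L) := by
    refine TN.mem_Z2.2 fun r s t => ?_
    let z : Idele L := r • u (s, t) + u (r, s * t) - (u (r * s, t) + u (r, s))
    have hz : z ∈ unitIdelesOutside L T :=
      sub_mem (add_mem (unitIdelesOutside_smul_mem L T r (hu _)) (hu _))
        (add_mem (hu _) (hu _))
    have hz' : z ∈ principalIdeles L := by
      rw [← QuotientAddGroup.eq_zero_iff]
      have := TN.mem_Z2.1 hf r s t
      simp only [← hfu] at this
      show (QuotientAddGroup.mk (r • u (s, t) + u (r, s * t) - (u (r * s, t) + u (r, s))) :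
        IdeleClass L) = 0
      rw [QuotientAddGroup.mk_sub, QuotientAddGroup.mk_add, QuotientAddGroup.mk_add, sub_eq_zero]
      exact this
    exact sub_eq_zero.1 (eq_zero_of_mem_principal_of_inf hz' hz.2)
  have := GWKummer.unitIdeles_class_mem_B2 hur huZ hu
  rwa [show (fun t => (QuotientAddGroup.mk (u t) : IdeleClass L)) = f from funext hfu] at this

/-- The kernel of restriction to `F` inside `Gal(F''/ℚ)` maps onto that inside `Gal(F'/ℚ)`. -/
theorem classLe_norm_galRes (h : F ≤ F') (h' : F' ≤ F'') (d : IdeleClass F'') (d' : IdeleClass F')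
    (hd : classLe h' d' = normMap (galRes h').ker (IdeleClass F'') d) :
    classLe h' (normMap (galRes h).ker (IdeleClass F') d') =
      normMap (galRes (h.trans h')).ker (IdeleClass F'') d := by
  classical
  have := Fintype.ofFinite (galRes h).ker
  have := Fintype.ofFinite (galRes h').ker
  have := Fintype.ofFinite (galRes (h.trans h')).ker
  have hmem : ∀ g : F'' ≃ₐ[ℚ] F'', g ∈ (galRes (h.trans h')).ker ↔ galRes h' g ∈ (galRes h).ker :=
    fun g => by rw [MonoidHom.mem_ker, MonoidHom.mem_ker, galRes_comp]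
  choose s hs using galRes_surjective h'
  let e : (galRes h).ker × (galRes h').ker ≃ (galRes (h.trans h')).ker :=
    { toFun := fun z => ⟨s z.1 * z.2, (hmem _).2 (by
        rw [map_mul, hs, MonoidHom.mem_ker.1 z.2.2, mul_one]; exact z.1.2)⟩
      invFun := fun g => (⟨galRes h' g, (hmem _).1 g.2⟩, ⟨(s (galRes h' g))⁻¹ * g, by
        rw [MonoidHom.mem_ker, map_mul, map_inv, hs, inv_mul_cancel]⟩)
      left_inv := fun z => by
        have e1 : galRes h' (s z.1 * z.2) = z.1 := by
          rw [map_mul, hs, MonoidHom.mem_ker.1 z.2.2, mul_one]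
        refine Prod.ext (Subtype.ext e1) (Subtype.ext ?_)
        show (s (galRes h' (s z.1 * z.2)))⁻¹ * (s z.1 * z.2) = _
        rw [e1, inv_mul_cancel_left]
      right_inv := fun g => Subtype.ext (mul_inv_cancel_left _ _) }
  show classLe h' (∑ᶠ k : (galRes h).ker, (k : F' ≃ₐ[ℚ] F') • d') =
    ∑ᶠ g : (galRes (h.trans h')).ker, (g : F'' ≃ₐ[ℚ] F'') • d
  rw [finsum_eq_sum_of_fintype, finsum_eq_sum_of_fintype, map_sum, ← e.sum_comp,
    Fintype.sum_prod_type]
  refine Finset.sum_congr rfl fun k _ => ?_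
  have hk : classLe h' ((k : F' ≃ₐ[ℚ] F') • d') = s k • classLe h' d' := by
    conv_lhs => rw [← hs k]
    exact classLe_compat h' (s k) d'
  have hn : normMap (galRes h').ker (IdeleClass F'') d =
      ∑ g : (galRes h').ker, (g : F'' ≃ₐ[ℚ] F'') • d :=
    finsum_eq_sum_of_fintype _
  rw [hk, hd, hn, Finset.smul_sum]
  exact Finset.sum_congr rfl fun g _ => (mul_smul _ _ _).symm

/-- The duality axioms at a field over an exponent `p` level. -/
theorem IsExponentLevel.isDualLevel {h : F ≤ F'} (E : IsExponentLevel p S F F' h) (h' : F' ≤ F'')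
    (hur : ∀ q ∉ S, IsUnramifiedAtRel (⊤ : Subgroup (F'' ≃ₐ[ℚ] F'')) q) :
    IsDualLevel (Γ := F'' ≃ₐ[ℚ] F'') (G := F ≃ₐ[ℚ] F) (C := IdeleClass F'') (C₀ := IdeleClass F) p
      (galRes (h.trans h')) (classLe (h.trans h')) (unitClassesOutside F (S : Set Nat.Primes)) where
  surj := galRes_surjective _
  formation := ideleClass_isPClassFormation _
  compat := classLe_compat _
  inj := classLe_injective _
  range_fixed := fun c hc => mem_range_classLe (h.trans h') hc
  units_smul := fun g u hu => smul_mem_unitClassesOutside g hu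
  units_killed := fun f hf hU => ⟨1, (Fact.out : p.Prime).not_dvd_one, by
    rw [one_nsmul]
    refine mem_B2_of_unitClassesOutside (T := (S : Set Nat.Primes)) hur hf fun t => ?_
    obtain ⟨_, ⟨u, hu, rfl⟩, ht⟩ := hU t
    letI := algLe (h.trans h')
    exact ⟨ideleBaseChange F F'' u, ideleBaseChange_mem_unitIdelesOutside hu, ht⟩⟩
  norm_index := fun c d hcd => by
    have := Fintype.ofFinite (galRes h').ker
    obtain ⟨d', hd'⟩ := mem_range_classLe (c := normMap (galRes h').ker (IdeleClass F'') d) h'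
      fun g hg => by
        show g • (∑ᶠ k : (galRes h').ker, (k : F'' ≃ₐ[ℚ] F'') • d) = ∑ᶠ k : (galRes h').ker, _
        rw [finsum_eq_sum_of_fintype, finsum_eq_sum_of_fintype, Finset.smul_sum]
        exact Fintype.sum_equiv (Equiv.mulLeft (⟨g, hg⟩ : (galRes h').ker)) _ _
          fun k => (mul_smul _ _ _).symm
    obtain ⟨e, he⟩ := E.norm_mem c d' (classLe_injective h' (by
      rw [classLe_comp]
      exact hcd.trans (classLe_norm_galRes h h' d d' hd').symm))
    exact ⟨e, c - p • e, he, (add_sub_cancel (p • e) c).symm⟩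

end FermatLib.CFT
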