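import Fermat.Agent.CFT.DualBasic

/-!
The invariant on classes killed by `p` in the second cohomology of idele classes of the subfields
of `ℚ̄`, normalised at one fixed field.

Main API: `classesKilled`, `globalInv`, `globalInv_eq_zero_iff`, `globalInv_infl`.
-/

set_option autoImplicit false

open NumberField

namespace FermatLib.CFT

local notation "ℚbar" => AlgebraicClosure ℚ

/-- Two-cocycles whose classes are killed by `p`. -/
def classesKilled (p : ℕ) (G A : Type*) [Group G] [AddCommGroup A] [DistribMulAction G A] :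
    AddSubgroup (G × G → A) :=
  Z2 G A ⊓ (B2 G A).comap (nsmulAddMonoidHom p)

theorem mem_classesKilled {p : ℕ} {G A : Type*} [Group G] [AddCommGroup A] [DistribMulAction G A]
    {f : G × G → A} : f ∈ classesKilled p G A ↔ f ∈ Z2 G A ∧ p • f ∈ B2 G A := Iff.rfl

theorem cochainMap2_mem_classesKilled {p : ℕ} {G H A B : Type*} [Group G] [Group H] [AddCommGroup A]
    [AddCommGroup B] [DistribMulAction G A] [DistribMulAction H B] {f : H →* G} {φ : A →+ B}
    (hc : IsCompat f φ) {x : G × G → A} (hx : x ∈ classesKilled p G A) :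
    cochainMap2 f φ x ∈ classesKilled p H B := by
  refine mem_classesKilled.2 ⟨cochainMap2_mem_Z2 hc (mem_classesKilled.1 hx).1, ?_⟩
  rw [← map_nsmul]
  exact cochainMap2_mem_B2 hc (mem_classesKilled.1 hx).2

section algebra
variable {p : ℕ} [Fact p.Prime] {G A : Type*} [Group G] [Finite G] [AddCommGroup A]
  [DistribMulAction G A]

/-- Two classes killed by `p` are proportional once one of them is not zero. -/
theorem exists_sub_smul_mem_B2 (hA : IsPClassFormation p G A) {u f : G × G → A}
    (hu : u ∈ classesKilled p G A) (hu0 : u ∉ B2 G A) (hf : f ∈ classesKilled p G A) :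
    ∃ c : ZMod p, f - c.val • u ∈ B2 G A := by
  obtain ⟨n, inv, -, hker⟩ := exists_invMap hA
  rw [mem_classesKilled] at hu hf
  have key : ∀ {g : G × G → A} (hg : g ∈ Z2 G A), p • g ∈ B2 G A →
      p • inv ⟨g, hg⟩ = 0 ∧ (inv ⟨g, hg⟩ = 0 → g ∈ B2 G A) := by
    intro g hg hpg
    refine ⟨?_, fun h0 => ?_⟩
    · rw [← map_nsmul, hker]
      exact ⟨1, (Fact.out : p.Prime).not_dvd_one, by simpa using hpg⟩
    · obtain ⟨m, hm, hmB⟩ := (hker _).1 h0
      have hco : Nat.Coprime m p := ((Fact.out : p.Prime).coprime_iff_not_dvd.2 hm).symm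
      obtain ⟨a, b, hab⟩ := Nat.isCoprime_iff_coprime.2 hco
      have e : a • (m • g) + b • (p • g) = g := by
        rw [← natCast_zsmul, ← natCast_zsmul g p, ← mul_smul, ← mul_smul, ← add_smul, hab, one_smul]
      rw [← e]
      exact add_mem (AddSubgroup.zsmul_mem _ hmB _) (AddSubgroup.zsmul_mem _ hpg _)
  obtain ⟨hx0, hx⟩ := key hu.1 hu.2
  have hxne : inv ⟨u, hu.1⟩ ≠ 0 := fun h => hu0 (hx h)
  obtain ⟨hy0, -⟩ := key hf.1 hf.2
  have hn : n ≠ 0 := by
    rintro rfl
    haveI : Subsingleton (ZMod (p ^ 0)) := by rw [pow_zero]; infer_instance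
    exact hxne (Subsingleton.elim _ _)
  have hsub : ∀ z : ZMod (p ^ n), p • z = 0 → z ∈ AddSubgroup.zmultiples (inv ⟨u, hu.1⟩) := by
    intro z hz
    haveI : NeZero (p ^ n) := ⟨pow_ne_zero n (Fact.out : p.Prime).ne_zero⟩
    let K : AddSubgroup (ZMod (p ^ n)) := (nsmulAddMonoidHom p).ker
    have hK : AddSubgroup.zmultiples (inv ⟨u, hu.1⟩) = K := by
      refine AddSubgroup.eq_of_le_of_card_ge (AddSubgroup.zmultiples_le_of_mem hx0) ?_
      rw [Nat.card_zmultiples, addOrderOf_eq_prime hx0 hxne]
      have := IsAddCyclic.card_nsmulAddMonoidHom_ker (G := ZMod (p ^ n)) p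
      rw [this, Nat.card_zmod]
      exact le_of_eq (Nat.gcd_eq_right (dvd_pow_self p hn))
    rw [hK]
    exact hz
  obtain ⟨a, ha⟩ := hsub _ hy0
  refine ⟨(a : ZMod p), ?_⟩
  have hg : f - ((a : ZMod p)).val • u ∈ classesKilled p G A :=
    sub_mem (mem_classesKilled.2 hf) (AddSubgroup.nsmul_mem _ (mem_classesKilled.2 hu) _)
  rw [mem_classesKilled] at hg
  refine (key hg.1 hg.2).2 ?_
  have hval : ((a : ZMod p).val : ℤ) • inv ⟨u, hu.1⟩ = a • inv ⟨u, hu.1⟩ := by
    rw [ZMod.val_intCast, ← sub_eq_zero, ← sub_smul, Int.emod_def, sub_sub_cancel_left, neg_smul,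
      mul_smul, neg_eq_zero, natCast_zsmul, smul_comm, hx0, smul_zero]
  have e : (⟨f - ((a : ZMod p)).val • u, hg.1⟩ : Z2 G A)
      = ⟨f, hf.1⟩ - ((a : ZMod p)).val • (⟨u, hu.1⟩ : Z2 G A) := Subtype.ext rfl
  have ha' : a • inv ⟨u, hu.1⟩ = inv ⟨f, hf.1⟩ := ha
  rw [e, map_sub, map_nsmul, ← natCast_zsmul (inv ⟨u, hu.1⟩), hval, ha', sub_self]

theorem eq_of_sub_smul_mem_B2 {u f : G × G → A} (hu : u ∈ classesKilled p G A) (hu0 : u ∉ B2 G A)
    {c c' : ZMod p} (h : f - c.val • u ∈ B2 G A) (h' : f - c'.val • u ∈ B2 G A) : c = c' := by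
  by_contra hne
  have hd : ((c.val : ℤ) - c'.val) • u ∈ B2 G A := by
    have := sub_mem h' h
    rw [sub_sub_sub_cancel_left, ← natCast_zsmul, ← natCast_zsmul u, ← sub_smul] at this
    exact this
  have hndvd : ¬ (p : ℤ) ∣ ((c.val : ℤ) - c'.val) := fun hdvd => hne (by
    have := (ZMod.intCast_zmod_eq_zero_iff_dvd _ p).2 hdvd
    simpa [sub_eq_zero] using this)
  obtain ⟨a, b, hab⟩ := ((Nat.prime_iff_prime_int.1 (Fact.out : p.Prime)).coprime_iff_not_dvd.2 hndvd)
  refine hu0 ?_
  have e : a • ((p : ℤ) • u) + b • (((c.val : ℤ) - c'.val) • u) = u := by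
    rw [← mul_smul, ← mul_smul, ← add_smul, hab, one_smul]
  rw [← e]
  refine add_mem (AddSubgroup.zsmul_mem _ ?_ _) (AddSubgroup.zsmul_mem _ hd _)
  rw [natCast_zsmul]
  exact (mem_classesKilled.1 hu).2

/-- A class killed by `p` and not zero exists when `p` divides the order. -/
theorem exists_killed_not_mem_B2 (hA : IsPClassFormation p G A) (hp : p ∣ Nat.card G) :
    ∃ u ∈ classesKilled p G A, u ∉ B2 G A := by
  have := Fintype.ofFinite G
  obtain ⟨u, hu⟩ := TN.exists_isFund hA
  let P : Sylow p G := default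
  obtain ⟨k, hk⟩ := IsPGroup.iff_card.1 P.isPGroup'
  have hk0 : k ≠ 0 := by
    rintro rfl
    rw [pow_zero] at hk
    have h := P.dvd_card_of_dvd_card hp
    rw [hk] at h
    exact (Fact.out : p.Prime).not_dvd_one h
  set q := (P : Subgroup G).index
  refine ⟨(q * p ^ (k - 1)) • (u : G × G → A), mem_classesKilled.2
    ⟨AddSubgroup.nsmul_mem _ u.2 _, ?_⟩, fun h => ?_⟩
  · have hB := index_smul_mem_B2 (P : Subgroup G)
      (AddSubgroup.nsmul_mem _ u.2 (p ^ k)) (by
        rw [map_nsmul, ← natCast_zsmul]
        exact (hu.smul_mem_iff _ P.isPGroup' _).2 (by rw [hk]))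
    rw [← mul_smul, mul_left_comm, ← pow_succ', Nat.sub_add_cancel (Nat.pos_of_ne_zero hk0),
      mul_smul]
    exact hB
  · rw [← natCast_zsmul] at h
    have hd := hu.dvd_of_smul_mem _ P.isPGroup' h
    rw [hk, Int.natCast_dvd_natCast] at hd
    have hco : Nat.Coprime (p ^ k) q :=
      ((Fact.out : p.Prime).coprime_iff_not_dvd.2 P.not_dvd_index).pow_left k
    exact absurd (Nat.le_of_dvd (pow_pos (Fact.out : p.Prime).pos _) (hco.dvd_of_dvd_mul_left hd))
      (not_le.2 (Nat.pow_lt_pow_right (Fact.out : p.Prime).one_lt (by omega)))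

variable (hA : IsPClassFormation p G A) {u : G × G → A} (hu : u ∈ classesKilled p G A)
  (hu0 : u ∉ B2 G A)

/-- The invariant normalised by the class of `u`. -/
noncomputable def classInv : classesKilled p G A →+ ZMod p :=
  AddMonoidHom.mk' (fun f => Classical.choose (exists_sub_smul_mem_B2 hA hu hu0 f.2)) fun f g => by
    refine eq_of_sub_smul_mem_B2 hu hu0
      (Classical.choose_spec (exists_sub_smul_mem_B2 hA hu hu0 (f + g).2)) ?_
    have h := add_mem (Classical.choose_spec (exists_sub_smul_mem_B2 hA hu hu0 f.2))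
      (Classical.choose_spec (exists_sub_smul_mem_B2 hA hu hu0 g.2))
    set a := Classical.choose (exists_sub_smul_mem_B2 hA hu hu0 f.2)
    set b := Classical.choose (exists_sub_smul_mem_B2 hA hu hu0 g.2)
    obtain ⟨k, hk⟩ : ∃ k : ℕ, a.val + b.val = (a + b).val + p * k :=
      ⟨(a.val + b.val) / p, by rw [ZMod.val_add, Nat.mod_add_div]⟩
    have h2 := add_mem h (AddSubgroup.nsmul_mem _ (mem_classesKilled.1 hu).2 k)
    convert h2 using 1
    rw [AddSubgroup.coe_add, ← mul_smul, mul_comm k]
    have e := congrArg (fun n => n • u) hk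
    simp only [add_smul] at e
    rw [sub_add_sub_comm, e]
    abel

theorem classInv_spec (f : classesKilled p G A) :
    (f : G × G → A) - (classInv hA hu hu0 f).val • u ∈ B2 G A :=
  Classical.choose_spec (exists_sub_smul_mem_B2 hA hu hu0 f.2)

theorem classInv_eq_zero_iff (f : classesKilled p G A) :
    classInv hA hu hu0 f = 0 ↔ (f : G × G → A) ∈ B2 G A := by
  constructor
  · intro h
    simpa [h] using classInv_spec hA hu hu0 f
  · intro h
    exact eq_of_sub_smul_mem_B2 hu hu0 (classInv_spec hA hu hu0 f) (by simpa using h)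

theorem classInv_map {G' A' : Type*} [Group G'] [Finite G'] [AddCommGroup A']
    [DistribMulAction G' A'] {ρ : G' →* G} {φ : A →+ A'} (hc : IsCompat ρ φ)
    (hA' : IsPClassFormation p G' A') {u' : G' × G' → A'} (hu' : u' ∈ classesKilled p G' A')
    (hu0' : u' ∉ B2 G' A') (huu : cochainMap2 ρ φ u = u') (f : classesKilled p G A)
    (f' : classesKilled p G' A') (hff : cochainMap2 ρ φ f = (f' : G' × G' → A')) :
    classInv hA' hu' hu0' f' = classInv hA hu hu0 f := by
  refine eq_of_sub_smul_mem_B2 hu' hu0' (classInv_spec hA' hu' hu0' f') ?_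
  have := cochainMap2_mem_B2 hc (classInv_spec hA hu hu0 f)
  rwa [map_sub, map_nsmul, huu, hff] at this

end algebra

section normalisation
variable (p : ℕ) [Fact p.Prime]

/-- The field of normalisation. -/
noncomputable def normField : IntermediateField ℚ ℚbar :=
  IntermediateField.adjoin ℚ
    {Classical.choose (HasEnoughRootsOfUnity.exists_primitiveRoot ℚbar (p ^ 2))}

theorem normField_isCyclotomic : IsCyclotomicExtension {p ^ 2} ℚ (normField p) :=
  haveI : Algebra.IsIntegral ℚ ℚbar := (AlgebraicClosure.isAlgebraic ℚ).isIntegral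
  (Classical.choose_spec (HasEnoughRootsOfUnity.exists_primitiveRoot ℚbar
    (p ^ 2))).intermediateField_adjoin_isCyclotomicExtension ℚ

instance normField_finite : FiniteDimensional ℚ (normField p) :=
  haveI := normField_isCyclotomic p
  IsCyclotomicExtension.finiteDimensional {p ^ 2} ℚ (normField p)

instance normField_numberField : NumberField (normField p) :=
  @NumberField.mk _ _ inferInstance (normField_finite p)

instance normField_isGalois : IsGalois ℚ (normField p) :=
  haveI := normField_isCyclotomic p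
  IsCyclotomicExtension.isGalois {p ^ 2} ℚ (normField p)

theorem dvd_card_normField : p ∣ Nat.card (normField p ≃ₐ[ℚ] normField p) := by
  haveI := normField_isCyclotomic p
  rw [IsGalois.card_aut_eq_finrank, IsCyclotomicExtension.finrank (normField p)
    (Polynomial.cyclotomic.irreducible_rat (pow_pos (Fact.out : p.Prime).pos 2)),
    Nat.totient_prime_pow (Fact.out : p.Prime) two_pos]
  exact Dvd.intro (p - 1) (by norm_num)

/-- The class of normalisation. -/
noncomputable def normClass :
    (normField p ≃ₐ[ℚ] normField p) × (normField p ≃ₐ[ℚ] normField p) → IdeleClass (normField p) :=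
  Classical.choose (exists_killed_not_mem_B2 (ideleClass_isPClassFormation (normField p))
    (dvd_card_normField p))

theorem normClass_mem : normClass p ∈ classesKilled p (normField p ≃ₐ[ℚ] normField p)
    (IdeleClass (normField p)) :=
  (Classical.choose_spec (exists_killed_not_mem_B2 (ideleClass_isPClassFormation (normField p))
    (dvd_card_normField p))).1

theorem normClass_not_mem : normClass p ∉ B2 (normField p ≃ₐ[ℚ] normField p)
    (IdeleClass (normField p)) :=
  (Classical.choose_spec (exists_killed_not_mem_B2 (ideleClass_isPClassFormation (normField p))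
    (dvd_card_normField p))).2

variable (F : IntermediateField ℚ ℚbar) [NumberField F] [IsGalois ℚ F]

instance sup_normField_numberField : NumberField ↥(F ⊔ normField p) :=
  @NumberField.mk _ _ inferInstance (IntermediateField.finiteDimensional_sup F (normField p))

instance sup_normField_isGalois : IsGalois ℚ ↥(F ⊔ normField p) :=
  @IsGalois.mk _ _ _ _ _ inferInstance (@IntermediateField.normal_sup ℚ ℚbar _ _ _ F (normField p)
    ‹IsGalois ℚ F›.to_normal (normField_isGalois p).to_normal)

/-- The normalising class moved to the compositum. -/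
noncomputable def normClassAt :
    (↥(F ⊔ normField p) ≃ₐ[ℚ] ↥(F ⊔ normField p)) × (↥(F ⊔ normField p) ≃ₐ[ℚ] ↥(F ⊔ normField p)) →
      IdeleClass ↥(F ⊔ normField p) :=
  classInfl (le_sup_right : normField p ≤ F ⊔ normField p) (normClass p)

theorem normClassAt_mem : normClassAt p F ∈ classesKilled p
    (↥(F ⊔ normField p) ≃ₐ[ℚ] ↥(F ⊔ normField p)) (IdeleClass ↥(F ⊔ normField p)) :=
  cochainMap2_mem_classesKilled (A := IdeleClass (normField p))
    (B := IdeleClass ↥(F ⊔ normField p))
    (classLe_compat (le_sup_right : normField p ≤ F ⊔ normField p)) (normClass_mem p)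

theorem normClassAt_not_mem : normClassAt p F ∉ B2
    (↥(F ⊔ normField p) ≃ₐ[ℚ] ↥(F ⊔ normField p)) (IdeleClass ↥(F ⊔ normField p)) := fun h =>
  normClass_not_mem p
    ((classInfl_mem_B2_iff (le_sup_right : normField p ≤ F ⊔ normField p)
      (mem_classesKilled.1 (normClass_mem p)).1).1 h)

/-- Inflation of classes killed by `p`. -/
noncomputable def killedInfl {F' : IntermediateField ℚ ℚbar} [NumberField F'] (h : F ≤ F') :
    classesKilled p (F ≃ₐ[ℚ] F) (IdeleClass F) →+
      classesKilled p (F' ≃ₐ[ℚ] F') (IdeleClass F') :=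
  ((classInfl h).comp (classesKilled p (F ≃ₐ[ℚ] F) (IdeleClass F)).subtype).codRestrict _
    fun f => cochainMap2_mem_classesKilled (A := IdeleClass F) (B := IdeleClass F') (classLe_compat h) f.2

/-- The invariant of a class killed by `p`. -/
noncomputable def globalInv : classesKilled p (F ≃ₐ[ℚ] F) (IdeleClass F) →+ ZMod p :=
  (classInv (ideleClass_isPClassFormation _) (normClassAt_mem p F) (normClassAt_not_mem p F)).comp
    (killedInfl p F le_sup_left)

/-- The invariant detects classes killed by `p`. -/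
theorem globalInv_eq_zero_iff (f : classesKilled p (F ≃ₐ[ℚ] F) (IdeleClass F)) :
    globalInv p F f = 0 ↔ (f : (F ≃ₐ[ℚ] F) × (F ≃ₐ[ℚ] F) → IdeleClass F) ∈ B2 _ _ :=
  (classInv_eq_zero_iff (ideleClass_isPClassFormation _) (normClassAt_mem p F)
    (normClassAt_not_mem p F) (killedInfl p F le_sup_left f)).trans
    (classInfl_mem_B2_iff (le_sup_left : F ≤ F ⊔ normField p) (mem_classesKilled.1 f.2).1)

/-- The invariant is compatible with inflation. -/
theorem globalInv_infl {F' : IntermediateField ℚ ℚbar} [NumberField F'] [IsGalois ℚ F'] (h : F ≤ F')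
    (f : classesKilled p (F ≃ₐ[ℚ] F) (IdeleClass F)) :
    globalInv p F' (killedInfl p F h f) = globalInv p F f :=
  classInv_map (ideleClass_isPClassFormation _) (normClassAt_mem p F) (normClassAt_not_mem p F)
    (classLe_compat (sup_le_sup_right h (normField p))) (ideleClass_isPClassFormation _)
    (normClassAt_mem p F') (normClassAt_not_mem p F') (classInfl_comp _ _ _)
    (killedInfl p F le_sup_left f) (killedInfl p F' le_sup_left (killedInfl p F h f))
    ((classInfl_comp _ _ _).trans (classInfl_comp h le_sup_left _).symm)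

end normalisation

end FermatLib.CFT
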