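import Fermat.Agent.CFT.DualNondeg

/-!
Equivariant maps from lattices lift along quotients by cohomologically trivial submodules.
-/

set_option autoImplicit false

namespace FermatLib.CFT

open FermatLib.CFT.TN

namespace TN

variable {p : ℕ} [Fact p.Prime] {P : Type*} [Group P] [Fintype P]
  {U : Type*} [AddCommGroup U] [DistribMulAction P U]
  {X : Type*} [AddCommGroup X] [Module.Free ℤ X] [DistribMulAction P X]

/-- Cocycles valued in maps from a lattice to a module with trivial `H1` and `H2` are coboundaries. -/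
theorem exists_homCoboundary (hP : IsPGroup p P) (h1 : H1Trivial P U) (h2 : H2Trivial P U)
    (z : P → X →+ U) (hz : ∀ s t x, z (s * t) x = s • z t (s⁻¹ • x) + z s x) :
    ∃ a : X →+ U, ∀ s x, z s x = s • a (s⁻¹ • x) - a x := by
  classical
  let inc : U →+ Coind P U := AddMonoidHom.mk' (fun u => Coind.mk fun x => x⁻¹ • u)
    fun u u' => Coind.ext fun x => by simp [Coind.ev_mk]
  have hinc : ∀ (g : P) u, inc (g • u) = g • inc u := fun g u => Coind.ext fun x => by
    rw [Coind.ev_smul]
    show x⁻¹ • g • u = (g⁻¹ * x)⁻¹ • u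
    rw [mul_inv_rev, inv_inv, mul_smul]
  have hinj : Function.Injective inc := fun u u' h => by
    have := congrArg (Coind.ev (1 : P)) h
    simpa [inc, Coind.ev_mk] using this
  haveI : Fintype (⊤ : Subgroup P) := Fintype.ofFinite _
  obtain ⟨e, he⟩ : RelTriv P (Coind P U) := by
    obtain ⟨e, he⟩ := Coind.relTriv (W := U) (⊤ : Subgroup P)
    exact ⟨e, fun m => (Fintype.sum_equiv Subgroup.topEquiv.toEquiv.symm _ _ fun g => rfl).trans
      (he m)⟩
  have hR : ∀ (g : P), ∀ v ∈ inc.range, g • v ∈ inc.range := by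
    rintro g _ ⟨u, rfl⟩
    exact ⟨g • u, hinc g u⟩
  letI instM : DistribMulAction P (Coind P U ⧸ inc.range) := quotAction inc.range hR
  have hmk : ∀ (g : P) (b : Coind P U),
      ((g • b : Coind P U) : Coind P U ⧸ inc.range) = g • (b : Coind P U ⧸ inc.range) :=
    fun _ _ => rfl
  have hM1 : H1Trivial P (Coind P U ⧸ inc.range) := by
    intro v hv
    rw [mem_Z1] at hv
    choose k hk using fun s => QuotientAddGroup.mk_surjective (v s)
    have hw : ∀ s t, ∃ w, inc w = s • k t - k (s * t) + k s := fun s t => by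
      refine AddMonoidHom.mem_range.1 ((QuotientAddGroup.eq_zero_iff (N := inc.range) _).1 ?_)
      rw [QuotientAddGroup.mk_add, QuotientAddGroup.mk_sub, hmk, hk, hk, hk, hv]
      abel
    choose w hw using hw
    obtain ⟨c, hc⟩ := mem_B2.1 (h2 (fun x => w x.1 x.2) (mem_Z2.2 fun r s t => hinj (by
      simp only [map_add, hinc, hw, smul_add, smul_sub, ← mul_smul, mul_assoc]
      abel)))
    have hk' : (fun s => k s - inc (c s)) ∈ Z1 P (Coind P U) := mem_Z1.2 fun s t => by
      have := congrArg inc (hc s t)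
      rw [hw, map_add, map_sub, hinc] at this
      simp only [smul_sub]
      rw [← sub_eq_zero] at this ⊢
      rw [← neg_eq_zero, ← this]
      abel
    obtain ⟨b, hb⟩ := mem_B1.1 (RelTriv.h1 ⟨e, he⟩ _ hk')
    refine mem_B1.2 ⟨QuotientAddGroup.mk b, fun s => ?_⟩
    show v s = s • (QuotientAddGroup.mk b : Coind P U ⧸ inc.range) - QuotientAddGroup.mk b
    rw [← hk, ← hmk s b, ← QuotientAddGroup.mk_sub, ← hb, QuotientAddGroup.eq_iff_sub_mem]
    exact ⟨c s, (sub_sub_cancel _ _).symm⟩
  have hnorm : ∀ a ∈ fixedPts P (Coind P U ⧸ inc.range),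
      ∃ b, ∑ g : P, g • b = a := by
    intro a ha
    induction a using QuotientAddGroup.induction_on with
    | H b =>
      have : ∀ s, ∃ u, inc u = s • b - b := fun s =>
        AddMonoidHom.mem_range.1 (QuotientAddGroup.eq_iff_sub_mem.1 (ha s))
      choose c hc using this
      obtain ⟨u0, hu0⟩ := mem_B1.1 (h1 c (mem_Z1.2 fun s t => hinj (by
        rw [map_add, hinc, hc, hc, hc, smul_sub, mul_smul]; abel)))
      refine ⟨((e (b - inc u0) : Coind P U) : Coind P U ⧸ inc.range), ?_⟩
      have hfix : ∀ g : P, g⁻¹ • (b - inc u0) = b - inc u0 := fun g => by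
        have h := hc g⁻¹
        rw [hu0, map_sub, hinc] at h
        rw [smul_sub, ← sub_eq_zero]
        rw [← sub_eq_zero] at h
        rw [← neg_eq_zero, ← h]
        abel
      have hb := he (b - inc u0)
      simp only [hfix] at hb
      simp only [← hmk]
      rw [← QuotientAddGroup.mk_sum, hb, QuotientAddGroup.eq_iff_sub_mem]
      exact ⟨-u0, by rw [map_neg]; abel⟩
  let a0 : X →+ Coind P U := -∑ g : P, (DistribSMul.toAddMonoidHom _ g).comp (e.comp
    ((DistribSMul.toAddMonoidHom _ g⁻¹).comp (inc.comp (z g))))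
  have ha0 : ∀ x, a0 x = -∑ g : P, g • e (g⁻¹ • inc (z g x)) := fun x => by simp [a0]
  have hd : ∀ s x, inc (z s x) = s • a0 (s⁻¹ • x) - a0 x := fun s x => by
    have key : ∀ g : P, s • g • e (g⁻¹ • inc (z g (s⁻¹ • x)))
        = (s * g) • e ((s * g)⁻¹ • inc (z (s * g) x)) - (s * g) • e ((s * g)⁻¹ • inc (z s x)) :=
      fun g => by
        rw [← smul_sub, ← map_sub, ← smul_sub, hz, map_add, hinc, add_sub_cancel_right,
          ← mul_smul, ← mul_smul, mul_inv_rev, inv_mul_cancel_right]
    rw [ha0, ha0, smul_neg, Finset.smul_sum, sub_neg_eq_add]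
    simp_rw [key]
    rw [Finset.sum_sub_distrib,
      Fintype.sum_equiv (Equiv.mulLeft s) (fun g => (s * g) • e ((s * g)⁻¹ • inc (z (s * g) x)))
        (fun g => g • e (g⁻¹ • inc (z g x))) (fun _ => rfl),
      Fintype.sum_equiv (Equiv.mulLeft s) (fun g => (s * g) • e ((s * g)⁻¹ • inc (z s x)))
        (fun g => g • e (g⁻¹ • inc (z s x))) (fun _ => rfl), he]
    abel
  obtain ⟨f', hf'⟩ := exists_norm_of_equivariant hP hM1 hnorm
    ((QuotientAddGroup.mk' inc.range).comp a0) fun g x => by
      show (QuotientAddGroup.mk (a0 (g • x)) : Coind P U ⧸ inc.range)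
        = g • (QuotientAddGroup.mk (a0 x) : Coind P U ⧸ inc.range)
      rw [← hmk g (a0 x), QuotientAddGroup.eq_iff_sub_mem]
      refine ⟨-z g (g • x), ?_⟩
      rw [map_neg, hd, inv_smul_smul, neg_sub]
  obtain ⟨fl, hfl⟩ := Module.projective_lifting_property (R := ℤ)
    (QuotientAddGroup.mk' inc.range).toIntLinearMap f'.toIntLinearMap
    (QuotientAddGroup.mk'_surjective inc.range)
  have hfl' : ∀ x, ((fl x : Coind P U) : Coind P U ⧸ inc.range) = f' x := LinearMap.congr_fun hfl
  have hrange : ∀ x, ∃ u, inc u = a0 x - ∑ g : P, g • fl (g⁻¹ • x) := fun x => by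
    refine AddMonoidHom.mem_range.1 (QuotientAddGroup.eq_iff_sub_mem.1 ?_)
    rw [QuotientAddGroup.mk_sum]
    simp only [hmk, hfl']
    exact hf' x
  choose a ha using hrange
  refine ⟨AddMonoidHom.mk' a fun x y => hinj ?_, fun s x => hinj ?_⟩
  · simp only [map_add, ha, smul_add, Finset.sum_add_distrib]
    abel
  · show inc (z s x) = inc (s • a (s⁻¹ • x) - a x)
    simp only [map_sub, hinc, ha, hd, smul_sub, Finset.smul_sum]
    rw [
      Fintype.sum_equiv (Equiv.mulLeft s) (fun g => s • g • fl (g⁻¹ • s⁻¹ • x))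
        (fun g => g • fl (g⁻¹ • x)) (fun g => by simp [mul_smul])]
    abel

end TN

end FermatLib.CFT
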