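import Fermat.Agent.CFT.DualAxioms

/-!
Nondegeneracy on both sides of the duality at a level.
-/

set_option autoImplicit false

namespace FermatLib.CFT

open FermatLib.CFT.TN

variable {p : ℕ} [Fact p.Prime] {Γ G : Type*} [Group Γ] [Finite Γ] [Group G] [Fintype G]
  {C C₀ : Type*} [AddCommGroup C] [AddCommGroup C₀] [DistribMulAction Γ C] [DistribMulAction G C₀]
  {π : Γ →* G} {bc : C₀ →+ C} {U₀ : AddSubgroup C₀}
  {ι : Type*} [Fintype ι] {V : Type*} [AddCommGroup V] [DistribMulAction G V] {v : ι → V}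

theorem presKer_free_finite (v : ι → V) :
    Module.Free ℤ (presKer (G := G) v) ∧ Module.Finite ℤ (presKer (G := G) v) := by
  let e : (ι → G → ℤ) ≃ₗ[ℤ] Pres ι G := (AddEquiv.refl (ι → G → ℤ)).toIntLinearEquiv
  haveI : Module.Free ℤ (Pres ι G) := Module.Free.of_equiv e
  haveI : Module.Finite ℤ (Pres ι G) := Module.Finite.equiv e
  let N : Submodule ℤ (Pres ι G) := AddSubgroup.toIntSubmodule (presKer (G := G) v)
  let eN : N ≃ₗ[ℤ] presKer (G := G) v := (AddEquiv.refl (presKer (G := G) v)).toIntLinearEquiv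
  exact ⟨Module.Free.of_equiv eN, Module.Finite.equiv eN⟩

theorem pres_free_finite : Module.Free ℤ (Pres ι G) ∧ Module.Finite ℤ (Pres ι G) := by
  let e : (ι → G → ℤ) ≃ₗ[ℤ] Pres ι G := (AddEquiv.refl (ι → G → ℤ)).toIntLinearEquiv
  exact ⟨Module.Free.of_equiv e, Module.Finite.equiv e⟩

/-- Presentation modules are relatively projective. -/
theorem pres_relTriv : TN.RelTriv G (Pres ι G) := by
  classical
    refine ⟨AddMonoidHom.mk' (fun f i g => if g = 1 then f i g else 0) fun a b =>
      funext fun i => funext fun g => ?_, fun f => funext fun i => funext fun g => ?_⟩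
    · show (if g = 1 then a i g + b i g else 0) = (if g = 1 then a i g else 0) + (if g = 1 then b i g else 0)
      split <;> simp
    · let ev : Pres ι G →+ ℤ := AddMonoidHom.mk' (fun f => f i g) fun _ _ => rfl
      show ev (∑ c : G, _) = f i g
      rw [map_sum]
      simp only [ev, AddMonoidHom.mk'_apply, Pres.smul_apply]
      simp [inv_mul_eq_one]

omit [Finite Γ] in
/-- The values of a `Γ`-equivariant map on a `G`-module descend. -/
theorem IsDualLevel.exists_descend (hL : IsDualLevel p π bc U₀) {M : Type*} [AddCommGroup M]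
    [DistribMulAction G M] (H : M →+ C) (hH : ∀ (g : Γ) (x : M), H (π g • x) = g • H x) :
    ∃ H0 ∈ equivHom G M C₀, ∀ x, bc (H0 x) = H x := by
  choose H0 hH0 using fun x => hL.range_fixed (H x) fun g hg => by
    rw [← hH, MonoidHom.mem_ker.1 hg, one_smul]
  refine ⟨AddMonoidHom.mk' H0 fun a b => hL.inj (by rw [map_add, hH0, hH0, hH0, map_add]),
    fun g x => hL.inj ?_, hH0⟩
  obtain ⟨g, rfl⟩ := hL.surj g
  show bc (H0 (π g • x)) = bc (π g • H0 x)
  rw [hH0, hH, hL.compat, hH0]

omit [Finite Γ] [Fact p.Prime] in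
/-- A norm from `Γ` is, on relations, a restriction plus a unit valued map. -/
theorem IsDualLevel.exists_extension_norm [Fintype Γ] (hL : IsDualLevel p π bc U₀)
    (hpV : ∀ x : V, p • x = 0) (f : presKer (G := G) v →+ C)
    (h : presKer (G := G) v →+ C₀)
    (hN : ∀ x, bc (h x) = ∑ g : Γ, g • f ((π g)⁻¹ • x)) :
    ∃ F ∈ equivHom G (Pres ι G) C₀, ∀ x : presKer (G := G) v, h x - F x ∈ U₀ := by
  classical
  haveI : Fintype π.ker := Fintype.ofFinite _
  obtain ⟨s, hs⟩ := hL.surj.hasRightInverse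
  have hbij : Function.Bijective fun z : G × π.ker => s z.1 * (z.2 : Γ) := by
    refine ⟨fun a b e => ?_, fun g => ⟨⟨π g, (s (π g))⁻¹ * g, by
      rw [MonoidHom.mem_ker, map_mul, map_inv, hs, inv_mul_cancel]⟩, mul_inv_cancel_left _ _⟩⟩
    have h1 : a.1 = b.1 := by
      have := congrArg π e
      simpa [MonoidHom.mem_ker.1 a.2.2, MonoidHom.mem_ker.1 b.2.2, hs a.1, hs b.1] using this
    exact Prod.ext h1 (Subtype.ext (mul_left_cancel (a := s a.1) (by simpa [h1] using e)))
  let NH : presKer (G := G) v →+ C := ∑ k : π.ker, (DistribSMul.toAddMonoidHom C (k : Γ)).comp f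
  have hNH : ∀ x, NH x = ∑ k : π.ker, k • f x := fun x => by simp [NH, Subgroup.smul_def]
  have hfix : ∀ x, NH x ∈ bc.range := fun x => hL.range_fixed _ fun g hg => by
    rw [hNH, Finset.smul_sum]
    exact Fintype.sum_equiv (Equiv.mulLeft (⟨g, hg⟩ : π.ker)) _ _ fun k => by
      rw [Equiv.coe_mulLeft, mul_smul]; rfl
  choose n0 hn0 using hfix
  obtain ⟨hfree, -⟩ := presKer_free_finite (G := G) v
  let b := Module.Free.chooseBasis ℤ (presKer (G := G) v)
  have hdec : ∀ j, ∃ e : C₀, ∃ u ∈ U₀, n0 (b j) = p • e + u := fun j =>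
    hL.norm_index _ (f (b j)) (by
      rw [hn0, hNH]
      simp [normMap, finsum_eq_sum_of_fintype])
  choose ev uv huv hev using hdec
  let e : presKer (G := G) v →+ C₀ := (b.constr ℤ ev).toAddMonoidHom
  let u : presKer (G := G) v →+ U₀ := (b.constr ℤ fun j => (⟨uv j, huv j⟩ : U₀)).toAddMonoidHom
  have hn0' : ∀ x, n0 x = p • e x + (u x : C₀) := by
    let n0' : presKer (G := G) v →+ C₀ :=
      AddMonoidHom.mk' n0 fun x y => hL.inj (by rw [map_add, hn0, hn0, hn0, map_add])
    let r : presKer (G := G) v →+ C₀ := p • e + U₀.subtype.comp u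
    have : n0'.toIntLinearMap = r.toIntLinearMap := b.ext fun j => by
      show n0 (b j) = p • e (b j) + (u (b j) : C₀)
      simp [e, u, hev]
    exact fun x => LinearMap.congr_fun this x
  have hmem : ∀ y : Pres ι G, p • y ∈ presKer (G := G) v := fun y => by
    show presMap v _ = 0
    rw [map_nsmul, hpV]
  let pmul : Pres ι G →+ presKer (G := G) v :=
    AddMonoidHom.mk' (fun y => ⟨p • y, hmem y⟩) fun a c => Subtype.ext (nsmul_add _ _ _)
  let F : Pres ι G →+ C₀ := ∑ c : G, (DistribSMul.toAddMonoidHom C₀ c).comp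
    (e.comp ((DistribSMul.toAddMonoidHom _ c⁻¹).comp pmul))
  have hF : ∀ y, F y = ∑ c : G, c • e (c⁻¹ • pmul y) := fun y => by simp [F]
  refine ⟨F, fun g y => ?_, fun x => ?_⟩
  · rw [hF, hF, Finset.smul_sum]
    refine (Fintype.sum_equiv (Equiv.mulLeft g) _ _ fun c => ?_).symm
    have : pmul (g • y) = g • pmul y := Subtype.ext (smul_comm p g y)
    simp [this, mul_smul]
  · have hx : h x = ∑ c : G, c • n0 (c⁻¹ • x) := by
      refine hL.inj ?_
      rw [hN, map_sum, ← Fintype.sum_bijective _ hbij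
        (fun z => (s z.1 * (z.2 : Γ)) • f ((π (s z.1 * (z.2 : Γ)))⁻¹ • x)) _ fun _ => rfl,
        Fintype.sum_prod_type]
      refine Finset.sum_congr rfl fun c _ => ?_
      simp only [map_mul, MonoidHom.mem_ker.1 (Subtype.coe_prop _), mul_one, hs c, mul_smul]
      rw [← Finset.smul_sum]
      conv_rhs => rw [← hs c, hL.compat, hn0, hNH, hs c]
      rfl
    have hp : ∀ z : presKer (G := G) v, pmul (z : Pres ι G) = p • z := fun z => Subtype.ext rfl
    rw [hx, hF, ← Finset.sum_sub_distrib]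
    refine AddSubgroup.sum_mem _ fun c _ => ?_
    rw [hn0', hp, smul_comm c⁻¹ p, map_nsmul, smul_add, add_sub_cancel_left]
    exact hL.units_smul c _ (SetLike.coe_mem _)

/-- Left nondegeneracy: a map pairing to zero with all classes extends to the presentation up to
unit valued maps. -/
theorem IsDualLevel.exists_extension (hL : IsDualLevel p π bc U₀) (hpV : ∀ x : V, p • x = 0)
    {h : presKer (G := G) v →+ C₀} (hh : h ∈ equivHom G (presKer (G := G) v) C₀)
    (hzero : ∀ (w : Γ → V) (ξ : Γ × Γ → presKer (G := G) v), w ∈ piZ1 π V →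
      IsConnecting π v w ξ → pairCocycle bc h ξ ∈ B2 Γ C) :
    ∃ F ∈ equivHom G (Pres ι G) C₀, ∀ x : presKer (G := G) v, h x - F x ∈ U₀ := by
  classical
  have := Fintype.ofFinite Γ
  obtain ⟨u, hu⟩ := TN.exists_isFund hL.formation
  let P : Sylow p Γ := default
  set q := (P : Subgroup Γ).index
  set n := Fintype.card Γ
  letI actX : DistribMulAction Γ (presKer (G := G) v) := DistribMulAction.compHom _ π
  letI actP : DistribMulAction Γ (Pres ι G) := DistribMulAction.compHom _ π
  obtain ⟨hfX, hgX⟩ := presKer_free_finite (G := G) v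
  obtain ⟨hfP, hgP⟩ := pres_free_finite (ι := ι) (G := G)
  have hhΓ : ∀ (g : Γ) x, bc.comp h (g • x) = g • bc.comp h x := fun g x => by
    show bc (h (π g • x)) = g • bc (h x)
    rw [hh, hL.compat]
  obtain ⟨φ, hφ, f, hdec⟩ := TN.exists_norm_add_capMap hu P (bc.comp h) hhΓ
  let r : (Γ → Module.Dual ℤ (Pres ι G)) →ₗ[ℤ] (Γ → Module.Dual ℤ (presKer (G := G) v)) :=
    LinearMap.pi fun k => ((presKer (G := G) v).subtype.toIntLinearMap.dualMap).comp
      (LinearMap.proj k)
  have hr : ∀ ψ k x, r ψ k x = ψ k (x : Pres ι G) := fun _ _ _ => rfl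
  let D : Submodule ℤ (Γ → Module.Dual ℤ (presKer (G := G) v)) :=
    bdSpan Γ (presKer (G := G) v) ⊔ (LinearMap.ker (bdry (G := Γ) (X := Pres ι G))).map r
  have hrker : ∀ ψ ∈ LinearMap.ker (bdry (G := Γ) (X := Pres ι G)), r ψ ∈ LinearMap.ker bdry := by
    intro ψ hψ
    exact cycle_iff.2 fun x => (cycle_iff.1 hψ (x : Pres ι G) :)
  have hD : D ≤ LinearMap.ker bdry :=
    sup_le bdSpan_le_ker (Submodule.map_le_iff_le_comap.2 hrker)
  have hmem : (q : ℤ) • φ ∈ D := by
    refine mem_of_pairing le_sup_left hD (Submodule.smul_mem _ _ hφ) fun ξ hξ hξD => ?_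
    let ξP : Γ × Γ → Pres ι G := fun t => (ξ t : Pres ι G)
    have hξP : ξP ∈ Z2 Γ (Pres ι G) := TN.mem_Z2.2 fun a b c =>
      congrArg Subtype.val (TN.mem_Z2.1 hξ a b c)
    obtain ⟨c, hc⟩ := exists_card_smul_eq (b := sumSnd ξP) (n := n) fun ψ hψ => by
      convert hξD (r ψ) (Submodule.mem_sup_right (Submodule.mem_map_of_mem hψ)) using 1
      simp only [pairing_apply, hr, sumSnd, ξP, AddSubgroup.val_finsetSum]
    have hcd : ∀ s t, ξP (s, t) = s • c t - c (s * t) + c s := fun s t => by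
      refine smul_right_injective (Pres ι G) (r := (n : ℤ))
        (by exact_mod_cast Fintype.card_ne_zero) ?_
      show (n : ℤ) • _ = (n : ℤ) • _
      rw [natCast_zsmul, natCast_zsmul, ← hc, d1_sumSnd hξP]
    have hw : (fun s => presMap v (c s)) ∈ piZ1 π V := fun s t => by
      have h0 : presMap v (ξP (s, t)) = 0 := (ξ (s, t)).2
      rw [hcd, map_add, map_sub] at h0
      change presMap v (π s • c t) - _ + _ = 0 at h0
      rw [presMap_smul, sub_add_eq_add_sub, sub_eq_zero] at h0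
      exact h0.symm
    have hB := hzero _ ξ hw ⟨c, fun _ => rfl, hcd⟩
    have hcap := sub_mem (AddSubgroup.nsmul_mem _ hB q) (TN.norm_comp_mem_B2 f hξ)
    have h1 : ¬ p ∣ 1 := (Fact.out : p.Prime).not_dvd_one
    rw [map_smul, smul_eq_mul]
    refine TN.dvd_pairing hu P hφ hξ h1 ?_
    convert hcap using 1
    funext t
    simp only [one_smul, Pi.sub_apply, Pi.smul_apply]
    show _ = q • bc (h (ξ t)) - _
    rw [show bc (h (ξ t)) = bc.comp h (ξ t) from rfl, hdec, add_sub_cancel_left]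
  obtain ⟨b, hb, _, ⟨ψ, hψ, rfl⟩, hbψ⟩ := Submodule.mem_sup.1 hmem
  obtain ⟨f', hf'⟩ := capMap_eq_norm u.2 hb
  obtain ⟨F1, hF1, hF1'⟩ := hL.exists_descend (capMap (u : Γ × Γ → C) ψ)
    fun g x => capMap_smul u.2 hψ g x
  let h' : presKer (G := G) v →+ C₀ :=
    ((q * q : ℕ) : ℤ) • h - F1.comp (presKer (G := G) v).subtype
  obtain ⟨FN, hFN, hFN'⟩ := hL.exists_extension_norm hpV ((q : ℤ) • f + f') h' fun x => by
    have e : TN.capMap (u : Γ × Γ → C) ((q : ℤ) • φ) x
        = (q : ℤ) • TN.capMap (u : Γ × Γ → C) φ x := by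
      simp only [capMap_apply, Finset.smul_sum, Pi.smul_apply, LinearMap.smul_apply, smul_eq_mul,
        mul_smul]
    have e2 : TN.capMap (u : Γ × Γ → C) (b + r ψ) x
        = TN.capMap (u : Γ × Γ → C) b x + TN.capMap (u : Γ × Γ → C) ψ (x : Pres ι G) := by
      simp only [capMap_apply, Pi.add_apply, LinearMap.add_apply, add_smul, Finset.sum_add_distrib,
        hr]
      rfl
    have e3 : (q : ℤ) • TN.capMap (u : Γ × Γ → C) φ x = (∑ g : Γ, g • f' (g⁻¹ • x))
        + bc (F1 (x : Pres ι G)) := by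
      rw [← e, ← hbψ, e2, hf', hF1']
    simp only [h', AddMonoidHom.sub_apply, AddMonoidHom.smul_apply, AddMonoidHom.comp_apply,
      AddSubgroup.coe_subtype, map_sub, map_zsmul, AddMonoidHom.add_apply, smul_add,
      Finset.sum_add_distrib]
    rw [natCast_zsmul, mul_smul, show q • bc (h x) = q • bc.comp h x from rfl, hdec,
      ← natCast_zsmul, smul_add, e3, add_sub_assoc, add_sub_cancel_right, Finset.smul_sum]
    simp only [← map_inv, smul_comm (_ : Γ) (q : ℤ)]
    rfl
  have hmemp : ∀ y : Pres ι G, p • y ∈ presKer (G := G) v := fun y => by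
    show presMap v _ = 0
    rw [map_nsmul, hpV]
  let F2 : Pres ι G →+ C₀ := h.comp (AddMonoidHom.mk' (fun y => ⟨p • y, hmemp y⟩)
    fun a c => Subtype.ext (nsmul_add _ _ _))
  have hF2 : F2 ∈ equivHom G (Pres ι G) C₀ := fun g y => by
    show h ⟨p • (g • y), _⟩ = g • h ⟨p • y, _⟩
    rw [← hh]
    exact congrArg h (Subtype.ext (smul_comm p g y))
  obtain ⟨a, c, hac⟩ := Nat.isCoprime_iff_coprime.2 (((Fact.out : p.Prime).coprime_iff_not_dvd.2
    (fun hd => P.not_dvd_index (((Fact.out : p.Prime).dvd_mul.1 hd).elim id id)) :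
      Nat.Coprime p (q * q))).symm
  refine ⟨a • (F1 + FN) + c • F2, add_mem (AddSubgroup.zsmul_mem _ (add_mem hF1 hFN) _)
    (AddSubgroup.zsmul_mem _ hF2 _), fun x => ?_⟩
  have key : h x - (a • (F1 + FN) + c • F2) (x : Pres ι G)
      = a • (h' x - FN (x : Pres ι G)) := by
    have hx2 : F2 (x : Pres ι G) = (p : ℤ) • h x := by
      rw [natCast_zsmul, ← map_nsmul]; rfl
    simp only [h', AddMonoidHom.add_apply, AddMonoidHom.smul_apply, AddMonoidHom.sub_apply,
      AddMonoidHom.comp_apply, AddSubgroup.coe_subtype, hx2]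
    have e : h x = a • (((q * q : ℕ) : ℤ) • h x) + c • ((p : ℤ) • h x) := by
      rw [← mul_smul, ← mul_smul, ← add_smul, hac, one_smul]
    nth_rewrite 1 [e]
    simp only [smul_add, smul_sub]
    abel
  rw [key]
  exact AddSubgroup.zsmul_mem _ (hFN' x) _

/-- Right nondegeneracy: a class pairing to zero with all maps is zero. -/
theorem IsDualLevel.mem_piB1_of_pairing (hL : IsDualLevel p π bc U₀) (hpV : ∀ x : V, p • x = 0)
    {w : Γ → V} {ξ : Γ × Γ → presKer (G := G) v} (hξ : IsConnecting π v w ξ)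
    (hzero : ∀ h ∈ equivHom G (presKer (G := G) v) C₀, pairCocycle bc h ξ ∈ B2 Γ C) :
    w ∈ piB1 π V := by
  classical
  have := Fintype.ofFinite Γ
  letI actX : DistribMulAction Γ (presKer (G := G) v) := DistribMulAction.compHom _ π
  obtain ⟨hfX, hgX⟩ := presKer_free_finite (G := G) v
  have hξZ : ξ ∈ Z2 Γ (presKer (G := G) v) := TN.mem_Z2.2 hξ.cocycle
  obtain ⟨m, hm, hmB⟩ := tateNakayama_right hL.formation hξZ fun H hH => by
    obtain ⟨H0, hH0, hH0'⟩ := hL.exists_descend H hH
    refine ⟨1, (Fact.out : p.Prime).not_dvd_one, ?_⟩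
    convert hzero H0 hH0 using 1
    funext t
    rw [one_smul]
    exact (hH0' _).symm
  obtain ⟨c, hc⟩ := TN.mem_B2.1 hmB
  obtain ⟨w', hw', hξ'⟩ := hξ
  let z : Γ → Pres ι G := fun s => m • w' s - (c s : Pres ι G)
  have hz : ∀ s t, z (s * t) = π s • z t + z s := fun s t => by
    have e := congrArg Subtype.val (hc s t)
    rw [Pi.smul_apply, AddSubgroup.coe_nsmul, hξ', AddSubgroup.coe_add, AddSubgroup.coe_sub] at e
    change _ = π s • (c t : Pres ι G) - _ + _ at e
    simp only [z, smul_sub, smul_comm (π s) m]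
    rw [nsmul_add, nsmul_sub] at e
    rw [← sub_eq_zero] at e ⊢
    rw [← neg_eq_zero, ← e]
    abel
  have hzker : ∀ k ∈ π.ker, z k = 0 := fun k hk => by
    have hpow : ∀ j : ℕ, z (k ^ j) = j • z k := fun j => by
      induction j with
      | zero =>
        have := hz 1 1
        simpa using this
      | succ j ih => rw [pow_succ', hz, MonoidHom.mem_ker.1 hk, one_smul, ih, succ_nsmul]
    have h0 : orderOf k • z k = 0 := by
      rw [← hpow, pow_orderOf_eq_one]
      simpa using hz 1 1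
    refine funext fun i => funext fun g => ?_
    have h1 : orderOf k • z k i g = 0 := congrFun (congrFun h0 i) g
    exact (smul_eq_zero.1 h1).resolve_left (orderOf_pos k).ne'
  obtain ⟨s, hs⟩ := hL.surj.hasRightInverse
  have hzfac : ∀ g, z g = z (s (π g)) := fun g => by
    have hk : (s (π g))⁻¹ * g ∈ π.ker := by
      rw [MonoidHom.mem_ker, map_mul, map_inv, hs, inv_mul_cancel]
    have := hz (s (π g)) ((s (π g))⁻¹ * g)
    rw [mul_inv_cancel_left, hzker _ hk, smul_zero, zero_add] at this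
    exact this
  have hrel : TN.RelTriv G (Pres ι G) := pres_relTriv
  obtain ⟨b, hb⟩ := TN.mem_B1.1 (hrel.h1 (fun g => z (s g)) (TN.mem_Z1.2 fun g g' => by
    show z (s (g * g')) = g • z (s g') + z (s g)
    conv_lhs => rw [← hs g, ← hs g', ← map_mul, ← hzfac, hz, hs g]))
  have hB : m • w ∈ piB1 π V := ⟨presMap v b, fun g => by
    have e : z g = π g • b - b := (hzfac g).trans (hb (π g))
    have e2 := congrArg (presMap (G := G) v) e
    rw [map_sub, map_sub, map_nsmul, hw', presMap_smul] at e2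
    rw [Pi.smul_apply, ← e2]
    have hcz : presMap v (c g : Pres ι G) = 0 := (c g).2
    rw [hcz, sub_zero]⟩
  refine mem_B2_of_nsmul_mem hm hB ?_
  have : p • w = 0 := funext fun g => hpV _
  rw [this]
  exact zero_mem _

end FermatLib.CFT
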