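import Mathlib.Analysis.Fourier.FiniteAbelian.PontryaginDuality
import Mathlib.Analysis.SpecialFunctions.Complex.CircleAddChar

/-!
Orthogonal subgroups for a pairing of abelian groups with values in `ZMod N`.
-/

set_option autoImplicit false
set_option linter.style.haveILetI false

namespace FermatLib.CFT.Duality

variable {A V : Type*} [AddCommGroup A] [AddCommGroup V] {N : ℕ} [NeZero N]

/-- The orthogonal of a subgroup under a pairing. -/
def pairingOrth (B : A →+ V →+ ZMod N) (Y : AddSubgroup A) : AddSubgroup V where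
  carrier := {v | ∀ y ∈ Y, B y v = 0}
  zero_mem' := fun y _ => map_zero _
  add_mem' := fun hv hw y hy => by rw [map_add, hv y hy, hw y hy, add_zero]
  neg_mem' := fun hv y hy => by rw [map_neg, hv y hy, neg_zero]

/-- For a pairing with trivial right kernel and `V` finite, a subgroup containing the left kernel
has index the order of its orthogonal. -/
theorem finite_and_card_quotient_eq_card_orth [Finite V] (B : A →+ V →+ ZMod N)
    (hright : ∀ v, (∀ a, B a v = 0) → v = 0) (Y : AddSubgroup A)
    (hY : ∀ a, (∀ v, B a v = 0) → a ∈ Y) :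
    Finite (A ⧸ Y) ∧ Nat.card (A ⧸ Y) = Nat.card (pairingOrth B Y) := by
  classical
  obtain ⟨ψ, hψi⟩ : ∃ ψ : AddChar (ZMod N) ℂ, Function.Injective ψ :=
    ⟨_, ZMod.injective_stdAddChar⟩
  have hψ : ∀ {x : ZMod N}, ψ x = 1 → x = 0 := fun {x} hx =>
    hψi (hx.trans (AddChar.map_zero_eq_one ψ).symm)
  have hkY : B.ker ≤ Y := fun a ha => hY a fun v => by
    rw [AddMonoidHom.mem_ker.mp ha, AddMonoidHom.zero_apply]
  haveI : Finite (A ⧸ B.ker) := by
    haveI : Finite (V →+ ZMod N) := Finite.of_injective _ DFunLike.coe_injective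
    exact Finite.of_injective _ (QuotientAddGroup.kerLift_injective B)
  haveI : Finite (A ⧸ Y) :=
    Finite.of_surjective (QuotientAddGroup.map B.ker Y (AddMonoidHom.id A) hkY)
      (fun x => QuotientAddGroup.induction_on x fun a => ⟨QuotientAddGroup.mk a, rfl⟩)
  refine ⟨inferInstance, ?_⟩
  letI : Fintype (A ⧸ B.ker) := Fintype.ofFinite _
  letI : Fintype V := Fintype.ofFinite _
  -- characters of `A ⧸ ker B` given by elements of `V`
  let θ : V → AddChar (A ⧸ B.ker) ℂ := fun v =>
    ψ.compAddMonoidHom (QuotientAddGroup.lift B.ker (B.flip v) fun a ha => by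
      rw [AddMonoidHom.mem_ker, AddMonoidHom.flip_apply, AddMonoidHom.mem_ker.mp ha,
        AddMonoidHom.zero_apply])
  have θ_apply : ∀ v a, θ v (QuotientAddGroup.mk a) = ψ (B a v) := fun v a => rfl
  have hθ : Function.Injective θ := fun v w h => sub_eq_zero.mp (hright _ fun a => by
    have := DFunLike.congr_fun h (QuotientAddGroup.mk a)
    rw [θ_apply, θ_apply] at this
    rw [map_sub, sub_eq_zero]
    exact hψi this)
  let η : A ⧸ B.ker → AddChar V ℂ := fun a =>
    ψ.compAddMonoidHom (QuotientAddGroup.kerLift B a)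
  have hη : Function.Injective η := fun a b h =>
    QuotientAddGroup.kerLift_injective B (AddMonoidHom.ext fun v =>
      hψi (DFunLike.congr_fun h v))
  have hθs : Function.Surjective θ := by
    refine ((Fintype.bijective_iff_injective_and_card θ).mpr ⟨hθ, le_antisymm
      (Fintype.card_le_of_injective _ hθ) ?_⟩).2
    calc Fintype.card (AddChar (A ⧸ B.ker) ℂ) = Fintype.card (A ⧸ B.ker) := AddChar.card_eq
      _ ≤ Fintype.card (AddChar V ℂ) := Fintype.card_le_of_injective _ hη
      _ = Fintype.card V := AddChar.card_eq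
  haveI : Finite (pairingOrth B Y) := inferInstance
  letI : Fintype (A ⧸ Y) := Fintype.ofFinite _
  letI : Fintype (pairingOrth B Y) := Fintype.ofFinite _
  rw [Nat.card_eq_fintype_card, Nat.card_eq_fintype_card]
  -- `pairingOrth B Y` embeds into the characters of `A ⧸ Y` and conversely
  let θY : pairingOrth B Y → AddChar (A ⧸ Y) ℂ := fun v =>
    ψ.compAddMonoidHom (QuotientAddGroup.lift Y (B.flip v.1) fun a ha => by
      rw [AddMonoidHom.mem_ker, AddMonoidHom.flip_apply]; exact v.2 a ha)
  have hθY : Function.Injective θY := fun v w h => Subtype.ext (sub_eq_zero.mp (hright _ fun a => by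
    have := DFunLike.congr_fun h (QuotientAddGroup.mk a)
    rw [map_sub, sub_eq_zero]
    exact hψi this))
  let ηY : A ⧸ Y →+ Additive (AddChar (pairingOrth B Y) ℂ) :=
    QuotientAddGroup.lift Y
      { toFun := fun a => Additive.ofMul (ψ.compAddMonoidHom ((B a).comp (pairingOrth B Y).subtype))
        map_zero' := congrArg Additive.ofMul (DFunLike.ext _ _ fun v => by simp)
        map_add' := fun a b => congrArg Additive.ofMul (DFunLike.ext _ _ fun v => by
          simp [AddChar.map_add_eq_mul]) }
      fun a ha => congrArg Additive.ofMul (DFunLike.ext _ _ fun v => by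
        show ψ (B a v.1) = 1
        rw [v.2 a ha, AddChar.map_zero_eq_one])
  have hηY : Function.Injective ηY := by
    rw [injective_iff_map_eq_zero]
    refine fun x => QuotientAddGroup.induction_on x fun a ha => ?_
    by_contra hne
    obtain ⟨χ, hχ⟩ := AddChar.exists_apply_ne_zero.mpr hne
    obtain ⟨v, hv⟩ := hθs (χ.compAddMonoidHom
      (QuotientAddGroup.map B.ker Y (AddMonoidHom.id A) hkY))
    have hva : ∀ b, ψ (B b v) = χ (QuotientAddGroup.mk b) := fun b => by
      rw [← θ_apply, hv]
      rfl
    have hvY : v ∈ pairingOrth B Y := fun y hy => hψ (by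
      rw [hva, (QuotientAddGroup.eq_zero_iff y).mpr hy, AddChar.map_zero_eq_one])
    refine hχ ?_
    rw [← hva]
    exact DFunLike.congr_fun (congrArg Additive.toMul ha) ⟨v, hvY⟩
  refine le_antisymm ?_ ?_
  · exact (Fintype.card_le_of_injective _ hηY).trans_eq
      ((Fintype.card_congr Additive.toMul).trans AddChar.card_eq)
  · exact (Fintype.card_le_of_injective _ hθY).trans_eq AddChar.card_eq

end FermatLib.CFT.Duality
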