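import Fermat.Agent.CFT.TNBasic

/-!
Tate-Nakayama duality, part 4: cohomological triviality gives that invariants are norms, and the
carry cocycle of a character.
-/

set_option autoImplicit false

namespace FermatLib.CFT.TN

open FermatLib.CFT

theorem carry_identity {n : ℕ} [NeZero n] (x y z : ZMod n) :
    (y.val + z.val) / n + (x.val + (y + z).val) / n
      = ((x + y).val + z.val) / n + (x.val + y.val) / n := by
  have hn : 0 < n := Nat.pos_of_ne_zero (NeZero.ne n)
  have key : ∀ s w : ℕ, (s % n + w) / n + s / n = (s + w) / n := fun s w => by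
    conv_rhs => rw [← Nat.mod_add_div s n, add_right_comm, Nat.add_mul_div_left _ _ hn]
  rw [ZMod.val_add, ZMod.val_add, key, add_comm (x.val) ((y.val + z.val) % n),
    add_comm ((y.val + z.val) / n), key]
  congr 1
  omega

theorem cupChar_mem {G : Type*} [Group G] {M : Type*} [AddCommGroup M] [DistribMulAction G M]
    {n : ℕ} [NeZero n] (ψ : G →* Multiplicative (ZMod n)) {a : M} (ha : a ∈ fixedPts G M) :
    cupChar ψ a ∈ Z2 G M := by
  refine mem_Z2.2 fun r s t => ?_
  simp only [cupChar, map_mul, toAdd_mul]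
  rw [smul_comm, ha r, ← add_nsmul, ← add_nsmul, carry_identity]

variable {p : ℕ} [Fact p.Prime] {G : Type*} [Group G] [Fintype G] {M : Type*} [AddCommGroup M]
  [DistribMulAction G M]

theorem exists_norm_of_fixed (h1 : ∀ H : Subgroup G, IsPGroup p H → H1Trivial H M)
    (h2 : ∀ H : Subgroup G, IsPGroup p H → H2Trivial H M) :
    ∀ (H : Subgroup G) [Fintype H], IsPGroup p H → ∀ a ∈ fixedPts H M,
      ∃ b : M, ∑ h : H, h • b = a := by
  suffices ∀ (m : ℕ) (H : Subgroup G) [Fintype H], Nat.card H = m → IsPGroup p H →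
      ∀ a ∈ fixedPts H M, ∃ b : M, ∑ h : H, h • b = a from
    fun H _ hH => this _ H rfl hH
  intro m
  induction m using Nat.strong_induction_on with
  | _ m ih =>
    intro H _ hm hH a ha
    subst hm
    classical
    obtain ⟨k, hcard⟩ := IsPGroup.iff_card.1 hH
    rcases Nat.eq_zero_or_pos k with hk | hk
    · rw [hk, pow_zero] at hcard
      refine ⟨a, ?_⟩
      rw [Finset.sum_eq_single (1 : H)]
      · rw [one_smul]
      · intro h _ hne
        exact absurd ((Nat.card_eq_one_iff_unique.1 hcard).1.elim h 1) hne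
      · simp
    obtain ⟨N0, hN0⟩ := Sylow.exists_subgroup_card_pow_prime (G := H) p (n := k - 1)
      (hcard ▸ pow_dvd_pow p (Nat.sub_le k 1))
    have hindex : N0.index = p := by
      have h := N0.card_mul_index
      rw [hN0, hcard] at h
      refine Nat.eq_of_mul_eq_mul_left (pow_pos (Fact.out : p.Prime).pos (k - 1)) (h.trans ?_)
      rw [← pow_succ, Nat.sub_add_cancel hk]
    haveI : N0.Normal := by
      refine Subgroup.normal_of_index_eq_minFac_card ?_
      rw [hindex, hcard, (Fact.out : p.Prime).pow_minFac hk.ne']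
    let eψ : H ⧸ N0 ≃* Multiplicative (ZMod p) := mulEquivOfPrimeCardEq (p := p)
      (by rw [← Subgroup.index_eq_card, hindex])
      (by rw [Nat.card_congr Multiplicative.toAdd, Nat.card_zmod])
    let ψ : H →* Multiplicative (ZMod p) := eψ.toMonoidHom.comp (QuotientGroup.mk' N0)
    have hψker : ∀ h : H, ψ h = 1 ↔ h ∈ N0 := fun h => by
      simp [ψ, MonoidHom.comp_apply, QuotientGroup.eq_one_iff]
    obtain ⟨σ, hσ⟩ : ∃ σ : H, ψ σ = Multiplicative.ofAdd 1 := by
      exact eψ.surjective.comp (QuotientGroup.mk'_surjective N0) _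
    obtain ⟨b, hb⟩ := mem_B2.1 (h2 H hH _ (cupChar_mem ψ ha))
    let N : Subgroup G := N0.map H.subtype
    have hNle : N ≤ H := by rintro _ ⟨x, -, rfl⟩; exact x.2
    have hNmem : ∀ n : N, Subgroup.inclusion hNle n ∈ N0 := fun ⟨_, x, hx, rfl⟩ => hx
    have hNp : IsPGroup p N := hH.to_le hNle
    let ι := Subgroup.inclusion hNle
    have hψN : ∀ n : N, ψ (ι n) = 1 := fun n => (hψker _).2 (hNmem n)
    have hcNl : ∀ (n : N) (x : H), cupChar ψ a (ι n, x) = 0 := fun n x => by
      simp [cupChar, hψN n, Nat.div_eq_of_lt (ZMod.val_lt _)]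
    have hcNr : ∀ (n : N) (x : H), cupChar ψ a (x, ι n) = 0 := fun n x => by
      simp [cupChar, hψN n, Nat.div_eq_of_lt (ZMod.val_lt _)]
    have hbN : (fun n : N => b (ι n)) ∈ Z1 N M := mem_Z1.2 fun s t => by
      have h := hb (ι s) (ι t)
      rw [hcNl, ← map_mul] at h
      change b (ι (s * t)) = ι s • b (ι t) + b (ι s)
      rw [← sub_eq_zero, ← neg_eq_zero, h]
      abel
    obtain ⟨c, hc⟩ := mem_B1.1 (h1 N hNp _ hbN)
    let b' : H → M := fun x => b x - (x • c - c)
    have hb' : ∀ s t, cupChar ψ a (s, t) = s • b' t - b' (s * t) + b' s := fun s t => by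
      rw [hb]
      simp only [b', smul_sub, mul_smul]
      abel
    have hb'N : ∀ n : N, b' (ι n) = 0 := fun n => sub_eq_zero.2 (hc n)
    have hr : ∀ (x : H) (n : N), b' (x * ι n) = b' x := fun x n => by
      have h := hb' x (ι n)
      rw [hcNr, hb'N, smul_zero, zero_sub, eq_comm, neg_add_eq_zero] at h
      exact h
    have hl : ∀ (n : N) (x : H), b' (ι n * x) = ι n • b' x := fun n x => by
      have h := hb' (ι n) x
      rw [hcNl, hb'N, add_zero, eq_comm, sub_eq_zero] at h
      exact h.symm
    have hfix : b' σ ∈ fixedPts N M := fun n => by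
      obtain ⟨n', hn'⟩ : ∃ n' : N, ι n * σ = σ * ι n' := by
        refine ⟨⟨((σ⁻¹ * ι n * σ : H) : G), σ⁻¹ * ι n * σ, ?_, rfl⟩, Subtype.ext (by
          simp only [ι, Subgroup.coe_mul, Subgroup.coe_inclusion, Subgroup.coe_inv]; group)⟩
        rw [SetLike.mem_coe, ← hψker]
        simp [hψN n]
      calc (n • b' σ : M) = ι n • b' σ := rfl
        _ = b' σ := by rw [← hl, hn', hr]
    have hN1 : b' 1 = 0 := by simpa using hb'N 1
    have hσp : b' (σ ^ p) = 0 := by
      have hmem : σ ^ p ∈ N0 := by
        rw [← hψker, map_pow, hσ, ← ofAdd_nsmul]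
        simp
      exact hb'N ⟨_, _, hmem, rfl⟩
    have htel : ∀ j ≤ p, ∑ i ∈ Finset.range j, σ ^ i • b' σ
        = b' (σ ^ j) + ∑ i ∈ Finset.range j, (if i + 1 = p then a else 0) := by
      intro j hj
      induction j with
      | zero => simp [hN1]
      | succ j hjih =>
        have h := hb' (σ ^ j) σ
        have hv : cupChar ψ a (σ ^ j, σ) = if j + 1 = p then a else 0 := by
          simp only [cupChar, map_pow, hσ, ← ofAdd_nsmul, toAdd_ofAdd, nsmul_one]
          rw [ZMod.val_natCast, Nat.mod_eq_of_lt hj, ZMod.val_one]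
          split_ifs with hj'
          · rw [hj', Nat.div_self (Fact.out : p.Prime).pos, one_smul]
          · rw [Nat.div_eq_of_lt (by omega), zero_smul]
        rw [hv, ← pow_succ] at h
        rw [Finset.sum_range_succ, Finset.sum_range_succ, hjih (by omega), h]
        abel
    have hsum : ∑ i : Fin p, σ ^ (i : ℕ) • b' σ = a := by
      rw [Fin.sum_univ_eq_sum_range fun i => σ ^ i • b' σ, htel p le_rfl, hσp, zero_add,
        Finset.sum_eq_single (p - 1)]
      · rw [if_pos]; exact Nat.sub_add_cancel (Fact.out : p.Prime).pos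
      · intro i _ hne; rw [if_neg]; omega
      · intro h; exact absurd (Finset.mem_range.2 (Nat.sub_lt (Fact.out : p.Prime).pos one_pos)) h
    haveI : Fintype N := Fintype.ofFinite _
    have hNcard : Nat.card N = Nat.card N0 := Nat.card_congr
      (N0.equivMapOfInjective H.subtype Subtype.val_injective).toEquiv.symm
    have hlt : Nat.card N < Nat.card H := by
      rw [hNcard, hN0, hcard]
      exact Nat.pow_lt_pow_right (Fact.out : p.Prime).one_lt (by omega)
    obtain ⟨d, hd⟩ := ih _ hlt N rfl hNp _ hfix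
    refine ⟨d, ?_⟩
    have hinj : Function.Injective (fun z : Fin p × N => σ ^ (z.1 : ℕ) * ι z.2) := by
      rintro ⟨i, n⟩ ⟨j, m⟩ h
      have h' := congrArg ψ h
      simp only [map_mul, map_pow, hσ, hψN, mul_one, ← ofAdd_nsmul, nsmul_one] at h'
      have hij := congrArg ZMod.val (Multiplicative.ofAdd.injective h')
      rw [ZMod.val_natCast, ZMod.val_natCast, Nat.mod_eq_of_lt i.2, Nat.mod_eq_of_lt j.2] at hij
      obtain rfl := Fin.ext hij
      exact Prod.ext rfl (Subgroup.inclusion_injective hNle (mul_left_cancel h))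
    have hcardeq : Fintype.card (Fin p × N) = Fintype.card H := by
      rw [← Nat.card_eq_fintype_card, Nat.card_prod, Nat.card_eq_fintype_card, Fintype.card_fin,
        hNcard, ← Nat.card_eq_fintype_card, ← N0.card_mul_index, hindex, mul_comm]
    rw [← Fintype.sum_bijective _ ((Fintype.bijective_iff_injective_and_card _).2 ⟨hinj, hcardeq⟩)
      (fun z => σ ^ (z.1 : ℕ) • z.2 • d) (fun h => h • d) (fun z => (mul_smul _ (ι z.2) d).symm)]
    rw [Fintype.sum_prod_type]
    simp only [← Finset.smul_sum, hd]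
    exact hsum

end FermatLib.CFT.TN
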