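import Fermat.Agent.CFT.TNBasic

/-!
Tate-Nakayama duality, part 5: the cap product with a two-cocycle and the duality between cycles of
the dual lattice and two-cocycles of a lattice.
-/

set_option autoImplicit false

namespace FermatLib.CFT.TN

open FermatLib.CFT

variable {G : Type*} [Group G] [Fintype G] {A : Type*} [AddCommGroup A] [DistribMulAction G A]
  {X : Type*} [AddCommGroup X] [DistribMulAction G X]

/-- The action of an element as a linear map. -/
def act (g : G) : X →ₗ[ℤ] X := (DistribSMul.toAddMonoidHom X g).toIntLinearMap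

theorem act_apply (g : G) (x : X) : act g x = g • x := rfl

/-- The pairing of dual-valued functions with functions. -/
def pairing (b : G → X) : (G → Module.Dual ℤ X) →ₗ[ℤ] ℤ :=
  ∑ k : G, (Module.Dual.eval ℤ X (b k)).comp (LinearMap.proj k)

theorem pairing_apply (b : G → X) (φ : G → Module.Dual ℤ X) :
    pairing b φ = ∑ k : G, φ k (b k) := by simp [pairing]

/-- The boundary of a dual-valued chain. -/
def bdry : (G → Module.Dual ℤ X) →ₗ[ℤ] Module.Dual ℤ X :=
  ∑ k : G, ((act k).dualMap - LinearMap.id).comp (LinearMap.proj k)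

theorem bdry_apply (φ : G → Module.Dual ℤ X) (x : X) :
    bdry φ x = ∑ k : G, (φ k (k • x) - φ k x) := by simp [bdry, act_apply]

theorem cycle_iff {φ : G → Module.Dual ℤ X} :
    φ ∈ LinearMap.ker bdry ↔ ∀ x, ∑ k : G, φ k (k • x) = ∑ k : G, φ k x := by
  rw [LinearMap.mem_ker, LinearMap.ext_iff]
  simp [bdry_apply, sub_eq_zero]

/-- The sum of a cochain over its second argument. -/
def sumSnd {B : Type*} [AddCommGroup B] (ξ : G × G → B) (s : G) : B := ∑ r : G, ξ (s, r)

theorem d1_sumSnd {ξ : G × G → X} (hξ : ξ ∈ Z2 G X) (s t : G) :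
    s • sumSnd ξ t - sumSnd ξ (s * t) + sumSnd ξ s = Fintype.card G • ξ (s, t) := by
  have h3 : sumSnd ξ s = ∑ r : G, ξ (s, t * r) :=
    (Fintype.sum_equiv (Equiv.mulLeft t) _ _ fun _ => rfl).symm
  rw [h3, sumSnd, sumSnd, Finset.smul_sum, ← Finset.sum_sub_distrib, ← Finset.sum_add_distrib,
    ← Finset.card_univ, ← Finset.sum_const]
  refine Finset.sum_congr rfl fun r _ => ?_
  rw [eq_sub_of_add_eq (mem_Z2.1 hξ s t r)]
  abel

/-- The cap product of a chain with a two-cochain. -/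
def capMap (u : G × G → A) (φ : G → Module.Dual ℤ X) : X →+ A :=
  ∑ g : G, ∑ k : G, (zmultiplesHom A (u (g, k))).comp
    ((φ k).toAddMonoidHom.comp (DistribSMul.toAddMonoidHom X g⁻¹))

theorem capMap_apply (u : G × G → A) (φ : G → Module.Dual ℤ X) (x : X) :
    capMap u φ x = ∑ g : G, ∑ k : G, φ k (g⁻¹ • x) • u (g, k) := by simp [capMap]

theorem capMap_smul {u : G × G → A} (hu : u ∈ Z2 G A) {φ : G → Module.Dual ℤ X}
    (hφ : φ ∈ LinearMap.ker bdry) (s : G) (x : X) :
    capMap u φ (s • x) = s • capMap u φ x := by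
  rw [cycle_iff] at hφ
  have e1 : capMap u φ (s • x) = ∑ g : G, ∑ k : G, φ k (g⁻¹ • x) • u (s * g, k) := by
    rw [capMap_apply]
    refine (Fintype.sum_equiv (Equiv.mulLeft s) _ _ fun g => ?_).symm
    simp [mul_smul]
  have e2 : ∑ g : G, ∑ k : G, φ k (g⁻¹ • x) • u (s, g * k)
      = ∑ g : G, ∑ k : G, φ k (g⁻¹ • x) • u (s, g) := by
    rw [Finset.sum_comm]
    calc ∑ k : G, ∑ g : G, φ k (g⁻¹ • x) • u (s, g * k)
        = ∑ k : G, ∑ r : G, φ k (k • r⁻¹ • x) • u (s, r) := by
          refine Finset.sum_congr rfl fun k _ =>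
            Fintype.sum_equiv (Equiv.mulRight k) _ _ fun g => ?_
          simp [mul_smul]
      _ = _ := by
          rw [Finset.sum_comm]
          refine Finset.sum_congr rfl fun r _ => ?_
          rw [← Finset.sum_smul, ← Finset.sum_smul, hφ]
  rw [e1, capMap_apply, Finset.smul_sum]
  simp_rw [Finset.smul_sum, smul_comm s, eq_sub_of_add_eq (mem_Z2.1 hu s _ _), smul_sub, smul_add,
    Finset.sum_sub_distrib, Finset.sum_add_distrib]
  rw [e2, add_sub_cancel_right]

/-- The cap product carries the pairing. -/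
theorem capMap_comp_sub_mem_B2 {u : G × G → A} (hu : u ∈ Z2 G A) {φ : G → Module.Dual ℤ X}
    (hφ : φ ∈ LinearMap.ker bdry) {ξ : G × G → X} (hξ : ξ ∈ Z2 G X) :
    (fun z => capMap u φ (ξ z)) - pairing (sumSnd ξ) φ • u ∈ B2 G A := by
  rw [cycle_iff] at hφ
  let N : G → ℤ := fun r => -∑ k : G, φ k (ξ (k, r⁻¹))
  have hN : ∑ r : G, N r = -pairing (sumSnd ξ) φ := by
    simp only [N, pairing_apply, Finset.sum_neg_distrib, sumSnd, map_sum]
    rw [Finset.sum_comm]
    refine congrArg _ (Finset.sum_congr rfl fun k _ => ?_)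
    exact Fintype.sum_equiv (Equiv.inv G) _ _ fun r => rfl
  refine mem_B2.2 ⟨fun t => (∑ g : G, ∑ k : G, φ k (ξ (g⁻¹, t)) • u (g, k))
    + ∑ r : G, N r • u (t, r), fun s t => ?_⟩
  have hM : ∀ r : G, ∑ k : G, φ k (ξ (k * r⁻¹, t)) - ∑ k : G, φ k (ξ (r⁻¹, t))
      = N r - N (t⁻¹ * r) := by
    intro r
    simp only [N, mul_inv_rev, inv_inv]
    simp_rw [← sub_eq_of_eq_add (mem_Z2.1 hξ _ r⁻¹ t), map_sub, map_add, Finset.sum_sub_distrib,
      Finset.sum_add_distrib, hφ (ξ (r⁻¹, t))]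
    abel
  have hexp : capMap u φ (ξ (s, t))
      = (∑ g : G, ∑ k : G, φ k (ξ (g⁻¹ * s, t)) • u (g, k))
        - (∑ g : G, ∑ k : G, φ k (ξ (g⁻¹, s * t)) • u (g, k))
        + ∑ g : G, ∑ k : G, φ k (ξ (g⁻¹, s)) • u (g, k) := by
    rw [capMap_apply]
    simp_rw [eq_sub_of_add_eq (mem_Z2.1 hξ _ s t), map_sub, map_add, sub_smul, add_smul,
      Finset.sum_sub_distrib, Finset.sum_add_distrib]
    abel
  have hfirst : ∑ g : G, ∑ k : G, φ k (ξ (g⁻¹ * s, t)) • u (g, k)
      = s • (∑ g : G, ∑ k : G, φ k (ξ (g⁻¹, t)) • u (g, k))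
        + ∑ r : G, (N r - N (t⁻¹ * r)) • u (s, r) := by
    have e : ∑ g : G, ∑ k : G, φ k (ξ (g⁻¹ * s, t)) • u (g, k)
        = ∑ g : G, ∑ k : G, φ k (ξ (g⁻¹, t)) • (s • u (g, k) + u (s, g * k) - u (s, g)) := by
      refine (Fintype.sum_equiv (Equiv.mulLeft s) _ _ fun g => ?_).symm
      refine Finset.sum_congr rfl fun k _ => ?_
      rw [mem_Z2.1 hu s g k]
      simp
    rw [e]
    simp_rw [smul_sub, smul_add, Finset.sum_sub_distrib, Finset.sum_add_distrib, Finset.smul_sum,
      smul_comm s]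
    rw [add_sub_assoc]
    congr 1
    have e2 : ∑ g : G, ∑ k : G, φ k (ξ (g⁻¹, t)) • u (s, g * k)
        = ∑ r : G, ∑ k : G, φ k (ξ (k * r⁻¹, t)) • u (s, r) := by
      rw [Finset.sum_comm]
      conv_rhs => rw [Finset.sum_comm]
      refine Finset.sum_congr rfl fun k _ =>
        Fintype.sum_equiv (Equiv.mulRight k) _ _ fun g => ?_
      simp
    rw [e2, ← Finset.sum_sub_distrib]
    simp_rw [← hM, sub_smul, Finset.sum_smul]
  have hshift : ∑ r : G, N (t⁻¹ * r) • u (s, r) = ∑ r : G, N r • u (s, t * r) :=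
    (Fintype.sum_equiv (Equiv.mulLeft t) _ _ fun r => by simp).symm
  have hsecond : ∑ r : G, (N r - N (t⁻¹ * r)) • u (s, r) + (∑ r : G, N r) • u (s, t)
      = s • ∑ r : G, N r • u (t, r) - ∑ r : G, N r • u (s * t, r) + ∑ r : G, N r • u (s, r) := by
    simp_rw [Finset.smul_sum, smul_comm s, eq_sub_of_add_eq (mem_Z2.1 hu s t _), smul_sub, smul_add,
      sub_smul, Finset.sum_sub_distrib, Finset.sum_add_distrib, hshift, Finset.sum_smul]
    abel
  simp only [Pi.sub_apply, Pi.smul_apply]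
  rw [hexp, hfirst, sub_eq_add_neg _ (pairing (sumSnd ξ) φ • u (s, t)), ← neg_smul, ← hN,
    smul_add, eq_sub_of_add_eq hsecond]
  abel

/-- The boundary of a two-chain. -/
noncomputable def bd (ω : Module.Dual ℤ X) (g k : G) : G → Module.Dual ℤ X :=
  open Classical in
  Pi.single k (ω.comp (act g)) - Pi.single (g * k) ω + Pi.single g ω

theorem bd_apply [DecidableEq G] (ω : Module.Dual ℤ X) (g k j : G) (x : X) :
    bd ω g k j x = (if j = k then ω (g • x) else 0) - (if j = g * k then ω x else 0)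
      + (if j = g then ω x else 0) := by
  simp only [bd, Pi.add_apply, Pi.sub_apply, Pi.single_apply, LinearMap.add_apply,
    LinearMap.sub_apply]
  split_ifs <;> rfl

theorem pairing_bd (b : G → X) (ω : Module.Dual ℤ X) (g k : G) :
    pairing b (bd ω g k) = ω (g • b k - b (g * k) + b g) := by
  classical
  simp only [pairing_apply, bd_apply, Finset.sum_add_distrib, Finset.sum_sub_distrib,
    Finset.sum_ite_eq', Finset.mem_univ, if_true, map_add, map_sub]

theorem bdry_bd (ω : Module.Dual ℤ X) (g k : G) : bd ω g k ∈ LinearMap.ker bdry := by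
  refine cycle_iff.2 fun x => ?_
  rw [← pairing_apply (fun k => k • x), ← pairing_apply (fun _ => x), pairing_bd, pairing_bd]
  simp [mul_smul]

/-- The boundaries. -/
noncomputable def bdSpan (G X : Type*) [Group G] [Fintype G] [AddCommGroup X]
    [DistribMulAction G X] : Submodule ℤ (G → Module.Dual ℤ X) :=
  Submodule.span ℤ (Set.range fun z : Module.Dual ℤ X × G × G => bd z.1 z.2.1 z.2.2)

theorem bdSpan_le_ker : bdSpan G X ≤ LinearMap.ker bdry :=
  Submodule.span_le.2 (by rintro _ ⟨z, rfl⟩; exact bdry_bd _ _ _)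

theorem card_smul_mem_bdSpan {φ : G → Module.Dual ℤ X} (hφ : φ ∈ LinearMap.ker bdry) :
    Fintype.card G • φ ∈ bdSpan G X := by
  classical
  have key : Fintype.card G • φ
      = ∑ k : G, ∑ r : G, bd ((φ k).comp (act r⁻¹)) r k := by
    refine funext fun j => LinearMap.ext fun x => ?_
    rw [cycle_iff] at hφ
    have e1 : ∑ k : G, ∑ r : G, (if j = r * k then φ k (r⁻¹ • x) else 0)
        = ∑ k : G, φ k (k • j⁻¹ • x) := by
      refine Finset.sum_congr rfl fun k _ => ?_
      rw [Finset.sum_eq_single (j * k⁻¹)]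
      · simp [mul_smul]
      · intro r _ hr
        rw [if_neg]
        rintro rfl
        simp at hr
      · simp
    have e0 : ∀ k r : G, (φ k).comp (act r⁻¹) (r • x) = φ k x := fun k r => by simp [act_apply]
    simp [bd, Finset.sum_sub_distrib, Finset.sum_add_distrib, Pi.single_apply, ite_apply,
      apply_ite, Finset.sum_apply, LinearMap.sum_apply, act_apply, e1, hφ (j⁻¹ • x)]
  rw [key]
  exact Submodule.sum_mem _ fun k _ => Submodule.sum_mem _ fun r _ =>
    Submodule.subset_span ⟨(_, r, k), rfl⟩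

theorem capMap_eq_norm {u : G × G → A} (hu : u ∈ Z2 G A) {φ : G → Module.Dual ℤ X}
    (hφ : φ ∈ bdSpan G X) :
    ∃ f : X →+ A, ∀ x, capMap u φ x = ∑ g : G, g • f (g⁻¹ • x) := by
  classical
  induction hφ using Submodule.span_induction with
  | mem y hy =>
    obtain ⟨⟨ω, g, k⟩, rfl⟩ := hy
    refine ⟨(zmultiplesHom A (u (g, k))).comp ω.toAddMonoidHom, fun x => ?_⟩
    have e : ∀ r : G, ∑ j : G, bd ω g k j (r⁻¹ • x) • u (r, j)
        = ω (g • r⁻¹ • x) • u (r, k) - ω (r⁻¹ • x) • u (r, g * k) + ω (r⁻¹ • x) • u (r, g) := by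
      intro r
      simp only [bd_apply, sub_smul, add_smul, ite_smul, zero_smul, Finset.sum_sub_distrib,
        Finset.sum_add_distrib, Finset.sum_ite_eq', Finset.mem_univ, if_true]
    have e1 : ∑ r : G, ω (g • r⁻¹ • x) • u (r, k) = ∑ r : G, ω (r⁻¹ • x) • u (r * g, k) :=
      (Fintype.sum_equiv (Equiv.mulRight g) _ _ fun r => by simp [mul_smul]).symm
    rw [capMap_apply]
    simp_rw [e, Finset.sum_add_distrib, Finset.sum_sub_distrib, e1]
    rw [← Finset.sum_sub_distrib, ← Finset.sum_add_distrib]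
    refine Finset.sum_congr rfl fun r _ => ?_
    simp only [AddMonoidHom.comp_apply, LinearMap.toAddMonoidHom_coe, zmultiplesHom_apply]
    rw [smul_comm r, ← smul_sub, ← smul_add]
    congr 1
    rw [eq_sub_of_add_eq (mem_Z2.1 hu r g k)]
    abel
  | zero => exact ⟨0, fun x => by simp [capMap_apply]⟩
  | add a b _ _ ha hb =>
    obtain ⟨f, hf⟩ := ha; obtain ⟨f', hf'⟩ := hb
    refine ⟨f + f', fun x => ?_⟩
    simp only [AddMonoidHom.add_apply, smul_add, Finset.sum_add_distrib, ← hf, ← hf', capMap_apply,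
      Pi.add_apply, LinearMap.add_apply, add_smul]
  | smul c a _ ha =>
    obtain ⟨f, hf⟩ := ha
    refine ⟨c • f, fun x => ?_⟩
    simp only [AddMonoidHom.smul_apply, smul_comm _ c, ← Finset.smul_sum, ← hf, capMap_apply,
      Pi.smul_apply, LinearMap.smul_apply, smul_eq_mul, mul_smul]

section duality
variable [Module.Free ℤ X] [Module.Finite ℤ X]

theorem exists_pairing_eq (L : (G → Module.Dual ℤ X) →ₗ[ℤ] ℤ) :
    ∃ b : G → X, pairing b = L := by
  classical
  refine ⟨fun k => (Module.evalEquiv ℤ X).symm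
    (L.comp (LinearMap.single ℤ (fun _ => Module.Dual ℤ X) k)), ?_⟩
  refine LinearMap.pi_ext fun k ω => ?_
  simp [pairing_apply, Pi.single_apply, apply_ite, Module.apply_evalEquiv_symm_apply]

theorem exists_card_smul_eq {b : G → X} {n : ℕ}
    (h : ∀ φ ∈ LinearMap.ker (bdry (G := G) (X := X)), (n : ℤ) ∣ pairing b φ) :
    ∃ c : G → X, ∀ s t,
      s • b t - b (s * t) + b s = n • (s • c t - c (s * t) + c s) := by
  obtain ⟨sec, hsec⟩ := Module.projective_lifting_property
    (bdry (G := G) (X := X)).rangeRestrict LinearMap.id (LinearMap.surjective_rangeRestrict _)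
  let π : (G → Module.Dual ℤ X) →ₗ[ℤ] (G → Module.Dual ℤ X) :=
    LinearMap.id - sec.comp bdry.rangeRestrict
  have hπ : ∀ v, π v ∈ LinearMap.ker bdry := fun v => by
    have := congrArg Subtype.val (LinearMap.congr_fun hsec (bdry.rangeRestrict v))
    simp only [LinearMap.comp_apply, LinearMap.id_apply, LinearMap.rangeRestrict,
      LinearMap.codRestrict_apply] at this
    simp [π, LinearMap.mem_ker, map_sub, this, LinearMap.rangeRestrict]
  have hπ' : ∀ v ∈ LinearMap.ker bdry, π v = v := fun v hv => by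
    have : bdry.rangeRestrict v = 0 := Subtype.ext hv
    simp [π, this]
  choose w hw using fun v => h (π v) (hπ v)
  rcases Nat.eq_zero_or_pos n with hn | hn
  · refine ⟨0, fun s t => ?_⟩
    rw [hn, zero_smul, ← Module.forall_dual_apply_eq_zero_iff ℤ]
    intro ω
    have := h _ (bdry_bd ω s t)
    rw [hn, Nat.cast_zero, zero_dvd_iff, pairing_bd] at this
    exact this
  have hn' : (n : ℤ) ≠ 0 := by exact_mod_cast hn.ne'
  let L : (G → Module.Dual ℤ X) →ₗ[ℤ] ℤ :=
    (AddMonoidHom.mk' w fun u v => mul_left_cancel₀ hn' (by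
      rw [mul_add, ← hw, ← hw, ← hw, map_add, map_add])).toIntLinearMap
  obtain ⟨c, hc⟩ := exists_pairing_eq L
  refine ⟨c, fun s t => ?_⟩
  rw [← sub_eq_zero, ← Module.forall_dual_apply_eq_zero_iff ℤ]
  intro ω
  rw [map_sub, ← pairing_bd b ω s t, map_nsmul, ← pairing_bd c ω s t, hc, sub_eq_zero, nsmul_eq_mul]
  show _ = (n : ℤ) * w _
  rw [← hw, hπ' _ (bdry_bd ω s t)]

theorem mem_of_pairing {D : Submodule ℤ (G → Module.Dual ℤ X)} (hBd : bdSpan G X ≤ D)
    (hD : D ≤ LinearMap.ker bdry) {φ : G → Module.Dual ℤ X} (hφ : φ ∈ LinearMap.ker bdry)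
    (h : ∀ ξ ∈ Z2 G X, (∀ ψ ∈ D, (Fintype.card G : ℤ) ∣ pairing (sumSnd ξ) ψ) →
      (Fintype.card G : ℤ) ∣ pairing (sumSnd ξ) φ) : φ ∈ D := by
  classical
  set n := Fintype.card G
  have hn : (n : ℤ) ≠ 0 := by exact_mod_cast Fintype.card_ne_zero
  let bC := Module.Free.chooseBasis ℤ (G → Module.Dual ℤ X)
  obtain ⟨r, snf⟩ := Submodule.smithNormalForm bC D
  have ha : ∀ i, snf.a i ≠ 0 := fun i h0 => by
    have := snf.snf i
    rw [h0, zero_smul] at this
    exact snf.bN.ne_zero i (Subtype.ext this)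
  have coord : ∀ v ∈ D, ∃ c : Fin r → ℤ,
      v = ∑ i, (c i * snf.a i) • snf.bM (snf.f i) := fun v hv => by
    refine ⟨fun i => snf.bN.repr ⟨v, hv⟩ i, ?_⟩
    have := congrArg Subtype.val (snf.bN.sum_repr ⟨v, hv⟩).symm
    simp only [Submodule.coe_sum, Submodule.coe_smul, snf.snf, ← mul_smul] at this
    exact this
  have hrepr : ∀ c : Fin r → ℤ, ∀ j, snf.bM.repr (∑ i, c i • snf.bM (snf.f i)) j
      = ∑ i, if snf.f i = j then c i else 0 := fun c j => by
    simp [Finsupp.single_apply]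
  have hreprf : ∀ c : Fin r → ℤ, ∀ j, snf.bM.repr (∑ i, c i • snf.bM (snf.f i)) (snf.f j) = c j :=
    fun c j => by
      rw [hrepr, Finset.sum_eq_single j]
      · rw [if_pos rfl]
      · intro i _ hne
        rw [if_neg fun h => hne (snf.f.injective h)]
      · simp
  obtain ⟨cφ, hcφ⟩ := coord _ (hBd (card_smul_mem_bdSpan hφ))
  have hfactor : ∀ i, snf.a i ∣ (n : ℤ) := fun i => by
    have hker : snf.bM (snf.f i) ∈ LinearMap.ker bdry := by
      have hb : snf.a i • bdry (snf.bM (snf.f i)) = 0 := by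
        rw [← map_smul, ← snf.snf i]
        exact hD (snf.bN i).2
      exact (smul_eq_zero.1 hb).resolve_left (ha i)
    obtain ⟨c, hc⟩ := coord _ (hBd (card_smul_mem_bdSpan hker))
    have := congrArg (fun v => snf.bM.repr v (snf.f i)) hc
    simp only [map_nsmul, Finsupp.smul_apply, Module.Basis.repr_self, Finsupp.single_eq_same,
      nsmul_one, hreprf] at this
    exact ⟨c i, by rw [mul_comm, ← this]⟩
  let v := fun j => snf.bM.repr φ j
  have hv : ∀ i, snf.a i ∣ v (snf.f i) := fun i => by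
    obtain ⟨d, hd⟩ := hfactor i
    let L : (G → Module.Dual ℤ X) →ₗ[ℤ] ℤ := d • snf.bM.coord (snf.f i)
    obtain ⟨c, hc⟩ := exists_pairing_eq L
    have hdiv : ∀ (ω : Module.Dual ℤ X) (s t : G),
        (n : ℤ) ∣ ω (s • c t - c (s * t) + c s) := fun ω s t => by
      rw [← pairing_bd, hc]
      obtain ⟨e, he⟩ := coord _ (hBd (Submodule.subset_span
        (s := Set.range fun z : Module.Dual ℤ X × G × G => bd z.1 z.2.1 z.2.2) ⟨(ω, s, t), rfl⟩))
      refine ⟨e i, ?_⟩
      beta_reduce at he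
      rw [he, hd]
      simp only [L, LinearMap.smul_apply, Module.Basis.coord_apply, hreprf, smul_eq_mul]
      ring
    let bX := Module.Free.chooseBasis ℤ X
    have hdivX : ∀ x : X, (∀ ω : Module.Dual ℤ X, (n : ℤ) ∣ ω x) → ∃ y, x = (n : ℤ) • y := by
      intro x hx
      choose q hq using fun j => hx (bX.coord j)
      refine ⟨∑ j, q j • bX j, ?_⟩
      rw [Finset.smul_sum]
      conv_lhs => rw [← bX.sum_repr x]
      refine Finset.sum_congr rfl fun j _ => ?_
      rw [← mul_smul, ← hq j]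
      rfl
    choose ξ hξ using fun z : G × G => hdivX (z.1 • c z.2 - c (z.1 * z.2) + c z.1)
      fun ω => hdiv ω z.1 z.2
    have inj : ∀ x y : X, (n : ℤ) • x = (n : ℤ) • y → x = y := fun x y h' =>
      (smul_right_injective X hn) h'
    have hξZ : ξ ∈ Z2 G X := mem_Z2.2 fun a b e => inj _ _ (by
      rw [smul_add, smul_add, smul_comm (n : ℤ) a, ← hξ, ← hξ, ← hξ, ← hξ]
      simp only [smul_add, smul_sub, mul_smul, mul_assoc]
      abel)
    have hsum : ∀ ψ ∈ LinearMap.ker (bdry (G := G) (X := X)),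
        pairing (sumSnd ξ) ψ = L ψ := fun ψ hψ => by
      refine mul_left_cancel₀ hn ?_
      have hS : ∀ k, (n : ℤ) • sumSnd ξ k = (k • ∑ r, c r) - ∑ r, c r + (n : ℤ) • c k := fun k => by
        rw [sumSnd, Finset.smul_sum]
        simp_rw [← hξ]
        rw [Finset.sum_add_distrib, Finset.sum_sub_distrib, Finset.smul_sum, Finset.sum_const,
          Finset.card_univ, natCast_zsmul]
        congr 2
        exact Fintype.sum_equiv (Equiv.mulLeft k) _ _ fun _ => rfl
      rw [← hc, pairing_apply, pairing_apply, Finset.mul_sum, Finset.mul_sum]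
      simp_rw [← smul_eq_mul, ← map_smul, hS, map_add, map_sub, Finset.sum_add_distrib,
        Finset.sum_sub_distrib, cycle_iff.1 hψ (∑ r, c r), sub_self, zero_add]
    obtain ⟨w, hw⟩ := h ξ hξZ fun ψ hψ => by
      rw [hsum ψ (hD hψ)]
      obtain ⟨e, he⟩ := coord ψ hψ
      refine ⟨e i, ?_⟩
      rw [he, hd]
      simp only [L, LinearMap.smul_apply, Module.Basis.coord_apply, hreprf, smul_eq_mul]
      ring
    refine ⟨w, ?_⟩
    rw [hsum φ hφ, hd] at hw
    simp only [L, LinearMap.smul_apply, Module.Basis.coord_apply, smul_eq_mul] at hw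
    have hd0 : d ≠ 0 := fun h0 => hn (by rw [hd, h0, mul_zero])
    exact mul_left_cancel₀ hd0 (by rw [hw]; ring)
  choose w hw using hv
  have hφeq : φ = ∑ i, w i • (snf.bN i : G → Module.Dual ℤ X) := by
    refine snf.bM.repr.injective (Finsupp.ext fun j => ?_)
    simp only [snf.snf, ← mul_smul]
    by_cases hj : j ∈ Set.range snf.f
    · obtain ⟨i, rfl⟩ := hj
      rw [hreprf, mul_comm, ← hw i]
    · have h0 := congrArg (fun v => snf.bM.repr v j) hcφ
      simp only [map_nsmul, Finsupp.smul_apply, hrepr] at h0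
      rw [hrepr, Finset.sum_eq_zero fun i _ => if_neg fun h' => hj ⟨i, h'⟩]
      rw [Finset.sum_eq_zero fun i _ => if_neg fun h' => hj ⟨i, h'⟩] at h0
      exact (smul_eq_zero.1 h0).resolve_left Fintype.card_ne_zero
  rw [hφeq]
  exact Submodule.sum_mem _ fun i _ => Submodule.smul_mem _ _ (snf.bN i).2

end duality

end FermatLib.CFT.TN
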