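import Fermat.Agent.CFT.TNSplit
import Fermat.Agent.CFT.TNPairing
import Fermat.Agent.CFT.TNNorm
import Fermat.Agent.CFT.CohTransfer

/-!
Tate-Nakayama duality, part 6: restriction of fundamental classes and reciprocity for `p`-groups.
-/

set_option autoImplicit false

namespace FermatLib.CFT.TN

open FermatLib.CFT

variable {p : ℕ} {G : Type*} [Group G] [Fintype G] {A : Type*} [AddCommGroup A]
  [DistribMulAction G A]

theorem norm_comp_mem_B2 {X : Type*} [AddCommGroup X] [DistribMulAction G X] (f : X →+ A)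
    {ξ : G × G → X} (hξ : ξ ∈ Z2 G X) :
    (fun z => ∑ g : G, g • f (g⁻¹ • ξ z)) ∈ B2 G A := by
  refine mem_B2.2 ⟨fun s => ∑ g : G, g • f (g⁻¹ • ξ (s, s⁻¹ * g)), fun s t => ?_⟩
  have first : s • ∑ g : G, g • f (g⁻¹ • ξ (t, t⁻¹ * g))
      = ∑ g : G, g • f (g⁻¹ • s • ξ (t, t⁻¹ * (s⁻¹ * g))) := by
    rw [Finset.smul_sum]
    refine Fintype.sum_equiv (Equiv.mulLeft s) _ _ fun g => ?_
    simp [mul_smul]
  rw [first, ← Finset.sum_sub_distrib, ← Finset.sum_add_distrib]
  refine Finset.sum_congr rfl fun g _ => ?_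
  rw [← smul_sub, ← map_sub, ← smul_sub, ← smul_add, ← map_add, ← smul_add]
  congr 3
  have h' := mem_Z2.1 hξ s t (t⁻¹ * (s⁻¹ * g))
  rw [mul_inv_cancel_left] at h'
  rw [mul_inv_rev, mul_assoc, eq_sub_of_add_eq h']
  abel

theorem IsFund.dvd_of_smul_mem {u : Z2 G A} (hu : IsFund p u) (H : Subgroup G) (hH : IsPGroup p H)
    {m : ℤ} (hm : m • (u : G × G → A) ∈ B2 G A) : (Nat.card H : ℤ) ∣ m := by
  refine (hu.smul_mem_iff H hH m).1 ?_
  rw [← map_zsmul]
  exact cochainMap2_mem_B2 (isCompat_subtype H) hm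

/-- The restriction of a two-cocycle. -/
def resCocycle (H : Subgroup G) (u : Z2 G A) : Z2 H A :=
  ⟨cochainMap2 H.subtype (AddMonoidHom.id A) (u : G × G → A), res_mem_Z2 H u.2⟩

theorem IsFund.restrict {u : Z2 G A} (hu : IsFund p u) (H : Subgroup G) [Fintype H] :
    IsFund p (resCocycle H u) := by
  have hc : ∀ K : Subgroup H, IsCompat
      ((K.equivMapOfInjective H.subtype Subtype.val_injective : K ≃* K.map H.subtype) :
        K →* K.map H.subtype) ((AddEquiv.refl A : A ≃+ A) : A →+ A) := fun _ _ _ => rfl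
  have hp : ∀ K : Subgroup H, IsPGroup p K → IsPGroup p (K.map H.subtype) :=
    fun K hK => hK.map _
  refine ⟨fun K hK => (hu.h1 _ (hp K hK)).of_equiv (hc K), fun K hK m => ?_, fun K hK f hf => ?_⟩
  · rw [Nat.card_congr (K.equivMapOfInjective H.subtype Subtype.val_injective).toEquiv,
      ← hu.smul_mem_iff _ (hp K hK) m, ← cochainMap2_mem_B2_iff (hc K), map_zsmul]
    rfl
  · obtain ⟨m, hm⟩ := hu.gen _ (hp K hK) _ (cochainMap2_mem_Z2 (hc K).symm hf)
    refine ⟨m, ?_⟩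
    convert cochainMap2_mem_B2 (hc K) hm using 1
    funext ⟨s, t⟩
    simp [cochainMap2_apply, resCocycle]

end FermatLib.CFT.TN
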