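import Fermat.Agent.CFT.TNVanish
import Fermat.Agent.CFT.TNRecip
import Fermat.Agent.CFT.Coh

/-!
Tate-Nakayama duality for lattices over a `p`-class formation, and reciprocity for `p`-groups.
Proofs: `Fermat/Agent/CFT/TN*.lean`.
-/

set_option autoImplicit false

namespace FermatLib.CFT

section
variable {p : ℕ} [Fact p.Prime] {G : Type*} [Group G] [Finite G]
  {A : Type*} [AddCommGroup A] [DistribMulAction G A]
  {X : Type*} [AddCommGroup X] [Module.Free ℤ X] [Module.Finite ℤ X] [DistribMulAction G X]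

omit [Module.Free ℤ X] [Module.Finite ℤ X] in
theorem TN.dvd_pairing [Fintype G] {u : Z2 G A} (hu : TN.IsFund p u) (P : Sylow p G)
    {φ : G → Module.Dual ℤ X} (hφ : φ ∈ LinearMap.ker TN.bdry) {ξ : G × G → X} (hξ : ξ ∈ Z2 G X)
    {m : ℕ} (hm : ¬ p ∣ m)
    (hB : (fun t => m • TN.capMap (u : G × G → A) φ (ξ t)) ∈ B2 G A) :
    (Fintype.card G : ℤ) ∣ ((P : Subgroup G).index : ℤ) * TN.pairing (TN.sumSnd ξ) φ := by
  set L := TN.pairing (TN.sumSnd ξ) φ
  have h : ((m : ℤ) * L) • (u : G × G → A) ∈ B2 G A := by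
    have := sub_mem hB (AddSubgroup.zsmul_mem _ (TN.capMap_comp_sub_mem_B2 u.2 hφ hξ) (m : ℤ))
    convert this using 1
    funext t
    simp [mul_smul, smul_sub, natCast_zsmul, L]
  have hd := hu.dvd_of_smul_mem (P : Subgroup G) P.isPGroup' h
  obtain ⟨k, hk⟩ := IsPGroup.iff_card.1 P.isPGroup'
  have hcop : IsCoprime (Nat.card (P : Subgroup G) : ℤ) (m : ℤ) := by
    rw [Int.isCoprime_iff_gcd_eq_one, Int.gcd_natCast_natCast, hk]
    exact ((Fact.out : p.Prime).coprime_iff_not_dvd.2 hm).pow_left k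
  rw [← Nat.card_eq_fintype_card, ← (P : Subgroup G).index_mul_card, Nat.cast_mul]
  exact mul_dvd_mul_left _ (hcop.dvd_of_dvd_mul_left hd)

omit [Fact p.Prime] [Module.Free ℤ X] [Module.Finite ℤ X] in
/-- An equivariant map that is a norm for a subgroup is, times the index, a norm. -/
theorem TN.index_smul_eq_norm [Fintype G] {M : Type*} [AddCommGroup M] [DistribMulAction G M]
    (H : Subgroup G) [Fintype H] (h : X →+ M) (hequiv : ∀ (g : G) (x : X), h (g • x) = g • h x)
    (F : X →+ M) (hF : ∀ x, h x = ∑ k : H, k • F (k⁻¹ • x)) (x : X) :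
    H.index • h x = ∑ g : G, g • F (g⁻¹ • x) := by
  classical
  let ψ : (G ⧸ H) × H → G := fun z => z.1.out * z.2
  have hψ : Function.Bijective ψ := by
    refine (Fintype.bijective_iff_injective_and_card ψ).2 ⟨fun a b hab => ?_, ?_⟩
    · have hmk : ∀ z : (G ⧸ H) × H, ((ψ z : G) : G ⧸ H) = z.1 := fun z => by
        show ((z.1.out * (z.2 : G) : G) : G ⧸ H) = z.1
        rw [QuotientGroup.mk_mul_of_mem _ z.2.2, QuotientGroup.out_eq']
      have h1 : a.1 = b.1 := by rw [← hmk a, ← hmk b, hab]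
      refine Prod.ext h1 (Subtype.ext (mul_left_cancel (a := a.1.out) ?_))
      simpa [ψ, h1] using hab
    · rw [← Nat.card_eq_fintype_card, Nat.card_prod, ← Nat.card_eq_fintype_card,
        ← Subgroup.index_eq_card, H.index_mul_card]
  rw [← Fintype.sum_bijective ψ hψ (fun z => ψ z • F ((ψ z)⁻¹ • x)) _ (fun _ => rfl),
    Fintype.sum_prod_type]
  have key : ∀ c : G ⧸ H, ∑ k : H, ψ (c, k) • F ((ψ (c, k))⁻¹ • x) = h x := fun c => by
    calc ∑ k : H, ψ (c, k) • F ((ψ (c, k))⁻¹ • x)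
        = c.out • ∑ k : H, k • F (k⁻¹ • c.out⁻¹ • x) := by
          rw [Finset.smul_sum]
          refine Finset.sum_congr rfl fun k _ => ?_
          simp [ψ, Subgroup.smul_def, mul_smul, mul_inv_rev]
      _ = h x := by rw [← hF, ← hequiv, smul_inv_smul]
  simp_rw [key]
  rw [Finset.sum_const, Finset.card_univ, Subgroup.index_eq_card, Nat.card_eq_fintype_card]

/-- An invariant of the `p`-part of `H2` of a class formation. -/
theorem exists_invMap (hA : IsPClassFormation p G A) :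
    ∃ (n : ℕ) (inv : (Z2 G A) →+ ZMod (p ^ n)), Function.Surjective inv ∧
      ∀ f : Z2 G A, inv f = 0 ↔ ∃ m : ℕ, ¬ p ∣ m ∧ m • (f : G × G → A) ∈ B2 G A := by
  classical
  have := Fintype.ofFinite G
  obtain ⟨u, hu⟩ := TN.exists_isFund hA
  let P : Sylow p G := default
  obtain ⟨k, hk⟩ := IsPGroup.iff_card.1 P.isPGroup'
  let res : Z2 G A →+ H2' (P : Subgroup G) A :=
    (QuotientAddGroup.mk' _).comp (AddMonoidHom.mk'
      (fun f => TN.resCocycle (P : Subgroup G) f) fun _ _ => Subtype.ext (map_add _ _ _))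
  have hres : ∀ f, res f = 0 ↔
      cochainMap2 (P : Subgroup G).subtype (AddMonoidHom.id A) (f : G × G → A)
        ∈ B2 (P : Subgroup G) A := fun f => QuotientAddGroup.eq_zero_iff _
  have hgen : ∀ y, ∃ m : ℤ, res (m • u) = y := fun y => by
    induction y using QuotientAddGroup.induction_on with
    | H f =>
      obtain ⟨m, hm⟩ := hu.gen _ P.isPGroup' f f.2
      refine ⟨m, ?_⟩
      rw [map_zsmul, eq_comm]
      show _ = m • ((TN.resCocycle (P : Subgroup G) u : Z2 (P : Subgroup G) A) :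
        H2' (P : Subgroup G) A)
      rw [← QuotientAddGroup.mk_zsmul, QuotientAddGroup.eq_iff_sub_mem]
      exact hm
  haveI : IsAddCyclic (H2' (P : Subgroup G) A) := ⟨res u, fun y => by
    obtain ⟨m, hm⟩ := hgen y
    exact ⟨m, by rw [← hm, map_zsmul]⟩⟩
  have hcard : Nat.card (H2' (P : Subgroup G) A) = p ^ k := by rw [hA.card_h2 _ P.isPGroup', hk]
  let e : H2' (P : Subgroup G) A ≃+ ZMod (p ^ k) :=
    ((zmodAddCyclicAddEquiv inferInstance).symm).trans (ZMod.ringEquivCongr hcard).toAddEquiv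
  refine ⟨k, e.toAddMonoidHom.comp res, fun z => ?_, fun f => ?_⟩
  · obtain ⟨m, hm⟩ := hgen (e.symm z)
    exact ⟨m • u, (congrArg e hm).trans (e.apply_symm_apply z)⟩
  rw [AddMonoidHom.comp_apply, AddEquiv.coe_toAddMonoidHom, map_eq_zero_iff e e.injective]
  constructor
  · intro h
    exact ⟨_, P.not_dvd_index, index_smul_mem_B2 _ f.2 ((hres f).1 h)⟩
  · rintro ⟨m, hm, hB⟩
    have h1 : m • res f = 0 := by
      rw [← map_nsmul, hres, AddSubgroupClass.coe_nsmul]
      exact cochainMap2_mem_B2 (isCompat_subtype _) hB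
    have h2 : p ^ k • res f = 0 := by
      rw [← hcard]
      exact card_nsmul_eq_zero'
    have hcop : Nat.gcd m (p ^ k) = 1 :=
      (((Fact.out : p.Prime).coprime_iff_not_dvd.2 hm).pow_left k).symm
    exact AddMonoid.addOrderOf_eq_one_iff.1 (Nat.eq_one_of_dvd_one (hcop ▸
      Nat.dvd_gcd (addOrderOf_dvd_of_nsmul_eq_zero h1) (addOrderOf_dvd_of_nsmul_eq_zero h2)))

omit [Module.Finite ℤ X] in
/-- Decomposition of an equivariant map as a norm and a cap product, up to the Sylow index. -/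
theorem TN.exists_norm_add_capMap [Fintype G] {u : Z2 G A} (hu : TN.IsFund p u) (P : Sylow p G)
    (h : X →+ A) (hequiv : ∀ (g : G) (x : X), h (g • x) = g • h x) :
    ∃ φ ∈ LinearMap.ker (TN.bdry (G := G) (X := X)), ∃ f : X →+ A, ∀ x,
      (P : Subgroup G).index • h x
        = (∑ g : G, g • f (g⁻¹ • x)) + TN.capMap (u : G × G → A) φ x := by
  classical
  set q := (P : Subgroup G).index
  haveI : Fintype (P : Subgroup G) := Fintype.ofFinite _
  have h1 := TN.SplitMod.h1Trivial (u := u) hu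
  have h2 := TN.SplitMod.h2Trivial (u := u) hu
  let ι : A →+ TN.SplitMod u := TN.SplitMod.incl
  have hι : ∀ (g : G) (x : X), ι.comp h (g • x) = g • ι.comp h x := fun g x => by
    simp only [AddMonoidHom.comp_apply, hequiv, ι, TN.SplitMod.incl_smul]
  obtain ⟨F, hF⟩ := TN.exists_norm_of_equivariant P.isPGroup' (h1 _ P.isPGroup')
    (TN.exists_norm_of_fixed h1 h2 _ P.isPGroup') (ι.comp h) (fun g x => hι g x)
  have hFG := TN.index_smul_eq_norm (P : Subgroup G) (ι.comp h) hι F hF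
  let φ : G → Module.Dual ℤ X :=
    fun k => ((TN.Coind.ev k).comp ((TN.SplitMod.xcomp (u := u)).comp F)).toIntLinearMap
  have hφ_apply : ∀ k x, φ k x = TN.Coind.ev k (TN.SplitMod.xcomp (F x)) := fun _ _ => rfl
  have hφ : φ ∈ LinearMap.ker TN.bdry := TN.cycle_iff.2 fun x => by
    have hx := congrArg (fun c => TN.Coind.ev (1 : G) (TN.SplitMod.xcomp c)) (hFG x)
    simp only [AddMonoidHom.comp_apply, ι, map_nsmul, map_sum, TN.SplitMod.xcomp_incl, map_zero,
      smul_zero, TN.SplitMod.xcomp_smul, TN.Coind.ev_smul, mul_one] at hx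
    have h0 : ∑ k : G, φ k x = 0 := by
      simp only [hφ_apply, ← TN.tot_apply, TN.SplitMod.tot_xcomp]
    rw [h0]
    refine (Fintype.sum_equiv (Equiv.inv G) _ _ fun k => ?_).trans hx.symm
    simp [hφ_apply]
  let f : X →+ A := TN.SplitMod.acomp.comp F
  have hdec : ∀ x, q • h x
      = (∑ g : G, g • f (g⁻¹ • x)) + TN.capMap (u : G × G → A) φ x := fun x => by
    have := congrArg (TN.SplitMod.acomp (u := u)) (hFG x)
    simp only [AddMonoidHom.comp_apply, ι, map_nsmul, map_sum, TN.SplitMod.acomp_incl,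
      TN.SplitMod.acomp_smul, Finset.sum_add_distrib, TN.wt_apply] at this
    rw [this, TN.capMap_apply]
    rfl
  exact ⟨φ, hφ, f, hdec⟩

/-- A class pairing to zero with all equivariant maps is, up to prime-to-`p`, zero. -/
theorem tateNakayama_right (hA : IsPClassFormation p G A) {ξ : G × G → X} (hξ : ξ ∈ Z2 G X)
    (hzero : ∀ h : X →+ A, (∀ (g : G) (x : X), h (g • x) = g • h x) →
      ∃ m : ℕ, ¬ p ∣ m ∧ (fun t => m • h (ξ t)) ∈ B2 G A) :
    ∃ m : ℕ, ¬ p ∣ m ∧ m • ξ ∈ B2 G X := by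
  classical
  have := Fintype.ofFinite G
  obtain ⟨u, hu⟩ := TN.exists_isFund hA
  let P : Sylow p G := default
  set q := (P : Subgroup G).index
  set n := Fintype.card G
  have hdvd : ∀ φ ∈ LinearMap.ker (TN.bdry (G := G) (X := X)),
      (n : ℤ) ∣ TN.pairing (q • TN.sumSnd ξ) φ := fun φ hφ => by
    obtain ⟨m, hm, hB⟩ := hzero _ (TN.capMap_smul u.2 hφ)
    have h := TN.dvd_pairing hu P hφ hξ hm hB
    convert h using 1
    simp only [TN.pairing_apply, Pi.smul_apply, map_nsmul, Finset.mul_sum, nsmul_eq_mul, q]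
  obtain ⟨c, hc⟩ := TN.exists_card_smul_eq hdvd
  refine ⟨q, P.not_dvd_index, TN.mem_B2.2 ⟨c, fun s t => ?_⟩⟩
  have hinj : Function.Injective fun x : X => (n : ℤ) • x :=
    smul_right_injective X (by exact_mod_cast Fintype.card_ne_zero)
  refine hinj ?_
  show (n : ℤ) • _ = (n : ℤ) • _
  rw [natCast_zsmul, natCast_zsmul, ← hc, Pi.smul_apply, Pi.smul_apply, Pi.smul_apply,
    Pi.smul_apply, smul_comm n q, smul_comm s q, ← smul_sub, ← smul_add, TN.d1_sumSnd hξ]

end

end FermatLib.CFT
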