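import Fermat.Agent.CFT.DualityPres
import Fermat.Agent.CFT.DualityOrth
import Fermat.Agent.CFT.TateNakayama

/-!
The duality between `Ext¹(V, C₀)` and `H1(G, V)` for a class formation `(G, C)` and a module `V`
of `G₀ = G / ker π` killed by `p`: the algebraic core.
-/

set_option autoImplicit false
set_option linter.style.haveILetI false

namespace FermatLib.CFT.Duality

/-- The invariant of a class formation on classes, as an additive map killing exactly the
prime-to-`p` torsion. -/
structure InvMap (p : ℕ) [Fact p.Prime] (G C : Type*) [Group G] [AddCommGroup C]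
    [DistribMulAction G C] where
  n : ℕ
  inv : Z2 G C →+ ZMod (p ^ n)
  surjective : Function.Surjective inv
  eq_zero_iff : ∀ f : Z2 G C, inv f = 0 ↔ ∃ m : ℕ, ¬ p ∣ m ∧ m • (f : G × G → C) ∈ B2 G C

instance {p : ℕ} [Fact p.Prime] {G C : Type*} [Group G] [AddCommGroup C]
    [DistribMulAction G C] (I : InvMap p G C) : NeZero (p ^ I.n) :=
  ⟨pow_ne_zero _ (Fact.out : p.Prime).ne_zero⟩

variable {p : ℕ} [Fact p.Prime] {G G₀ : Type*} [Group G] [Group G₀] (π : G →* G₀)
  {C : Type*} [AddCommGroup C] [DistribMulAction G C]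
  {C₀ : Type*} [AddCommGroup C₀] [DistribMulAction G₀ C₀]
  {ι : Type*} [Fintype ι] [Fintype G₀] {V : Type*} [AddCommGroup V] [DistribMulAction G₀ V]
  (v : ι → V) (j : C₀ →+ C) (hj : ∀ (g : G) (c : C₀), j (π g • c) = g • j c)

/-- An equivariant map into the base module, pushed to the top. -/
def push (h : equivHom G₀ (presKer (G := G₀) v) C₀) : Infl π (presKer (G := G₀) v) →+ C :=
  (j.comp (h : presKer (G := G₀) v →+ C₀)).comp (ofInfl π _).toAddMonoidHom

variable [Finite G] (hv : Function.Surjective (presMap (G := G₀) v))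

/-- A representative of the connecting map. -/
noncomputable def delta (c : Z1 G (Infl π V)) : Z2 G (Infl π (presKer (G := G₀) v)) :=
  ⟨((isSES_infl π v hv).exists_delta1 c.2).choose_spec.choose,
    ((isSES_infl π v hv).exists_delta1 c.2).choose_spec.choose_spec.2.1⟩

omit [Finite G] in
theorem exists_lift_delta (c : Z1 G (Infl π V)) :
    ∃ x : G → Infl π (Pres ι G₀), (∀ g, inflPresMap π v (x g) = c.1 g) ∧
      ∀ t, inflSubtype π v ((delta π v hv c).1 t) = d1 G (Infl π (Pres ι G₀)) x t :=
  ⟨_, ((isSES_infl π v hv).exists_delta1 c.2).choose_spec.choose_spec.1,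
    ((isSES_infl π v hv).exists_delta1 c.2).choose_spec.choose_spec.2.2⟩

end FermatLib.CFT.Duality
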