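import Fermat.Agent.CFT.Coh
import Mathlib

/-!
Classes up to prime-to-`p` torsion, and finiteness of `H2` of a lattice.
-/

set_option autoImplicit false

namespace FermatLib.CFT.Duality

variable {G : Type*} [Group G] {A : Type*} [AddCommGroup A] [DistribMulAction G A]

variable (G A) in
/-- The 2-cochains having a prime-to-`p` multiple among the coboundaries. -/
def satB2 (p : ℕ) [Fact p.Prime] : AddSubgroup (G × G → A) where
  carrier := {f | ∃ m : ℕ, ¬ p ∣ m ∧ m • f ∈ B2 G A}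
  zero_mem' := ⟨1, (Fact.out : p.Prime).not_dvd_one, by simp [zero_mem]⟩
  add_mem' := by
    rintro a b ⟨m, hm, ha⟩ ⟨k, hk, hb⟩
    refine ⟨m * k, (Fact.out : p.Prime).not_dvd_mul hm hk, ?_⟩
    rw [smul_add]
    refine add_mem ?_ ?_
    · rw [mul_comm, mul_smul]; exact nsmul_mem ha k
    · rw [mul_smul]; exact nsmul_mem hb m
  neg_mem' := by
    rintro a ⟨m, hm, ha⟩
    exact ⟨m, hm, by rw [smul_neg]; exact neg_mem ha⟩

variable {p : ℕ} [Fact p.Prime]

theorem B2_le_satB2 : B2 G A ≤ satB2 G A p := fun f hf =>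
  ⟨1, (Fact.out : p.Prime).not_dvd_one, by rwa [one_smul]⟩

/-- A class killed by a power of `p` and by a prime-to-`p` number is zero. -/
theorem mem_B2_of_satB2 {f : G × G → A} {k : ℕ} (hk : p ^ k • f ∈ B2 G A)
    (hf : f ∈ satB2 G A p) : f ∈ B2 G A := by
  obtain ⟨m, hm, hmf⟩ := hf
  have hc : IsCoprime ((p : ℤ) ^ k) (m : ℤ) :=
    (Nat.Coprime.isCoprime ((Fact.out : p.Prime).coprime_iff_not_dvd.mpr hm)).pow_left
  obtain ⟨a, b, hab⟩ := hc
  have e : f = a • (p ^ k • f) + b • (m • f) := by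
    rw [← natCast_zsmul f (p ^ k), ← natCast_zsmul f m, smul_smul, smul_smul, ← add_smul]
    push_cast
    rw [hab, one_smul]
  rw [e]
  exact add_mem (zsmul_mem hk a) (zsmul_mem hmf b)

theorem card_smul_mem_B2 [Finite G] {f : G × G → A} (hf : f ∈ Z2 G A) :
    Nat.card G • f ∈ B2 G A := by
  have h : cochainMap2 (⊥ : Subgroup G).subtype (AddMonoidHom.id A) f ∈
      B2 (⊥ : Subgroup G) A := by
    refine mem_B2_iff.2 ⟨fun _ => f (1, 1), fun x y => ?_⟩
    obtain ⟨x, hx⟩ := x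
    obtain ⟨y, hy⟩ := y
    obtain rfl := Subgroup.mem_bot.mp hx
    obtain rfl := Subgroup.mem_bot.mp hy
    show f (1, 1) = (1 : G) • f (1, 1) - f (1, 1) + f (1, 1)
    rw [one_smul]
    abel
  have := index_smul_mem_B2 (⊥ : Subgroup G) hf h
  rwa [Subgroup.index_bot] at this

end FermatLib.CFT.Duality
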