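import Fermat.Agent.CFT.DualityCore

/-!
Nondegeneracy of the duality pairing: trivial right kernel, and left kernel inside the maps
extending to the presentation plus the maps with values in `U`.
-/

set_option autoImplicit false
set_option linter.style.haveILetI false

namespace FermatLib.CFT.Duality

variable {p : ℕ} [Fact p.Prime] {G G₀ : Type*} [Group G] [Group G₀] (π : G →* G₀)
  {C : Type*} [AddCommGroup C] [DistribMulAction G C]
  {C₀ : Type*} [AddCommGroup C₀] [DistribMulAction G₀ C₀]
  {ι : Type*} [Fintype ι] [Fintype G₀] {V : Type*} [AddCommGroup V] [DistribMulAction G₀ V]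
  (v : ι → V) (j : C₀ →+ C) (hj : ∀ (g : G) (c : C₀), j (π g • c) = g • j c)

/-- The equivariant maps with values in `U`. -/
def valuesIn (U : AddSubgroup C₀) : AddSubgroup (equivHom G₀ (presKer (G := G₀) v) C₀) where
  carrier := {h | ∀ x, (h : presKer (G := G₀) v →+ C₀) x ∈ U}
  zero_mem' := fun _ => U.zero_mem
  add_mem' := fun ha hb x => U.add_mem (ha x) (hb x)
  neg_mem' := fun ha x => U.neg_mem (ha x)

end FermatLib.CFT.Duality
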