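import Fermat.Agent.CFT.DualityModule
import Fermat.Agent.CFT.PresDefs
import Fermat.Agent.CFT.CohConnect

/-!
Presentations inflated along a surjection of groups, and their connecting map.
-/

set_option autoImplicit false
set_option linter.style.haveILetI false

namespace FermatLib.CFT.Duality

/-- A module with the action pulled back along `π`. -/
def Infl {G G₀ : Type*} [Group G] [Group G₀] (_π : G →* G₀) (M : Type*) : Type _ := M

section infl
variable {G G₀ : Type*} [Group G] [Group G₀] (π : G →* G₀) (M : Type*) [AddCommGroup M]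

instance : AddCommGroup (Infl π M) := inferInstanceAs (AddCommGroup M)

instance inflAction [DistribMulAction G₀ M] : DistribMulAction G (Infl π M) :=
  DistribMulAction.compHom M π

/-- The identity as a map to the inflated module. -/
def toInfl : M ≃+ Infl π M := AddEquiv.refl M

/-- The identity as a map from the inflated module. -/
def ofInfl : Infl π M ≃+ M := AddEquiv.refl M

variable {π M}

theorem ofInfl_smul [DistribMulAction G₀ M] (g : G) (x : Infl π M) :
    ofInfl π M (g • x) = π g • ofInfl π M x := rfl

theorem toInfl_smul [DistribMulAction G₀ M] (g : G) (x : M) :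
    toInfl π M (π g • x) = g • toInfl π M x := rfl

end infl

section pres
variable {ι G₀ : Type*} [Group G₀]

instance instFinitePres [Finite ι] [Finite G₀] : Module.Finite ℤ (Pres ι G₀) :=
  inferInstanceAs (Module.Finite ℤ (ι → G₀ → ℤ))

instance instTorsionFreePres : IsAddTorsionFree (Pres ι G₀) :=
  inferInstanceAs (IsAddTorsionFree (ι → G₀ → ℤ))

variable [Fintype ι] [Fintype G₀] {V : Type*} [AddCommGroup V] [DistribMulAction G₀ V]
  {G : Type*} [Group G] (π : G →* G₀) (v : ι → V)

instance instFinitePresKer : Module.Finite ℤ (presKer (G := G₀) v) :=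
  haveI : IsNoetherian ℤ (Pres ι G₀) := isNoetherian_of_isNoetherianRing_of_finite ℤ _
  Module.Finite.of_injective (presKer (G := G₀) v).subtype.toIntLinearMap Subtype.val_injective

instance instTorsionFreePresKer : IsAddTorsionFree (presKer (G := G₀) v) :=
  Function.Injective.isAddTorsionFree (presKer (G := G₀) v).subtype Subtype.val_injective

instance instFiniteInflPres : Module.Finite ℤ (Infl π (Pres ι G₀)) :=
  inferInstanceAs (Module.Finite ℤ (Pres ι G₀))

instance instTorsionFreeInflPres : IsAddTorsionFree (Infl π (Pres ι G₀)) :=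
  inferInstanceAs (IsAddTorsionFree (Pres ι G₀))

instance instFiniteInflPresKer : Module.Finite ℤ (Infl π (presKer (G := G₀) v)) :=
  inferInstanceAs (Module.Finite ℤ (presKer (G := G₀) v))

instance instTorsionFreeInflPresKer : IsAddTorsionFree (Infl π (presKer (G := G₀) v)) :=
  inferInstanceAs (IsAddTorsionFree (presKer (G := G₀) v))

instance instFreeInflPres : Module.Free ℤ (Infl π (Pres ι G₀)) :=
  Module.free_of_finite_type_torsion_free'

instance instFreeInflPresKer : Module.Free ℤ (Infl π (presKer (G := G₀) v)) :=
  Module.free_of_finite_type_torsion_free'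

/-- The inclusion of the relation lattice. -/
def inflSubtype : Infl π (presKer (G := G₀) v) →+ Infl π (Pres ι G₀) :=
  (presKer (G := G₀) v).subtype

/-- The presentation map. -/
def inflPresMap : Infl π (Pres ι G₀) →+ Infl π V :=
  ((toInfl π V).toAddMonoidHom.comp (presMap (G := G₀) v)).comp
    (ofInfl π (Pres ι G₀)).toAddMonoidHom

theorem inflSubtype_smul (g : G) (x : Infl π (presKer (G := G₀) v)) :
    inflSubtype π v (g • x) = g • inflSubtype π v x := rfl

theorem inflPresMap_smul (g : G) (x : Infl π (Pres ι G₀)) :
    inflPresMap π v (g • x) = g • inflPresMap π v x := presMap_smul v (π g) x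

theorem isSES_infl (hv : Function.Surjective (presMap (G := G₀) v)) :
    IsSES G (inflSubtype π v) (inflPresMap π v) where
  inj := Subtype.val_injective
  surj := hv
  exact b := ⟨fun h => ⟨⟨b, h⟩, rfl⟩, by rintro ⟨a, rfl⟩; exact a.2⟩
  map_smul_left := inflSubtype_smul π v
  map_smul_right := inflPresMap_smul π v

end pres

section h1
variable {ι G₀ : Type*} [Group G₀] {G : Type*} [Group G] (π : G →* G₀)

/-- Cocycles of a subgroup with values in a permutation lattice are coboundaries. -/
theorem h1Trivial_pres [Finite G] [Finite ι] [Finite G₀] (D : Subgroup G) :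
    H1Trivial D (Infl π (Pres ι G₀)) := by
  intro f hf
  classical
  have hf' : ∀ (x y : D) (i : ι) (h : G₀),
      ofInfl π _ (f (x * y)) i h =
        ofInfl π _ (f y) i ((π (x : G))⁻¹ * h) + ofInfl π _ (f x) i h :=
    fun x y i h => congrFun (congrFun (mem_Z1_iff.mp hf x y) i) h
  have hker : ∀ s : D, π (s : G) = 1 → f s = 0 := by
    intro s hs
    funext i h
    have hsum : ∀ n : ℕ, ofInfl π _ (f (s ^ n)) i h = n * ofInfl π _ (f s) i h := by
      intro n
      induction n with
      | zero =>
        rw [pow_zero]
        rw [Z1_map_one hf, Nat.cast_zero, zero_mul]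
        rfl
      | succ n ih =>
        rw [pow_succ, hf', show π ((s ^ n : D) : G) = 1 by rw [Subgroup.coe_pow, map_pow, hs, one_pow],
          inv_one, one_mul, ih]
        push_cast
        ring
    have h0 := hsum (orderOf s)
    rw [pow_orderOf_eq_one] at h0
    have h1 : ofInfl π _ (f 1) i h = 0 := by rw [Z1_map_one hf]; rfl
    rw [h1] at h0
    exact (mul_eq_zero.mp h0.symm).resolve_left (by exact_mod_cast (orderOf_pos s).ne')
  -- representatives of the right cosets of the image of `D`
  let E : Subgroup G₀ := D.map π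
  let r : G₀ → G₀ := fun h => (Quotient.mk (QuotientGroup.rightRel E) h).out
  have hd : ∀ h, ∃ d : D, π (d : G) = h * (r h)⁻¹ := fun h => by
    obtain ⟨d, hd, hd'⟩ := QuotientGroup.rightRel_apply.mp
      (Quotient.mk_out (s := QuotientGroup.rightRel E) h)
    exact ⟨⟨d, hd⟩, hd'⟩
  choose d hd using hd
  have hr : ∀ (x : D) h, r ((π (x : G))⁻¹ * h) = r h := fun x h => by
    refine congrArg Quotient.out (Quotient.sound ?_)
    refine QuotientGroup.rightRel_apply.mpr ?_
    rw [mul_inv_rev, inv_inv, mul_inv_cancel_left]
    exact ⟨x, x.2, rfl⟩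
  refine mem_B1_iff.mpr ⟨toInfl π _ fun i h => - ofInfl π _ (f (d h)) i h, fun g => ?_⟩
  funext i h
  show ofInfl π _ (f g) i h =
    - ofInfl π _ (f (d ((π (g : G))⁻¹ * h))) i ((π (g : G))⁻¹ * h) - - ofInfl π _ (f (d h)) i h
  let d' : D := d ((π (g : G))⁻¹ * h)
  let s : D := (g * d')⁻¹ * d h
  have hπ : π (s : G) = 1 := by
    simp only [s, d', Subgroup.coe_mul, Subgroup.coe_inv, map_mul, map_inv, hd, hr]
    group
  have hsplit : d h = g * d' * s := by simp only [s]; group
  have e1 := hf' (g * d') s i h
  rw [← hsplit, hker s hπ] at e1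
  have e2 := hf' g d' i h
  have e0 : ofInfl π (Pres ι G₀) 0 i ((π ((g * d' : D) : G))⁻¹ * h) = 0 := rfl
  rw [e0, zero_add, e2] at e1
  linarith

end h1

end FermatLib.CFT.Duality
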