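import Mathlib

/-!
Characteristic polynomials of "permutation ⊗ operator" maps depend only on fixed point counts
(used by the Euler characteristic of Greenberg-Wiles).
-/

set_option autoImplicit false

open Module

namespace FermatLib.CFT

variable {k M : Type*} [Field k] [AddCommGroup M] [Module k M]

/-- The operator `φ ↦ (x ↦ A (φ (σ⁻¹ x)))`. -/
def permTensor {X : Type*} (σ : Equiv.Perm X) (A : M →ₗ[k] M) : (X → M) →ₗ[k] (X → M) :=
  LinearMap.pi fun x => A ∘ₗ LinearMap.proj (σ.symm x)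

@[simp] theorem permTensor_apply {X : Type*} (σ : Equiv.Perm X) (A : M →ₗ[k] M) (φ : X → M)
    (x : X) : permTensor σ A φ x = A (φ (σ.symm x)) := rfl

theorem charpoly_permTensor_congr [FiniteDimensional k M] {X Y : Type*} [Finite X] [Finite Y]
    (e : X ≃ Y) {σ : Equiv.Perm X} {τ : Equiv.Perm Y} (h : ∀ x, e (σ x) = τ (e x))
    (A : M →ₗ[k] M) : (permTensor σ A).charpoly = (permTensor τ A).charpoly := by
  have := Fintype.ofFinite X
  have := Fintype.ofFinite Y
  rw [← LinearEquiv.charpoly_conj (LinearEquiv.funCongrLeft k M e.symm) (permTensor σ A)]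
  congr 1
  refine LinearMap.ext fun φ => funext fun y => ?_
  have h' : σ.symm (e.symm y) = e.symm (τ.symm y) := by
    apply e.injective
    rw [Equiv.apply_symm_apply]
    apply τ.injective
    rw [← h, Equiv.apply_symm_apply, Equiv.apply_symm_apply, Equiv.apply_symm_apply]
  show A (φ (e (σ.symm (e.symm y)))) = A (φ (τ.symm y))
  rw [h', Equiv.apply_symm_apply]

theorem charpoly_permTensor_sum [FiniteDimensional k M] {X Y : Type*} [Finite X] [Finite Y]
    (σ : Equiv.Perm X) (τ : Equiv.Perm Y) (A : M →ₗ[k] M) :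
    (permTensor (Equiv.sumCongr σ τ) A).charpoly =
      (permTensor σ A).charpoly * (permTensor τ A).charpoly := by
  rw [← LinearMap.charpoly_prodMap,
    ← LinearEquiv.charpoly_conj (LinearEquiv.sumArrowLequivProdArrow X Y k M)
      (permTensor (Equiv.sumCongr σ τ) A)]
  congr 1

/-- The cyclic shift of `ZMod d`. -/
def shiftPerm (d : ℕ) : Equiv.Perm (ZMod d) := Equiv.addRight 1

section orbit

variable {X : Type*} (σ : Equiv.Perm X)

/-- The forward orbit of `x`. -/
def inOrbit (x y : X) : Prop := ∃ n : ℕ, (σ ^ n) x = y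

variable [Finite X]

theorem inOrbit_apply_iff (x y : X) : inOrbit σ x (σ y) ↔ inOrbit σ x y := by
  constructor
  · rintro ⟨n, hn⟩
    obtain ⟨m, hm, hσ⟩ : ∃ m, 0 < m ∧ σ ^ m = 1 :=
      ⟨orderOf σ, orderOf_pos σ, pow_orderOf_eq_one σ⟩
    refine ⟨n + (m - 1), σ.injective ?_⟩
    rw [← hn, ← Equiv.Perm.mul_apply, ← pow_succ', show n + (m - 1) + 1 = m + n by omega, pow_add,
      hσ, one_mul]
  · rintro ⟨n, rfl⟩
    exact ⟨n + 1, by rw [pow_succ', Equiv.Perm.mul_apply]⟩

/-- An orbit of length `d` is a copy of the cyclic shift. -/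
theorem exists_orbitEquiv (x : X) (d : ℕ) (hd : 0 < d) (hx : (σ ^ d) x = x)
    (hmin : ∀ j, 0 < j → (σ ^ j) x = x → d ≤ j) :
    ∃ e : ZMod d ≃ {y // inOrbit σ x y},
      ∀ i, (e (shiftPerm d i) : X) = σ (e i : X) := by
  have : NeZero d := ⟨hd.ne'⟩
  have hper : ∀ n, (σ ^ n) x = (σ ^ (n % d)) x := by
    intro n
    induction n using Nat.strong_induction_on with
    | _ n ih =>
      by_cases h : n < d
      · rw [Nat.mod_eq_of_lt h]
      · have : (σ ^ n) x = (σ ^ (n - d)) x := by
          conv_lhs => rw [show n = (n - d) + d by omega, pow_add, Equiv.Perm.mul_apply, hx]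
        rw [this, ih (n - d) (by omega), ← Nat.mod_eq_sub_mod (by omega : d ≤ n)]
  let f : ZMod d → {y // inOrbit σ x y} := fun i => ⟨(σ ^ i.val) x, i.val, rfl⟩
  have hinj : Function.Injective f := by
    intro i j h
    have h' : (σ ^ i.val) x = (σ ^ j.val) x := congrArg Subtype.val h
    by_contra hne
    have hv : i.val ≠ j.val := fun hv => hne (ZMod.val_injective d hv)
    have key : ∀ a b : ℕ, a < b → b < d → (σ ^ a) x ≠ (σ ^ b) x := by
      intro a b hab hb heq
      have : (σ ^ (b - a)) x = x := by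
        apply (σ ^ a).injective
        rw [← Equiv.Perm.mul_apply, ← pow_add, show a + (b - a) = b by omega, ← heq]
      have := hmin (b - a) (by omega) this
      omega
    rcases lt_or_gt_of_ne hv with h1 | h1
    · exact key _ _ h1 (ZMod.val_lt j) h'
    · exact key _ _ h1 (ZMod.val_lt i) h'.symm
  have hsurj : Function.Surjective f := by
    rintro ⟨y, n, rfl⟩
    refine ⟨(n : ZMod d), Subtype.ext ?_⟩
    show (σ ^ (n : ZMod d).val) x = (σ ^ n) x
    rw [ZMod.val_natCast, ← hper]
  refine ⟨Equiv.ofBijective f ⟨hinj, hsurj⟩, fun i => ?_⟩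
  show (σ ^ (i + 1 : ZMod d).val) x = σ ((σ ^ i.val) x)
  rw [← Equiv.Perm.mul_apply, ← pow_succ', hper (i.val + 1), ZMod.val_add, ZMod.val_one_eq_one_mod,
    Nat.add_mod_mod]

end orbit

variable [FiniteDimensional k M]

open Classical in
/-- Splitting off the orbit of a point with period `d`. -/
theorem exists_split {X : Type} [Finite X] (σ : Equiv.Perm X) (x : X) (d : ℕ) [NeZero d] (hd : 0 < d)
    (hx : (σ ^ d) x = x) (hmin : ∀ j, 0 < j → (σ ^ j) x = x → d ≤ j) (A : M →ₗ[k] M) :
    ∃ (X' : Type) (_ : Finite X') (σ' : Equiv.Perm X'),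
      (permTensor σ A).charpoly = (permTensor (shiftPerm d) A).charpoly * (permTensor σ' A).charpoly ∧
      (∀ j : ℕ, Nat.card {y : X // (σ ^ j) y = y} =
        Nat.card {i : ZMod d // ((shiftPerm d) ^ j) i = i} + Nat.card {z : X' // (σ' ^ j) z = z}) ∧
      Nat.card X' < Nat.card X := by
  obtain ⟨e, he⟩ := exists_orbitEquiv σ x d hd hx hmin
  let σ₁ : Equiv.Perm {y // inOrbit σ x y} := σ.subtypePerm (fun y => inOrbit_apply_iff σ x y)
  let σ₂ : Equiv.Perm {y // ¬ inOrbit σ x y} :=
    σ.subtypePerm (fun y => not_congr (inOrbit_apply_iff σ x y))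
  let E : ZMod d ⊕ {y // ¬ inOrbit σ x y} ≃ X :=
    (Equiv.sumCongr e (Equiv.refl _)).trans (Equiv.sumCompl _)
  let τ : Equiv.Perm (ZMod d ⊕ {y // ¬ inOrbit σ x y}) := Equiv.sumCongr (shiftPerm d) σ₂
  have hE : ∀ s, E (τ s) = σ (E s) := by
    rintro (i | z)
    · exact he i
    · rfl
  have hEj : ∀ (j : ℕ) s, E ((τ ^ j) s) = (σ ^ j) (E s) := by
    intro j
    induction j with
    | zero => intro s; rfl
    | succ n ih => intro s; rw [pow_succ', pow_succ', Equiv.Perm.mul_apply, Equiv.Perm.mul_apply, hE, ih]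
  refine ⟨_, inferInstance, σ₂, ?_, fun j => ?_, ?_⟩
  · rw [← charpoly_permTensor_sum, charpoly_permTensor_congr E hE]
  · have hτ : τ ^ j = Equiv.sumCongr ((shiftPerm d) ^ j) (σ₂ ^ j) :=
      (map_pow (Equiv.Perm.sumCongrHom _ _) (shiftPerm d, σ₂) j).symm
    rw [← Nat.card_congr (E.subtypeEquiv
      (p := fun s => (τ ^ j) s = s) (q := fun y => (σ ^ j) y = y) fun s => by
        rw [← hEj j s, E.injective.eq_iff]), ← Nat.card_sum]
    refine Nat.card_congr ((Equiv.subtypeSum).trans (Equiv.sumCongr ?_ ?_))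
    · exact Equiv.subtypeEquivRight fun i => by rw [hτ]; simp
    · exact Equiv.subtypeEquivRight fun z => by rw [hτ]; simp
  · refine Finite.card_subtype_lt (p := fun y => ¬ inOrbit σ x y) (x := x) ?_
    exact fun h => h ⟨0, rfl⟩

end FermatLib.CFT
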