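import Fermat.Agent.CFT.FirstHerbrand

/-!
Herbrand quotients for an automorphism of order `p`, including the rank formula for lattices.
-/

set_option autoImplicit false

namespace FermatLib.CFT.Herbrand

open AddSubgroup Module Polynomial

variable {B : Type*} [AddCommGroup B] (p : ℕ) (s : AddMonoid.End B)

/-- `s - 1`. -/
noncomputable def endDiff : B →+ B := (s - 1 : AddMonoid.End B)

/-- `1 + s + ... + s ^ (p - 1)`. -/
noncomputable def endNorm : B →+ B := (∑ i ∈ Finset.range p, s ^ i : AddMonoid.End B)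

@[simp] theorem endDiff_apply (x : B) : endDiff s x = s x - x := rfl

theorem endNorm_apply (x : B) : endNorm p s x = ∑ i ∈ Finset.range p, (s ^ i) x :=
  AddMonoidHom.finsetSum_apply _ _ x

/-- `s` preserves `X` and has order dividing `p` there. -/
structure IsOrderP (X : AddSubgroup B) : Prop where
  mem : ∀ x ∈ X, s x ∈ X
  pow_eq : ∀ x ∈ X, (s ^ p) x = x

variable {p s} {X : AddSubgroup B}

theorem pow_mem_of_mem (h : ∀ x ∈ X, s x ∈ X) : ∀ (i : ℕ), ∀ x ∈ X, (s ^ i) x ∈ X := by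
  intro i
  induction i with
  | zero => exact fun x hx => hx
  | succ n ih =>
    intro x hx
    rw [pow_succ']
    exact h _ (ih x hx)

theorem IsOrderP.mono (h : IsOrderP p s X) {Y : AddSubgroup B} (hle : Y ≤ X)
    (hY : ∀ y ∈ Y, s y ∈ Y) : IsOrderP p s Y :=
  ⟨hY, fun y hy => h.pow_eq y (hle hy)⟩

theorem IsOrderP.isHPair (h : IsOrderP p s X) : IsHPair (endDiff s) (endNorm p s) X where
  left_mem x hx := sub_mem (h.mem x hx) hx
  right_mem x hx := by
    rw [endNorm_apply]
    exact sum_mem fun i _ => pow_mem_of_mem h.mem i x hx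
  left_right x hx := by
    have := congrArg (fun e : AddMonoid.End B => e x) (mul_geom_sum s p)
    exact this.trans (sub_eq_zero.2 (h.pow_eq x hx))
  right_left x hx := by
    have := congrArg (fun e : AddMonoid.End B => e x) (geom_sum_mul s p)
    exact this.trans (sub_eq_zero.2 (h.pow_eq x hx))

theorem comm_endDiff {B' : Type*} [AddCommGroup B'] (φ : B →+ B') (s' : AddMonoid.End B')
    (hX : ∀ x ∈ X, s x ∈ X) (hφ : ∀ x ∈ X, φ (s x) = s' (φ x)) :
    (∀ x ∈ X, φ (endDiff s x) = endDiff s' (φ x)) ∧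
      ∀ x ∈ X, φ (endNorm p s x) = endNorm p s' (φ x) := by
  refine ⟨fun x hx => by simp [hφ x hx], fun x hx => ?_⟩
  rw [endNorm_apply, endNorm_apply, map_sum]
  suffices hi : ∀ i, φ ((s ^ i) x) = (s' ^ i) (φ x) from Finset.sum_congr rfl fun i _ => hi i
  intro i
  induction i with
  | zero => rfl
  | succ n ih =>
    rw [pow_succ', pow_succ']
    show φ (s ((s ^ n) x)) = s' ((s' ^ n) (φ x))
    rw [hφ _ (pow_mem_of_mem hX n x hx), ih]

theorem endNorm_eq_nsmul {x : B} (hx : endDiff s x = 0) : endNorm p s x = p • x := by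
  have h1 : s x = x := sub_eq_zero.1 hx
  have h2 : ∀ i, (s ^ i) x = x := fun i => by
    induction i with
    | zero => rfl
    | succ n ih => rw [pow_succ']; exact (congrArg s ih).trans h1
  rw [endNorm_apply, Finset.sum_congr rfl fun i _ => h2 i, Finset.sum_const, Finset.card_range]

/-- Orders on an image when the total has trivial second group. -/
theorem hOrd_image_of_right_trivial {B' : Type*} [AddCommGroup B'] (φ : B →+ B')
    (s' : AddMonoid.End B') (h : IsOrderP p s X) (hφ : ∀ x ∈ X, φ (s x) = s' (φ x))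
    (hA : hOrd (endDiff s) (endNorm p s) (X ⊓ φ.ker) ≠ 0)
    (hX : hOrd (endNorm p s) (endDiff s) X = 1) :
    hOrd (endDiff s) (endNorm p s) (X ⊓ φ.ker) * hOrd (endDiff s') (endNorm p s') (X.map φ) =
      hOrd (endNorm p s) (endDiff s) (X ⊓ φ.ker) * hOrd (endNorm p s') (endDiff s') (X.map φ) *
        hOrd (endDiff s) (endNorm p s) X ∧
      hOrd (endNorm p s') (endDiff s') (X.map φ) ≠ 0 := by
  obtain ⟨h1, h2⟩ := comm_endDiff (p := p) φ s' h.mem hφ
  refine ⟨?_, hOrd_map_ne_zero φ h.isHPair.symm h2 h1 hA (by rw [hX]; exact one_ne_zero)⟩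
  have hm := hOrd_mult φ h.isHPair h1 h2
  rwa [hX, mul_one] at hm

section poly

theorem exists_geomSum_eq [hp : Fact p.Prime] :
    ∃ u : ℤ[X], ∑ i ∈ Finset.range p, (Polynomial.X : ℤ[X]) ^ i =
      (Polynomial.X - 1) ^ (p - 1) + Polynomial.C (p : ℤ) * (1 + (Polynomial.X - 1) * u) := by
  have h1 : Polynomial.C (p : ℤ) ∣
      ∑ i ∈ Finset.range p, (Polynomial.X : ℤ[X]) ^ i - (Polynomial.X - 1) ^ (p - 1) := by
    rw [Polynomial.C_dvd_iff_dvd_coeff]
    intro n
    rw [← ZMod.intCast_zmod_eq_zero_iff_dvd, ← eq_intCast (Int.castRingHom (ZMod p)),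
      ← Polynomial.coeff_map]
    suffices h : Polynomial.map (Int.castRingHom (ZMod p))
        (∑ i ∈ Finset.range p, (Polynomial.X : ℤ[X]) ^ i - (Polynomial.X - 1) ^ (p - 1)) = 0 by
      rw [h, Polynomial.coeff_zero]
    simp only [Polynomial.map_sub, Polynomial.map_sum, Polynomial.map_pow, Polynomial.map_X,
      Polynomial.map_one]
    rw [sub_eq_zero]
    have hne : (Polynomial.X - 1 : (ZMod p)[X]) ≠ 0 := Polynomial.X_sub_C_ne_zero 1
    apply mul_right_cancel₀ hne
    rw [geom_sum_mul, ← pow_succ, Nat.sub_add_cancel hp.out.one_le, sub_pow_char, one_pow]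
  obtain ⟨w, hw⟩ := h1
  have hw1 : w.eval 1 = 1 := by
    have h := congrArg (Polynomial.eval (1 : ℤ)) hw
    simp only [eval_sub, eval_finsetSum, eval_pow, eval_X, eval_one, eval_mul, eval_C, one_pow,
      sub_self, Finset.sum_const, Finset.card_range, nsmul_eq_mul, mul_one,
      zero_pow (Nat.sub_ne_zero_of_lt hp.out.one_lt), sub_zero] at h
    have hp0 : (p : ℤ) ≠ 0 := by exact_mod_cast hp.out.ne_zero
    exact (mul_right_eq_self₀.1 h.symm).resolve_right hp0
  obtain ⟨u, hu⟩ : (Polynomial.X - Polynomial.C 1) ∣ w - 1 := by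
    rw [Polynomial.dvd_iff_isRoot]
    simp [hw1]
  refine ⟨u, ?_⟩
  rw [sub_eq_iff_eq_add'.1 hw]
  rw [map_one] at hu
  rw [← hu]
  ring

theorem aeval_mem_of_mem (h : ∀ x ∈ X, s x ∈ X) (u : ℤ[X]) :
    ∀ x ∈ X, (Polynomial.aeval s u) x ∈ X := by
  induction u using Polynomial.induction_on' with
  | add a b ha hb =>
    intro x hx
    rw [map_add]
    exact add_mem (ha x hx) (hb x hx)
  | monomial n a =>
    intro x hx
    rw [aeval_monomial, eq_intCast, ← zsmul_eq_mul]
    exact zsmul_mem (pow_mem_of_mem h n x hx) a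

variable [Fact p.Prime]

/-- On a module killed by the norm, `p` and `(s - 1) ^ (p - 1)` have the same image. -/
theorem map_pow_endDiff_eq (hs : ∀ x ∈ X, s x ∈ X) (hN : ∀ x ∈ X, endNorm p s x = 0) :
    X.map ((s - 1) ^ (p - 1) : AddMonoid.End B) = X.map (nsmulAddMonoidHom p) := by
  obtain ⟨u, hu⟩ := exists_geomSum_eq (p := p)
  have key : ∀ x ∈ X, ((s - 1) ^ (p - 1) : AddMonoid.End B) x
      + p • (x + (s - 1 : AddMonoid.End B) (Polynomial.aeval s u x)) = 0 := by
    intro x hx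
    have h := congrArg (fun q : ℤ[X] => Polynomial.aeval s q x) hu
    simp only [map_sum, map_add, map_mul, map_pow, map_sub, map_one, Polynomial.aeval_X,
      map_natCast] at h
    rw [← nsmul_eq_mul] at h
    exact (h.symm.trans (hN x hx))
  have memD : ∀ (j : ℕ), ∀ x ∈ X, ((s - 1) ^ j : AddMonoid.End B) x ∈ X :=
    pow_mem_of_mem fun x hx => sub_mem (hs x hx) hx
  apply le_antisymm
  · rintro _ ⟨x, hx, rfl⟩
    refine ⟨-(x + (s - 1 : AddMonoid.End B) (Polynomial.aeval s u x)),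
      neg_mem (add_mem hx ?_), ?_⟩
    · exact sub_mem (hs _ (aeval_mem_of_mem hs u x hx)) (aeval_mem_of_mem hs u x hx)
    · rw [map_neg, neg_eq_iff_add_eq_zero, nsmulAddMonoidHom_apply, add_comm]
      exact key x hx
  · rintro _ ⟨x, hx, rfl⟩
    suffices h : ∀ j ≤ p - 1, ∀ x ∈ X, ∃ z ∈ X, p • x = ((s - 1) ^ j : AddMonoid.End B) z by
      obtain ⟨z, hz, e⟩ := h _ le_rfl x hx
      exact ⟨z, hz, e.symm⟩
    intro j
    induction j with
    | zero => exact fun _ x hx => ⟨p • x, nsmul_mem hx p, rfl⟩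
    | succ j ih =>
      intro hj x hx
      obtain ⟨z, hz, e⟩ := ih (by omega) _ (aeval_mem_of_mem hs u x hx)
      refine ⟨-(((s - 1) ^ (p - 1 - (j + 1)) : AddMonoid.End B) x + z),
        neg_mem (add_mem (memD _ x hx) hz), ?_⟩
      have h := key x hx
      rw [nsmul_add, ← map_nsmul, e] at h
      have e1 : ((s - 1) ^ (p - 1) : AddMonoid.End B) x =
          ((s - 1) ^ (j + 1) : AddMonoid.End B)
            (((s - 1) ^ (p - 1 - (j + 1)) : AddMonoid.End B) x) := by
        conv_lhs => rw [show p - 1 = (j + 1) + (p - 1 - (j + 1)) by omega, pow_add]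
        rfl
      have e2 : (s - 1 : AddMonoid.End B) (((s - 1) ^ j : AddMonoid.End B) z) =
          ((s - 1) ^ (j + 1) : AddMonoid.End B) z := by
        rw [pow_succ']
        rfl
      rw [e1, e2] at h
      rw [map_neg, map_add]
      exact eq_neg_of_add_eq_zero_left (by rw [add_left_comm]; exact h)

end poly

section rank

variable {B' : Type*} [AddCommGroup B']

theorem moduleFinite_of_le {X Y : AddSubgroup B} (h : Y ≤ X) [Module.Finite ℤ X] :
    Module.Finite ℤ Y :=
  Module.Finite.of_injective (AddSubgroup.inclusion h).toIntLinearMap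
    (AddSubgroup.inclusion_injective h)

theorem moduleFinite_map (φ : B →+ B') [Module.Finite ℤ X] : Module.Finite ℤ (X.map φ) :=
  Module.Finite.of_surjective (φ.addSubgroupMap X).toIntLinearMap
    (φ.addSubgroupMap_surjective X)

theorem finrank_map_add (φ : B →+ B') [Module.Finite ℤ X] :
    finrank ℤ (X.map φ) + finrank ℤ ↥(X ⊓ φ.ker) = finrank ℤ X := by
  set ψ : X →ₗ[ℤ] X.map φ := (φ.addSubgroupMap X).toIntLinearMap
  have h1 := (LinearMap.ker ψ).finrank_quotient_add_finrank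
  have hs : Function.Surjective ψ := φ.addSubgroupMap_surjective X
  rw [(ψ.quotKerEquivOfSurjective hs).finrank_eq] at h1
  have e : LinearMap.ker ψ ≃+ ↥(X ⊓ φ.ker) :=
    { toFun := fun x => ⟨x.1.1, x.1.2, congrArg Subtype.val x.2⟩
      invFun := fun x => ⟨⟨x.1, x.2.1⟩, Subtype.ext x.2.2⟩
      left_inv := fun x => rfl
      right_inv := fun x => rfl
      map_add' := fun x y => rfl }
  rwa [e.toIntLinearEquiv.finrank_eq] at h1

theorem finrank_map_of_ker (φ : B →+ B') [Module.Finite ℤ X] [Finite ↥(X ⊓ φ.ker)] :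
    finrank ℤ (X.map φ) = finrank ℤ X := by
  have := finrank_map_add (X := X) φ
  have h0 : finrank ℤ ↥(X ⊓ φ.ker) = 0 := by
    refine Module.finrank_eq_zero_of_rank_eq_zero (rank_eq_zero_iff.2 fun x => ?_)
    exact ⟨(Nat.card ↥(X ⊓ φ.ker) : ℤ), by exact_mod_cast Nat.card_pos.ne',
      by rw [natCast_zsmul]; exact card_nsmul_eq_zero'⟩
  omega

/-- Existence of a multiple killing torsion. -/
theorem exists_nsmul_torsionFree (X : AddSubgroup B) [Module.Finite ℤ X] :
    ∃ n : ℕ, n ≠ 0 ∧ Finite ↥(X ⊓ (nsmulAddMonoidHom n : B →+ B).ker) ∧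
      ∀ x ∈ X.map (nsmulAddMonoidHom n : B →+ B), ∀ m : ℕ, m ≠ 0 → m • x = 0 → x = 0 := by
  have : Module.Finite ℤ (Submodule.torsion ℤ X) := inferInstance
  have hfin : Finite (Submodule.torsion ℤ X) :=
    Module.finite_of_fg_torsion _ (Submodule.torsion_isTorsion)
  refine ⟨Nat.card (Submodule.torsion ℤ X), Nat.card_pos.ne', ?_, ?_⟩
  · refine Finite.of_injective (fun x => (⟨⟨x.1, x.2.1⟩,
      ⟨⟨(Nat.card (Submodule.torsion ℤ X) : ℤ),
        mem_nonZeroDivisors_of_ne_zero (by exact_mod_cast Nat.card_pos.ne')⟩, Subtype.ext (by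
        have h0 : Nat.card (Submodule.torsion ℤ X) • x.1 = 0 := x.2.2
        show ((Nat.card (Submodule.torsion ℤ X) : ℤ)) • x.1 = 0
        rw [natCast_zsmul, h0])⟩⟩ : Submodule.torsion ℤ X)) ?_
    intro a b h
    exact Subtype.ext (congrArg (fun y : Submodule.torsion ℤ X => y.1.1) h)
  · rintro _ ⟨x, hx, rfl⟩ m hm h0
    have hmem : (⟨x, hx⟩ : X) ∈ Submodule.torsion ℤ X :=
      ⟨⟨((m * Nat.card (Submodule.torsion ℤ X) : ℕ) : ℤ),
        mem_nonZeroDivisors_of_ne_zero (by exact_mod_cast mul_ne_zero hm Nat.card_pos.ne')⟩,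
        Subtype.ext (by
          show ((m * Nat.card (Submodule.torsion ℤ X) : ℕ) : ℤ) • x = 0
          rw [natCast_zsmul, mul_nsmul']
          exact h0)⟩
    have := card_nsmul_eq_zero' (x := (⟨⟨x, hx⟩, hmem⟩ : Submodule.torsion ℤ X))
    exact congrArg (fun y : Submodule.torsion ℤ X => y.1.1) this

variable [hp : Fact p.Prime]

/-- The lattice formula, torsion-free case. -/
theorem hOrd_lattice_free (h : IsOrderP p s X) [Module.Finite ℤ X]
    (htf : ∀ x ∈ X, ∀ m : ℕ, m ≠ 0 → m • x = 0 → x = 0) :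
    hOrd (endDiff s) (endNorm p s) X ≠ 0 ∧ hOrd (endNorm p s) (endDiff s) X ≠ 0 ∧
      hOrd (endDiff s) (endNorm p s) X ^ (p - 1) * p ^ finrank ℤ X =
        hOrd (endNorm p s) (endDiff s) X ^ (p - 1) *
          p ^ (p * finrank ℤ ↥(X ⊓ (endDiff s).ker)) := by
  set D := endDiff s with hD
  set N := endNorm p s with hN
  set A := X ⊓ D.ker with hA
  set Y := X.map D with hY
  have hpr := h.isHPair
  have hYX : Y ≤ X := by rintro _ ⟨x, hx, rfl⟩; exact hpr.left_mem x hx
  have hsD : ∀ x, D (s x) = s (D x) := fun x => by simp [hD, map_sub]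
  have hc := comm_endDiff (p := p) D s h.mem fun x _ => hsD x
  have hpA : ∀ x ∈ A, N x = p • x := fun x hx => endNorm_eq_nsmul hx.2
  have : Module.Finite ℤ A := moduleFinite_of_le inf_le_left
  have : Module.Finite ℤ Y := moduleFinite_map D
  have tfree : ∀ Z ≤ X, Module.IsTorsionFree ℤ Z := fun Z hZ => by
    rw [Module.isTorsionFree_iff_smul_eq_zero]
    intro m z hz
    by_contra hne
    obtain ⟨hm, hz0⟩ := not_or.1 hne
    refine hz0 (Subtype.ext (htf z.1 (hZ z.2) m.natAbs (by simpa using hm) ?_))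
    have h' : m • z.1 = 0 := congrArg Subtype.val hz
    rcases Int.natAbs_eq m with e | e <;> rw [e] at h' <;> simpa using h'
  have : Module.IsTorsionFree ℤ A := tfree A inf_le_left
  have : Module.IsTorsionFree ℤ Y := tfree Y hYX
  have : Module.Free ℤ A.toIntSubmodule := show Module.Free ℤ A from inferInstance
  have : Module.Free ℤ Y.toIntSubmodule := show Module.Free ℤ Y from inferInstance
  have : Module.Finite ℤ A.toIntSubmodule := show Module.Finite ℤ A from inferInstance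
  have : Module.Finite ℤ Y.toIntSubmodule := show Module.Finite ℤ Y from inferInstance
  -- the fixed part
  have hA1 : hOrd D N A = p ^ finrank ℤ A := by
    rw [← AddSubgroup.relIndex_map_nsmul p A, hOrd, inf_eq_left.2 (inf_le_right : A ≤ D.ker)]
    congr 1
    ext y
    constructor
    · rintro ⟨x, hx, rfl⟩; exact ⟨x, hx, (hpA x hx).symm⟩
    · rintro ⟨x, hx, rfl⟩; exact ⟨x, hx, hpA x hx⟩
  have hA2 : hOrd N D A = 1 := by
    rw [hOrd_eq_one_iff]
    intro x hx h0
    rw [hpA x hx] at h0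
    exact ⟨0, zero_mem _, by rw [map_zero, htf x hx.1 p hp.out.ne_zero h0]⟩
  -- the image
  have hY1 : hOrd D N Y = 1 := by
    rw [hOrd_eq_one_iff]
    rintro _ ⟨x, hx, rfl⟩ h0
    have h1 : N (D x) = p • D x := endNorm_eq_nsmul h0
    rw [hpr.right_left x hx] at h1
    exact ⟨0, zero_mem _, by
      rw [map_zero, htf (D x) (hpr.left_mem x hx) p hp.out.ne_zero h1.symm]⟩
  have hYN : ∀ y ∈ Y, N y = 0 := by rintro _ ⟨x, hx, rfl⟩; exact hpr.right_left x hx
  have hYs : ∀ y ∈ Y, s y ∈ Y := by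
    rintro _ ⟨x, hx, rfl⟩; exact ⟨s x, h.mem x hx, hsD x⟩
  have hY0 : Y ⊓ D.ker = ⊥ := by
    rw [eq_bot_iff]
    intro y hy
    have h1 : N y = p • y := endNorm_eq_nsmul hy.2
    rw [hYN y hy.1] at h1
    exact htf y (hYX hy.1) p hp.out.ne_zero h1.symm
  set b := hOrd N D Y with hb
  have hb1 : b = (Y.map D).relIndex Y := by
    rw [hb, hOrd, inf_eq_left.2 (fun y hy => hYN y hy : Y ≤ N.ker)]
  have hDj : ∀ j : ℕ, Y.map ((s - 1) ^ j : AddMonoid.End B) ≤ Y := fun j => by
    rintro _ ⟨y, hy, rfl⟩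
    exact pow_mem_of_mem (fun y hy => sub_mem (hYs y hy) hy) j y hy
  have hstep : ∀ j : ℕ, (Y.map ((s - 1) ^ j : AddMonoid.End B)).relIndex Y = b ^ j := by
    intro j
    induction j with
    | zero =>
      rw [pow_zero, pow_zero]
      exact AddSubgroup.relIndex_eq_one.2 fun y hy => ⟨y, hy, rfl⟩
    | succ j ih =>
      have e : Y.map ((s - 1) ^ (j + 1) : AddMonoid.End B) =
          (Y.map ((s - 1) ^ j : AddMonoid.End B)).map D := by
        ext y
        constructor
        · rintro ⟨x, hx, rfl⟩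
          refine ⟨_, ⟨x, hx, rfl⟩, ?_⟩
          rw [pow_succ']; rfl
        · rintro ⟨_, ⟨x, hx, rfl⟩, rfl⟩
          refine ⟨x, hx, ?_⟩
          rw [pow_succ']; rfl
      have hle : (Y.map ((s - 1) ^ j : AddMonoid.End B)).map D ≤ Y.map D :=
        AddSubgroup.map_mono (hDj j)
      rw [e, ← AddSubgroup.relIndex_mul_relIndex _ _ _ hle
        (by rintro _ ⟨y, hy, rfl⟩; exact sub_mem (hYs y hy) hy), pow_succ, ← hb1]
      congr 1
      have h2 := relIndex_split D (hDj j)
      rw [ih, hY0, AddSubgroup.relIndex_bot_right, mul_one] at h2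
      exact h2.symm
  have hb2 : b ^ (p - 1) = p ^ finrank ℤ Y := by
    rw [← hstep, map_pow_endDiff_eq hYs hYN, AddSubgroup.relIndex_map_nsmul]
  have hb0 : b ≠ 0 := by
    intro h0
    rw [h0, zero_pow (Nat.sub_ne_zero_of_lt hp.out.one_lt)] at hb2
    exact pow_ne_zero _ hp.out.ne_zero hb2.symm
  have hmult := hOrd_mult D hpr hc.1 hc.2
  rw [← hA, ← hY, hA1, hA2, hY1, mul_one, one_mul] at hmult
  refine ⟨hOrd_ne_zero D hpr hc.1 hc.2
      (by rw [← hA, hA1]; exact pow_ne_zero _ hp.out.ne_zero) (by rw [← hY, hY1]; simp),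
    hOrd_ne_zero D hpr.symm hc.2 hc.1 (by rw [← hA, hA2]; simp) (by rw [← hY]; exact hb0), ?_⟩
  have hr : finrank ℤ Y + finrank ℤ A = finrank ℤ X := finrank_map_add D
  have hm2 := congrArg (fun n => n ^ (p - 1)) hmult
  simp only [mul_pow] at hm2
  rw [← hb, hb2, ← pow_mul] at hm2
  have hexp : finrank ℤ A * (p - 1) + finrank ℤ A = p * finrank ℤ A := by
    obtain ⟨k, hk⟩ := Nat.exists_eq_succ_of_ne_zero hp.out.ne_zero
    rw [hk, Nat.succ_sub_one, Nat.succ_eq_add_one]
    ring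
  rw [← hr, ← hexp, pow_add, pow_add]
  linear_combination ((p : ℕ) ^ finrank ℤ A) * hm2.symm

/-- The lattice formula. -/
theorem hOrd_lattice (h : IsOrderP p s X) [Module.Finite ℤ X] :
    hOrd (endDiff s) (endNorm p s) X ≠ 0 ∧ hOrd (endNorm p s) (endDiff s) X ≠ 0 ∧
      hOrd (endDiff s) (endNorm p s) X ^ (p - 1) * p ^ finrank ℤ X =
        hOrd (endNorm p s) (endDiff s) X ^ (p - 1) *
          p ^ (p * finrank ℤ ↥(X ⊓ (endDiff s).ker)) := by
  obtain ⟨n, hn, hfin, htf⟩ := exists_nsmul_torsionFree X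
  set φ : B →+ B := nsmulAddMonoidHom n with hφ
  have hsφ : ∀ x ∈ X, φ (s x) = s (φ x) := fun x _ => (map_nsmul s n x).symm
  have hc := comm_endDiff (p := p) φ s h.mem hsφ
  have hpr := h.isHPair
  have hY : IsOrderP p s (X.map φ) := h.mono
    (by rintro _ ⟨x, hx, rfl⟩; exact nsmul_mem hx n)
    (by rintro _ ⟨x, hx, rfl⟩; exact ⟨s x, h.mem x hx, hsφ x hx⟩)
  have := moduleFinite_map (X := X) φ
  obtain ⟨hY1, hY2, hY3⟩ := hOrd_lattice_free hY htf
  have hTpr : IsHPair (endDiff s) (endNorm p s) (X ⊓ φ.ker) := (h.mono inf_le_left fun x hx =>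
    ⟨h.mem x hx.1, by show φ (s x) = 0; rw [hsφ x hx.1, show φ x = 0 from hx.2, map_zero]⟩).isHPair
  obtain ⟨hT1, hT2⟩ := hOrd_finite hTpr
  have hT3 := (hOrd_finite hTpr.symm).2
  have hmult := hOrd_mult φ hpr hc.1 hc.2
  rw [← hT1, mul_assoc, mul_assoc] at hmult
  have hmult' := congrArg (fun m => m ^ (p - 1)) (mul_left_cancel₀ hT2 hmult)
  simp only [mul_pow] at hmult'
  refine ⟨hOrd_ne_zero φ hpr hc.1 hc.2 hT2 hY1, hOrd_ne_zero φ hpr.symm hc.2 hc.1 hT3 hY2, ?_⟩
  have e1 : finrank ℤ (X.map φ) = finrank ℤ X := finrank_map_of_ker φ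
  have : Module.Finite ℤ ↥(X ⊓ (endDiff s).ker) := moduleFinite_of_le inf_le_left
  have e2 : finrank ℤ ↥(X.map φ ⊓ (endDiff s).ker) = finrank ℤ ↥(X ⊓ (endDiff s).ker) := by
    apply le_antisymm
    · have hle : X.map φ ⊓ (endDiff s).ker ≤ X ⊓ (endDiff s).ker :=
        inf_le_inf_right _ (by rintro _ ⟨x, hx, rfl⟩; exact nsmul_mem hx n)
      exact LinearMap.finrank_le_finrank_of_injective
        (f := (AddSubgroup.inclusion hle).toIntLinearMap) (AddSubgroup.inclusion_injective hle)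
    · have : Finite ↥(X ⊓ (endDiff s).ker ⊓ φ.ker) := Finite.of_injective
        (AddSubgroup.inclusion (inf_le_inf_right _ inf_le_left)) (AddSubgroup.inclusion_injective _)
      rw [← finrank_map_of_ker (X := X ⊓ (endDiff s).ker) φ]
      have : Module.Finite ℤ ↥(X.map φ ⊓ (endDiff s).ker) := moduleFinite_of_le inf_le_left
      have hle2 : (X ⊓ (endDiff s).ker).map φ ≤ X.map φ ⊓ (endDiff s).ker := by
        rintro _ ⟨x, hx, rfl⟩
        exact ⟨⟨x, hx.1, rfl⟩, by
          show endDiff s (φ x) = 0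
          rw [← hc.1 x hx.1, show endDiff s x = 0 from hx.2, map_zero]⟩
      exact LinearMap.finrank_le_finrank_of_injective
        (f := (AddSubgroup.inclusion hle2).toIntLinearMap) (AddSubgroup.inclusion_injective hle2)
  rw [e1, e2] at hY3
  refine mul_left_cancel₀ (pow_ne_zero (p - 1) hY2) ?_
  linear_combination (p ^ finrank ℤ X : ℕ) * hmult'.symm +
    (hOrd (endNorm p s) (endDiff s) X) ^ (p - 1) * hY3

end rank

end FermatLib.CFT.Herbrand
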