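import Mathlib

/-!
Herbrand quotients for a pair of endomorphisms `f, g` with `f g = g f = 0` on a subgroup `X` of an
ambient additive group.
-/

set_option autoImplicit false

namespace FermatLib.CFT.Herbrand

open AddSubgroup

variable {B : Type*} [AddCommGroup B] {B' : Type*} [AddCommGroup B']

/-- The order of `ker f / im g` on `X` (zero if infinite). -/
noncomputable def hOrd (f g : B →+ B) (X : AddSubgroup B) : ℕ :=
  (X.map g).relIndex (X ⊓ f.ker)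

/-- `f, g` preserve `X` and compose to zero on it. -/
structure IsHPair (f g : B →+ B) (X : AddSubgroup B) : Prop where
  left_mem : ∀ x ∈ X, f x ∈ X
  right_mem : ∀ x ∈ X, g x ∈ X
  left_right : ∀ x ∈ X, f (g x) = 0
  right_left : ∀ x ∈ X, g (f x) = 0

theorem IsHPair.symm {f g : B →+ B} {X : AddSubgroup B} (h : IsHPair f g X) : IsHPair g f X :=
  ⟨h.right_mem, h.left_mem, h.right_left, h.left_right⟩

theorem IsHPair.mono {f g : B →+ B} {X Y : AddSubgroup B} (h : IsHPair f g X) (hY : Y ≤ X)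
    (hf : ∀ y ∈ Y, f y ∈ Y) (hg : ∀ y ∈ Y, g y ∈ Y) : IsHPair f g Y :=
  ⟨hf, hg, fun y hy => h.left_right y (hY hy), fun y hy => h.right_left y (hY hy)⟩

/-- Splitting an index along a homomorphism. -/
theorem relIndex_split (φ : B →+ B') {P Q : AddSubgroup B} (h : P ≤ Q) :
    P.relIndex Q = (P.map φ).relIndex (Q.map φ) * (P ⊓ φ.ker).relIndex (Q ⊓ φ.ker) := by
  have h1 : P.relIndex (P ⊔ Q ⊓ φ.ker) = (P ⊓ φ.ker).relIndex (Q ⊓ φ.ker) := by
    rw [sup_comm P, AddSubgroup.relIndex_sup_right, ← AddSubgroup.inf_relIndex_right P]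
    congr 1
    rw [← inf_assoc, inf_eq_left.2 h]
  have h2 : (P ⊔ Q ⊓ φ.ker).relIndex Q = (P.map φ).relIndex (Q.map φ) := by
    have e : Q ⊔ φ.ker = Q ⊔ (P ⊔ φ.ker) := by rw [← sup_assoc, sup_eq_left.2 h]
    rw [AddSubgroup.relIndex_map_map, e, AddSubgroup.relIndex_sup_right,
      ← AddSubgroup.inf_relIndex_right (P ⊔ φ.ker)]
    congr 1
    rw [inf_comm Q, sup_inf_assoc_of_le _ h]
  rw [← AddSubgroup.relIndex_mul_relIndex _ _ _ (le_sup_left : P ≤ P ⊔ Q ⊓ φ.ker)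
    (sup_le h inf_le_left), h1, h2, mul_comm]

variable {f g : B →+ B} {X : AddSubgroup B}

theorem IsHPair.map_right_le (h : IsHPair f g X) : X.map g ≤ X ⊓ f.ker := by
  rintro _ ⟨x, hx, rfl⟩
  exact ⟨h.right_mem x hx, h.left_right x hx⟩

/-- The order of the image with respect to a homomorphism `φ` commuting with `f, g`. -/
theorem hOrd_map (φ : B →+ B') {f' g' : B' →+ B'} (h : IsHPair f g X)
    (hf : ∀ x ∈ X, φ (f x) = f' (φ x)) (hg : ∀ x ∈ X, φ (g x) = g' (φ x)) :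
    hOrd f' g' (X.map φ) =
      ((X ⊓ φ.ker).map f).relIndex (X.map f ⊓ φ.ker) *
      (X.map g ⊔ X ⊓ φ.ker ⊓ f.ker).relIndex (X ⊓ f.ker) := by
  set A : AddSubgroup B := X ⊓ φ.ker with hA
  set Q : AddSubgroup B := X ⊓ φ.ker.comap f with hQ
  have hAQ : A ≤ Q := fun x hx => ⟨hx.1, by
    have h0 : φ x = 0 := hx.2
    show φ (f x) = 0
    rw [hf x hx.1, h0, map_zero]⟩
  have hgQ : X.map g ≤ Q := fun y hy => by
    obtain ⟨h1, h2⟩ := h.map_right_le hy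
    exact ⟨h1, by show φ (f y) = 0; rw [show f y = 0 from h2, map_zero]⟩
  have e1 : (X.map φ).map g' = (X.map g).map φ := by
    ext y
    constructor
    · rintro ⟨_, ⟨x, hx, rfl⟩, rfl⟩; exact ⟨g x, ⟨x, hx, rfl⟩, hg x hx⟩
    · rintro ⟨_, ⟨x, hx, rfl⟩, rfl⟩; exact ⟨φ x, ⟨x, hx, rfl⟩, (hg x hx).symm⟩
  have e2 : X.map φ ⊓ f'.ker = Q.map φ := by
    ext y
    constructor
    · rintro ⟨⟨x, hx, rfl⟩, h0⟩
      exact ⟨x, ⟨hx, by show φ (f x) = 0; rw [hf x hx]; exact h0⟩, rfl⟩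
    · rintro ⟨x, ⟨hx, h0⟩, rfl⟩
      exact ⟨⟨x, hx, rfl⟩, by show f' (φ x) = 0; rw [← hf x hx]; exact h0⟩
  have e3 : (X.map g).map φ = (X.map g ⊔ A).map φ := by
    rw [AddSubgroup.map_sup, (AddSubgroup.map_eq_bot_iff A).2 inf_le_right, sup_bot_eq]
  have e4 : (X.map g ⊔ A) ⊓ φ.ker = Q ⊓ φ.ker → hOrd f' g' (X.map φ) =
      (X.map g ⊔ A).relIndex Q := fun e => by
    unfold hOrd
    rw [e1, e2, e3, relIndex_split φ (sup_le hgQ hAQ), e, AddSubgroup.relIndex_self, mul_one]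
  rw [e4 (le_antisymm (inf_le_inf_right _ (sup_le hgQ hAQ))
    (fun x hx => ⟨AddSubgroup.mem_sup_right ⟨hx.1.1, hx.2⟩, hx.2⟩))]
  rw [relIndex_split f (sup_le hgQ hAQ)]
  congr 2
  · rw [AddSubgroup.map_sup, (AddSubgroup.map_eq_bot_iff (X.map g)).2
      (fun y hy => (h.map_right_le hy).2), bot_sup_eq]
  · ext y
    constructor
    · rintro ⟨x, ⟨hx, h0⟩, rfl⟩; exact ⟨⟨x, hx, rfl⟩, h0⟩
    · rintro ⟨⟨x, hx, rfl⟩, h0⟩; exact ⟨x, ⟨hx, h0⟩, rfl⟩
  · exact sup_inf_assoc_of_le A (fun y hy => (h.map_right_le hy).2)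
  · ext y
    constructor
    · rintro ⟨hy, h0⟩; exact ⟨hy.1, h0⟩
    · rintro ⟨hy, h0⟩
      exact ⟨⟨hy, by show φ (f y) = 0; rw [show f y = 0 from h0, map_zero]⟩, h0⟩

theorem hOrd_eq_mul (h : IsHPair f g X) (A : AddSubgroup B) :
    hOrd f g X = ((A ⊓ f.ker ⊓ X.map g)).relIndex (X ⊓ A ⊓ f.ker) *
      (X.map g ⊔ X ⊓ A ⊓ f.ker).relIndex (X ⊓ f.ker) := by
  unfold hOrd
  rw [← AddSubgroup.relIndex_mul_relIndex _ _ _
    (le_sup_left : X.map g ≤ X.map g ⊔ X ⊓ A ⊓ f.ker)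
    (sup_le h.map_right_le (inf_le_inf_right _ inf_le_left))]
  congr 1
  rw [sup_comm, AddSubgroup.relIndex_sup_right, ← AddSubgroup.inf_relIndex_right (X.map g),
    ← AddSubgroup.inf_relIndex_right (A ⊓ f.ker ⊓ X.map g)]
  congr 1
  ext y
  simp only [AddSubgroup.mem_inf]
  tauto

theorem hOrd_sub_eq_mul (h : IsHPair f g X) {φ : B →+ B'}
    (hgK : ∀ x ∈ X ⊓ φ.ker, φ (g x) = 0) :
    hOrd f g (X ⊓ φ.ker) =
      ((X ⊓ φ.ker).map g).relIndex (X.map g ⊓ φ.ker) *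
      (φ.ker ⊓ f.ker ⊓ X.map g).relIndex (X ⊓ φ.ker ⊓ f.ker) := by
  unfold hOrd
  have e : φ.ker ⊓ f.ker ⊓ X.map g = X.map g ⊓ φ.ker := le_antisymm
    (fun y hy => ⟨hy.2, hy.1.1⟩) fun y hy => ⟨⟨hy.2, (h.map_right_le hy.1).2⟩, hy.1⟩
  rw [e, AddSubgroup.relIndex_mul_relIndex]
  · rintro _ ⟨x, hx, rfl⟩; exact ⟨⟨x, hx.1, rfl⟩, hgK x hx⟩
  · exact fun y hy => ⟨⟨(h.map_right_le hy.1).1, hy.2⟩, (h.map_right_le hy.1).2⟩

/-- Multiplicativity of Herbrand quotients, valid without finiteness assumptions. -/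
theorem hOrd_mult (φ : B →+ B') {f' g' : B' →+ B'} (h : IsHPair f g X)
    (hf : ∀ x ∈ X, φ (f x) = f' (φ x)) (hg : ∀ x ∈ X, φ (g x) = g' (φ x)) :
    hOrd f g (X ⊓ φ.ker) * hOrd f' g' (X.map φ) * hOrd g f X =
      hOrd g f (X ⊓ φ.ker) * hOrd g' f' (X.map φ) * hOrd f g X := by
  rw [hOrd_map φ h hf hg, hOrd_map φ h.symm hg hf, hOrd_eq_mul h φ.ker,
    hOrd_eq_mul h.symm φ.ker, hOrd_sub_eq_mul h, hOrd_sub_eq_mul h.symm]
  · ring
  · intro x hx; rw [hf x hx.1, show φ x = 0 from hx.2, map_zero]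
  · intro x hx; rw [hg x hx.1, show φ x = 0 from hx.2, map_zero]

/-- If the subgroup and the image have finite groups, so has the total. -/
theorem hOrd_ne_zero (φ : B →+ B') {f' g' : B' →+ B'} (h : IsHPair f g X)
    (hf : ∀ x ∈ X, φ (f x) = f' (φ x)) (hg : ∀ x ∈ X, φ (g x) = g' (φ x))
    (hA : hOrd f g (X ⊓ φ.ker) ≠ 0) (hC : hOrd f' g' (X.map φ) ≠ 0) : hOrd f g X ≠ 0 := by
  rw [hOrd_eq_mul h φ.ker]
  rw [hOrd_sub_eq_mul h (fun x hx => by rw [hg x hx.1, show φ x = 0 from hx.2, map_zero])] at hA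
  rw [hOrd_map φ h hf hg] at hC
  exact mul_ne_zero (right_ne_zero_of_mul hA) (right_ne_zero_of_mul hC)

/-- If the subgroup and the image have trivial groups, so has the total. -/
theorem hOrd_eq_one_of_map (φ : B →+ B') {f' g' : B' →+ B'} (h : IsHPair f g X)
    (hf : ∀ x ∈ X, φ (f x) = f' (φ x)) (hg : ∀ x ∈ X, φ (g x) = g' (φ x))
    (hA : hOrd f g (X ⊓ φ.ker) = 1) (hC : hOrd f' g' (X.map φ) = 1) : hOrd f g X = 1 := by
  rw [hOrd_eq_mul h φ.ker]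
  rw [hOrd_sub_eq_mul h (fun x hx => by rw [hg x hx.1, show φ x = 0 from hx.2, map_zero])] at hA
  rw [hOrd_map φ h hf hg] at hC
  rw [Nat.eq_one_of_mul_eq_one_left hA, Nat.eq_one_of_mul_eq_one_left hC]

/-- If the subgroup and the total have finite groups, so has the image. -/
theorem hOrd_map_ne_zero (φ : B →+ B') {f' g' : B' →+ B'} (h : IsHPair f g X)
    (hf : ∀ x ∈ X, φ (f x) = f' (φ x)) (hg : ∀ x ∈ X, φ (g x) = g' (φ x))
    (hA : hOrd g f (X ⊓ φ.ker) ≠ 0) (hX : hOrd f g X ≠ 0) : hOrd f' g' (X.map φ) ≠ 0 := by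
  rw [hOrd_eq_mul h φ.ker] at hX
  rw [hOrd_sub_eq_mul h.symm
    (fun x hx => by rw [hf x hx.1, show φ x = 0 from hx.2, map_zero])] at hA
  rw [hOrd_map φ h hf hg]
  exact mul_ne_zero (left_ne_zero_of_mul hA) (right_ne_zero_of_mul hX)

/-- An injective equivariant map preserves the orders. -/
theorem hOrd_map_of_injOn (φ : B →+ B') {f' g' : B' →+ B'} (h : IsHPair f g X)
    (hf : ∀ x ∈ X, φ (f x) = f' (φ x)) (hg : ∀ x ∈ X, φ (g x) = g' (φ x))
    (hinj : X ⊓ φ.ker = ⊥) : hOrd f' g' (X.map φ) = hOrd f g X := by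
  have hk : X.map f ⊓ φ.ker = ⊥ := by
    rw [eq_bot_iff, ← hinj]
    exact inf_le_inf_right _ (AddSubgroup.map_le_iff_le_comap.2 h.left_mem)
  rw [hOrd_map φ h hf hg, hinj, AddSubgroup.map_bot, hk, AddSubgroup.relIndex_self, one_mul]
  simp [hOrd]

/-- A finite module has trivial Herbrand quotient. -/
theorem hOrd_finite (h : IsHPair f g X) [Finite X] :
    hOrd f g X = hOrd g f X ∧ hOrd f g X ≠ 0 := by
  have key : ∀ u v : B →+ B, IsHPair u v X →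
      Nat.card (X.map v) * hOrd u v X * Nat.card (X.map u) = Nat.card X := by
    intro u v huv
    have h1 := AddSubgroup.relIndex_mul_relIndex ⊥ _ _ bot_le huv.map_right_le
    have h2 := relIndex_split u (bot_le : (⊥ : AddSubgroup B) ≤ X)
    rw [AddSubgroup.map_bot, bot_inf_eq, AddSubgroup.relIndex_bot_left,
      AddSubgroup.relIndex_bot_left, AddSubgroup.relIndex_bot_left] at h2
    rw [AddSubgroup.relIndex_bot_left, AddSubgroup.relIndex_bot_left] at h1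
    rw [h2, ← h1]
    simp only [hOrd]
    ring
  have hpos : Nat.card X ≠ 0 := Nat.card_pos.ne'
  have h1 := key f g h
  have h2 := key g f h.symm
  refine ⟨?_, fun h0 => hpos (by rw [← h1, h0, mul_zero, zero_mul])⟩
  apply mul_left_cancel₀ (a := Nat.card (X.map g) * Nat.card (X.map f))
  · intro h0
    apply hpos
    rw [← h1]
    rcases mul_eq_zero.1 h0 with e | e
    · rw [e, zero_mul, zero_mul]
    · rw [e, mul_zero]
  · linear_combination h1 - h2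

theorem hOrd_eq_one_iff :
    hOrd f g X = 1 ↔ ∀ x ∈ X, f x = 0 → ∃ y ∈ X, g y = x := by
  rw [hOrd, AddSubgroup.relIndex_eq_one]
  exact ⟨fun H x hx h0 => H ⟨hx, h0⟩, fun H x hx => H x hx.1 hx.2⟩

end FermatLib.CFT.Herbrand
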