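import Fermat.Agent.CFT.FirstInfinite

/-!
The Herbrand quotient of the invariant `T`-ideles.
-/

set_option autoImplicit false

open NumberField

namespace FermatLib.CFT

open Herbrand

variable {L : Type} [Field L] [NumberField L]

variable (L) in
/-- The values at `q`. -/
noncomputable def evFin (q : Nat.Primes) : Idele L →+ (Emb L q → QUnits q) where
  toFun f := f.1.1 q
  map_zero' := rfl
  map_add' _ _ := rfl

variable (L) in
/-- The values at infinity. -/
noncomputable def evInf : Idele L →+ ((L →+* ℂ) → CUnits) where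
  toFun f := f.1.2
  map_zero' := rfl
  map_add' _ _ := rfl

theorem idele_eq_of_ev {f f' : Idele L} (hfin : ∀ q, evFin L q f = evFin L q f')
    (hinf : evInf L f = evInf L f') : f = f' :=
  Subtype.ext (Prod.ext (funext hfin) hinf)

/-- Invariant ideles, units outside `T`. -/
noncomputable def tIdelesFixed (K : Subgroup (L ≃ₐ[ℚ] L)) (T : Set Nat.Primes) : AddSubgroup (Idele L) :=
  fixedPts K (Idele L) ⊓ sIdeles L T

theorem evInf_mem_fam {K : Subgroup (L ≃ₐ[ℚ] L)} {f : Idele L} (hf : f ∈ fixedPts K (Idele L)) :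
    evInf L f ∈ (infSys L).fam K ⊤ Set.univ := by
  refine ⟨fun τ χ => ?_, fun h hh χ => ?_, fun _ => AddSubgroup.mem_top _,
    fun χ hχ => absurd (Set.mem_univ χ) hχ⟩
  · rcases algEquiv_complex_eq τ with rfl | rfl
    · rw [(infSys L).post_one, map_one]; rfl
    · rw [infSys_post_conj, infSys_act_conj]
      exact f.2.2.2 χ
  · exact congrArg (fun f' : Idele L => f'.1.2 χ) ((mem_fixedPts_iff_forall _ K f).1 hf h hh)

theorem evFin_mem_fam {K : Subgroup (L ≃ₐ[ℚ] L)} {f : Idele L} (hf : f ∈ fixedPts K (Idele L))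
    (q : Nat.Primes) (W : AddSubgroup (QUnits q)) (hW : ∀ φ, f.1.1 q φ ∈ W) :
    evFin L q f ∈ (embSys L q).fam K W Set.univ :=
  ⟨fun τ φ => f.2.1 q τ φ,
    fun h hh φ => congrArg (fun f' : Idele L => f'.1.1 q φ) ((mem_fixedPts_iff_forall _ K f).1 hf h hh),
    hW, fun φ hφ => absurd (Set.mem_univ φ) hφ⟩

theorem exists_idele_of_fam (K : Subgroup (L ≃ₐ[ℚ] L)) (T : Finset Nat.Primes)
    (v : ∀ q, Emb L q → QUnits q) (hv : ∀ q, v q ∈ (embSys L q).fam K ⊤ Set.univ)
    (hu : ∀ q ∉ T, ∀ φ, v q φ ∈ QUnits.unitGroup q) {w : (L →+* ℂ) → CUnits}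
    (hw : w ∈ (infSys L).fam K ⊤ Set.univ) :
    ∃ f ∈ tIdelesFixed K (T : Set Nat.Primes), (∀ q, evFin L q f = v q) ∧ evInf L f = w := by
  refine ⟨⟨(v, w), fun q τ φ => (hv q).1 τ φ, ?_, fun χ => ?_⟩, ⟨?_, fun q hq φ => hu q hq φ⟩,
    fun q => rfl, rfl⟩
  · exact T.finite_toSet.subset fun q ⟨φ, hφ⟩ => by
      by_contra hq
      exact hφ (hu q hq φ)
  · show w ((starRingEnd ℂ).comp χ) = conjUnits (w χ)
    rw [← infSys_post_conj, hw.1, infSys_act_conj]
  · exact (mem_fixedPts_iff_forall _ _ _).2 fun h hh => Subtype.ext (Prod.ext (funext fun q => funext fun φ => (hv q).2.1 h hh φ)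
      (funext fun χ => hw.2.1 h hh χ))

/-- Invariant `T`-ideles, trivial at infinity and on `Z`. -/
noncomputable def tIdelesOff (K : Subgroup (L ≃ₐ[ℚ] L)) (T : Set Nat.Primes) (Z : Set Nat.Primes) :
    AddSubgroup (Idele L) where
  carrier := {f | f ∈ tIdelesFixed K T ∧ evInf L f = 0 ∧ ∀ q ∈ Z, evFin L q f = 0}
  zero_mem' := ⟨zero_mem _, map_zero _, fun q _ => map_zero _⟩
  add_mem' := fun ha hb => ⟨add_mem ha.1 hb.1, by rw [map_add, ha.2.1, hb.2.1, add_zero],
    fun q hq => by rw [map_add, ha.2.2 q hq, hb.2.2 q hq, add_zero]⟩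
  neg_mem' := fun ha => ⟨neg_mem ha.1, by rw [map_neg, ha.2.1, neg_zero],
    fun q hq => by rw [map_neg, ha.2.2 q hq, neg_zero]⟩

variable [IsGalois ℚ L] {p : ℕ} [hp : Fact p.Prime] {H' H : Subgroup (L ≃ₐ[ℚ] L)} {g : L ≃ₐ[ℚ] L}
  (hc : CyclicPair p H' H g)

include hc in
theorem isOrderP_tIdelesFixed (T : Set Nat.Primes) :
    IsOrderP p (smulEnd (Idele L) g) (tIdelesFixed H' T) :=
  (isOrderP_fixedPts hc).mono inf_le_left fun f hf =>
    ⟨(isOrderP_fixedPts hc).mem f hf.1, fun q hq φ => hf.2 q hq (φ.preComp g)⟩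

include hc in
theorem isOrderP_tIdelesOff (T Z : Set Nat.Primes) :
    IsOrderP p (smulEnd (Idele L) g) (tIdelesOff H' T Z) :=
  (isOrderP_tIdelesFixed hc T).mono (fun f hf => hf.1) fun f hf =>
    ⟨(isOrderP_tIdelesFixed hc T).mem f hf.1,
      funext fun χ => congrFun hf.2.1 (χ.comp (g : L →+* L)),
      fun q hq => funext fun φ => congrFun (hf.2.2 q hq) (φ.preComp g)⟩

include hc in
theorem evFin_comm {X : AddSubgroup (Idele L)} (hX : ∀ x ∈ X, smulEnd (Idele L) g x ∈ X)
    (q : Nat.Primes) :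
    (∀ x ∈ X, evFin L q (endDiff (smulEnd (Idele L) g) x) =
        endDiff ((embSys L q).shift g) (evFin L q x)) ∧
      ∀ x ∈ X, evFin L q (endNorm p (smulEnd (Idele L) g) x) =
        endNorm p ((embSys L q).shift g) (evFin L q x) :=
  comm_endDiff _ _ hX fun _ _ => rfl

variable (T : Finset Nat.Primes)
  (hT : ∀ q ∉ T, IsUnramifiedAtRel (⊤ : Subgroup (L ≃ₐ[ℚ] L)) q)

include hc hT in
theorem hOrd_tIdelesOff_self :
    hOrd (endDiff (smulEnd (Idele L) g)) (endNorm p (smulEnd (Idele L) g))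
        (tIdelesOff H' (T : Set Nat.Primes) T) = 1 ∧
      hOrd (endNorm p (smulEnd (Idele L) g)) (endDiff (smulEnd (Idele L) g))
        (tIdelesOff H' (T : Set Nat.Primes) T) = 1 := by
  have hord := isOrderP_tIdelesOff (H' := H') hc (T : Set Nat.Primes) (T : Set Nat.Primes)
  have hloc : ∀ q ∉ T,
      hOrd (endDiff ((embSys L q).shift g)) (endNorm p ((embSys L q).shift g))
          ((embSys L q).fam H' (QUnits.unitGroup q) Set.univ) = 1 ∧
        hOrd (endNorm p ((embSys L q).shift g)) (endDiff ((embSys L q).shift g))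
          ((embSys L q).fam H' (QUnits.unitGroup q) Set.univ) = 1 := by
    intro q hq
    obtain ⟨n, h1, h2, -⟩ := OrbitSys.hOrd_fam hc
      (fun τ v hv => embSys_unitGroup_stable q τ hv) Set.univ (fun _ _ _ _ => trivial)
      (embSys_localHyp_units hc (hT q hq) Set.univ)
    exact ⟨h1.trans (one_pow n), h2⟩
  have main : ∀ (u v : Idele L →+ Idele L)
      (u' v' : ∀ q, (Emb L q → QUnits q) →+ (Emb L q → QUnits q)),
      (∀ q, ∀ x ∈ tIdelesOff H' (T : Set Nat.Primes) T, evFin L q (u x) = u' q (evFin L q x)) →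
      (∀ q, ∀ x ∈ tIdelesOff H' (T : Set Nat.Primes) T, evFin L q (v x) = v' q (evFin L q x)) →
      (∀ x ∈ tIdelesOff H' (T : Set Nat.Primes) T, v x ∈ tIdelesOff H' (T : Set Nat.Primes) T) →
      (∀ q ∉ T, hOrd (u' q) (v' q) ((embSys L q).fam H' (QUnits.unitGroup q) Set.univ) = 1) →
      hOrd u v (tIdelesOff H' (T : Set Nat.Primes) T) = 1 := by
    intro u v u' v' hu hv hvmem h1
    rw [hOrd_eq_one_iff]
    intro f hf h0
    classical
    have hex : ∀ q, ∃ y ∈ (embSys L q).fam H' (QUnits.unitGroup q) Set.univ,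
        v' q y = evFin L q f ∧ (q ∈ T → y = 0) := by
      intro q
      by_cases hq : q ∈ T
      · exact ⟨0, zero_mem _, by rw [map_zero, hf.2.2 q hq], fun _ => rfl⟩
      · obtain ⟨y, hy, e⟩ := hOrd_eq_one_iff.1 (h1 q hq) (evFin L q f)
          (evFin_mem_fam hf.1.1 q _ fun φ => hf.1.2 q hq φ)
          (by rw [← hu q f hf, h0, map_zero])
        exact ⟨y, hy, e, fun h => absurd h hq⟩
    choose y hy hye hy0 using hex
    obtain ⟨f', hf', hfin, hinf⟩ := exists_idele_of_fam H' T y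
      (fun q => ⟨(hy q).1, (hy q).2.1, fun _ => AddSubgroup.mem_top _, (hy q).2.2.2⟩)
      (fun q _ φ => (hy q).2.2.1 φ) (zero_mem _)
    have hmem : f' ∈ tIdelesOff H' (T : Set Nat.Primes) T :=
      ⟨hf', hinf, fun q hq => (hfin q).trans (hy0 q hq)⟩
    refine ⟨f', hmem, idele_eq_of_ev (fun q => ?_) ((hvmem f' hmem).2.1.trans hf.2.1.symm)⟩
    rw [hv q f' hmem, hfin, hye]
  exact ⟨main _ _ _ _ (fun q => (evFin_comm hc hord.mem q).1) (fun q => (evFin_comm hc hord.mem q).2)
      hord.isHPair.right_mem (fun q hq => (hloc q hq).1),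
    main _ _ _ _ (fun q => (evFin_comm hc hord.mem q).2) (fun q => (evFin_comm hc hord.mem q).1)
      hord.isHPair.left_mem (fun q hq => (hloc q hq).2)⟩

include hc hT in
theorem hOrd_tIdelesOff (U : Finset Nat.Primes) : U ⊆ T →
    ∃ n : ℕ, hOrd (endDiff (smulEnd (Idele L) g)) (endNorm p (smulEnd (Idele L) g))
        (tIdelesOff H' (T : Set Nat.Primes) ((T : Set Nat.Primes) \ U)) = p ^ n ∧
      hOrd (endNorm p (smulEnd (Idele L) g)) (endDiff (smulEnd (Idele L) g))
        (tIdelesOff H' (T : Set Nat.Primes) ((T : Set Nat.Primes) \ U)) = 1 ∧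
      p * ∑ q ∈ U, Nat.card (PlacesAbove H q) =
        (∑ q ∈ U, Nat.card (PlacesAbove H' q)) + (p - 1) * n := by
  classical
  induction U using Finset.induction_on with
  | empty =>
    intro _
    obtain ⟨h1, h2⟩ := hOrd_tIdelesOff_self hc T hT
    refine ⟨0, ?_, ?_, by simp⟩ <;> simpa
  | @insert a U ha ih =>
    intro hsub
    obtain ⟨haT, hU⟩ := Finset.insert_subset_iff.1 hsub
    obtain ⟨n, hn1, hn2, hn3⟩ := ih hU
    obtain ⟨k, hk1, hk2, hk3⟩ := OrbitSys.hOrd_fam hc (embSys_top_stable a) Set.univ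
      (fun _ _ _ _ => trivial) (embSys_localHyp hc Set.univ)
    rw [orbCount_embSys, orbCount_embSys] at hk3
    set Z : Set Nat.Primes := (T : Set Nat.Primes) \ ↑(insert a U) with hZ
    have hZmem : ∀ q, q ∈ (T : Set Nat.Primes) \ ↑U ↔ q ∈ Z ∨ q = a := by
      intro q
      by_cases hqa : q = a
      · subst hqa; simp [haT, ha]
      · simp [hZ, hqa]
    have hord := isOrderP_tIdelesOff (H' := H') hc (T : Set Nat.Primes) Z
    have hcm := evFin_comm hc hord.mem a
    have hker : tIdelesOff H' (T : Set Nat.Primes) Z ⊓ (evFin L a).ker =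
        tIdelesOff H' (T : Set Nat.Primes) ((T : Set Nat.Primes) \ ↑U) := by
      ext f
      constructor
      · rintro ⟨hf, h0⟩
        refine ⟨hf.1, hf.2.1, fun q hq => ?_⟩
        rcases (hZmem q).1 hq with hq' | rfl
        · exact hf.2.2 q hq'
        · exact h0
      · intro hf
        exact ⟨⟨hf.1, hf.2.1, fun q hq => hf.2.2 q ((hZmem q).2 (Or.inl hq))⟩,
          hf.2.2 a ((hZmem a).2 (Or.inr rfl))⟩
    have himg : (tIdelesOff H' (T : Set Nat.Primes) Z).map (evFin L a) =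
        (embSys L a).fam H' ⊤ Set.univ := by
      apply le_antisymm
      · rintro _ ⟨f, hf, rfl⟩
        exact evFin_mem_fam hf.1.1 a ⊤ fun _ => AddSubgroup.mem_top _
      · intro v hv
        obtain ⟨f, hf, hfin, hinf⟩ := exists_idele_of_fam H' T (Pi.single a v) (fun q => by
            by_cases hq : q = a
            · subst hq; rw [Pi.single_eq_same]; exact hv
            · rw [Pi.single_eq_of_ne hq]; exact zero_mem _)
          (fun q hq φ => by
            rw [Pi.single_eq_of_ne (fun e : q = a => hq (e ▸ haT))]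
            exact zero_mem _)
          (zero_mem _)
        refine ⟨f, ⟨hf, hinf, fun q hq => ?_⟩, by rw [hfin, Pi.single_eq_same]⟩
        rw [hfin, Pi.single_eq_of_ne (fun e : q = a => hq.2 (e ▸ Finset.mem_insert_self a U))]
    have hb := hOrd_eq_one_of_map (evFin L a) hord.isHPair.symm hcm.2 hcm.1
      (by rw [hker, hn2]) (by rw [himg, hk2])
    refine ⟨n + k, ?_, hb, ?_⟩
    · have hm := hOrd_mult (evFin L a) hord.isHPair hcm.1 hcm.2
      rw [hker, himg, hn1, hk1, hn2, hk2, hb, mul_one, one_mul, one_mul] at hm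
      rw [← hm, pow_add]
    · rw [Finset.sum_insert ha, Finset.sum_insert ha, mul_add, hn3, hk3, mul_add]
      omega

include hc hT in
/-- The Herbrand quotient of the invariant `T`-ideles. -/
theorem hOrd_tIdelesFixed :
    ∃ n : ℕ, hOrd (endDiff (smulEnd (Idele L) g)) (endNorm p (smulEnd (Idele L) g))
        (tIdelesFixed H' (T : Set Nat.Primes)) = p ^ n ∧
      hOrd (endNorm p (smulEnd (Idele L) g)) (endDiff (smulEnd (Idele L) g))
        (tIdelesFixed H' (T : Set Nat.Primes)) = 1 ∧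
      p * (Nat.card (InfPlacesAbove H) + ∑ q ∈ T, Nat.card (PlacesAbove H q)) =
        (Nat.card (InfPlacesAbove H') + ∑ q ∈ T, Nat.card (PlacesAbove H' q)) + (p - 1) * n := by
  obtain ⟨n, hn1, hn2, hn3⟩ := hOrd_tIdelesOff hc T hT T subset_rfl
  rw [sdiff_self] at hn1 hn2
  obtain ⟨k, hk1, hk2, hk3⟩ := OrbitSys.hOrd_fam (S := infSys L) hc
    (W := (⊤ : AddSubgroup CUnits)) (fun _ v _ => AddSubgroup.mem_top _) Set.univ
    (fun _ _ _ _ => trivial) (infSys_localHyp hc Set.univ)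
  rw [orbCount_infSys, orbCount_infSys] at hk3
  have hord := isOrderP_tIdelesFixed (H' := H') hc (T : Set Nat.Primes)
  have hcm := comm_endDiff (p := p) (evInf L) ((infSys L).shift g) hord.mem fun _ _ => rfl
  have hker : tIdelesFixed H' (T : Set Nat.Primes) ⊓ (evInf L).ker =
      tIdelesOff H' (T : Set Nat.Primes) (⊥ : Set Nat.Primes) := by
    ext f
    exact ⟨fun ⟨h1, h2⟩ => ⟨h1, h2, fun q hq => absurd hq (Set.notMem_empty q)⟩,
      fun h => ⟨h.1, h.2.1⟩⟩
  have himg : (tIdelesFixed H' (T : Set Nat.Primes)).map (evInf L) =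
      (infSys L).fam H' ⊤ Set.univ := by
    apply le_antisymm
    · rintro _ ⟨f, hf, rfl⟩
      exact evInf_mem_fam hf.1
    · intro w hw
      obtain ⟨f, hf, -, hinf⟩ := exists_idele_of_fam H' T (fun _ => 0) (fun _ => zero_mem _)
        (fun _ _ _ => zero_mem _) hw
      exact ⟨f, hf, hinf⟩
  have hb := hOrd_eq_one_of_map (evInf L) hord.isHPair.symm hcm.2 hcm.1
    (by rw [hker, hn2]) (by rw [himg, hk2])
  refine ⟨n + k, ?_, hb, ?_⟩
  · have hm := hOrd_mult (evInf L) hord.isHPair hcm.1 hcm.2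
    rw [hker, himg, hn1, hk1, hn2, hk2, hb, mul_one, one_mul, one_mul] at hm
    rw [← hm, pow_add]
  · rw [mul_add, hn3, hk3, mul_add]
    omega

end FermatLib.CFT
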