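import Fermat.Agent.CFT.IdeleBasic

/-!
Almost all primes are unramified.
-/

set_option autoImplicit false

open NumberField

namespace FermatLib.CFT

variable (L : Type) [Field L] [NumberField L]

/-- Outside a finite set of primes every inertia group is trivial. -/
theorem exists_unramified_outside : ∃ T : Finset Nat.Primes, ∀ q ∉ T,
    ∀ H : Subgroup (L ≃ₐ[ℚ] L), IsUnramifiedAtRel H q := by
  classical
  let pb := Field.powerBasisOfFiniteOfSeparable ℚ L
  obtain ⟨d, hd, hint⟩ : ∃ d : ℤ, d ≠ 0 ∧ IsIntegral ℤ (d • pb.gen) :=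
    ((IsFractionRing.isAlgebraic_iff ℤ ℚ L).mpr
      (Algebra.IsAlgebraic.isAlgebraic pb.gen)).exists_integral_multiple
  have hne : ∀ g : L ≃ₐ[ℚ] L, g ≠ 1 → g (d • pb.gen) - d • pb.gen ≠ 0 := by
    intro g hg h
    rw [map_zsmul, ← smul_sub, smul_eq_zero, sub_eq_zero] at h
    exact hg (AlgEquiv.coe_toAlgHom_injective (pb.algHom_ext (h.resolve_left hd)))
  have hfin : (⋃ g : {g : L ≃ₐ[ℚ] L // g ≠ 1},
      {q : Nat.Primes | ∃ φ : Emb L q, ‖φ ((g : L ≃ₐ[ℚ] L) (d • pb.gen) - d • pb.gen)‖ ≠ 1}).Finite :=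
    Set.finite_iUnion fun g => finite_setOf_norm_ne_one (hne g g.2)
  refine ⟨hfin.toFinset, fun q hq H φ g _ hg => ?_⟩
  by_contra hg1
  refine hq (hfin.mem_toFinset.2 (Set.mem_iUnion.2 ⟨⟨g, hg1⟩, φ, fun h => ?_⟩))
  rw [map_sub] at h
  exact (hg.2 _ (φ.norm_le_one_of_isIntegral hint)).ne h

end FermatLib.CFT
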