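import Fermat.Agent.CFT.FirstIdeles
import Fermat.Agent.CFT.IdeleUnramified
import Fermat.Agent.CFT.IdeleFiniteness

/-!
The first inequality: the Herbrand quotient of the invariant idele classes is `p`.
-/

set_option autoImplicit false

open NumberField

namespace FermatLib.CFT

open Herbrand

variable {L : Type} [Field L] [NumberField L]

/-- Hilbert 90 for a subgroup of the Galois group, additive form. -/
theorem lunits_h1 (K : Subgroup (L ≃ₐ[ℚ] L)) (x : K → LUnits L)
    (hx : ∀ a b : K, x (a * b) = (a : L ≃ₐ[ℚ] L) • x b + x a) :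
    ∃ y : LUnits L, ∀ a : K, x a = (a : L ≃ₐ[ℚ] L) • y - y := by
  classical
  have hli : LinearIndependent L (fun (h : K) (t : L) => (h : L ≃ₐ[ℚ] L) t) := by
    refine LinearIndependent.comp (linearIndependent_monoidHom L L)
      (fun h : K => ((h : L ≃ₐ[ℚ] L) : L →* L)) ?_
    intro a b e
    exact Subtype.ext (AlgEquiv.ext fun t => DFunLike.congr_fun e t)
  obtain ⟨θ, hθ⟩ : ∃ θ : L, ∑ h : K, ((x h).val : L) * (h : L ≃ₐ[ℚ] L) θ ≠ 0 := by
    by_contra! hall
    exact (x 1).val.ne_zero (Fintype.linearIndependent_iff.1 hli (fun h => ((x h).val : L))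
      (funext fun t => by simpa [Finset.sum_apply, smul_eq_mul] using hall t) 1)
  set S := ∑ h : K, ((x h).val : L) * (h : L ≃ₐ[ℚ] L) θ with hS
  refine ⟨-LUnits.of (Units.mk0 S hθ), fun a => LUnits.ext_val ?_⟩
  have key : ((x a).val : L) * (a : L ≃ₐ[ℚ] L) S = S := by
    conv_rhs => rw [hS, ← Equiv.sum_comp (Equiv.mulLeft a)]
    rw [hS, map_sum, Finset.mul_sum]
    refine Finset.sum_congr rfl fun h _ => ?_
    have e := congrArg (fun u : LUnits L => (u.val : L)) (hx a h)
    simp only [LUnits.val_add, LUnits.val_smul] at e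
    rw [Equiv.coe_mulLeft, map_mul, e, Subgroup.coe_mul, AlgEquiv.mul_apply]
    ring
  rw [sub_eq_add_neg, LUnits.val_add, LUnits.val_smul, neg_neg, LUnits.val_neg, map_inv₀]
  show ((x a).val : L) = ((a : L ≃ₐ[ℚ] L) S)⁻¹ * S
  rw [eq_inv_mul_iff_mul_eq₀ (by simpa using hθ), mul_comm]
  exact key

theorem smul_mk_idele (g : L ≃ₐ[ℚ] L) (f : Idele L) :
    g • (QuotientAddGroup.mk f : IdeleClass L) = QuotientAddGroup.mk (g • f) := rfl

/-- Invariant classes come from invariant ideles. -/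
theorem exists_fixed_idele_of_fixed_class' (K : Subgroup (L ≃ₐ[ℚ] L)) {c : IdeleClass L}
    (hc : c ∈ fixedPts K (IdeleClass L)) :
    ∃ f ∈ fixedPts K (Idele L), QuotientAddGroup.mk f = c := by
  obtain ⟨f, rfl⟩ := QuotientAddGroup.mk_surjective c
  have hex : ∀ a : K, ∃ x : LUnits L, principalIdele L x = (a : L ≃ₐ[ℚ] L) • f - f := by
    intro a
    have h : (a : L ≃ₐ[ℚ] L) • f - f ∈ principalIdeles L := by
      rw [← QuotientAddGroup.eq_zero_iff, QuotientAddGroup.mk_sub, ← smul_mk_idele, sub_eq_zero]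
      exact hc a
    rwa [principalIdeles_eq_range] at h
  choose x hx using hex
  obtain ⟨y, hy⟩ := lunits_h1 K x fun a b => principalIdele_injective (by
    rw [map_add, principalIdele_smul, hx, hx, hx, Subgroup.coe_mul, mul_smul, smul_sub]
    abel)
  refine ⟨f - principalIdele L y, fun a => ?_, ?_⟩
  · show (a : L ≃ₐ[ℚ] L) • (f - principalIdele L y) = f - principalIdele L y
    have e := hx a
    rw [hy, map_sub, principalIdele_smul] at e
    rw [smul_sub, sub_eq_sub_iff_sub_eq_sub]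
    exact e.symm
  · rw [QuotientAddGroup.mk_sub, sub_eq_self, QuotientAddGroup.eq_zero_iff, principalIdeles_eq_range]
    exact ⟨y, rfl⟩

theorem moduleFinite_of_fg {A : Type*} [AddCommGroup A] {X : AddSubgroup A} (h : X.FG) :
    Module.Finite ℤ X :=
  Module.Finite.iff_addGroup_fg.2 ((AddGroup.fg_iff_addSubgroup_fg X).2 h)

variable [IsGalois ℚ L] {p : ℕ} [hp : Fact p.Prime] {H' H : Subgroup (L ≃ₐ[ℚ] L)} {g : L ≃ₐ[ℚ] L}
  (hc : CyclicPair p H' H g)

include hc in
/-- The first inequality: the two orders of the invariant classes differ by the factor `p`. -/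
theorem hOrd_ideleClass :
    hOrd (endDiff (smulEnd (IdeleClass L) g)) (endNorm p (smulEnd (IdeleClass L) g))
        (fixedPts H' (IdeleClass L)) =
      p * hOrd (endNorm p (smulEnd (IdeleClass L) g)) (endDiff (smulEnd (IdeleClass L) g))
        (fixedPts H' (IdeleClass L)) ∧
      hOrd (endNorm p (smulEnd (IdeleClass L) g)) (endDiff (smulEnd (IdeleClass L) g))
        (fixedPts H' (IdeleClass L)) ≠ 0 := by
  classical
  obtain ⟨T₀, hT₀⟩ := exists_unramified_outside L
  obtain ⟨T₁, hT₁⟩ := exists_primes_generate L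
  set T : Finset Nat.Primes := T₀ ∪ T₁
  set X := tIdelesFixed (L := L) H' (T : Set Nat.Primes) with hXdef
  obtain ⟨n, hXa, hXb, hcount⟩ := hOrd_tIdelesFixed hc T
    (fun q hq => hT₀ q (fun h => hq (Finset.mem_union_left _ h)) ⊤)
  have hord := isOrderP_tIdelesFixed (H' := H') hc (T : Set Nat.Primes)
  -- the units
  set E := tUnits L (T : Set Nat.Primes) ⊓ fixedPts H' (LUnits L) with hE
  have hEord : IsOrderP p (smulEnd (LUnits L) g) E := (isOrderP_fixedPts hc).mono inf_le_right
    fun x hx => ⟨smul_mem_tUnits _ g hx.1, (isOrderP_fixedPts hc).mem x hx.2⟩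
  have : Module.Finite ℤ E := moduleFinite_of_fg (tUnits_fixed_fg H' T)
  obtain ⟨hEa, hEb, hEl⟩ := hOrd_lattice hEord
  have hEg : E ⊓ (endDiff (smulEnd (LUnits L) g)).ker =
      tUnits L (T : Set Nat.Primes) ⊓ fixedPts H (LUnits L) := by
    rw [hE, inf_assoc, fixedPts_inf_ker hc]
  rw [hEg] at hEl
  have hr := tUnits_fixed_rank H' T
  have hr0 := tUnits_fixed_rank H T
  rw [← hE] at hr
  rw [← hr, ← hr0] at hcount
  -- transfer of the units to the ideles
  set mk : Idele L →+ IdeleClass L := QuotientAddGroup.mk' (principalIdeles L) with hmk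
  have hker : X ⊓ mk.ker = E.map (principalIdele L) := by
    ext f
    constructor
    · rintro ⟨hf, h0⟩
      rw [hmk, QuotientAddGroup.ker_mk', principalIdeles_eq_range] at h0
      obtain ⟨x, rfl⟩ := h0
      exact ⟨x, ⟨hf.2, (mem_fixedPts_principalIdele_iff H' x).1 hf.1⟩, rfl⟩
    · rintro ⟨x, ⟨hxu, hxf⟩, rfl⟩
      refine ⟨⟨(mem_fixedPts_principalIdele_iff H' x).2 hxf, hxu⟩, ?_⟩
      rw [hmk, QuotientAddGroup.ker_mk', principalIdeles_eq_range]
      exact ⟨x, rfl⟩
  have hPcm := comm_endDiff (p := p) (principalIdele L) (smulEnd (Idele L) g) hEord.mem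
    fun x _ => principalIdele_smul g x
  have hPinj : E ⊓ (principalIdele L).ker = ⊥ := by
    rw [(AddMonoidHom.ker_eq_bot_iff _).2 principalIdele_injective, inf_bot_eq]
  have hA := hOrd_map_of_injOn _ hEord.isHPair hPcm.1 hPcm.2 hPinj
  have hB := hOrd_map_of_injOn _ hEord.isHPair.symm hPcm.2 hPcm.1 hPinj
  -- the image
  have himg : X.map mk = fixedPts H' (IdeleClass L) := by
    apply le_antisymm
    · rintro _ ⟨f, hf, rfl⟩
      exact (mem_fixedPts_iff_forall _ _ _).2 fun h hh =>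
        (smul_mk_idele h f).trans (congrArg _ ((mem_fixedPts_iff_forall _ _ f).1 hf.1 h hh))
    · intro c hcfix
      obtain ⟨f, hf, rfl⟩ := exists_fixed_idele_of_fixed_class' H' hcfix
      obtain ⟨x, hx, hxm⟩ := hT₁ (T : Set Nat.Primes)
        (Finset.coe_subset.2 Finset.subset_union_right) H' f hf
      refine ⟨f - principalIdele L x,
        ⟨AddSubgroup.sub_mem _ hf ((mem_fixedPts_principalIdele_iff H' x).2 hx), hxm⟩, ?_⟩
      show QuotientAddGroup.mk (f - principalIdele L x) = QuotientAddGroup.mk f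
      rw [QuotientAddGroup.mk_sub, sub_eq_self, QuotientAddGroup.eq_zero_iff, principalIdeles_eq_range]
      exact ⟨x, rfl⟩
  obtain ⟨hm, hCb⟩ := hOrd_image_of_right_trivial (X := X) mk (smulEnd (IdeleClass L) g) hord
    (fun f _ => (smul_mk_idele g f).symm) (by rw [hker, hA]; exact hEa) hXb
  rw [hker, himg, hA, hB, hXa] at hm
  rw [himg] at hCb
  refine ⟨?_, hCb⟩
  set aE := hOrd (endDiff (smulEnd (LUnits L) g)) (endNorm p (smulEnd (LUnits L) g)) E
  set bE := hOrd (endNorm p (smulEnd (LUnits L) g)) (endDiff (smulEnd (LUnits L) g)) E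
  have hp0 : (p : ℕ) ≠ 0 := hp.out.ne_zero
  have hp1 : p - 1 ≠ 0 := Nat.sub_ne_zero_of_lt hp.out.one_lt
  -- compare exponents
  set r := Module.finrank ℤ E
  set r0 := Module.finrank ℤ ↥(tUnits L (T : Set Nat.Primes) ⊓ fixedPts H (LUnits L))
  have hkey : aE * p = bE * p ^ n := by
    apply Nat.pow_left_injective hp1
    show (aE * p) ^ (p - 1) = (bE * p ^ n) ^ (p - 1)
    rw [mul_pow, mul_pow, ← pow_mul]
    apply mul_right_cancel₀ (pow_ne_zero (r + 1) hp0)
    calc aE ^ (p - 1) * p ^ (p - 1) * p ^ (r + 1) = (aE ^ (p - 1) * p ^ r) * p ^ p := by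
          conv_rhs => rw [show p ^ p = p ^ (p - 1) * p by
            rw [← pow_succ, Nat.sub_add_cancel hp.out.one_le]]
          rw [pow_succ]; ring
      _ = bE ^ (p - 1) * p ^ (p * (r0 + 1)) := by rw [hEl, mul_assoc, ← pow_add, mul_add, mul_one]
      _ = bE ^ (p - 1) * p ^ (n * (p - 1)) * p ^ (r + 1) := by
          rw [hcount, pow_add, mul_comm n]; ring
  apply mul_left_cancel₀ hEa
  rw [hm, ← mul_assoc aE p, hkey]
  ring

include hc in
/-- Some invariant class is not a norm. -/
theorem exists_class_not_norm :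
    ∃ b ∈ fixedPts H (IdeleClass L), b ∉ relNormSet (IdeleClass L) H' H := by
  obtain ⟨ha, hb⟩ := hOrd_ideleClass hc
  by_contra! hall
  have h1 : hOrd (endDiff (smulEnd (IdeleClass L) g)) (endNorm p (smulEnd (IdeleClass L) g))
      (fixedPts H' (IdeleClass L)) = 1 := by
    rw [hOrd_fixedPts_eq hc, AddSubgroup.relIndex_eq_one]
    intro b hb'
    have := hall b hb'
    rwa [relNormSet_eq hc] at this
  rw [h1] at ha
  exact hp.out.one_lt.ne' (Nat.eq_one_of_mul_eq_one_right ha.symm)

include hc in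
/-- A norm index at most `p` forces trivial first cohomology. -/
theorem ideleClass_h1_of_norm_index
    (hle : ∀ s : Finset (IdeleClass L), (∀ b ∈ s, b ∈ fixedPts H (IdeleClass L)) →
      (∀ b ∈ s, ∀ c ∈ s, b - c ∈ relNormSet (IdeleClass L) H' H → b = c) → s.card ≤ p) :
    ∀ a ∈ fixedPts H' (IdeleClass L), relNorm (IdeleClass L) H' H a = 0 →
      ∃ b ∈ fixedPts H' (IdeleClass L), g • b - b = a := by
  rw [← hOrd_norm_eq_one_iff hc]
  obtain ⟨ha, hb⟩ := hOrd_ideleClass hc
  have h := (hOrd_fixedPts_le hc hle).2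
  rw [ha] at h
  have := Nat.le_of_mul_le_mul_left (h.trans_eq (mul_one p).symm) hp.out.pos
  omega

end FermatLib.CFT
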