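import Fermat.Agent.CFT.FirstPlaces

/-!
The orbit system of the complex embeddings and its local hypothesis.
-/

set_option autoImplicit false

open NumberField ComplexConjugate

namespace FermatLib.CFT

open Herbrand

variable {L : Type} [Field L] [NumberField L]

variable (L) in
/-- Complex embeddings with the two actions. -/
noncomputable def infSys :
    OrbitSys (ℂ ≃ₐ[ℝ] ℂ) (L ≃ₐ[ℚ] L) (L →+* ℂ) CUnits where
  post τ φ := (τ : ℂ →+* ℂ).comp φ
  post_one _ := rfl
  post_mul _ _ _ := rfl
  pre φ g := φ.comp (g : L →+* L)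
  pre_one _ := rfl
  pre_mul _ _ _ := rfl
  pre_post _ _ _ := rfl
  act :=
    { toFun := fun τ => MonoidHom.toAdditive (Units.map (τ : ℂ →* ℂ))
      map_one' := AddMonoidHom.ext fun x => CUnits.toField_injective rfl
      map_mul' := fun a b => AddMonoidHom.ext fun x => CUnits.toField_injective rfl }

theorem algEquiv_complex_eq (τ : ℂ ≃ₐ[ℝ] ℂ) : τ = 1 ∨ τ = Complex.conjAe := by
  rcases Complex.real_algHom_eq_id_or_conj (τ : ℂ →ₐ[ℝ] ℂ) with h | h
  · exact Or.inl (AlgEquiv.ext fun x => AlgHom.congr_fun h x)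
  · exact Or.inr (AlgEquiv.ext fun x => AlgHom.congr_fun h x)

theorem infSys_post_conj (φ : L →+* ℂ) :
    (infSys L).post Complex.conjAe φ = (starRingEnd ℂ).comp φ := rfl

theorem infSys_act_conj (v : CUnits) : (infSys L).act Complex.conjAe v = conjUnits v :=
  CUnits.toField_injective rfl

theorem infSys_rel_iff (K : Subgroup (L ≃ₐ[ℚ] L)) (φ ψ : L →+* ℂ) :
    (infSys L).Rel K φ ψ ↔ (MulAction.orbitRel K (InfinitePlace L)).r
      (InfinitePlace.mk φ) (InfinitePlace.mk ψ) := by
  rw [MulAction.orbitRel_apply]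
  constructor
  · rintro ⟨τ, h, hh, rfl⟩
    refine ⟨⟨h, hh⟩, ?_⟩
    show (h : L ≃ₐ[ℚ] L) • InfinitePlace.mk _ = _
    rw [InfinitePlace.smul_mk, InfinitePlace.mk_eq_iff]
    have hh' : ((φ.comp (h : L →+* L)).comp (h.symm : L →+* L)) = φ :=
      RingHom.ext fun x => congrArg φ (h.apply_symm_apply x)
    rcases algEquiv_complex_eq τ with rfl | rfl
    · exact Or.inl hh'
    · refine Or.inr (RingHom.ext fun x => ?_)
      show conj (conj (φ (h (h.symm x)))) = φ x
      rw [Complex.conj_conj, h.apply_symm_apply]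
  · rintro ⟨⟨h, hh⟩, e⟩
    have e' : (h : L ≃ₐ[ℚ] L) • InfinitePlace.mk ψ = InfinitePlace.mk φ := e
    rw [InfinitePlace.smul_mk, InfinitePlace.mk_eq_iff] at e'
    rcases e' with e' | e'
    · refine ⟨1, h, hh, RingHom.ext fun x => ?_⟩
      rw [← e']
      show ψ (h.symm (h x)) = ψ x
      rw [h.symm_apply_apply]
    · refine ⟨Complex.conjAe, h, hh, RingHom.ext fun x => ?_⟩
      rw [← e']
      show conj (conj (ψ (h.symm (h x)))) = ψ x
      rw [Complex.conj_conj, h.symm_apply_apply]

theorem orbCount_infSys (K : Subgroup (L ≃ₐ[ℚ] L)) :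
    (infSys L).orbCount K Set.univ = Nat.card (InfPlacesAbove K) := by
  rw [OrbitSys.orbCount, Set.image_univ, ← Nat.card_coe_set_eq]
  refine Nat.card_congr (Equiv.ofBijective
    (fun U => (Quotient.mk _ (InfinitePlace.mk U.2.choose) : InfPlacesAbove K)) ⟨?_, ?_⟩)
  · intro U V h
    apply Subtype.ext
    rw [← U.2.choose_spec, ← V.2.choose_spec]
    exact OrbitSys.orb_eq_iff.2 ((infSys_rel_iff K _ _).2 (Quotient.exact h))
  · intro c
    induction c using Quotient.inductionOn with
    | h w =>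
      refine ⟨⟨_, w.embedding, rfl⟩, Quotient.sound ?_⟩
      have h := (infSys_rel_iff K _ _).1 (OrbitSys.orb_eq_iff.1
        (Exists.choose_spec (p := fun ψ => (infSys L).orb K ψ = _)
          (⟨w.embedding, rfl⟩ : ∃ ψ, (infSys L).orb K ψ = (infSys L).orb K w.embedding)))
      rw [InfinitePlace.mk_embedding] at h
      exact h

variable {p : ℕ} [hp : Fact p.Prime] {H' H : Subgroup (L ≃ₐ[ℚ] L)} {g : L ≃ₐ[ℚ] L}
  (hc : CyclicPair p H' H g)

include hc in
/-- At infinity, the local norm index is `p` (then `p = 2`). -/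
theorem infSys_localHyp (Y : Set (L →+* ℂ)) : (infSys L).LocalHyp p H' g ⊤ p Y := by
  intro φ _ τ h hh he
  have hgH' : g * h ∉ H' := fun h' => by
    have hd := hc.dvd_of_pow_mem 1 (by simpa using H'.mul_mem h' (H'.inv_mem hh))
    exact hp.out.one_lt.ne' (Nat.dvd_one.1 hd)
  rcases algEquiv_complex_eq τ with rfl | rfl
  · exfalso
    apply hgH'
    have : g * h = 1 := AlgEquiv.ext fun x => φ.injective (RingHom.congr_fun he x).symm
    rw [this]
    exact one_mem H'
  -- `p = 2`
  have hsq : (g * h) * (g * h) = 1 := by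
    refine AlgEquiv.ext fun x => φ.injective ?_
    have h1 := RingHom.congr_fun he ((g * h) x)
    have h2 := RingHom.congr_fun he x
    show φ ((g * h) ((g * h) x)) = φ x
    rw [show φ ((g * h) ((g * h) x)) = conj (φ ((g * h) x)) from h1.symm,
      show φ ((g * h) x) = conj (φ x) from h2.symm, Complex.conj_conj]
  have hp2 : p = 2 := by
    refine (Nat.prime_dvd_prime_iff_eq hp.out Nat.prime_two).1 (hc.dvd_of_pow_mem 2 ?_)
    have : g ^ 2 = ((g * h) * (g * h)) * (h⁻¹ * (g⁻¹ * h⁻¹ * g)) := by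
      rw [pow_two]; group
    rw [this, hsq, one_mul]
    exact H'.mul_mem (H'.inv_mem hh) (hc.conj_mem' _ (H'.inv_mem hh))
  subst hp2
  have hV : (infSys L).valueGroup H' ⊤ φ = ⊤ := by
    refine eq_top_iff.2 fun v _ => ⟨AddSubgroup.mem_top _, fun τ a ha e => ?_⟩
    rcases algEquiv_complex_eq τ with rfl | rfl
    · rw [map_one]; rfl
    · exfalso
      apply hgH'
      have : g * h = a := AlgEquiv.ext fun x => φ.injective
        ((RingHom.congr_fun he x).symm.trans (RingHom.congr_fun e x))
      rwa [this]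
  rw [hV]
  have hN : ∀ v : CUnits, endNorm 2 ((infSys L).act Complex.conjAe) v = v + conjUnits v := by
    intro v
    rw [endNorm_apply, Finset.sum_range_succ, Finset.sum_range_one, pow_zero, pow_one,
      infSys_act_conj]
    rfl
  have hD : ∀ v : CUnits, endDiff ((infSys L).act Complex.conjAe) v = conjUnits v - v := fun v => by
    rw [endDiff_apply, infSys_act_conj]
  have hreal : ∀ v : CUnits, conjUnits v = v ↔ ∃ r : ℝ, CUnits.toField v = r := fun v => by
    rw [← CUnits.toField_injective.eq_iff, CUnits.toField_conjUnits, Complex.conj_eq_iff_real]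
  have hmemN : ∀ {r : ℝ} {v : CUnits}, CUnits.toField v = r →
      (v ∈ (⊤ : AddSubgroup CUnits).map (endNorm 2 ((infSys L).act Complex.conjAe)) ↔ 0 < r) := by
    intro r v hr
    constructor
    · rintro ⟨w, -, rfl⟩
      rw [hN, CUnits.toField_add, CUnits.toField_conjUnits, Complex.mul_conj] at hr
      rw [← Complex.ofReal_inj.1 hr]
      exact Complex.normSq_pos.2 (CUnits.toField_ne_zero w)
    · intro hr0
      refine ⟨Additive.ofMul (Units.mk0 (Real.sqrt r : ℂ)
        (Complex.ofReal_ne_zero.2 (Real.sqrt_pos.2 hr0).ne')), AddSubgroup.mem_top _, ?_⟩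
      apply CUnits.toField_injective
      rw [hN, CUnits.toField_add, CUnits.toField_conjUnits, hr]
      show (Real.sqrt r : ℂ) * conj (Real.sqrt r : ℂ) = r
      rw [Complex.conj_ofReal, ← Complex.ofReal_mul, Real.mul_self_sqrt hr0.le]
  constructor
  · rw [hOrd, top_inf_eq, AddSubgroup.relIndex]
    rw [AddSubgroup.index_eq_two_iff]
    refine ⟨⟨Additive.ofMul (-1 : ℂˣ), sub_eq_zero.2 ?_⟩, fun b => ?_⟩
    · refine (infSys_act_conj (L := L) _).trans ?_
      exact CUnits.toField_injective (by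
        rw [CUnits.toField_conjUnits]
        show conj ((-1 : ℂˣ) : ℂ) = ((-1 : ℂˣ) : ℂ)
        simp)
    · obtain ⟨r, hr⟩ := (hreal b.1).1 (sub_eq_zero.1 ((hD b.1).symm.trans b.2))
      rw [AddSubgroup.mem_addSubgroupOf, AddSubgroup.mem_addSubgroupOf,
        hmemN (r := -r) (by
          show CUnits.toField (b.1 + _) = _
          rw [CUnits.toField_add, hr]
          simp [CUnits.toField]), hmemN hr]
      have hr0 : r ≠ 0 := fun h0 => CUnits.toField_ne_zero b.1 (by rw [hr, h0]; rfl)
      rcases lt_or_gt_of_ne hr0 with hlt | hgt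
      · exact Or.inl ⟨by linarith, not_lt.2 hlt.le⟩
      · exact Or.inr ⟨hgt, by simpa using hgt.le⟩
  · rw [hOrd_eq_one_iff]
    intro v _ h0
    rw [hN] at h0
    set z := CUnits.toField v
    have hz : z * conj z = 1 := by
      have := congrArg CUnits.toField h0
      rwa [CUnits.toField_add, CUnits.toField_conjUnits, CUnits.toField_zero] at this
    have hzne : z ≠ 0 := CUnits.toField_ne_zero v
    obtain ⟨w, hw, hwz⟩ : ∃ w : ℂ, w ≠ 0 ∧ conj w = z * w := by
      by_cases h1 : z = -1
      · exact ⟨Complex.I, Complex.I_ne_zero, by rw [Complex.conj_I, h1]; ring⟩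
      · refine ⟨1 + conj z, fun h2 => h1 ?_, by
          rw [map_add, map_one, Complex.conj_conj, mul_add, hz, mul_one, add_comm]⟩
        have h3 := congrArg conj h2
        rw [map_add, map_one, Complex.conj_conj, map_zero] at h3
        exact (eq_neg_of_add_eq_zero_right h3)
    refine ⟨Additive.ofMul (Units.mk0 w hw), AddSubgroup.mem_top _, ?_⟩
    apply CUnits.toField_injective
    rw [hD, sub_eq_add_neg, CUnits.toField_add, CUnits.toField_conjUnits]
    show conj w * CUnits.toField (-Additive.ofMul (Units.mk0 w hw)) = z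
    rw [show CUnits.toField (-Additive.ofMul (Units.mk0 w hw)) = w⁻¹ from Units.val_inv_eq_inv_val _,
      hwz, mul_assoc, mul_inv_cancel₀ hw, mul_one]

end FermatLib.CFT
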