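import Fermat.Agent.CFT.FirstNotSplit

/-!
The consequences of the first inequality used by the second inequality and the class formation.
-/

set_option autoImplicit false

open NumberField

namespace FermatLib.CFT

variable {p : ℕ} [Fact p.Prime] (L : Type) [Field L] [NumberField L]

/-- The classes invariant under `H` come from invariant ideles. -/
theorem exists_fixed_idele_of_fixed_class (H : Subgroup (L ≃ₐ[ℚ] L)) {c : IdeleClass L}
    (hc : c ∈ fixedPts H (IdeleClass L)) :
    ∃ f ∈ fixedPts H (Idele L), QuotientAddGroup.mk f = c :=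
  exists_fixed_idele_of_fixed_class' H hc

theorem exists_generator_of_relIndex {G : Type*} [Group G] {H' H : Subgroup G}
    (hidx : H'.relIndex H = p) : ∃ g ∈ H, g ∉ H' := by
  by_contra! hall
  rw [Subgroup.relIndex_eq_one.2 hall] at hidx
  exact (Fact.out : p.Prime).one_lt.ne hidx

variable [IsGalois ℚ L]

/-- Some invariant class is not a norm (from the first inequality). -/
theorem ideleClass_exists_not_norm (H' H : Subgroup (L ≃ₐ[ℚ] L)) (hle : H' ≤ H)
    [(H'.subgroupOf H).Normal] (hidx : H'.relIndex H = p) :
    ∃ b ∈ fixedPts H (IdeleClass L), b ∉ relNormSet (IdeleClass L) H' H := by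
  obtain ⟨g, hg, hg'⟩ := exists_generator_of_relIndex hidx
  exact exists_class_not_norm (exists_cyclicPair p hle hidx hg hg')

/-- Outside any finite set of primes some place has decomposition group not inside `H'`. -/
theorem exists_place_not_split (H' H : Subgroup (L ≃ₐ[ℚ] L)) (hle : H' ≤ H)
    [(H'.subgroupOf H).Normal] (hidx : H'.relIndex H = p) (T : Finset Nat.Primes) :
    ∃ q ∉ T, ∃ φ : Emb L q, ∃ g ∈ decompGroup φ ⊓ H, g ∉ H' := by
  obtain ⟨g, hg, hg'⟩ := exists_generator_of_relIndex hidx
  exact exists_place_not_split' (exists_cyclicPair p hle hidx hg hg') T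

/-- A norm index at most `p` gives the whole degree `p` axiom. -/
theorem isCyclicStep_of_norm_index_le (H' H : Subgroup (L ≃ₐ[ℚ] L)) (hle : H' ≤ H)
    [(H'.subgroupOf H).Normal] (hidx : H'.relIndex H = p)
    (hN : ∀ s : Finset (IdeleClass L), (∀ b ∈ s, b ∈ fixedPts H (IdeleClass L)) →
      (∀ b ∈ s, ∀ c ∈ s, b - c ∈ relNormSet (IdeleClass L) H' H → b = c) → s.card ≤ p) :
    IsCyclicStep (IdeleClass L) p H' H where
  exists_not_norm := ideleClass_exists_not_norm L H' H hle hidx
  norm_index_le := hN
  h1 _ hg hg' := ideleClass_h1_of_norm_index (exists_cyclicPair p hle hidx hg hg') hN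

end FermatLib.CFT
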