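import Fermat.Agent.CFT.IdeleDescent

/-!
Weak approximation for fixed fields.
-/

set_option autoImplicit false

open NumberField IsDedekindDomain

namespace FermatLib.CFT

variable {K : Type} [Field K] [NumberField K]

/-- Representatives of the places over `T` and the infinite places. -/
abbrev ApproxIndex (K : Type) [Field K] [NumberField K] (T : Finset Nat.Primes) : Type :=
  (Σ q : T, Set.range (Emb.prime (K := K) (q := q.1))) ⊕ InfinitePlace K

/-- The chosen embedding of a place over `T`. -/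
noncomputable def approxEmb {T : Finset Nat.Primes}
    (i : Σ q : T, Set.range (Emb.prime (K := K) (q := q.1))) : Emb K i.1.1 :=
  i.2.2.choose

theorem approxEmb_prime {T : Finset Nat.Primes}
    (i : Σ q : T, Set.range (Emb.prime (K := K) (q := q.1))) : (approxEmb i).prime = i.2.1 :=
  i.2.2.choose_spec

/-- The absolute values of the places. -/
noncomputable def approxAbs (T : Finset Nat.Primes) : ApproxIndex K T → AbsoluteValue K ℝ
  | Sum.inl i => NumberField.place (approxEmb i)
  | Sum.inr w => w.1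

theorem approxAbs_inl {T : Finset Nat.Primes}
    (i : Σ q : T, Set.range (Emb.prime (K := K) (q := q.1))) (x : K) :
    approxAbs T (Sum.inl i) x = ‖approxEmb i x‖ := rfl

theorem approxAbs_inl_natCast {T : Finset Nat.Primes}
    (i : Σ q : T, Set.range (Emb.prime (K := K) (q := q.1))) :
    approxAbs T (Sum.inl i) ((i.1.1 : ℕ) : K) < 1 := by
  rw [approxAbs_inl, map_natCast]
  exact norm_natCast_self_lt_one _

theorem norm_natCast_of_ne {q r : Nat.Primes} (h : r ≠ q) :
    ‖((q : ℕ) : PadicAlgCl (r : ℕ))‖ = 1 := by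
  rw [← Int.cast_natCast, ← map_intCast (algebraMap ℚ_[(r : ℕ)] (PadicAlgCl (r : ℕ))),
    PadicAlgCl.norm_extends, Padic.norm_intCast_eq_one_iff]
  exact Nat.Coprime.isCoprime ((Nat.coprime_primes q.2 r.2).2 fun e => h (Subtype.ext e.symm))

theorem approxAbs_isNontrivial (T : Finset Nat.Primes) :
    ∀ i : ApproxIndex K T, (approxAbs T i).IsNontrivial
  | Sum.inl i => ⟨((i.1.1 : ℕ) : K), Nat.cast_ne_zero.2 i.1.1.2.ne_zero,
      (approxAbs_inl_natCast i).ne⟩
  | Sum.inr w => w.isNontrivial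

theorem approxAbs_pairwise (T : Finset Nat.Primes) :
    Pairwise fun i j : ApproxIndex K T => ¬ (approxAbs T i).IsEquiv (approxAbs T j) := by
  have hinf : ∀ (i : Σ q : T, Set.range (Emb.prime (K := K) (q := q.1))) (w : InfinitePlace K),
      ¬ (approxAbs T (Sum.inl i)).IsEquiv (approxAbs T (Sum.inr w)) := fun i w h => by
    have := h.lt_one_iff.1 (approxAbs_inl_natCast i)
    change w ((i.1.1 : ℕ) : K) < 1 at this
    rw [InfinitePlace.coe_apply, ← InfinitePlace.mk_embedding w] at this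
    rw [show InfinitePlace.mk w.embedding = w from InfinitePlace.mk_embedding w, ← InfinitePlace.coe_apply, ← InfinitePlace.norm_embedding_eq, map_natCast, Complex.norm_natCast] at this
    exact absurd this (not_lt.2 (by exact_mod_cast i.1.1.2.pos))
  rintro (i | w) (j | w') hne h
  · obtain ⟨⟨q, hq⟩, v, hv⟩ := i
    obtain ⟨⟨r, hr⟩, v', hv'⟩ := j
    rcases eq_or_ne r q with rfl | hrq
    · apply hne
      have : v = v' := by
        have e1 := approxEmb_prime (T := T) ⟨⟨r, hr⟩, v, hv⟩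
        have e2 := approxEmb_prime (T := T) ⟨⟨r, hr⟩, v', hv'⟩
        refine e1.symm.trans (Eq.trans ?_ e2)
        exact HeightOneSpectrum.ext (SetLike.ext fun a => (Emb.mem_prime_iff _ a).trans
          (Iff.trans h.lt_one_iff (Emb.mem_prime_iff _ a).symm))
      subst this
      rfl
    · have := h.lt_one_iff.1 (approxAbs_inl_natCast ⟨⟨q, hq⟩, v, hv⟩)
      rw [approxAbs_inl, map_natCast, norm_natCast_of_ne hrq] at this
      exact lt_irrefl _ this
  · exact hinf i w' h
  · exact hinf j w h.symm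
  · exact hne (congrArg Sum.inr ((InfinitePlace.eq_iff_isEquiv (K := K)).2 h))

theorem exists_approx_places (T : Finset Nat.Primes) (z : ApproxIndex K T → K) {ε : ℝ}
    (hε : 0 < ε) : ∃ x : K, ∀ i, approxAbs T i (x - z i) < ε := by
  have : Fintype (ApproxIndex K T) := Fintype.ofFinite _
  obtain ⟨x, hx⟩ := Metric.denseRange_iff.1
    (AbsoluteValue.denseRange_algebraMap_pi (approxAbs_isNontrivial (K := K) T)
      (approxAbs_pairwise T))
    (fun i => (WithAbs.equiv (approxAbs T i)).symm (z i)) ε hε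
  refine ⟨x, fun i => ?_⟩
  rw [dist_comm] at hx
  have := (dist_pi_lt_iff hε).1 hx i
  rw [dist_eq_norm, WithAbs.norm_eq_apply_ofAbs] at this
  exact this

/-- The image of a number field is dense at an infinite place. -/
theorem exists_norm_sub_lt_inf (φ : K →+* ℂ) {c : ℂ}
    (hc : (starRingEnd ℂ).comp φ = φ → starRingEnd ℂ c = c) {ε : ℝ} (hε : 0 < ε) :
    ∃ x : K, ‖φ x - c‖ < ε := by
  have hratre : ∀ a : ℝ, ∀ δ > 0, ∃ r : ℚ, |(r : ℝ) - a| < δ := fun a δ hδ => by
    obtain ⟨r, h1, h2⟩ := exists_rat_btwn (show a - δ < a + δ by linarith)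
    exact ⟨r, abs_lt.2 ⟨by linarith, by linarith⟩⟩
  have hbound : ∀ z : ℂ, ‖z‖ ≤ |z.re| + |z.im| := Complex.norm_le_abs_re_add_abs_im
  by_cases hre : (starRingEnd ℂ).comp φ = φ
  · have him : c.im = 0 := Complex.conj_eq_iff_im.1 (hc hre)
    obtain ⟨r, hr⟩ := hratre c.re ε hε
    refine ⟨(r : K), (hbound _).trans_lt ?_⟩
    simpa [him] using hr
  · obtain ⟨a, ha⟩ : ∃ a : K, (φ a).im ≠ 0 := by
      by_contra! h
      exact hre (RingHom.ext fun x => Complex.conj_eq_iff_im.2 (h x))
    have ha' : 0 < |(φ a).im| := abs_pos.2 ha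
    obtain ⟨s, hs⟩ := hratre (c.im / (φ a).im) (ε / 2 / |(φ a).im|) (by positivity)
    obtain ⟨r, hr⟩ := hratre (c.re - (s : ℝ) * (φ a).re) (ε / 2) (by positivity)
    refine ⟨(r : K) + (s : K) * a, (hbound _).trans_lt ?_⟩
    have h2 : |(s : ℝ) * (φ a).im - c.im| < ε / 2 := by
      rw [lt_div_iff₀ ha', ← abs_mul, sub_mul, div_mul_cancel₀ _ ha] at hs
      exact hs
    have h1 : |(r : ℝ) + (s : ℝ) * (φ a).re - c.re| < ε / 2 := by
      rwa [show (r : ℝ) + (s : ℝ) * (φ a).re - c.re = (r : ℝ) - (c.re - (s : ℝ) * (φ a).re) by ring]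
    simpa using (add_lt_add h1 h2).trans_le (le_of_eq (add_halves ε))

variable {L : Type} [Field L] [NumberField L] [IsGalois ℚ L]

/-- An invariant idele is approximated at `T` and at infinity by an invariant element. -/
theorem exists_fixed_approx (H : Subgroup (L ≃ₐ[ℚ] L)) (T : Finset Nat.Primes) {f : Idele L}
    (hf : f ∈ fixedPts H (Idele L)) {ε : ℝ} (hε : 0 < ε) :
    ∃ x ∈ fixedPts H (LUnits L),
      (∀ q ∈ T, ∀ φ : Emb L q, ‖φ x.val - (f.fin q φ).toField‖ < ε) ∧
      ∀ φ : L →+* ℂ, ‖φ x.val - CUnits.toField (f.inf φ)‖ < ε := by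
  obtain ⟨g, hg, hg'⟩ := exists_fixedField_idele H hf
  let F := IntermediateField.fixedField H
  obtain ⟨φ₀⟩ : Nonempty (L →+* ℂ) := inferInstance
  set ε' := min ε (‖CUnits.toField (f.inf φ₀)‖)
  have hε' : 0 < ε' := lt_min hε (norm_pos_iff.2 (CUnits.toField_ne_zero _))
  have hz1 : ∀ i : Σ q : T, Set.range (Emb.prime (K := F) (q := q.1)),
      ∃ z : F, ‖approxEmb i z - (g.fin i.1.1 (approxEmb i)).toField‖ < ε' / 2 := fun i => by
    obtain ⟨z, -, hz⟩ := exists_norm_sub_lt_fixed ⊥ (approxEmb i)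
      (fin_mem_localField_bot g (approxEmb i)) (half_pos hε')
    exact ⟨z, hz⟩
  have hz2 : ∀ w : InfinitePlace F,
      ∃ z : F, ‖w.embedding z - CUnits.toField (g.inf w.embedding)‖ < ε' / 2 := fun w =>
    exists_norm_sub_lt_inf w.embedding (fun h => by
      rw [← CUnits.toField_conjUnits, Idele.inf, ← g.2.2.2, h]) (half_pos hε')
  choose z1 hz1 using hz1
  choose z2 hz2 using hz2
  obtain ⟨x, hx⟩ := exists_approx_places T (Sum.elim z1 z2) (half_pos hε')
  have hfin : ∀ q ∈ T, ∀ φ : Emb L q, ‖φ (x : L) - (f.fin q φ).toField‖ < ε' := by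
    intro q hq φ
    rw [hg q φ]
    change ‖φ.restrictFixed H x - (g.fin q (φ.restrictFixed H)).toField‖ < ε'
    let i : Σ q : T, Set.range (Emb.prime (K := F) (q := q.1)) :=
      ⟨⟨q, hq⟩, (φ.restrictFixed H).prime, φ.restrictFixed H, rfl⟩
    obtain ⟨τ, hτ⟩ := (samePlace_iff_prime_eq (approxEmb i) (φ.restrictFixed H)).2 (approxEmb_prime i)
    rw [← hτ, Idele.fin, g.2.1 q τ, QUnits.toField_onUnits]
    change ‖τ (approxEmb i x) - τ (g.fin q (approxEmb i)).toField‖ < ε'
    rw [← map_sub, norm_gloc, ← sub_add_sub_cancel _ (approxEmb i (z1 i))]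
    refine (norm_add_le _ _).trans_lt ?_
    have h1 := hx (Sum.inl i)
    rw [approxAbs_inl, map_sub, Sum.elim_inl] at h1
    exact (add_lt_add h1 (hz1 i)).trans_eq (add_halves ε')
  have hinf : ∀ φ : L →+* ℂ, ‖φ (x : L) - CUnits.toField (f.inf φ)‖ < ε' := by
    intro φ
    rw [hg' φ]
    change ‖restrictFixedInf φ H x - CUnits.toField (g.inf (restrictFixedInf φ H))‖ < ε'
    set ψ := restrictFixedInf φ H
    set w := InfinitePlace.mk ψ
    have key : ‖w.embedding x - CUnits.toField (g.inf w.embedding)‖ < ε' := by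
      rw [← sub_add_sub_cancel _ (w.embedding (z2 w))]
      refine (norm_add_le _ _).trans_lt ?_
      have h1 : ‖w.embedding (x - z2 w)‖ < ε' / 2 := by
        rw [InfinitePlace.norm_embedding_eq]
        exact hx (Sum.inr w)
      rw [map_sub] at h1
      linarith [hz2 w]
    rcases InfinitePlace.embedding_mk_eq ψ with e | e
    · rwa [show w.embedding = ψ from e] at key
    · have e' : w.embedding = (starRingEnd ℂ).comp ψ := e
      rw [e', Idele.inf, g.2.2.2, CUnits.toField_conjUnits, RingHom.comp_apply, ← map_sub,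
        RCLike.norm_conj] at key
      exact key
  have hx0 : (x : L) ≠ 0 := fun h0 => by
    have := hinf φ₀
    rw [h0, map_zero, zero_sub, norm_neg] at this
    exact absurd this (not_lt.2 (min_le_right _ _))
  refine ⟨LUnits.of (Units.mk0 (x : L) hx0), (LUnits.mem_fixedPts_iff H _).2 x.2,
    fun q hq φ => (hfin q hq φ).trans_le (min_le_left _ _),
    fun φ => (hinf φ).trans_le (min_le_left _ _)⟩

/-- Multiplicative form of weak approximation. -/
theorem exists_fixed_approx_ratio (H : Subgroup (L ≃ₐ[ℚ] L)) (T : Finset Nat.Primes)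
    {f : Idele L} (hf : f ∈ fixedPts H (Idele L)) {ε : ℝ} (hε : 0 < ε) :
    ∃ x ∈ fixedPts H (LUnits L),
      (∀ q ∈ T, ∀ φ : Emb L q, ‖((f - principalIdele L x).fin q φ).toField - 1‖ < ε) ∧
      ∀ φ : L →+* ℂ, ‖CUnits.toField ((f - principalIdele L x).inf φ) - 1‖ < ε := by
  classical
  have : ∀ q : Nat.Primes, Fintype (Emb L q) := fun q => Fintype.ofFinite _
  let vals : Finset ℝ := T.biUnion (fun q => Finset.univ.image fun φ : Emb L q =>
      ‖(f.fin q φ).toField‖) ∪ Finset.univ.image fun φ : L →+* ℂ => ‖CUnits.toField (f.inf φ)‖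
  obtain ⟨c, hc, hle⟩ : ∃ c : ℝ, 0 < c ∧ ∀ v ∈ vals, c ≤ v := by
    have hne : (insert 1 vals).Nonempty := Finset.insert_nonempty _ _
    refine ⟨(insert 1 vals).min' hne, ?_, fun v hv =>
      Finset.min'_le _ _ (Finset.mem_insert_of_mem hv)⟩
    rw [Finset.lt_min'_iff]
    intro v hv
    simp only [vals, Finset.mem_insert, Finset.mem_union, Finset.mem_biUnion, Finset.mem_image] at hv
    rcases hv with rfl | ⟨q, -, φ, -, rfl⟩ | ⟨φ, -, rfl⟩
    · exact one_pos
    · exact norm_pos_iff.2 (QUnits.toField_ne_zero _)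
    · exact norm_pos_iff.2 (CUnits.toField_ne_zero _)
  set δ := min (c / 2) (ε * c / 2)
  have hδ : 0 < δ := lt_min (by positivity) (by positivity)
  obtain ⟨x, hx, h1, h2⟩ := exists_fixed_approx H T hf hδ
  have key : ∀ {F : Type} [NormedField F] (a b : F), c ≤ ‖b‖ → ‖a - b‖ < δ →
      ‖b * a⁻¹ - 1‖ < ε := by
    intro F _ a b hb hab
    have ha : c / 2 ≤ ‖a‖ := by
      have := norm_sub_norm_le b a
      rw [norm_sub_rev] at this
      linarith [min_le_left (c / 2) (ε * c / 2)]
    have ha0 : a ≠ 0 := norm_pos_iff.1 (lt_of_lt_of_le (by positivity) ha)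
    rw [show b * a⁻¹ - 1 = (b - a) * a⁻¹ by rw [sub_mul, mul_inv_cancel₀ ha0], norm_mul, norm_inv,
      norm_sub_rev, ← div_eq_mul_inv, div_lt_iff₀ (norm_pos_iff.2 ha0)]
    calc ‖a - b‖ < ε * c / 2 := hab.trans_le (min_le_right _ _)
      _ ≤ ε * ‖a‖ := by nlinarith
  refine ⟨x, hx, fun q hq φ => ?_, fun φ => ?_⟩
  · have e : ((f - principalIdele L x).fin q φ).toField = (f.fin q φ).toField * (φ x.val)⁻¹ := by
      rw [sub_eq_add_neg]
      simp [Idele.fin]
    rw [e]
    exact key _ _ (hle _ (Finset.mem_union_left _ (Finset.mem_biUnion.2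
      ⟨q, hq, Finset.mem_image_of_mem _ (Finset.mem_univ φ)⟩))) (h1 q hq φ)
  · have e : CUnits.toField ((f - principalIdele L x).inf φ) =
        CUnits.toField (f.inf φ) * (φ x.val)⁻¹ := by
      rw [sub_eq_add_neg]
      change CUnits.toField (f.inf φ + -(principalFamilyInf L x φ)) = _
      rw [CUnits.toField_add, ← toField_principalFamilyInf x φ]
      exact congrArg _ (Units.val_inv_eq_inv_val _)
    rw [e]
    exact key _ _ (hle _ (Finset.mem_union_right _ (Finset.mem_image_of_mem _ (Finset.mem_univ φ))))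
      (h2 φ)

end FermatLib.CFT
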