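import Mathlib

/-!
Units of an ultrametric locally compact field: subgroups near `1`, finite index, successive
approximation by compactness.
-/

set_option autoImplicit false
set_option linter.unusedSectionVars false

open scoped NNReal

namespace FermatLib.CFT.Loc

variable (L : Type*) [NormedField L] [IsUltrametricDist L]

/-- The elements of norm one, written additively. -/
def normOne : AddSubgroup (Additive Lˣ) where
  carrier := {x | ‖((Additive.toMul x : Lˣ) : L)‖ = 1}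
  zero_mem' := by simp
  add_mem' := fun {x y} (hx : _ = _) (hy : _ = _) => by
    show ‖_‖ = (1 : ℝ)
    simp only [toMul_add, Units.val_mul, norm_mul, hx, hy, mul_one]
  neg_mem' := fun {x} (hx : _ = _) => by
    show ‖_‖ = (1 : ℝ)
    simp only [toMul_neg, Units.val_inv_eq_inv_val, norm_inv, hx, inv_one]

variable {L}

theorem mem_normOne {x : Additive Lˣ} :
    x ∈ normOne L ↔ ‖((Additive.toMul x : Lˣ) : L)‖ = 1 := Iff.rfl

theorem norm_mul_sub_one_le {x y : L} {r : ℝ} (hx : ‖x‖ = 1) (h1 : ‖x - 1‖ ≤ r) (h2 : ‖y - 1‖ ≤ r) :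
    ‖x * y - 1‖ ≤ r := by
  rw [show x * y - 1 = x * (y - 1) + (x - 1) by ring]
  refine (IsUltrametricDist.norm_add_le_max _ _).trans (max_le ?_ h1)
  rw [norm_mul, hx, one_mul]
  exact h2

theorem norm_inv_sub_one {x : L} (hx : ‖x‖ = 1) : ‖x⁻¹ - 1‖ = ‖x - 1‖ := by
  have hx0 : x ≠ 0 := fun h => by simp [h] at hx
  rw [show x⁻¹ - 1 = x⁻¹ * (1 - x) by field_simp, norm_mul, norm_inv, hx, inv_one, one_mul,
    norm_sub_rev]

variable (L) in
/-- Units at distance at most `r` from one. -/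
def oneBall (r : ℝ≥0) : AddSubgroup (Additive Lˣ) where
  carrier := {x | ‖((Additive.toMul x : Lˣ) : L)‖ = 1 ∧ ‖((Additive.toMul x : Lˣ) : L) - 1‖ ≤ r}
  zero_mem' := by simp
  add_mem' := fun {x y} hx hy => ⟨(normOne L).add_mem hx.1 hy.1, by
    rw [toMul_add, Units.val_mul]; exact norm_mul_sub_one_le hx.1 hx.2 hy.2⟩
  neg_mem' := fun {x} hx => ⟨(normOne L).neg_mem hx.1, by
    rw [toMul_neg, Units.val_inv_eq_inv_val, norm_inv_sub_one hx.1]; exact hx.2⟩

theorem norm_eq_one_of_sub_one_lt {x : L} (h : ‖x - 1‖ < 1) : ‖x‖ = 1 := by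
  have := IsUltrametricDist.norm_add_eq_max_of_norm_ne_norm (x := x - 1) (y := (1 : L))
    (by rw [norm_one]; exact h.ne)
  rwa [sub_add_cancel, norm_one, max_eq_right h.le] at this

/-- A subgroup of units containing a neighbourhood of one has finite index. -/
theorem relIndex_normOne_ne_zero [ProperSpace L] {B : AddSubgroup (Additive Lˣ)} {r : ℝ≥0}
    (hr : 0 < r) (hB : oneBall L r ≤ B) : B.relIndex (normOne L) ≠ 0 := by
  obtain ⟨t, hts, htf, hcov⟩ :=
    (isCompact_sphere (0 : L) 1).finite_cover_balls (NNReal.coe_pos.2 hr)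
  have : Finite t := htf.to_subtype
  have hne : ∀ x : t, (x : L) ≠ 0 := fun x h => by
    have := hts x.2
    rw [h, Metric.mem_sphere, dist_self] at this
    exact zero_ne_one this
  have : Finite (normOne L ⧸ B.addSubgroupOf (normOne L)) := by
    refine Finite.of_surjective (fun x : t => QuotientAddGroup.mk
      (⟨Additive.ofMul (Units.mk0 (x : L) (hne x)), by
        simpa [mem_normOne, mem_sphere_zero_iff_norm] using hts x.2⟩ : normOne L)) fun c => ?_
    obtain ⟨a, rfl⟩ := QuotientAddGroup.mk_surjective c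
    have ha : ‖((Additive.toMul (a : Additive Lˣ) : Lˣ) : L)‖ = 1 := a.2
    obtain ⟨x, hxt, hx⟩ := Set.mem_iUnion₂.1 (hcov (mem_sphere_zero_iff_norm.2 ha))
    have hx1 : ‖x‖ = 1 := mem_sphere_zero_iff_norm.1 (hts hxt)
    have hx0 : x ≠ 0 := fun h => by simp [h] at hx1
    refine ⟨⟨x, hxt⟩, QuotientAddGroup.eq.2 (AddSubgroup.mem_addSubgroupOf.2 (hB ⟨?_, ?_⟩))⟩
    · simp [hx1, ha]
    · rw [Metric.mem_ball, dist_eq_norm] at hx
      have e : x⁻¹ * ((Additive.toMul (a : Additive Lˣ) : Lˣ) : L) - 1 =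
          x⁻¹ * (((Additive.toMul (a : Additive Lˣ) : Lˣ) : L) - x) := by field_simp
      simp only [AddSubgroup.coe_add, AddSubgroup.coe_neg, toMul_add, toMul_neg, toMul_ofMul,
        Units.val_mul, Units.val_inv_eq_inv_val, Units.val_mk0, e, norm_mul, norm_inv, hx1, inv_one,
        one_mul]
      exact hx.le
  exact AddSubgroup.index_ne_zero_of_finite

/-- Successive approximation, the limit being taken by compactness. -/
theorem exists_map_eq_of_approx {Φ : Additive Lˣ →+ Additive Lˣ} {Φ' : L → L}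
    (hΦ : ∀ x, ((Additive.toMul (Φ x) : Lˣ) : L) = Φ' ((Additive.toMul x : Lˣ) : L))
    (W : AddSubgroup (Additive Lˣ))
    (hWc : IsCompact ((fun x => ((Additive.toMul x : Lˣ) : L)) '' (W : Set (Additive Lˣ))))
    (hcont : ContinuousOn Φ' ((fun x => ((Additive.toMul x : Lˣ) : L)) '' (W : Set (Additive Lˣ))))
    (V : ℕ → AddSubgroup (Additive Lˣ)) (P : AddSubgroup (Additive Lˣ))
    (hV1 : ∀ i, V i ≤ normOne L)
    (hsmall : ∀ ε > 0, ∃ i, ∀ x ∈ V i, ‖((Additive.toMul x : Lˣ) : L) - 1‖ < ε)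
    (hΦP : ∀ y ∈ W, Φ y ∈ P)
    (step : ∀ i, ∀ x ∈ V i, x ∈ P → ∃ y ∈ W, x - Φ y ∈ V (i + 1))
    {x : Additive Lˣ} (hx : x ∈ V 0) (hxP : x ∈ P) : ∃ y ∈ W, Φ y = x := by
  have key : ∀ i, ∃ y ∈ W, x - Φ y ∈ V i := by
    intro i
    induction i with
    | zero => exact ⟨0, W.zero_mem, by rwa [map_zero, sub_zero]⟩
    | succ i ih =>
      obtain ⟨y, hy, hyV⟩ := ih
      obtain ⟨z, hz, hzV⟩ := step i _ hyV (P.sub_mem hxP (hΦP y hy))
      exact ⟨y + z, W.add_mem hy hz, by rwa [map_add, ← sub_sub]⟩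
  set S := (fun x => ((Additive.toMul x : Lˣ) : L)) '' (W : Set (Additive Lˣ))
  have hcl : IsClosed (Φ' '' S) := (hWc.image_of_continuousOn hcont).isClosed
  have hmem : ((Additive.toMul x : Lˣ) : L) ∈ Φ' '' S := by
    refine hcl.closure_subset (Metric.mem_closure_iff.2 fun ε hε => ?_)
    set a := ((Additive.toMul x : Lˣ) : L)
    have ha : ‖a‖ = 1 := hV1 0 hx
    obtain ⟨i, hi⟩ := hsmall ε hε
    obtain ⟨y, hy, hyV⟩ := key i
    refine ⟨_, ⟨_, ⟨y, hy, rfl⟩, rfl⟩, ?_⟩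
    rw [← hΦ]
    have hb : ‖((Additive.toMul (x - Φ y) : Lˣ) : L)‖ = 1 := hV1 i hyV
    have hb2 := hi _ hyV
    simp only [toMul_sub, Units.val_div_eq_div_val] at hb hb2
    set b := ((Additive.toMul (Φ y) : Lˣ) : L)
    have hb0 : b ≠ 0 := Units.ne_zero _
    have hb1 : ‖b‖ = 1 := by
      rw [norm_div, ha, one_div, inv_eq_one] at hb
      exact hb
    rw [dist_eq_norm]
    calc ‖a - b‖ = ‖b‖ * ‖a / b - 1‖ := by
          rw [← norm_mul, mul_sub, mul_div_cancel₀ _ hb0, mul_one]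
      _ < ε := by rwa [hb1, one_mul]
  obtain ⟨_, ⟨y, hy, rfl⟩, hy'⟩ := hmem
  refine ⟨y, hy, ?_⟩
  have h1 := (hΦ y).trans hy'
  exact Additive.toMul.injective (Units.ext h1)

/-- A first order expansion of a product. -/
theorem norm_prod_one_add_sub_le {ι : Type*} (s : Finset ι) (u : ι → L) {a : ℝ} (ha0 : 0 ≤ a)
    (ha : a ≤ 1) (hu : ∀ i ∈ s, ‖u i‖ ≤ a) :
    ‖∏ i ∈ s, (1 + u i) - (1 + ∑ i ∈ s, u i)‖ ≤ a * a := by
  classical
  induction s using Finset.induction_on with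
  | empty => simpa using mul_nonneg ha0 ha0
  | insert i s hi ih =>
    rw [Finset.prod_insert hi, Finset.sum_insert hi]
    have hs : ‖∑ j ∈ s, u j‖ ≤ a := IsUltrametricDist.norm_sum_le_of_forall_le_of_nonneg ha0
      fun j hj => hu j (Finset.mem_insert_of_mem hj)
    have hui := hu i (Finset.mem_insert_self i s)
    rw [show (1 + u i) * ∏ j ∈ s, (1 + u j) - (1 + (u i + ∑ j ∈ s, u j)) =
      (1 + u i) * (∏ j ∈ s, (1 + u j) - (1 + ∑ j ∈ s, u j)) + u i * ∑ j ∈ s, u j by ring]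
    refine (IsUltrametricDist.norm_add_le_max _ _).trans (max_le ?_ ?_)
    · rw [norm_mul]
      have h1 : ‖1 + u i‖ ≤ 1 := (IsUltrametricDist.norm_add_le_max _ _).trans
        (max_le norm_one.le (hui.trans ha))
      calc _ ≤ 1 * (a * a) := mul_le_mul h1
            (ih fun j hj => hu j (Finset.mem_insert_of_mem hj)) (norm_nonneg _) zero_le_one
        _ = a * a := one_mul _
    · rw [norm_mul]
      exact mul_le_mul hui hs (norm_nonneg _) ha0

/-- A first order expansion of a quotient. -/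
theorem norm_div_sub_one_sub_le {x z w : L} {a : ℝ} (ha0 : 0 ≤ a) (hz1 : ‖z‖ = 1)
    (hz : ‖z - 1‖ ≤ a) (hw : ‖w‖ ≤ a) (h : ‖x - z - w‖ ≤ a * a) :
    ‖x / z - 1 - w‖ ≤ a * a := by
  have hz0 : z ≠ 0 := fun e => by simp [e] at hz1
  rw [show x / z - 1 - w = (x - z - w) * z⁻¹ + w * (z⁻¹ - 1) by field_simp; ring]
  refine (IsUltrametricDist.norm_add_le_max _ _).trans (max_le ?_ ?_)
  · rwa [norm_mul, norm_inv, hz1, inv_one, mul_one]
  · rw [norm_mul, norm_inv_sub_one hz1]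
    exact mul_le_mul hw hz (norm_nonneg _) ha0

end FermatLib.CFT.Loc
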