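import Fermat.Agent.CFT.LocalResidue
import Fermat.Agent.CFT.LocalUnitsApprox

/-!
Powers in local fields.
-/

set_option autoImplicit false
set_option linter.unusedSectionVars false

open scoped NNReal

namespace FermatLib.CFT.Loc

variable {q : Nat.Primes} (K : LocalField q) [FiniteDimensional ℚ_[(q : ℕ)] K]

/-- Near `1` every element is an `n`-th power. -/
theorem exists_forall_isPow {n : ℕ} (hn : 0 < n) :
    ∃ ε : ℝ, 0 < ε ∧ ∀ x : K, ‖x - 1‖ < ε → ∃ y : K, ‖y‖ = 1 ∧ y ^ n = x := by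
  let : NontriviallyNormedField K :=
    NontriviallyNormedField.ofNormNeOne ⟨((q : ℕ) : K), q_ne_zero K, (norm_q_lt_one K).ne⟩
  have : CompleteSpace K := complete_of_proper
  have hd : HasStrictDerivAt (fun y : K => y ^ n) ((n : K) * 1 ^ (n - 1)) 1 :=
    hasStrictDerivAt_pow n 1
  have hn0 : ((n : K) * 1 ^ (n - 1)) ≠ 0 := by simp [hn.ne']
  have h := hd.map_nhds_eq hn0
  simp only [one_pow] at h
  have hmem : (fun y : K => y ^ n) '' Metric.ball 1 1 ∈ nhds (1 : K) := by
    rw [← h]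
    exact Filter.image_mem_map (Metric.ball_mem_nhds 1 one_pos)
  obtain ⟨ε, hε, hsub⟩ := Metric.mem_nhds_iff.1 hmem
  refine ⟨ε, hε, fun x hx => ?_⟩
  obtain ⟨y, hy, hyx⟩ := hsub (mem_ball_iff_norm.2 hx)
  exact ⟨y, norm_eq_one_of_sub_one_lt (mem_ball_iff_norm.1 hy), hyx⟩

theorem el_nsmul (n : ℕ) (x : LocUnits K) : (n • x).el = x.el ^ n := by
  induction n with
  | zero => rw [zero_nsmul, pow_zero]; rfl
  | succ n ih => rw [succ_nsmul, LocUnits.el_add, ih, pow_succ]

/-- The units congruent to one modulo a power of the uniformiser. -/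
noncomputable def lvl (i : ℕ) : AddSubgroup (LocUnits K) :=
  oneBall (↥K) (‖uniformizer K‖₊ ^ i)

theorem mem_lvl {i : ℕ} {x : LocUnits K} :
    x ∈ lvl K i ↔ ‖x.el‖ = 1 ∧ ‖x.el - 1‖ ≤ ‖uniformizer K‖ ^ i := by
  show _ ∧ _ ↔ _
  rw [NNReal.coe_pow, coe_nnnorm]
  rfl

theorem lvl_le_unitGroup (i : ℕ) : lvl K i ≤ unitGroup K := fun _ hx =>
  (mem_unitGroup K).2 ((mem_lvl K).1 hx).1

theorem pow_unif_antitone {i j : ℕ} (h : i ≤ j) : ‖uniformizer K‖ ^ j ≤ ‖uniformizer K‖ ^ i :=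
  pow_le_pow_of_le_one (norm_nonneg _) (norm_uniformizer_lt_one K).le h

theorem pow_unif_lt_one {i : ℕ} (h : 0 < i) : ‖uniformizer K‖ ^ i < 1 :=
  pow_lt_one₀ (norm_nonneg _) (norm_uniformizer_lt_one K) h.ne'

theorem exists_lvl_el {i : ℕ} (hi : 0 < i) {u : K} (hu : ‖u‖ ≤ ‖uniformizer K‖ ^ i) :
    ∃ y ∈ lvl K i, y.el = 1 + u := by
  have h1 : ‖(1 + u) - 1‖ ≤ ‖uniformizer K‖ ^ i := by rwa [add_sub_cancel_left]
  have h2 : ‖1 + u‖ = 1 := norm_eq_one_of_sub_one_lt (h1.trans_lt (pow_unif_lt_one K hi))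
  exact ⟨LocUnits.mk0 (1 + u) (fun h => by simp [h] at h2), (mem_lvl K).2 ⟨h2, h1⟩, rfl⟩

theorem norm_pow_sub_linear_le {u : K} (hu : ‖u‖ ≤ 1) (p : ℕ) :
    ‖(1 + u) ^ p - 1 - (p : K) * u‖ ≤ ‖u‖ * ‖u‖ := by
  have h := norm_prod_one_add_sub_le (Finset.range p) (fun _ => u) (norm_nonneg u) hu
    fun _ _ => le_rfl
  rwa [Finset.prod_const, Finset.card_range, Finset.sum_const, Finset.card_range, nsmul_eq_mul,
    ← sub_sub] at h

variable {p v k : ℕ}

theorem map_lvl (hv : ‖(p : K)‖ = ‖uniformizer K‖ ^ v) (hk : v < k) :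
    (lvl K k).map (nsmulAddMonoidHom p) = lvl K (k + v) := by
  have hk0 : 0 < k := by omega
  apply le_antisymm
  · rintro _ ⟨x, hx, rfl⟩
    obtain ⟨h1, h2⟩ := (mem_lvl K).1 hx
    refine (mem_lvl K).2 ?_
    rw [nsmulAddMonoidHom_apply, el_nsmul]
    refine ⟨by rw [norm_pow, h1, one_pow], ?_⟩
    set u := x.el - 1
    have hxu : x.el = 1 + u := by simp [u]
    rw [hxu, show (1 + u) ^ p - 1 = ((1 + u) ^ p - 1 - (p : K) * u) + (p : K) * u by ring]
    refine (IsUltrametricDist.norm_add_le_max _ _).trans (max_le ?_ ?_)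
    · refine (norm_pow_sub_linear_le K (h2.trans (pow_unif_lt_one K hk0).le) p).trans
        ((mul_le_mul h2 h2 (norm_nonneg _) (pow_nonneg (norm_nonneg _) _)).trans ?_)
      rw [← pow_add]
      exact pow_unif_antitone K (by omega)
    · rw [norm_mul, hv, add_comm k, pow_add]
      exact mul_le_mul_of_nonneg_left h2 (pow_nonneg (norm_nonneg _) _)
  · intro x hx
    have hp0 : (p : K) ≠ 0 := norm_pos_iff.1 (hv ▸ pow_pos (norm_uniformizer_pos K) v)
    have himg : (fun x => x.el) '' (lvl K k : Set (LocUnits K)) =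
        Metric.closedBall (1 : K) (‖uniformizer K‖ ^ k) := by
      ext a
      rw [mem_closedBall_iff_norm]
      constructor
      · rintro ⟨y, hy, rfl⟩; exact ((mem_lvl K).1 hy).2
      · intro ha
        obtain ⟨y, hy, e⟩ := exists_lvl_el K hk0 ha
        exact ⟨y, hy, e.trans (add_sub_cancel 1 a)⟩
    refine exists_map_eq_of_approx (L := ↥K) (Φ := nsmulAddMonoidHom p) (Φ' := fun a => a ^ p)
      (el_nsmul K p) (lvl K k) ?_ (continuous_pow p).continuousOn
      (fun i => lvl K (k + v + i)) ⊤ (fun i (y : LocUnits K) hy => ((mem_lvl K).1 hy).1) ?_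
      (fun _ _ => trivial) ?_ hx trivial
    · exact (congrArg IsCompact himg).mpr (isCompact_closedBall _ _)
    · intro ε hε
      obtain ⟨i, hi⟩ := exists_pow_lt_of_lt_one hε (norm_uniformizer_lt_one K)
      exact ⟨i, fun (y : LocUnits K) hy => (((mem_lvl K).1 hy).2.trans
        (pow_unif_antitone K (show i ≤ k + v + i by omega))).trans_lt hi⟩
    · intro i (y : LocUnits K) hy _
      obtain ⟨-, hy2⟩ := (mem_lvl K).1 hy
      set u := (y.el - 1) / (p : K)
      have hu : ‖u‖ ≤ ‖uniformizer K‖ ^ (k + i) := by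
        rw [norm_div, hv, div_le_iff₀ (pow_pos (norm_uniformizer_pos K) v), ← pow_add]
        exact hy2.trans (pow_unif_antitone K (by omega))
      obtain ⟨z, hz, hzu⟩ := exists_lvl_el K (show 0 < k + i by omega) hu
      refine ⟨z, (mem_lvl K).2 ⟨((mem_lvl K).1 hz).1,
        ((mem_lvl K).1 hz).2.trans (pow_unif_antitone K (by omega))⟩, ?_⟩
      have hz1 : ‖z.el ^ p‖ = 1 := by rw [norm_pow, ((mem_lvl K).1 hz).1, one_pow]
      have hkey : ‖y.el * (z.el ^ p)⁻¹ - 1‖ ≤ ‖uniformizer K‖ ^ (k + v + (i + 1)) := by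
        have hne : z.el ^ p ≠ 0 := pow_ne_zero _ z.el_ne_zero
        rw [show y.el * (z.el ^ p)⁻¹ - 1 = (y.el - z.el ^ p) * (z.el ^ p)⁻¹ by field_simp,
          norm_mul, norm_inv, hz1, inv_one, mul_one, hzu,
          show y.el - (1 + u) ^ p = -((1 + u) ^ p - 1 - (p : K) * u) by
            rw [mul_div_cancel₀ _ hp0]; ring,
          norm_neg]
        refine (norm_pow_sub_linear_le K (hu.trans (pow_unif_lt_one K (by omega)).le) p).trans
          ((mul_le_mul hu hu (norm_nonneg _) (pow_nonneg (norm_nonneg _) _)).trans ?_)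
        rw [← pow_add]
        exact pow_unif_antitone K (by omega)
      have e : (y - nsmulAddMonoidHom p z).el = y.el * (z.el ^ p)⁻¹ := by
        rw [sub_eq_add_neg, LocUnits.el_add, LocUnits.el_neg, nsmulAddMonoidHom_apply, el_nsmul]
      have hmem : y - nsmulAddMonoidHom p z ∈ lvl K (k + v + (i + 1)) := (mem_lvl K).2
        (by
          rw [e]
          exact ⟨norm_eq_one_of_sub_one_lt (hkey.trans_lt (pow_unif_lt_one K (by omega))), hkey⟩)
      exact hmem

theorem eq_zero_of_mem_lvl_of_nsmul (hv : ‖(p : K)‖ = ‖uniformizer K‖ ^ v) (hk : v < k)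
    {x : LocUnits K} (hx : x ∈ lvl K k) (h0 : p • x = 0) : x = 0 := by
  obtain ⟨-, h2⟩ := (mem_lvl K).1 hx
  set u := x.el - 1
  have hxu : x.el = 1 + u := by simp [u]
  have h := norm_pow_sub_linear_le K (h2.trans (pow_unif_lt_one K (by omega)).le) p
  rw [← hxu, ← el_nsmul, h0, LocUnits.el_zero, sub_self, zero_sub, norm_neg, norm_mul, hv] at h
  refine LocUnits.ext' (sub_eq_zero.1 ?_)
  rw [LocUnits.el_zero]
  by_contra hne
  have h3 := le_of_mul_le_mul_right h (norm_pos_iff.2 hne)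
  exact absurd (h3.trans h2)
    (not_le.2 (pow_lt_pow_right_of_lt_one₀ (norm_uniformizer_pos K) (norm_uniformizer_lt_one K) hk))

theorem mem_range_mulInt_iff {v : ℕ} {z : intAdd K} :
    z ∈ (mulInt K (unifInt K ^ v)).range ↔ ‖(z : K)‖ ≤ ‖uniformizer K‖ ^ v := by
  constructor
  · rintro ⟨y, rfl⟩
    rw [mulInt_apply, norm_mul]
    refine (mul_le_of_le_one_right (norm_nonneg _) ((mem_intRing K).1 y.2)).trans ?_
    simp [unifInt]
  · intro h
    have hπ : (uniformizer K) ^ v ≠ 0 := pow_ne_zero _ (isUniformizer_uniformizer K).1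
    refine ⟨⟨(z : K) / uniformizer K ^ v, (mem_intRing K).2 ?_⟩, Subtype.ext ?_⟩
    · rw [norm_div, norm_pow]
      exact (div_le_one (pow_pos (norm_uniformizer_pos K) v)).2 h
    · rw [mulInt_apply]
      simp only [SubmonoidClass.coe_pow, unifInt]
      exact mul_div_cancel₀ _ hπ

theorem relIndex_lvl (hk0 : 0 < k) (hk : v ≤ k) :
    (lvl K (k + v)).relIndex (lvl K k) = ((q : ℕ) ^ resDeg K) ^ v := by
  rw [← index_range_mulInt_pow]
  set R := (mulInt K (unifInt K ^ v)).range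
  have hπ : (uniformizer K) ^ k ≠ 0 := pow_ne_zero _ (isUniformizer_uniformizer K).1
  have hπn : 0 < ‖uniformizer K‖ ^ k := pow_pos (norm_uniformizer_pos K) k
  let coord : lvl K k → intAdd K := fun x => ⟨((x : LocUnits K).el - 1) / uniformizer K ^ k,
    (mem_intRing K).2 (by
      rw [norm_div, norm_pow]
      exact (div_le_one hπn).2 ((mem_lvl K).1 x.2).2)⟩
  let ψ : lvl K k →+ intAdd K ⧸ R := AddMonoidHom.mk' (fun x => QuotientAddGroup.mk (coord x))
    fun x y => by
      rw [← QuotientAddGroup.mk_add, QuotientAddGroup.eq, mem_range_mulInt_iff]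
      have hc : ∀ z, (coord z : K) = ((z : LocUnits K).el - 1) / uniformizer K ^ k := fun _ => rfl
      rw [AddSubgroup.coe_add, AddSubgroup.coe_neg, AddSubgroup.coe_add, hc, hc, hc,
        AddSubgroup.coe_add, LocUnits.el_add,
        show -(((x : LocUnits K).el * (y : LocUnits K).el - 1) / uniformizer K ^ k) +
            (((x : LocUnits K).el - 1) / uniformizer K ^ k +
              ((y : LocUnits K).el - 1) / uniformizer K ^ k) =
          -(((x : LocUnits K).el - 1) * ((y : LocUnits K).el - 1) / uniformizer K ^ k) by ring,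
        norm_neg, norm_div, norm_mul, norm_pow, div_le_iff₀ hπn]
      calc _ ≤ ‖uniformizer K‖ ^ k * ‖uniformizer K‖ ^ k := mul_le_mul ((mem_lvl K).1 x.2).2
            ((mem_lvl K).1 y.2).2 (norm_nonneg _) hπn.le
        _ ≤ _ := mul_le_mul_of_nonneg_right (pow_unif_antitone K hk) hπn.le
  have hsurj : Function.Surjective ψ := fun c => by
    obtain ⟨z, rfl⟩ := QuotientAddGroup.mk_surjective c
    obtain ⟨y, hy, e⟩ := exists_lvl_el K hk0 (u := uniformizer K ^ k * (z : K)) (by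
      rw [norm_mul, norm_pow]
      exact mul_le_of_le_one_right hπn.le ((mem_intRing K).1 z.2))
    refine ⟨⟨y, hy⟩, congrArg QuotientAddGroup.mk (Subtype.ext ?_)⟩
    show (y.el - 1) / uniformizer K ^ k = (z : K)
    rw [e, add_sub_cancel_left, mul_div_cancel_left₀ _ hπ]
  have hker : ψ.ker = (lvl K (k + v)).addSubgroupOf (lvl K k) := by
    ext x
    rw [AddMonoidHom.mem_ker, AddSubgroup.mem_addSubgroupOf, mem_lvl, AddMonoidHom.mk'_apply,
      QuotientAddGroup.eq_zero_iff, mem_range_mulInt_iff]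
    show ‖((x : LocUnits K).el - 1) / uniformizer K ^ k‖ ≤ _ ↔ _
    rw [norm_div, norm_pow, div_le_iff₀ hπn, ← pow_add, add_comm v k]
    exact ⟨fun h => ⟨((mem_lvl K).1 x.2).1, h⟩, fun h => h.2⟩
  show ((lvl K (k + v)).addSubgroupOf (lvl K k)).index = R.index
  rw [← hker, AddSubgroup.index_ker, AddMonoidHom.range_eq_top.2 hsurj]
  exact Nat.card_congr AddSubgroup.topEquiv.toEquiv

theorem natCard_ker_nsmul (hp : p ≠ 0) :
    Nat.card ((nsmulAddMonoidHom p : unitGroup K →+ unitGroup K).ker) =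
      Nat.card {x : K // x ^ p = 1} := by
  refine Nat.card_eq_of_bijective (fun x => ⟨(x.1 : LocUnits K).el, by
    rw [← el_nsmul]
    exact congrArg LocUnits.el (congrArg Subtype.val (x.2 : p • x.1 = 0))⟩) ⟨fun x y h => ?_, ?_⟩
  · exact Subtype.ext (Subtype.ext (LocUnits.ext' (congrArg Subtype.val h)))
  · rintro ⟨a, ha⟩
    have ha1 : ‖a‖ = 1 := (pow_eq_one_iff_of_nonneg (norm_nonneg a) hp).1
      (by rw [← norm_pow, ha, norm_one])
    let y : LocUnits K := LocUnits.mk0 a fun h => by simp [h] at ha1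
    refine ⟨⟨⟨y, (mem_unitGroup K).2 ha1⟩, Subtype.ext ?_⟩, rfl⟩
    refine LocUnits.ext' ?_
    show (p • y).el = 1
    rw [el_nsmul]
    exact ha

theorem exists_norm_natCast_eq (p : ℕ) [Fact p.Prime] :
    ∃ v : ℕ, ‖(p : K)‖ = ‖uniformizer K‖ ^ v ∧
      ((q : ℕ) ^ resDeg K) ^ v =
        if p = (q : ℕ) then (q : ℕ) ^ Module.finrank ℚ_[(q : ℕ)] K else 1 := by
  by_cases h : p = (q : ℕ)
  · refine ⟨ramIdx K, by rw [h, norm_q_eq], ?_⟩
    rw [if_pos h, ← pow_mul, mul_comm, ramIdx_mul_resDeg]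
  · refine ⟨0, ?_, by rw [if_neg h, pow_zero]⟩
    rw [pow_zero]
    have := norm_natCast_eq_one (q := q) (m := p) fun hd =>
      h ((Nat.prime_dvd_prime_iff_eq q.2 Fact.out).1 hd).symm
    exact this

theorem natCard_unitGroup_powQuotient (p : ℕ) [Fact p.Prime] :
    Nat.card (unitGroup K ⧸ (nsmulAddMonoidHom p : unitGroup K →+ unitGroup K).range) =
      Nat.card {x : K // x ^ p = 1} *
        (if p = (q : ℕ) then (q : ℕ) ^ Module.finrank ℚ_[(q : ℕ)] K else 1) := by
  obtain ⟨v, hv, hQ⟩ := exists_norm_natCast_eq K p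
  rw [← hQ, ← natCard_ker_nsmul K (Fact.out : p.Prime).ne_zero]
  set φ : unitGroup K →+ unitGroup K := nsmulAddMonoidHom p
  set B := (lvl K (v + 1)).addSubgroupOf (unitGroup K)
  have hfin : B.index ≠ 0 := by
    have h := relIndex_normOne_ne_zero (L := ↥K) (B := lvl K (v + 1))
      (r := ‖uniformizer K‖₊ ^ (v + 1))
      (pow_pos (nnnorm_pos.2 (isUniformizer_uniformizer K).1) _) le_rfl
    have e : (normOne (↥K) : AddSubgroup (LocUnits K)) = unitGroup K :=
      SetLike.ext fun x => (mem_unitGroup K).symm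
    intro h0
    apply h
    show (lvl K (v + 1)).relIndex (normOne (↥K) : AddSubgroup (LocUnits K)) = 0
    rw [e]
    exact h0
  have hker : B ⊓ φ.ker = ⊥ := by
    rw [eq_bot_iff]
    rintro x ⟨hx, h0⟩
    exact Subtype.ext (eq_zero_of_mem_lvl_of_nsmul K hv (Nat.lt_succ_self v) hx
      (congrArg Subtype.val (h0 : p • x = 0)))
  have hmap : B.map φ = (lvl K (v + 1 + v)).addSubgroupOf (unitGroup K) := by
    rw [← map_lvl K hv (Nat.lt_succ_self v)]
    ext x
    constructor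
    · rintro ⟨y, hy, rfl⟩; exact ⟨(y : LocUnits K), hy, rfl⟩
    · rintro ⟨y, hy, hyx⟩
      exact ⟨⟨y, lvl_le_unitGroup K _ hy⟩, hy, Subtype.ext hyx⟩
  have hB : ∀ b ∈ B, φ b ∈ B := fun b hb => B.nsmul_mem hb p
  have h := index_range_eq φ B hB hker hfin
  rw [hmap, AddSubgroup.addSubgroupOf, show B = (lvl K (v + 1)).comap (unitGroup K).subtype from rfl,
    AddSubgroup.relIndex_comap, AddSubgroup.map_comap_eq, AddSubgroup.range_subtype,
    inf_eq_right.2 (lvl_le_unitGroup K _), relIndex_lvl K (Nat.succ_pos v) (Nat.le_succ v)] at h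
  exact h

theorem natCard_powQuotient (p : ℕ) [Fact p.Prime] :
    Nat.card ((↥K)ˣ ⧸ (powMonoidHom p : (↥K)ˣ →* (↥K)ˣ).range) =
      Nat.card {x : K // x ^ p = 1} * p *
        (if p = (q : ℕ) then (q : ℕ) ^ Module.finrank ℚ_[(q : ℕ)] K else 1) := by
  set φ : LocUnits K →+ LocUnits K := nsmulAddMonoidHom p
  have h0 : φ.range.index = Nat.card ((↥K)ˣ ⧸ (powMonoidHom p : (↥K)ˣ →* (↥K)ˣ).range) := by
    refine Eq.trans ?_ (Subgroup.index_toAddSubgroup (H := (powMonoidHom p : (↥K)ˣ →* (↥K)ˣ).range))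
    exact congrArg AddSubgroup.index (SetLike.ext fun x => Iff.rfl)
  rw [← h0, index_eq_map_mul_ker (ord K) φ.range,
    AddMonoidHom.range_eq_top.2 (ord_surjective K), AddSubgroup.relIndex_top_right]
  have h1 : (φ.range.map (ord K)).index = p := by
    have e : φ.range.map (ord K) = AddSubgroup.zmultiples (p : ℤ) := by
      ext n
      rw [Int.mem_zmultiples_iff]
      constructor
      · rintro ⟨_, ⟨x, rfl⟩, rfl⟩
        exact ⟨ord K x, by simp [φ]⟩
      · rintro ⟨c, rfl⟩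
        obtain ⟨x, hx⟩ := ord_surjective K c
        exact ⟨_, ⟨x, rfl⟩, by simp [φ, hx]⟩
    rw [e, Int.index_zmultiples, Int.natAbs_natCast]
  have h2 : (φ.range ⊓ (ord K).ker).relIndex (ord K).ker =
      Nat.card (unitGroup K ⧸ (nsmulAddMonoidHom p : unitGroup K →+ unitGroup K).range) := by
    show ((φ.range ⊓ unitGroup K).addSubgroupOf (unitGroup K)).index = _
    refine congrArg AddSubgroup.index (SetLike.ext fun x => ?_)
    rw [AddSubgroup.mem_addSubgroupOf]
    constructor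
    · rintro ⟨⟨y, hy⟩, -⟩
      have h3 : (p : ℤ) * ord K y = 0 := by
        rw [← nsmul_eq_mul, ← map_nsmul]
        exact (congrArg (ord K) hy).trans x.2
      refine ⟨⟨y, (mul_eq_zero.1 h3).resolve_left ?_⟩, Subtype.ext hy⟩
      exact_mod_cast (Fact.out : p.Prime).ne_zero
    · rintro ⟨y, rfl⟩
      exact ⟨⟨(y : LocUnits K), rfl⟩, (p • y : unitGroup K).2⟩
  rw [h1, h2, natCard_unitGroup_powQuotient]
  ring

end FermatLib.CFT.Loc
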