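import Fermat.Agent.CFT.FirstInequality
import Fermat.Agent.CFT.IdeleApprox
import Fermat.Agent.CFT.LocalPowers

/-!
Outside any finite set of primes some place does not split.
-/

set_option autoImplicit false

open NumberField

namespace FermatLib.CFT

open Herbrand

variable {L : Type} [Field L] [NumberField L] [IsGalois ℚ L]

/-- An invariant family all whose values are `p` times invariant values is `p` times an invariant
family. -/
theorem exists_fam_div {K : Subgroup (L ≃ₐ[ℚ] L)} {q : Nat.Primes} (p : ℕ)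
    {v : Emb L q → QUnits q} (hv : v ∈ (embSys L q).fam K ⊤ Set.univ)
    (hdiv : ∀ φ, ∃ u : QUnits q, u.toField ∈ localField K φ ∧ p • u = v φ) :
    ∃ u ∈ (embSys L q).fam K ⊤ Set.univ, p • u = v := by
  classical
  have := Fintype.ofFinite (PlacesAbove K q)
  choose r hr hre using hdiv
  set z : Idele L := ∑ c : PlacesAbove K q, placeIdele K c.out (r c.out) (hr c.out)
  refine ⟨evFin L q z, evFin_mem_fam (sum_mem fun c _ => placeIdele_mem_fixedPts K _ _ _) q ⊤
    (fun _ => AddSubgroup.mem_top _), funext fun ψ => ?_⟩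
  set c₀ : PlacesAbove K q := Quotient.mk (samePlaceSetoid K q) ψ
  obtain ⟨h, hh, τ, hτ⟩ : Emb.SamePlaceRel K c₀.out ψ := Quotient.exact c₀.out_eq
  have hval : evFin L q z ψ = τ.onUnits (r c₀.out) := by
    rw [map_sum, Finset.sum_apply, Finset.sum_eq_single_of_mem c₀ (Finset.mem_univ _)]
    · show (placeIdele K c₀.out (r c₀.out) (hr c₀.out)).fin q ψ = _
      rw [← hτ]
      exact placeIdele_apply K c₀.out (r c₀.out) (hr c₀.out) hh τ
    · intro c _ hc
      refine placeIdele_apply_of_not_rel K c.out (r c.out) (hr c.out) fun hrel => hc ?_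
      rw [← Quotient.out_eq c]
      exact Quotient.sound hrel
  rw [Pi.smul_apply, hval, ← map_nsmul, hre, ← hτ]
  exact ((hv.1 τ _).trans (congrArg _ (hv.2.1 h hh _))).symm

variable {p : ℕ} [hp : Fact p.Prime] {H' H : Subgroup (L ≃ₐ[ℚ] L)} {g : L ≃ₐ[ℚ] L}
  (hc : CyclicPair p H' H g)

include hc in
/-- Where everything splits, every invariant family is a norm. -/
theorem exists_norm_of_split {q : Nat.Primes}
    (hsplit : ∀ φ : Emb L q, ∀ x ∈ decompGroup φ ⊓ H, x ∈ H') {W : AddSubgroup (QUnits q)}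
    (hW : ∀ τ, ∀ v ∈ W, (embSys L q).act τ v ∈ W) {v : Emb L q → QUnits q}
    (hv : v ∈ (embSys L q).fam H' W Set.univ) (hg : (embSys L q).shift g v = v) :
    ∃ y ∈ (embSys L q).fam H' W Set.univ, endNorm p ((embSys L q).shift g) y = v := by
  have hloc : (embSys L q).LocalHyp p H' g W 1 Set.univ := by
    intro φ _ τ h hh he
    exfalso
    have hgh : g * h ∈ H' := hsplit φ _ ⟨⟨τ, he⟩, H.mul_mem hc.gmem (hc.le hh)⟩
    have hd := hc.dvd_of_pow_mem 1 (by simpa using H'.mul_mem hgh (H'.inv_mem hh))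
    exact hp.out.one_lt.ne' (Nat.dvd_one.1 hd)
  obtain ⟨n, h1, -, -⟩ := OrbitSys.hOrd_fam hc hW Set.univ (fun _ _ _ _ => trivial) hloc
  exact hOrd_eq_one_iff.1 (h1.trans (one_pow n)) v hv (sub_eq_zero.2 hg)

theorem exists_pos_le_all {ι : Type*} [Finite ι] (ε : ι → ℝ) (hε : ∀ i, 0 < ε i) :
    ∃ δ : ℝ, 0 < δ ∧ δ ≤ 1 / 2 ∧ ∀ i, δ ≤ ε i := by
  rcases isEmpty_or_nonempty ι with h | h
  · exact ⟨1 / 2, by norm_num, le_rfl, fun i => h.elim i⟩
  · obtain ⟨i, hi⟩ := Finite.exists_min ε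
    exact ⟨min (ε i) (1 / 2), lt_min (hε i) (by norm_num), min_le_right _ _,
      fun j => (min_le_left _ _).trans (hi j)⟩

include hc in
/-- Outside any finite set of primes some decomposition group is not inside `H'`. -/
theorem exists_place_not_split' (T : Finset Nat.Primes) :
    ∃ q ∉ T, ∃ φ : Emb L q, ∃ x ∈ decompGroup φ ⊓ H, x ∉ H' := by
  classical
  by_contra! hall
  obtain ⟨b, hb, hbn⟩ := exists_class_not_norm (L := L) hc
  obtain ⟨f, hf, rfl⟩ := exists_fixed_idele_of_fixed_class' H hb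
  -- radii
  have hε : ∀ i : Σ q : T, Emb L (q : Nat.Primes), ∃ ε : ℝ, 0 < ε ∧
      ∀ y : localField H i.2, ‖y - 1‖ < ε → ∃ z : localField H i.2, ‖z‖ = 1 ∧ z ^ p = y :=
    fun i => Loc.exists_forall_isPow (localField H i.2) hp.out.pos
  choose ε hε0 hεpow using hε
  obtain ⟨δ, hδ0, hδhalf, hδle⟩ := exists_pos_le_all ε hε0
  obtain ⟨x, hx, hxT, hxinf⟩ := exists_fixed_approx_ratio H T hf hδ0
  set f₁ := f - principalIdele L x with hf₁
  have hf₁H : f₁ ∈ fixedPts H (Idele L) :=
    AddSubgroup.sub_mem _ hf ((mem_fixedPts_principalIdele_iff H x).2 hx)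
  have hf₁' : f₁ ∈ fixedPts H' (Idele L) := fun h => hf₁H ⟨h.1, hc.le h.2⟩
  have hfix : ∀ h ∈ H, h • f₁ = f₁ := fun h hh => hf₁H ⟨h, hh⟩
  obtain ⟨F, hF⟩ : ∃ F : Finset Nat.Primes, ∀ q ∉ F, ∀ φ, f₁.1.1 q φ ∈ QUnits.unitGroup q :=
    ⟨f₁.2.2.1.toFinset, fun q hq φ => not_not.1 fun h => hq (f₁.2.2.1.mem_toFinset.2 ⟨φ, h⟩)⟩
  -- the finite values
  have hfin : ∀ q, ∃ y ∈ (embSys L q).fam H' ⊤ Set.univ,
      endNorm p ((embSys L q).shift g) y = evFin L q f₁ ∧
      (q ∉ T ∪ F → ∀ φ, y φ ∈ QUnits.unitGroup q) := by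
    intro q
    have hg : (embSys L q).shift g (evFin L q f₁) = evFin L q f₁ :=
      congrArg (evFin L q) (hfix g hc.gmem)
    by_cases hqT : q ∈ T
    · obtain ⟨u, hu, e⟩ := exists_fam_div (K := H) p (evFin_mem_fam hf₁H q ⊤ fun _ => AddSubgroup.mem_top _)
        (fun φ => by
          obtain ⟨z, hz1, hz⟩ := hεpow ⟨⟨q, hqT⟩, φ⟩
            ⟨(f₁.1.1 q φ).toField, fixed_fin_mem_localField H hf₁H φ⟩
            ((hxT q hqT φ).trans_le (hδle _))
          have hz0 : (z : PadicAlgCl (q : ℕ)) ≠ 0 := fun h0 => by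
            rw [Subtype.ext h0 (a2 := (0 : localField H φ)), norm_zero] at hz1
            exact zero_ne_one hz1
          refine ⟨Additive.ofMul (Units.mk0 (z : PadicAlgCl (q : ℕ)) hz0), z.2,
            QUnits.toField_injective ?_⟩
          show (((Units.mk0 (z : PadicAlgCl (q : ℕ)) hz0) ^ p : (PadicAlgCl (q : ℕ))ˣ) :
            PadicAlgCl (q : ℕ)) = _
          rw [Units.val_pow_eq_pow_val, Units.val_mk0]
          exact congrArg Subtype.val hz)
      refine ⟨u, ⟨hu.1, fun h hh => hu.2.1 h (hc.le hh), hu.2.2⟩, ?_,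
        fun h => absurd (Finset.mem_union_left _ hqT) h⟩
      rw [endNorm_eq_nsmul (sub_eq_zero.2 (funext fun φ => hu.2.1 g hc.gmem φ)), e]
    · by_cases hqF : q ∈ F
      · obtain ⟨y, hy, e⟩ := exists_norm_of_split hc (hall q hqT) (embSys_top_stable q)
          (evFin_mem_fam hf₁' q ⊤ fun _ => AddSubgroup.mem_top _) hg
        exact ⟨y, hy, e, fun h => absurd (Finset.mem_union_right _ hqF) h⟩
      · obtain ⟨y, hy, e⟩ := exists_norm_of_split hc (hall q hqT)
          (fun τ v hv => embSys_unitGroup_stable q τ hv)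
          (evFin_mem_fam hf₁' q _ (hF q hqF)) hg
        exact ⟨y, ⟨hy.1, hy.2.1, fun _ => AddSubgroup.mem_top _, hy.2.2.2⟩, e, fun _ => hy.2.2.1⟩
  choose y hy hye hyu using hfin
  -- the infinite values
  set z : (L →+* ℂ) → ℂ := fun χ => CUnits.toField (f₁.1.2 χ)
  have hzarg : ∀ χ, (z χ).arg ≠ Real.pi := fun χ h => by
    have h1 := (Complex.abs_re_le_norm (z χ - 1)).trans_lt ((hxinf χ).trans_le hδhalf)
    rw [Complex.sub_re, Complex.one_re, abs_lt] at h1
    have h2 := (Complex.arg_eq_pi_iff.1 h).1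
    linarith
  set u : (L →+* ℂ) → CUnits :=
    fun χ => Additive.ofMul (Units.mk0 (Complex.exp (Complex.log (z χ) / p)) (Complex.exp_ne_zero _))
  have hu : u ∈ (infSys L).fam H ⊤ Set.univ := by
    have hw := evInf_mem_fam hf₁H
    refine ⟨fun τ χ => ?_, fun h hh χ => ?_, fun _ => AddSubgroup.mem_top _,
      fun χ hχ => absurd (Set.mem_univ χ) hχ⟩
    · rcases algEquiv_complex_eq τ with rfl | rfl
      · rw [(infSys L).post_one, map_one]; rfl
      · rw [infSys_post_conj, infSys_act_conj]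
        apply CUnits.toField_injective
        rw [CUnits.toField_conjUnits]
        show Complex.exp (Complex.log (CUnits.toField (f₁.1.2 _)) / p) =
          starRingEnd ℂ (Complex.exp (Complex.log (z χ) / p))
        rw [f₁.2.2.2, CUnits.toField_conjUnits, Complex.log_conj _ (hzarg χ), ← Complex.exp_conj,
          map_div₀, map_natCast]
    · apply CUnits.toField_injective
      show Complex.exp (Complex.log (CUnits.toField (evInf L f₁ ((infSys L).pre χ h))) / p) = _
      rw [hw.2.1 h hh]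
      rfl
  obtain ⟨Y, hY, hYfin, hYinf⟩ :=
    exists_idele_of_fam H' (T ∪ F) y hy hyu (w := u) ⟨hu.1, fun h hh => hu.2.1 h (hc.le hh), hu.2.2⟩
  have hord := isOrderP_fixedPts (A := Idele L) hc
  have hYN : endNorm p (smulEnd (Idele L) g) Y = f₁ := by
    refine idele_eq_of_ev (fun q => ?_) ?_
    · rw [(evFin_comm hc hord.mem q).2 Y hY.1, hYfin, hye]
    · rw [(comm_endDiff (p := p) (evInf L) ((infSys L).shift g) hord.mem fun _ _ => rfl).2 Y hY.1,
        hYinf, endNorm_eq_nsmul (sub_eq_zero.2 (funext fun χ => hu.2.1 g hc.gmem χ))]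
      funext χ
      apply CUnits.toField_injective
      show (((Units.mk0 (Complex.exp (Complex.log (z χ) / p)) (Complex.exp_ne_zero _)) ^ p : ℂˣ) : ℂ)
        = z χ
      rw [Units.val_pow_eq_pow_val, Units.val_mk0, ← Complex.exp_nat_mul,
        mul_div_cancel₀ _ (by exact_mod_cast hp.out.ne_zero),
        Complex.exp_log (CUnits.toField_ne_zero _)]
  apply hbn
  rw [relNormSet_eq hc]
  refine ⟨QuotientAddGroup.mk' (principalIdeles L) Y, (mem_fixedPts_iff_forall _ _ _).2 fun h hh =>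
    congrArg (QuotientAddGroup.mk' (principalIdeles L)) ((mem_fixedPts_iff_forall _ _ Y).1 hY.1 h hh), ?_⟩
  rw [← (comm_endDiff (p := p) (QuotientAddGroup.mk' (principalIdeles L))
    (smulEnd (IdeleClass L) g) hord.mem fun _ _ => rfl).2 Y hY.1, hYN, hf₁]
  show QuotientAddGroup.mk (f - principalIdele L x) = QuotientAddGroup.mk f
  rw [QuotientAddGroup.mk_sub, sub_eq_self, QuotientAddGroup.eq_zero_iff, principalIdeles_eq_range]
  exact ⟨x, rfl⟩

end FermatLib.CFT
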