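import Fermat.Agent.CFT.FirstCyclic

/-!
Herbrand quotient of a module of equivariant families indexed by a finite set of embeddings, for a
pair of subgroups of prime index `p`.
-/

set_option autoImplicit false

namespace FermatLib.CFT

/-- `g` generates `H` modulo the normal subgroup `H'` of index `p`. -/
structure CyclicPair (p : ℕ) {G : Type*} [Group G] (H' H : Subgroup G) (g : G) : Prop where
  le : H' ≤ H
  gmem : g ∈ H
  conj_mem : ∀ h ∈ H', g * h * g⁻¹ ∈ H'
  conj_mem' : ∀ h ∈ H', g⁻¹ * h * g ∈ H'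
  pow_mem : g ^ p ∈ H'
  exists_pow : ∀ h ∈ H, ∃ i < p, ∃ h' ∈ H', h = g ^ i * h'
  dvd_of_pow_mem : ∀ i : ℕ, g ^ i ∈ H' → p ∣ i

theorem exists_cyclicPair (p : ℕ) [hp : Fact p.Prime] {G : Type*} [Group G] {H' H : Subgroup G}
    (hle : H' ≤ H) [hn : (H'.subgroupOf H).Normal] (hidx : H'.relIndex H = p) {g : G}
    (hg : g ∈ H) (hg' : g ∉ H') : CyclicPair p H' H g := by
  have hcard : Nat.card (H ⧸ H'.subgroupOf H) = p := hidx
  set π := QuotientGroup.mk' (H'.subgroupOf H)
  have hne : π ⟨g, hg⟩ ≠ 1 := fun h =>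
    hg' (Subgroup.mem_subgroupOf.1 ((QuotientGroup.eq_one_iff (⟨g, hg⟩ : H)).1 h))
  have hord : orderOf (π ⟨g, hg⟩) = p := by
    refine orderOf_eq_prime ?_ hne
    rw [← hcard]
    exact pow_card_eq_one'
  refine ⟨hle, hg, fun h hh => ?_, fun h hh => ?_, ?_, fun h hh => ?_, fun i hi => ?_⟩
  · exact Subgroup.mem_subgroupOf.1
      (hn.conj_mem ⟨h, hle hh⟩ (Subgroup.mem_subgroupOf.2 hh) ⟨g, hg⟩)
  · have := Subgroup.mem_subgroupOf.1
      (hn.conj_mem ⟨h, hle hh⟩ (Subgroup.mem_subgroupOf.2 hh) ⟨g, hg⟩⁻¹)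
    simpa using this
  · have h1 : π (⟨g, hg⟩ ^ p) = 1 := by
      rw [map_pow, ← hord]
      exact pow_orderOf_eq_one _
    have := Subgroup.mem_subgroupOf.1 ((QuotientGroup.eq_one_iff _).1 h1)
    simpa using this
  · classical
    have : Finite (H ⧸ H'.subgroupOf H) :=
      Nat.finite_of_card_ne_zero (by rw [hcard]; exact hp.out.ne_zero)
    have htop := zpowers_eq_top_of_prime_card hcard hne
    have hmem : π ⟨h, hh⟩ ∈ Subgroup.zpowers (π ⟨g, hg⟩) := htop ▸ Subgroup.mem_top _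
    rw [← mem_powers_iff_mem_zpowers, mem_powers_iff_mem_range_orderOf] at hmem
    obtain ⟨i, hi, e⟩ := Finset.mem_image.1 hmem
    rw [Finset.mem_range, hord] at hi
    refine ⟨i, hi, (g ^ i)⁻¹ * h, ?_, by group⟩
    rw [← map_pow] at e
    have := Subgroup.mem_subgroupOf.1 (QuotientGroup.eq.1 e)
    simpa using this
  · rw [← hord]
    apply orderOf_dvd_of_pow_eq_one
    rw [← map_pow]
    exact (QuotientGroup.eq_one_iff _).2 (Subgroup.mem_subgroupOf.2 (by simpa using hi))

/-- Commuting actions of a local group and of a global group on a set of embeddings, and of the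
local group on the values. -/
structure OrbitSys (Γ G X V : Type*) [Group Γ] [Group G] [AddCommGroup V] where
  post : Γ → X → X
  post_one : ∀ x, post 1 x = x
  post_mul : ∀ a b x, post (a * b) x = post a (post b x)
  pre : X → G → X
  pre_one : ∀ x, pre x 1 = x
  pre_mul : ∀ x a b, pre x (a * b) = pre (pre x a) b
  pre_post : ∀ τ x a, pre (post τ x) a = post τ (pre x a)
  act : Γ →* AddMonoid.End V

namespace OrbitSys

variable {Γ G X V : Type*} [Group Γ] [Group G] [AddCommGroup V] (S : OrbitSys Γ G X V)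

/-- Same orbit under the local group and `K`. -/
def Rel (K : Subgroup G) (x y : X) : Prop := ∃ τ : Γ, ∃ h ∈ K, S.post τ (S.pre x h) = y

/-- The orbit. -/
def orb (K : Subgroup G) (x : X) : Set X := {y | S.Rel K x y}

/-- Number of orbits in a stable set. -/
noncomputable def orbCount (K : Subgroup G) (Y : Set X) : ℕ := (S.orb K '' Y).ncard

/-- Equivariant families with values in `W`, invariant under `K` and supported in `Y`. -/
def fam (K : Subgroup G) (W : AddSubgroup V) (Y : Set X) : AddSubgroup (X → V) where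
  carrier := {f | (∀ τ x, f (S.post τ x) = S.act τ (f x)) ∧ (∀ h ∈ K, ∀ x, f (S.pre x h) = f x) ∧
    (∀ x, f x ∈ W) ∧ ∀ x, x ∉ Y → f x = 0}
  zero_mem' := ⟨fun τ x => (map_zero (S.act τ)).symm, fun h _ x => rfl, fun x => zero_mem W,
    fun x _ => rfl⟩
  add_mem' := fun {a b} ha hb => ⟨fun τ x => by simp [ha.1 τ x, hb.1 τ x],
    fun h hh x => by simp [ha.2.1 h hh x, hb.2.1 h hh x],
    fun x => add_mem (ha.2.2.1 x) (hb.2.2.1 x),
    fun x hx => by simp [ha.2.2.2 x hx, hb.2.2.2 x hx]⟩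
  neg_mem' := fun {a} ha => ⟨fun τ x => by simp [ha.1 τ x],
    fun h hh x => by simp [ha.2.1 h hh x], fun x => neg_mem (ha.2.2.1 x),
    fun x hx => by simp [ha.2.2.2 x hx]⟩

/-- Translation of families by `g`. -/
noncomputable def shift (g : G) : AddMonoid.End (X → V) :=
  { toFun := fun f x => f (S.pre x g)
    map_zero' := rfl
    map_add' := fun _ _ => rfl }

theorem shift_apply (g : G) (f : X → V) (x : X) : S.shift g f x = f (S.pre x g) := rfl

theorem shift_pow_apply (g : G) (i : ℕ) (f : X → V) (x : X) :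
    (S.shift g ^ i) f x = f (S.pre x (g ^ i)) := by
  induction i generalizing x with
  | zero => rw [pow_zero, pow_zero, S.pre_one]; rfl
  | succ n ih =>
    rw [pow_succ', pow_succ', S.pre_mul]
    exact ih (S.pre x g)

/-- The values at `x` of invariant families. -/
def valueGroup (K : Subgroup G) (W : AddSubgroup V) (x : X) : AddSubgroup V where
  carrier := {v | v ∈ W ∧ ∀ τ, ∀ h ∈ K, S.post τ x = S.pre x h → S.act τ v = v}
  zero_mem' := ⟨zero_mem W, fun τ _ _ _ => map_zero _⟩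
  add_mem' := fun ha hb => ⟨add_mem ha.1 hb.1,
    fun τ h hh e => by rw [map_add, ha.2 τ h hh e, hb.2 τ h hh e]⟩
  neg_mem' := fun ha => ⟨neg_mem ha.1, fun τ h hh e => by rw [map_neg, ha.2 τ h hh e]⟩

variable {S}

theorem act_inv_apply (τ : Γ) (v : V) : S.act τ⁻¹ (S.act τ v) = v := by
  have h := DFunLike.congr_fun (map_mul S.act τ⁻¹ τ) v
  rw [inv_mul_cancel, map_one] at h
  exact h.symm

theorem Rel.refl (K : Subgroup G) (x : X) : S.Rel K x x :=
  ⟨1, 1, K.one_mem, by rw [S.pre_one, S.post_one]⟩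

theorem Rel.symm {K : Subgroup G} {x y : X} (h : S.Rel K x y) : S.Rel K y x := by
  obtain ⟨τ, a, ha, rfl⟩ := h
  refine ⟨τ⁻¹, a⁻¹, K.inv_mem ha, ?_⟩
  rw [S.pre_post, ← S.post_mul, inv_mul_cancel, S.post_one, ← S.pre_mul, mul_inv_cancel, S.pre_one]

theorem Rel.trans {K : Subgroup G} {x y z : X} (h : S.Rel K x y) (h' : S.Rel K y z) :
    S.Rel K x z := by
  obtain ⟨τ, a, ha, rfl⟩ := h
  obtain ⟨σ, b, hb, rfl⟩ := h'
  refine ⟨σ * τ, a * b, K.mul_mem ha hb, ?_⟩
  rw [S.pre_post, S.post_mul, S.pre_mul]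

theorem rel_pre {K : Subgroup G} (x : X) {h : G} (hh : h ∈ K) : S.Rel K x (S.pre x h) :=
  ⟨1, h, hh, by rw [S.post_one]⟩

theorem rel_post (K : Subgroup G) (x : X) (τ : Γ) : S.Rel K x (S.post τ x) :=
  ⟨τ, 1, K.one_mem, by rw [S.pre_one]⟩

theorem Rel.mono {K K' : Subgroup G} (h : K ≤ K') {x y : X} (hr : S.Rel K x y) : S.Rel K' x y := by
  obtain ⟨τ, a, ha, e⟩ := hr
  exact ⟨τ, a, h ha, e⟩

theorem orb_eq_iff {K : Subgroup G} {x y : X} : S.orb K x = S.orb K y ↔ S.Rel K x y := by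
  refine ⟨fun h => ?_, fun h => Set.ext fun z => ⟨fun hz => h.symm.trans hz, fun hz => h.trans hz⟩⟩
  have : y ∈ S.orb K y := Rel.refl K y
  rw [← h] at this
  exact this

variable {p : ℕ} {H' H : Subgroup G} {g : G} (hc : CyclicPair p H' H g) {W : AddSubgroup V}

include hc in
theorem Rel.pre_g {x y : X} (h : S.Rel H' x y) : S.Rel H' (S.pre x g) (S.pre y g) := by
  obtain ⟨τ, a, ha, rfl⟩ := h
  refine ⟨τ, g⁻¹ * a * g, hc.conj_mem' a ha, ?_⟩
  rw [S.pre_post, ← S.pre_mul, ← S.pre_mul]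
  congr 2
  group

include hc in
theorem Rel.pre_g_pow {x y : X} (h : S.Rel H' x y) (i : ℕ) :
    S.Rel H' (S.pre x (g ^ i)) (S.pre y (g ^ i)) := by
  induction i with
  | zero => rwa [pow_zero, S.pre_one, S.pre_one]
  | succ n ih =>
    rw [pow_succ, S.pre_mul, S.pre_mul]
    exact ih.pre_g hc

include hc in
theorem rel_pow_add {x : X} {i j : ℕ} (hi : S.Rel H' x (S.pre x (g ^ i)))
    (hj : S.Rel H' x (S.pre x (g ^ j))) : S.Rel H' x (S.pre x (g ^ (i + j))) := by
  refine hj.trans ?_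
  rw [pow_add, S.pre_mul]
  exact hi.pre_g_pow hc j

include hc in
theorem rel_g_of_rel_pow [hp : Fact p.Prime] {x : X} {i : ℕ} (hi : ¬ p ∣ i)
    (h : S.Rel H' x (S.pre x (g ^ i))) : S.Rel H' x (S.pre x g) := by
  have hmul : ∀ j : ℕ, S.Rel H' x (S.pre x (g ^ (i * j))) := by
    intro j
    induction j with
    | zero => rw [mul_zero, pow_zero, S.pre_one]; exact Rel.refl _ _
    | succ n ih => rw [mul_add, mul_one]; exact rel_pow_add hc ih h
  obtain ⟨j, hj⟩ : ∃ j : ℕ, ((i * j : ℕ) : ZMod p) = 1 := by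
    refine ⟨((i : ZMod p)⁻¹).val, ?_⟩
    rw [Nat.cast_mul, ZMod.natCast_zmod_val]
    exact mul_inv_cancel₀ (fun h0 => hi ((ZMod.natCast_eq_zero_iff i p).1 h0))
  have hpos : 1 ≤ i * j := by
    rcases Nat.eq_zero_or_pos (i * j) with h0 | h0
    · rw [h0, Nat.cast_zero] at hj
      exact absurd hj zero_ne_one
    · exact h0
  obtain ⟨k, hk⟩ : p ∣ i * j - 1 := by
    rw [← ZMod.natCast_eq_zero_iff, Nat.cast_sub hpos, hj, Nat.cast_one, sub_self]
  refine (hmul j).trans ?_
  have e : g ^ (i * j) = g * (g ^ p) ^ k := by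
    rw [← pow_mul, ← hk, ← pow_succ']
    congr 1
    omega
  rw [e, S.pre_mul]
  exact (rel_pre _ (H'.pow_mem hc.pow_mem k)).symm

include hc in
theorem rel_H_iff {x y : X} : S.Rel H x y ↔ ∃ i < p, S.Rel H' (S.pre x (g ^ i)) y := by
  constructor
  · rintro ⟨τ, h, hh, rfl⟩
    obtain ⟨i, hi, h', hh', rfl⟩ := hc.exists_pow h hh
    exact ⟨i, hi, τ, h', hh', by rw [← S.pre_mul]⟩
  · rintro ⟨i, _, hr⟩
    exact (rel_pre x (H.pow_mem hc.gmem i)).trans (hr.mono hc.le)

include hc in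
theorem mem_fam_shift {Y : Set X} (hY : ∀ x ∈ Y, ∀ y, S.Rel H x y → y ∈ Y) {f : X → V}
    (hf : f ∈ S.fam H' W Y) : S.shift g f ∈ S.fam H' W Y := by
  refine ⟨fun τ x => ?_, fun h hh x => ?_, fun x => hf.2.2.1 _, fun x hx => ?_⟩
  · rw [shift_apply, shift_apply, S.pre_post, hf.1]
  · have e : S.pre (S.pre x h) g = S.pre (S.pre x g) (g⁻¹ * h * g) := by
      rw [← S.pre_mul, ← S.pre_mul]
      congr 1
      group
    rw [shift_apply, shift_apply, e, hf.2.1 _ (hc.conj_mem' h hh)]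
  · exact hf.2.2.2 _ fun h => hx (hY _ h _ (rel_pre x hc.gmem).symm)

include hc in
theorem isOrderP_fam {Y : Set X} (hY : ∀ x ∈ Y, ∀ y, S.Rel H x y → y ∈ Y) :
    Herbrand.IsOrderP p (S.shift g) (S.fam H' W Y) where
  mem f hf := mem_fam_shift hc hY hf
  pow_eq f hf := funext fun x => by rw [shift_pow_apply, hf.2.1 _ hc.pow_mem]

open Classical in
/-- Restriction of families to a set. -/
noncomputable def cut (O : Set X) : (X → V) →+ (X → V) where
  toFun f x := if x ∈ O then f x else 0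
  map_zero' := funext fun x => by simp
  map_add' a b := funext fun x => by by_cases h : x ∈ O <;> simp [h]

theorem cut_of_mem {O : Set X} {f : X → V} {x : X} (h : x ∈ O) : cut O f x = f x := if_pos h

theorem cut_of_notMem {O : Set X} {f : X → V} {x : X} (h : x ∉ O) : cut O f x = 0 := if_neg h

theorem cut_mem_fam {K : Subgroup G} {O Y Y' : Set X} (hO : ∀ x y, S.Rel K x y → x ∈ O → y ∈ O)
    (hsub : ∀ x ∈ O, x ∈ Y → x ∈ Y') {f : X → V} (hf : f ∈ S.fam K W Y) :
    cut O f ∈ S.fam K W Y' := by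
  refine ⟨fun τ x => ?_, fun h hh x => ?_, fun x => ?_, fun x hx => ?_⟩
  · by_cases hx : x ∈ O
    · rw [cut_of_mem hx, cut_of_mem (hO _ _ (rel_post K x τ) hx), hf.1]
    · rw [cut_of_notMem hx, cut_of_notMem (fun h' => hx (hO _ _ (rel_post K x τ).symm h')),
        map_zero]
  · by_cases hx : x ∈ O
    · rw [cut_of_mem hx, cut_of_mem (hO _ _ (rel_pre x hh) hx), hf.2.1 h hh]
    · rw [cut_of_notMem hx, cut_of_notMem (fun h' => hx (hO _ _ (rel_pre x hh).symm h'))]
  · by_cases h : x ∈ O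
    · rw [cut_of_mem h]; exact hf.2.2.1 x
    · rw [cut_of_notMem h]; exact zero_mem W
  · by_cases h : x ∈ O
    · rw [cut_of_mem h]; exact hf.2.2.2 x fun h' => hx (hsub x h h')
    · exact cut_of_notMem h

include hc in
/-- A split orbit contributes nothing. -/
theorem hOrd_fam_split [hp : Fact p.Prime] {x₀ : X} (hx : ¬ S.Rel H' x₀ (S.pre x₀ g)) :
    Herbrand.hOrd (Herbrand.endDiff (S.shift g)) (Herbrand.endNorm p (S.shift g))
        (S.fam H' W (S.orb H x₀)) = 1 ∧
      Herbrand.hOrd (Herbrand.endNorm p (S.shift g)) (Herbrand.endDiff (S.shift g))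
        (S.fam H' W (S.orb H x₀)) = 1 := by
  set s := S.shift g with hs
  set Φ := S.fam H' W (S.orb H x₀)
  have hY : ∀ x ∈ S.orb H x₀, ∀ y, S.Rel H x y → y ∈ S.orb H x₀ := fun x h y h' => h.trans h'
  set P : (X → V) →+ (X → V) := cut (S.orb H' x₀)
  have hP : ∀ f ∈ Φ, P f ∈ Φ := fun f hf =>
    cut_mem_fam (fun a b h ha => Rel.trans ha h) (fun x _ h => h) hf
  have uniq : ∀ x i, i < p → ∀ j, j < p → S.Rel H' x₀ (S.pre x (g ^ i)) →
      S.Rel H' x₀ (S.pre x (g ^ j)) → i = j := by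
    have aux : ∀ x i j, i ≤ j → j < p → S.Rel H' x₀ (S.pre x (g ^ i)) →
        S.Rel H' x₀ (S.pre x (g ^ j)) → i = j := by
      intro x i j hij hjp hi hj
      by_contra hne
      apply hx
      refine rel_g_of_rel_pow hc (i := j - i) (fun hd => ?_) ?_
      · have := Nat.le_of_dvd (by omega) hd
        omega
      · have := hi.pre_g_pow hc (j - i)
        rw [← S.pre_mul, ← pow_add, Nat.add_sub_cancel' hij] at this
        exact hj.trans this.symm
    intro x i hi j hj h1 h2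
    rcases le_total i j with h | h
    · exact aux x i j h hj h1 h2
    · exact (aux x j i h hi h2 h1).symm
  have hdecomp : ∀ f ∈ Φ, ∑ i ∈ Finset.range p, (s ^ i) (P ((s ^ (p - i)) f)) = f := by
    intro f hf
    funext x
    rw [Finset.sum_apply]
    by_cases hxO : S.Rel H x₀ x
    · obtain ⟨i, hi, hr⟩ := (rel_H_iff hc).1 hxO.symm
      rw [Finset.sum_eq_single_of_mem i (Finset.mem_range.2 hi)]
      · rw [shift_pow_apply, cut_of_mem (show S.pre x (g ^ i) ∈ S.orb H' x₀ from hr.symm),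
          shift_pow_apply, ← S.pre_mul, ← pow_add, Nat.add_sub_cancel' hi.le,
          hf.2.1 _ hc.pow_mem]
      · intro j hj hne
        rw [shift_pow_apply, cut_of_notMem]
        intro hm
        exact hne (uniq x j (Finset.mem_range.1 hj) i hi hm hr.symm)
    · rw [hf.2.2.2 x hxO]
      refine Finset.sum_eq_zero fun i _ => ?_
      rw [shift_pow_apply, cut_of_notMem]
      intro hm
      exact hxO ((Rel.mono hc.le hm).trans (rel_pre x (H.pow_mem hc.gmem i)).symm)
  have hord := isOrderP_fam (W := W) hc hY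
  rw [Herbrand.hOrd_eq_one_iff, Herbrand.hOrd_eq_one_iff]
  constructor
  · intro f hf h0
    have hfix : ∀ i, (s ^ i) f = f := fun i => by
      induction i with
      | zero => rfl
      | succ n ih => rw [pow_succ']; exact (congrArg s ih).trans (sub_eq_zero.1 h0)
    refine ⟨P f, hP f hf, ?_⟩
    rw [Herbrand.endNorm_apply]
    conv_rhs => rw [← hdecomp f hf]
    exact Finset.sum_congr rfl fun i _ => by rw [hfix]
  · intro f hf h0
    have hsum : ∑ i ∈ Finset.range p, P ((s ^ (p - i)) f) = 0 := by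
      rw [← map_sum, ← map_zero P]
      congr 1
      rw [← h0, Herbrand.endNorm_apply]
      apply Finset.sum_bij' (fun i _ => (p - i) % p) (fun i _ => (p - i) % p)
      · intro i _; exact Finset.mem_range.2 (Nat.mod_lt _ hp.out.pos)
      · intro i _; exact Finset.mem_range.2 (Nat.mod_lt _ hp.out.pos)
      · intro i hi
        rcases Nat.eq_zero_or_pos i with rfl | hi'
        · simp
        · have := hp.out.pos
          rw [Nat.mod_eq_of_lt (show p - i < p by omega)]
          rw [show p - (p - i) = i by have := Finset.mem_range.1 hi; omega]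
          exact Nat.mod_eq_of_lt (Finset.mem_range.1 hi)
      · intro i hi
        rcases Nat.eq_zero_or_pos i with rfl | hi'
        · simp
        · have := hp.out.pos
          rw [Nat.mod_eq_of_lt (show p - i < p by omega)]
          rw [show p - (p - i) = i by have := Finset.mem_range.1 hi; omega]
          exact Nat.mod_eq_of_lt (Finset.mem_range.1 hi)
      · intro i hi
        rcases Nat.eq_zero_or_pos i with rfl | hi'
        · rw [Nat.sub_zero, Nat.mod_self, pow_zero]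
          exact hord.pow_eq f hf
        · have := hp.out.pos
          rw [Nat.mod_eq_of_lt (show p - i < p by omega)]
    refine ⟨∑ i ∈ Finset.range p, (∑ j ∈ Finset.range i, s ^ j) (P ((s ^ (p - i)) f)),
      sum_mem fun i _ => ?_, ?_⟩
    · have hm : P ((s ^ (p - i)) f) ∈ Φ := hP _ (Herbrand.pow_mem_of_mem hord.mem _ f hf)
      rw [show (∑ j ∈ Finset.range i, s ^ j : AddMonoid.End (X → V)) (P ((s ^ (p - i)) f)) =
        ∑ j ∈ Finset.range i, (s ^ j) (P ((s ^ (p - i)) f)) from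
          AddMonoidHom.finsetSum_apply _ _ _]
      exact sum_mem fun j _ => Herbrand.pow_mem_of_mem hord.mem j _ hm
    · rw [map_sum]
      conv_rhs => rw [← hdecomp f hf]
      rw [← sub_eq_zero, ← Finset.sum_sub_distrib]
      have e : ∀ i v, Herbrand.endDiff s ((∑ j ∈ Finset.range i, s ^ j : AddMonoid.End (X → V)) v) -
          (s ^ i) v = -v := fun i v => by
        have h1 := DFunLike.congr_fun (mul_geom_sum s i) v
        rw [show Herbrand.endDiff s ((∑ j ∈ Finset.range i, s ^ j : AddMonoid.End (X → V)) v) =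
          (s ^ i) v - v from h1]
        abel
      rw [Finset.sum_congr rfl fun i _ => e i _, Finset.sum_neg_distrib, hsum, neg_zero]

include hc in
/-- A nonsplit orbit is the value group with its local automorphism. -/
theorem hOrd_fam_nonsplit (hW : ∀ τ, ∀ v ∈ W, S.act τ v ∈ W) {x₀ : X} {τ₀ : Γ} {h₀ : G}
    (hh₀ : h₀ ∈ H') (he : S.post τ₀ x₀ = S.pre x₀ (g * h₀)) :
    Herbrand.hOrd (Herbrand.endDiff (S.shift g)) (Herbrand.endNorm p (S.shift g))
        (S.fam H' W (S.orb H x₀)) =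
      Herbrand.hOrd (Herbrand.endDiff (S.act τ₀)) (Herbrand.endNorm p (S.act τ₀))
        (S.valueGroup H' W x₀) ∧
    Herbrand.hOrd (Herbrand.endNorm p (S.shift g)) (Herbrand.endDiff (S.shift g))
        (S.fam H' W (S.orb H x₀)) =
      Herbrand.hOrd (Herbrand.endNorm p (S.act τ₀)) (Herbrand.endDiff (S.act τ₀))
        (S.valueGroup H' W x₀) := by
  set Φ := S.fam H' W (S.orb H x₀) with hΦ
  have hY : ∀ x ∈ S.orb H x₀, ∀ y, S.Rel H x y → y ∈ S.orb H x₀ := fun x h y h' => h.trans h'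
  have hord := isOrderP_fam (W := W) hc hY
  let ev : (X → V) →+ V := Pi.evalAddMonoidHom (fun _ => V) x₀
  have h1 : S.Rel H' x₀ (S.pre x₀ g) := by
    refine ⟨τ₀, h₀⁻¹, H'.inv_mem hh₀, ?_⟩
    rw [← S.pre_post, he, ← S.pre_mul, mul_assoc, mul_inv_cancel, mul_one]
  have horb : ∀ y, S.Rel H x₀ y → S.Rel H' x₀ y := by
    intro y hy
    obtain ⟨i, -, hr⟩ := (rel_H_iff hc).1 hy
    refine Rel.trans ?_ hr
    have hpow : ∀ j, S.Rel H' x₀ (S.pre x₀ (g ^ j)) := fun j => by
      induction j with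
      | zero => rw [pow_zero, S.pre_one]; exact Rel.refl _ _
      | succ n ih => exact rel_pow_add hc ih (by rwa [pow_one])
    exact hpow i
  have hev : ∀ f ∈ Φ, ev (S.shift g f) = S.act τ₀ (ev f) := by
    intro f hf
    show f (S.pre x₀ g) = S.act τ₀ (f x₀)
    rw [← hf.1 τ₀ x₀, he, S.pre_mul, hf.2.1 h₀ hh₀]
  have hcomm := Herbrand.comm_endDiff (p := p) ev (S.act τ₀) hord.mem hev
  have hinj : Φ ⊓ ev.ker = ⊥ := by
    rw [eq_bot_iff]
    rintro f ⟨hf, h0⟩
    funext y
    by_cases hy : S.Rel H x₀ y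
    · obtain ⟨τ, h, hh, rfl⟩ := horb y hy
      rw [hf.1, hf.2.1 h hh, show f x₀ = 0 from h0, map_zero]
      rfl
    · exact hf.2.2.2 y hy
  have himg : Φ.map ev = S.valueGroup H' W x₀ := by
    apply le_antisymm
    · rintro _ ⟨f, hf, rfl⟩
      refine ⟨hf.2.2.1 x₀, fun τ h hh e => ?_⟩
      show S.act τ (f x₀) = f x₀
      rw [← hf.1 τ x₀, e, hf.2.1 h hh]
    · rintro v ⟨hv, hstab⟩
      classical
      let f : X → V := fun y => if hy : S.Rel H' x₀ y then S.act hy.choose v else 0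
      have key : ∀ τ, ∀ h ∈ H', ∀ y, S.post τ (S.pre x₀ h) = y → f y = S.act τ v := by
        intro τ h hh y hy
        have hr : S.Rel H' x₀ y := ⟨τ, h, hh, hy⟩
        simp only [f, dif_pos hr]
        obtain ⟨h', hh', e⟩ := hr.choose_spec
        have e2 : S.post (τ⁻¹ * hr.choose) x₀ = S.pre x₀ (h * h'⁻¹) := by
          have e1 := congrArg (fun z => S.pre (S.post τ⁻¹ z) h'⁻¹) (e.trans hy.symm)
          simp only [← S.post_mul, S.pre_post, inv_mul_cancel, S.post_one, ← S.pre_mul,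
            mul_inv_cancel, S.pre_one] at e1
          exact e1
        have e3 := hstab _ _ (H'.mul_mem hh (H'.inv_mem hh')) e2
        rw [map_mul] at e3
        have e4 := congrArg (S.act τ) e3
        rw [show S.act τ ((S.act τ⁻¹ * S.act hr.choose) v) = S.act hr.choose v from by
          conv_rhs => rw [← act_inv_apply (S := S) τ⁻¹ (S.act hr.choose v), inv_inv]
          rfl] at e4
        exact e4
      have hfv : f x₀ = v := by
        rw [key 1 1 H'.one_mem x₀ (by rw [S.pre_one, S.post_one]), map_one]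
        rfl
      refine ⟨f, ⟨fun τ y => ?_, fun h hh y => ?_, fun y => ?_, fun y hy => ?_⟩, hfv⟩
      · by_cases hy : S.Rel H' x₀ y
        · obtain ⟨σ, h, hh, rfl⟩ := hy
          rw [key (τ * σ) h hh _ (by rw [S.post_mul]), key σ h hh _ rfl, map_mul]
          rfl
        · simp only [f, dif_neg hy,
            dif_neg (fun h => hy (Rel.trans h (rel_post H' y τ).symm)), map_zero]
      · by_cases hy : S.Rel H' x₀ y
        · obtain ⟨σ, h', hh', rfl⟩ := hy
          rw [key σ (h' * h) (H'.mul_mem hh' hh) _ (by rw [S.pre_post, S.pre_mul]),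
            key σ h' hh' _ rfl]
        · simp only [f, dif_neg hy, dif_neg (fun h'' => hy (Rel.trans h'' (rel_pre y hh).symm))]
      · by_cases hy : S.Rel H' x₀ y
        · obtain ⟨σ, h, hh, rfl⟩ := hy
          rw [key σ h hh _ rfl]
          exact hW σ v hv
        · simp only [f, dif_neg hy]; exact zero_mem W
      · simp only [f, dif_neg (fun h => hy (Rel.mono hc.le h))]
  constructor
  · rw [← himg, Herbrand.hOrd_map_of_injOn ev hord.isHPair hcomm.1 hcomm.2 hinj]
  · rw [← himg, Herbrand.hOrd_map_of_injOn ev hord.isHPair.symm hcomm.2 hcomm.1 hinj]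

/-- Local hypothesis: at nonsplit points the invariant quotient has order `c`, the other is
trivial. -/
def LocalHyp (S : OrbitSys Γ G X V) (p : ℕ) (H' : Subgroup G) (g : G) (W : AddSubgroup V) (c : ℕ)
    (Y : Set X) : Prop :=
  ∀ x ∈ Y, ∀ τ : Γ, ∀ h ∈ H', S.post τ x = S.pre x (g * h) →
    Herbrand.hOrd (Herbrand.endDiff (S.act τ)) (Herbrand.endNorm p (S.act τ))
        (S.valueGroup H' W x) = c ∧
      Herbrand.hOrd (Herbrand.endNorm p (S.act τ)) (Herbrand.endDiff (S.act τ))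
        (S.valueGroup H' W x) = 1

include hc in
theorem ncard_orb_split [hp : Fact p.Prime] {x₀ : X} (hx : ¬ S.Rel H' x₀ (S.pre x₀ g)) :
    (S.orb H' '' S.orb H x₀).ncard = p := by
  have e : S.orb H' '' S.orb H x₀ =
      (fun i => S.orb H' (S.pre x₀ (g ^ i))) '' (Finset.range p : Set ℕ) := by
    ext O
    constructor
    · rintro ⟨y, hy, rfl⟩
      obtain ⟨i, hi, hr⟩ := (rel_H_iff hc).1 hy
      exact ⟨i, Finset.mem_range.2 hi, orb_eq_iff.2 hr⟩
    · rintro ⟨i, -, rfl⟩
      exact ⟨_, rel_pre x₀ (H.pow_mem hc.gmem i), rfl⟩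
  rw [e, Set.InjOn.ncard_image, Set.ncard_coe_finset, Finset.card_range]
  have aux : ∀ i j, i ≤ j → j < p → S.Rel H' (S.pre x₀ (g ^ i)) (S.pre x₀ (g ^ j)) → i = j := by
    intro i j hij hjp h
    by_contra hne
    apply hx
    refine rel_g_of_rel_pow hc (i := j - i) (fun hd => ?_) ?_
    · have := Nat.le_of_dvd (by omega) hd
      omega
    · have h2 := h.pre_g_pow hc (p - i)
      rw [← S.pre_mul, ← pow_add, ← S.pre_mul, ← pow_add,
        show i + (p - i) = p by omega, show j + (p - i) = (j - i) + p by omega, pow_add,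
        S.pre_mul] at h2
      exact (rel_pre _ hc.pow_mem).trans (h2.trans (rel_pre _ hc.pow_mem).symm)
  intro i hi j hj h
  have hr := orb_eq_iff.1 h
  rcases le_total i j with hle | hle
  · exact aux i j hle (Finset.mem_range.1 hj) hr
  · exact (aux j i hle (Finset.mem_range.1 hi) hr.symm).symm

include hc in
theorem orb_nonsplit {x₀ : X} (hx : S.Rel H' x₀ (S.pre x₀ g)) :
    S.orb H x₀ = S.orb H' x₀ := by
  ext y
  refine ⟨fun hy => ?_, fun hy => hy.mono hc.le⟩
  obtain ⟨i, -, hr⟩ := (rel_H_iff hc).1 hy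
  refine Rel.trans ?_ hr
  have hpow : ∀ j, S.Rel H' x₀ (S.pre x₀ (g ^ j)) := fun j => by
    induction j with
    | zero => rw [pow_zero, S.pre_one]; exact Rel.refl _ _
    | succ n ih => exact rel_pow_add hc ih (by rwa [pow_one])
  exact hpow i

include hc in
/-- Orders and orbit counts for a stable finite set. -/
theorem hOrd_fam [hp : Fact p.Prime] [Finite X] (hW : ∀ τ, ∀ v ∈ W, S.act τ v ∈ W) {c : ℕ} :
    ∀ Y : Set X, (∀ x ∈ Y, ∀ y, S.Rel H x y → y ∈ Y) → LocalHyp S p H' g W c Y →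
    ∃ n : ℕ, Herbrand.hOrd (Herbrand.endDiff (S.shift g)) (Herbrand.endNorm p (S.shift g))
        (S.fam H' W Y) = c ^ n ∧
      Herbrand.hOrd (Herbrand.endNorm p (S.shift g)) (Herbrand.endDiff (S.shift g))
        (S.fam H' W Y) = 1 ∧
      p * S.orbCount H Y = S.orbCount H' Y + (p - 1) * n := by
  intro Y
  induction h : Y.ncard using Nat.strong_induction_on generalizing Y with
  | _ m ih =>
  intro hY hloc
  rcases Y.eq_empty_or_nonempty with rfl | ⟨x₀, hx₀⟩
  · have hbot : S.fam H' W ∅ = ⊥ :=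
      eq_bot_iff.2 fun f hf => funext fun x => hf.2.2.2 x (Set.notMem_empty x)
    exact ⟨0, by simp [hbot, Herbrand.hOrd], by simp [hbot, Herbrand.hOrd], by simp [orbCount]⟩
  set O := S.orb H x₀
  have hOY : O ⊆ Y := fun y hy => hY x₀ hx₀ y hy
  have hOst : ∀ x ∈ O, ∀ y, S.Rel H x y → y ∈ O := fun x h y h' => Rel.trans h h'
  set Y' := Y \ O
  have hY'st : ∀ x ∈ Y', ∀ y, S.Rel H x y → y ∈ Y' := fun x hx y hxy =>
    ⟨hY x hx.1 y hxy, fun hyO => hx.2 (hOst y hyO x hxy.symm)⟩
  have hlt : Y'.ncard < m := h ▸ Set.ncard_lt_ncard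
    (Set.sdiff_ssubset_left_iff.2 ⟨x₀, hx₀, Rel.refl H x₀⟩)
  obtain ⟨n, hn1, hn2, hn3⟩ := ih _ hlt Y' rfl hY'st fun x hx => hloc x hx.1
  obtain ⟨k, hk1, hk2, hk3⟩ : ∃ k : ℕ,
      Herbrand.hOrd (Herbrand.endDiff (S.shift g)) (Herbrand.endNorm p (S.shift g))
        (S.fam H' W O) = c ^ k ∧
      Herbrand.hOrd (Herbrand.endNorm p (S.shift g)) (Herbrand.endDiff (S.shift g))
        (S.fam H' W O) = 1 ∧
      p = (S.orb H' '' O).ncard + (p - 1) * k := by
    by_cases hs : S.Rel H' x₀ (S.pre x₀ g)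
    · have hs0 := hs
      obtain ⟨τ, h, hh, e⟩ := hs
      have e' : S.post τ x₀ = S.pre x₀ (g * h⁻¹) := by
        rw [S.pre_mul, ← e, S.pre_post, ← S.pre_mul, mul_inv_cancel, S.pre_one]
      obtain ⟨l1, l2⟩ := hloc x₀ hx₀ τ _ (H'.inv_mem hh) e'
      obtain ⟨m1, m2⟩ := hOrd_fam_nonsplit hc hW (H'.inv_mem hh) e'
      refine ⟨1, by rw [m1, l1, pow_one], by rw [m2, l2], ?_⟩
      have hO : S.orb H' '' O = {S.orb H' x₀} := by
        ext U
        constructor
        · rintro ⟨y, hy, rfl⟩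
          exact (orb_eq_iff.2 (show S.Rel H' x₀ y from (orb_nonsplit hc hs0).subset hy)).symm
        · rintro rfl
          exact ⟨x₀, Rel.refl H x₀, rfl⟩
      rw [hO, Set.ncard_singleton, mul_one]
      have := hp.out.pos
      omega
    · obtain ⟨m1, m2⟩ := hOrd_fam_split hc (W := W) hs
      exact ⟨0, by rw [m1, pow_zero], m2, by rw [ncard_orb_split hc hs, mul_zero, add_zero]⟩
  set φ : (X → V) →+ (X → V) := cut O
  have hord := isOrderP_fam (W := W) hc hY
  have hsφ : ∀ f ∈ S.fam H' W Y, φ (S.shift g f) = S.shift g (φ f) := fun f _ => funext fun x => by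
    by_cases hx : x ∈ O
    · rw [shift_apply, cut_of_mem hx, cut_of_mem (hOst x hx _ (rel_pre x hc.gmem)), shift_apply]
    · rw [shift_apply, cut_of_notMem hx,
        cut_of_notMem fun h' => hx (hOst _ h' x (rel_pre x hc.gmem).symm)]
  have hcm := Herbrand.comm_endDiff (p := p) φ (S.shift g) hord.mem hsφ
  have hker : S.fam H' W Y ⊓ φ.ker = S.fam H' W Y' := by
    ext f
    constructor
    · rintro ⟨hf, h0⟩
      refine ⟨hf.1, hf.2.1, hf.2.2.1, fun x hx => ?_⟩
      by_cases hxY : x ∈ Y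
      · rw [← cut_of_mem (f := f) (not_not.1 fun hh => hx ⟨hxY, hh⟩)]
        exact congrFun h0 x
      · exact hf.2.2.2 x hxY
    · intro hf
      refine ⟨⟨hf.1, hf.2.1, hf.2.2.1, fun x hx => hf.2.2.2 x fun h' => hx h'.1⟩, funext fun x => ?_⟩
      by_cases hx : x ∈ O
      · rw [cut_of_mem hx, hf.2.2.2 x fun h' => h'.2 hx]; rfl
      · rw [cut_of_notMem hx]; rfl
  have himg : (S.fam H' W Y).map φ = S.fam H' W O := by
    apply le_antisymm
    · rintro _ ⟨f, hf, rfl⟩
      exact cut_mem_fam (fun x y h hx => hOst x hx y (h.mono hc.le)) (fun x hx _ => hx) hf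
    · intro f hf
      refine ⟨f, ⟨hf.1, hf.2.1, hf.2.2.1, fun x hx => hf.2.2.2 x fun h' => hx (hOY h')⟩,
        funext fun x => ?_⟩
      by_cases hx : x ∈ O
      · rw [cut_of_mem hx]
      · rw [cut_of_notMem hx, hf.2.2.2 x hx]
  have hb : Herbrand.hOrd (Herbrand.endNorm p (S.shift g)) (Herbrand.endDiff (S.shift g))
      (S.fam H' W Y) = 1 :=
    Herbrand.hOrd_eq_one_of_map φ hord.isHPair.symm hcm.2 hcm.1 (by rw [hker, hn2])
      (by rw [himg, hk2])
  refine ⟨n + k, ?_, hb, ?_⟩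
  · have hm := Herbrand.hOrd_mult φ hord.isHPair hcm.1 hcm.2
    rw [hker, himg, hn1, hk1, hn2, hk2, hb, mul_one, one_mul, one_mul] at hm
    rw [← hm, pow_add]
  · have hsplit : ∀ K : Subgroup G, K ≤ H →
        S.orbCount K Y = S.orbCount K Y' + (S.orb K '' O).ncard := by
      intro K hK
      have e : Y = Y' ∪ O := (Set.sdiff_union_of_subset hOY).symm
      rw [orbCount, orbCount]
      conv_lhs => rw [e]
      rw [Set.image_union, Set.ncard_union_eq (Set.disjoint_left.2 ?_) (Set.toFinite _)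
        (Set.toFinite _)]
      rintro U ⟨y, hy, rfl⟩ ⟨z, hz, e'⟩
      exact hy.2 (hOst z hz y (Rel.mono hK (orb_eq_iff.1 e')))
    have h1 : (S.orb H '' O).ncard = 1 := by
      rw [Set.ncard_eq_one]
      refine ⟨O, Set.eq_singleton_iff_unique_mem.2 ⟨⟨x₀, Rel.refl H x₀, rfl⟩, ?_⟩⟩
      rintro _ ⟨y, hy, rfl⟩
      exact (orb_eq_iff.2 (hy : S.Rel H x₀ y)).symm
    rw [hsplit H le_rfl, hsplit H' hc.le, h1, mul_add, mul_one, hn3, mul_add]
    omega

end OrbitSys

end FermatLib.CFT
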