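import Fermat.Agent.CFT.FirstStep
import Fermat.Agent.CFT.IdeleDecomp
import Fermat.Agent.CFT.LocalUnits

/-!
The orbit system of the embeddings at a prime and its local hypothesis.
-/

set_option autoImplicit false

open NumberField

namespace FermatLib.CFT

open Herbrand

variable {L : Type} [Field L] [NumberField L]

variable (L) in
/-- Embeddings at `q` with the two actions. -/
noncomputable def embSys (q : Nat.Primes) :
    OrbitSys (Gloc q) (L ≃ₐ[ℚ] L) (Emb L q) (QUnits q) where
  post τ φ := φ.postComp τ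
  post_one := postComp_one
  post_mul a b φ := postComp_mul φ a b
  pre φ g := φ.preComp g
  pre_one _ := rfl
  pre_mul := preComp_mul
  pre_post τ φ a := (postComp_preComp φ τ a).symm
  act :=
    { toFun := Gloc.onUnits
      map_one' := AddMonoidHom.ext fun x => QUnits.toField_injective rfl
      map_mul' := fun a b => AddMonoidHom.ext fun x => QUnits.toField_injective rfl }

theorem embSys_unitGroup_stable (q : Nat.Primes) (τ : Gloc q) {v : QUnits q}
    (hv : v ∈ QUnits.unitGroup q) : (embSys L q).act τ v ∈ QUnits.unitGroup q := by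
  rw [QUnits.mem_unitGroup_iff] at hv ⊢
  show ‖(τ.onUnits v).toField‖ = 1
  rw [QUnits.toField_onUnits, norm_gloc, hv]

theorem embSys_top_stable (q : Nat.Primes) (τ : Gloc q) :
    ∀ v ∈ (⊤ : AddSubgroup (QUnits q)), (embSys L q).act τ v ∈ (⊤ : AddSubgroup (QUnits q)) :=
  fun _ _ => AddSubgroup.mem_top _

theorem orbCount_embSys (K : Subgroup (L ≃ₐ[ℚ] L)) (q : Nat.Primes) :
    (embSys L q).orbCount K Set.univ = Nat.card (PlacesAbove K q) := by
  have hrel : ∀ φ ψ : Emb L q, (embSys L q).Rel K φ ψ ↔ Emb.SamePlaceRel K φ ψ :=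
    fun φ ψ => ⟨fun ⟨τ, h, hh, e⟩ => ⟨h, hh, τ, e⟩, fun ⟨h, hh, τ, e⟩ => ⟨τ, h, hh, e⟩⟩
  rw [OrbitSys.orbCount, Set.image_univ, ← Nat.card_coe_set_eq]
  refine Nat.card_congr (Equiv.ofBijective
    (fun U => (Quotient.mk (samePlaceSetoid K q) U.2.choose : PlacesAbove K q)) ⟨?_, ?_⟩)
  · intro U V h
    apply Subtype.ext
    rw [← U.2.choose_spec, ← V.2.choose_spec]
    exact OrbitSys.orb_eq_iff.2 ((hrel _ _).2 (Quotient.exact h))
  · intro c
    induction c using Quotient.inductionOn with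
    | h φ =>
      refine ⟨⟨_, φ, rfl⟩, Quotient.sound ?_⟩
      exact (hrel _ _).1 (OrbitSys.orb_eq_iff.1
        (Exists.choose_spec (p := fun ψ => (embSys L q).orb K ψ = _) _))

variable [IsGalois ℚ L]

theorem mem_valueGroup_iff (q : Nat.Primes) (H : Subgroup (L ≃ₐ[ℚ] L))
    (W : AddSubgroup (QUnits q)) (φ : Emb L q) (v : QUnits q) :
    v ∈ (embSys L q).valueGroup H W φ ↔ v ∈ W ∧ v.toField ∈ localField H φ := by
  rw [mem_localField_iff]
  refine and_congr Iff.rfl ⟨fun h τ ⟨a, ha, e⟩ => ?_, fun h τ a ha e => ?_⟩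
  · exact congrArg QUnits.toField (h τ a ha e)
  · exact QUnits.toField_injective ((QUnits.toField_onUnits τ v).trans (h τ ⟨a, ha, e⟩))

section loc

variable {q : Nat.Primes} (φ : Emb L q)

/-- The completion at `φ`. -/
noncomputable abbrev locBot : LocalField q := completion φ

/-- The decomposition part of a subgroup, as automorphisms of the completion. -/
noncomputable def locSubgroup (H : Subgroup (L ≃ₐ[ℚ] L)) :
    Subgroup (locBot φ ≃ₐ[ℚ_[(q : ℕ)]] locBot φ) :=
  (H.subgroupOf (decompGroup φ)).map (decompEquiv φ).toMonoidHom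

theorem decompEquiv_mem_locSubgroup_iff (H : Subgroup (L ≃ₐ[ℚ] L)) (g : decompGroup φ) :
    decompEquiv φ g ∈ locSubgroup φ H ↔ (g : L ≃ₐ[ℚ] L) ∈ H := by
  refine ⟨fun ⟨a, ha, e⟩ => ?_, fun h => ⟨g, h, rfl⟩⟩
  obtain rfl := (decompEquiv φ).injective e
  exact ha

/-- Values of the completion inside `QUnits q`. -/
noncomputable def locVal : LocUnits (locBot φ) →+ QUnits q where
  toFun x := Additive.ofMul (Units.map (IntermediateField.val (locBot φ) : locBot φ →* _) x.val)
  map_zero' := QUnits.toField_injective rfl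
  map_add' _ _ := QUnits.toField_injective rfl

theorem toField_locVal (x : LocUnits (locBot φ)) :
    (locVal φ x).toField = (x.el : PadicAlgCl (q : ℕ)) := rfl

theorem locVal_injective : Function.Injective (locVal φ) := fun _ _ h =>
  LocUnits.ext' (Subtype.ext (congrArg QUnits.toField h))

theorem mem_fixed_locSubgroup_iff (H : Subgroup (L ≃ₐ[ℚ] L)) (x : LocUnits (locBot φ)) :
    x ∈ fixedPts (locSubgroup φ H) (LocUnits (locBot φ)) ↔
      (x.el : PadicAlgCl (q : ℕ)) ∈ localField H φ := by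
  rw [localField_eq_fixed H φ x.el, mem_fixedPts_iff_forall]
  constructor
  · intro h g hg
    exact (LocUnits.el_smul _ x).symm.trans
      (congrArg LocUnits.el (h _ ((decompEquiv_mem_locSubgroup_iff φ H g).2 hg)))
  · rintro h _ ⟨g, hg, rfl⟩
    exact LocUnits.ext' ((LocUnits.el_smul _ x).trans (h g hg))

theorem map_fixed_locSubgroup (H : Subgroup (L ≃ₐ[ℚ] L)) :
    (fixedPts (locSubgroup φ H) (LocUnits (locBot φ))).map (locVal φ) =
      (embSys L q).valueGroup H ⊤ φ := by
  ext v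
  rw [mem_valueGroup_iff]
  constructor
  · rintro ⟨x, hx, rfl⟩
    exact ⟨AddSubgroup.mem_top _, (mem_fixed_locSubgroup_iff φ H x).1 hx⟩
  · rintro ⟨-, hv⟩
    have hv' : v.toField ∈ locBot φ := localField_le_completion H φ hv
    refine ⟨LocUnits.mk0 ⟨v.toField, hv'⟩ fun h => v.toField_ne_zero (congrArg Subtype.val h),
      (mem_fixed_locSubgroup_iff φ H _).2 hv, QUnits.toField_injective rfl⟩

theorem map_fixed_unit_locSubgroup (H : Subgroup (L ≃ₐ[ℚ] L)) :
    (fixedPts (locSubgroup φ H) (LocUnits (locBot φ)) ⊓ Loc.unitGroup (locBot φ)).map (locVal φ) =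
      (embSys L q).valueGroup H (QUnits.unitGroup q) φ := by
  ext v
  rw [mem_valueGroup_iff]
  constructor
  · rintro ⟨x, ⟨hx, hu⟩, rfl⟩
    refine ⟨(QUnits.mem_unitGroup_iff _).2 ?_, (mem_fixed_locSubgroup_iff φ H x).1 hx⟩
    exact (Loc.mem_unitGroup (locBot φ)).1 hu
  · rintro ⟨hu, hv⟩
    have hv' : v.toField ∈ locBot φ := localField_le_completion H φ hv
    refine ⟨LocUnits.mk0 ⟨v.toField, hv'⟩ fun h => v.toField_ne_zero (congrArg Subtype.val h),
      ⟨(mem_fixed_locSubgroup_iff φ H _).2 hv,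
        (Loc.mem_unitGroup (locBot φ)).2 ((QUnits.mem_unitGroup_iff v).1 hu)⟩,
      QUnits.toField_injective rfl⟩

variable {p : ℕ} [Fact p.Prime] {H' H : Subgroup (L ≃ₐ[ℚ] L)} {g : L ≃ₐ[ℚ] L}
  (hc : CyclicPair p H' H g)

include hc in
theorem exists_loc_pair {τ : Gloc q} {h : L ≃ₐ[ℚ] L} (hh : h ∈ H')
    (he : φ.postComp τ = φ.preComp (g * h)) :
    ∃ t, CyclicPair p (locSubgroup φ H') (locSubgroup φ H) t ∧ t ∉ locSubgroup φ H' ∧
      ((locSubgroup φ H').subgroupOf (locSubgroup φ H)).Normal ∧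
      (locSubgroup φ H').relIndex (locSubgroup φ H) = p ∧
      ∀ x : LocUnits (locBot φ), locVal φ (t • x) = τ.onUnits (locVal φ x) := by
  have hd : g * h ∈ decompGroup φ := ⟨τ, he⟩
  have hgH : g * h ∈ H := H.mul_mem hc.gmem (hc.le hh)
  have hgH' : g * h ∉ H' := fun h' => by
    have hp := hc.dvd_of_pow_mem 1 (by simpa using H'.mul_mem h' (H'.inv_mem hh))
    exact (Fact.out : p.Prime).one_lt.ne' (Nat.dvd_one.1 hp)
  -- normality
  have hnorm : ∀ a ∈ H, ∀ b ∈ H', a * b * a⁻¹ ∈ H' := by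
    intro a ha b hb
    obtain ⟨i, -, c, hc', rfl⟩ := hc.exists_pow a ha
    have key : ∀ j : ℕ, ∀ b ∈ H', g ^ j * b * (g ^ j)⁻¹ ∈ H' := by
      intro j
      induction j with
      | zero => intro b hb; simpa using hb
      | succ n ih =>
        intro b hb
        have := ih _ (hc.conj_mem b hb)
        simpa [pow_succ, mul_assoc] using this
    have := key i _ (H'.mul_mem (H'.mul_mem hc' hb) (H'.inv_mem hc'))
    simpa [mul_assoc] using this
  have hNorm : (H'.subgroupOf H).Normal := ⟨fun b hb a => Subgroup.mem_subgroupOf.2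
    (hnorm a.1 a.2 b.1 (Subgroup.mem_subgroupOf.1 hb))⟩
  have hle : locSubgroup φ H' ≤ locSubgroup φ H := Subgroup.map_mono fun a ha => hc.le ha
  have hN' : ((locSubgroup φ H').subgroupOf (locSubgroup φ H)).Normal := ⟨fun b hb a => by
    obtain ⟨b', hb', eb⟩ := Subgroup.mem_subgroupOf.1 hb
    obtain ⟨a', ha', ea⟩ := a.2
    refine Subgroup.mem_subgroupOf.2 ⟨a' * b' * a'⁻¹, hnorm _ ha' _ hb', ?_⟩
    rw [map_mul, map_mul, map_inv, eb, ea]
    rfl⟩
  set t := decompEquiv φ ⟨g * h, hd⟩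
  have ht : t ∈ locSubgroup φ H := (decompEquiv_mem_locSubgroup_iff φ H _).2 hgH
  have ht' : t ∉ locSubgroup φ H' := fun h' => hgH' ((decompEquiv_mem_locSubgroup_iff φ H' _).1 h')
  have hidx : (locSubgroup φ H').relIndex (locSubgroup φ H) = p := by
    rw [locSubgroup, locSubgroup,
      Subgroup.relIndex_map_map_of_injective (f := (decompEquiv φ).toMonoidHom) _ _
        (fun a b h => (decompEquiv φ).injective h)]
    have hdvd : H'.relIndex (H ⊓ decompGroup φ) ∣ p := by
      have : H'.relIndex H = p := by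
        have hne : g ∉ H' := fun h' => hgH' (H'.mul_mem h' hh)
        classical
        have hbij : Function.Bijective
            (fun i : Fin p => (QuotientGroup.mk (⟨g, hc.gmem⟩ ^ (i : ℕ)) : H ⧸ H'.subgroupOf H)) := by
          constructor
          · intro i j e
            have e' : ((g ^ (i : ℕ))⁻¹ * g ^ (j : ℕ)) ∈ H' := by
              simpa using Subgroup.mem_subgroupOf.1 (QuotientGroup.eq.1 e)
            apply Fin.ext
            rcases le_total (i : ℕ) j with h'' | h''
            · rw [show (g ^ (i : ℕ))⁻¹ * g ^ (j : ℕ) = g ^ ((j : ℕ) - i) by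
                rw [inv_mul_eq_iff_eq_mul, ← pow_add, Nat.add_sub_cancel' h'']] at e'
              have := Nat.eq_zero_of_dvd_of_lt (hc.dvd_of_pow_mem _ e') (by omega)
              omega
            · have e'' := H'.inv_mem e'
              rw [mul_inv_rev, inv_inv, show (g ^ (j : ℕ))⁻¹ * g ^ (i : ℕ) = g ^ ((i : ℕ) - j) by
                rw [inv_mul_eq_iff_eq_mul, ← pow_add, Nat.add_sub_cancel' h'']] at e''
              have := Nat.eq_zero_of_dvd_of_lt (hc.dvd_of_pow_mem _ e'') (by omega)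
              omega
          · intro c
            induction c using QuotientGroup.induction_on with
            | H a =>
              obtain ⟨i, hi, h', hh', e⟩ := hc.exists_pow a.1 a.2
              refine ⟨⟨i, hi⟩, QuotientGroup.eq.2 (Subgroup.mem_subgroupOf.2 ?_)⟩
              simpa [e] using hh'
        rw [Subgroup.relIndex, Subgroup.index_eq_card, ← Nat.card_eq_of_bijective _ hbij,
          Nat.card_fin]
      rw [← this]
      have := hNorm
      rw [← Subgroup.relIndex_subgroupOf (inf_le_left : H ⊓ decompGroup φ ≤ H)]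
      exact Subgroup.relIndex_dvd_index_of_normal _ _
    have hne1 : H'.relIndex (H ⊓ decompGroup φ) ≠ 1 := fun h1 =>
      hgH' (Subgroup.relIndex_eq_one.1 h1 ⟨hgH, hd⟩)
    rw [show (H'.subgroupOf (decompGroup φ)).relIndex (H.subgroupOf (decompGroup φ)) =
      H'.relIndex (H ⊓ decompGroup φ) from by
        rw [← Subgroup.inf_subgroupOf_right H (decompGroup φ), Subgroup.relIndex_subgroupOf inf_le_right]]
    exact ((Nat.dvd_prime (Fact.out : p.Prime)).1 hdvd).resolve_left hne1
  refine ⟨t, exists_cyclicPair p hle hidx ht ht', ht', hN', hidx, fun x => ?_⟩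
  apply QUnits.toField_injective
  rw [toField_locVal, LocUnits.el_smul, QUnits.toField_onUnits, toField_locVal]
  exact decompEquiv_eq_gloc φ _ he x.el

include hc in
/-- At a prime, the local norm index is `p`. -/
theorem embSys_localHyp (Y : Set (Emb L q)) :
    (embSys L q).LocalHyp p H' g ⊤ p Y := by
  intro φ _ τ h hh he
  obtain ⟨t, hct, ht, hN, hidx, hcomm⟩ := exists_loc_pair φ hc hh he
  have hstep := Loc.locUnits_isCyclicStep (locBot φ) (locSubgroup φ H) (locSubgroup φ H') hct.le hidx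
  obtain ⟨ha, hb⟩ := hOrd_of_isCyclicStep hct ht hstep
  have hord := isOrderP_fixedPts (A := LocUnits (locBot φ)) hct
  have hcm := comm_endDiff (p := p) (locVal φ) ((embSys L q).act τ) hord.mem fun x _ => hcomm x
  have hinj : fixedPts (locSubgroup φ H') (LocUnits (locBot φ)) ⊓ (locVal φ).ker = ⊥ := by
    rw [(AddMonoidHom.ker_eq_bot_iff _).2 (locVal_injective φ), inf_bot_eq]
  rw [← map_fixed_locSubgroup, hOrd_map_of_injOn _ hord.isHPair hcm.1 hcm.2 hinj,
    hOrd_map_of_injOn _ hord.isHPair.symm hcm.2 hcm.1 hinj]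
  exact ⟨ha, hb⟩

theorem inertia_inf_locSubgroup (hur : IsUnramifiedAtRel (⊤ : Subgroup (L ≃ₐ[ℚ] L)) q)
    (H : Subgroup (L ≃ₐ[ℚ] L)) : Loc.inertia (locBot φ) ⊓ locSubgroup φ H = ⊥ := by
  rw [eq_bot_iff]
  rintro t ⟨ht, a, -, rfl⟩
  have hi : (a : L ≃ₐ[ℚ] L) ∈ inertiaGroup φ := by
    refine ⟨a.2, fun x hx => ?_⟩
    have hlt := ht (toCompletion φ x) hx
    rw [show (decompEquiv φ).toMonoidHom a = decompEquiv φ a from rfl, decompEquiv_apply] at hlt
    exact hlt
  rw [Subgroup.mem_bot]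
  show decompEquiv φ a = 1
  rw [show a = 1 from Subtype.ext (hur φ a trivial hi), map_one]

include hc in
/-- At an unramified prime the units have trivial groups. -/
theorem embSys_localHyp_units (hur : IsUnramifiedAtRel (⊤ : Subgroup (L ≃ₐ[ℚ] L)) q)
    (Y : Set (Emb L q)) :
    (embSys L q).LocalHyp p H' g (QUnits.unitGroup q) 1 Y := by
  intro φ _ τ h hh he
  let K := locBot φ
  let Hl := locSubgroup φ H
  let Hl' := locSubgroup φ H'
  obtain ⟨t, hct, ht, hN, hidx, hcomm⟩ : ∃ t, CyclicPair p Hl' Hl t ∧ t ∉ Hl' ∧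
      (Hl'.subgroupOf Hl).Normal ∧ Hl'.relIndex Hl = p ∧
      ∀ x : LocUnits K, locVal φ (t • x) = τ.onUnits (locVal φ x) := exists_loc_pair φ hc hh he
  have hI : Loc.inertia K ⊓ Hl = ⊥ := inertia_inf_locSubgroup φ hur H
  have hord := (isOrderP_fixedPts (A := LocUnits K) hct).mono
    (Y := fixedPts Hl' (LocUnits K) ⊓ Loc.unitGroup K) inf_le_left fun x hx =>
      ⟨(isOrderP_fixedPts hct).mem x hx.1, by
        show Loc.ord K (t • x) = 0
        rw [Loc.ord_smul]; exact hx.2⟩
  have hcm := comm_endDiff (p := p) (locVal φ) ((embSys L q).act τ) hord.mem fun x _ => hcomm x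
  have hinj : fixedPts Hl' (LocUnits K) ⊓ Loc.unitGroup K ⊓ (locVal φ).ker = ⊥ := by
    rw [(AddMonoidHom.ker_eq_bot_iff _).2 (locVal_injective φ), inf_bot_eq]
  rw [← map_fixed_unit_locSubgroup, hOrd_map_of_injOn _ hord.isHPair hcm.1 hcm.2 hinj,
    hOrd_map_of_injOn _ hord.isHPair.symm hcm.2 hcm.1 hinj]
  have hstep := Loc.locUnits_isCyclicStep K Hl Hl' hct.le hidx
  constructor
  · rw [hOrd_eq_one_iff]
    rintro x ⟨hx, hu⟩ h0
    obtain ⟨a, ha, hau, e⟩ := Loc.exists_unit_relNorm K Hl Hl' hct.le (hI ▸ bot_le)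
      ((fixedPts_inf_ker hct).le ⟨hx, h0⟩) hu
    exact ⟨a, ⟨ha, hau⟩, (relNorm_eq_endNorm hct ha).symm.trans e⟩
  · rw [hOrd_eq_one_iff]
    rintro x ⟨hx, hu⟩ h0
    obtain ⟨b, hb, e⟩ := hstep.h1 t hct.gmem ht x hx ((relNorm_eq_endNorm hct hx).trans h0)
    -- a fixed element of the same order as `b`
    set F := Loc.fixedLF K Hl
    have hram : Loc.ramIdx F = Loc.ramIdx K := by
      have := Loc.card_inertia_inf K Hl
      rwa [hI, Subgroup.card_bot, one_mul] at this
    set π : K := ⟨(Loc.uniformizer F : PadicAlgCl (q : ℕ)),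
      Loc.fixedLF_le K Hl (Loc.uniformizer F).2⟩
    have hπ : π ≠ 0 := fun h' =>
      (Loc.isUniformizer_uniformizer F).1
        (Subtype.ext (show (Loc.uniformizer F : PadicAlgCl (q : ℕ)) = 0 from congrArg Subtype.val h'))
    set c : LocUnits K := LocUnits.mk0 π hπ
    have hcfix : c ∈ fixedPts Hl' (LocUnits K) := by
      rw [mem_fixedPts_iff_forall]
      intro a ha
      exact LocUnits.ext' ((LocUnits.el_smul _ c).trans
        ((Loc.mem_fixedLF K Hl).1 (Loc.uniformizer F).2 a (hct.le ha)))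
    have htc : t • c = c :=
      LocUnits.ext' ((LocUnits.el_smul _ c).trans
        ((Loc.mem_fixedLF K Hl).1 (Loc.uniformizer F).2 t hct.gmem))
    have hne : Loc.ramIdx K ≠ 0 := by
      intro h'
      have h1 := Loc.inv_q_eq_pow_ramIdx K
      rw [h', pow_zero, inv_eq_one] at h1
      exact q.2.one_lt.ne' (by exact_mod_cast h1)
    have hc1 : Loc.ord K c = 1 := by
      apply Loc.ord_eq_of_norm
      rw [zpow_one]
      refine (pow_left_inj₀ (norm_nonneg _) (norm_nonneg _) hne).1 ?_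
      rw [← Loc.inv_q_eq_pow_ramIdx K, ← hram, Loc.inv_q_eq_pow_ramIdx F]
      rfl
    refine ⟨b - Loc.ord K b • c, ⟨AddSubgroup.sub_mem _ hb (AddSubgroup.zsmul_mem _ hcfix _), ?_⟩, ?_⟩
    · show Loc.ord K _ = 0
      rw [map_sub, map_zsmul, hc1]
      simp
    · rw [endDiff_apply, smulEnd_apply, smul_sub, ← e, show t • (Loc.ord K b • c) = Loc.ord K b • (t • c) from
        map_zsmul (DistribSMul.toAddMonoidHom (LocUnits K) t) _ _, htc]
      abel

end loc

end FermatLib.CFT
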