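import Mathlib.Algebra.MonoidAlgebra.Basic
import Mathlib.Algebra.Order.Ring.Pow
import Mathlib.Analysis.Normed.Field.Basic
import Mathlib.Analysis.Normed.Group.Ultra
import Mathlib.Analysis.Normed.Ring.Ultra
import Mathlib.Data.Nat.Choose.Sum
import Mathlib.Analysis.SpecificLimits.Basic
import Mathlib.Data.Nat.Choose.Dvd
import Mathlib.LinearAlgebra.Basis.Basic
import Mathlib.LinearAlgebra.Finsupp.LinearCombination
import Mathlib.Tactic.NoncommRing
import Mathlib.Tactic.Abel

/-!
# Point lattices: finite group schemes as lattices of functions on their points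

A finite flat commutative group scheme over the ring of integers of a non-archimedean field `K`
which is étale over `K` is recorded by its group of points `M` and an integral basis of the
functions on it.  The functionals on functions form the group algebra `K[M]`, with a submultiplicative
bound.  For `M` killed by `p`, points which are congruent modulo more than `|p|^(1/(p-1))` are equal.
-/

set_option autoImplicit false

namespace FermatLib.CFT.FlatPoints

open Finset

/-- The functions on the group of points `M` which extend to the integral model. -/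
structure PointLattice (K : Type*) [NormedField K] (M : Type*) [AddCommGroup M] (ι : Type*)
    [Fintype ι] where
  b : Module.Basis ι K (M → K)
  norm_le : ∀ l m, ‖b l m‖ ≤ 1
  repr_one : ∀ l, ‖b.repr 1 l‖ ≤ 1
  repr_mul : ∀ i j l, ‖b.repr (b i * b j) l‖ ≤ 1
  comul : ∀ l, ∃ c : ι → ι → K, (∀ i j, ‖c i j‖ ≤ 1) ∧
    ∀ m n, b l (m + n) = ∑ i, ∑ j, c i j * b i m * b j n

variable {K : Type*} [NormedField K] {M : Type*} [AddCommGroup M]

/-- A functional on functions, given by an element of the group algebra. -/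
noncomputable def ev (w : AddMonoidAlgebra K M) (f : M → K) : K :=
  Finsupp.linearCombination K f w.coeff

lemma ev_add (w w' : AddMonoidAlgebra K M) (f : M → K) : ev (w + w') f = ev w f + ev w' f := by
  simp [ev, AddMonoidAlgebra.coeff_add]

lemma ev_zero (f : M → K) : ev (0 : AddMonoidAlgebra K M) f = 0 := by
  simp [ev, AddMonoidAlgebra.coeff_zero]

omit [AddCommGroup M] in
lemma ev_single (m : M) (r : K) (f : M → K) : ev (AddMonoidAlgebra.single m r) f = r * f m := by
  simp [ev, AddMonoidAlgebra.coeff_single]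

lemma ev_one (f : M → K) : ev (1 : AddMonoidAlgebra K M) f = f 0 := by
  rw [AddMonoidAlgebra.one_def, ev_single, one_mul]

lemma ev_neg (w : AddMonoidAlgebra K M) (f : M → K) : ev (-w) f = -ev w f := by
  rw [eq_neg_iff_add_eq_zero, ← ev_add, neg_add_cancel, ev_zero]

lemma ev_sub (w w' : AddMonoidAlgebra K M) (f : M → K) : ev (w - w') f = ev w f - ev w' f := by
  rw [sub_eq_add_neg, ev_add, ev_neg, ← sub_eq_add_neg]

lemma ev_smul (r : K) (w : AddMonoidAlgebra K M) (f : M → K) : ev (r • w) f = r * ev w f := by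
  simp [ev, map_smul]

omit [AddCommGroup M] in
lemma ev_eq_sum (w : AddMonoidAlgebra K M) (f : M → K) :
    ev w f = w.coeff.sum fun m r => r * f m := by
  simp [ev, Finsupp.linearCombination_apply, smul_eq_mul]

omit [AddCommGroup M] in
lemma ev_add_fun (w : AddMonoidAlgebra K M) (f g : M → K) : ev w (f + g) = ev w f + ev w g := by
  simp [ev_eq_sum, mul_add, Finsupp.sum_add]

omit [AddCommGroup M] in
lemma ev_smul_fun (w : AddMonoidAlgebra K M) (r : K) (f : M → K) : ev w (r • f) = r * ev w f := by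
  simp [ev_eq_sum, Finsupp.mul_sum, mul_left_comm]

/-- Evaluation of a functional, as a linear form in the function. -/
noncomputable def evLin (w : AddMonoidAlgebra K M) : (M → K) →ₗ[K] K where
  toFun := ev w
  map_add' := ev_add_fun w
  map_smul' := ev_smul_fun w

omit [AddCommGroup M] in
lemma evLin_apply (w : AddMonoidAlgebra K M) (f : M → K) : evLin w f = ev w f := rfl

/-- The product of the group algebra is convolution of functionals. -/
lemma ev_mul (w w' : AddMonoidAlgebra K M) (f : M → K) :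
    ev (w * w') f = ev w (fun m => ev w' (fun n => f (m + n))) := by
  induction w using AddMonoidAlgebra.induction_linear with
  | zero => simp [ev_zero]
  | add a b ha hb => rw [add_mul, ev_add, ev_add, ha, hb]
  | single m r =>
    induction w' using AddMonoidAlgebra.induction_linear with
    | zero => simp [ev_zero, ev_single]
    | add a b ha hb => rw [mul_add, ev_add, ha, hb, ev_single, ev_single, ev_single, ev_add, mul_add]
    | single n s => rw [AddMonoidAlgebra.single_mul_single, ev_single, ev_single, ev_single]; ring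

variable {ι : Type*} [Fintype ι] (Λ : PointLattice K M ι)

/-- A functional is bounded by `c` on the integral functions. -/
def PointLattice.Bdd (w : AddMonoidAlgebra K M) (c : ℝ) : Prop := ∀ l, ‖ev w (Λ.b l)‖ ≤ c

/-- A function is integral. -/
def PointLattice.IsInt (f : M → K) : Prop := ∀ l, ‖Λ.b.repr f l‖ ≤ 1

variable {Λ}

lemma PointLattice.ev_eq_repr_sum (w : AddMonoidAlgebra K M) (f : M → K) :
    ev w f = ∑ l, Λ.b.repr f l * ev w (Λ.b l) := by
  conv_lhs => rw [← evLin_apply, ← Λ.b.sum_repr f]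
  simp only [map_sum, map_smul, evLin_apply, smul_eq_mul]

lemma PointLattice.eq_zero_of_ev_eq_zero {w : AddMonoidAlgebra K M}
    (h : ∀ l, ev w (Λ.b l) = 0) : w = 0 := by
  classical
  refine AddMonoidAlgebra.ext (Finsupp.ext fun m => ?_)
  have e : ev w (Pi.single m 1) = w.coeff m := by
    rw [ev_eq_sum, Finsupp.sum, Finset.sum_eq_single m]
    · simp
    · intro n _ hn; simp [Pi.single_eq_of_ne hn]
    · intro hm; simp [Finsupp.notMem_support_iff.mp hm]
  rw [AddMonoidAlgebra.coeff_zero, Finsupp.zero_apply, ← e, Λ.ev_eq_repr_sum]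
  simp [h]

variable [IsUltrametricDist K]

lemma PointLattice.norm_ev_le {w : AddMonoidAlgebra K M} {c : ℝ} (hc : 0 ≤ c) (hw : Λ.Bdd w c)
    {f : M → K} {d : ℝ} (hf : ∀ l, ‖Λ.b.repr f l‖ ≤ d) (hd : 0 ≤ d) : ‖ev w f‖ ≤ d * c := by
  rw [Λ.ev_eq_repr_sum w f]
  refine IsUltrametricDist.norm_sum_le_of_forall_le_of_nonneg (mul_nonneg hd hc) fun l _ => ?_
  rw [norm_mul]
  exact mul_le_mul (hf l) (hw l) (norm_nonneg _) hd

omit [IsUltrametricDist K] in
lemma PointLattice.Bdd.mono {w : AddMonoidAlgebra K M} {c c' : ℝ} (h : Λ.Bdd w c) (hc : c ≤ c') :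
    Λ.Bdd w c' := fun l => (h l).trans hc

omit [IsUltrametricDist K] in
lemma PointLattice.bdd_zero {c : ℝ} (hc : 0 ≤ c) : Λ.Bdd 0 c := fun l => by simp [ev_zero, hc]

omit [IsUltrametricDist K] in
lemma PointLattice.Bdd.neg {w : AddMonoidAlgebra K M} {c : ℝ} (h : Λ.Bdd w c) : Λ.Bdd (-w) c :=
  fun l => by rw [ev_neg, norm_neg]; exact h l

lemma PointLattice.Bdd.add {w w' : AddMonoidAlgebra K M} {c : ℝ} (h : Λ.Bdd w c)
    (h' : Λ.Bdd w' c) : Λ.Bdd (w + w') c := fun l => by
  rw [ev_add]
  exact (IsUltrametricDist.norm_add_le_max _ _).trans (max_le (h l) (h' l))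

lemma PointLattice.Bdd.sub {w w' : AddMonoidAlgebra K M} {c : ℝ} (h : Λ.Bdd w c)
    (h' : Λ.Bdd w' c) : Λ.Bdd (w - w') c := sub_eq_add_neg w w' ▸ h.add h'.neg

omit [IsUltrametricDist K] in
lemma PointLattice.Bdd.smul {w : AddMonoidAlgebra K M} {c : ℝ} (h : Λ.Bdd w c) (r : K) :
    Λ.Bdd (r • w) (‖r‖ * c) := fun l => by
  rw [ev_smul, norm_mul]; exact mul_le_mul_of_nonneg_left (h l) (norm_nonneg r)

lemma PointLattice.bdd_sum {α : Type*} (s : Finset α) (g : α → AddMonoidAlgebra K M) {c : ℝ}
    (hc : 0 ≤ c) (h : ∀ i ∈ s, Λ.Bdd (g i) c) : Λ.Bdd (∑ i ∈ s, g i) c := by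
  classical
  induction s using Finset.induction_on with
  | empty => simpa using Λ.bdd_zero hc
  | insert a s ha ih =>
    rw [Finset.sum_insert ha]
    exact (h a (Finset.mem_insert_self a s)).add (ih fun i hi => h i (Finset.mem_insert_of_mem hi))

omit [IsUltrametricDist K] in
lemma PointLattice.bdd_single (m : M) : Λ.Bdd (AddMonoidAlgebra.single m 1) 1 := fun l => by
  rw [ev_single, one_mul]; exact Λ.norm_le l m

omit [IsUltrametricDist K] in
lemma PointLattice.bdd_one : Λ.Bdd 1 1 := AddMonoidAlgebra.one_def (R := K) (M := M) ▸ Λ.bdd_single 0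

omit [IsUltrametricDist K] in
/-- Convolution in terms of the comultiplication of the integral basis. -/
lemma PointLattice.ev_mul_basis {e : ι → ι → K} {l : ι}
    (hadd : ∀ m n, Λ.b l (m + n) = ∑ i, ∑ j, e i j * Λ.b i m * Λ.b j n)
    (w w' : AddMonoidAlgebra K M) :
    ev (w * w') (Λ.b l) = ∑ i, (∑ j, e i j * ev w' (Λ.b j)) * ev w (Λ.b i) := by
  rw [ev_mul]
  have : (fun m => ev w' (fun n => Λ.b l (m + n))) =
      ∑ i, (∑ j, e i j * ev w' (Λ.b j)) • Λ.b i := by
    funext m
    have h1 : (fun n => Λ.b l (m + n)) = ∑ i, ∑ j, (e i j * Λ.b i m) • Λ.b j := by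
      funext n; simp [hadd, Finset.sum_apply]
    rw [h1, ← evLin_apply]
    simp only [map_sum, map_smul, evLin_apply, smul_eq_mul, Finset.sum_apply, Pi.smul_apply,
      Finset.sum_mul]
    exact Finset.sum_congr rfl fun i _ => Finset.sum_congr rfl fun j _ => by ring
  rw [this, ← evLin_apply]
  simp [evLin_apply]

lemma PointLattice.Bdd.mul {w w' : AddMonoidAlgebra K M} {c c' : ℝ} (hc : 0 ≤ c) (hc' : 0 ≤ c')
    (h : Λ.Bdd w c) (h' : Λ.Bdd w' c') : Λ.Bdd (w * w') (c * c') := fun l => by
  obtain ⟨e, he, hadd⟩ := Λ.comul l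
  rw [Λ.ev_mul_basis hadd]
  refine IsUltrametricDist.norm_sum_le_of_forall_le_of_nonneg (mul_nonneg hc hc') fun i _ => ?_
  rw [norm_mul, mul_comm]
  refine mul_le_mul (h i) ?_ (norm_nonneg _) hc
  refine IsUltrametricDist.norm_sum_le_of_forall_le_of_nonneg hc' fun j _ => ?_
  rw [norm_mul]
  exact (mul_le_mul (he i j) (h' j) (norm_nonneg _) zero_le_one).trans_eq (one_mul c')

lemma PointLattice.Bdd.pow {w : AddMonoidAlgebra K M} {c : ℝ} (hc : 0 ≤ c) (h : Λ.Bdd w c)
    (n : ℕ) : Λ.Bdd (w ^ n) (c ^ n) := by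
  induction n with
  | zero => simpa using Λ.bdd_one
  | succ n ih => rw [pow_succ, pow_succ]; exact ih.mul (pow_nonneg hc n) hc h

/-- The binomial expansion of `(1 + u) ^ p` up to the linear term. -/
lemma PointLattice.bdd_one_add_pow_sub {p : ℕ} (hp : p.Prime) {u : AddMonoidAlgebra K M} {c : ℝ}
    (hc : 0 ≤ c) (hc1 : c ≤ 1) (h : Λ.Bdd u c) :
    Λ.Bdd ((1 + u) ^ p - 1 - (p : K) • u) (max (‖(p : K)‖ * c ^ 2) (c ^ p)) := by
  have hexp : (1 + u) ^ p =
      1 + (p : K) • u + ∑ i ∈ Finset.Ico 2 (p + 1), (p.choose i : K) • u ^ i := by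
    rw [add_comm 1 u, add_pow u 1 p, Finset.range_eq_Ico,
      Finset.sum_eq_sum_Ico_succ_bot (Nat.succ_pos p),
      Finset.sum_eq_sum_Ico_succ_bot (by have := hp.one_lt; omega)]
    simp only [one_pow, mul_one, Nat.choose_zero_right, Nat.choose_one_right, pow_zero, pow_one,
      Nat.cast_one, zero_add, Nat.reduceAdd, Nat.cast_smul_eq_nsmul, nsmul_eq_mul]
    rw [add_assoc, mul_comm u]
    congr 2
    exact Finset.sum_congr rfl fun i _ => mul_comm _ _
  rw [hexp, show ∀ A B C : AddMonoidAlgebra K M, A + B + C - A - B = C from fun A B C => by abel]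
  refine Λ.bdd_sum _ _ (le_max_of_le_right (pow_nonneg hc p)) fun i hi => ?_
  rw [Finset.mem_Ico] at hi
  refine ((h.pow hc i).smul _).mono ?_
  rcases Nat.lt_or_eq_of_le (Nat.lt_succ_iff.mp hi.2) with hlt | rfl
  · refine le_max_of_le_left ?_
    obtain ⟨k, hk⟩ := hp.dvd_choose_self (by omega : i ≠ 0) hlt
    rw [hk, Nat.cast_mul, norm_mul]
    refine mul_le_mul ?_ (pow_le_pow_of_le_one hc hc1 hi.1) (pow_nonneg hc i) (norm_nonneg _)
    exact mul_le_of_le_one_right (norm_nonneg _) (IsUltrametricDist.norm_natCast_le_one K k)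
  · refine le_max_of_le_right ?_
    rw [Nat.choose_self, Nat.cast_one, norm_one, one_mul]

/-- **Rigidity**: a point congruent to zero modulo more than `|p|^(1/(p-1))` is zero. -/
theorem PointLattice.eq_zero_of_congr {p : ℕ} (hp : p.Prime) (hp0 : (p : K) ≠ 0)
    (hM : ∀ m : M, p • m = 0) {m : M} {c : ℝ} (hc : 0 ≤ c) (hcp : c ^ (p - 1) < ‖(p : K)‖)
    (hm : ∀ l, ‖Λ.b l m - Λ.b l 0‖ ≤ c) : m = 0 := by
  classical
  set P := ‖(p : K)‖ with hPdef
  have hP : 0 < P := norm_pos_iff.mpr hp0
  have hP1 : P ≤ 1 := IsUltrametricDist.norm_natCast_le_one K p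
  set δ : AddMonoidAlgebra K M := AddMonoidAlgebra.single m 1 - 1 with hδdef
  have hδ : Λ.Bdd δ c := fun l => by rw [hδdef, ev_sub, ev_single, ev_one, one_mul]; exact hm l
  have hpow : (1 + δ) ^ p = 1 := by
    rw [hδdef, add_sub_cancel, AddMonoidAlgebra.single_pow, one_pow, hM,
      AddMonoidAlgebra.one_def]
  have hc1 : c < 1 := by
    by_contra h
    push Not at h
    exact absurd (hcp.trans_le hP1) (not_lt.mpr (one_le_pow₀ h))
  set r : ℝ := max c (c ^ (p - 1) / P) with hrdef
  have hr : r < 1 := max_lt hc1 (by rw [div_lt_one hP]; exact hcp)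
  have hr0 : 0 ≤ r := hc.trans (le_max_left _ _)
  have hiter : ∀ n : ℕ, Λ.Bdd δ (r ^ n * c) := by
    intro n
    induction n with
    | zero => simpa using hδ
    | succ n ih =>
      set d := r ^ n * c
      have hd0 : 0 ≤ d := mul_nonneg (pow_nonneg hr0 n) hc
      have hdc : d ≤ c := mul_le_of_le_one_left hc (pow_le_one₀ hr0 hr.le)
      have hb := Λ.bdd_one_add_pow_sub hp hd0 (hdc.trans hc1.le) ih
      rw [hpow, sub_self, zero_sub] at hb
      have hb' := hb.neg.smul ((p : K)⁻¹)
      rw [neg_neg, smul_smul, inv_mul_cancel₀ hp0, one_smul, norm_inv] at hb'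
      refine hb'.mono ?_
      rw [inv_mul_le_iff₀ hP, show r ^ (n + 1) * c = r * d by simp only [d]; ring]
      refine max_le ?_ ?_
      · rw [sq]
        gcongr
        exact le_max_of_le_left hdc
      · have hrp : d ^ (p - 1) ≤ P * r := by
          refine (pow_le_pow_left₀ hd0 hdc _).trans ?_
          rw [mul_comm, ← div_le_iff₀ hP]
          exact le_max_right _ _
        calc d ^ p = d ^ (p - 1) * d := (pow_sub_one_mul hp.ne_zero d).symm
          _ ≤ P * r * d := mul_le_mul_of_nonneg_right hrp hd0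
          _ = P * (r * d) := by ring
  have hzero : δ = 0 := Λ.eq_zero_of_ev_eq_zero fun l => norm_le_zero_iff.mp <|
    ge_of_tendsto' (by simpa using (tendsto_pow_atTop_nhds_zero_of_lt_one hr0 hr).mul_const c)
      fun n => hiter n l
  rw [hδdef, sub_eq_zero, AddMonoidAlgebra.one_def] at hzero
  by_contra hne
  have := congrArg (fun w : AddMonoidAlgebra K M => w.coeff m) hzero
  simp [AddMonoidAlgebra.coeff_single, Ne.symm hne] at this

/-- Two points congruent modulo more than `|p|^(1/(p-1))` are equal. -/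
theorem PointLattice.eq_of_congr {p : ℕ} (hp : p.Prime) (hp0 : (p : K) ≠ 0)
    (hM : ∀ m : M, p • m = 0) {m m' : M} {c : ℝ} (hc : 0 ≤ c) (hcp : c ^ (p - 1) < ‖(p : K)‖)
    (hm : ∀ l, ‖Λ.b l m - Λ.b l m'‖ ≤ c) : m = m' := by
  have hδ : Λ.Bdd (AddMonoidAlgebra.single m 1 - AddMonoidAlgebra.single m' 1) c := fun l => by
    rw [ev_sub, ev_single, ev_single, one_mul, one_mul]; exact hm l
  have h := hδ.mul hc zero_le_one (Λ.bdd_single (-m'))
  rw [sub_mul, AddMonoidAlgebra.single_mul_single, AddMonoidAlgebra.single_mul_single, mul_one,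
    mul_one, add_neg_cancel, ← AddMonoidAlgebra.one_def] at h
  refine sub_eq_zero.mp (Λ.eq_zero_of_congr hp hp0 hM hc hcp fun l => ?_)
  have := h l
  rwa [ev_sub, ev_single, ev_one, one_mul, ← sub_eq_add_neg] at this

end FermatLib.CFT.FlatPoints
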