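import Fermat.Agent.CFT.FlatPointsBasic
import Mathlib.FieldTheory.IsAlgClosed.Basic
import Mathlib.LinearAlgebra.Dual.Lemmas
import Mathlib.LinearAlgebra.FreeModule.Finite.Basic
import Mathlib.NumberTheory.LegendreSymbol.AddCharacter
import Mathlib.RingTheory.RootsOfUnity.EnoughRootsOfUnity
import Mathlib.RingTheory.RootsOfUnity.Lemmas
import Mathlib.FieldTheory.KummerExtension
import Mathlib.FieldTheory.Finiteness
import Mathlib.Algebra.Field.ZMod

/-!
# Characters of point lattices

The characters of a group of points killed by `p` are integral functions; a functional is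
controlled by its values at the characters; `p`-th roots of unity are `|p|^(1/(p-1))` apart.
-/

set_option autoImplicit false

namespace FermatLib.CFT.FlatPoints

open Finset

variable {K : Type*} [NormedField K] [IsUltrametricDist K]

/-- Distinct `p`-th roots of unity are `|p|^(1/(p-1))` apart. -/
theorem eq_one_of_pow_prime_eq_one {p : ℕ} (hp : p.Prime) {η : K} (hη : η ^ p = 1)
    (h : ‖η - 1‖ ^ (p - 1) < ‖(p : K)‖) : η = 1 := by
  by_contra hne
  have := Fact.mk hp
  have hprim : IsPrimitiveRoot η p :=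
    IsPrimitiveRoot.iff_orderOf.mpr (orderOf_eq_prime hη hne)
  obtain ⟨q, rfl⟩ : ∃ q, p = q + 1 := ⟨p - 1, (Nat.succ_pred_eq_of_pos hp.pos).symm⟩
  have hnη : ‖η‖ ≤ 1 := by
    refine (pow_le_one_iff_of_nonneg (norm_nonneg η) (Nat.succ_ne_zero q)).mp ?_
    rw [← norm_pow, hη, norm_one]
  have hi : ∀ i : ℕ, ‖1 - η ^ (i + 1)‖ ≤ ‖η - 1‖ := fun i => by
    rw [norm_sub_rev, ← geom_sum_mul, norm_mul]
    refine mul_le_of_le_one_left (norm_nonneg _) ?_
    refine IsUltrametricDist.norm_sum_le_of_forall_le_of_nonneg zero_le_one fun j _ => ?_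
    rw [norm_pow]; exact pow_le_one₀ (norm_nonneg η) hnη
  have := hprim.prod_one_sub_pow_eq_order
  rw [show (↑q + 1 : K) = ((q + 1 : ℕ) : K) by push_cast; rfl] at this
  refine absurd h (not_lt.mpr ?_)
  rw [← this, norm_prod, Nat.add_sub_cancel]
  exact (Finset.prod_le_prod (fun i _ => norm_nonneg _) fun i _ => hi i).trans_eq (by simp)

theorem eq_of_pow_prime_eq_one {p : ℕ} (hp : p.Prime) {η η' : K} (hη : η ^ p = 1) (hη' : η' ^ p = 1)
    (h : ‖η - η'‖ ^ (p - 1) < ‖(p : K)‖) : η = η' := by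
  have h0 : η' ≠ 0 := fun h0 => by simp [h0, hp.ne_zero] at hη'
  have hn : ‖η'‖ = 1 := by
    refine (pow_eq_one_iff_of_nonneg (norm_nonneg η') hp.ne_zero).mp ?_
    rw [← norm_pow, hη', norm_one]
  refine (div_eq_one_iff_eq h0).mp (eq_one_of_pow_prime_eq_one hp (by rw [div_pow, hη, hη', div_one]) ?_)
  rwa [show η / η' - 1 = (η - η') / η' by rw [sub_div, div_self h0], norm_div, hn, div_one]

omit [IsUltrametricDist K] in
/-- An element whose `p`-th power is close to one is close to a root of unity. -/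
theorem exists_root_near {p : ℕ} (hp : p.Prime) {ζ : K} (hζ : IsPrimitiveRoot ζ p) (ξ : K) {ε : ℝ}
    (hε : 0 ≤ ε) (h : ‖ξ ^ p - 1‖ ≤ ε ^ p) : ∃ i < p, ‖ξ - ζ ^ i‖ ≤ ε := by
  by_contra hcon
  push Not at hcon
  have hprod : ξ ^ p - 1 = ∏ i ∈ range p, (ξ - ζ ^ i) := by
    have := congrArg (Polynomial.eval ξ) (X_pow_sub_C_eq_prod hζ hp.pos (one_pow p))
    simpa [Polynomial.eval_prod] using this
  rw [hprod, norm_prod] at h
  have hlt : ε ^ p < ∏ i ∈ range p, ‖ξ - ζ ^ i‖ := by
    rcases hε.eq_or_lt with rfl | hpos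
    · rw [zero_pow hp.ne_zero]
      exact Finset.prod_pos fun i hi => (hcon i (mem_range.mp hi))
    · calc ε ^ p = ∏ _i ∈ range p, ε := by simp
        _ < _ := Finset.prod_lt_prod_of_nonempty (fun _ _ => hpos)
            (fun i hi => hcon i (mem_range.mp hi)) (nonempty_range_iff.mpr hp.ne_zero)
  exact absurd h (not_le.mpr hlt)

variable {M : Type*} [AddCommGroup M] [Fintype M] {ι : Type*} [Fintype ι] (Λ : PointLattice K M ι)

omit [IsUltrametricDist K] [AddCommGroup M] in
lemma ev_eq_univ_sum (w : AddMonoidAlgebra K M) (f : M → K) : ev w f = ∑ m, w.coeff m * f m := by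
  rw [ev_eq_sum, Finsupp.sum_fintype _ _ fun m => by simp]

/-- The functional with prescribed values on the integral basis. -/
noncomputable def PointLattice.funcOf (y : ι → K) : AddMonoidAlgebra K M :=
  letI := Classical.decEq M
  AddMonoidAlgebra.ofCoeff
    (Finsupp.equivFunOnFinite.symm fun m => ∑ l, Λ.b.repr (Pi.single m 1) l * y l)

omit [IsUltrametricDist K] in
lemma PointLattice.ev_funcOf (y : ι → K) (f : M → K) :
    ev (Λ.funcOf y) f = ∑ l, Λ.b.repr f l * y l := by
  classical
  have hf : f = ∑ m, f m • Pi.single m (1 : K) := by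
    funext n; simp [Finset.sum_apply, Pi.single_apply]
  rw [ev_eq_univ_sum]
  simp only [PointLattice.funcOf, AddMonoidAlgebra.coeff_ofCoeff,
    Finsupp.coe_equivFunOnFinite_symm, Finset.sum_mul]
  rw [Finset.sum_comm]
  refine Finset.sum_congr rfl fun l _ => ?_
  conv_rhs => rw [hf]
  simp only [map_sum, map_smul, Finsupp.coe_finsetSum, Finset.sum_apply, Finsupp.smul_apply,
    smul_eq_mul, Finset.sum_mul]
  refine Finset.sum_congr rfl fun m _ => ?_
  convert (by ring : Λ.b.repr (Pi.single m 1) l * y l * f m =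
    f m * Λ.b.repr (Pi.single m 1) l * y l) using 3

omit [IsUltrametricDist K] in
lemma PointLattice.ev_funcOf_basis (y : ι → K) (l : ι) : ev (Λ.funcOf y) (Λ.b l) = y l := by
  classical
  rw [Λ.ev_funcOf]
  simp [Finsupp.single_apply]

omit [IsUltrametricDist K] [Fintype M] in
lemma ev_mul_char (w w' : AddMonoidAlgebra K M) {χ : M → K} (hχ : ∀ m n, χ (m + n) = χ m * χ n) :
    ev (w * w') χ = ev w χ * ev w' χ := by
  rw [ev_mul]
  have : (fun m => ev w' fun n => χ (m + n)) = ev w' χ • χ := by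
    funext m
    rw [show (fun n => χ (m + n)) = χ m • χ from funext fun n => hχ m n, ev_smul_fun,
      Pi.smul_apply, smul_eq_mul, mul_comm]
  rw [this, ev_smul_fun, mul_comm]

omit [IsUltrametricDist K] [Fintype M] in
lemma ev_pow_char (w : AddMonoidAlgebra K M) {χ : M → K} (hχ : ∀ m n, χ (m + n) = χ m * χ n)
    (h0 : χ 0 = 1) (n : ℕ) : ev (w ^ n) χ = ev w χ ^ n := by
  induction n with
  | zero => rw [pow_zero, pow_zero, ev_one, h0]
  | succ n ih => rw [pow_succ, ev_mul_char _ _ hχ, ih, pow_succ]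

/-- Characters are integral functions. -/
theorem PointLattice.isInt_char {χ : M → K} (hχ : ∀ m n, χ (m + n) = χ m * χ n) (h0 : χ 0 = 1) :
    Λ.IsInt χ := by
  classical
  intro l
  set e := Λ.funcOf (Pi.single l 1)
  have he : Λ.Bdd e 1 := fun l' => by
    rw [Λ.ev_funcOf_basis]
    by_cases h : l' = l
    · subst h; simp
    · simp [Pi.single_eq_of_ne h]
  have hd : ev e χ = Λ.b.repr χ l := by
    rw [Λ.ev_funcOf]; simp [Pi.single_apply]
  by_contra hlt
  push Not at hlt
  set C := ∑ l', ‖Λ.b.repr χ l'‖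
  obtain ⟨n, hn⟩ := pow_unbounded_of_one_lt C hlt
  refine absurd hn (not_lt.mpr ?_)
  have hb : Λ.Bdd (e ^ n) 1 := by simpa using he.pow zero_le_one n
  rw [← norm_pow, ← hd, ← ev_pow_char e hχ h0 n]
  have := Λ.norm_ev_le zero_le_one hb (f := χ) (d := C)
    (fun l' => Finset.single_le_sum (f := fun i => ‖Λ.b.repr χ i‖) (fun i _ => norm_nonneg _) (mem_univ l'))
    (Finset.sum_nonneg fun i _ => norm_nonneg _)
  simpa using this

section ZMod

variable (p : ℕ) [Fact p.Prime] [Module (ZMod p) M]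

omit [IsUltrametricDist K] in
/-- Fourier inversion on a vector space over `𝔽_p`. -/
theorem coeff_mul_card_eq {ζ : K} (hζ : IsPrimitiveRoot ζ p) (w : AddMonoidAlgebra K M) (m : M)
    [Fintype (Module.Dual (ZMod p) M)] :
    w.coeff m * Fintype.card (Module.Dual (ZMod p) M) =
      ∑ f : Module.Dual (ZMod p) M, ev w (fun n => AddChar.zmodChar p hζ.pow_eq_one (f n)) *
        AddChar.zmodChar p hζ.pow_eq_one (f (-m)) := by
  classical
  set χ := AddChar.zmodChar p hζ.pow_eq_one
  have horth : ∀ n : M, ∑ f : Module.Dual (ZMod p) M, χ (f n) =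
      if n = 0 then (Fintype.card (Module.Dual (ZMod p) M) : K) else 0 := by
    intro n
    split_ifs with h
    · simp [h, AddChar.map_zero_eq_one]
    · obtain ⟨f₀, hf₀⟩ : ∃ f₀ : Module.Dual (ZMod p) M, f₀ n = 1 := by
        obtain ⟨f, hf⟩ : ∃ f : Module.Dual (ZMod p) M, f n ≠ 0 := by
          by_contra hall
          push Not at hall
          exact h ((Module.forall_dual_apply_eq_zero_iff (ZMod p) n).mp hall)
        exact ⟨(f n)⁻¹ • f, by simp [hf]⟩
      have hne : χ 1 ≠ 1 := by
        rw [show χ 1 = ζ by simp [χ, AddChar.zmodChar_apply, ZMod.val_one]]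
        exact hζ.ne_one (Fact.out : p.Prime).one_lt
      have heq : χ 1 * ∑ f : Module.Dual (ZMod p) M, χ (f n) =
          ∑ f : Module.Dual (ZMod p) M, χ (f n) := by
        rw [Finset.mul_sum]
        refine Fintype.sum_equiv (Equiv.addLeft f₀) _ _ fun f => ?_
        simp [hf₀, AddChar.map_add_eq_mul]
      exact (mul_left_eq_self₀.mp heq).resolve_left hne
  simp only [ev_eq_univ_sum, Finset.sum_mul]
  rw [Finset.sum_comm, Finset.sum_eq_single m]
  · simp only [mul_assoc, ← AddChar.map_add_eq_mul, ← map_add, add_neg_cancel, map_zero,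
      AddChar.map_zero_eq_one, mul_one, Finset.sum_const, Finset.card_univ, nsmul_eq_mul]
    rw [mul_comm]
  · intro n _ hn
    simp only [mul_assoc, ← AddChar.map_add_eq_mul, ← map_add, ← sub_eq_add_neg, ← Finset.mul_sum]
    rw [horth, if_neg (sub_ne_zero.mpr hn), mul_zero]
  · simp

end ZMod

end FermatLib.CFT.FlatPoints
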