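import Fermat.Agent.CFT.FlatPointsChar
import Mathlib.RingTheory.RootsOfUnity.AlgebraicallyClosed

/-!
# Lifting approximate points

On a finite group scheme killed by `p`, a point modulo `a` with `a ^ (p-1) < |p| ^ p` is congruent
modulo `a / |p|` to a point.
-/

set_option autoImplicit false

namespace FermatLib.CFT.FlatPoints

open Finset

variable {K : Type*} [NormedField K] [IsUltrametricDist K]
  {M : Type*} [AddCommGroup M] [Fintype M] {ι : Type*} [Fintype ι] {Λ : PointLattice K M ι}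

omit [Fintype M] in
lemma PointLattice.repr_comp_nsmul (j : ℕ) (l : ι) : Λ.IsInt (fun m => Λ.b l (j • m)) := by
  classical
  induction j generalizing l with
  | zero =>
    intro k
    have : (fun m => Λ.b l ((0 : ℕ) • m)) = Λ.b l 0 • (1 : M → K) := by funext m; simp
    rw [this, map_smul, Finsupp.smul_apply, smul_eq_mul, norm_mul]
    exact (mul_le_mul (Λ.norm_le l 0) (Λ.repr_one k) (norm_nonneg _) zero_le_one).trans_eq (one_mul 1)
  | succ j ih =>
    obtain ⟨c, hc, hadd⟩ := Λ.comul l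
    intro k
    have : (fun m => Λ.b l ((j + 1) • m)) =
        ∑ i, ∑ i', c i i' • ((fun m => Λ.b i (j • m)) * Λ.b i') := by
      funext m; simp [succ_nsmul, hadd, Finset.sum_apply, mul_assoc]
    simp only [this, map_sum, map_smul, Finsupp.coe_finsetSum, Finset.sum_apply,
      Finsupp.smul_apply, smul_eq_mul]
    refine IsUltrametricDist.norm_sum_le_of_forall_le_of_nonneg zero_le_one fun i _ => ?_
    refine IsUltrametricDist.norm_sum_le_of_forall_le_of_nonneg zero_le_one fun i' _ => ?_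
    rw [norm_mul]
    refine (mul_le_mul (hc i i') ?_ (norm_nonneg _) zero_le_one).trans_eq (one_mul 1)
    have e : (fun m => Λ.b i (j • m)) * Λ.b i' =
        ∑ u, Λ.b.repr (fun m => Λ.b i (j • m)) u • (Λ.b u * Λ.b i') := by
      conv_lhs => rw [← Λ.b.sum_repr fun m => Λ.b i (j • m)]
      simp only [Finset.sum_mul, smul_mul_assoc]
    simp only [e, map_sum, map_smul, Finsupp.coe_finsetSum, Finset.sum_apply, Finsupp.smul_apply,
      smul_eq_mul]
    refine IsUltrametricDist.norm_sum_le_of_forall_le_of_nonneg zero_le_one fun u _ => ?_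
    rw [norm_mul]
    exact (mul_le_mul (ih i u) (Λ.repr_mul u i' k) (norm_nonneg _) zero_le_one).trans_eq (one_mul 1)

/-- A functional is an approximate point modulo `a`. -/
structure PointLattice.IsApprox (Λ : PointLattice K M ι) (x : AddMonoidAlgebra K M) (a : ℝ) :
    Prop where
  bdd : Λ.Bdd x 1
  map_one : ‖ev x 1 - 1‖ ≤ a
  map_mul : ∀ i j, ‖ev x (Λ.b i * Λ.b j) - ev x (Λ.b i) * ev x (Λ.b j)‖ ≤ a

omit [Fintype M] in
lemma PointLattice.IsApprox.map_mul_int {x : AddMonoidAlgebra K M} {a : ℝ} (hx : Λ.IsApprox x a)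
    (ha : 0 ≤ a) {f g : M → K} (hf : Λ.IsInt f) (hg : Λ.IsInt g) :
    ‖ev x (f * g) - ev x f * ev x g‖ ≤ a := by
  have e : ev x (f * g) - ev x f * ev x g =
      ∑ i, ∑ j, Λ.b.repr f i * Λ.b.repr g j *
        (ev x (Λ.b i * Λ.b j) - ev x (Λ.b i) * ev x (Λ.b j)) := by
    have h1 : f * g = ∑ i, ∑ j, (Λ.b.repr f i * Λ.b.repr g j) • (Λ.b i * Λ.b j) := by
      conv_lhs => rw [← Λ.b.sum_repr f, ← Λ.b.sum_repr g]
      rw [Finset.sum_mul]
      refine Finset.sum_congr rfl fun i _ => ?_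
      rw [Finset.mul_sum]
      exact Finset.sum_congr rfl fun j _ => smul_mul_smul_comm _ _ _ _
    rw [h1, ← evLin_apply, map_sum, Λ.ev_eq_repr_sum x f, Λ.ev_eq_repr_sum x g, Finset.sum_mul,
      ← Finset.sum_sub_distrib]
    refine Finset.sum_congr rfl fun i _ => ?_
    rw [map_sum, Finset.mul_sum, ← Finset.sum_sub_distrib]
    refine Finset.sum_congr rfl fun j _ => ?_
    rw [map_smul, smul_eq_mul, evLin_apply]
    ring
  rw [e]
  refine IsUltrametricDist.norm_sum_le_of_forall_le_of_nonneg ha fun i _ => ?_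
  refine IsUltrametricDist.norm_sum_le_of_forall_le_of_nonneg ha fun j _ => ?_
  rw [norm_mul, norm_mul]
  exact (mul_le_mul (mul_le_one₀ (hf i) (norm_nonneg _) (hg j)) (hx.map_mul i j) (norm_nonneg _)
    zero_le_one).trans_eq (one_mul a)

omit [Fintype M] in
/-- Powers of an approximate point approximate the multiples. -/
lemma PointLattice.IsApprox.ev_pow {x : AddMonoidAlgebra K M} {a : ℝ} (hx : Λ.IsApprox x a)
    (ha : 0 ≤ a) (j : ℕ) (l : ι) : ‖ev (x ^ j) (Λ.b l) - ev x (fun m => Λ.b l (j • m))‖ ≤ a := by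
  induction j generalizing l with
  | zero =>
    have : (fun m => Λ.b l ((0 : ℕ) • m)) = Λ.b l 0 • (1 : M → K) := by funext m; simp
    rw [pow_zero, ev_one, this, ev_smul_fun, ← mul_one_sub, norm_mul, norm_sub_rev]
    exact (mul_le_mul (Λ.norm_le l 0) hx.map_one (norm_nonneg _) zero_le_one).trans_eq (one_mul a)
  | succ j ih =>
    obtain ⟨c, hc, hadd⟩ := Λ.comul l
    have : (fun m => Λ.b l ((j + 1) • m)) =
        ∑ i, ∑ i', c i i' • ((fun m => Λ.b i (j • m)) * Λ.b i') := by
      funext m; simp [succ_nsmul, hadd, Finset.sum_apply, mul_assoc]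
    rw [pow_succ, Λ.ev_mul_basis hadd, this, ← evLin_apply, map_sum, ← Finset.sum_sub_distrib]
    refine IsUltrametricDist.norm_sum_le_of_forall_le_of_nonneg ha fun i _ => ?_
    rw [map_sum, Finset.sum_mul, ← Finset.sum_sub_distrib]
    refine IsUltrametricDist.norm_sum_le_of_forall_le_of_nonneg ha fun i' _ => ?_
    rw [map_smul, smul_eq_mul, evLin_apply]
    set g := fun m => Λ.b i (j • m)
    have hb : Λ.IsInt (Λ.b i') := fun k => by
      classical
      rw [Module.Basis.repr_self, Finsupp.single_apply]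
      split_ifs <;> simp
    rw [show c i i' * ev x (Λ.b i') * ev (x ^ j) (Λ.b i) - c i i' * ev x (g * Λ.b i') =
      c i i' * (ev x (Λ.b i') * (ev (x ^ j) (Λ.b i) - ev x g) -
        (ev x (g * Λ.b i') - ev x g * ev x (Λ.b i'))) by ring, norm_mul]
    refine (mul_le_mul (hc i i') ?_ (norm_nonneg _) zero_le_one).trans_eq (one_mul a)
    rw [sub_eq_add_neg]
    refine (IsUltrametricDist.norm_add_le_max _ _).trans (max_le ?_ ?_)
    · rw [norm_mul]
      exact (mul_le_mul (hx.bdd i') (ih i) (norm_nonneg _) zero_le_one).trans_eq (one_mul a)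
    · rw [norm_neg]
      exact hx.map_mul_int ha (Λ.repr_comp_nsmul j i) hb

omit [Fintype M] in
lemma PointLattice.IsApprox.bdd_pow_sub_one {p : ℕ} (hM : ∀ m : M, p • m = 0)
    {x : AddMonoidAlgebra K M} {a : ℝ} (hx : Λ.IsApprox x a) (ha : 0 ≤ a) :
    Λ.Bdd (x ^ p - 1) a := fun l => by
  have h1 := hx.ev_pow ha p l
  have : (fun m => Λ.b l (p • m)) = Λ.b l 0 • (1 : M → K) := by funext m; simp [hM]
  rw [this, ev_smul_fun] at h1
  rw [ev_sub, ev_one, ← sub_add_sub_cancel _ (Λ.b l 0 * ev x 1)]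
  refine (IsUltrametricDist.norm_add_le_max _ _).trans (max_le h1 ?_)
  rw [← mul_sub_one, norm_mul]
  exact (mul_le_mul (Λ.norm_le l 0) hx.map_one (norm_nonneg _) zero_le_one).trans_eq (one_mul a)

omit [Fintype M] in
/-- Newton's iteration for the `p`-th root. -/
lemma PointLattice.newton {p : ℕ} (hp : p.Prime) (hp0 : (p : K) ≠ 0) {x : AddMonoidAlgebra K M}
    {a : ℝ} (ha : 0 ≤ a) (hap : a ^ (p - 1) < ‖(p : K)‖ ^ p) (hx : Λ.Bdd x 1)
    (hxp : Λ.Bdd (x ^ p - 1) a) {ε : ℝ} (hε : 0 < ε) :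
    ∃ z, Λ.Bdd z 1 ∧ Λ.Bdd (z - x) (a / ‖(p : K)‖) ∧ Λ.Bdd (z ^ p - 1) ε := by
  set P := ‖(p : K)‖ with hPdef
  have hP : 0 < P := norm_pos_iff.mpr hp0
  have hP1 : P ≤ 1 := IsUltrametricDist.norm_natCast_le_one K p
  have hp1 : 1 ≤ p - 1 := Nat.le_sub_one_of_lt hp.one_lt
  have haP : a < P := by
    by_contra h
    push Not at h
    exact absurd hap (not_lt.mpr ((pow_le_pow_of_le_one hP.le hP1 (Nat.sub_le p 1)).trans
      (pow_le_pow_left₀ hP.le h _)))
  set r : ℝ := max (a / P) (a ^ (p - 1) / P ^ p) with hr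
  have hr1 : r < 1 := max_lt (by rw [div_lt_one hP]; exact haP)
    (by rw [div_lt_one (pow_pos hP p)]; exact hap)
  have hr0 : 0 ≤ r := le_max_of_le_left (div_nonneg ha hP.le)
  have hiter : ∀ n : ℕ, ∃ z, Λ.Bdd z 1 ∧ Λ.Bdd (z - x) (a / P) ∧
      Λ.Bdd (z ^ p - 1) (r ^ n * a) := by
    intro n
    induction n with
    | zero => exact ⟨x, hx, by simpa using Λ.bdd_zero (div_nonneg ha hP.le), by simpa using hxp⟩
    | succ n ih =>
      obtain ⟨z, hz1, hzx, hzp⟩ := ih
      set e := r ^ n * a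
      have he0 : 0 ≤ e := mul_nonneg (pow_nonneg hr0 n) ha
      have hea : e ≤ a := mul_le_of_le_one_left ha (pow_le_one₀ hr0 hr1.le)
      set η := z ^ p - 1 with hη
      set u := -((p : K)⁻¹ • η)
      have hu : Λ.Bdd u (e / P) := by
        have := (hzp.smul ((p : K)⁻¹)).neg
        rwa [norm_inv, inv_mul_eq_div] at this
      have heP : e / P ≤ 1 := ((div_le_div_iff_of_pos_right hP).mpr hea).trans
        ((div_le_one hP).mpr haP.le)
      have heP0 : 0 ≤ e / P := div_nonneg he0 hP.le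
      refine ⟨z * (1 + u), ?_, ?_, ?_⟩
      · simpa using hz1.mul zero_le_one zero_le_one (Λ.bdd_one.add (hu.mono heP))
      · rw [mul_add, mul_one, add_sub_right_comm]
        refine hzx.add ((hz1.mul zero_le_one heP0 hu).mono ?_)
        rw [one_mul]
        gcongr
      · set R := (1 + u) ^ p - 1 - (p : K) • u with hR
        have hpu : (p : K) • u = -η := by
          rw [smul_neg, smul_smul, mul_inv_cancel₀ hp0, one_smul]
        have key : (z * (1 + u)) ^ p - 1 = -(η * η) + (1 + η) * R := by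
          rw [mul_pow, show z ^ p = 1 + η by rw [hη]; abel,
            show (1 + u) ^ p = 1 - η + R by rw [hR, hpu]; abel]
          ring
        rw [key]
        have hRb : Λ.Bdd R (max (P * (e / P) ^ 2) ((e / P) ^ p)) :=
          Λ.bdd_one_add_pow_sub hp heP0 heP hu
        have hη1 : Λ.Bdd (1 + η) 1 :=
          Λ.bdd_one.add (hzp.mono (hea.trans (haP.le.trans hP1)))
        have hbound : max (P * (e / P) ^ 2) ((e / P) ^ p) ≤ r ^ (n + 1) * a := by
          rw [show r ^ (n + 1) * a = r * e by simp only [e]; ring]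
          refine max_le ?_ ?_
          · calc P * (e / P) ^ 2 = e / P * e := by field_simp
              _ ≤ r * e := by
                  refine mul_le_mul_of_nonneg_right (le_max_of_le_left ?_) he0
                  gcongr
          · calc (e / P) ^ p = e ^ (p - 1) / P ^ p * e := by
                  rw [div_mul_eq_mul_div, pow_sub_one_mul hp.ne_zero, div_pow]
              _ ≤ r * e := by
                  refine mul_le_mul_of_nonneg_right (le_max_of_le_right ?_) he0
                  gcongr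
        refine ((hzp.mul he0 he0 hzp).neg.mono ?_).add
          ((hη1.mul zero_le_one (le_max_of_le_right (pow_nonneg heP0 p)) hRb).mono ?_)
        · rw [show r ^ (n + 1) * a = r * e by simp only [e]; ring]
          refine mul_le_mul_of_nonneg_right (le_max_of_le_left ?_) he0
          rw [le_div_iff₀ hP]
          exact (mul_le_of_le_one_right he0 hP1).trans hea
        · rw [one_mul]; exact hbound
  rcases ha.eq_or_lt with rfl | hapos
  · obtain ⟨z, h1, h2, h3⟩ := hiter 0
    exact ⟨z, h1, h2, h3.mono (by simp [hε.le])⟩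
  obtain ⟨n, hn⟩ := exists_pow_lt_of_lt_one (div_pos hε hapos) hr1
  obtain ⟨z, h1, h2, h3⟩ := hiter n
  exact ⟨z, h1, h2, h3.mono (by rw [lt_div_iff₀ hapos] at hn; exact hn.le)⟩

/-- **Lifting**: an approximate point modulo `a` is congruent to a point modulo `a / |p|`. -/
theorem PointLattice.exists_point_of_approx [CharZero K] [IsAlgClosed K] (p : ℕ) [hpf : Fact p.Prime]
    [Module (ZMod p) M] {y : ι → K} {a : ℝ} (hapos : 0 < a) (hap : a ^ (p - 1) < ‖(p : K)‖ ^ p)
    (hy : ∀ l, ‖y l‖ ≤ 1) (hone : ‖∑ l, Λ.b.repr 1 l * y l - 1‖ ≤ a)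
    (hmul : ∀ i j, ‖∑ l, Λ.b.repr (Λ.b i * Λ.b j) l * y l - y i * y j‖ ≤ a) :
    ∃ m : M, ∀ l, ‖Λ.b l m - y l‖ ≤ a / ‖(p : K)‖ := by
  classical
  have ha : 0 ≤ a := hapos.le
  have hp : p.Prime := hpf.out
  have hp0 : (p : K) ≠ 0 := Nat.cast_ne_zero.mpr hp.ne_zero
  have hM : ∀ m : M, p • m = 0 := fun m => by
    rw [← Nat.cast_smul_eq_nsmul (ZMod p), ZMod.natCast_self, zero_smul]
  set x := Λ.funcOf y
  have hxb : ∀ l, ev x (Λ.b l) = y l := Λ.ev_funcOf_basis y
  have hx : Λ.IsApprox x a :=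
    ⟨fun l => by rw [hxb]; exact hy l, by rw [Λ.ev_funcOf]; exact hone,
      fun i j => by rw [hxb, hxb, Λ.ev_funcOf]; exact hmul i j⟩
  set P := ‖(p : K)‖ with hPdef
  have hP : 0 < P := norm_pos_iff.mpr hp0
  have hP1 : P ≤ 1 := IsUltrametricDist.norm_natCast_le_one K p
  have haP : a ≤ a / P := le_div_self ha hP hP1
  have hSP : (a / P) ^ (p - 1) < P := by
    rw [div_pow, div_lt_iff₀ (pow_pos hP _), ← pow_succ', Nat.sub_add_cancel hp.one_lt.le]
    exact hap
  -- a scale below which all errors are negligible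
  set S := a / P
  have : NeZero (p : K) := ⟨hp0⟩
  obtain ⟨ζ, hζ⟩ := HasEnoughRootsOfUnity.exists_primitiveRoot K p
  have hMf : Module.Finite (ZMod p) M := Module.Finite.of_finite
  have : Finite (Module.Dual (ZMod p) M) := Module.finite_of_finite (ZMod p)
  let _ := Fintype.ofFinite (Module.Dual (ZMod p) M)
  set χ := AddChar.zmodChar p hζ.pow_eq_one
  set ch : Module.Dual (ZMod p) M → M → K := fun f n => χ (f n) with hch
  have hchm : ∀ f, ∀ m n, ch f (m + n) = ch f m * ch f n := fun f m n => by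
    simp [ch, AddChar.map_add_eq_mul]
  have hch0 : ∀ f, ch f 0 = 1 := fun f => by simp [ch, AddChar.map_zero_eq_one]
  have hχpow : ∀ c : ZMod p, χ c ^ p = 1 := fun c => by
    rw [← AddChar.map_nsmul_eq_pow, nsmul_eq_mul, ZMod.natCast_self, zero_mul, AddChar.map_zero_eq_one]
  set N := (Fintype.card (Module.Dual (ZMod p) M) : K)
  have hN : N ≠ 0 := Nat.cast_ne_zero.mpr Fintype.card_ne_zero
  have hN1 : ‖N‖ ≤ 1 := IsUltrametricDist.norm_natCast_le_one K _
  set ε := S * ‖N‖
  have hεp : 0 < ε := mul_pos (div_pos hapos hP)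
    (norm_pos_iff.mpr hN)
  have hεS : ε ≤ S := mul_le_of_le_one_right (div_nonneg ha hP.le) hN1
  obtain ⟨z, hz1, hzx, hzp⟩ := Λ.newton hp hp0 ha hap hx.bdd (hx.bdd_pow_sub_one hM ha)
    (pow_pos hεp p)
  have hroot : ∀ f, ∃ c : ZMod p, ‖ev z (ch f) - χ c‖ ≤ ε := fun f => by
    have h : ‖ev z (ch f) ^ p - 1‖ ≤ ε ^ p := by
      rw [← ev_pow_char z (hchm f) (hch0 f)]
      have := Λ.norm_ev_le (pow_nonneg hεp.le p) hzp (Λ.isInt_char (hchm f) (hch0 f)) zero_le_one
      rwa [ev_sub, ev_one, hch0, one_mul] at this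
    obtain ⟨i, -, hi⟩ := exists_root_near hp hζ _ hεp.le h
    exact ⟨(i : ZMod p), by rwa [show χ (i : ZMod p) = ζ ^ i from AddChar.zmodChar_apply' _ i]⟩
  choose g hg using hroot
  have hclose : ∀ f, ‖χ (g f) - ev x (ch f)‖ ≤ S := fun f => by
    rw [← sub_add_sub_cancel _ (ev z (ch f)), ← ev_sub]
    refine (IsUltrametricDist.norm_add_le_max _ _).trans (max_le ?_ ?_)
    · rw [norm_sub_rev]; exact (hg f).trans hεS
    · have := Λ.norm_ev_le (div_nonneg ha hP.le) hzx (Λ.isInt_char (hchm f) (hch0 f)) zero_le_one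
      simpa using this
  have hadd : ∀ f f', g (f + f') = g f + g f' := by
    intro f f'
    have heq : χ (g (f + f')) = χ (g f + g f') := by
      refine eq_of_pow_prime_eq_one hp (hχpow _) (hχpow _) (lt_of_le_of_lt ?_ hSP)
      refine pow_le_pow_left₀ (norm_nonneg _) ?_ _
      have h3 := hx.map_mul_int ha (Λ.isInt_char (hchm f) (hch0 f)) (Λ.isInt_char (hchm f') (hch0 f'))
      have hff : ch f * ch f' = ch (f + f') := by funext n; simp [ch, AddChar.map_add_eq_mul]
      rw [hff] at h3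
      have hx1 : ∀ f, ‖ev x (ch f)‖ ≤ 1 := fun f => by
        simpa using Λ.norm_ev_le zero_le_one hx.bdd (Λ.isInt_char (hchm f) (hch0 f)) zero_le_one
      have hχ1 : ∀ c, ‖χ c‖ = 1 := fun c => (pow_eq_one_iff_of_nonneg (norm_nonneg _) hp.ne_zero).mp
        (by rw [← norm_pow, hχpow, norm_one])
      rw [AddChar.map_add_eq_mul, show χ (g (f + f')) - χ (g f) * χ (g f') =
        (χ (g (f + f')) - ev x (ch (f + f'))) + ((ev x (ch (f + f')) - ev x (ch f) * ev x (ch f')) +
          ((ev x (ch f) - χ (g f)) * ev x (ch f') + χ (g f) * (ev x (ch f') - χ (g f')))) by ring]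
      refine (IsUltrametricDist.norm_add_le_max _ _).trans (max_le (hclose _)
        ((IsUltrametricDist.norm_add_le_max _ _).trans (max_le (h3.trans haP)
          ((IsUltrametricDist.norm_add_le_max _ _).trans (max_le ?_ ?_)))))
      · rw [norm_mul, norm_sub_rev]
        exact (mul_le_mul (hclose f) (hx1 f') (norm_nonneg _) (div_nonneg ha hP.le)).trans_eq
          (mul_one _)
      · rw [norm_mul, hχ1, one_mul, norm_sub_rev]; exact hclose f'
    simp only [χ, AddChar.zmodChar_apply] at heq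
    exact ZMod.val_injective p (hζ.pow_inj (ZMod.val_lt _) (ZMod.val_lt _) heq)
  let gl : Module.Dual (ZMod p) (Module.Dual (ZMod p) M) :=
    (AddMonoidHom.mk' g hadd).toZModLinearMap p
  obtain ⟨m, hm⟩ := (Module.bijective_dual_eval (ZMod p) M).2 gl
  have hgm : ∀ f, g f = f m := fun f => (LinearMap.congr_fun hm f).symm
  refine ⟨m, fun l => ?_⟩
  have hw : ∀ n, ‖(z - AddMonoidAlgebra.single m 1).coeff n‖ ≤ S := fun n => by
    have e := coeff_mul_card_eq p hζ (z - AddMonoidAlgebra.single m 1) n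
    have hb : ‖(z - AddMonoidAlgebra.single m 1).coeff n‖ * ‖N‖ ≤ ε := by
      rw [← norm_mul, e]
      refine IsUltrametricDist.norm_sum_le_of_forall_le_of_nonneg hεp.le fun f _ => ?_
      rw [norm_mul, (pow_eq_one_iff_of_nonneg (norm_nonneg (χ (f (-n)))) hp.ne_zero).mp
        (by rw [← norm_pow, hχpow, norm_one]), mul_one, ev_sub, ev_single, one_mul, ← hgm f]
      exact hg f
    exact le_of_mul_le_mul_right hb (norm_pos_iff.mpr hN)
  have hzm : ‖ev (z - AddMonoidAlgebra.single m 1) (Λ.b l)‖ ≤ S := by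
    rw [ev_eq_univ_sum]
    refine IsUltrametricDist.norm_sum_le_of_forall_le_of_nonneg (div_nonneg ha hP.le) fun n _ => ?_
    rw [norm_mul]
    exact (mul_le_mul (hw n) (Λ.norm_le l n) (norm_nonneg _) (div_nonneg ha hP.le)).trans_eq (mul_one _)
  have := hzx l
  rw [ev_sub, hxb] at this
  rw [ev_sub, ev_single, one_mul] at hzm
  rw [← sub_add_sub_cancel _ (ev z (Λ.b l))]
  refine (IsUltrametricDist.norm_add_le_max _ _).trans (max_le ?_ this)
  rwa [norm_sub_rev]

end FermatLib.CFT.FlatPoints
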