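import Fermat.Agent.CFT.OrdTangentKummer
import Fermat.Agent.MLT.Ad.Basic
import Fermat.Prelude.Def_ExtEndgame_ProductionDatum

/-!
# Classes with values in the nilpotents of a stable line

If the residual representation at `p` is triangular in a basis `P` with diagonal characters of ratio
the cyclotomic character, the classes of continuous adjoint cocycles with values in the nilpotents
of the line span at most `dim H⁰ + [k : 𝔽_p]` dimensions.
-/

set_option autoImplicit false

noncomputable section

open CategoryTheory groupCohomology Module ExtCitation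

namespace FermatLib.CFT.OrdTangent

open FermatLib.MLT.Ad

/-- Classes of a space of cocycles which contains the coboundaries of a subspace `W`. -/
theorem finrank_map_H1π_add_le {K G : Type} [Field K] [Group G] (M : Rep K G)
    [FiniteDimensional K M] (Z : Submodule K (cocycles₁ M)) [FiniteDimensional K Z]
    (W : Submodule K M) (hW : ∀ w ∈ W, ∃ z ∈ Z, ∀ g, (z : cocycles₁ M) g = M.ρ g w - w) :
    finrank K (Z.map (H1π M).hom) + finrank K W ≤ finrank K Z + finrank K M.ρ.invariants := by
  choose z hz hzw using fun w : W => hW w w.2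
  let δ : W →ₗ[K] Z :=
    { toFun := fun w => ⟨z w, hz w⟩
      map_add' := fun a b => Subtype.ext (cocycles₁_ext fun g => by
        show z (a + b) g = z a g + z b g
        rw [hzw, hzw, hzw, Submodule.coe_add, map_add]
        abel)
      map_smul' := fun c a => Subtype.ext (cocycles₁_ext fun g => by
        show z (c • a) g = c • z a g
        rw [hzw, hzw, Submodule.coe_smul, map_smul, smul_sub]) }
  let f : Z →ₗ[K] H1 M := (H1π M).hom.comp Z.subtype
  have hf : LinearMap.range f = Z.map (H1π M).hom := by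
    rw [LinearMap.range_comp, Submodule.range_subtype]
  have h1 : LinearMap.range δ ≤ LinearMap.ker f := by
    rintro _ ⟨w, rfl⟩
    exact (H1π_eq_zero_iff _).mpr ⟨(w : M), funext fun g => (hzw w g).symm⟩
  have h2 : (LinearMap.ker δ).map W.subtype ≤ M.ρ.invariants := by
    rintro _ ⟨w, hw, rfl⟩ g
    have h : z w g = 0 := congrArg (fun u : Z => (u : cocycles₁ M) g) (LinearMap.mem_ker.mp hw)
    rw [hzw, sub_eq_zero] at h
    exact h
  have : IsNoetherian K Z := isNoetherian_of_isNoetherianRing_of_finite (R := K) (M := Z)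
  have : Module.Finite K (LinearMap.ker f) :=
    Module.Finite.iff_fg.mpr (IsNoetherian.noetherian _)
  have e1 := LinearMap.finrank_range_add_finrank_ker (V := ↥Z) (V₂ := H1 M) f
  have e2 := LinearMap.finrank_range_add_finrank_ker (V := ↥W) (V₂ := ↥Z) δ
  have e3 := Submodule.finrank_mono h1
  have e4 : finrank K (LinearMap.ker δ) ≤ finrank K M.ρ.invariants := by
    rw [← Submodule.finrank_map_subtype_eq]
    exact Submodule.finrank_mono h2
  rw [← hf]
  omega

variable (p : ℕ) [hp : Fact p.Prime] {k : Type} [Field k] [Algebra (ZMod p) k]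

/-- The mod `p` cyclotomic character on the local group. -/
def omegaAt (g : (primeLocalGaloisGroup (pPrime p))) : ZMod p :=
  ((cycloChar p (primeLocalToGlobal (pPrime p) g) : (ZMod p)ˣ) : ZMod p)

lemma omegaAt_eq (g : (primeLocalGaloisGroup (pPrime p))) : omegaAt p g = locOmega p g := rfl

variable (ρ : (AlgebraicClosure ℚ ≃ₐ[ℚ] AlgebraicClosure ℚ) →* Matrix (Fin 2) (Fin 2) k)
  (P : (Matrix (Fin 2) (Fin 2) k)ˣ)

local notation "loc" => primeLocalToGlobal

/-- The adjoint module restricted to the local group at `p`. -/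
abbrev locAd : Rep (ZMod p) (primeLocalGaloisGroup (pPrime p)) :=
  Rep.res (primeLocalToGlobal (pPrime p)) (adRep ρ p)

/-- In the basis `P` the representation is upper triangular, the ratio of the diagonal characters
being the cyclotomic character. -/
structure IsLineAdapted : Prop where
  lower : ∀ g, (P.1 * ρ (loc (pPrime p) g) * P⁻¹.1) 1 0 = 0
  ratio : ∀ g, (P.1 * ρ (loc (pPrime p) g) * P⁻¹.1) 0 0 =
    algebraMap (ZMod p) k (omegaAt p g) * (P.1 * ρ (loc (pPrime p) g) * P⁻¹.1) 1 1

/-- The element of trace zero with matrix `!![a, b; 0, -a]` in the basis `P`. -/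
def borelElt (v : k × k) : traceZero k :=
  ⟨P⁻¹.1 * !![v.1, v.2; 0, -v.1] * P.1, by
    rw [mem_traceZero, Matrix.trace_mul_cycle, Units.mul_inv, one_mul, Matrix.trace_fin_two]
    simp⟩

/-- The trace zero part of the Borel algebra of the line. -/
def borelMap : k × k →ₗ[k] traceZero k where
  toFun := borelElt P
  map_add' v w := Subtype.ext (by
    show P⁻¹.1 * _ * P.1 = P⁻¹.1 * _ * P.1 + P⁻¹.1 * _ * P.1
    rw [← add_mul, ← mul_add]
    congr 2
    ext i j; fin_cases i <;> fin_cases j <;> simp [add_comm])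
  map_smul' c v := Subtype.ext (by
    show P⁻¹.1 * _ * P.1 = c • (P⁻¹.1 * _ * P.1)
    rw [← smul_mul_assoc, ← mul_smul_comm]
    congr 2
    ext i j; fin_cases i <;> fin_cases j <;> simp)

lemma conj_borelMap (v : k × k) :
    P.1 * (borelMap P v).1 * P⁻¹.1 = !![v.1, v.2; 0, -v.1] := by
  show P.1 * (P⁻¹.1 * _ * P.1) * P⁻¹.1 = _
  rw [mul_assoc, mul_assoc, Units.mul_inv, mul_one, ← mul_assoc, Units.mul_inv, one_mul]

lemma borelMap_injective : Function.Injective (borelMap P) := fun v w h => by
  have h' := congrArg (fun X : traceZero k => P.1 * X.1 * P⁻¹.1) h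
  simp only [conj_borelMap] at h'
  have a := congrFun (congrFun h' 0) 0
  have b := congrFun (congrFun h' 0) 1
  exact Prod.ext (by simpa using a) (by simpa using b)

/-- The nilpotents of the line. -/
def nilLine : Submodule (ZMod p) (locAd p ρ) :=
  ((LinearMap.range ((borelMap P).comp (LinearMap.inr k k k))).restrictScalars (ZMod p) :
    Submodule (ZMod p) (traceZero k))

lemma mem_nilLine {X : traceZero k} : X ∈ nilLine p ρ P ↔ ∃ a, borelMap P (0, a) = X := Iff.rfl

/-- Continuous cocycles with values in the nilpotents of the line. -/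
def nilCocycles : Submodule (ZMod p) (cocycles₁ (locAd p ρ)) where
  carrier := {c | IsLevelConstant₁ (primeLocalToGlobal (pPrime p)) c ∧ ∀ g, c g ∈ nilLine p ρ P}
  add_mem' ha hb := ⟨ha.1.add hb.1, fun g => (nilLine p ρ P).add_mem (ha.2 g) (hb.2 g)⟩
  zero_mem' := ⟨isLevelConstant₁_const _ 0, fun _ => (nilLine p ρ P).zero_mem⟩
  smul_mem' t _ h := ⟨h.1.comp (t • ·), fun g => (nilLine p ρ P).smul_mem t (h.2 g)⟩

variable {p ρ P}

/-- The action on the Borel algebra. -/
theorem IsLineAdapted.act_borel (hP : IsLineAdapted p ρ P) (g : primeLocalGaloisGroup (pPrime p))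
    (v : k × k) :
    ∃ a, (locAd p ρ).ρ g (borelMap P v) = borelMap P (v.1, a) ∧
      (v.1 = 0 → a = algebraMap (ZMod p) k (omegaAt p g) * v.2) := by
  set T := P.1 * ρ (loc (pPrime p) g) * P⁻¹.1 with hT
  have hTd : T * (P.1 * ρ (loc (pPrime p) g)⁻¹ * P⁻¹.1) = 1 := by
    rw [hT, show P.1 * ρ (loc (pPrime p) g) * P⁻¹.1 * (P.1 * ρ (loc (pPrime p) g)⁻¹ * P⁻¹.1) =
      P.1 * ρ (loc (pPrime p) g) * (P⁻¹.1 * P.1) * ρ (loc (pPrime p) g)⁻¹ * P⁻¹.1 by
        simp only [mul_assoc],
      Units.inv_mul, mul_one, mul_assoc P.1, rho_mul_inv ρ (loc (pPrime p) g), mul_one,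
      Units.mul_inv]
  set T' := P.1 * ρ (loc (pPrime p) g)⁻¹ * P⁻¹.1 with hT'
  have hl : T 1 0 = 0 := hP.lower g
  have hl' : T' 1 0 = 0 := by
    rw [hT', ← map_inv (loc (pPrime p)) g]
    exact hP.lower g⁻¹
  have e00 : T 0 0 * T' 0 0 = 1 := by
    have := congrFun (congrFun hTd 0) 0
    simpa [Matrix.mul_apply, Fin.sum_univ_two, hl'] using this
  have e11 : T 1 1 * T' 1 1 = 1 := by
    have := congrFun (congrFun hTd 1) 1
    simpa [Matrix.mul_apply, Fin.sum_univ_two, hl] using this
  refine ⟨(T * !![v.1, v.2; 0, -v.1] * T') 0 1, Subtype.ext ?_, fun hv => ?_⟩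
  · have e : T * !![v.1, v.2; 0, -v.1] * T' =
        !![v.1, (T * !![v.1, v.2; 0, -v.1] * T') 0 1; 0, -v.1] := by
      ext i j
      fin_cases i <;> fin_cases j <;>
        simp [Matrix.mul_apply, Fin.sum_univ_two, hl, hl']
      · linear_combination v.1 * e00
      · linear_combination v.1 * e11
    show ρ (loc (pPrime p) g) * (P⁻¹.1 * _ * P.1) * ρ (loc (pPrime p) g)⁻¹ = P⁻¹.1 * _ * P.1
    rw [← e, hT, hT']
    simp only [mul_assoc, Units.inv_mul_cancel_left, Units.inv_mul, mul_one]
  · rw [show algebraMap (ZMod p) k (omegaAt p g) * v.2 = T 0 0 * T' 1 1 * v.2 by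
      have hr : T 0 0 = algebraMap (ZMod p) k (omegaAt p g) * T 1 1 := hP.ratio g
      rw [hr]
      linear_combination (-(algebraMap (ZMod p) k (omegaAt p g) * v.2)) * e11]
    simp [Matrix.mul_apply, Fin.sum_univ_two, hv]
    ring

variable [Finite k]

/-- **The space of nilpotent valued cocycles has dimension at most `3 [k : 𝔽_p]`.** -/
theorem IsLineAdapted.finrank_nilCocycles_le (hP : IsLineAdapted p ρ P) (hp2 : p ≠ 2) :
    Module.Finite (ZMod p) (nilCocycles p ρ P) ∧
      finrank (ZMod p) (nilCocycles p ρ P) ≤ 3 * finrank (ZMod p) k := by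
  classical
  have : Module.Finite (ZMod p) k := Module.Finite.of_finite
  obtain ⟨c₁, c₂, hspan⟩ := exists_span_kummer (p := p) hp2
  let Φ : (k × k × k) →ₗ[k] ((primeLocalGaloisGroup (pPrime p)) → traceZero k) :=
    LinearMap.pi fun g => (borelMap P).comp ((LinearMap.inr k k k).comp
      (algebraMap (ZMod p) k (omegaAt p g - 1) • LinearMap.fst k k (k × k) +
        algebraMap (ZMod p) k (c₁ g) • (LinearMap.fst k k k).comp (LinearMap.snd k k (k × k)) +
        algebraMap (ZMod p) k (c₂ g) • (LinearMap.snd k k k).comp (LinearMap.snd k k (k × k))))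
  have hmem : ∀ z : nilCocycles p ρ P, ((z : cocycles₁ (locAd p ρ)) :
      (primeLocalGaloisGroup (pPrime p)) → traceZero k) ∈
      (LinearMap.range (Φ.restrictScalars (ZMod p))) := by
    rintro ⟨z, hzl, hzn⟩
    choose a ha using fun g => (mem_nilLine p ρ P).mp (hzn g)
    have hcoc : ∀ g h, a (g * h) = algebraMap (ZMod p) k (omegaAt p g) * a h + a g := by
      intro g h
      obtain ⟨t, ht, ht'⟩ := hP.act_borel g (0, a h)
      have h1 : z (g * h) = (locAd p ρ).ρ g (z h) + z g := (mem_cocycles₁_iff _).mp z.2 g h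
      rw [← ha, ← ha h, ht, ← ha g, ← map_add] at h1
      have h2 := congrArg Prod.snd (borelMap_injective P h1)
      simp only [Prod.snd_add] at h2
      rw [h2, ht' rfl]
    have hlev : IsLevelConstant₁ (primeLocalToGlobal (pPrime p)) a := by
      obtain ⟨F, hF, hFz⟩ := hzl
      refine ⟨F, hF, fun g s hs => ?_⟩
      have := hFz g s hs
      rw [← ha, ← ha] at this
      exact congrArg Prod.snd (borelMap_injective P this)
    let bk := Module.finBasis (ZMod p) k
    have hk : ∀ i, IsKummerCocycle p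
        (fun g : (primeLocalGaloisGroup (pPrime p)) => bk.repr (a g) i) := fun i =>
      ⟨hlev.comp (fun x => bk.repr x i), fun g h => by
        show bk.repr (a (g * h)) i = locOmega p g * bk.repr (a h) i + bk.repr (a g) i
        erw [hcoc, map_add, Finsupp.add_apply, ← Algebra.smul_def, map_smul, Finsupp.smul_apply,
          smul_eq_mul]
        rfl⟩
    choose A I J hAIJ using fun i => hspan _ (hk i)
    refine ⟨(∑ i, A i • bk i, ∑ i, I i • bk i, ∑ i, J i • bk i), funext fun g => ?_⟩
    rw [← ha g]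
    refine congrArg (borelMap P) (Prod.ext rfl ?_)
    show algebraMap (ZMod p) k (omegaAt p g - 1) * _ + algebraMap (ZMod p) k (c₁ g) * _ +
      algebraMap (ZMod p) k (c₂ g) * _ = a g
    conv_rhs => rw [← bk.sum_repr (a g)]
    show algebraMap (ZMod p) k (omegaAt p g - 1) * (∑ i, A i • bk i) +
      algebraMap (ZMod p) k (c₁ g) * (∑ i, I i • bk i) +
      algebraMap (ZMod p) k (c₂ g) * (∑ i, J i • bk i) = _
    erw [Finset.mul_sum, Finset.mul_sum, Finset.mul_sum, ← Finset.sum_add_distrib,
      ← Finset.sum_add_distrib]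
    refine Finset.sum_congr rfl fun i _ => ?_
    rw [← Algebra.smul_def, ← Algebra.smul_def, ← Algebra.smul_def, smul_smul, smul_smul,
      smul_smul, ← add_smul, ← add_smul]
    rw [hAIJ i g, omegaAt_eq]
    congr 1
    ring
  let ι : nilCocycles p ρ P →ₗ[ZMod p] LinearMap.range (Φ.restrictScalars (ZMod p)) :=
    LinearMap.codRestrict _
      { toFun := fun z =>
          ((z : cocycles₁ (locAd p ρ)) : (primeLocalGaloisGroup (pPrime p)) → traceZero k)
        map_add' := fun _ _ => rfl
        map_smul' := fun _ _ => rfl } hmem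
  have hι : Function.Injective ι := fun z z' h => by
    refine Subtype.ext (cocycles₁_ext fun g => ?_)
    exact congrArg (fun u : LinearMap.range (Φ.restrictScalars (ZMod p)) => u.1 g) h
  refine ⟨Module.Finite.of_injective ι hι, ?_⟩
  refine (LinearMap.finrank_le_finrank_of_injective hι).trans
    ((Φ.restrictScalars (ZMod p)).finrank_range_le.trans ?_)
  rw [finrank_prod, finrank_prod]
  omega

/-- **The local bound for the classes of nilpotent valued cocycles.** -/
theorem IsLineAdapted.finrank_classes_le (hP : IsLineAdapted p ρ P) (hp2 : p ≠ 2)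
    (hρ : ∃ F : IntermediateField ℚ (AlgebraicClosure ℚ), FiniteDimensional ℚ F ∧
      ∀ s ∈ F.fixingSubgroup, ρ s = 1) :
    finrank (ZMod p) ((nilCocycles p ρ P).map (H1π (locAd p ρ)).hom) ≤
      finrank (ZMod p) (locAd p ρ).ρ.invariants + finrank (ZMod p) k := by
  have : Module.Finite (ZMod p) k := Module.Finite.of_finite
  obtain ⟨_, h2⟩ := hP.finrank_nilCocycles_le hp2
  let W : Submodule (ZMod p) (locAd p ρ) :=
    ((LinearMap.range (borelMap P)).restrictScalars (ZMod p) : Submodule (ZMod p) (traceZero k))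
  have hWdim : finrank (ZMod p) W = 2 * finrank (ZMod p) k := by
    show finrank (ZMod p) (LinearMap.range ((borelMap P).restrictScalars (ZMod p))) = _
    rw [LinearMap.finrank_range_of_inj (f := (borelMap P).restrictScalars (ZMod p))
      (borelMap_injective P), finrank_prod, two_mul]
  have hW : ∀ w ∈ W, ∃ z ∈ nilCocycles p ρ P, ∀ g, z g = (locAd p ρ).ρ g w - w := by
    rintro _ ⟨v, rfl⟩
    refine ⟨⟨(d₀₁ (locAd p ρ)).hom (borelMap P v),
      coboundaries₁_le_cocycles₁ _ ⟨_, rfl⟩⟩, ⟨?_, fun g => ?_⟩, fun g => rfl⟩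
    · obtain ⟨F, hF, hlev⟩ := hρ
      refine ⟨F, hF, fun g s hs => ?_⟩
      have hs' : ρ (loc (pPrime p) s) = 1 := hlev _ hs
      show (locAd p ρ).ρ (g * s) (borelMap P v) - borelMap P v =
        (locAd p ρ).ρ g (borelMap P v) - borelMap P v
      rw [map_mul]
      show (adRep ρ p).ρ (loc (pPrime p) g) ((adRep ρ p).ρ (loc (pPrime p) s) _) - _ = _
      rw [adRep_eq_one_of_eq_one ρ p hs']
      rfl
    · obtain ⟨a, ha, -⟩ := hP.act_borel g v
      refine (mem_nilLine p ρ P).mpr ⟨a - v.2, ?_⟩
      show _ = (locAd p ρ).ρ g (borelMap P v) - borelMap P v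
      rw [ha, ← map_sub]
      refine congrArg (borelMap P) (Prod.ext ?_ rfl)
      simp
  have : FiniteDimensional (ZMod p) (locAd p ρ) :=
    (Module.Finite.of_finite : Module.Finite (ZMod p) (traceZero k))
  have h1 := finrank_map_H1π_add_le (K := ZMod p) (G := primeLocalGaloisGroup (pPrime p))
    (locAd p ρ) (nilCocycles p ρ P) W hW
  omega

end FermatLib.CFT.OrdTangent
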