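import Fermat.Agent.CFT.FlatTangentShift
import Fermat.Agent.CFT.OrdTangentCount

/-!
# Flat classes at `p` when the decomposition group has a stable line

The classes of flat cocycles are those of Borel valued cocycles living on a Fontaine-small field
whose diagonal is unramified. These cocycles span at most `3 [k : 𝔽_p]` dimensions and contain the
coboundaries of the Borel algebra, so their classes span at most `h⁰ + [k : 𝔽_p]`.
-/

set_option autoImplicit false

noncomputable section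

open CategoryTheory groupCohomology Module ExtCitation
open scoped Matrix

namespace FermatLib.CFT.FlatTangent

open FermatLib.MLT.Ad FermatLib.CFT.Fontaine FermatLib.CFT.OrdTangent

local notation "Γℚ" => (AlgebraicClosure ℚ ≃ₐ[ℚ] AlgebraicClosure ℚ)
local notation "Gp" p:max => (PadicAlgCl p ≃ₐ[ℚ_[p]] PadicAlgCl p)

variable {k : Type} [Field k] (p : ℕ) [hp : Fact p.Prime] [Algebra (ZMod p) k]
  (ρ : Γℚ →* Matrix (Fin 2) (Fin 2) k)

/-- The values of a local cocycle. -/
abbrev cocVal (c : cocycles₁ (locAdjoint ρ p)) (g : Gp p) : traceZero k := c g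

lemma cocVal_mul (c : cocycles₁ (locAdjoint ρ p)) (g h : Gp p) :
    cocVal p ρ c (g * h) = localAd ρ p g (cocVal p ρ c h) + cocVal p ρ c g :=
  (mem_cocycles₁_iff _).mp c.2 g h

/-- Borel valued cocycles living on `L`, with diagonal trivial on inertia. -/
def borelCocycles (P : (Matrix (Fin 2) (Fin 2) k)ˣ)
    (L : IntermediateField ℚ_[p] (PadicAlgCl p)) :
    Submodule (ZMod p) (cocycles₁ (locAdjoint ρ p)) where
  carrier := {c | IsLevelConstant₁ (localGaloisToGlobal p) (cocVal p ρ c) ∧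
    (∀ g, (P.1 * (cocVal p ρ c g).1 * P⁻¹.1) 1 0 = 0) ∧
    (∀ g ∈ inertSub p, (P.1 * (cocVal p ρ c g).1 * P⁻¹.1) 1 1 = 0) ∧
    ∀ g, ∀ s ∈ L.fixingSubgroup, cocVal p ρ c (g * s) = cocVal p ρ c g}
  zero_mem' := ⟨isLevelConstant₁_const _ (0 : traceZero k),
    fun g => by show (P.1 * (0 : traceZero k).1 * P⁻¹.1) 1 0 = 0; simp,
    fun g _ => by show (P.1 * (0 : traceZero k).1 * P⁻¹.1) 1 1 = 0; simp, fun _ _ _ => rfl⟩
  add_mem' {a b} ha hb := ⟨ha.1.add hb.1, fun g => by
      show (P.1 * ((cocVal p ρ a g).1 + (cocVal p ρ b g).1) * P⁻¹.1) 1 0 = 0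
      rw [mul_add, add_mul, Matrix.add_apply, ha.2.1 g, hb.2.1 g, add_zero],
    fun g hg => by
      show (P.1 * ((cocVal p ρ a g).1 + (cocVal p ρ b g).1) * P⁻¹.1) 1 1 = 0
      rw [mul_add, add_mul, Matrix.add_apply, ha.2.2.1 g hg, hb.2.2.1 g hg, add_zero],
    fun g s hs => by
      show cocVal p ρ a (g * s) + cocVal p ρ b (g * s) = cocVal p ρ a g + cocVal p ρ b g
      rw [ha.2.2.2 g s hs, hb.2.2.2 g s hs]⟩
  smul_mem' t a ha := ⟨ha.1.comp (t • ·), fun g => by
      show (P.1 * (t • (cocVal p ρ a g).1) * P⁻¹.1) 1 0 = 0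
      rw [mul_smul_comm, smul_mul_assoc, Matrix.smul_apply, ha.2.1 g, smul_zero],
    fun g hg => by
      show (P.1 * (t • (cocVal p ρ a g).1) * P⁻¹.1) 1 1 = 0
      rw [mul_smul_comm, smul_mul_assoc, Matrix.smul_apply, ha.2.2.1 g hg, smul_zero],
    fun g s hs => by
      show t • cocVal p ρ a (g * s) = t • cocVal p ρ a g
      rw [ha.2.2.2 g s hs]⟩

variable {p ρ}

lemma conj_cocVal_mul (P : (Matrix (Fin 2) (Fin 2) k)ˣ) (c : cocycles₁ (locAdjoint ρ p))
    (g h : Gp p) :
    P.1 * (cocVal p ρ c (g * h)).1 * P⁻¹.1 =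
      locMat p ρ P g * (P.1 * (cocVal p ρ c h).1 * P⁻¹.1) * locMat p ρ P g⁻¹ +
        P.1 * (cocVal p ρ c g).1 * P⁻¹.1 := by
  rw [cocVal_mul]
  show P.1 * ((localAd ρ p g (cocVal p ρ c h)).1 + (cocVal p ρ c g).1) * P⁻¹.1 = _
  rw [mul_add, add_mul, localAd_apply, locMat_apply, locMat_apply,
    map_inv (localGaloisToGlobal p)]
  simp only [mul_assoc, Units.inv_mul_cancel_left]

variable [Finite k]

/-- **The space of small Borel cocycles has dimension at most `3 [k : 𝔽_p]`.** -/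
theorem finrank_borelCocycles_le (hp2 : p ≠ 2)
    (hdet : ∀ σ, (ρ σ).det = algebraMap (ZMod p) k ((cycloChar p σ : (ZMod p)ˣ) : ZMod p))
    {P : (Matrix (Fin 2) (Fin 2) k)ˣ} (hP : IsFlatAdapted p ρ P)
    (hlev : ∃ F : IntermediateField ℚ (AlgebraicClosure ℚ), FiniteDimensional ℚ F ∧
      ∀ s : Gp p, localGaloisToGlobal p s ∈ F.fixingSubgroup →
        ρ (localGaloisToGlobal p s) = 1)
    {N : ℕ} (hN : N ≠ 0) (hN2 : 2 ∣ N) (hdvd : Nat.card k - 1 ∣ N)
    {L : IntermediateField ℚ_[p] (PadicAlgCl p)} [FiniteDimensional ℚ_[p] L]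
    (hKL : tameField p N ≤ L) (hLn : ∀ τ : Gp p, ∀ x ∈ L, τ x ∈ L)
    (hsmall : ∀ B : RamifiedBasis L, B.IsSmall) :
    FiniteDimensional (ZMod p) (borelCocycles p ρ P L) ∧
      finrank (ZMod p) (borelCocycles p ρ P L) ≤ 3 * finrank (ZMod p) k := by
  classical
  have : NeZero p := ⟨hp.out.ne_zero⟩
  have : Module.Finite (ZMod p) k := Module.Finite.of_finite
  obtain ⟨⟨d0, hd0⟩, ⟨d1, hd1⟩⟩ := exists_diag_chars hP.lower
  let χ : Gp p →* k := (Units.coeHom k).comp (d0 / d1)
  have hinv1 : ∀ g, ((d1 g)⁻¹ : kˣ).1 = locMat p ρ P g⁻¹ 1 1 := fun g => by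
    rw [← map_inv, hd1]
  have hχ : ∀ g, χ g = locMat p ρ P g 0 0 * locMat p ρ P g⁻¹ 1 1 := fun g => by
    show ((d0 / d1) g : kˣ).1 = _
    rw [MonoidHom.div_apply, div_eq_mul_inv, Units.val_mul, hd0, hinv1]
  have hd1one : ∀ g : Gp p, (∀ ζ : PadicAlgCl p, ζ ^ (p ^ N - 1) = 1 → g ζ = ζ) → d1 g = 1 := by
    obtain ⟨F, hF, hFρ⟩ := hlev
    intro g hg
    refine unramified_apply_eq_one d1 (fun t ht => Units.ext ((hd1 t).trans (hP.unram t ht)))
      ⟨F, hF, fun s hs => Units.ext ?_⟩ hN hdvd hg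
    rw [hd1, locMat_apply, hFρ s hs, mul_one, Units.mul_inv]
    rfl
  have hdiag : ∀ g, locMat p ρ P g 0 0 * locMat p ρ P g 1 1 =
      algebraMap (ZMod p) k (muExp g) := fun g => by
    have h1 : (locMat p ρ P g).det = (ρ (localGaloisToGlobal p g)).det := by
      rw [locMat_apply, Matrix.det_units_conj]
    rw [Matrix.det_fin_two, hP.lower g, mul_zero, sub_zero, hdet] at h1
    rw [h1, muExp_eq_locOmega]
    rfl
  have hχeq : ∀ g : Gp p, (∀ ζ : PadicAlgCl p, ζ ^ (p ^ N - 1) = 1 → g ζ = ζ) →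
      χ g = algebraMap (ZMod p) k (muExp g) := fun g hg => by
    rw [hχ, ← hinv1, ← hdiag, ← hd1 g, hd1one g hg]
    simp
  have hχN : ∀ h ∈ (tameField p N).fixingSubgroup, χ h = 1 := fun h hh => by
    rw [IntermediateField.mem_fixingSubgroup_iff] at hh
    rw [hχeq h fun ζ hζ => hh ζ (mem_tameField_of_pow_eq_one hN hζ)]
    have h1 : muExp h = 1 := by
      refine rootPow_injective ?_
      have h2 := apply_rootPow h (1 : ZMod p)
      rw [mul_one] at h2
      rw [← h2]
      exact hh _ (by rw [rootPow, ZMod.val_one, pow_one]; exact zetaP_mem hN hN2)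
    rw [h1, map_one]
  obtain ⟨B⟩ := exists_ramifiedBasis (L := tameField p N)
  obtain ⟨τ, hτ, hprim, hμ⟩ := exists_tame_generator hp2 hN hN2 B
  have hχτ : χ τ = algebraMap (ZMod p) k (muExp τ) :=
    hχeq τ fun ζ hζ => hτ ζ (mem_tame_W B hN hζ)
  obtain ⟨hfinS, hS⟩ := finrank_smallCocycles_le χ hN hN2 hχN B hτ hprim hμ hχτ hKL hLn hsmall
  -- the diagonal at a Frobenius
  obtain ⟨g₀, hdec⟩ := exists_frobenius_decomp (p := p)
  set Z := borelCocycles p ρ P L
  letI : AddCommGroup Z := Z.addCommGroup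
  letI : Module (ZMod p) Z := Z.module
  let ev : Z →ₗ[ZMod p] k :=
    { toFun := fun c => (P.1 * (cocVal p ρ c.1 g₀).1 * P⁻¹.1) 0 0
      map_add' := fun a b => by
        show (P.1 * ((cocVal p ρ a.1 g₀).1 + (cocVal p ρ b.1 g₀).1) * P⁻¹.1) 0 0 = _
        rw [mul_add, add_mul, Matrix.add_apply]
      map_smul' := fun t a => by
        show (P.1 * (t • (cocVal p ρ a.1 g₀).1) * P⁻¹.1) 0 0 = _
        rw [mul_smul_comm, smul_mul_assoc, Matrix.smul_apply]
        rfl }
  have hTT : ∀ g, locMat p ρ P g * locMat p ρ P g⁻¹ = 1 := fun g => by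
    rw [← map_mul, mul_inv_cancel, map_one]
  have e00 : ∀ g, locMat p ρ P g 0 0 * locMat p ρ P g⁻¹ 0 0 = 1 := fun g => by
    have := congrFun (congrFun (hTT g) 0) 0
    simpa [Matrix.mul_apply, Fin.sum_univ_two, hP.lower] using this
  have htr : ∀ (c : cocycles₁ (locAdjoint ρ p)) (g : Gp p),
      (P.1 * (cocVal p ρ c g).1 * P⁻¹.1) 1 1 = -(P.1 * (cocVal p ρ c g).1 * P⁻¹.1) 0 0 := by
    intro c g
    have h : (P.1 * (cocVal p ρ c g).1 * P⁻¹.1).trace = 0 := by
      rw [Matrix.trace_mul_cycle, Units.inv_mul, one_mul]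
      exact (cocVal p ρ c g).2
    rw [Matrix.trace_fin_two] at h
    linear_combination h
  -- the diagonal of a cocycle in the kernel vanishes
  have hker : ∀ c : LinearMap.ker ev, ∀ g,
      (P.1 * (cocVal p ρ c.1.1 g).1 * P⁻¹.1) 0 0 = 0 := by
    rintro ⟨⟨c, ⟨F, hF, hFc⟩, hc10, hc11, -⟩, hv⟩
    replace hv : (P.1 * (cocVal p ρ c g₀).1 * P⁻¹.1) 0 0 = 0 := LinearMap.mem_ker.mp hv
    let a : Gp p → k := fun g => (P.1 * (cocVal p ρ c g).1 * P⁻¹.1) 0 0
    have hadd : ∀ g h, a (g * h) = a h + a g := fun g h => by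
      simp only [a]
      rw [conj_cocVal_mul, Matrix.add_apply]
      have h10 := hc10 h
      generalize P.1 * (cocVal p ρ c h).1 * P⁻¹.1 = X at h10 ⊢
      simp [Matrix.mul_apply, Fin.sum_univ_two, hP.lower, h10]
      linear_combination (X 0 0) * e00 g
    have ha1 : a 1 = 0 := by
      have := hadd 1 1
      rw [mul_one] at this
      exact left_eq_add.mp this
    have hpow : ∀ j : ℕ, a (g₀ ^ j) = 0 := by
      intro j
      induction j with
      | zero => rw [pow_zero, ha1]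
      | succ j ih => rw [pow_succ, hadd, ih, show a g₀ = 0 from hv, add_zero]
    intro g
    obtain ⟨j, t, s, ht, hs, rfl, -⟩ := hdec F hF g
    show a _ = 0
    have ht0 : a t = 0 := by
      have h1 := hc11 t ht
      rw [htr, neg_eq_zero] at h1
      exact h1
    have hs0 : a s = 0 := by
      have h1 := hFc 1 s hs
      rw [one_mul] at h1
      show (P.1 * (cocVal p ρ c s).1 * P⁻¹.1) 0 0 = 0
      rw [h1]
      exact ha1
    rw [hadd, hadd, hpow, ht0, hs0, add_zero, add_zero]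
  have hnil : ∀ c : LinearMap.ker ev,
      (fun g => (P.1 * (cocVal p ρ c.1.1 g).1 * P⁻¹.1) 0 1) ∈ smallCocycles χ L := by
    intro c
    refine ⟨fun g h => ?_, fun g s hs => ?_⟩
    · show (P.1 * (cocVal p ρ c.1.1 (g * h)).1 * P⁻¹.1) 0 1 =
        (P.1 * (cocVal p ρ c.1.1 g).1 * P⁻¹.1) 0 1 +
        χ g * (P.1 * (cocVal p ρ c.1.1 h).1 * P⁻¹.1) 0 1
      rw [conj_cocVal_mul, Matrix.add_apply, hχ]
      have h10 := c.1.2.2.1 h
      have h00 := hker c h
      have h11 : (P.1 * (cocVal p ρ c.1.1 h).1 * P⁻¹.1) 1 1 = 0 := by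
        rw [htr, hker c h, neg_zero]
      generalize P.1 * (cocVal p ρ c.1.1 h).1 * P⁻¹.1 = X at h10 h00 h11 ⊢
      simp [Matrix.mul_apply, Fin.sum_univ_two, h10, h00, h11]
      ring
    · show (P.1 * (cocVal p ρ c.1.1 (g * s)).1 * P⁻¹.1) 0 1 = _
      rw [c.1.2.2.2.2 g s hs]
  let ι : LinearMap.ker ev →ₗ[ZMod p] smallCocycles χ L :=
    LinearMap.codRestrict _
      { toFun := fun c g => (P.1 * (cocVal p ρ c.1.1 g).1 * P⁻¹.1) 0 1
        map_add' := fun a b => funext fun g => by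
          show (P.1 * ((cocVal p ρ a.1.1 g).1 + (cocVal p ρ b.1.1 g).1) * P⁻¹.1) 0 1 = _
          rw [mul_add, add_mul, Matrix.add_apply]
          rfl
        map_smul' := fun t a => funext fun g => by
          show (P.1 * (t • (cocVal p ρ a.1.1 g).1) * P⁻¹.1) 0 1 = _
          rw [mul_smul_comm, smul_mul_assoc, Matrix.smul_apply]
          rfl } hnil
  have hι : Function.Injective ι := by
    rw [injective_iff_map_eq_zero]
    intro c hc
    refine Subtype.ext (Subtype.ext (cocycles₁_ext fun g => ?_))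
    show cocVal p ρ c.1.1 g = 0
    have h01 : (P.1 * (cocVal p ρ c.1.1 g).1 * P⁻¹.1) 0 1 = 0 :=
      congrFun (congrArg Subtype.val hc) g
    have h0 : P.1 * (cocVal p ρ c.1.1 g).1 * P⁻¹.1 = 0 := by
      ext i j
      fin_cases i <;> fin_cases j
      · exact hker c g
      · exact h01
      · exact c.1.2.2.1 g
      · exact (htr c.1.1 g).trans (by rw [hker c g, neg_zero]; rfl)
    refine Subtype.ext ?_
    calc (cocVal p ρ c.1.1 g).1 = P⁻¹.1 * (P.1 * (cocVal p ρ c.1.1 g).1 * P⁻¹.1) * P.1 := by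
          simp only [mul_assoc, Units.inv_mul, mul_one, Units.inv_mul_cancel_left]
      _ = 0 := by rw [h0, mul_zero, zero_mul]
  have : FiniteDimensional (ZMod p) (LinearMap.ker ev) := Module.Finite.of_injective ι hι
  have : FiniteDimensional (ZMod p) (LinearMap.range ev) := inferInstance
  have : FiniteDimensional (ZMod p) Z :=
    have : Module.Finite (ZMod p) (Z ⧸ LinearMap.ker ev) :=
      Module.Finite.equiv (LinearMap.quotKerEquivRange ev).symm
    Module.Finite.of_submodule_quotient (LinearMap.ker ev)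
  refine ⟨this, ?_⟩
  have e1 := LinearMap.finrank_range_add_finrank_ker ev
  have e2 := (LinearMap.finrank_le_finrank_of_injective hι).trans hS
  have e3 := Submodule.finrank_le (LinearMap.range ev)
  omega

/-- **Flat classes when the decomposition group has a stable line.** -/
theorem finrank_span_flat_le_of_line (hp2 : p ≠ 2)
    (hdet : ∀ σ, (ρ σ).det = algebraMap (ZMod p) k ((cycloChar p σ : (ZMod p)ˣ) : ZMod p))
    {v : Fin 2 → k} (hv : v ≠ 0)
    (hstab : ∀ g, ∃ a : k, ρ (primeLocalToGlobal (pPrime p) g) *ᵥ v = a • v) {n : ℕ} (hn : n ≠ 0)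
    (c : Fin n → cocycles₁ (adRep ρ p)) (hc : ∀ j, IsFlatCocycle ρ p (fun g => c j g)) :
    finrank (ZMod p) (Submodule.span (ZMod p) (Set.range fun j =>
      (groupCohomology.map (primeLocalToGlobal (pPrime p)) (𝟙 (locAdjoint ρ p)) 1).hom
        ((H1π (adRep ρ p)).hom (c j)))) ≤
      finrank (ZMod p) (locAdjoint ρ p).ρ.invariants + finrank (ZMod p) k := by
  classical
  have : Module.Finite (ZMod p) k := Module.Finite.of_finite
  set N := 2 * (Nat.card k - 1) with hNdef
  have hN : N ≠ 0 := by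
    have : 1 < Nat.card k := Finite.one_lt_card
    omega
  obtain ⟨L, hLf, hKL, hLn, hLtriv, hsmall⟩ :=
    exists_small_common (fun j g => c j g) hc hn hN (dvd_mul_right 2 _)
  obtain ⟨P, hP, C, hC, hmem⟩ := exists_isFlatAdapted hp2 hdet hv hstab
    (hc ⟨0, Nat.pos_of_ne_zero hn⟩) hLn fun s hs => (hLtriv s hs).1
  have hlev : ∃ F : IntermediateField ℚ (AlgebraicClosure ℚ), FiniteDimensional ℚ F ∧
      ∀ s : Gp p, localGaloisToGlobal p s ∈ F.fixingSubgroup →
        ρ (localGaloisToGlobal p s) = 1 := by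
    obtain ⟨F, hF, h⟩ := (hc ⟨0, Nat.pos_of_ne_zero hn⟩).level
    exact ⟨F, hF, fun s hs => (h _ hs).1⟩
  obtain ⟨hfin, h3⟩ := finrank_borelCocycles_le hp2 hdet hP hlev hN (dvd_mul_right 2 _)
    (dvd_mul_left _ 2) hKL hLn hsmall
  have hρL : ∀ g : Gp p, ∀ s ∈ L.fixingSubgroup, ∀ X : traceZero k,
      localAd ρ p (g * s) X = localAd ρ p g X := fun g s hs X => by
    rw [map_mul, Module.End.mul_apply]
    congr 1
    exact LinearMap.congr_fun (adRep_eq_one_of_eq_one ρ p (hLtriv s hs).1) X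
  -- every localised class comes from a small Borel cocycle
  have hsub : Submodule.span (ZMod p) (Set.range fun j =>
      (groupCohomology.map (primeLocalToGlobal (pPrime p)) (𝟙 (locAdjoint ρ p)) 1).hom
        ((H1π (adRep ρ p)).hom (c j))) ≤
      (borelCocycles p ρ P L).map (H1π (locAdjoint ρ p)).hom := by
    refine Submodule.span_le.mpr ?_
    rintro _ ⟨j, rfl⟩
    dsimp only
    rw [H1π_comp_map_apply]
    set c' := (mapCocycles₁ (primeLocalToGlobal (pPrime p)) (𝟙 (locAdjoint ρ p))).hom (c j) with hc'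
    have hc'v : ∀ g : Gp p, cocVal p ρ c' g = c j (localGaloisToGlobal p g) := fun g => rfl
    obtain ⟨y, hy⟩ := exists_shift P hp2 hP hC hmem (hc j)
    set dX : cocycles₁ (locAdjoint ρ p) :=
      ⟨(d₀₁ (locAdjoint ρ p)).hom (shiftElt P y), coboundaries₁_le_cocycles₁ _ ⟨_, rfl⟩⟩ with hdX
    have hdX0 : (H1π (locAdjoint ρ p)).hom dX = 0 := (H1π_eq_zero_iff _).mpr ⟨shiftElt P y, rfl⟩
    have hdXv : ∀ g : Gp p,
        cocVal p ρ dX g = localAd ρ p g (shiftElt P y) - shiftElt P y := fun g => rfl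
    refine ⟨c' + dX, ⟨?_, fun g => ?_, fun g hg => ?_, fun g s hs => ?_⟩, ?_⟩
    · obtain ⟨F, hF, h⟩ := (hc j).level
      refine ⟨F, hF, fun g s hs => ?_⟩
      show cocVal p ρ c' (g * s) + cocVal p ρ dX (g * s) = cocVal p ρ c' g + cocVal p ρ dX g
      rw [hc'v, hc'v, hdXv, hdXv, map_mul (localGaloisToGlobal p), (h _ hs).2, map_mul,
        Module.End.mul_apply]
      congr 3
      exact LinearMap.congr_fun (adRep_eq_one_of_eq_one ρ p (h _ hs).1) _
    · exact (hy g).1
    · exact (hy g).2 hg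
    · show cocVal p ρ c' (g * s) + cocVal p ρ dX (g * s) = cocVal p ρ c' g + cocVal p ρ dX g
      rw [hdXv, hdXv, hρL g s hs, cocVal_mul, hc'v s, (hLtriv s hs).2 j, map_zero, zero_add]
    · exact (LinearMap.map_add (H1π (locAdjoint ρ p)).hom c' dX).trans
        (by rw [hdX0]; exact add_zero _)
  let W : Submodule (ZMod p) (locAdjoint ρ p) :=
    ((LinearMap.range (borelMap P)).restrictScalars (ZMod p) : Submodule (ZMod p) (traceZero k))
  have hWdim : finrank (ZMod p) W = 2 * finrank (ZMod p) k := by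
    show finrank (ZMod p) (LinearMap.range ((borelMap P).restrictScalars (ZMod p))) = _
    rw [LinearMap.finrank_range_of_inj (f := (borelMap P).restrictScalars (ZMod p))
      (borelMap_injective P), finrank_prod, two_mul]
  have hW : ∀ w ∈ W, ∃ z ∈ borelCocycles p ρ P L, ∀ g, z g = (locAdjoint ρ p).ρ g w - w := by
    rintro _ ⟨v, rfl⟩
    refine ⟨⟨(d₀₁ (locAdjoint ρ p)).hom (borelMap P v),
      coboundaries₁_le_cocycles₁ _ ⟨_, rfl⟩⟩, ⟨?_, fun g => ?_, fun g _ => ?_,
        fun g s hs => ?_⟩, fun g => rfl⟩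
    · obtain ⟨F, hF, hlev⟩ := hlev
      refine ⟨F, hF, fun g s hs => ?_⟩
      show localAd ρ p (g * s) (borelMap P v) - borelMap P v =
        localAd ρ p g (borelMap P v) - borelMap P v
      rw [map_mul, Module.End.mul_apply]
      congr 2
      exact LinearMap.congr_fun (adRep_eq_one_of_eq_one ρ p (hlev s hs)) _
    · show (P.1 * ((localAd ρ p g (borelMap P v)).1 - (borelMap P v).1) * P⁻¹.1) 1 0 = 0
      rw [mul_sub, sub_mul, conj_borelMap, localAd_apply]
      rw [show P.1 * (ρ (localGaloisToGlobal p g) * (borelMap P v).1 *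
          ρ (localGaloisToGlobal p g)⁻¹) * P⁻¹.1 = locMat p ρ P g *
          (P.1 * (borelMap P v).1 * P⁻¹.1) * locMat p ρ P g⁻¹ by
        rw [locMat_apply, locMat_apply, map_inv (localGaloisToGlobal p)]
        simp only [mul_assoc, Units.inv_mul_cancel_left], conj_borelMap]
      simp [Matrix.mul_apply, Fin.sum_univ_two, hP.lower]
    · show (P.1 * ((localAd ρ p g (borelMap P v)).1 - (borelMap P v).1) * P⁻¹.1) 1 1 = 0
      rw [mul_sub, sub_mul, conj_borelMap, localAd_apply]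
      rw [show P.1 * (ρ (localGaloisToGlobal p g) * (borelMap P v).1 *
          ρ (localGaloisToGlobal p g)⁻¹) * P⁻¹.1 = locMat p ρ P g *
          (P.1 * (borelMap P v).1 * P⁻¹.1) * locMat p ρ P g⁻¹ by
        rw [locMat_apply, locMat_apply, map_inv (localGaloisToGlobal p)]
        simp only [mul_assoc, Units.inv_mul_cancel_left], conj_borelMap]
      have h1 : locMat p ρ P g * locMat p ρ P g⁻¹ = 1 := by rw [← map_mul, mul_inv_cancel, map_one]
      have e11 : locMat p ρ P g 1 1 * locMat p ρ P g⁻¹ 1 1 = 1 := by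
        have := congrFun (congrFun h1 1) 1
        simpa [Matrix.mul_apply, Fin.sum_univ_two, hP.lower] using this
      simp [Matrix.mul_apply, Fin.sum_univ_two, hP.lower]
      linear_combination (-v.1) * e11
    · show localAd ρ p (g * s) (borelMap P v) - borelMap P v =
        localAd ρ p g (borelMap P v) - borelMap P v
      rw [hρL g s hs]
  have : FiniteDimensional (ZMod p) (locAdjoint ρ p) :=
    (Module.Finite.of_finite : Module.Finite (ZMod p) (traceZero k))
  have h1 := finrank_map_H1π_add_le (K := ZMod p) (G := primeLocalGaloisGroup (pPrime p))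
    (locAdjoint ρ p) (borelCocycles p ρ P L) W hW
  have h2 := Submodule.finrank_mono hsub
  refine h2.trans (Nat.le_of_add_le_add_right (b := 2 * finrank (ZMod p) k) ?_)
  rw [← hWdim]
  refine h1.trans ?_
  rw [hWdim]
  omega

end FermatLib.CFT.FlatTangent

end
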