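import Fermat.Agent.CFT.FlatTangentIrred
import Fermat.Agent.CFT.FlatTangentBorel
import Fermat.Agent.Galois.RepAdic
import Fermat.Agent.Mazur.GunitCyclo

/-!
# The flat local condition at `p`

The localisations at `p` of the classes of flat cocycles lie in one space of dimension at most
`h⁰ + [k : 𝔽_p]` when `p` is odd and the determinant is cyclotomic.
-/

set_option autoImplicit false

noncomputable section

open CategoryTheory groupCohomology Module ExtCitation
open scoped Matrix

namespace FermatLib.CFT.FlatTangent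

open FermatLib.MLT.Ad FermatLib.CFT.Fontaine

local notation "Γℚ" => (AlgebraicClosure ℚ ≃ₐ[ℚ] AlgebraicClosure ℚ)
local notation "loc" => primeLocalToGlobal

/-- If the finite subfamilies of a set span at most `d` dimensions, so does the set. -/
lemma finrank_span_le_of_finite_subfamilies {K V : Type} [Field K] [AddCommGroup V] [Module K V]
    (S : Set V) (d : ℕ)
    (h : ∀ (n : ℕ) (v : Fin n → V), n ≠ 0 → (∀ j, v j ∈ S) →
      finrank K (Submodule.span K (Set.range v)) ≤ d) :
    FiniteDimensional K (Submodule.span K S) ∧ finrank K (Submodule.span K S) ≤ d := by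
  obtain ⟨b, hbS, hbspan, hb⟩ := exists_linearIndependent K S
  have hcard : ∀ t : Finset b, t.card ≤ d := by
    intro t
    rcases Nat.eq_zero_or_pos t.card with h0 | h0
    · omega
    let v : Fin t.card → V := fun j => ((t.equivFin.symm j : b) : V)
    have hv : LinearIndependent K v :=
      hb.comp _ (Subtype.val_injective.comp t.equivFin.symm.injective)
    have h1 := h t.card v h0.ne' fun j => hbS (t.equivFin.symm j : b).2
    rwa [finrank_span_eq_card hv, Fintype.card_fin] at h1
  have : Finite b := by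
    by_contra hinf
    rw [not_finite_iff_infinite] at hinf
    obtain ⟨t, ht⟩ := Infinite.exists_subset_card_eq b (d + 1)
    have := hcard t
    omega
  let _ := Fintype.ofFinite b
  have hfin : FiniteDimensional K (Submodule.span K b) :=
    FiniteDimensional.span_of_finite K (Set.toFinite b)
  rw [← hbspan]
  refine ⟨hfin, ?_⟩
  have := finrank_span_eq_card hb
  rw [Subtype.range_coe_subtype, Set.ofPred_mem_eq] at this
  rw [this]
  exact hcard Finset.univ

variable {k : Type} [Field k] {p : ℕ} [hp : Fact p.Prime] [Algebra (ZMod p) k]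
  {ρ : Γℚ →* Matrix (Fin 2) (Fin 2) k}

/-- A residual representation of a lift with cyclotomic determinant has cyclotomic determinant. -/
theorem det_eq_cycloChar {A : Type} [CommRing A] [IsLocalRing A] (ρA : GaloisRepAdic A)
    (b : Basis (Fin 2) A ρA.V) (f : A →+* k)
    (hb : ∀ g, (FermatLib.Galois.repMatrix b ρA.ρ g).map f = ρ g) (h : ρA.DetIsCyclotomic p)
    (σ : Γℚ) : (ρ σ).det = algebraMap (ZMod p) k ((cycloChar p σ : (ZMod p)ˣ) : ZMod p) := by
  have : NeZero p := ⟨hp.out.ne_zero⟩
  obtain ⟨w, hw⟩ := Ideal.mem_span_singleton'.mp (h.2 1 σ ((cycloChar p σ : ZMod p)).val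
    fun μ hμ => Mazur.apply_eq_pow_cycloChar p σ (by rwa [pow_one] at hμ))
  have hp0 : ((p : ℕ) : k) = 0 := by
    rw [← map_natCast (algebraMap (ZMod p) k), ZMod.natCast_self, map_zero]
  have h1 := congrArg f hw
  rw [map_mul, pow_one, map_natCast, hp0, mul_zero, map_sub, map_natCast, eq_comm, sub_eq_zero]
    at h1
  rw [← hb σ, ← RingHom.mapMatrix_apply, ← RingHom.map_det, FermatLib.Galois.repMatrix_apply,
    LinearMap.det_toMatrix, h1, ← map_natCast (algebraMap (ZMod p) k), ZMod.natCast_zmod_val]

/-- **The flat local condition.** -/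
theorem flatClasses_bound [Finite k] (hp2 : p ≠ 2)
    (hdet : ∀ σ, (ρ σ).det = algebraMap (ZMod p) k ((cycloChar p σ : (ZMod p)ˣ) : ZMod p)) :
    flatClasses ρ p ≤ continuousH1 (loc (pPrime p)) (locAdjoint ρ p) ∧
      FiniteDimensional (ZMod p) (flatClasses ρ p) ∧
      finrank (ZMod p) (flatClasses ρ p) ≤
        finrank (ZMod p) (locAdjoint ρ p).ρ.invariants + finrank (ZMod p) k := by
  refine ⟨Submodule.span_le.mpr ?_, finrank_span_le_of_finite_subfamilies _ _ fun n v hn hv => ?_⟩
  · rintro _ ⟨c, hc, rfl⟩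
    obtain ⟨F, hF, hlev⟩ := hc.level
    refine (mem_continuousH1_iff _ _ _).mpr
      ⟨(mapCocycles₁ (loc (pPrime p)) (𝟙 (locAdjoint ρ p))).hom c, ⟨F, hF, fun g s hs => ?_⟩,
        (H1π_comp_map_apply (loc (pPrime p)) (𝟙 (locAdjoint ρ p)) c).symm⟩
    show c (loc (pPrime p) (g * s)) = c (loc (pPrime p) g)
    rw [map_mul]
    exact (hlev _ hs).2 _
  · choose c hc hcv using hv
    rw [show v = fun j => (groupCohomology.map (loc (pPrime p)) (𝟙 (locAdjoint ρ p)) 1).hom
      ((H1π (adRep ρ p)).hom (c j)) from funext fun j => (hcv j).symm]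
    by_cases hirr : ∃ u : Fin 2 → k, u ≠ 0 ∧ ∀ g : PadicAlgCl p ≃ₐ[ℚ_[p]] PadicAlgCl p,
        ∃ a : k, ρ (localGaloisToGlobal p g) *ᵥ u = a • u
    · obtain ⟨u, hu, hstab⟩ := hirr
      exact finrank_span_flat_le_of_line hp2 hdet hu hstab hn c hc
    · exact finrank_span_flat_le_of_irreducible hirr hdet hp2 hn c hc

end FermatLib.CFT.FlatTangent

end
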