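import Mathlib.FieldTheory.Finite.Basic
import Mathlib.LinearAlgebra.FiniteDimensional.Basic
import Mathlib.LinearAlgebra.Basis.Defs
import Mathlib.LinearAlgebra.Projection
import Mathlib.Algebra.Algebra.ZMod
import Mathlib.Tactic.Ring

/-!
# Fixed points of semilinear maps, and a dimension lemma
-/

set_option autoImplicit false

namespace FermatLib.CFT.Fontaine

open Module

/-- The fixed points of a Frobenius-semilinear map are `F`-independent when `𝔽_p`-independent, so
their `𝔽_p`-dimension is bounded by the `F`-dimension of any subspace containing them. -/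
theorem finrank_le_of_semilinear {p : ℕ} [Fact p.Prime] {F : Type*} [Field F] [Algebra (ZMod p) F]
    {E : Type*} [AddCommGroup E] [Module F E] [Module (ZMod p) E] [IsScalarTower (ZMod p) F E]
    [FiniteDimensional F E] (Φ : E → E) (hadd : ∀ x y, Φ (x + y) = Φ x + Φ y)
    (hsmul : ∀ (a : F) x, Φ (a • x) = a ^ p • Φ x)
    (S : Submodule (ZMod p) E) (hS : ∀ x ∈ S, Φ x = x) (E₀ : Submodule F E)
    (hSE : ∀ x ∈ S, x ∈ E₀) :
    finrank (ZMod p) S ≤ finrank F E₀ := by
  classical
  have hkey : ∀ s : Finset E, (↑s : Set E) ⊆ S → LinearIndepOn (ZMod p) id (↑s : Set E) →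
      LinearIndepOn F id (↑s : Set E) := by
    intro s hs hind
    rw [linearIndepOn_finset_iff] at hind ⊢
    suffices ∀ t ⊆ s, ∀ a : E → F, ∑ x ∈ t, a x • x = 0 → ∀ x ∈ t, a x = 0 by
      intro a ha; exact this s subset_rfl a (by simpa using ha)
    intro t
    induction t using Finset.strongInduction with
    | H t ih =>
      intro hts a ha x hx
      by_contra hax
      set b : E → F := fun y => (a x)⁻¹ * a y with hb
      have hb0 : ∑ y ∈ t, b y • y = 0 := by
        simp only [hb, mul_smul, ← Finset.smul_sum, ha, smul_zero]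
      have hbx : b x = 1 := inv_mul_cancel₀ hax
      have hΦ0 : Φ 0 = 0 := add_right_cancel (b := Φ 0) (by rw [← hadd, add_zero, zero_add])
      have hsum : ∀ u : Finset E, ∀ f : E → E, Φ (∑ y ∈ u, f y) = ∑ y ∈ u, Φ (f y) := fun u f =>
        map_sum (AddMonoidHom.mk' Φ hadd) f u
      have hbp : ∑ y ∈ t.erase x, (b y ^ p - b y) • y = 0 := by
        have h1 : ∑ y ∈ t, b y ^ p • y = 0 := by
          have h := congrArg Φ hb0
          rw [hsum, hΦ0] at h
          rw [← h]
          exact Finset.sum_congr rfl fun y hy => by rw [hsmul, hS y (hs (hts hy))]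
        have h2 : ∑ y ∈ t, (b y ^ p - b y) • y = 0 := by
          simp only [sub_smul, Finset.sum_sub_distrib, h1, hb0, sub_zero]
        rwa [← Finset.add_sum_erase _ _ hx, hbx, one_pow, sub_self, zero_smul, zero_add] at h2
      have hfix := ih _ (Finset.erase_ssubset hx) ((Finset.erase_subset _ _).trans hts) _ hbp
      have hmem : ∀ y ∈ t, ∃ c : ZMod p, algebraMap (ZMod p) F c = b y := by
        intro y hy
        rcases eq_or_ne y x with rfl | hyx
        · exact ⟨1, by rw [hbx, map_one]⟩
        have hy' := hfix y (Finset.mem_erase.mpr ⟨hyx, hy⟩)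
        by_contra hcon
        push Not at hcon
        have hroot : (Polynomial.X ^ p - Polynomial.X : Polynomial F) ≠ 0 := fun h0 => by
          have := congrArg (fun P : Polynomial F => P.coeff p) h0
          simp [(Fact.out : p.Prime).ne_one.symm, Polynomial.coeff_X] at this
        have hsub : insert (b y) (Finset.univ.image (algebraMap (ZMod p) F)) ⊆
            (Polynomial.X ^ p - Polynomial.X : Polynomial F).roots.toFinset := by
          intro z hz
          rw [Multiset.mem_toFinset, Polynomial.mem_roots hroot]
          rcases Finset.mem_insert.mp hz with rfl | hz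
          · simpa using hy'
          · obtain ⟨c, -, rfl⟩ := Finset.mem_image.mp hz
            simp [← map_pow, ZMod.pow_card]
        have h1 := Finset.card_le_card hsub
        rw [Finset.card_insert_of_notMem (fun hz => by
            obtain ⟨c, -, hc⟩ := Finset.mem_image.mp hz; exact hcon c hc),
          Finset.card_image_of_injective _ (algebraMap (ZMod p) F).injective, Finset.card_univ,
          ZMod.card] at h1
        have h2 := (h1.trans (Multiset.toFinset_card_le _)).trans (Polynomial.card_roots' _)
        have h3 : (Polynomial.X ^ p - Polynomial.X : Polynomial F).natDegree = p := by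
          rw [Polynomial.natDegree_sub_eq_left_of_natDegree_lt] <;>
            simp [(Fact.out : p.Prime).one_lt]
        omega
      choose! c hc using hmem
      have hc0 : ∑ y ∈ s, (if y ∈ t then c y else 0) • id y = 0 := by
        simp only [id, ite_smul, zero_smul]
        rw [Finset.sum_ite_mem, Finset.inter_eq_right.mpr hts, ← hb0]
        exact Finset.sum_congr rfl fun y hy => by rw [← hc y hy, algebraMap_smul]
      have := hind _ hc0 x (hts hx)
      rw [if_pos hx] at this
      have h4 := hc x hx
      rw [this, map_zero, hbx] at h4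
      exact zero_ne_one h4
  obtain hfin | hinf := em (Module.Finite (ZMod p) S)
  swap
  · rw [Module.finrank_of_not_finite hinf]; exact Nat.zero_le _
  let b := Module.finBasis (ZMod p) S
  set s : Finset E := Finset.univ.image fun i => (b i : E) with hs
  have hbinj : Function.Injective fun i => (b i : E) := Subtype.val_injective.comp b.injective
  have hindp : LinearIndepOn (ZMod p) id (↑s : Set E) := by
    rw [hs, Finset.coe_image, Finset.coe_univ, Set.image_univ]
    exact (b.linearIndependent.map' S.subtype S.ker_subtype).linearIndepOn_id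
  have hindF := hkey s (fun y hy => by
    obtain ⟨i, -, rfl⟩ := Finset.mem_image.mp hy; exact (b i).2) hindp
  have hind' : LinearIndependent F fun i => (⟨(b i : E), hSE _ (b i).2⟩ : E₀) := by
    refine LinearIndependent.of_comp E₀.subtype ?_
    exact (hindF.comp (fun i => (⟨(b i : E), Finset.mem_image_of_mem _ (Finset.mem_univ i)⟩ :
      (↑s : Set E))) fun i j h => hbinj (Subtype.mk.inj h))
  simpa using hind'.fintype_card_le_finrank

/-- A map with small range adds little to the image in a quotient. -/
theorem finrank_map_le_add {K V V' Q : Type*} [Field K] [AddCommGroup V] [Module K V]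
    [AddCommGroup V'] [Module K V'] [AddCommGroup Q] [Module K Q]
    (A A' : Submodule K V) [FiniteDimensional K A] (q : V →ₗ[K] Q) (f : A →ₗ[K] V')
    (hker : ∀ a, f a = 0 → (a : V) ∈ A') {d : ℕ} (hd : finrank K (LinearMap.range f) ≤ d) :
    finrank K (A.map q) ≤ finrank K ((A ⊓ A').map q) + d := by
  obtain ⟨C, hC⟩ := Submodule.exists_isCompl (LinearMap.ker f)
  have : FiniteDimensional K (A ⊓ A' : Submodule K V) :=
    Submodule.finiteDimensional_of_le inf_le_left
  have hle : A.map q ≤ (A ⊓ A').map q ⊔ C.map (q.comp A.subtype) := by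
    rintro _ ⟨v, hv, rfl⟩
    obtain ⟨k, hk, c, hc, hkc⟩ := Submodule.mem_sup.mp
      (hC.sup_eq_top ▸ Submodule.mem_top : (⟨v, hv⟩ : A) ∈ LinearMap.ker f ⊔ C)
    rw [show v = (k : V) + (c : V) from congrArg Subtype.val hkc.symm, map_add]
    exact Submodule.add_mem_sup ⟨k, ⟨k.2, hker k hk⟩, rfl⟩ ⟨c, hc, rfl⟩
  have hCd : finrank K C ≤ d := by
    refine le_trans ?_ hd
    refine LinearMap.finrank_le_finrank_of_injective (f := (f.domRestrict C).codRestrict
      (LinearMap.range f) fun c => ⟨c, rfl⟩) fun x y hxy => ?_
    have h1 : f (x : A) = f (y : A) := congrArg Subtype.val hxy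
    have h2 : ((x - y : C) : A) ∈ LinearMap.ker f ⊓ C :=
      ⟨by simp [h1], (x - y).2⟩
    rw [hC.inf_eq_bot, Submodule.mem_bot] at h2
    exact sub_eq_zero.mp (Subtype.ext h2)
  calc finrank K (A.map q) ≤ finrank K ((A ⊓ A').map q ⊔ C.map (q.comp A.subtype) : Submodule K Q) :=
        Submodule.finrank_mono hle
    _ ≤ finrank K ((A ⊓ A').map q) + finrank K (C.map (q.comp A.subtype)) :=
        Submodule.finrank_add_le_finrank_add_finrank _ _
    _ ≤ _ := Nat.add_le_add_left ((Submodule.finrank_map_le _ _).trans hCd) _

end FermatLib.CFT.Fontaine
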