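import Fermat.Agent.CFT.TameLayers
import Fermat.Agent.CFT.TameSemilinear
import Mathlib.LinearAlgebra.Isomorphisms

/-!
# The dimension of cocycles of Kummer level `e` over the tame fields

Cocycles with values in a module split by `K_N` whose Kummer elements are congruent to `1` modulo
`p` span at most `h⁰ + ∑_j d_j` dimensions of cohomology, `d_j` bounding the `j`-th tame eigenspace.
-/

set_option autoImplicit false

noncomputable section

namespace FermatLib.CFT.Fontaine

open Module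

local notation "G" p => PadicAlgCl p ≃ₐ[ℚ_[p]] PadicAlgCl p

variable {p : ℕ} [hp : Fact p.Prime] {W : Type} [AddCommGroup W] [Module (ZMod p) W]
  (r : (G p) →* Module.End (ZMod p) W)

/-- Crossed homomorphisms. -/
def cocycleSub : Submodule (ZMod p) ((G p) → W) where
  carrier := {ψ | ∀ g h, ψ (g * h) = ψ g + r g (ψ h)}
  zero_mem' g h := by simp
  add_mem' {a b} ha hb g h := by simp [ha g h, hb g h]; abel
  smul_mem' c a ha g h := by simp [ha g h]

/-- The coboundary map. -/
def coboundary : W →ₗ[ZMod p] ((G p) → W) where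
  toFun X g := r g X - X
  map_add' X Y := by ext g; simp; abel
  map_smul' c X := by ext g; simp [smul_sub]

/-- The fixed vectors. -/
def fixedSub : Submodule (ZMod p) W where
  carrier := {X | ∀ g, r g X = X}
  zero_mem' g := map_zero _
  add_mem' {a b} ha hb g := by rw [map_add, ha g, hb g]
  smul_mem' c a ha g := by rw [map_smul, ha g]

/-- The eigenspace met by the `j`-th layer. -/
def tameEigen (N : ℕ) (τ : G p) (j : ℕ) :
    letI := ZMod.algebra (Residue (tameField p N)) p
    Submodule (Residue (tameField p N)) (Module.Dual (ZMod p) W →ₗ[ZMod p] Residue (tameField p N)) :=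
  letI := ZMod.algebra (Residue (tameField p N)) p
  { carrier := {θ | ∀ l, θ (muExp τ • l.comp (r τ⁻¹)) =
      toResidue N (τ (tameRoot p) / tameRoot p) ^ j * θ l}
    zero_mem' := fun l => by simp
    add_mem' := fun {a b} ha hb l => by
      simp only [LinearMap.add_apply]; rw [ha l, hb l, mul_add]
    smul_mem' := fun c a ha l => by
      simp only [LinearMap.smul_apply, smul_eq_mul]; rw [ha l]; ring }

variable {r} {N : ℕ}

lemma cocycle_one {ψ : (G p) → W} (hψ : ψ ∈ cocycleSub r) : ψ 1 = 0 := by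
  have h := hψ 1 1
  simp only [mul_one, map_one, Module.End.one_apply] at h
  exact left_eq_add.mp h

lemma cocycle_conj {ψ : (G p) → W} (hψ : ψ ∈ cocycleSub r)
    (hr : ∀ h ∈ (tameField p N).fixingSubgroup, r h = 1) (g : G p)
    {h : G p} (hh : h ∈ (tameField p N).fixingSubgroup) : ψ (g⁻¹ * h * g) = r g⁻¹ (ψ h) := by
  have h1 : ψ g⁻¹ + r g⁻¹ (ψ g) = 0 := by rw [← hψ, inv_mul_cancel, cocycle_one hψ]
  rw [mul_assoc, hψ g⁻¹, hψ h, hr h hh, Module.End.one_apply, map_add, add_comm (r g⁻¹ (ψ h)),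
    ← add_assoc, h1, zero_add]

lemma toResidue_pow {x : PadicAlgCl p} (hx : x ∈ tameField p N) (hx1 : ‖x‖ ≤ 1) (n : ℕ) :
    toResidue N (x ^ n) = toResidue N x ^ n := by
  induction n with
  | zero =>
    rw [pow_zero, pow_zero, toResidue_of_mem (one_mem _) (by simp)]
    exact map_one _
  | succ n ih =>
    rw [pow_succ, pow_succ, toResidue_mul (pow_mem hx n)
      (by rw [norm_pow]; exact pow_le_one₀ (norm_nonneg _) hx1) hx hx1, ih]

lemma norm_conj_div (g : G p) : ‖g (tameRoot p) / tameRoot p‖ = 1 := by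
  rw [norm_div, norm_algEquiv, div_self (norm_ne_zero_iff.mpr tameRoot_ne_zero)]

lemma toResidue_apply_of_fix (B : RamifiedBasis (tameField p N)) {τ : G p}
    (hτ : ∀ w ∈ B.W, τ w = w) (hτK : ∀ x ∈ tameField p N, τ x ∈ tameField p N) {x : PadicAlgCl p}
    (hx : x ∈ tameField p N) (hx1 : ‖x‖ ≤ 1) : toResidue N (τ x) = toResidue N x := by
  obtain ⟨w, hw, hw1, hxw⟩ := B.residue x hx hx1
  rw [toResidue_eq_iff (hτK x hx) (by rwa [norm_algEquiv]) hx hx1,
    show τ x - x = τ (x - w) + -(x - w) by rw [map_sub, hτ w hw]; ring]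
  exact (IsUltrametricDist.norm_add_le_max _ _).trans_lt
    (max_lt (by rwa [norm_algEquiv]) (by rwa [norm_neg]))

lemma toResidue_apply_frobenius {φ : G p} (hφK : ∀ x ∈ tameField p N, φ x ∈ tameField p N)
    (hφ : ∀ u : PadicAlgCl p, u ^ (residueCard (tameField p N) - 1) = 1 → φ u = u ^ p)
    {x : PadicAlgCl p} (hx : x ∈ tameField p N) (hx1 : ‖x‖ ≤ 1) :
    toResidue N (φ x) = toResidue N x ^ p := by
  obtain ⟨u, huK, hu1, huq, hux⟩ := exists_teichmuller (tameField p N) hx hx1
  rw [← toResidue_pow hx hx1]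
  have hxp : ‖x ^ p‖ ≤ 1 := by rw [norm_pow]; exact pow_le_one₀ (norm_nonneg _) hx1
  rw [toResidue_eq_iff (hφK x hx) (by rwa [norm_algEquiv]) (pow_mem hx p) hxp]
  have hφu : φ u = u ^ p := by
    rcases eq_or_ne u 0 with rfl | hu0
    · rw [map_zero, zero_pow hp.out.ne_zero]
    · refine hφ u (mul_left_cancel₀ hu0 ?_)
      rw [← pow_succ', mul_one, Nat.sub_add_cancel (one_lt_residueCard _).le, huq]
  rw [show φ x - x ^ p = φ (x - u) + -(x ^ p - u ^ p) by rw [map_sub, hφu]; ring]
  refine (IsUltrametricDist.norm_add_le_max _ _).trans_lt (max_lt ?_ ?_)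
  · rw [norm_algEquiv, norm_sub_rev]; exact hux
  · rw [norm_neg]
    refine lt_of_le_of_lt ?_ (norm_sub_rev x u ▸ hux)
    rw [← geom_sum₂_mul, norm_mul]
    refine mul_le_of_le_one_left (norm_nonneg _) ?_
    refine IsUltrametricDist.norm_sum_le_of_forall_le_of_nonneg zero_le_one fun i _ => ?_
    rw [norm_mul, norm_pow, norm_pow]
    exact mul_le_one₀ (pow_le_one₀ (norm_nonneg _) hx1) (by positivity) (pow_le_one₀ (norm_nonneg _) hu1)

/-- Frobenius-fixed functionals span at most the dimension of a subspace containing them. -/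
private theorem finrank_range_le_of_frobenius_fixed [Finite W] {F : Type*} [Field F] [Finite F]
    [CharP F p] [Algebra (ZMod p) F] {V : Type*} [AddCommGroup V] [Module (ZMod p) V]
    (f : V →ₗ[ZMod p] Dual (ZMod p) W →ₗ[ZMod p] F) (μ : ZMod p) (T : Module.End (ZMod p) W)
    (hf : ∀ a l, f a (μ • l.comp T) ^ p = f a l)
    (E : Submodule F (Dual (ZMod p) W →ₗ[ZMod p] F)) (hE : ∀ a, f a ∈ E) :
    finrank (ZMod p) (LinearMap.range f) ≤ finrank F E := by
  let Φ : (Dual (ZMod p) W →ₗ[ZMod p] F) → (Dual (ZMod p) W →ₗ[ZMod p] F) := fun θ =>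
    (((frobenius F p).toAddMonoidHom.toZModLinearMap p).comp θ).comp
      (μ • LinearMap.lcomp (ZMod p) (ZMod p) T)
  have hΦ : ∀ θ l, Φ θ l = θ (μ • l.comp T) ^ p := fun θ l => rfl
  refine finrank_le_of_semilinear Φ
    (fun x y => LinearMap.ext fun l => by simp only [hΦ, LinearMap.add_apply, add_pow_char])
    (fun a x => LinearMap.ext fun l => by
      simp only [hΦ, LinearMap.smul_apply, smul_eq_mul, mul_pow]) _ ?_ E ?_
  · rintro _ ⟨a, rfl⟩
    exact LinearMap.ext fun l => hf a l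
  · rintro _ ⟨a, rfl⟩
    exact hE a

/-- A layer adds at most the dimension of its eigenspace. -/
theorem finrank_map_layer_le {Q : Type} [AddCommGroup Q] [Module (ZMod p) Q]
    (q : ((G p) → W) →ₗ[ZMod p] Q) [Finite W] (hN : N ≠ 0) (hN2 : 2 ∣ N)
    (hr : ∀ h ∈ (tameField p N).fixingSubgroup, r h = 1)
    (B : RamifiedBasis (tameField p N)) {τ : G p} (hτ : ∀ w ∈ B.W, τ w = w)
    (A : Submodule (ZMod p) ((G p) → W)) [FiniteDimensional (ZMod p) A] (hA : A ≤ cocycleSub r)
    {j : ℕ} (hj : ¬ p ∣ j) (hjtop : j < tameExp p + p + 1) (hAj : A ≤ levelSub W N j) {d : ℕ}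
    (hd : letI := ZMod.algebra (Residue (tameField p N)) p
      finrank (Residue (tameField p N)) (tameEigen r N τ j) ≤ d) :
    finrank (ZMod p) (A.map q) ≤ finrank (ZMod p) ((A ⊓ levelSub W N (j + 1)).map q) + d := by
  letI := ZMod.algebra (Residue (tameField p N)) p
  letI : Field (Residue (tameField p N)) :=
    @Fintype.fieldOfDomain (Residue (tameField p N)) _ _ (Classical.decEq _) (Fintype.ofFinite _)
  refine finrank_map_le_add A (levelSub W N (j + 1)) q
    ((layer (W := W) N hj hjtop).comp (Submodule.inclusion hAj))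
    (fun a ha => mem_succ_of_layer_eq_zero hj hjtop (ψ := Submodule.inclusion hAj a) ha) ?_
  obtain ⟨φ, hφϖ, hφ⟩ := exists_tame_frobenius (p := p) hN hN2
  have hnorm := tameField_normal (p := p) hN hN2
  have hμ : muExp φ ≠ 0 := by
    intro h0
    have h1 := apply_rootPow φ 1
    rw [h0, zero_mul, rootPow_zero, ← map_one φ] at h1
    have h2 := φ.injective h1
    rw [← rootPow_zero] at h2
    exact one_ne_zero (rootPow_injective h2)
  refine le_trans (finrank_range_le_of_frobenius_fixed _ (muExp φ)⁻¹ (r φ) ?_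
    (tameEigen r N τ j) ?_) hd
  · intro a l
    set ψ : levelSub (p := p) W N j := Submodule.inclusion hAj a
    show layerFun N j ψ ((muExp φ)⁻¹ • l.comp (r φ)) ^ p = layerFun N j ψ l
    set μ := (muExp φ)⁻¹ • l.comp (r φ) with hμdef
    have e : muExp φ • μ.comp (r φ⁻¹) = l := by
      rw [hμdef, LinearMap.smul_comp, smul_smul, mul_inv_cancel₀ hμ, one_smul, LinearMap.comp_assoc,
        ← Module.End.mul_eq_comp, ← map_mul, mul_inv_cancel, map_one, Module.End.one_eq_id,
        LinearMap.comp_id]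
    conv_rhs => rw [← e, layerFun_conj hj hjtop hN hN2 ψ φ (r φ⁻¹)
      (fun h hh => cocycle_conj (hA a.2) hr φ hh) μ, hφϖ, div_self tameRoot_ne_zero, one_pow, mul_one]
    obtain ⟨a1, a2, -⟩ := (ψ.2 μ).choose_spec
    obtain ⟨m1, m2⟩ := leading_mem a1 a2
    rw [toResidue_apply_frobenius (hnorm φ) hφ m1 m2]
    rfl
  · intro a l
    set ψ : levelSub (p := p) W N j := Submodule.inclusion hAj a
    show layerFun N j ψ (muExp τ • l.comp (r τ⁻¹)) =
      toResidue N (τ (tameRoot p) / tameRoot p) ^ j * layerFun N j ψ l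
    rw [layerFun_conj hj hjtop hN hN2 ψ τ (r τ⁻¹) (fun h hh => cocycle_conj (hA a.2) hr τ hh) l]
    obtain ⟨a1, a2, -⟩ := (ψ.2 l).choose_spec
    obtain ⟨m1, m2⟩ := leading_mem a1 a2
    have hη : τ (tameRoot p) / tameRoot p ∈ tameField p N :=
      div_mem (hnorm τ _ tameRoot_mem) tameRoot_mem
    rw [toResidue_mul (hnorm τ _ m1) (by rwa [norm_algEquiv]) (pow_mem hη j)
        (by rw [norm_pow, norm_conj_div, one_pow]), toResidue_pow hη (norm_conj_div τ).le,
      toResidue_apply_of_fix B hτ (hnorm τ) m1 m2, mul_comm]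
    rfl

/-- A conjugation of `ϖ` over any field with values in `p ^ ℤ`. -/
theorem exists_tame_conj' (W' : IntermediateField ℚ_[p] (PadicAlgCl p))
    (hW' : ∀ w ∈ W', w ≠ 0 → ∃ k : ℤ, ‖w‖ = ‖(p : PadicAlgCl p)‖ ^ k)
    {η : PadicAlgCl p} (hη : η ^ tameExp p = 1) :
    ∃ τ : PadicAlgCl p ≃ₐ[ℚ_[p]] PadicAlgCl p,
      (∀ w ∈ W', τ w = w) ∧ τ (tameRoot p) = η * tameRoot p := by
  have hint := isIntegral_intermediate W' (tameRoot p)
  have he := tameExp_pos (p := p)
  have hmp : minpoly W' (tameRoot p) = Polynomial.X ^ tameExp p + Polynomial.C ((p : W')) := by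
    refine Polynomial.eq_of_monic_of_associated (minpoly.monic hint) (Polynomial.monic_X_pow_add_C _ he.ne')
      (Polynomial.associated_of_dvd_of_natDegree_le (minpoly.dvd _ _ (by simp [tameRoot_pow]))
        (Polynomial.monic_X_pow_add_C _ he.ne').ne_zero ?_)
    rw [Polynomial.natDegree_X_pow_add_C]
    exact le_natDegree_minpoly tameRoot_ne_zero norm_tameRoot_lt_one
      (fun w hw hw0 => norm_tameRoot_pow (p := p) ▸ hW' w hw hw0)
  have : Normal W' (PadicAlgCl p) := Normal.tower_top_of_normal ℚ_[p] W' (PadicAlgCl p)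
  obtain ⟨τ, hτ⟩ := minpoly.exists_algEquiv_of_root' (L := PadicAlgCl p) (x := η * tameRoot p)
    hint.isAlgebraic (by rw [hmp]; simp [mul_pow, hη, tameRoot_pow])
  exact ⟨τ.restrictScalars ℚ_[p], fun w hw => τ.commutes ⟨w, hw⟩, hτ⟩

/-- `ζ_p ∈ K_N`. -/
theorem zetaP_mem (hN : N ≠ 0) (hN2 : 2 ∣ N) : zetaP p ∈ tameField p N := by
  classical
  have hζ := zetaP_isPrimitiveRoot (p := p)
  have h2 := hp.out.two_le
  set c := ‖tameRoot p‖
  have hc0 : 0 < c := norm_pos_iff.mpr tameRoot_ne_zero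
  set π₁ := zetaP p - 1 with hπ₁
  have hπ₁0 : π₁ ≠ 0 := sub_ne_zero.mpr zetaP_ne_one
  set v := π₁ / tameRoot p ^ (p + 1) with hv
  have hv1 : ‖v‖ = 1 := by
    rw [hv, norm_div, norm_zetaP_sub_one, norm_pow, div_self (pow_ne_zero _ hc0.ne')]
  have hv0 : v ≠ 0 := norm_ne_zero_iff.mp (by rw [hv1]; exact one_ne_zero)
  have hquot : ∀ a : ℕ, ‖(zetaP p ^ a - 1) / π₁ - (a : PadicAlgCl p)‖ < 1 := by
    intro a
    rw [hπ₁, ← geom_sum_eq zetaP_ne_one, show (a : PadicAlgCl p) = ∑ _i ∈ Finset.range a, (1 : PadicAlgCl p) by simp,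
      ← Finset.sum_sub_distrib]
    refine lt_of_le_of_lt (IsUltrametricDist.norm_sum_le_of_forall_le_of_nonneg (norm_nonneg π₁)
      fun i _ => ?_) ?_
    · rw [← geom_sum_mul, norm_mul]
      refine mul_le_of_le_one_left (norm_nonneg _) ?_
      exact IsUltrametricDist.norm_sum_le_of_forall_le_of_nonneg zero_le_one fun j _ => by
        rw [norm_pow, norm_zetaP, one_pow]
    · rw [hπ₁, norm_zetaP_sub_one]
      exact pow_lt_one₀ hc0.le norm_tameRoot_lt_one (Nat.succ_ne_zero p)
  -- `v ^ (p - 1) ≡ 1`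
  have hvp : ‖v ^ (p - 1) - 1‖ < 1 := by
    have hϖ : (tameRoot p ^ (p + 1)) ^ (p - 1) = -(p : PadicAlgCl p) := by
      rw [← pow_mul, show (p + 1) * (p - 1) = tameExp p by rw [tameExp, ← Nat.sq_sub_sq, one_pow],
        tameRoot_pow]
    set Q := ∏ i ∈ Finset.range (p - 1), (zetaP p ^ (i + 1) - 1) / π₁ with hQ
    have hprod : (-1 : PadicAlgCl p) ^ (p - 1) * (π₁ ^ (p - 1) * Q) = p := by
      have h := IsPrimitiveRoot.prod_pow_sub_one_eq_order (n := p - 1)
        (μ := zetaP p) (by rwa [Nat.sub_add_cancel hp.out.one_le])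
      have e : π₁ ^ (p - 1) * Q = ∏ i ∈ Finset.range (p - 1), (zetaP p ^ (i + 1) - 1) := by
        rw [hQ, Finset.prod_div_distrib, Finset.prod_const, Finset.card_range,
          mul_div_cancel₀ _ (pow_ne_zero _ hπ₁0)]
      rw [e, h, Nat.cast_sub hp.out.one_le]
      simp
    have hvQ : v ^ (p - 1) * Q = (-1) ^ p := by
      have hsq : ((-1 : PadicAlgCl p) ^ (p - 1)) * (-1) ^ (p - 1) = 1 := by rw [← mul_pow]; simp
      have hp0 : (p : PadicAlgCl p) ≠ 0 := Nat.cast_ne_zero.mpr hp.out.ne_zero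
      rw [hv, div_pow, hϖ, div_mul_eq_mul_div, div_eq_iff (neg_ne_zero.mpr hp0)]
      calc π₁ ^ (p - 1) * Q = ((-1) ^ (p - 1) * (-1) ^ (p - 1)) * (π₁ ^ (p - 1) * Q) := by
            rw [hsq, one_mul]
        _ = (-1) ^ (p - 1) * (p : PadicAlgCl p) := by rw [mul_assoc, hprod]
        _ = _ := by
          have ep : ((-1 : PadicAlgCl p)) ^ p = (-1) ^ (p - 1) * (-1) := by
            rw [← pow_succ, Nat.sub_add_cancel hp.out.one_le]
          rw [ep]
          ring
    have hfac : ‖Q - ((p - 1).factorial : PadicAlgCl p)‖ < 1 := by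
      rw [hQ, ← Finset.prod_range_add_one_eq_factorial, Nat.cast_prod]
      generalize p - 1 = n
      induction n with
      | zero => simp
      | succ n ih =>
        rw [Finset.prod_range_succ, Finset.prod_range_succ,
          show ∀ A B a b : PadicAlgCl p, A * a - B * b = (A - B) * a + B * (a - b) from
            fun A B a b => by ring]
        have hq1 : ‖(zetaP p ^ (n + 1) - 1) / π₁‖ ≤ 1 := by
          rw [← sub_add_cancel ((zetaP p ^ (n + 1) - 1) / π₁) ((n + 1 : ℕ) : PadicAlgCl p)]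
          exact (IsUltrametricDist.norm_add_le_max _ _).trans
            (max_le (hquot _).le (IsUltrametricDist.norm_natCast_le_one _ _))
        refine (IsUltrametricDist.norm_add_le_max _ _).trans_lt (max_lt ?_ ?_)
        · rw [norm_mul]; exact lt_of_le_of_lt (mul_le_of_le_one_right (norm_nonneg _) hq1) ih
        · rw [norm_mul]
          refine lt_of_le_of_lt (mul_le_of_le_one_left (norm_nonneg _) ?_) (hquot _)
          rw [← Nat.cast_prod]
          exact IsUltrametricDist.norm_natCast_le_one _ _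
    have hint : ∀ z : ℤ, ‖(z : PadicAlgCl p)‖ < 1 ↔ (p : ℤ) ∣ z := fun z => by
      rw [show (z : PadicAlgCl p) = algebraMap ℚ_[p] (PadicAlgCl p) (z : ℚ_[p]) by simp,
        norm_padic_algebraMap, Padic.norm_intCast_lt_one_iff]
    have hW : ‖Q + 1‖ < 1 := by
      rw [show Q + 1 = (Q - ((p - 1).factorial : PadicAlgCl p)) +
        ((((p - 1).factorial : ℤ) + 1 : ℤ) : PadicAlgCl p) by push_cast; ring]
      refine (IsUltrametricDist.norm_add_le_max _ _).trans_lt (max_lt hfac ((hint _).mpr ?_))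
      rw [← ZMod.intCast_zmod_eq_zero_iff_dvd]
      push_cast
      rw [ZMod.wilsons_lemma, neg_add_cancel]
    have hone : ‖(1 : PadicAlgCl p) + (-1) ^ p‖ < 1 := by
      rw [show (1 : PadicAlgCl p) + (-1) ^ p = ((1 + (-1) ^ p : ℤ) : PadicAlgCl p) by push_cast; ring]
      refine (hint _).mpr ?_
      rw [← ZMod.intCast_zmod_eq_zero_iff_dvd]
      push_cast
      rw [ZMod.pow_card, add_neg_cancel]
    have hQn : ‖Q‖ = 1 := by
      rw [show Q = -1 + (Q + 1) by ring, IsUltrametricDist.norm_add_eq_max_of_norm_ne_norm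
        (by rw [norm_neg, norm_one]; exact hW.ne'), norm_neg, norm_one, max_eq_left hW.le]
    have e : ‖v ^ (p - 1) - 1‖ = ‖(1 + (-1 : PadicAlgCl p) ^ p) + -(Q + 1)‖ := by
      rw [show (1 + (-1 : PadicAlgCl p) ^ p) + -(Q + 1) = (v ^ (p - 1) - 1) * Q by
        rw [sub_mul, hvQ]; ring, norm_mul, hQn, mul_one]
    rw [e]
    exact (IsUltrametricDist.norm_add_le_max _ _).trans_lt (max_lt hone (by rwa [norm_neg]))
  obtain ⟨ω, hω, hvω⟩ : ∃ ω : PadicAlgCl p, ω ^ (p - 1) = 1 ∧ ‖v - ω‖ < 1 := by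
    by_contra hcon
    push Not at hcon
    have : NeZero (p - 1) := ⟨by omega⟩
    obtain ⟨z, hz⟩ := HasEnoughRootsOfUnity.exists_primitiveRoot (PadicAlgCl p) (p - 1)
    have e := congrArg (Polynomial.eval v) (Polynomial.X_pow_sub_one_eq_prod (by omega : 0 < p - 1) hz)
    simp only [Polynomial.eval_sub, Polynomial.eval_pow, Polynomial.eval_X, Polynomial.eval_one,
      Polynomial.eval_prod, Polynomial.eval_C] at e
    rw [e, norm_prod] at hvp
    exact absurd hvp (not_lt.mpr (Finset.one_le_prod fun r hr =>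
      hcon r ((Polynomial.mem_nthRootsFinset (by omega : 0 < p - 1) 1).mp hr)))
  rw [← InfiniteGalois.fixedField_fixingSubgroup (tameField p N), IntermediateField.mem_fixedField_iff]
  intro h hh
  rw [IntermediateField.mem_fixingSubgroup_iff] at hh
  have hωK : ω ∈ tameField p N := by
    refine mem_tameField_of_pow_eq_one hN ?_
    obtain ⟨d, hd⟩ := Nat.sub_dvd_pow_sub_pow p 1 N
    rw [one_pow] at hd
    rw [hd, pow_mul, hω, one_pow]
  have hsmall : ‖h v - v‖ < 1 := by
    rw [show h v - v = h (v - ω) + -(v - ω) by rw [map_sub, hh ω hωK]; ring]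
    exact (IsUltrametricDist.norm_add_le_max _ _).trans_lt
      (max_lt (by rwa [norm_algEquiv]) (by rwa [norm_neg]))
  obtain ⟨a, ha, hae⟩ := hζ.eq_pow_of_pow_eq_one (ξ := h (zetaP p))
    (by rw [← map_pow, hζ.pow_eq_one, map_one])
  have hhv : h v / v = (zetaP p ^ a - 1) / π₁ := by
    rw [hv, map_div₀, map_pow, hh _ tameRoot_mem, hπ₁, map_sub, map_one, ← hae,
      div_div_div_cancel_right₀ (pow_ne_zero _ tameRoot_ne_zero)]
  have h1 : ‖(a : PadicAlgCl p) - 1‖ < 1 := by
    rw [show (a : PadicAlgCl p) - 1 = -((zetaP p ^ a - 1) / π₁ - (a : PadicAlgCl p)) + (h v / v - 1) by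
      rw [hhv]; ring]
    refine (IsUltrametricDist.norm_add_le_max _ _).trans_lt (max_lt (by rw [norm_neg]; exact hquot a) ?_)
    rw [div_sub_one hv0, norm_div, hv1, div_one]
    exact hsmall
  have h2' : (p : ℤ) ∣ (a : ℤ) - 1 := by
    rw [← Padic.norm_intCast_lt_one_iff, ← norm_padic_algebraMap]
    simpa using h1
  rw [← hae]
  conv_rhs => rw [← pow_one (zetaP p)]
  exact pow_eq_pow_of_modEq (Nat.modEq_iff_dvd.mpr (by simpa using h2')).symm hζ.pow_eq_one

/-- A `p`-th root of a unit congruent to `1` to the top level is congruent to `1` modulo `ζ - 1`. -/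
lemma norm_sub_one_le_of_top {y : PadicAlgCl p}
    (h : ‖y ^ p - 1‖ ≤ ‖tameRoot p‖ ^ (tameExp p + p + 1)) : ‖y - 1‖ ≤ ‖tameRoot p‖ ^ (p + 1) := by
  set c := ‖tameRoot p‖ with hc
  have hc0 : 0 < c := norm_pos_iff.mpr tameRoot_ne_zero
  have hc1 : c < 1 := norm_tameRoot_lt_one
  have hy1 : ‖y‖ ≤ 1 := by
    refine (pow_le_one_iff_of_nonneg (norm_nonneg y) hp.out.ne_zero).mp ?_
    rw [← norm_pow, ← sub_add_cancel (y ^ p) 1]
    exact (IsUltrametricDist.norm_add_le_max _ _).trans
      (max_le (h.trans (pow_le_one₀ hc0.le hc1.le)) (by simp))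
  have hx1 : ‖y - 1‖ ≤ 1 := by
    rw [sub_eq_add_neg]
    exact (IsUltrametricDist.norm_add_le_max _ _).trans (max_le hy1 (by simp))
  by_contra hlt
  push Not at hlt
  have hR : ‖y ^ p - 1 - (y - 1) ^ p‖ ≤ ‖(p : PadicAlgCl p)‖ * ‖y - 1‖ := by
    have h' := norm_one_add_pow_sub_le hx1
    rwa [show (1 : PadicAlgCl p) + (y - 1) = y by ring] at h'
  have hxpos : 0 < ‖y - 1‖ := (pow_pos hc0 _).trans hlt
  have hE : (p + 1) * (p - 1) = tameExp p := by rw [tameExp, ← Nat.sq_sub_sq, one_pow]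
  have h1 : ‖(p : PadicAlgCl p)‖ * ‖y - 1‖ < ‖y - 1‖ ^ p := by
    rw [show ‖y - 1‖ ^ p = ‖y - 1‖ ^ (p - 1) * ‖y - 1‖ by
      rw [← pow_succ, Nat.sub_add_cancel hp.out.one_le]]
    refine mul_lt_mul_of_pos_right ?_ hxpos
    rw [← norm_tameRoot_pow, ← hE, pow_mul]
    exact pow_lt_pow_left₀ hlt (by positivity) (by have := hp.out.two_le; omega)
  have h2 : c ^ (tameExp p + p + 1) < ‖y - 1‖ ^ p := by
    rw [show tameExp p + p + 1 = (p + 1) * p by
      rw [← hE]; obtain ⟨q, hq⟩ : ∃ q, p = q + 1 := ⟨p - 1, by have := hp.out.two_le; omega⟩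
      subst hq; simp; ring, pow_mul]
    exact pow_lt_pow_left₀ hlt (by positivity) hp.out.ne_zero
  have h3 : ‖(y - 1) ^ p‖ < ‖y - 1‖ ^ p := by
    rw [show (y - 1) ^ p = (y ^ p - 1) + -(y ^ p - 1 - (y - 1) ^ p) by ring]
    exact (IsUltrametricDist.norm_add_le_max _ _).trans_lt
      (max_lt (h.trans_lt h2) (by rw [norm_neg]; exact hR.trans_lt h1))
  rw [norm_pow] at h3
  exact lt_irrefl _ h3

/-- Above all layers, cocycles are unramified and contribute at most `h⁰`. -/
theorem finrank_map_top_le [Finite W] (hN : N ≠ 0) (hN2 : 2 ∣ N)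
    (hr : ∀ h ∈ (tameField p N).fixingSubgroup, r h = 1)
    (A : Submodule (ZMod p) ((G p) → W)) [FiniteDimensional (ZMod p) A] (hA : A ≤ cocycleSub r)
    (hAtop : A ≤ levelSub W N (tameExp p + p + 1))
    (L : IntermediateField ℚ_[p] (PadicAlgCl p)) [FiniteDimensional ℚ_[p] L]
    (hLn : ∀ τ : G p, ∀ x ∈ L, τ x ∈ L) (hKL : tameField p N ≤ L)
    (hlev : ∀ ψ ∈ A, ∀ g, ∀ s ∈ L.fixingSubgroup, ψ (g * s) = ψ g) :
    finrank (ZMod p) (A.map (LinearMap.range (coboundary r)).mkQ) ≤
      finrank (ZMod p) (fixedSub r) := by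
  classical
  obtain ⟨B⟩ := exists_ramifiedBasis (L := L)
  obtain ⟨B₀⟩ := exists_ramifiedBasis (L := tameField p N)
  have hW : B₀.W ≤ B.W := by rw [B₀.W_eq, B.W_eq]; exact unramifiedPart_mono L hKL
  -- the relative inertia group
  let I : Subgroup (G p) := B.W.fixingSubgroup
  have hI : ∀ {s : G p}, s ∈ I ↔ ∀ w ∈ B.W, s w = w := fun {s} => IntermediateField.mem_fixingSubgroup_iff _ _
  -- on inertia fixing `ϖ` the cocycles vanish
  have hvan : ∀ ψ ∈ A, ∀ s ∈ I, s (tameRoot p) = tameRoot p → ψ s = 0 := by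
    intro ψ hψ s hs hsϖ
    refine (Module.forall_dual_apply_eq_zero_iff (ZMod p) _).mp fun l => ?_
    obtain ⟨y, h1, h2, h3⟩ := hAtop hψ l
    have hsK : s ∈ (tameField p N).fixingSubgroup :=
      fixes_tameField B₀ (fun w hw => hI.mp hs w (hW hw)) hsϖ
    have hyL : y ∈ L := by
      rw [← InfiniteGalois.fixedField_fixingSubgroup L, IntermediateField.mem_fixedField_iff]
      intro g hg
      have hg0 : ψ g = 0 := by
        have := hlev ψ hψ 1 g hg
        rwa [one_mul, cocycle_one (hA hψ)] at this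
      rw [h3 g (IntermediateField.fixingSubgroup_antitone hKL hg), hg0, map_zero, rootPow_zero, one_mul]
    have hζL : zetaP p ∈ L := hKL (zetaP_mem hN hN2)
    set c := ‖tameRoot p‖
    have hc0 : 0 < c := norm_pos_iff.mpr tameRoot_ne_zero
    have hz1 : ‖y - 1‖ ≤ c ^ (p + 1) := norm_sub_one_le_of_top h2
    have hζ0 : zetaP p - 1 ≠ 0 := sub_ne_zero.mpr zetaP_ne_one
    set z := (y - 1) / (zetaP p - 1) with hz
    have hzn : ‖z‖ ≤ 1 := by
      rw [hz, norm_div, norm_zetaP_sub_one, div_le_one (pow_pos hc0 _)]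
      exact hz1
    obtain ⟨w, hw, -, hzw⟩ := B.residue z (div_mem (sub_mem hyL (one_mem _))
      (sub_mem hζL (one_mem _))) hzn
    have hsz : ‖s z - z‖ < 1 := by
      rw [show s z - z = s (z - w) + -(z - w) by rw [map_sub, hI.mp hs w hw]; ring]
      exact (IsUltrametricDist.norm_add_le_max _ _).trans_lt
        (max_lt (by rwa [norm_algEquiv]) (by rwa [norm_neg]))
    by_contra hne
    have hy1 : ‖y‖ = 1 := by
      rw [← sub_add_cancel y 1, IsUltrametricDist.norm_add_eq_max_of_norm_ne_norm, norm_one,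
        max_eq_right (hz1.trans (pow_le_one₀ hc0.le norm_tameRoot_lt_one.le))]
      rw [norm_one]
      exact (hz1.trans_lt (pow_lt_one₀ hc0.le norm_tameRoot_lt_one (Nat.succ_ne_zero _))).ne
    have hζs : s (zetaP p) = zetaP p :=
      (IntermediateField.mem_fixingSubgroup_iff _ _).mp hsK _ (zetaP_mem hN hN2)
    have hζsub : ‖rootPow (l (ψ s)) - 1‖ = ‖zetaP p - 1‖ := by
      refine (pow_left_inj₀ (norm_nonneg _) (norm_nonneg _) (n := p - 1)
        (by have := hp.out.two_le; omega)).mp ?_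
      rw [norm_sub_one_pow_eq (by rw [rootPow, ← pow_mul, mul_comm, pow_mul,
          zetaP_isPrimitiveRoot.pow_eq_one, one_pow]) (fun h => hne (rootPow_injective
            (h.trans rootPow_zero.symm))),
        norm_sub_one_pow_eq zetaP_isPrimitiveRoot.pow_eq_one zetaP_ne_one]
    have : ‖s z - z‖ = 1 := by
      rw [hz, map_div₀, map_sub, map_sub, hζs, map_one, h3 s hsK, ← sub_div, norm_div,
        show rootPow (l (ψ s)) * y - 1 - (y - 1) = (rootPow (l (ψ s)) - 1) * y by ring,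
        norm_mul, hy1, mul_one, hζsub, div_self (norm_ne_zero_iff.mpr hζ0)]
    exact hsz.ne this
  -- representatives of inertia
  let T : Finset (PadicAlgCl p) := Polynomial.nthRootsFinset (tameExp p) 1
  have hTiff : ∀ {η : PadicAlgCl p}, η ∈ T ↔ η ^ tameExp p = 1 := fun {η} =>
    Polynomial.mem_nthRootsFinset (tameExp_pos (p := p)) 1
  have hTex : ∀ η ∈ T, ∃ t ∈ I, t (tameRoot p) = η * tameRoot p := by
    intro η hη
    obtain ⟨t, htW, htϖ⟩ := exists_tame_conj' B.W B.norm_W (hTiff.mp hη)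
    exact ⟨t, hI.mpr htW, htϖ⟩
  choose! t htI htϖ using hTex
  have hηI : ∀ {η : PadicAlgCl p}, η ∈ T → ∀ s ∈ I, s η = η := by
    intro η hη s hs
    obtain ⟨c, hc⟩ := tameExp_dvd (p := p) hN2
    exact hI.mp hs η (hW (mem_tame_W B₀ hN (by rw [hc, pow_mul, hTiff.mp hη, one_pow])))
  let sumT : ((G p) → W) →ₗ[ZMod p] W :=
    { toFun := fun ψ => ∑ η ∈ T, ψ (t η)
      map_add' := fun a b => by simp [Finset.sum_add_distrib]
      map_smul' := fun c a => by simp [Finset.smul_sum] }
  have hcard : ((T.card : ℕ) : ZMod p) ≠ 0 := by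
    have : NeZero (tameExp p) := ⟨(tameExp_pos (p := p)).ne'⟩
    obtain ⟨z, hz⟩ := HasEnoughRootsOfUnity.exists_primitiveRoot (PadicAlgCl p) (tameExp p)
    have : T.card = tameExp p := hz.card_nthRootsFinset
    rw [this, Ne, ZMod.natCast_eq_zero_iff]
    exact not_dvd_tameExp
  let corr : ((G p) → W) →ₗ[ZMod p] ((G p) → W) :=
    LinearMap.id + (coboundary r).comp (((T.card : ℕ) : ZMod p)⁻¹ • sumT)
  have hcorr : ∀ ψ ∈ A, ∀ s ∈ I, corr ψ s = 0 := by
    intro ψ hψ s hs
    set η₀ := s (tameRoot p) / tameRoot p with hη₀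
    have hη₀T : η₀ ∈ T := hTiff.mpr (root_div_pow_eq_one s)
    have hη₀0 : η₀ ≠ 0 := fun h => by
      have := hTiff.mp hη₀T
      rw [h, zero_pow (tameExp_pos (p := p)).ne'] at this
      exact zero_ne_one this
    have hkey : ∀ η ∈ T, ψ (s * t η) = ψ (t (η₀ * η)) := by
      intro η hη
      have hm : η₀ * η ∈ T := hTiff.mpr (by rw [mul_pow, hTiff.mp hη₀T, hTiff.mp hη, one_mul])
      have h0 := hvan ψ hψ ((t (η₀ * η))⁻¹ * (s * t η))
        (mul_mem (inv_mem (htI _ hm)) (mul_mem hs (htI _ hη))) (by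
          rw [AlgEquiv.mul_apply, AlgEquiv.mul_apply, htϖ η hη, map_mul, hηI hη s hs]
          have e : t (η₀ * η) (tameRoot p) = η * s (tameRoot p) := by
            rw [htϖ _ hm, hη₀, div_mul_eq_mul_div, div_mul_cancel₀ _ tameRoot_ne_zero, mul_comm]
          rw [← e]
          exact (t (η₀ * η)).symm_apply_apply _)
      rw [show s * t η = t (η₀ * η) * ((t (η₀ * η))⁻¹ * (s * t η)) by group,
        hA hψ (t (η₀ * η)) _, h0, map_zero, add_zero]
    have hperm : ∑ η ∈ T, ψ (t (η₀ * η)) = ∑ η ∈ T, ψ (t η) :=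
      Finset.sum_nbij' (fun η => η₀ * η) (fun η => η₀⁻¹ * η)
        (fun η hη => hTiff.mpr (by rw [mul_pow, hTiff.mp hη₀T, hTiff.mp hη, one_mul]))
        (fun η hη => hTiff.mpr (by rw [mul_pow, inv_pow, hTiff.mp hη₀T, hTiff.mp hη, inv_one, one_mul]))
        (fun η _ => inv_mul_cancel_left₀ hη₀0 η) (fun η _ => mul_inv_cancel_left₀ hη₀0 η)
        (fun η _ => rfl)
    have hsum : ((T.card : ℕ) : ZMod p) • ψ s + r s (sumT ψ) = sumT ψ := by
      show _ + r s (∑ η ∈ T, ψ (t η)) = ∑ η ∈ T, ψ (t η)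
      rw [map_sum, Nat.cast_smul_eq_nsmul, ← Finset.sum_const, ← Finset.sum_add_distrib]
      conv_rhs => rw [← hperm]
      exact Finset.sum_congr rfl fun η hη => by rw [← hkey η hη, hA hψ s (t η)]
    show ψ s + (r s (((T.card : ℕ) : ZMod p)⁻¹ • sumT ψ) - ((T.card : ℕ) : ZMod p)⁻¹ • sumT ψ) = 0
    have hneg : r s (sumT ψ) - sumT ψ = -(((T.card : ℕ) : ZMod p) • ψ s) := by
      rw [eq_neg_iff_add_eq_zero, ← sub_eq_zero.mpr hsum]; abel
    rw [map_smul, ← smul_sub, hneg, smul_neg, inv_smul_smul₀ hcard, add_neg_cancel]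
  have hcorrA : ∀ ψ ∈ A, corr ψ ∈ cocycleSub r := fun ψ hψ => by
    refine add_mem (hA hψ) fun g h => ?_
    show r (g * h) _ - _ = r g _ - _ + r g (r h _ - _)
    rw [map_mul, Module.End.mul_apply, map_sub]; abel
  -- the Frobenius value
  obtain ⟨φ, hφ⟩ := exists_frobenius_teichmuller L
  have hTeich : ∀ {u : PadicAlgCl p}, u ^ residueCard L = u → u ≠ 0 →
      u ^ (residueCard L - 1) = 1 := fun {u} hu hu0 => mul_left_cancel₀ hu0 (by
    rw [← pow_succ', mul_one, Nat.sub_add_cancel (one_lt_residueCard _).le, hu])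
  have hfixW : ∀ s : G p, (∀ u : PadicAlgCl p, u ^ (residueCard L - 1) = 1 → s u = u) → s ∈ I := by
    intro s hs
    rw [hI, B.W_eq]
    intro w hw
    induction hw using IntermediateField.adjoin_induction with
    | mem u hu =>
      rcases eq_or_ne u 0 with rfl | hu0
      · exact map_zero s
      · exact hs u (hTeich hu.2 hu0)
    | algebraMap c => exact s.commutes c
    | add x y _ _ hx hy => rw [map_add, hx, hy]
    | inv x _ hx => rw [map_inv₀, hx]
    | mul x y _ _ hx hy => rw [map_mul, hx, hy]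
  let WI : Submodule (ZMod p) W :=
    { carrier := {X | ∀ s ∈ I, r s X = X}
      zero_mem' := fun s _ => map_zero _
      add_mem' := fun {a b} ha hb s hs => by rw [map_add, ha s hs, hb s hs]
      smul_mem' := fun c a ha s hs => by rw [map_smul, ha s hs] }
  have hconj : ∀ s ∈ I, φ⁻¹ * s * φ ∈ I := by
    intro s hs
    refine hfixW _ fun u hu => ?_
    have hφu : φ u ∈ B.W := by
      rw [B.W_eq, hφ u hu]
      exact pow_mem (IntermediateField.subset_adjoin ℚ_[p] {x | x ∈ L ∧ x ^ residueCard L = x} ⟨mem_of_pow_residueCard_sub_one L hu, by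
        rw [← Nat.sub_add_cancel (one_lt_residueCard L).le, pow_succ, hu, one_mul]⟩) p
    rw [AlgEquiv.mul_apply, AlgEquiv.mul_apply, hI.mp hs _ hφu]
    exact φ.symm_apply_apply u
  have hval : ∀ ψ ∈ A, corr ψ φ ∈ WI := by
    intro ψ hψ s hs
    have h1 := hcorrA ψ hψ s φ
    rw [hcorr ψ hψ s hs, zero_add] at h1
    have h2 := hcorrA ψ hψ φ (φ⁻¹ * s * φ)
    rw [hcorr ψ hψ _ (hconj s hs), map_zero, add_zero, ← mul_assoc, ← mul_assoc, mul_inv_cancel,
      one_mul] at h2
    rw [← h1, h2]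
  let δ : WI →ₗ[ZMod p] WI := ((r φ).comp WI.subtype - WI.subtype).codRestrict WI fun X => by
    refine sub_mem (fun s hs => ?_) X.2
    rw [LinearMap.comp_apply, ← Module.End.mul_apply, ← map_mul,
      show s * φ = φ * (φ⁻¹ * s * φ) by group, map_mul, Module.End.mul_apply]
    exact congrArg (r φ) (X.2 _ (hconj s hs))
  let f : A →ₗ[ZMod p] WI ⧸ LinearMap.range δ :=
    (LinearMap.range δ).mkQ.comp
      ((((LinearMap.proj φ).comp corr).domRestrict A).codRestrict WI fun ψ => hval ψ.1 ψ.2)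
  have hdecomp : ∀ g : G p, ∃ (i : ℕ) (s : G p), s ∈ I ∧ g = φ ^ i * s := by
    intro g
    obtain ⟨i, hi⟩ := exists_pow_prime_pow L g
    refine ⟨i, (φ ^ i)⁻¹ * g, hfixW _ fun u hu => ?_, by group⟩
    have hpow : ∀ n : ℕ, (φ ^ n) u = u ^ p ^ n := by
      intro n
      induction n with
      | zero => simp
      | succ n ih =>
        rw [pow_succ', AlgEquiv.mul_apply, ih, map_pow, hφ u hu, ← pow_mul, ← pow_succ']
    rw [AlgEquiv.mul_apply, hi u hu, ← hpow]
    exact (φ ^ i).symm_apply_apply u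
  refine le_trans (finrank_map_le_add A (LinearMap.range (coboundary r))
    (LinearMap.range (coboundary r)).mkQ f ?_
    (d := finrank (ZMod p) (fixedSub r)) ?_) ?_
  · intro ψ hψ0
    obtain ⟨Y, hY⟩ := (Submodule.Quotient.mk_eq_zero _).mp (show
      (LinearMap.range δ).mkQ ⟨corr ψ.1 φ, hval ψ.1 ψ.2⟩ = 0 from hψ0)
    have hYv : r φ (Y : W) - (Y : W) = corr ψ.1 φ := congrArg Subtype.val hY
    have hpowφ : ∀ n : ℕ, corr ψ.1 (φ ^ n) = r (φ ^ n) (Y : W) - (Y : W) := by
      intro n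
      induction n with
      | zero => simp [cocycle_one (hcorrA ψ.1 ψ.2)]
      | succ n ih =>
        rw [pow_succ, hcorrA ψ.1 ψ.2, ih, ← hYv, map_mul, Module.End.mul_apply, map_sub]; abel
    refine ⟨(Y : W) - ((T.card : ℕ) : ZMod p)⁻¹ • sumT ψ.1, funext fun g => ?_⟩
    obtain ⟨i, s, hs, rfl⟩ := hdecomp g
    have h1 : corr ψ.1 (φ ^ i * s) = r (φ ^ i * s) (Y : W) - (Y : W) := by
      rw [hcorrA ψ.1 ψ.2, hcorr ψ.1 ψ.2 s hs, map_zero, add_zero, hpowφ, map_mul,
        Module.End.mul_apply, Y.2 s hs]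
    change ψ.1 (φ ^ i * s) + (r (φ ^ i * s) (((T.card : ℕ) : ZMod p)⁻¹ • sumT ψ.1) -
      ((T.card : ℕ) : ZMod p)⁻¹ • sumT ψ.1) = _ at h1
    show r (φ ^ i * s) (_ - _) - (_ - _) = ψ.1 (φ ^ i * s)
    rw [map_sub, eq_sub_iff_add_eq.mpr h1]
    abel
  · refine le_trans (Submodule.finrank_le _) ?_
    have h1 := LinearMap.finrank_range_add_finrank_ker δ
    have h2 := Submodule.finrank_quotient_add_finrank (LinearMap.range δ)
    have h3 : finrank (ZMod p) (LinearMap.ker δ) ≤ finrank (ZMod p) (fixedSub r) := by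
      refine LinearMap.finrank_le_finrank_of_injective
        (f := (WI.subtype.domRestrict (LinearMap.ker δ)).codRestrict (fixedSub r) fun X g => ?_)
        fun X Y h => Subtype.ext (Subtype.ext (congrArg Subtype.val h :))
      have hfix : r φ ((X : WI) : W) = ((X : WI) : W) :=
        sub_eq_zero.mp (congrArg Subtype.val (LinearMap.mem_ker.mp X.2))
      have hpow : ∀ n : ℕ, r (φ ^ n) ((X : WI) : W) = ((X : WI) : W) := by
        intro n
        induction n with
        | zero => simp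
        | succ n ih => rw [pow_succ, map_mul, Module.End.mul_apply, hfix, ih]
      obtain ⟨i, s, hs, rfl⟩ := hdecomp g
      show r (φ ^ i * s) ((X : WI) : W) = ((X : WI) : W)
      rw [map_mul, Module.End.mul_apply, (X : WI).2 s hs, hpow]
    omega
  · have : (A ⊓ LinearMap.range (coboundary r)).map (LinearMap.range (coboundary r)).mkQ = ⊥ := by
      rw [← le_bot_iff, Submodule.map_le_iff_le_comap, Submodule.comap_bot, Submodule.ker_mkQ]
      exact inf_le_right
    rw [this, finrank_bot, zero_add]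

/-- **The tame Kummer count.** -/
theorem finrank_map_kummer_le [Finite W] (hN : N ≠ 0) (hN2 : 2 ∣ N)
    (hr : ∀ h ∈ (tameField p N).fixingSubgroup, r h = 1)
    (B : RamifiedBasis (tameField p N)) {τ : G p} (hτ : ∀ w ∈ B.W, τ w = w)
    (A : Submodule (ZMod p) ((G p) → W)) [FiniteDimensional (ZMod p) A] (hA : A ≤ cocycleSub r)
    (hAlev : A ≤ levelSub W N (tameExp p))
    (L : IntermediateField ℚ_[p] (PadicAlgCl p)) [FiniteDimensional ℚ_[p] L]
    (hLn : ∀ σ : G p, ∀ x ∈ L, σ x ∈ L) (hKL : tameField p N ≤ L)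
    (hlev : ∀ ψ ∈ A, ∀ g, ∀ s ∈ L.fixingSubgroup, ψ (g * s) = ψ g) (d : ℕ → ℕ)
    (hd : ∀ i ≤ p, i ≠ 1 → letI := ZMod.algebra (Residue (tameField p N)) p
      finrank (Residue (tameField p N)) (tameEigen r N τ (tameExp p + i)) ≤ d i) :
    finrank (ZMod p) (A.map (LinearMap.range (coboundary r)).mkQ) ≤
      finrank (ZMod p) (fixedSub r) + ∑ i ∈ (Finset.range (p + 1)).erase 1, d i := by
  suffices H : ∀ k, k ≤ p + 1 → ∀ A' : Submodule (ZMod p) ((G p) → W), A' ≤ A →
      A' ≤ levelSub W N (tameExp p + (p + 1 - k)) →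
      finrank (ZMod p) (A'.map (LinearMap.range (coboundary r)).mkQ) ≤
        finrank (ZMod p) (fixedSub r) +
          ∑ i ∈ ((Finset.range (p + 1)).erase 1).filter (p + 1 - k ≤ ·), d i by
    refine (H (p + 1) le_rfl A le_rfl (by simpa using hAlev)).trans (le_of_eq ?_)
    simp
  intro k
  induction k with
  | zero =>
    intro _ A' hA' hlv
    have := Submodule.finiteDimensional_of_le hA'
    refine (finrank_map_top_le hN hN2 hr A' (hA'.trans hA) ?_ L hLn hKL
      fun ψ hψ => hlev ψ (hA' hψ)).trans (Nat.le_add_right _ _)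
    simpa [← add_assoc] using hlv
  | succ k ih =>
    intro hk A' hA' hlv
    have := Submodule.finiteDimensional_of_le hA'
    set i := p + 1 - (k + 1) with hi
    have hik : p + 1 - k = i + 1 := by omega
    by_cases hi1 : i = 1
    · have hpe : tameExp p + 1 = p * p := by
        rw [tameExp, Nat.sub_add_cancel (Nat.one_le_pow _ _ hp.out.pos), pow_two]
      refine (ih (by omega) A' hA' ?_).trans (Nat.add_le_add_left (Finset.sum_le_sum_of_subset ?_) _)
      · refine hlv.trans ?_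
        rw [hik, hi1, ← add_assoc, hpe]
        exact levelSub_le_succ hp.out.ne_zero le_rfl
      · intro x hx
        simp only [Finset.mem_filter] at hx ⊢
        exact ⟨hx.1, by omega⟩
    · have hip : i ≤ p := by omega
      have hndvd : ¬ p ∣ tameExp p + i := by
        intro h
        have hpe : tameExp p + 1 = p * p := by
          rw [tameExp, Nat.sub_add_cancel (Nat.one_le_pow _ _ hp.out.pos), pow_two]
        rcases Nat.eq_zero_or_pos i with h0 | h0
        · exact not_dvd_tameExp (p := p) (by simpa [h0] using h)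
        · have h2 : p ∣ tameExp p + 1 := ⟨p, hpe⟩
          have := Nat.dvd_sub h h2
          rw [show tameExp p + i - (tameExp p + 1) = i - 1 by omega] at this
          have := Nat.le_of_dvd (by omega) this
          omega
      have hnot : i ∈ ((Finset.range (p + 1)).erase 1).filter (i ≤ ·) := by simp [hi1]; omega
      have hstep := finrank_map_layer_le (LinearMap.range (coboundary r)).mkQ hN hN2 hr B hτ A'
        (hA'.trans hA) hndvd (by omega) hlv (hd i hip hi1)
      refine hstep.trans ?_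
      have h' := ih (by omega) (A' ⊓ levelSub W N (tameExp p + i + 1)) (inf_le_left.trans hA')
        (by rw [hik, ← add_assoc]; exact inf_le_right)
      rw [← Finset.add_sum_erase _ _ hnot]
      refine (Nat.add_le_add_right h' (d i)).trans ?_
      have hset : ((Finset.range (p + 1)).erase 1).filter (p + 1 - k ≤ ·) =
          (((Finset.range (p + 1)).erase 1).filter (i ≤ ·)).erase i := by
        ext x
        simp only [Finset.mem_erase, Finset.mem_filter, Finset.mem_range]
        constructor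
        · rintro ⟨h1, h2⟩
          exact ⟨by omega, h1, by omega⟩
        · rintro ⟨h1, h2, h3⟩
          exact ⟨h2, by omega⟩
      rw [hset]
      omega

end FermatLib.CFT.Fontaine
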