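import Fermat.Agent.CFT.TameFlat
import Fermat.Agent.CFT.TameCount
import Fermat.Agent.MLT.Ad.Basic
import Fermat.Prelude.Def_ExtEndgame_ProductionDatum

/-!
# Flat adjoint cocycles at `p`

An adjoint cocycle is flat at `p` when the extension of `ρ` by `ρ` it defines has a finite flat
model. Finitely many of them share a Fontaine-small field containing any given `K_N`.
-/

set_option autoImplicit false

noncomputable section

open CategoryTheory groupCohomology Module ExtCitation
open scoped Matrix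

namespace FermatLib.CFT.FlatTangent

open FermatLib.MLT.Ad FermatLib.CFT.Fontaine

local notation "Γℚ" => (AlgebraicClosure ℚ ≃ₐ[ℚ] AlgebraicClosure ℚ)

variable {k : Type} [Field k] (ρ : Γℚ →* Matrix (Fin 2) (Fin 2) k)

/-- The extension of `ρ` by `ρ` defined by `c`. -/
def extAct (c : Γℚ → Matrix (Fin 2) (Fin 2) k) (σ : Γℚ) :
    (Fin 2 → k) × (Fin 2 → k) →+ (Fin 2 → k) × (Fin 2 → k) where
  toFun x := (ρ σ *ᵥ x.1, ρ σ *ᵥ x.2 + (c σ * ρ σ) *ᵥ x.1)
  map_zero' := by simp
  map_add' x y := by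
    refine Prod.ext ?_ ?_
    · exact Matrix.mulVec_add (ρ σ) x.1 y.1
    · simp only [Prod.fst_add, Prod.snd_add, Matrix.mulVec_add]
      abel

variable (p : ℕ) [Fact p.Prime] [Algebra (ZMod p) k]

/-- A continuous adjoint cocycle whose extension has a finite flat model at `p`. -/
structure IsFlatCocycle (c : Γℚ → traceZero k) : Prop where
  cocycle : ∀ g h, c (g * h) = (adRep ρ p).ρ g (c h) + c g
  level : ∃ F : IntermediateField ℚ (AlgebraicClosure ℚ), FiniteDimensional ℚ F ∧
    ∀ s ∈ F.fixingSubgroup, ρ s = 1 ∧ ∀ g, c (g * s) = c g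
  hasModel : Galois.FlatModel.HasModelAt p ((Fin 2 → k) × (Fin 2 → k))
    fun σ x => extAct ρ (fun τ => (c τ).1) σ x

/-- The adjoint module of the decomposition group at `p`. -/
abbrev locAdjoint : Rep (ZMod p) (primeLocalGaloisGroup (pPrime p)) :=
  Rep.res (primeLocalToGlobal (pPrime p)) (adRep ρ p)

/-- The span of the localisations at `p` of the classes of flat cocycles. -/
def flatClasses : Submodule (ZMod p) (H1 (locAdjoint ρ p)) :=
  Submodule.span (ZMod p) {x | ∃ c : cocycles₁ (adRep ρ p),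
    IsFlatCocycle ρ p (fun g => c g) ∧
    (groupCohomology.map (primeLocalToGlobal (pPrime p)) (𝟙 (locAdjoint ρ p)) 1).hom
      ((H1π (adRep ρ p)).hom c) = x}

/-- The conjugation action of the decomposition group, as a homomorphism. -/
def localAd : (PadicAlgCl p ≃ₐ[ℚ_[p]] PadicAlgCl p) →* Module.End (ZMod p) (traceZero k) :=
  (adRepr ρ p).comp (localGaloisToGlobal p)

lemma localAd_apply (g : PadicAlgCl p ≃ₐ[ℚ_[p]] PadicAlgCl p) (X : traceZero k) :
    (localAd ρ p g X).1 = ρ (localGaloisToGlobal p g) * X.1 * ρ (localGaloisToGlobal p g)⁻¹ := rfl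

variable {ρ p}

/-- The restriction of a flat cocycle to the decomposition group is a cocycle. -/
lemma IsFlatCocycle.local_mem {c : Γℚ → traceZero k} (hc : IsFlatCocycle ρ p c) :
    (fun g => c (localGaloisToGlobal p g)) ∈ cocycleSub (localAd ρ p) := fun g h => by
  show c (localGaloisToGlobal p (g * h)) = c (localGaloisToGlobal p g) + _
  rw [map_mul, hc.cocycle, add_comm]
  rfl

omit [Fact p.Prime] [Algebra (ZMod p) k] in
lemma hasModelAt_piFin {M : Type} [AddCommGroup M] (n : ℕ) (acts : Fin n → Γℚ → M → M)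
    (h : ∀ j, Galois.FlatModel.HasModelAt p M (acts j)) :
    Galois.FlatModel.HasModelAt p (Fin n → M) fun σ x j => acts j σ (x j) := by
  induction n with
  | zero => exact Galois.FlatModel.HasModel.of_subsingleton
  | succ r ih =>
    let e : M × (Fin r → M) ≃+ (Fin (r + 1) → M) :=
      { Fin.consEquiv (fun _ => M) with
        map_add' := fun x y => by
          funext i
          refine Fin.cases ?_ (fun j => ?_) i <;> simp }
    refine ((h 0).prod (ih (fun j => acts j.succ) fun j => h j.succ)).congr e fun σ x => ?_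
    funext i
    refine Fin.cases ?_ (fun j => ?_) i <;> simp [e]

/-- **A common small field.** -/
theorem exists_small_common [Finite k] {n : ℕ} (c : Fin n → Γℚ → traceZero k)
    (hc : ∀ j, IsFlatCocycle ρ p (c j)) (hn : n ≠ 0) {N : ℕ} (hN : N ≠ 0) (hN2 : 2 ∣ N) :
    ∃ L : IntermediateField ℚ_[p] (PadicAlgCl p), FiniteDimensional ℚ_[p] L ∧
      tameField p N ≤ L ∧ (∀ τ : PadicAlgCl p ≃ₐ[ℚ_[p]] PadicAlgCl p, ∀ x ∈ L, τ x ∈ L) ∧
      (∀ τ ∈ L.fixingSubgroup, ρ (localGaloisToGlobal p τ) = 1 ∧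
        ∀ j, c j (localGaloisToGlobal p τ) = 0) ∧
      ∀ B : RamifiedBasis L, B.IsSmall := by
  classical
  have : Finite (Fin n → (Fin 2 → k) × (Fin 2 → k)) := inferInstance
  obtain ⟨L, h1, h2, h3, h4, h5⟩ := exists_small_field (p := p) (N := N)
    (hasModelAt_piFin n (fun j σ x => extAct ρ (fun τ => (c j τ).1) σ x) fun j => (hc j).hasModel)
    hN hN2
  refine ⟨L, h1, h2, h3, fun τ hτ => ?_, h5⟩
  set σ := localGaloisToGlobal p τ
  have key : ∀ (j : Fin n) (x : (Fin 2 → k) × (Fin 2 → k)),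
      extAct ρ (fun τ => (c j τ).1) σ x = x := fun j x => by
    simpa using congrFun (h4 τ hτ (Pi.single j x)) j
  have hρ : ρ σ = 1 := by
    refine Matrix.ext_of_mulVec_single fun i => ?_
    rw [Matrix.one_mulVec]
    have h : ρ σ *ᵥ Pi.single i 1 + (_ * ρ σ) *ᵥ 0 = Pi.single i 1 :=
      congrArg Prod.snd (key ⟨0, Nat.pos_of_ne_zero hn⟩ (0, Pi.single i 1))
    rwa [Matrix.mulVec_zero, add_zero] at h
  refine ⟨hρ, fun j => Subtype.ext (Matrix.ext_of_mulVec_single fun i => ?_)⟩
  have h : ρ σ *ᵥ 0 + ((c j σ).1 * ρ σ) *ᵥ Pi.single i 1 = 0 :=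
    congrArg Prod.snd (key j (Pi.single i 1, 0))
  rw [Matrix.mulVec_zero, zero_add, hρ, mul_one] at h
  rw [ZeroMemClass.coe_zero, Matrix.zero_mulVec]
  exact h

end FermatLib.CFT.FlatTangent

end
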