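import Fermat.Prelude.Def_ExtCitation_KummerBridge
import Fermat.Prelude.Def_GaloisRep_CompletionBridge
import Fermat.Prelude.Def_GroupCohomology_ContinuousH2
import Mathlib.NumberTheory.Multiplicity
import Mathlib.NumberTheory.Padics.Hensel
import Mathlib.RepresentationTheory.Homological.GroupCohomology.Hilbert90
import Mathlib.RingTheory.RootsOfUnity.AlgebraicallyClosed

/-!
# Cyclotomic cocycles of the local Galois group at `p`

Kummer theory over `ℚ_p`: the continuous cocycles of the absolute Galois group of `ℚ_p` with values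
in `ℤ/p(1)` lie in a space spanned by three functions.
-/

set_option autoImplicit false

noncomputable section

open groupCohomology

namespace FermatLib.CFT.OrdTangent

local notation "Qbar" => AlgebraicClosure ℚ

variable (p : ℕ) [hp : Fact p.Prime]

local notation "Gp" => (PadicAlgCl p ≃ₐ[ℚ_[p]] PadicAlgCl p)

/-- The mod `p` cyclotomic character of the local Galois group. -/
def locOmega (g : Gp) : ZMod p := ((ExtCitation.cycloChar p (localGaloisToGlobal p g) : (ZMod p)ˣ) :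
  ZMod p)

/-- Continuous cocycles with values in `ℤ/p(1)`. -/
def IsKummerCocycle (c : Gp → ZMod p) : Prop :=
  IsLevelConstant₁ (localGaloisToGlobal p) c ∧ ∀ g h, c (g * h) = locOmega p g * c h + c g

variable {p}

/-- Roots of unity in `PadicAlgCl p` are moved by the cyclotomic character. -/
theorem apply_eq_pow_locOmega {z : PadicAlgCl p} (hz : z ^ p = 1) (g : Gp) :
    g z = z ^ (locOmega p g).val := by
  have : NeZero p := ⟨hp.out.ne_zero⟩
  obtain ⟨η, hη⟩ := HasEnoughRootsOfUnity.exists_primitiveRoot Qbar p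
  have hη' : IsPrimitiveRoot (padicEmbedding p η) p :=
    hη.map_of_injective (padicEmbedding p).toRingHom.injective
  obtain ⟨i, -, rfl⟩ := hη'.eq_pow_of_pow_eq_one hz
  have key : g (padicEmbedding p η) = padicEmbedding p η ^ (locOmega p g).val := by
    rw [← padicEmbedding_localGaloisToGlobal, ← map_pow (padicEmbedding p)]
    exact congrArg (padicEmbedding p)
      (modularCyclotomicCharacter.spec Qbar (n := p) (ExtCitation.card_rootsOfUnity_eq_self p)
        (localGaloisToGlobal p g : Qbar ≃+* Qbar) (t := (hη.isUnit hp.out.ne_zero).unit)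
        (by rw [mem_rootsOfUnity']; exact hη.pow_eq_one))
  rw [map_pow, key, ← pow_mul, mul_comm, pow_mul]

/-- Two exponents give the same power of a primitive root iff they agree modulo `p`. -/
lemma pow_eq_pow_of_cast_eq {z : PadicAlgCl p} (hz : z ^ p = 1) {i j : ℕ}
    (h : (i : ZMod p) = j) : z ^ i = z ^ j := by
  rw [pow_eq_pow_mod i hz, pow_eq_pow_mod j hz, (ZMod.natCast_eq_natCast_iff' i j p).mp h]

/-- Units congruent to one modulo `p²` are `p`-th powers. -/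
theorem exists_pow_eq_of_congr_one (hp2 : p ≠ 2) {u : ℤ_[p]}
    (hu : (p : ℤ_[p]) ^ 2 ∣ u - 1) : ∃ v : ℤ_[p], v ^ p = u := by
  obtain ⟨y, hy⟩ := hu
  have hp1 : 1 ≤ p := hp.out.one_lt.le
  have hppos : (0 : ℝ) < ‖(p : ℤ_[p])‖ := norm_pos_iff.mpr (Nat.cast_ne_zero.mpr hp.out.ne_zero)
  have hplt : ‖(p : ℤ_[p])‖ < 1 := by
    rw [PadicInt.norm_p]; exact inv_lt_one_of_one_lt₀ (by exact_mod_cast hp.out.one_lt)
  set a : ℤ_[p] := 1 + p * y with ha
  have h3 : (p : ℤ_[p]) ^ 3 ∣ a ^ p - u := by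
    have hp3 : 3 ≤ p := by have := hp.out.two_le; omega
    have hsum : a ^ p - u =
        ∑ m ∈ Finset.Ico 2 (p + 1), (p * y) ^ m * ((p.choose m : ℕ) : ℤ_[p]) := by
      have e : u = 1 + (p : ℤ_[p]) ^ 2 * y := by rw [← hy]; ring
      rw [ha, add_comm, add_pow, e,
        ← Finset.sum_range_add_sum_Ico _ (by omega : 2 ≤ p + 1)]
      simp [Finset.sum_range_succ]
      ring
    rw [hsum]
    refine Finset.dvd_sum fun m hm => ?_
    rw [Finset.mem_Ico] at hm
    rcases (by omega : m < p ∨ m = p) with h | h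
    · obtain ⟨d, hd⟩ := hp.out.dvd_choose_self (by omega : m ≠ 0) h
      rw [hd, Nat.cast_mul]
      exact ((pow_dvd_pow (p : ℤ_[p]) (by omega : 3 ≤ m + 1)).trans
        (dvd_of_eq (pow_succ _ m))).trans
          (mul_dvd_mul ((pow_dvd_pow_of_dvd (dvd_mul_right _ y) m)) (dvd_mul_right _ _))
    · rw [h]
      exact ((pow_dvd_pow (p : ℤ_[p]) hp3).trans
        (pow_dvd_pow_of_dvd (dvd_mul_right _ y) p)).trans (dvd_mul_right _ _)
  have ha1 : ‖a‖ = 1 := by
    rw [ha, PadicInt.norm_add_eq_max_of_ne, norm_one, max_eq_left]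
    · rw [norm_mul]; exact (mul_le_of_le_one_right hppos.le (PadicInt.norm_le_one y)).trans hplt.le
    · rw [norm_one, norm_mul]
      exact ne_of_gt ((mul_le_of_le_one_right hppos.le (PadicInt.norm_le_one y)).trans_lt hplt)
  obtain ⟨v, hv, -⟩ := hensels_lemma (R := ℤ_[p])
    (F := Polynomial.X ^ p - Polynomial.C u) (a := a) (by
      simp only [map_sub, map_pow, Polynomial.aeval_X, Polynomial.aeval_C, Algebra.algebraMap_self,
        RingHom.id_apply, Polynomial.derivative_X_pow,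
        Polynomial.derivative_C, sub_zero, map_mul, map_natCast]
      obtain ⟨z, hz⟩ := h3
      rw [hz, norm_mul, norm_pow, norm_mul, norm_pow, ha1, one_pow, mul_one]
      calc ‖(p : ℤ_[p])‖ ^ 3 * ‖z‖ ≤ ‖(p : ℤ_[p])‖ ^ 3 :=
            mul_le_of_le_one_right (by positivity) (PadicInt.norm_le_one z)
        _ < ‖(p : ℤ_[p])‖ ^ 2 := pow_lt_pow_right_of_lt_one₀ hppos hplt (by norm_num))
  exact ⟨v, by simpa [sub_eq_zero] using hv⟩

/-- The classes of `ℚ_p` modulo `p`-th powers are represented by `p ^ i (1 + p) ^ j`. -/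
theorem exists_eq_pow_mul (hp2 : p ≠ 2) {x : ℚ_[p]} (hx : x ≠ 0) :
    ∃ (t : ℚ_[p]) (i j : ℕ), t ≠ 0 ∧ x = t ^ p * ((p : ℚ_[p]) ^ i * (1 + (p : ℚ_[p])) ^ j) := by
  have hp0 : (p : ℚ_[p]) ≠ 0 := Nat.cast_ne_zero.mpr hp.out.ne_zero
  have hv : ‖x‖ = (p : ℝ) ^ (-x.valuation) := Padic.norm_eq_zpow_neg_valuation hx
  set u : ℚ_[p] := x * (p : ℚ_[p]) ^ (-x.valuation) with hu
  have hu1 : ‖u‖ = 1 := by
    rw [hu, norm_mul, norm_zpow, Padic.norm_p, hv, inv_zpow', neg_neg, ← zpow_add₀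
      (by exact_mod_cast hp.out.ne_zero), neg_add_cancel, zpow_zero]
  set U : ℤ_[p] := ⟨u, hu1.le⟩
  have hUn : ‖U‖ = 1 := hu1
  have hU0 : PadicInt.toZMod U ≠ 0 := fun h => by
    rw [← RingHom.mem_ker, PadicInt.ker_toZMod, IsLocalRing.mem_maximalIdeal,
      PadicInt.mem_nonunits, hUn] at h
    exact lt_irrefl _ h
  set w := U ^ (p - 1)
  obtain ⟨y, hy⟩ : (p : ℤ_[p]) ∣ w - 1 := by
    rw [← Ideal.mem_span_singleton, ← PadicInt.maximalIdeal_eq_span_p, ← PadicInt.ker_toZMod,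
      RingHom.mem_ker, map_sub, map_pow, map_one, ZMod.pow_card_sub_one_eq_one hU0, sub_self]
  set j := (PadicInt.toZMod (-y)).val with hj
  have hj2 : (p : ℤ_[p]) ∣ y + j := by
    rw [← Ideal.mem_span_singleton, ← PadicInt.maximalIdeal_eq_span_p, ← PadicInt.ker_toZMod,
      RingHom.mem_ker, map_add, map_natCast, hj, ZMod.natCast_zmod_val, map_neg, add_neg_cancel]
  have hcong : (p : ℤ_[p]) ^ 2 ∣ w * (1 + p) ^ j - 1 := by
    obtain ⟨z, hz⟩ := hj2
    obtain ⟨r, hr⟩ : (p : ℤ_[p]) ^ 2 ∣ (1 + p) ^ j - (1 + (p : ℤ_[p]) * j) := by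
      obtain ⟨r, hr⟩ := sq_dvd_add_pow_sub_sub (p : ℤ_[p]) 1 j
      refine ⟨r, ?_⟩
      rw [one_pow, one_pow, one_mul] at hr
      linear_combination hr
    refine ⟨z + j * y + r * w, ?_⟩
    linear_combination (1 + (p : ℤ_[p]) * j) * hy + w * hr + (p : ℤ_[p]) * hz
  obtain ⟨v, hv'⟩ := exists_pow_eq_of_congr_one hp2 hcong
  have hu0 : u ≠ 0 := fun h => by simp [h] at hu1
  have hv0 : (v : ℚ_[p]) ≠ 0 := by
    intro h
    have h1 := congrArg (fun z : ℤ_[p] => (z : ℚ_[p])) hv'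
    simp only [PadicInt.coe_pow, h, zero_pow hp.out.ne_zero, PadicInt.coe_mul, PadicInt.coe_add,
      PadicInt.coe_one, PadicInt.coe_natCast, w] at h1
    rcases mul_eq_zero.mp h1.symm with h2 | h2
    · exact hu0 (eq_zero_of_pow_eq_zero h2)
    · have h4 : (1 : ℚ_[p]) + p = 0 := eq_zero_of_pow_eq_zero h2
      have h5 : ((1 + p : ℕ) : ℚ_[p]) = 0 := by push_cast; exact h4
      exact absurd (Nat.cast_eq_zero.mp h5) (by omega)
  have hkey : u = (u / v) ^ p * (1 + (p : ℚ_[p])) ^ j := by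
    have h1 := congrArg (fun z : ℤ_[p] => (z : ℚ_[p])) hv'
    simp only [PadicInt.coe_pow, PadicInt.coe_mul, PadicInt.coe_add, PadicInt.coe_one,
      PadicInt.coe_natCast, w] at h1
    change (v : ℚ_[p]) ^ p = u ^ (p - 1) * _ at h1
    rw [div_pow, div_mul_eq_mul_div, eq_div_iff (pow_ne_zero p hv0), h1]
    have hpow : u ^ p = u ^ (p - 1) * u := by
      rw [← pow_succ, Nat.sub_add_cancel hp.out.one_lt.le]
    rw [hpow]
    ring
  refine ⟨(p : ℚ_[p]) ^ (x.valuation / p) * (u / v), (x.valuation % p).toNat, j,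
    mul_ne_zero (zpow_ne_zero _ hp0) (div_ne_zero hu0 hv0), ?_⟩
  have hi : (p : ℚ_[p]) ^ x.valuation =
      ((p : ℚ_[p]) ^ (x.valuation / p)) ^ p * (p : ℚ_[p]) ^ (x.valuation % p).toNat := by
    rw [← zpow_natCast (_ ^ (x.valuation / p : ℤ)), ← zpow_mul, ← zpow_natCast (p : ℚ_[p]),
      Int.toNat_of_nonneg (Int.emod_nonneg _ (by exact_mod_cast hp.out.ne_zero)),
      ← zpow_add₀ hp0]
    congr 1
    exact (Int.ediv_mul_add_emod x.valuation p).symm
  have hxu : x = u * (p : ℚ_[p]) ^ x.valuation := by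
    rw [hu, mul_assoc, ← zpow_add₀ hp0, neg_add_cancel, zpow_zero, mul_one]
  have e : u * (p : ℚ_[p]) ^ x.valuation =
      ((p : ℚ_[p]) ^ (x.valuation / p) * (u / v)) ^ p *
        ((p : ℚ_[p]) ^ (x.valuation % p).toNat * (1 + (p : ℚ_[p])) ^ j) := by
    rw [hi, mul_pow]
    linear_combination
      ((p : ℚ_[p]) ^ (x.valuation / p)) ^ p * (p : ℚ_[p]) ^ (x.valuation % p).toNat * hkey
  exact hxu.trans e

/-- Hilbert 90: a Kummer cocycle is given by a `p`-th root of an element of `ℚ_p`. -/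
theorem exists_root_of_isKummerCocycle {ζ : PadicAlgCl p} (hζ : IsPrimitiveRoot ζ p)
    {c : Gp → ZMod p} (hc : IsKummerCocycle p c) :
    ∃ β : PadicAlgCl p, β ≠ 0 ∧ (∀ g, g β = ζ ^ (c g).val * β) ∧
      β ^ p ∈ Set.range (algebraMap ℚ_[p] (PadicAlgCl p)) := by
  obtain ⟨⟨F, hF, hlev⟩, hcoc⟩ := hc
  let bF := Module.finBasis ℚ F
  let s : Set (PadicAlgCl p) :=
    insert ζ (Set.range fun i => padicEmbedding p (bF i : Qbar))
  let L₁ := IntermediateField.adjoin ℚ_[p] s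
  have : FiniteDimensional ℚ_[p] L₁ := by
    have : Finite s := ((Set.finite_range _).insert ζ).to_subtype
    exact IntermediateField.finiteDimensional_adjoin fun x _ => Algebra.IsIntegral.isIntegral x
  let L := IntermediateField.normalClosure ℚ_[p] L₁ (PadicAlgCl p)
  have hs : ∀ x ∈ s, x ∈ L := fun x hx =>
    L₁.le_normalClosure (IntermediateField.subset_adjoin _ _ hx)
  have : FiniteDimensional ℚ_[p] L := normalClosure.is_finiteDimensional _ _ _
  have : Normal ℚ_[p] L := normalClosure.normal _ _ _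
  have hLfix : ∀ g h : Gp, (∀ x ∈ L, g x = h x) → c g = c h := by
    intro g h hgh
    have hone : localGaloisToGlobal p (h⁻¹ * g) ∈ F.fixingSubgroup := by
      rw [IntermediateField.mem_fixingSubgroup_iff]
      intro x hx
      have hb : ∀ i, localGaloisToGlobal p (h⁻¹ * g) (bF i : Qbar) = bF i := fun i => by
        apply (padicEmbedding p).toRingHom.injective
        show padicEmbedding p _ = padicEmbedding p _
        rw [padicEmbedding_localGaloisToGlobal, AlgEquiv.mul_apply,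
          hgh _ (hs _ (Set.mem_insert_of_mem _ ⟨i, rfl⟩))]
        exact h.symm_apply_apply _
      have hx' := congrArg F.val (bF.sum_repr ⟨x, hx⟩)
      simp only [map_sum] at hx'
      change ∑ i, bF.repr ⟨x, hx⟩ i • (bF i : Qbar) = x at hx'
      rw [← hx', map_sum]
      exact Finset.sum_congr rfl fun i _ => by rw [Algebra.smul_def, map_mul, AlgEquiv.commutes, hb]
    have := hlev h (h⁻¹ * g) hone
    rwa [mul_inv_cancel_left] at this
  have hζ0 : ζ ≠ 0 := hζ.ne_zero hp.out.ne_zero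
  have hζL : ζ ∈ L := hs _ (Set.mem_insert _ _)
  let Z : (↥L)ˣ := Units.mk0 ⟨ζ, hζL⟩ fun h => hζ0 (congrArg Subtype.val h)
  let lift : (L ≃ₐ[ℚ_[p]] L) → Gp := fun σ => σ.liftNormal (PadicAlgCl p)
  have hlift : ∀ σ (x : L), lift σ (x : PadicAlgCl p) = (σ x : PadicAlgCl p) := fun σ x =>
    AlgEquiv.liftNormal_commutes σ (PadicAlgCl p) x
  let f : (L ≃ₐ[ℚ_[p]] L) → (↥L)ˣ := fun σ => Z ^ (c (lift σ)).val
  have hval : ∀ σ, ((f σ : ↥L) : PadicAlgCl p) = ζ ^ (c (lift σ)).val := fun σ => by simp [f, Z]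
  letI : SMul (L ≃ₐ[ℚ_[p]] L) (↥L)ˣ :=
    AlgEquiv.instMulDistribMulActionUnits.toSMul
  have hf : IsMulCocycle₁ f := by
    intro σ τ
    refine Units.ext (Subtype.ext ?_)
    have hmul : c (lift (σ * τ)) = c (lift σ * lift τ) := hLfix _ _ fun x hx => by
      rw [AlgEquiv.mul_apply, show x = ((⟨x, hx⟩ : L) : PadicAlgCl p) from rfl, hlift, hlift,
        hlift]
      rfl
    show ((f (σ * τ) : ↥L) : PadicAlgCl p) =
      ((σ (f τ : ↥L) : ↥L) : PadicAlgCl p) * ((f σ : ↥L) : PadicAlgCl p)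
    rw [hval, hval, ← hlift, hval, map_pow, apply_eq_pow_locOmega hζ.pow_eq_one, ← pow_mul,
      ← pow_add, hmul, hcoc]
    refine pow_eq_pow_of_cast_eq hζ.pow_eq_one ?_
    simp
  obtain ⟨β, hβ⟩ := groupCohomology.isMulCoboundary₁_of_isMulCocycle₁_of_aut_to_units f hf
  set b : PadicAlgCl p := ((β : ↥L) : PadicAlgCl p)
  have hact : ∀ g : Gp, g b = ζ ^ (c g).val * b := by
    intro g
    let σ := g.restrictNormal L
    have hσ : ∀ x : L, (σ x : PadicAlgCl p) = g x := fun x => AlgEquiv.restrictNormal_commutes g L x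
    have hcg : c g = c (lift σ) := hLfix _ _ fun x hx => by
      rw [show x = ((⟨x, hx⟩ : L) : PadicAlgCl p) from rfl, hlift, hσ]
    have h1 := congrArg (fun u : (↥L)ˣ => ((u : ↥L) : PadicAlgCl p)) (eq_mul_of_div_eq (hβ σ))
    change ((σ (β : ↥L) : ↥L) : PadicAlgCl p) = ((f σ : ↥L) : PadicAlgCl p) * b at h1
    rwa [hσ, hval, ← hcg] at h1
  refine ⟨b, fun h => β.ne_zero (Subtype.ext h), hact, ?_⟩
  rw [InfiniteGalois.mem_range_algebraMap_iff_fixed]
  intro g
  rw [map_pow, hact, mul_pow, ← pow_mul, mul_comm (c g).val, pow_mul, hζ.pow_eq_one, one_pow,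
    one_mul]

/-- **Kummer theory over `ℚ_p`**: three functions span the cyclotomic cocycles. -/
theorem exists_span_kummer (hp2 : p ≠ 2) :
    ∃ c₁ c₂ : Gp → ZMod p, ∀ c, IsKummerCocycle p c →
      ∃ a i j : ZMod p, ∀ g, c g = a * (locOmega p g - 1) + i * c₁ g + j * c₂ g := by
  have : NeZero p := ⟨hp.out.ne_zero⟩
  obtain ⟨ζ, hζ⟩ := HasEnoughRootsOfUnity.exists_primitiveRoot (PadicAlgCl p) p
  have hζ0 : ζ ≠ 0 := hζ.ne_zero hp.out.ne_zero
  have hroot : ∀ b : ℚ_[p], b ≠ 0 → ∃ (β : PadicAlgCl p) (cb : Gp → ZMod p), β ≠ 0 ∧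
      β ^ p = algebraMap ℚ_[p] (PadicAlgCl p) b ∧ ∀ g, g β = ζ ^ (cb g).val * β := by
    intro b hb
    obtain ⟨β, hβ⟩ := IsAlgClosed.exists_pow_nat_eq (algebraMap ℚ_[p] (PadicAlgCl p) b) hp.out.pos
    have hβ0 : β ≠ 0 := fun h => by
      rw [h, zero_pow hp.out.ne_zero] at hβ
      exact hb ((map_eq_zero _).mp hβ.symm)
    have hex : ∀ g : Gp, ∃ k : ZMod p, g β = ζ ^ k.val * β := by
      intro g
      obtain ⟨i, hi, hi'⟩ := hζ.eq_pow_of_pow_eq_one (ξ := g β / β) (by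
        rw [div_pow, ← map_pow, hβ, AlgEquiv.commutes, div_self ((map_ne_zero _).mpr hb)])
      exact ⟨i, by rw [ZMod.val_cast_of_lt hi, hi', div_mul_cancel₀ _ hβ0]⟩
    choose cb hcb using hex
    exact ⟨β, cb, hβ0, hβ, hcb⟩
  have hp0 : (p : ℚ_[p]) ≠ 0 := Nat.cast_ne_zero.mpr hp.out.ne_zero
  have hp1 : (1 : ℚ_[p]) + p ≠ 0 := by
    exact_mod_cast (Nat.cast_ne_zero (R := ℚ_[p])).mpr (by omega : 1 + p ≠ 0)
  obtain ⟨β₁, c₁, hβ₁0, hβ₁, hc₁⟩ := hroot _ hp0
  obtain ⟨β₂, c₂, hβ₂0, hβ₂, hc₂⟩ := hroot _ hp1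
  refine ⟨c₁, c₂, fun c hc => ?_⟩
  obtain ⟨β, hβ0, hβ, b, hb⟩ := exists_root_of_isKummerCocycle hζ hc
  have hb0 : b ≠ 0 := fun h => by
    rw [h, map_zero] at hb
    exact pow_ne_zero p hβ0 hb.symm
  obtain ⟨t, i, j, ht, hbt⟩ := exists_eq_pow_mul hp2 hb0
  set T := algebraMap ℚ_[p] (PadicAlgCl p) t
  have hT : T ≠ 0 := (map_ne_zero _).mpr ht
  set D := T * β₁ ^ i * β₂ ^ j with hD
  have hD0 : D ≠ 0 := mul_ne_zero (mul_ne_zero hT (pow_ne_zero _ hβ₁0)) (pow_ne_zero _ hβ₂0)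
  have hDp : D ^ p = β ^ p := by
    rw [← hb, hbt, hD]
    simp only [map_mul, map_pow, ← hβ₁, ← hβ₂, T]
    simp only [mul_pow, ← pow_mul, mul_comm p]
    ring
  obtain ⟨k, -, hk⟩ := hζ.eq_pow_of_pow_eq_one (ξ := β / D) (by
    rw [div_pow, hDp, div_self (pow_ne_zero p hβ0)])
  have hβD : β = ζ ^ k * D := by rw [hk, div_mul_cancel₀ _ hD0]
  refine ⟨k, i, j, fun g => ?_⟩
  have hgD : g D = ζ ^ ((c₁ g).val * i + (c₂ g).val * j) * D := by
    simp only [hD, T, map_mul, map_pow, AlgEquiv.commutes, hc₁, hc₂, mul_pow, ← pow_mul, pow_add]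
    ring
  have h1 : ζ ^ ((locOmega p g).val * k + ((c₁ g).val * i + (c₂ g).val * j)) =
      ζ ^ ((c g).val + k) := by
    have h2 := hβ g
    conv_lhs at h2 => rw [hβD, map_mul, map_pow, apply_eq_pow_locOmega hζ.pow_eq_one, hgD,
      ← pow_mul, ← mul_assoc, ← pow_add]
    conv_rhs at h2 => rw [hβD, ← mul_assoc, ← pow_add]
    exact mul_right_cancel₀ hD0 h2
  have h3 := congrArg (fun n : ℕ => (n : ZMod p))
    (hζ.pow_inj (Nat.mod_lt _ hp.out.pos) (Nat.mod_lt _ hp.out.pos)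
      ((pow_eq_pow_mod _ hζ.pow_eq_one).symm.trans (h1.trans (pow_eq_pow_mod _ hζ.pow_eq_one))))
  simp only [ZMod.natCast_mod, Nat.cast_add, Nat.cast_mul, ZMod.natCast_zmod_val] at h3
  linear_combination -h3

end FermatLib.CFT.OrdTangent
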