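import Fermat.Agent.CFT.TameCount
import Mathlib.LinearAlgebra.Eigenspace.Basic
import Mathlib.LinearAlgebra.Dual.Lemmas
import Mathlib.LinearAlgebra.FreeModule.Finite.Matrix

/-!
# The tame eigenspaces met by cocycles of Kummer level `e`

With `η = τ ϖ / ϖ` of order `e = p² - 1` the eigenvalues met for `i = 2, …, p` and their conjugates
under Frobenius are distinct and different from `1`, so twice their multiplicity is at most the
dimension minus that of the fixed vectors.
-/

set_option autoImplicit false

noncomputable section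

namespace FermatLib.CFT.Fontaine

open Module

local notation "G" p => PadicAlgCl p ≃ₐ[ℚ_[p]] PadicAlgCl p

variable {p : ℕ} [hp : Fact p.Prime] {N : ℕ}

/-- On inertia the exponent on `μ_p` is the `(p + 1)`-st power of `τ ϖ / ϖ`. -/
theorem algebraMap_muExp (hN : N ≠ 0) (hN2 : 2 ∣ N) (B : RamifiedBasis (tameField p N)) {τ : G p}
    (hτ : ∀ w ∈ B.W, τ w = w) :
    letI := ZMod.algebra (Residue (tameField p N)) p
    algebraMap (ZMod p) (Residue (tameField p N)) (muExp τ) =
      toResidue N (τ (tameRoot p) / tameRoot p) ^ (p + 1) := by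
  letI := ZMod.algebra (Residue (tameField p N)) p
  have : NeZero p := ⟨hp.out.ne_zero⟩
  have hnorm := tameField_normal (p := p) hN hN2 τ
  set a := (muExp τ).val with ha
  set v := (zetaP p - 1) / tameRoot p ^ (p + 1) with hv
  set η := τ (tameRoot p) / tameRoot p with hη
  have hvK : v ∈ tameField p N :=
    div_mem (sub_mem (zetaP_mem hN hN2) (one_mem _)) (pow_mem tameRoot_mem _)
  have hv1 : ‖v‖ = 1 := by
    rw [hv, norm_div, norm_zetaP_sub_one, norm_pow,
      div_self (pow_ne_zero _ (norm_ne_zero_iff.mpr tameRoot_ne_zero))]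
  have hζ1 : zetaP p - 1 ≠ 0 := sub_ne_zero.mpr zetaP_ne_one
  have hηK : η ∈ tameField p N := div_mem (hnorm _ tameRoot_mem) tameRoot_mem
  have hη1 : ‖η‖ = 1 := norm_conj_div τ
  have hτζ : τ (zetaP p) = zetaP p ^ a := by
    have h1 := apply_rootPow τ 1
    rw [mul_one] at h1
    rw [rootPow, rootPow, ZMod.val_one, pow_one] at h1
    exact h1
  have key : τ v * η ^ (p + 1) = (∑ i ∈ Finset.range a, zetaP p ^ i) * v := by
    have hτϖ : τ (tameRoot p) ^ (p + 1) ≠ 0 :=
      pow_ne_zero _ (by simpa using tameRoot_ne_zero (p := p))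
    rw [hv, map_div₀, map_pow, map_sub, map_one, hτζ, hη, div_pow, div_mul_div_cancel₀ hτϖ,
      geom_sum_eq zetaP_ne_one]
    field_simp
  have hsum : toResidue N (∑ i ∈ Finset.range a, zetaP p ^ i) = (a : Residue (tameField p N)) := by
    have hmem : ∑ i ∈ Finset.range a, zetaP p ^ i ∈ tameField p N :=
      sum_mem fun i _ => pow_mem (zetaP_mem hN hN2) i
    have hle : ‖∑ i ∈ Finset.range a, zetaP p ^ i‖ ≤ 1 :=
      IsUltrametricDist.norm_sum_le_of_forall_le_of_nonneg zero_le_one fun j _ => by
        rw [norm_pow, norm_zetaP, one_pow]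
    rw [toResidue_of_mem hmem hle, ← map_natCast (Ideal.Quotient.mk (openBall (tameField p N)))]
    refine (residue_eq_iff _ _ _).mpr ?_
    show ‖∑ i ∈ Finset.range a, zetaP p ^ i - (((a : integers (tameField p N)) : tameField p N) : PadicAlgCl p)‖ < 1
    push_cast
    rw [show (a : PadicAlgCl p) = ∑ _i ∈ Finset.range a, (1 : PadicAlgCl p) by simp,
      ← Finset.sum_sub_distrib]
    refine lt_of_le_of_lt (IsUltrametricDist.norm_sum_le_of_forall_le_of_nonneg
      (norm_nonneg (zetaP p - 1)) fun i _ => ?_) ?_
    · rw [← geom_sum_mul, norm_mul]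
      refine mul_le_of_le_one_left (norm_nonneg _) ?_
      exact IsUltrametricDist.norm_sum_le_of_forall_le_of_nonneg zero_le_one fun j _ => by
        rw [norm_pow, norm_zetaP, one_pow]
    · rw [norm_zetaP_sub_one]
      exact pow_lt_one₀ (norm_nonneg _) norm_tameRoot_lt_one (Nat.succ_ne_zero p)
  have hv0 : toResidue N v ≠ 0 := by
    rw [Ne, toResidue_eq_zero_iff hvK hv1.le, hv1]
    exact lt_irrefl _
  have h := congrArg (toResidue N) key
  rw [toResidue_mul (hnorm _ hvK) (by rw [norm_algEquiv, hv1]) (pow_mem hηK _)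
      (by rw [norm_pow, hη1, one_pow]), toResidue_apply_of_fix B hτ hnorm hvK hv1.le,
    toResidue_pow hηK hη1.le, toResidue_mul (sum_mem fun i _ => pow_mem (zetaP_mem hN hN2) i)
      (IsUltrametricDist.norm_sum_le_of_forall_le_of_nonneg zero_le_one fun j _ => by
        rw [norm_pow, norm_zetaP, one_pow]) hvK hv1.le, hsum, mul_comm _ (toResidue N v)] at h
  rw [mul_left_cancel₀ hv0 h, ha, ← map_natCast (algebraMap (ZMod p) (Residue (tameField p N))),
    ZMod.natCast_zmod_val]

/-- The residue of a primitive `e`-th root of unity of `K_N` is one. -/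
lemma isPrimitiveRoot_toResidue {η : PadicAlgCl p} (hη : η ∈ tameField p N)
    (hprim : IsPrimitiveRoot η (tameExp p)) : IsPrimitiveRoot (toResidue N η) (tameExp p) := by
  have hn : ‖η‖ = 1 := norm_eq_one_of_pow_eq_one tameExp_pos.ne' hprim.pow_eq_one
  have hone : toResidue (p := p) N 1 = 1 := by
    rw [toResidue_of_mem (one_mem _) (by simp)]
    exact map_one _
  refine IsPrimitiveRoot.mk_of_lt _ tameExp_pos ?_ fun l hl0 hle h1 => ?_
  · rw [← toResidue_pow hη hn.le, hprim.pow_eq_one, hone]
  · rw [← toResidue_pow hη hn.le, ← hone, toResidue_eq_iff (pow_mem hη l)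
      (by rw [norm_pow, hn, one_pow]) (one_mem _) (by simp)] at h1
    refine hprim.pow_ne_one_of_pos_of_lt hl0.ne' hle ?_
    exact eq_of_pow_eq_one_of_close not_dvd_tameExp
      (by rw [← pow_mul, mul_comm, pow_mul, hprim.pow_eq_one, one_pow]) (one_pow _) h1

section count

variable {F : Type} [Field F] {E : Type} [AddCommGroup E] [Module F E] [FiniteDimensional F E]

/-- Eigenspaces for distinct eigenvalues. -/
lemma sum_finrank_eigenspace_le (Ψ : Module.End F E) {ι : Type} (s : Finset ι) (c : ι → F)
    (hc : Set.InjOn c s) : ∑ i ∈ s, finrank F (Ψ.eigenspace (c i)) ≤ finrank F E := by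
  classical
  suffices H : ∀ t : Finset F, ∑ a ∈ t, finrank F (Ψ.eigenspace a) ≤
      finrank F (⨆ a ∈ t, Ψ.eigenspace a : Submodule F E) by
    rw [← Finset.sum_image hc (f := fun a => finrank F (Ψ.eigenspace a))]
    exact (H _).trans (Submodule.finrank_le _)
  intro t
  induction t using Finset.induction_on with
  | empty => simp
  | insert a t ha ih =>
    rw [Finset.sum_insert ha, Finset.iSup_insert]
    have hdis := (Module.End.eigenspaces_iSupIndep Ψ).disjoint_biSup (x := a)
      (y := (t : Set F)) (by simpa using ha)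
    have e := Submodule.finrank_sup_add_finrank_inf_eq (Ψ.eigenspace a)
      (⨆ b ∈ t, Ψ.eigenspace b)
    rw [show Ψ.eigenspace a ⊓ (⨆ b ∈ t, Ψ.eigenspace b) = ⊥ from hdis.eq_bot, finrank_bot,
      add_zero] at e
    omega

end count

variable {W : Type} [AddCommGroup W] [Module (ZMod p) W]

/-- The count over an abstract residue field. -/
theorem two_mul_sum_finrank_eigen_le [Finite W] {F : Type} [Field F] [Finite F] [CharP F p]
    [Algebra (ZMod p) F] {A A' : Module.End (ZMod p) W} (hAA' : A * A' = 1) (hA'A : A' * A = 1)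
    {μ : ZMod p} {η : F} (hη : IsPrimitiveRoot η (tameExp p))
    (hμ : algebraMap (ZMod p) F μ = η ^ (p + 1)) (hA0 : ∀ X, A X = μ • X → X = 0)
    (U : Submodule (ZMod p) W) (hU : ∀ X ∈ U, A X = X)
    (E : ℕ → Submodule F (Dual (ZMod p) W →ₗ[ZMod p] F))
    (hE : ∀ i, ∀ θ ∈ E i, ∀ l, θ (μ • l.comp A') = η ^ (tameExp p + i) * θ l) :
    2 * ∑ i ∈ (Finset.range (p + 1)).erase 1, finrank F (E i) + finrank (ZMod p) U ≤
      finrank (ZMod p) W := by
  classical
  have : Module.Finite (ZMod p) W := Module.Finite.of_finite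
  have hp3 := hp.out.two_le
  have he : tameExp p + 1 = p * p := by
    rw [tameExp, Nat.sub_add_cancel (Nat.one_le_pow _ _ hp.out.pos), pow_two]
  have hpp : 2 * p ≤ p * p := Nat.mul_le_mul_right p hp3
  have hη0 : η ≠ 0 := hη.ne_zero tameExp_pos.ne'
  let Ψ : Module.End F (Dual (ZMod p) W →ₗ[ZMod p] F) :=
    { toFun := fun θ => θ.comp (LinearMap.lcomp (ZMod p) (ZMod p) A')
      map_add' := fun _ _ => rfl
      map_smul' := fun _ _ => rfl }
  let D : ℕ → ℕ := fun i => finrank F (E i)
  have hsub : ∀ i, ∀ θ ∈ E i,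
      θ ∈ Ψ.eigenspace (η ^ (tameExp p + i - (p + 1))) := by
    intro i θ hθ
    rw [Module.End.mem_eigenspace_iff]
    refine LinearMap.ext fun l => ?_
    have h1 := hE i θ hθ l
    rw [map_smul, Algebra.smul_def, hμ,
      show tameExp p + i = (p + 1) + (tameExp p + i - (p + 1)) by omega, pow_add η (p + 1) (tameExp p + i - (p + 1)),
      mul_assoc] at h1
    rw [LinearMap.smul_apply, smul_eq_mul]
    exact mul_left_cancel₀ (pow_ne_zero _ hη0) h1
  -- Frobenius conjugate eigenvalues
  have hconj : ∀ c : F, finrank F (Ψ.eigenspace c) ≤ finrank F (Ψ.eigenspace (c ^ p)) := by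
    intro c
    let fr := (frobenius F p).toAddMonoidHom.toZModLinearMap p
    have : Finite (Dual (ZMod p) W) := Finite.of_injective _ DFunLike.coe_injective
    have : Finite (Dual (ZMod p) W →ₗ[ZMod p] F) := Finite.of_injective _ DFunLike.coe_injective
    have hmem : ∀ θ : Ψ.eigenspace c, fr.comp θ.1 ∈ Ψ.eigenspace (c ^ p) := by
      intro θ
      rw [Module.End.mem_eigenspace_iff]
      refine LinearMap.ext fun l => ?_
      have h1 := LinearMap.congr_fun (Module.End.mem_eigenspace_iff.mp θ.2) l
      show (θ.1 (l.comp A')) ^ p = c ^ p * (θ.1 l) ^ p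
      rw [← mul_pow]
      exact congrArg (· ^ p) h1
    have hcard := Nat.card_le_card_of_injective (fun θ => (⟨fr.comp θ.1, hmem θ⟩ : Ψ.eigenspace (c ^ p)))
      fun θ θ' h => Subtype.ext (LinearMap.ext fun l =>
        frobenius_inj F p (LinearMap.congr_fun (congrArg Subtype.val h) l))
    rw [Module.natCard_eq_pow_finrank (K := F) (V := Ψ.eigenspace c),
      Module.natCard_eq_pow_finrank (K := F) (V := Ψ.eigenspace (c ^ p))] at hcard
    exact (Nat.pow_le_pow_iff_right Finite.one_lt_card).mp hcard
  -- the layer `i = 0`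
  have hD0 : D 0 = 0 := by
    have hM : Function.Injective fun X => μ • A' X - X := by
      intro X Y hXY
      simp only at hXY
      refine sub_eq_zero.mp (hA0 _ ?_)
      have h1 : μ • A' (X - Y) = X - Y := by
        rw [map_sub, smul_sub, sub_eq_sub_iff_sub_eq_sub]
        exact hXY
      have h2 := congrArg A h1
      rw [map_smul, ← Module.End.mul_apply, hAA', Module.End.one_apply] at h2
      exact h2.symm
    let e : W ≃ₗ[ZMod p] W := LinearEquiv.ofBijective (μ • A' - 1 : Module.End (ZMod p) W)
      ⟨hM, Finite.injective_iff_surjective.mp hM⟩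
    have : E 0 = ⊥ := by
      rw [eq_bot_iff]
      intro θ hθ
      refine (Submodule.mem_bot F).mpr (LinearMap.ext fun l => ?_)
      set m := l.comp (e.symm : W →ₗ[ZMod p] W) with hm
      have h1 := hE 0 θ hθ m
      rw [add_zero, hη.pow_eq_one, one_mul] at h1
      have h2 : l = μ • m.comp A' - m := by
        refine LinearMap.ext fun X => ?_
        conv_lhs => rw [← e.symm_apply_apply X]
        show m (μ • A' X - X) = _
        rw [map_sub, map_smul]
        rfl
      rw [h2, map_sub, h1, sub_self]
      rfl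
    show finrank F (E 0) = 0
    rw [this, finrank_bot]
  -- the fixed vectors
  have hfix : finrank (ZMod p) U ≤ finrank F (Ψ.eigenspace (1 : F)) := by
    let ι : (Dual (ZMod p) U →ₗ[ZMod p] F) →ₗ[F] Ψ.eigenspace (1 : F) :=
      { toFun := fun θ => ⟨θ.comp U.subtype.dualMap, by
          rw [Module.End.mem_eigenspace_iff]
          refine LinearMap.ext fun l => ?_
          show θ (U.subtype.dualMap (l.comp A')) = (1 : F) * θ (U.subtype.dualMap l)
          rw [one_mul]
          congr 1
          refine LinearMap.ext fun X => ?_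
          show l (A' (X : W)) = l (X : W)
          conv_lhs => rw [← hU X X.2]
          rw [← Module.End.mul_apply, hA'A, Module.End.one_apply]⟩
        map_add' := fun _ _ => rfl
        map_smul' := fun _ _ => rfl }
    have hι : Function.Injective ι := fun a b hab => LinearMap.ext fun l => by
      obtain ⟨l', rfl⟩ := LinearMap.dualMap_surjective_of_injective U.injective_subtype l
      exact LinearMap.congr_fun (congrArg Subtype.val hab) l'
    have h1 := LinearMap.finrank_le_finrank_of_injective hι
    rwa [Module.finrank_linearMap_self, Subspace.dual_finrank_eq] at h1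
  -- distinct exponents
  set S := ((Finset.range (p + 1)).erase 1).erase 0 with hS
  let x : Option (ℕ ⊕ ℕ) → ℕ := fun o => match o with
    | none => 0
    | some (.inl i) => tameExp p + i - (p + 1)
    | some (.inr i) => p * i - (p + 1)
  have hSi : ∀ i ∈ S, 2 ≤ i ∧ i ≤ p := by
    intro i hi
    simp only [hS, Finset.mem_erase, Finset.mem_range] at hi
    omega
  set T := Finset.insertNone (S.disjSum S) with hT
  have hrange : ∀ i ∈ S, p - 1 ≤ p * i - (p + 1) ∧ p * i - (p + 1) + (p + 1) ≤ p * p ∧
      p * i - (p + 1) + p + 1 = p * i := by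
    intro i hi
    obtain ⟨h2, hle⟩ := hSi i hi
    have a := Nat.mul_le_mul_left p h2
    have b := Nat.mul_le_mul_left p hle
    omega
  have hinj : Set.InjOn (fun o => η ^ x o) T := by
    have hlt : ∀ o ∈ T, x o < tameExp p := by
      rintro (_ | i | i) ho
      · exact tameExp_pos
      · have := hSi i (by simpa [hT] using ho)
        show tameExp p + i - (p + 1) < _
        omega
      · have := hrange i (by simpa [hT] using ho)
        show p * i - (p + 1) < _
        omega
    intro o ho o' ho' heq
    have hx := hη.pow_inj (hlt o ho) (hlt o' ho') heq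
    rcases o with _ | i | i <;> rcases o' with _ | j | j
    all_goals simp only [x] at hx
    · rfl
    · have := hSi j (by simpa [hT] using ho'); omega
    · have := hrange j (by simpa [hT] using ho'); omega
    · have := hSi i (by simpa [hT] using ho); omega
    · have := hSi i (by simpa [hT] using ho); have := hSi j (by simpa [hT] using ho')
      rw [show i = j by omega]
    · have := hSi i (by simpa [hT] using ho); have := hrange j (by simpa [hT] using ho'); omega
    · have := hrange i (by simpa [hT] using ho); omega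
    · have := hrange i (by simpa [hT] using ho); have := hSi j (by simpa [hT] using ho'); omega
    · have := hrange i (by simpa [hT] using ho); have := hrange j (by simpa [hT] using ho')
      rw [show i = j from Nat.eq_of_mul_eq_mul_left hp.out.pos (by omega)]
  have hpow : ∀ i ∈ S, (η ^ (tameExp p + i - (p + 1))) ^ p = η ^ (p * i - (p + 1)) := by
    intro i hi
    have h2 := hSi i hi
    have h3 := hrange i hi
    rw [← pow_mul, pow_eq_pow_mod _ hη.pow_eq_one]
    conv_rhs => rw [pow_eq_pow_mod _ hη.pow_eq_one]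
    congr 1
    have e1 : (tameExp p + i - (p + 1)) * p = tameExp p * (p - 1) + (p * i - (p + 1)) := by
      zify [show p + 1 ≤ tameExp p + i by omega, show p + 1 ≤ p * i by omega,
        show 1 ≤ p by omega]
      have he' : (tameExp p : ℤ) + 1 = p * p := by exact_mod_cast he
      linear_combination he'
    rw [e1, Nat.mul_add_mod]
  have hle1 : ∀ i, D i ≤ finrank F (Ψ.eigenspace (η ^ (tameExp p + i - (p + 1)))) := fun i =>
    Submodule.finrank_mono fun θ hθ => hsub i θ hθ
  have hkey := sum_finrank_eigenspace_le Ψ T (fun o => η ^ x o) hinj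
  rw [hT, Finset.sum_insertNone, Finset.sum_disjSum] at hkey
  simp only [x] at hkey
  rw [pow_zero] at hkey
  rw [Module.finrank_linearMap_self, Subspace.dual_finrank_eq] at hkey
  have hsum : ∑ i ∈ (Finset.range (p + 1)).erase 1, D i = ∑ i ∈ S, D i := by
    rw [hS, Finset.sum_erase _ hD0]
  have h1 := Finset.sum_le_sum (fun i (_ : i ∈ S) => hle1 i)
  have h2 : ∑ i ∈ S, finrank F (Ψ.eigenspace (η ^ (tameExp p + i - (p + 1)))) ≤
      ∑ i ∈ S, finrank F (Ψ.eigenspace (η ^ (p * i - (p + 1)))) :=
    Finset.sum_le_sum fun i hi => by rw [← hpow i hi]; exact hconj _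
  show 2 * ∑ i ∈ (Finset.range (p + 1)).erase 1, D i + _ ≤ _
  rw [hsum]
  omega

variable (r : (G p) →* Module.End (ZMod p) W)

/-- **The eigenspaces met.** -/
theorem two_mul_sum_finrank_tameEigen_le [Finite W] (hN : N ≠ 0) (hN2 : 2 ∣ N)
    (B : RamifiedBasis (tameField p N)) {τ : G p} (hτ : ∀ w ∈ B.W, τ w = w)
    (hprim : IsPrimitiveRoot (τ (tameRoot p) / tameRoot p) (tameExp p))
    (hA0 : ∀ X, r τ X = muExp τ • X → X = 0) (U : Submodule (ZMod p) W)
    (hU : ∀ X ∈ U, r τ X = X) :
    letI := ZMod.algebra (Residue (tameField p N)) p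
    2 * ∑ i ∈ (Finset.range (p + 1)).erase 1,
        finrank (Residue (tameField p N)) (tameEigen r N τ (tameExp p + i)) +
      finrank (ZMod p) U ≤ finrank (ZMod p) W := by
  letI := ZMod.algebra (Residue (tameField p N)) p
  letI : Field (Residue (tameField p N)) :=
    @Fintype.fieldOfDomain (Residue (tameField p N)) _ _ (Classical.decEq _) (Fintype.ofFinite _)
  exact two_mul_sum_finrank_eigen_le (F := Residue (tameField p N)) (A := r τ) (A' := r τ⁻¹)
    (by rw [← map_mul, mul_inv_cancel, map_one]) (by rw [← map_mul, inv_mul_cancel, map_one])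
    (isPrimitiveRoot_toResidue (div_mem (tameField_normal hN hN2 τ _ tameRoot_mem) tameRoot_mem)
      hprim) (algebraMap_muExp hN hN2 B hτ) hA0 U hU (fun i => tameEigen r N τ (tameExp p + i))
    fun i θ hθ l => hθ l

end FermatLib.CFT.Fontaine

end
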