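import Fermat.Agent.CFT.TameLayers
import Mathlib.GroupTheory.Index

/-!
# The tame character of a finite Galois extension of `ℚ_p`

For a normal `L` with totally ramified basis `B`, `tameChar` is the residue of `g π / π` on the
automorphisms fixing the unramified part. Its kernel has `p`-power image in `Gal(L/ℚ_p)`, its image
is cyclic, and Frobenius raises it to the `p`-th power. Hence a homomorphism killing the kernel and
of exponent `p² - 1` is trivial on the fixer of some `K_N`.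
-/

set_option autoImplicit false

noncomputable section

namespace FermatLib.CFT.Fontaine

local notation "G" p => PadicAlgCl p ≃ₐ[ℚ_[p]] PadicAlgCl p

variable {p : ℕ} [hp : Fact p.Prime] {L : IntermediateField ℚ_[p] (PadicAlgCl p)}

lemma norm_eq_one_of_near {z : PadicAlgCl p} (h : ‖z - 1‖ < 1) : ‖z‖ = 1 := by
  rw [show z = (z - 1) + 1 by ring, IsUltrametricDist.norm_add_eq_max_of_norm_ne_norm
    (by rw [norm_one]; exact h.ne), norm_one, max_eq_right h.le]

/-- Automorphisms fixing the unramified part do not move residues. -/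
lemma norm_apply_sub_lt (B : RamifiedBasis L) {g : G p} (hg : g ∈ B.W.fixingSubgroup)
    {x : PadicAlgCl p} (hx : x ∈ L) (hx1 : ‖x‖ ≤ 1) : ‖g x - x‖ < 1 := by
  obtain ⟨w, hw, -, hxw⟩ := B.residue x hx hx1
  rw [show g x - x = g (x - w) + -(x - w) by
    rw [map_sub, (IntermediateField.mem_fixingSubgroup_iff _ _).mp hg w hw]; ring]
  exact (IsUltrametricDist.norm_add_le_max _ _).trans_lt
    (max_lt (by rwa [norm_algEquiv]) (by rwa [norm_neg]))

lemma norm_div_pi (B : RamifiedBasis L) (g : G p) : ‖g B.π / B.π‖ = 1 := by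
  rw [norm_div, norm_algEquiv, div_self (norm_ne_zero_iff.mpr B.ne_zero)]

/-- The residue of `g π / π` as an element of the residue field. -/
def piResidue (B : RamifiedBasis L) (hLn : ∀ σ : G p, ∀ x ∈ L, σ x ∈ L) (g : G p) : Residue L :=
  Ideal.Quotient.mk (openBall L) ⟨⟨g B.π / B.π, div_mem (hLn g _ B.mem) B.mem⟩, (norm_div_pi B g).le⟩

lemma piResidue_eq_iff (B : RamifiedBasis L) (hLn : ∀ σ : G p, ∀ x ∈ L, σ x ∈ L) (g h : G p) :
    piResidue B hLn g = piResidue B hLn h ↔ ‖g B.π / B.π - h B.π / B.π‖ < 1 :=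
  residue_eq_iff L _ _

lemma piResidue_mul (B : RamifiedBasis L) (hLn : ∀ σ : G p, ∀ x ∈ L, σ x ∈ L) {g : G p}
    (hg : g ∈ B.W.fixingSubgroup) (h : G p) :
    piResidue B hLn (g * h) = piResidue B hLn g * piResidue B hLn h := by
  simp only [piResidue, ← map_mul]
  refine (residue_eq_iff L _ _).mpr ?_
  show ‖(g * h) B.π / B.π - g B.π / B.π * (h B.π / B.π)‖ < 1
  have hg0 : g B.π ≠ 0 := by simpa using B.ne_zero
  rw [AlgEquiv.mul_apply, show g (h B.π) / B.π - g B.π / B.π * (h B.π / B.π) =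
      g B.π / B.π * (g (h B.π / B.π) - h B.π / B.π) by
    rw [map_div₀, mul_sub, mul_comm (g B.π / B.π) (g (h B.π) / g B.π), div_mul_div_cancel₀ hg0],
    norm_mul, norm_div_pi, one_mul]
  exact norm_apply_sub_lt B hg (div_mem (hLn h _ B.mem) B.mem) (norm_div_pi B h).le

/-- The tame character. -/
def tameChar (B : RamifiedBasis L) (hLn : ∀ σ : G p, ∀ x ∈ L, σ x ∈ L) :
    B.W.fixingSubgroup →* Residue L where
  toFun g := piResidue B hLn g
  map_one' := by
    refine (residue_eq_iff L _ _).mpr ?_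
    show ‖(1 : G p) B.π / B.π - 1‖ < 1
    rw [AlgEquiv.one_apply, div_self B.ne_zero, sub_self, norm_zero]
    exact one_pos
  map_mul' g h := piResidue_mul B hLn g.2 h

lemma tameChar_eq_one_iff (B : RamifiedBasis L) (hLn : ∀ σ : G p, ∀ x ∈ L, σ x ∈ L)
    (g : B.W.fixingSubgroup) : tameChar B hLn g = 1 ↔ ‖(g : G p) B.π / B.π - 1‖ < 1 := by
  rw [← map_one (tameChar B hLn)]
  show piResidue B hLn g = piResidue B hLn ((1 : B.W.fixingSubgroup) : G p) ↔ _
  rw [piResidue_eq_iff, OneMemClass.coe_one, AlgEquiv.one_apply, div_self B.ne_zero]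

/-- An element of trivial tame character and of order prime to `p` on `L` is trivial on `L`. -/
theorem mem_fixingSubgroup_of_wild (B : RamifiedBasis L) {g : G p} (hg : g ∈ B.W.fixingSubgroup)
    (hLn : ∀ σ : G p, ∀ x ∈ L, σ x ∈ L) (hwild : ‖g B.π / B.π - 1‖ < 1) {n : ℕ} (hn : ¬ p ∣ n)
    (hgn : g ^ n ∈ L.fixingSubgroup) : g ∈ L.fixingSubgroup := by
  have hπ := norm_pos_iff.mpr B.ne_zero
  have hn0 : n ≠ 0 := fun h => hn (h ▸ dvd_zero p)
  have hnorm : ‖(n : PadicAlgCl p)‖ = 1 := by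
    rw [show (n : PadicAlgCl p) = algebraMap ℚ_[p] (PadicAlgCl p) n by simp, norm_padic_algebraMap,
      Padic.norm_natCast_eq_one_iff]
    exact (Nat.Prime.coprime_iff_not_dvd hp.out).mpr hn
  set S := ∑ k ∈ Finset.range n, (g ^ k) B.π
  have hnear : ∀ k, ‖(g ^ k) B.π - B.π‖ < ‖B.π‖ := by
    intro k
    have h1 : tameChar B hLn (⟨g, hg⟩ ^ k) = 1 := by
      rw [map_pow, (tameChar_eq_one_iff B hLn ⟨g, hg⟩).mpr hwild, one_pow]
    have h2 := (tameChar_eq_one_iff B hLn _).mp h1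
    rw [SubmonoidClass.coe_pow, div_sub_one B.ne_zero, norm_div, div_lt_one hπ] at h2
    exact h2
  set t := S / (n : PadicAlgCl p) with ht
  have htL : t ∈ L := div_mem (sum_mem fun k _ => hLn _ _ B.mem) (natCast_mem L n)
  have htsub : ‖t - B.π‖ < ‖B.π‖ := by
    rw [show t - B.π = (∑ k ∈ Finset.range n, ((g ^ k) B.π - B.π)) / (n : PadicAlgCl p) by
      rw [ht, Finset.sum_sub_distrib, Finset.sum_const, Finset.card_range, nsmul_eq_mul, sub_div,
        mul_div_cancel_left₀ _ (Nat.cast_ne_zero.mpr hn0)], norm_div, hnorm, div_one]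
    obtain ⟨k, -, hk⟩ := IsUltrametricDist.exists_norm_finsetSum_le_of_nonempty
      (Finset.nonempty_range_iff.mpr hn0) (fun k => (g ^ k) B.π - B.π)
    exact hk.trans_lt (hnear k)
  have htnorm : ‖t‖ = ‖B.π‖ := by
    rw [show t = (t - B.π) + B.π by ring, IsUltrametricDist.norm_add_eq_max_of_norm_ne_norm htsub.ne,
      max_eq_right htsub.le]
  have ht0 : t ≠ 0 := norm_pos_iff.mp (htnorm ▸ hπ)
  have hgS : g S = S := by
    have h1 : g S = ∑ k ∈ Finset.range n, (g ^ (k + 1)) B.π := by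
      rw [map_sum]
      exact Finset.sum_congr rfl fun k _ => by rw [pow_succ', AlgEquiv.mul_apply]
    have e1 := Finset.sum_range_succ' (fun k => (g ^ k) B.π) n
    have e2 := Finset.sum_range_succ (fun k => (g ^ k) B.π) n
    have e3 : (g ^ n) B.π = (g ^ 0) B.π := by
      rw [(IntermediateField.mem_fixingSubgroup_iff _ _).mp hgn _ B.mem]; rfl
    rw [h1]
    linear_combination e2 - e1 + e3
  have hgt : g t = t := by rw [ht, map_div₀, hgS, map_natCast]
  rw [IntermediateField.mem_fixingSubgroup_iff]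
  have happ : ∀ m : ℕ, ∀ x ∈ L, ‖x‖ ≤ 1 → ∃ s ∈ L, g s = s ∧ ‖x - s‖ ≤ ‖B.π‖ ^ m := by
    intro m
    induction m with
    | zero => exact fun x _ hx1 => ⟨0, zero_mem _, map_zero g, by simpa using hx1⟩
    | succ m ih =>
      intro x hx hx1
      obtain ⟨s, hs, hgs, hxs⟩ := ih x hx hx1
      have hy : (x - s) / t ^ m ∈ L := div_mem (sub_mem hx hs) (pow_mem htL m)
      have hy1 : ‖(x - s) / t ^ m‖ ≤ 1 := by
        rw [norm_div, norm_pow, htnorm, div_le_one (pow_pos hπ m)]; exact hxs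
      obtain ⟨w, hw, -, hyw⟩ := B.residue _ hy hy1
      refine ⟨s + w * t ^ m, add_mem hs (mul_mem (B.le hw) (pow_mem htL m)), ?_, ?_⟩
      · rw [map_add, map_mul, map_pow, hgs, hgt,
          (IntermediateField.mem_fixingSubgroup_iff _ _).mp hg w hw]
      · rw [show x - (s + w * t ^ m) = ((x - s) / t ^ m - w) * t ^ m by
          rw [sub_mul, div_mul_cancel₀ _ (pow_ne_zero _ ht0)]; ring,
          norm_mul, norm_pow, htnorm, pow_succ']
        refine mul_le_mul_of_nonneg_right ?_ (pow_nonneg hπ.le m)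
        rcases eq_or_ne ((x - s) / t ^ m - w) 0 with h0 | h0
        · rw [h0, norm_zero]; exact hπ.le
        obtain ⟨k, hk⟩ := B.value _ (sub_mem hy (B.le hw)) h0
        have hk1 : (0 : ℤ) < k := by
          rw [hk, ← zpow_zero ‖B.π‖] at hyw
          exact (zpow_lt_zpow_iff_right_of_lt_one₀ hπ B.lt_one).mp hyw
        rw [hk]
        conv_rhs => rw [← zpow_one ‖B.π‖]
        exact (zpow_le_zpow_iff_right_of_lt_one₀ hπ B.lt_one).mpr hk1
  have hsmall : ∀ x ∈ L, ‖x‖ ≤ 1 → g x = x := by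
    intro x hx hx1
    by_contra hne
    obtain ⟨m, hm⟩ := exists_pow_lt_of_lt_one (norm_pos_iff.mpr (sub_ne_zero.mpr hne)) B.lt_one
    obtain ⟨s, -, hgs, hxs⟩ := happ m x hx hx1
    refine absurd hm (not_lt.mpr ?_)
    rw [show g x - x = g (x - s) + -(x - s) by rw [map_sub, hgs]; ring]
    exact (IsUltrametricDist.norm_add_le_max _ _).trans (max_le (by rwa [norm_algEquiv]) (by rwa [norm_neg]))
  intro x hx
  rcases le_or_gt ‖x‖ 1 with h1 | h1
  · exact hsmall x hx h1
  · have h2 := hsmall x⁻¹ (inv_mem hx) (by rw [norm_inv]; exact inv_le_one_of_one_le₀ h1.le)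
    rw [map_inv₀] at h2
    exact inv_injective h2

/-- The kernel of the tame character has `p`-power image. -/
theorem exists_pow_mem_of_wild [FiniteDimensional ℚ_[p] L] (B : RamifiedBasis L) {g : G p}
    (hg : g ∈ B.W.fixingSubgroup) (hLn : ∀ σ : G p, ∀ x ∈ L, σ x ∈ L)
    (hwild : ‖g B.π / B.π - 1‖ < 1) : ∃ a : ℕ, g ^ p ^ a ∈ L.fixingSubgroup := by
  have : Finite ((G p) ⧸ L.fixingSubgroup) := by
    refine Finite.of_injective (β := L →ₐ[ℚ_[p]] PadicAlgCl p) (Quotient.lift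
      (fun g : G p => (g : PadicAlgCl p →ₐ[ℚ_[p]] PadicAlgCl p).comp L.val) fun a b hab => ?_) ?_
    · replace hab := QuotientGroup.leftRel_apply.mp hab
      rw [IntermediateField.mem_fixingSubgroup_iff] at hab
      refine AlgHom.ext fun x => ?_
      have h1 := hab x x.2
      rw [AlgEquiv.mul_apply] at h1
      show a (x : PadicAlgCl p) = b x
      conv_lhs => rw [← h1]
      exact a.apply_symm_apply _
    · intro x y
      induction x using Quotient.inductionOn with | h a => ?_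
      induction y using Quotient.inductionOn with | h b => ?_
      intro hab
      refine Quotient.sound (QuotientGroup.leftRel_apply.mpr ?_)
      rw [ IntermediateField.mem_fixingSubgroup_iff]
      intro x hx
      have h1 : a x = b x := DFunLike.congr_fun hab (⟨x, hx⟩ : L)
      rw [AlgEquiv.mul_apply, ← h1]
      exact a.symm_apply_apply x
  obtain ⟨m, hm, -, hgm⟩ := Subgroup.exists_pow_mem_of_index_ne_zero
    (H := L.fixingSubgroup) Subgroup.index_ne_zero_of_finite g
  obtain ⟨a, n, hn, rfl⟩ := Nat.exists_eq_pow_mul_and_not_dvd hm.ne' p hp.out.ne_one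
  have h2 : tameChar B hLn (⟨g, hg⟩ ^ p ^ a) = 1 := by
    rw [map_pow, (tameChar_eq_one_iff B hLn ⟨g, hg⟩).mpr hwild, one_pow]
  replace h2 := (tameChar_eq_one_iff B hLn _).mp h2
  rw [SubmonoidClass.coe_pow] at h2
  exact ⟨a, mem_fixingSubgroup_of_wild B (pow_mem hg _) hLn h2 hn (by rwa [← pow_mul])⟩

/-- The unramified part is normal. -/
lemma conj_mem_fixingSubgroup (B : RamifiedBasis L) (hLn : ∀ σ : G p, ∀ x ∈ L, σ x ∈ L) (σ : G p)
    {g : G p} (hg : g ∈ B.W.fixingSubgroup) : σ * g * σ⁻¹ ∈ B.W.fixingSubgroup := by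
  rw [IntermediateField.mem_fixingSubgroup_iff] at hg ⊢
  have hW : ∀ (τ : G p), ∀ w ∈ B.W, τ w ∈ B.W := by
    intro τ
    have hle : B.W ≤ B.W.comap (τ : PadicAlgCl p →ₐ[ℚ_[p]] PadicAlgCl p) := by
      conv_lhs => rw [B.W_eq, unramifiedPart]
      refine IntermediateField.adjoin_le_iff.mpr fun x hx => ?_
      show τ x ∈ B.W
      rw [B.W_eq]
      exact IntermediateField.subset_adjoin _ _ ⟨hLn τ x hx.1, by rw [← map_pow, hx.2]⟩
    exact fun w hw => hle hw
  intro w hw
  rw [AlgEquiv.mul_apply, AlgEquiv.mul_apply, hg _ (hW σ⁻¹ w hw)]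
  exact σ.apply_symm_apply w

/-- Conjugation by `σ` applies `σ` to the tame character. -/
lemma norm_conj_pi_sub_lt (B : RamifiedBasis L) (hLn : ∀ σ : G p, ∀ x ∈ L, σ x ∈ L) (σ : G p)
    {g : G p} (hg : g ∈ B.W.fixingSubgroup) :
    ‖(σ * g * σ⁻¹) B.π / B.π - σ (g B.π / B.π)‖ < 1 := by
  have hgi := hLn σ⁻¹ _ B.mem
  set x := σ⁻¹ B.π with hx
  have hσx : σ x = B.π := σ.apply_symm_apply B.π
  have hx0 : x ≠ 0 := fun h => B.ne_zero (by rw [← hσx, h, map_zero])
  rw [AlgEquiv.mul_apply, AlgEquiv.mul_apply, ← hx]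
  have hu : ‖x / B.π‖ = 1 := by
    rw [norm_div, hx, norm_algEquiv, div_self (norm_ne_zero_iff.mpr B.ne_zero)]
  have hg0 : g B.π ≠ 0 := by simpa using B.ne_zero
  have h1 : σ (g x) / B.π - σ (g B.π / B.π) =
      σ (g B.π / B.π * ((g (x / B.π) - x / B.π) / (x / B.π))) := by
    conv_lhs => rw [← hσx, ← map_div₀, ← map_sub]
    rw [hσx, map_div₀]
    congr 1
    have := B.ne_zero
    field_simp
  rw [h1, norm_algEquiv, norm_mul, norm_div_pi, one_mul, norm_div, hu, div_one]
  exact norm_apply_sub_lt B hg (div_mem hgi B.mem) hu.le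

/-- The kernel of the tame character is normal. -/
lemma wild_conj (B : RamifiedBasis L) (hLn : ∀ σ : G p, ∀ x ∈ L, σ x ∈ L) (σ : G p) {g : G p}
    (hg : g ∈ B.W.fixingSubgroup) (hwild : ‖g B.π / B.π - 1‖ < 1) :
    ‖(σ * g * σ⁻¹) B.π / B.π - 1‖ < 1 := by
  rw [← sub_add_sub_cancel _ (σ (g B.π / B.π))]
  refine (IsUltrametricDist.norm_add_le_max _ _).trans_lt (max_lt (norm_conj_pi_sub_lt B hLn σ hg) ?_)
  rwa [← map_one σ, ← map_sub, norm_algEquiv]

/-- Frobenius raises the tame character to the `p`-th power. -/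
theorem tameChar_frobenius [FiniteDimensional ℚ_[p] L] (B : RamifiedBasis L)
    (hLn : ∀ σ : G p, ∀ x ∈ L, σ x ∈ L) {φ : G p}
    (hφ : ∀ u : PadicAlgCl p, u ^ (residueCard L - 1) = 1 → φ u = u ^ p) (g : B.W.fixingSubgroup) :
    tameChar B hLn ⟨φ * g * φ⁻¹, conj_mem_fixingSubgroup B hLn φ g.2⟩ = tameChar B hLn g ^ p := by
  show piResidue B hLn (φ * g * φ⁻¹) = piResidue B hLn g ^ p
  simp only [piResidue, ← map_pow]
  refine (residue_eq_iff L _ _).mpr ?_
  show ‖(φ * (g : G p) * φ⁻¹) B.π / B.π - ((g : G p) B.π / B.π) ^ p‖ < 1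
  set z := (g : G p) B.π / B.π with hz
  have hzn : ‖z‖ = 1 := norm_div_pi B g
  rw [← sub_add_sub_cancel _ (φ z)]
  refine (IsUltrametricDist.norm_add_le_max _ _).trans_lt
    (max_lt (norm_conj_pi_sub_lt B hLn φ g.2) ?_)
  obtain ⟨u, -, hu1, huq, huz⟩ := exists_teichmuller L (div_mem (hLn g _ B.mem) B.mem) hzn.le
  have hφu : φ u = u ^ p := by
    rcases eq_or_ne u 0 with rfl | hu0
    · rw [map_zero, zero_pow hp.out.ne_zero]
    · refine hφ u (mul_left_cancel₀ hu0 ?_)
      rw [← pow_succ', mul_one, Nat.sub_add_cancel (one_lt_residueCard L).le, huq]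
  rw [show φ z - z ^ p = φ (z - u) + -(z ^ p - u ^ p) by rw [map_sub, hφu]; ring]
  rw [← hz] at huz
  refine (IsUltrametricDist.norm_add_le_max _ _).trans_lt (max_lt ?_ ?_)
  · rw [norm_algEquiv, norm_sub_rev]; exact huz
  · rw [norm_neg]
    refine lt_of_le_of_lt ?_ ((norm_sub_rev z u).trans_lt huz)
    rw [← geom_sum₂_mul, norm_mul]
    refine mul_le_of_le_one_left (norm_nonneg _) ?_
    refine IsUltrametricDist.norm_sum_le_of_forall_le_of_nonneg zero_le_one fun i _ => ?_
    rw [norm_mul, norm_pow, norm_pow, hzn, one_pow, one_mul]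
    exact pow_le_one₀ (norm_nonneg _) hu1

section Hom

variable {H : Type} [Group H]

/-- A homomorphism killing the wild part factors through the tame character. -/
lemma apply_eq_of_tameChar_eq (B : RamifiedBasis L) (hLn : ∀ σ : G p, ∀ x ∈ L, σ x ∈ L)
    (r : (G p) →* H)
    (hwild : ∀ g ∈ B.W.fixingSubgroup, ‖g B.π / B.π - 1‖ < 1 → r g = 1)
    (g h : B.W.fixingSubgroup) (he : tameChar B hLn g = tameChar B hLn h) : r g = r h := by
  have h1 : tameChar B hLn (h⁻¹ * g) = 1 := by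
    rw [map_mul, he, ← map_mul, inv_mul_cancel, map_one]
  have h2 := hwild _ (h⁻¹ * g).2 ((tameChar_eq_one_iff B hLn _).mp h1)
  rw [Subgroup.coe_mul, map_mul, InvMemClass.coe_inv, map_inv, inv_mul_eq_one] at h2
  exact h2.symm

/-- A homomorphism killing the wild part, of exponent `p² - 1` on inertia, is trivial on inertia
elements fixing `ϖ`. -/
theorem apply_eq_one_of_tame [FiniteDimensional ℚ_[p] L] (B : RamifiedBasis L)
    (hLn : ∀ σ : G p, ∀ x ∈ L, σ x ∈ L) (r : (G p) →* H) (hϖ : tameRoot p ∈ L)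
    (hwild : ∀ g ∈ B.W.fixingSubgroup, ‖g B.π / B.π - 1‖ < 1 → r g = 1)
    (hexp : ∀ g ∈ B.W.fixingSubgroup, r g ^ tameExp p = 1)
    {τ : G p} (hτ : τ ∈ B.W.fixingSubgroup)
    (hτη : IsPrimitiveRoot (τ (tameRoot p) / tameRoot p) (tameExp p))
    {h : G p} (hh : h ∈ B.W.fixingSubgroup) (hhϖ : h (tameRoot p) = tameRoot p) : r h = 1 := by
  classical
  let _ := Fintype.ofFinite (Residue L)
  let θ := (tameChar B hLn).toHomUnits
  have : Finite θ.range :=
    Finite.of_injective (fun x : θ.range => ((x : (Residue L)ˣ) : Residue L))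
      (Units.val_injective.comp Subtype.val_injective)
  have : IsCyclic θ.range := isCyclic_of_injective_ringHom
    ((Units.coeHom _).comp θ.range.subtype) (Units.val_injective.comp Subtype.val_injective)
  obtain ⟨⟨_, g₀, rfl⟩, hg₀⟩ := IsCyclic.exists_generator (α := θ.range)
  have hgen : ∀ g : B.W.fixingSubgroup, ∃ k : ℤ, tameChar B hLn g = tameChar B hLn (g₀ ^ k) := by
    intro g
    obtain ⟨k, hk⟩ := hg₀ ⟨_, g, rfl⟩
    refine ⟨k, ?_⟩
    have h1 : θ (g₀ ^ k) = θ g := by rw [map_zpow]; exact congrArg Subtype.val hk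
    exact (congrArg Units.val h1).symm
  -- the residue of `g ϖ / ϖ` only depends on the tame character
  set η : (G p) → PadicAlgCl p := fun g => g (tameRoot p) / tameRoot p with hη
  have hηroot : ∀ g, η g ^ tameExp p = 1 := fun g => root_div_pow_eq_one g
  have hηeq : ∀ a b : B.W.fixingSubgroup, tameChar B hLn a = tameChar B hLn b →
      η (a : G p) = η (b : G p) := by
    intro a b hab
    refine eq_of_pow_eq_one_of_close not_dvd_tameExp (hηroot _) (hηroot _) ?_
    set c := ((b⁻¹ * a : B.W.fixingSubgroup) : G p) with hc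
    have hc1 : ‖c B.π / B.π - 1‖ < 1 := by
      refine (tameChar_eq_one_iff B hLn (b⁻¹ * a)).mp ?_
      rw [map_mul, hab, ← map_mul, inv_mul_cancel, map_one]
    have hac : (a : G p) = (b : G p) * c := by simp [hc]
    obtain ⟨m, hm⟩ := B.value _ hϖ tameRoot_ne_zero
    set u := tameRoot p / B.π ^ m with hu
    have hπm : B.π ^ m ≠ 0 := zpow_ne_zero _ B.ne_zero
    have hu1 : ‖u‖ = 1 := by
      rw [hu, norm_div, norm_zpow, hm, div_self (zpow_ne_zero _ (norm_ne_zero_iff.mpr B.ne_zero))]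
    have huL : u ∈ L := div_mem hϖ (zpow_mem B.mem m)
    have hu0 : u ≠ 0 := norm_pos_iff.mp (by rw [hu1]; exact one_pos)
    -- `c ϖ / ϖ` is near `1`
    have hnear : ‖c (tameRoot p) / tameRoot p - 1‖ < 1 := by
      have e : c (tameRoot p) / tameRoot p = c u / u * (c B.π / B.π) ^ m := by
        have : tameRoot p = u * B.π ^ m := by rw [hu, div_mul_cancel₀ _ hπm]
        conv_lhs => rw [this]
        rw [map_mul, map_zpow₀, div_zpow, mul_div_mul_comm]
      have h1 : ‖c u / u - 1‖ < 1 := by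
        rw [div_sub_one hu0, norm_div, hu1, div_one]
        exact norm_apply_sub_lt B (b⁻¹ * a).2 huL hu1.le
      have hpownat : ∀ {z : PadicAlgCl p}, ‖z - 1‖ < 1 → ∀ n : ℕ, ‖z ^ n - 1‖ < 1 := by
        intro z hz n
        induction n with
        | zero => simp
        | succ n ih =>
          rw [pow_succ, show z ^ n * z - 1 = (z ^ n - 1) * z + (z - 1) by ring]
          refine (IsUltrametricDist.norm_add_le_max _ _).trans_lt (max_lt ?_ hz)
          rw [norm_mul, norm_eq_one_of_near hz, mul_one]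
          exact ih
      have h2 : ‖(c B.π / B.π) ^ m - 1‖ < 1 := by
        obtain ⟨n, rfl | rfl⟩ := m.eq_nat_or_neg
        · rw [zpow_natCast]; exact hpownat hc1 n
        · rw [zpow_neg, zpow_natCast]
          have h3 := hpownat hc1 n
          have h4 := norm_eq_one_of_near h3
          have h5 : (c B.π / B.π) ^ n ≠ 0 := norm_pos_iff.mp (by rw [h4]; exact one_pos)
          rw [show ((c B.π / B.π) ^ n)⁻¹ - 1 = -((c B.π / B.π) ^ n - 1) / (c B.π / B.π) ^ n by
            field_simp; ring, norm_div, norm_neg, h4, div_one]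
          exact h3
      rw [e, show c u / u * (c B.π / B.π) ^ m - 1 =
        (c u / u - 1) * (c B.π / B.π) ^ m + ((c B.π / B.π) ^ m - 1) by ring]
      refine (IsUltrametricDist.norm_add_le_max _ _).trans_lt (max_lt ?_ h2)
      rw [norm_mul, norm_eq_one_of_near h2, mul_one]
      exact h1
    show ‖(a : G p) (tameRoot p) / tameRoot p - (b : G p) (tameRoot p) / tameRoot p‖ < 1
    rw [hac, AlgEquiv.mul_apply, ← sub_div, ← map_sub, norm_div, norm_algEquiv, ← norm_div,
      sub_div, div_self tameRoot_ne_zero]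
    exact hnear
  have hηfix : ∀ (g : B.W.fixingSubgroup), ∀ z : PadicAlgCl p, z ^ tameExp p = 1 → z ∈ L →
      (g : G p) z = z := fun g z hz hzL =>
    eq_of_pow_eq_one_of_close not_dvd_tameExp (by rw [← map_pow, hz, map_one]) hz
      (norm_apply_sub_lt B g.2 hzL (norm_eq_one_of_pow_eq_one tameExp_pos.ne' hz).le)
  have hηL : ∀ g, η g ∈ L := fun g => div_mem (hLn g _ hϖ) hϖ
  have hηmul : ∀ (a : B.W.fixingSubgroup) (b : G p), η ((a : G p) * b) = η (a : G p) * η b := by
    intro a b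
    have h1 := hηfix a _ (hηroot b) (hηL b)
    simp only [hη, AlgEquiv.mul_apply] at h1 ⊢
    rw [map_div₀] at h1
    have ha0 : (a : G p) (tameRoot p) ≠ 0 := by simpa using tameRoot_ne_zero (p := p)
    have := tameRoot_ne_zero (p := p)
    rw [div_eq_iff ha0] at h1
    rw [h1]
    field_simp
  let ηhom : B.W.fixingSubgroup →* PadicAlgCl p :=
    { toFun := fun g => η (g : G p)
      map_one' := by simp [hη, tameRoot_ne_zero]
      map_mul' := fun a b => hηmul a b }
  have hprim : IsPrimitiveRoot (ηhom g₀) (tameExp p) := by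
    obtain ⟨i, hi⟩ := hgen ⟨τ, hτ⟩
    have hi' : η τ = ηhom (g₀ ^ i) := hηeq ⟨τ, hτ⟩ _ hi
    refine IsPrimitiveRoot.mk_of_lt _ tameExp_pos (hηroot _) fun l hl0 hle hl => ?_
    have h1 : η τ ^ l = 1 := by
      rw [hi', ← map_pow, ← zpow_natCast, ← zpow_mul, mul_comm, zpow_mul, zpow_natCast]
      have h2 : ηhom (g₀ ^ l) = 1 := by rw [map_pow]; exact hl
      obtain ⟨n, rfl | rfl⟩ := i.eq_nat_or_neg
      · rw [zpow_natCast, map_pow, h2, one_pow]
      · rw [zpow_neg, zpow_natCast]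
        have h3 : ηhom ((g₀ ^ l) ^ n) = 1 := by rw [map_pow, h2, one_pow]
        have h4 := map_mul ηhom ((g₀ ^ l) ^ n)⁻¹ ((g₀ ^ l) ^ n)
        rw [inv_mul_cancel, map_one, h3, mul_one] at h4
        exact h4.symm
    exact (hτη.pow_eq_one_iff_dvd l).mp h1 |> fun hd => absurd (Nat.le_of_dvd hl0 hd) (not_le.mpr hle)
  obtain ⟨k, hk⟩ := hgen ⟨h, hh⟩
  have hk' : ηhom (g₀ ^ k) = 1 := by
    rw [show ηhom (g₀ ^ k) = η h from (hηeq ⟨h, hh⟩ _ hk).symm, hη]
    simp [hhϖ, tameRoot_ne_zero]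
  have hdvd : (tameExp p : ℤ) ∣ k := by
    obtain ⟨n, rfl | rfl⟩ := k.eq_nat_or_neg
    · rw [zpow_natCast, map_pow] at hk'
      exact Int.natCast_dvd_natCast.mpr ((hprim.pow_eq_one_iff_dvd n).mp hk')
    · rw [dvd_neg]
      have h4 := map_mul ηhom (g₀ ^ (-(n : ℤ))) (g₀ ^ n)
      rw [zpow_neg, zpow_natCast, inv_mul_cancel, map_one] at h4
      rw [zpow_neg, zpow_natCast] at hk'
      rw [hk', one_mul, map_pow] at h4
      exact Int.natCast_dvd_natCast.mpr ((hprim.pow_eq_one_iff_dvd n).mp h4.symm)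
  rw [show r h = r ((g₀ ^ k : B.W.fixingSubgroup) : G p) from
    apply_eq_of_tameChar_eq B hLn r hwild ⟨h, hh⟩ _ hk, SubgroupClass.coe_zpow, map_zpow]
  obtain ⟨c, rfl⟩ := hdvd
  rw [zpow_mul, zpow_natCast, hexp _ g₀.2, one_zpow]

/-- **A tame level.** -/
theorem exists_tame_level [FiniteDimensional ℚ_[p] L] (B : RamifiedBasis L)
    (hLn : ∀ σ : G p, ∀ x ∈ L, σ x ∈ L) (r : (G p) →* H) (hϖ : tameRoot p ∈ L)
    (hwild : ∀ g ∈ B.W.fixingSubgroup, ‖g B.π / B.π - 1‖ < 1 → r g = 1)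
    (hexp : ∀ g ∈ B.W.fixingSubgroup, r g ^ tameExp p = 1) :
    ∃ N : ℕ, N ≠ 0 ∧ 2 ∣ N ∧ ∀ h ∈ (tameField p N).fixingSubgroup, r h = 1 := by
  classical
  let _ := Fintype.ofFinite (Residue L)
  let _ : Field (Residue L) := Fintype.fieldOfDomain (Residue L)
  obtain ⟨f, -, hf⟩ := FiniteField.card (Residue L) p
  have hq : residueCard L = p ^ (f : ℕ) := by rw [residueCard, Nat.card_eq_fintype_card, hf]
  set N := 2 * (f : ℕ) with hNdef
  have hN : N ≠ 0 := by have := f.pos; omega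
  obtain ⟨BK⟩ := exists_ramifiedBasis (L := tameField p N)
  have hgen : ∀ u : PadicAlgCl p, u ∈ L → u ^ residueCard L = u →
      u = 0 ∨ u ^ (p ^ N - 1) = 1 := by
    intro u _ hu
    refine or_iff_not_imp_left.mpr fun hu0 => ?_
    have h1 : u ^ (residueCard L - 1) = 1 := mul_left_cancel₀ hu0 (by
      rw [← pow_succ', mul_one, Nat.sub_add_cancel (one_lt_residueCard L).le, hu])
    obtain ⟨c, hc⟩ : residueCard L - 1 ∣ p ^ N - 1 := by
      rw [hq, hNdef, mul_comm, pow_mul]
      exact Nat.sub_one_dvd_pow_sub_one _ 2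
    rw [hc, pow_mul, h1, one_pow]
  have hWK : B.W ≤ BK.W ∧ B.W ≤ tameField p N := by
    constructor
    all_goals
      conv_lhs => rw [B.W_eq, unramifiedPart]
      refine IntermediateField.adjoin_le_iff.mpr fun u hu => ?_
      rcases hgen u hu.1 hu.2 with rfl | h
      · exact zero_mem _
    · exact mem_tame_W BK hN h
    · exact mem_tameField_of_pow_eq_one hN h
  have : NeZero (tameExp p) := ⟨tameExp_pos.ne'⟩
  obtain ⟨η, hη⟩ := HasEnoughRootsOfUnity.exists_primitiveRoot (PadicAlgCl p) (tameExp p)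
  obtain ⟨τ, hτW, hτϖ⟩ := exists_tame_conj BK hη.pow_eq_one
  refine ⟨N, hN, dvd_mul_right 2 _, fun h hh => ?_⟩
  rw [IntermediateField.mem_fixingSubgroup_iff] at hh
  refine apply_eq_one_of_tame B hLn r hϖ hwild hexp (τ := τ)
    ((IntermediateField.mem_fixingSubgroup_iff _ _).mpr fun w hw => hτW w (hWK.1 hw))
    (by rw [hτϖ, mul_div_cancel_right₀ _ tameRoot_ne_zero]; exact hη)
    ((IntermediateField.mem_fixingSubgroup_iff _ _).mpr fun w hw => hh w (hWK.2 hw))
    (hh _ tameRoot_mem)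

end Hom

end FermatLib.CFT.Fontaine

end
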