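import Mathlib.LinearAlgebra.Matrix.Charpoly.Coeff
import Mathlib.LinearAlgebra.Matrix.ToLinearEquiv
import Mathlib.Algebra.CharP.Lemmas
import Mathlib.LinearAlgebra.Matrix.CharP
import Mathlib.FieldTheory.Finite.Basic
import Mathlib.RingTheory.RootsOfUnity.PrimitiveRoots

/-!
# A tame element of `GL₂` conjugate to its `p`-th power

If `T` has order prime to `p` and `F T F⁻¹ = T ^ p` then `T ^ (p² - 1) = 1`; if `T` and `F` have
no common eigenvector and `det T` generates `𝔽_p^×`, no non-zero trace zero `X` satisfies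
`T X = det T • X T`.
-/

set_option autoImplicit false

noncomputable section

open Matrix

namespace FermatLib.CFT.Fontaine

variable {k : Type} [Field k] {p : ℕ} [hp : Fact p.Prime] [CharP k p]

local notation "M₂" => Matrix (Fin 2) (Fin 2) k

omit hp [CharP k p] in
/-- Cayley–Hamilton in dimension two. -/
lemma sq_eq_trace_smul_sub (T : M₂) : T * T = T.trace • T - T.det • (1 : M₂) := by
  ext i j
  fin_cases i <;> fin_cases j <;>
    simp [Matrix.mul_apply, Fin.sum_univ_two, Matrix.trace_fin_two, Matrix.det_fin_two] <;> ring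

omit hp [CharP k p] in
lemma ne_zero_of_two (hp2 : p ≠ 2) [Fact p.Prime] [CharP k p] : (2 : k) ≠ 0 := by
  intro h
  have h1 : ((2 : ℕ) : k) = 0 := by exact_mod_cast h
  exact hp2 ((Nat.prime_dvd_prime_iff_eq (Fact.out : p.Prime) Nat.prime_two).mp
    ((CharP.cast_eq_zero_iff k p 2).mp h1))

omit hp in
lemma pow_prime_pow_eq (T : M₂) [Fact p.Prime] (i : ℕ) :
    ((2 : k) • T - T.trace • (1 : M₂)) ^ p ^ i =
      (2 : k) ^ p ^ i • T ^ p ^ i - T.trace ^ p ^ i • (1 : M₂) := by
  rw [sub_pow_char_pow_of_commute p i ((Commute.one_right _).smul_right _), smul_pow, smul_pow,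
    one_pow]

omit hp [CharP k p] in
lemma twice_sub_trace_sq (T : M₂) :
    ((2 : k) • T - T.trace • (1 : M₂)) * ((2 : k) • T - T.trace • (1 : M₂)) =
      (T.trace ^ 2 - 4 * T.det) • (1 : M₂) := by
  ext i j
  fin_cases i <;> fin_cases j <;>
    simp [Matrix.mul_apply, Fin.sum_univ_two, Matrix.trace_fin_two, Matrix.det_fin_two] <;> ring

lemma two_pow_prime_pow (i : ℕ) : (2 : k) ^ p ^ i = 2 := by
  induction i with
  | zero => simp
  | succ i ih =>
    rw [pow_succ, pow_mul, ih, show (2 : k) = ((2 : ℕ) : k) by norm_num, ← frobenius_def,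
      map_natCast]

/-- The trace of a `p`-th power. -/
lemma trace_pow_prime (hp2 : p ≠ 2) (T : M₂) : (T ^ p).trace = T.trace ^ p := by
  obtain ⟨m, hm⟩ : ∃ m, p = 2 * m + 1 := (hp.out.odd_of_ne_two hp2).exists_bit1
  set w := (2 : k) • T - T.trace • (1 : M₂) with hw
  have h1 : w ^ p = (T.trace ^ 2 - 4 * T.det) ^ m • w := by
    rw [hm, pow_succ, pow_mul, sq, hw, twice_sub_trace_sq, smul_pow, one_pow, smul_mul_assoc, one_mul]
  have h2 := pow_prime_pow_eq (p := p) T 1
  rw [pow_one, ← hw, h1] at h2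
  have hw0 : w.trace = 0 := by
    rw [hw, trace_sub, trace_smul, trace_smul, trace_one, Fintype.card_fin, smul_eq_mul, smul_eq_mul]
    push_cast; ring
  have h3 := congrArg Matrix.trace h2
  rw [trace_smul, hw0, smul_zero, trace_sub, trace_smul, trace_smul, trace_one, Fintype.card_fin,
    smul_eq_mul, smul_eq_mul, ← pow_one p, two_pow_prime_pow, pow_one] at h3
  have h4 : (2 : k) * ((T ^ p).trace - T.trace ^ p) = 0 := by push_cast at h3; linear_combination -h3
  exact sub_eq_zero.mp ((mul_eq_zero.mp h4).resolve_left (ne_zero_of_two (p := p) hp2))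

/-- **A tame element conjugate to its `p`-th power has order dividing `p² - 1`.** -/
theorem pow_sq_sub_one_eq_one (hp2 : p ≠ 2) {T F : M₂ˣ} (hFT : F * T * F⁻¹ = T ^ p) {m : ℕ}
    (hm : ¬ p ∣ m) (hTm : T ^ m = 1) : T ^ (p ^ 2 - 1) = 1 := by
  have hconj : (T : M₂) ^ p = (F : M₂) * T * (F⁻¹ : M₂ˣ) := by
    rw [← Units.val_pow_eq_pow_val, ← hFT, Units.val_mul, Units.val_mul]
  set t := (T : M₂).trace with ht
  set d := (T : M₂).det with hd
  have hs : t ^ p = t := by
    rw [ht, ← trace_pow_prime hp2, hconj, trace_mul_cycle, Units.inv_mul, one_mul]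
  have hdp : d ^ p = d := by
    rw [hd, ← det_pow, hconj, det_mul, det_mul, mul_right_comm, ← det_mul, Units.mul_inv, det_one,
      one_mul]
  set D := t ^ 2 - 4 * d with hD
  have hDp : D ^ p = D := by
    rw [← frobenius_def, hD, map_sub, map_mul, map_pow, frobenius_def, frobenius_def, frobenius_def,
      hs, hdp, show (4 : k) = 2 * 2 by norm_num, mul_pow, ← pow_one p, two_pow_prime_pow]
  have hd0 : d ≠ 0 := fun h => by
    have h1 := congrArg Matrix.det T.mul_inv
    rw [det_mul, ← hd, h, zero_mul, det_one] at h1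
    exact zero_ne_one h1
  have hsp : t ^ p ^ 2 = t := by rw [pow_two, pow_mul, hs, hs]
  obtain ⟨n, hn⟩ : ∃ n, p ^ 2 = 2 * n + 1 :=
    ((hp.out.odd_of_ne_two hp2).pow (n := 2)).exists_bit1
  set w := (2 : k) • (T : M₂) - t • (1 : M₂) with hw
  have h1 : w ^ p ^ 2 = D ^ n • w := by
    rw [hn, pow_succ, pow_mul, sq, hw, twice_sub_trace_sq, smul_pow, one_pow, smul_mul_assoc, one_mul]
  have h2 := pow_prime_pow_eq (p := p) (T : M₂) 2
  rw [← ht, ← hw, h1, two_pow_prime_pow, hsp] at h2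
  have hord : (T : M₂) ^ (p ^ 2 * (p ^ 2 - 1)) = 1 := by
    by_cases hD0 : D = 0
    · rcases n.eq_zero_or_pos with hn0 | hn0
      · exfalso
        rw [hn0] at hn
        have := Nat.pow_le_pow_left hp.out.two_le 2
        omega
      rw [hD0, zero_pow hn0.ne', zero_smul, eq_comm, sub_eq_zero] at h2
      have ha : (T : M₂) ^ p ^ 2 = (t / 2) • 1 := by
        rw [← inv_smul_smul₀ (ne_zero_of_two (k := k) (p := p) hp2) ((T : M₂) ^ p ^ 2), h2, smul_smul,
          mul_comm, ← div_eq_mul_inv]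
      have ha2 : (t / 2) ^ (p ^ 2 - 1) = 1 := by
        have h0 : t / 2 ≠ 0 := fun h => by
          have := congrArg Matrix.det ha
          rw [det_pow, ← hd, h, zero_smul, det_zero] at this
          exact pow_ne_zero _ hd0 this
        refine mul_left_cancel₀ h0 ?_
        rw [← pow_succ', mul_one, Nat.sub_add_cancel (Nat.one_le_pow _ _ hp.out.pos), div_pow, hsp,
          two_pow_prime_pow]
      rw [pow_mul, ha, smul_pow, one_pow, ha2, one_smul]
    · have h3 : D ^ n = 1 := by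
        have hD1 : D ^ (p - 1) = 1 := mul_left_cancel₀ hD0 (by
          rw [← pow_succ', mul_one, Nat.sub_add_cancel hp.out.one_le, hDp])
        obtain ⟨c, hc⟩ : p - 1 ∣ n := by
          obtain ⟨m', hm'⟩ := (hp.out.odd_of_ne_two hp2).exists_bit1
          refine ⟨m' + 1, ?_⟩
          have e : p - 1 = 2 * m' := by omega
          rw [e]
          rw [hm'] at hn
          ring_nf at hn ⊢
          omega
        rw [hc, pow_mul, hD1, one_pow]
      rw [h3, one_smul, hw, sub_left_inj] at h2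
      have h4 : (T : M₂) ^ p ^ 2 = T := smul_right_injective M₂ (ne_zero_of_two (p := p) hp2) h2.symm
      rw [pow_mul, h4, ← Units.val_pow_eq_pow_val]
      have h5 : T ^ (p ^ 2 - 1) = 1 := mul_left_cancel (a := T) (by
        rw [← pow_succ', mul_one, Nat.sub_add_cancel (Nat.one_le_pow _ _ hp.out.pos)]
        exact Units.ext (by rw [Units.val_pow_eq_pow_val]; exact h4))
      rw [h5, Units.val_one]
  have h6 : T ^ (p ^ 2 * (p ^ 2 - 1)) = 1 :=
    Units.ext (by rw [Units.val_pow_eq_pow_val]; exact hord)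
  refine orderOf_dvd_iff_pow_eq_one.mp (Nat.Coprime.dvd_of_dvd_mul_left ?_
    (orderOf_dvd_of_pow_eq_one h6))
  exact Nat.Coprime.coprime_dvd_left (orderOf_dvd_of_pow_eq_one hTm)
    (((Nat.Prime.coprime_iff_not_dvd hp.out).mpr hm).symm.pow_right 2)

omit hp [CharP k p] in
/-- A matrix killing two independent vectors vanishes. -/
lemma eq_smul_of_mulVec_eq_zero {A : M₂} (hA : A ≠ 0) {v u : Fin 2 → k} (hv : v ≠ 0)
    (hAv : A *ᵥ v = 0) (hAu : A *ᵥ u = 0) : ∃ c : k, u = c • v := by
  by_cases hdet : v 0 * u 1 - v 1 * u 0 = 0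
  · by_cases h0 : v 0 = 0
    · have h1 : v 1 ≠ 0 := fun h1 => hv (funext fun i => by fin_cases i <;> assumption)
      refine ⟨u 1 / v 1, funext fun i => ?_⟩
      fin_cases i
      · rw [h0, zero_mul, zero_sub, neg_eq_zero, mul_eq_zero] at hdet
        simp [hdet.resolve_left h1, h0]
      · simp [div_mul_cancel₀ _ h1]
    · refine ⟨u 0 / v 0, funext fun i => ?_⟩
      fin_cases i
      · simp [div_mul_cancel₀ _ h0]
      · simp only [Pi.smul_apply, smul_eq_mul, Fin.mk_one]
        field_simp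
        linear_combination hdet
  · refine absurd ?_ hA
    have hP : (Matrix.of ![![v 0, u 0], ![v 1, u 1]]).det ≠ 0 := by
      rw [Matrix.det_fin_two]; simpa [mul_comm (u 0)] using hdet
    have e : A * Matrix.of ![![v 0, u 0], ![v 1, u 1]] = 0 := by
      ext i j
      have a := congrFun hAv i
      have b := congrFun hAu i
      fin_cases j <;> simp [Matrix.mul_apply, Fin.sum_univ_two, Matrix.mulVec, dotProduct] at a b ⊢
      · exact a
      · exact b
    calc A = A * Matrix.of ![![v 0, u 0], ![v 1, u 1]] *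
          (Matrix.of ![![v 0, u 0], ![v 1, u 1]])⁻¹ :=
          (Matrix.mul_nonsing_inv_cancel_right _ _ (isUnit_iff_ne_zero.mpr hP)).symm
      _ = 0 := by rw [e, zero_mul]

omit [CharP k p] in
/-- No eigenvalue in `𝔽_p`. -/
theorem not_exists_prime_eigen (hp2 : p ≠ 2) {T F : M₂ˣ} (hFT : F * T * F⁻¹ = T ^ p)
    (hT : T ^ (p ^ 2 - 1) = 1) {g : k} (hdet : (T : M₂).det = g) (hg : IsPrimitiveRoot g (p - 1))
    (hirr : ∀ v : Fin 2 → k, v ≠ 0 → (∃ a : k, (T : M₂) *ᵥ v = a • v) →
      ¬ ∃ b : k, (F : M₂) *ᵥ v = b • v)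
    {v : Fin 2 → k} (hv : v ≠ 0) {a : k} (ha : a ^ p = a) : (T : M₂) *ᵥ v ≠ a • v := by
  intro hTv
  have hpeq : (T : M₂) ^ p ^ 2 = T := by
    conv_lhs => rw [← Nat.sub_add_cancel (Nat.one_le_pow 2 p hp.out.pos)]
    rw [pow_succ, ← Units.val_pow_eq_pow_val, hT, Units.val_one, one_mul]
  have hconj : (T : M₂) ^ p * F = (F : M₂) * T := by
    rw [← Units.val_pow_eq_pow_val, ← hFT, ← Units.val_mul, ← Units.val_mul, inv_mul_cancel_right]
  have hpowv : ∀ i : ℕ, ((T : M₂) ^ i) *ᵥ v = a ^ i • v := by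
    intro i
    induction i with
    | zero => simp
    | succ i ih => rw [pow_succ, ← mulVec_mulVec, hTv, mulVec_smul, ih, smul_smul, pow_succ']
  have hA : (T : M₂) ^ p - a • 1 ≠ 0 := by
    intro h0
    rw [sub_eq_zero] at h0
    have hTa : (T : M₂) = a • 1 := by
      rw [← hpeq, pow_two, pow_mul, h0, smul_pow, one_pow, ha]
    have hga : g = a ^ 2 := by rw [← hdet, hTa, det_smul, det_one, Fintype.card_fin, mul_one]
    have ha0 : a ≠ 0 := fun h => by
      rw [h] at hga
      have hp3 : 2 ≤ p := hp.out.two_le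
      exact hg.ne_zero (by omega) (by rw [hga, zero_pow two_ne_zero])
    obtain ⟨m, hm⟩ := (hp.out.odd_of_ne_two hp2).exists_bit1
    have hm0 : m ≠ 0 := fun h => hp.out.ne_one (by omega)
    have : g ^ m = 1 := by
      rw [hga, ← pow_mul, show 2 * m = p - 1 by omega]
      exact mul_left_cancel₀ ha0 (by rw [← pow_succ', mul_one, Nat.sub_add_cancel hp.out.one_le, ha])
    have := Nat.le_of_dvd (Nat.pos_of_ne_zero hm0) (hg.dvd_of_pow_eq_one m this)
    omega
  refine hirr v hv ⟨a, hTv⟩ (eq_smul_of_mulVec_eq_zero hA hv ?_ ?_)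
  · rw [sub_mulVec, hpowv, ha, smul_mulVec, one_mulVec, sub_self]
  · rw [sub_mulVec, mulVec_mulVec, hconj, ← mulVec_mulVec, hTv, mulVec_smul, smul_mulVec,
      one_mulVec, sub_self]

omit hp [CharP k p] in
lemma exists_eigenvector_of_det {T : M₂} {a : k} (h : (T - a • 1).det = 0) :
    ∃ v : Fin 2 → k, v ≠ 0 ∧ T *ᵥ v = a • v := by
  obtain ⟨v, hv, hv'⟩ := Matrix.exists_mulVec_eq_zero_iff.mpr h
  exact ⟨v, hv, by rwa [sub_mulVec, sub_eq_zero, smul_mulVec, one_mulVec] at hv'⟩

/-- No trace zero `X ≠ 0` is scaled by `det T` under conjugation. -/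
theorem eq_zero_of_det_scaled (hp2 : p ≠ 2) {T F : M₂ˣ} (hFT : F * T * F⁻¹ = T ^ p)
    (hT : T ^ (p ^ 2 - 1) = 1) {g : k} (hdet : (T : M₂).det = g) (hg : IsPrimitiveRoot g (p - 1))
    (hirr : ∀ v : Fin 2 → k, v ≠ 0 → (∃ a : k, (T : M₂) *ᵥ v = a • v) →
      ¬ ∃ b : k, (F : M₂) *ᵥ v = b • v)
    {X : M₂} (hX : X.trace = 0) (hTX : (T : M₂) * X = g • (X * T)) : X = 0 := by
  by_contra hX0
  have hno : ∀ v : Fin 2 → k, v ≠ 0 → ∀ a : k, a ^ p = a → (T : M₂) *ᵥ v ≠ a • v :=
    fun v hv a ha => not_exists_prime_eigen hp2 hFT hT hdet hg hirr hv ha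
  have hp3 : 3 ≤ p := by have := hp.out.two_le; omega
  have hg1 : g ≠ 1 := hg.ne_one (by omega)
  have hgp : g ^ p = g := by
    rw [← Nat.sub_add_cancel hp.out.one_le, pow_succ, hg.pow_eq_one, one_mul]
  have hd0 : (T : M₂).det ≠ 0 := by rw [hdet]; exact hg.ne_zero (by omega)
  by_cases hdX : X.det = 0
  · have hXX : X * X = 0 := by rw [sq_eq_trace_smul_sub, hX, hdX]; simp
    obtain ⟨w, hw⟩ : ∃ w, X *ᵥ w ≠ 0 := by
      by_contra h
      push Not at h
      exact hX0 (Matrix.ext_of_mulVec_single fun i => by rw [h, zero_mulVec])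
    set v := X *ᵥ w with hv
    have hXv : X *ᵥ v = 0 := by rw [hv, mulVec_mulVec, hXX, zero_mulVec]
    have hXTv : X *ᵥ ((T : M₂) *ᵥ v) = 0 := by
      refine smul_right_injective _ (hdet ▸ hd0 : g ≠ 0) ?_
      show g • _ = g • (0 : Fin 2 → k)
      rw [mulVec_mulVec, ← smul_mulVec, ← hTX, ← mulVec_mulVec, hXv, mulVec_zero, smul_zero]
    obtain ⟨l, hl⟩ := eq_smul_of_mulVec_eq_zero hX0 hw hXv hXTv
    set μ := (T : M₂).trace - l with hμ
    have hlμ : l * μ = g := by
      have h1 := congrArg (fun A : M₂ => A *ᵥ v) (sq_eq_trace_smul_sub (T : M₂))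
      simp only [← mulVec_mulVec, hl, mulVec_smul, sub_mulVec, smul_mulVec, one_mulVec, smul_smul,
        ← sub_smul, hdet] at h1
      have h2 := smul_left_injective k hw h1
      linear_combination -h2
    have hTl : (T : M₂) - l • 1 ≠ 0 := by
      intro h
      rw [sub_eq_zero] at h
      rw [h, mul_smul_comm, mul_one, smul_mul_assoc, one_mul, smul_comm] at hTX
      refine hg1 ?_
      have hl0 : l ≠ 0 := fun h0 => hd0 (by rw [h, h0, zero_smul, det_zero])
      have h1 := smul_right_injective M₂ hl0 hTX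
      exact (smul_left_injective k hX0 (show (1 : k) • X = g • X by rw [one_smul]; exact h1)).symm
    have hker : ((T : M₂) - l • 1) *ᵥ ((T : M₂) *ᵥ w - μ • w) = 0 := by
      have h1 := congrArg (fun A : M₂ => A *ᵥ w) (sq_eq_trace_smul_sub (T : M₂))
      simp only [← mulVec_mulVec, sub_mulVec, smul_mulVec, one_mulVec, hdet] at h1
      rw [sub_mulVec, mulVec_sub, mulVec_smul, h1, smul_mulVec, one_mulVec, hμ, ← hlμ, hμ]
      module
    obtain ⟨c, hc⟩ := eq_smul_of_mulVec_eq_zero hTl hw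
      (by rw [sub_mulVec, hl, smul_mulVec, one_mulVec, sub_self]) hker
    have hlg : l = g * μ := by
      have h1 : (T : M₂) *ᵥ v = g • X *ᵥ ((T : M₂) *ᵥ w) := by
        rw [hv, mulVec_mulVec, hTX, smul_mulVec, mulVec_mulVec]
      rw [hl, eq_add_of_sub_eq hc, mulVec_add, mulVec_smul, mulVec_smul, hXv, smul_zero, zero_add,
        ← hv, smul_smul] at h1
      exact smul_left_injective k hw h1
    have hμ2 : μ * μ = 1 := by
      refine mul_left_cancel₀ (hdet ▸ hd0 : g ≠ 0) ?_
      rw [mul_one, ← mul_assoc, ← hlg, hlμ]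
    rcases mul_self_eq_one_iff.mp hμ2 with h | h
    · exact hno v hw l (by rw [hlg, h, mul_one, hgp]) hl
    · exact hno v hw l (by rw [hlg, h, mul_neg, mul_one, (hp.out.odd_of_ne_two hp2).neg_pow, hgp]) hl
  · have h1 := congrArg Matrix.det hTX
    rw [det_mul, det_smul, det_mul, Fintype.card_fin, hdet] at h1
    have hg2 : g * g = 1 := mul_right_cancel₀ (mul_ne_zero hdX (hdet ▸ hd0 : g ≠ 0))
      (by linear_combination -h1)
    have hgm : g = -1 := (mul_self_eq_one_iff.mp hg2).resolve_left hg1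
    rw [hgm, neg_one_smul] at hTX
    have hu : IsUnit X.det := isUnit_iff_ne_zero.mpr hdX
    have htr : (T : M₂).trace = 0 := by
      have h2 : (T : M₂) = -(X * T * X⁻¹) := by
        rw [← neg_mul, ← hTX, Matrix.mul_nonsing_inv_cancel_right _ _ hu]
      have h3 := congrArg Matrix.trace h2
      rw [trace_neg, trace_mul_cycle, Matrix.nonsing_inv_mul _ hu, one_mul] at h3
      have h4 : (2 : k) * (T : M₂).trace = 0 := by linear_combination h3
      exact (mul_eq_zero.mp h4).resolve_left (ne_zero_of_two (p := p) hp2)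
    have h5 : ((T : M₂) - (1 : k) • 1).det = 0 := by
      rw [det_fin_two] at hdet ⊢
      rw [trace_fin_two] at htr
      simp only [Matrix.sub_apply, Matrix.smul_apply, one_apply_eq, smul_eq_mul, mul_one,
        one_apply_ne (show (0 : Fin 2) ≠ 1 by decide), one_apply_ne (show (1 : Fin 2) ≠ 0 by decide),
        mul_zero, sub_zero]
      linear_combination hdet + hgm - htr
    obtain ⟨v, hv, hv'⟩ := exists_eigenvector_of_det h5
    exact hno v hv 1 (one_pow p) hv'

end FermatLib.CFT.Fontaine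

end
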