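import Fermat.Agent.CFT.FlatTangentDefs
import Fermat.Agent.CFT.TameImage
import Fermat.Agent.CFT.TameMatrix
import Fermat.Agent.CFT.TameEigenCount
import Fermat.Agent.CFT.OrdTangentKummer
import Mathlib.GroupTheory.PGroup

/-!
# Flat classes at `p` when the decomposition group has no stable line

The residual representation is then tame and trivial on the fixer of some `K_N`; the classes of flat
cocycles have Kummer level `e` there, so they span at most `h⁰ + [k : 𝔽_p]` dimensions.
-/

set_option autoImplicit false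

noncomputable section

open CategoryTheory groupCohomology Module ExtCitation
open scoped Matrix

namespace FermatLib.CFT.FlatTangent

open FermatLib.MLT.Ad FermatLib.CFT.Fontaine

local notation "Γℚ" => (AlgebraicClosure ℚ ≃ₐ[ℚ] AlgebraicClosure ℚ)
local notation "G" p => PadicAlgCl p ≃ₐ[ℚ_[p]] PadicAlgCl p

variable {k : Type} [Field k] {p : ℕ} [hp : Fact p.Prime] [Algebra (ZMod p) k]
  {ρ : Γℚ →* Matrix (Fin 2) (Fin 2) k}

variable (p ρ) in
/-- The residual representation of the decomposition group, with values in units. -/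
def localUnits : (G p) →* (Matrix (Fin 2) (Fin 2) k)ˣ :=
  (ρ.comp (localGaloisToGlobal p)).toHomUnits

omit [Algebra (ZMod p) k] in
lemma localUnits_val (g : G p) : (localUnits p ρ g).1 = ρ (localGaloisToGlobal p g) := rfl

/-- The exponent on `μ_p` is the cyclotomic character. -/
lemma muExp_eq_cycloChar (g : G p) :
    muExp g = (cycloChar p (localGaloisToGlobal p g) : ZMod p) := by
  have : NeZero p := ⟨hp.out.ne_zero⟩
  have h1 := apply_rootPow g 1
  rw [mul_one] at h1
  refine rootPow_injective ?_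
  rw [← h1]
  have h2 : rootPow (1 : ZMod p) = zetaP p := by rw [rootPow, ZMod.val_one, pow_one]
  rw [h2, OrdTangent.apply_eq_pow_locOmega zetaP_isPrimitiveRoot.pow_eq_one g]
  rfl

/-- Restriction to the decomposition group does not increase the dimension of classes. -/
lemma finrank_map_H1π_le_mkQ [Finite k] (Z : Submodule (ZMod p) (cocycles₁ (locAdjoint ρ p)))
    (A : Submodule (ZMod p) ((G p) → traceZero k)) [FiniteDimensional (ZMod p) A]
    (hA : ∀ z ∈ Z, ((z : cocycles₁ (locAdjoint ρ p)) : (G p) → traceZero k) ∈ A) :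
    finrank (ZMod p) (Z.map (H1π (locAdjoint ρ p)).hom) ≤
      finrank (ZMod p) (A.map (LinearMap.range (coboundary (localAd ρ p))).mkQ) := by
  let h : Z →ₗ[ZMod p] A.map (LinearMap.range (coboundary (localAd ρ p))).mkQ :=
    { toFun := fun z => ⟨(LinearMap.range (coboundary (localAd ρ p))).mkQ
          ((z : cocycles₁ (locAdjoint ρ p)) : (G p) → traceZero k), ⟨_, hA z z.2, rfl⟩⟩
      map_add' := fun a b => Subtype.ext (map_add _ _ _)
      map_smul' := fun a b => Subtype.ext (map_smul _ _ _) }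
  let g : Z →ₗ[ZMod p] H1 (locAdjoint ρ p) := (H1π (locAdjoint ρ p)).hom.comp Z.subtype
  have hker : LinearMap.ker h ≤ LinearMap.ker g := by
    intro z hz
    have h0 := congrArg Subtype.val (LinearMap.mem_ker.mp hz)
    obtain ⟨X, hX⟩ := (Submodule.Quotient.mk_eq_zero _).mp h0
    exact LinearMap.mem_ker.mpr ((H1π_eq_zero_iff _).mpr ⟨X, hX⟩)
  have hrange : LinearMap.range g = Z.map (H1π (locAdjoint ρ p)).hom := by
    rw [LinearMap.range_comp, Submodule.range_subtype]
  rw [← hrange]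
  have : FiniteDimensional (ZMod p) (Z ⧸ LinearMap.ker h) :=
    FiniteDimensional.of_injective (LinearMap.quotKerEquivRange h).toLinearMap
      (LinearMap.quotKerEquivRange h).injective
  calc finrank (ZMod p) (LinearMap.range g)
      = finrank (ZMod p) (Z ⧸ LinearMap.ker g) := (LinearMap.quotKerEquivRange g).finrank_eq.symm
    _ ≤ finrank (ZMod p) (Z ⧸ LinearMap.ker h) :=
        LinearMap.finrank_le_finrank_of_surjective
          (f := Submodule.mapQ _ _ LinearMap.id hker) fun x => by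
          induction x using Quotient.inductionOn' with
          | h z => exact ⟨Submodule.Quotient.mk z, rfl⟩
    _ = finrank (ZMod p) (LinearMap.range h) := (LinearMap.quotKerEquivRange h).finrank_eq
    _ ≤ _ := Submodule.finrank_le _

variable (hirr : ¬ ∃ v : Fin 2 → k, v ≠ 0 ∧
  ∀ g : G p, ∃ a : k, ρ (localGaloisToGlobal p g) *ᵥ v = a • v)

include hirr

/-- Wild inertia acts trivially. -/
theorem eq_one_of_wild [Finite k] {L : IntermediateField ℚ_[p] (PadicAlgCl p)}
    [FiniteDimensional ℚ_[p] L] (B : RamifiedBasis L) (hLn : ∀ σ : G p, ∀ x ∈ L, σ x ∈ L)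
    (hL : ∀ g ∈ L.fixingSubgroup, localUnits p ρ g = 1) {g : G p} (hg : g ∈ B.W.fixingSubgroup)
    (hwild : ‖g B.π / B.π - 1‖ < 1) : localUnits p ρ g = 1 := by
  classical
  set f := localUnits p ρ
  set P := (tameChar B hLn).ker
  set Q := P.map (f.comp B.W.fixingSubgroup.subtype) with hQdef
  have hmemP : ∀ x : B.W.fixingSubgroup, x ∈ P ↔ ‖(x : G p) B.π / B.π - 1‖ < 1 := fun x => by
    rw [MonoidHom.mem_ker]; exact tameChar_eq_one_iff B hLn x
  let _ : MulAction Q (Fin 2 → k) :=
    { smul := fun q v => q.1.1 *ᵥ v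
      one_smul := fun v => Matrix.one_mulVec v
      mul_smul := fun a b v => (Matrix.mulVec_mulVec v a.1.1 b.1.1).symm }
  have hQ : IsPGroup p Q := by
    rintro ⟨_, x, hx, rfl⟩
    obtain ⟨a, ha⟩ := exists_pow_mem_of_wild B x.2 hLn ((hmemP x).mp hx)
    refine ⟨a, Subtype.ext ?_⟩
    rw [SubmonoidClass.coe_pow]
    show f (x : G p) ^ p ^ a = 1
    rw [← map_pow, hL _ ha]
  have : CharP k p := charP_of_injective_algebraMap (algebraMap (ZMod p) k).injective p
  have : Finite (Fin 2 → k) := inferInstance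
  have hmod := hQ.card_modEq_card_fixedPoints (Fin 2 → k)
  have hcard : p ∣ Nat.card (Fin 2 → k) := by
    let _ := Fintype.ofFinite k
    obtain ⟨n, -, hn⟩ := FiniteField.card k p
    rw [Nat.card_eq_fintype_card, Fintype.card_fun, hn, Fintype.card_fin]
    exact dvd_pow (dvd_pow_self p n.pos.ne') two_ne_zero
  obtain ⟨v, hvfix, hv0⟩ : ∃ v : Fin 2 → k, v ∈ MulAction.fixedPoints Q (Fin 2 → k) ∧ v ≠ 0 := by
    by_contra! hcon
    have h1 : MulAction.fixedPoints Q (Fin 2 → k) = {0} := by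
      refine Set.eq_singleton_iff_unique_mem.mpr ⟨fun q => Matrix.mulVec_zero _, hcon⟩
    rw [h1, Nat.card_eq_fintype_card (α := ({0} : Set (Fin 2 → k))), Set.card_singleton] at hmod
    have h2 := (Nat.modEq_zero_iff_dvd.mpr hcard).symm.trans hmod
    exact hp.out.ne_one (Nat.dvd_one.mp (Nat.modEq_zero_iff_dvd.mp h2.symm))
  by_contra hne
  have hA : ρ (localGaloisToGlobal p g) - 1 ≠ 0 := fun h =>
    hne (Units.ext (by rw [localUnits_val]; exact sub_eq_zero.mp h))
  have hgQ : f g ∈ Q := ⟨⟨g, hg⟩, (hmemP _).mpr hwild, rfl⟩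
  refine hirr ⟨v, hv0, fun σ => ?_⟩
  refine eq_smul_of_mulVec_eq_zero hA hv0 ?_ ?_
  · rw [Matrix.sub_mulVec, Matrix.one_mulVec, sub_eq_zero]
    exact hvfix ⟨f g, hgQ⟩
  · set g' := σ⁻¹ * g * σ⁻¹⁻¹ with hg'
    have hg'W := conj_mem_fixingSubgroup B hLn σ⁻¹ hg
    have hQ' : f g' ∈ Q := ⟨⟨g', hg'W⟩, (hmemP _).mpr (wild_conj B hLn σ⁻¹ hg hwild), rfl⟩
    have h1 : ρ (localGaloisToGlobal p g') *ᵥ v = v := hvfix ⟨f g', hQ'⟩
    rw [Matrix.sub_mulVec, Matrix.one_mulVec, Matrix.mulVec_mulVec, ← map_mul, ← map_mul,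
      show g * σ = σ * g' by rw [hg', inv_inv]; group, map_mul, map_mul, ← Matrix.mulVec_mulVec, h1,
      sub_self]

/-- The residual representation is trivial on the fixer of some `K_N`. -/
theorem exists_level [Finite k] (hp2 : p ≠ 2) {L : IntermediateField ℚ_[p] (PadicAlgCl p)}
    [FiniteDimensional ℚ_[p] L] (hLn : ∀ σ : G p, ∀ x ∈ L, σ x ∈ L) (hϖ : tameRoot p ∈ L)
    (hL : ∀ g ∈ L.fixingSubgroup, localUnits p ρ g = 1) :
    ∃ N : ℕ, N ≠ 0 ∧ 2 ∣ N ∧ ∀ h ∈ (tameField p N).fixingSubgroup, localUnits p ρ h = 1 := by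
  have : CharP k p := charP_of_injective_algebraMap (algebraMap (ZMod p) k).injective p
  obtain ⟨B⟩ := exists_ramifiedBasis (L := L)
  have hwild := fun g (hg : g ∈ B.W.fixingSubgroup) h => eq_one_of_wild hirr B hLn hL hg h
  refine exists_tame_level B hLn (localUnits p ρ) hϖ hwild fun g hg => ?_
  obtain ⟨φ, hφ⟩ := exists_frobenius_teichmuller L
  have hconj := apply_eq_of_tameChar_eq B hLn (localUnits p ρ) hwild
    ⟨φ * g * φ⁻¹, conj_mem_fixingSubgroup B hLn φ hg⟩ (⟨g, hg⟩ ^ p)
    (by rw [map_pow]; exact tameChar_frobenius B hLn hφ ⟨g, hg⟩)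
  rw [SubmonoidClass.coe_pow, map_mul, map_mul, map_inv, map_pow] at hconj
  have hq := one_lt_residueCard L
  have hord : localUnits p ρ g ^ (residueCard L - 1) = 1 := by
    have hu : tameChar B hLn (⟨g, hg⟩ ^ (residueCard L - 1)) = 1 := by
      rw [map_pow]
      set z := tameChar B hLn ⟨g, hg⟩ with hz
      have hz0 : z ≠ 0 := fun h => by
        have h1 := map_mul (tameChar B hLn) ⟨g, hg⟩ ⟨g, hg⟩⁻¹
        rw [mul_inv_cancel, map_one, ← hz, h, zero_mul] at h1
        exact one_ne_zero h1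
      refine mul_left_cancel₀ hz0 ?_
      rw [← pow_succ', Nat.sub_add_cancel hq.le, mul_one, pow_residueCard]
    have h1 := apply_eq_of_tameChar_eq B hLn (localUnits p ρ) hwild (⟨g, hg⟩ ^ (residueCard L - 1)) 1
      (by rw [hu, map_one])
    rwa [SubmonoidClass.coe_pow, map_pow, OneMemClass.coe_one, map_one] at h1
  refine pow_sq_sub_one_eq_one hp2 hconj (fun hdvd => ?_) hord
  have h1 := Nat.dvd_sub (dvd_residueCard L) hdvd
  rw [show residueCard L - (residueCard L - 1) = 1 by omega] at h1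
  exact hp.out.ne_one (Nat.dvd_one.mp h1)

variable (hdet : ∀ σ, (ρ σ).det = algebraMap (ZMod p) k ((cycloChar p σ : (ZMod p)ˣ) : ZMod p))

include hdet

/-- The count for cocycles of Kummer level `e` over `K_N`. -/
theorem finrank_map_kummer_irreducible [Finite k] (hp2 : p ≠ 2) {N : ℕ} (hN : N ≠ 0) (hN2 : 2 ∣ N)
    (hρN : ∀ h ∈ (tameField p N).fixingSubgroup, localUnits p ρ h = 1)
    (A : Submodule (ZMod p) ((G p) → traceZero k)) [FiniteDimensional (ZMod p) A]
    (hA : A ≤ cocycleSub (localAd ρ p)) (hAlev : A ≤ levelSub (traceZero k) N (tameExp p))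
    (L : IntermediateField ℚ_[p] (PadicAlgCl p)) [FiniteDimensional ℚ_[p] L]
    (hLn : ∀ σ : G p, ∀ x ∈ L, σ x ∈ L) (hKL : tameField p N ≤ L)
    (hlev : ∀ ψ ∈ A, ∀ g, ∀ s ∈ L.fixingSubgroup, ψ (g * s) = ψ g) :
    finrank (ZMod p) (A.map (LinearMap.range (coboundary (localAd ρ p))).mkQ) ≤
      finrank (ZMod p) (fixedSub (localAd ρ p)) + finrank (ZMod p) k := by
  classical
  have : CharP k p := charP_of_injective_algebraMap (algebraMap (ZMod p) k).injective p
  have : Finite (traceZero k) := Finite.of_injective _ (traceZeroEquiv k).injective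
  have : NeZero p := ⟨hp.out.ne_zero⟩
  have hnorm := tameField_normal (p := p) hN hN2
  obtain ⟨B⟩ := exists_ramifiedBasis (L := tameField p N)
  obtain ⟨φ, hφϖ, hφ⟩ := exists_tame_frobenius (p := p) hN hN2
  have : NeZero (tameExp p) := ⟨tameExp_pos.ne'⟩
  obtain ⟨η, hη⟩ := HasEnoughRootsOfUnity.exists_primitiveRoot (PadicAlgCl p) (tameExp p)
  obtain ⟨τ, hτW, hτϖ⟩ := exists_tame_conj B hη.pow_eq_one
  have hϖ0 := tameRoot_ne_zero (p := p)
  have hηW : η ∈ B.W := by
    obtain ⟨c, hc⟩ := tameExp_dvd (p := p) hN2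
    exact mem_tame_W B hN (by rw [hc, pow_mul, hη.pow_eq_one, one_pow])
  have hηK : η ∈ tameField p N := B.le hηW
  have hη1 : ‖η‖ = 1 := norm_eq_one_of_pow_eq_one tameExp_pos.ne' hη.pow_eq_one
  -- `η` is fixed by the `q`-th power map
  set q := residueCard (tameField p N) with hqdef
  have hq := one_lt_residueCard (tameField p N)
  have hηq : η ^ (q - 1) = 1 := by
    have h1 : η ^ q = η := by
      refine eq_of_pow_eq_one_of_close not_dvd_tameExp
        (by rw [← pow_mul, mul_comm, pow_mul, hη.pow_eq_one, one_pow]) hη.pow_eq_one ?_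
      have h2 := (residue_eq_iff (tameField p N) (⟨⟨η, hηK⟩, hη1.le⟩ ^ q) ⟨⟨η, hηK⟩, hη1.le⟩).mp
        (by rw [map_pow]; exact pow_residueCard _ _)
      simpa using h2
    refine mul_left_cancel₀ (hη.ne_zero tameExp_pos.ne') ?_
    rw [← pow_succ', Nat.sub_add_cancel hq.le, h1, mul_one]
  have hτWmem : τ ∈ B.W.fixingSubgroup := (IntermediateField.mem_fixingSubgroup_iff _ _).mpr hτW
  have hτpow : ∀ i : ℕ, (τ ^ i) (tameRoot p) = η ^ i * tameRoot p := by
    intro i
    induction i with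
    | zero => simp
    | succ i ih =>
      rw [pow_succ, AlgEquiv.mul_apply, hτϖ, map_mul, ih,
        (IntermediateField.mem_fixingSubgroup_iff _ _).mp (pow_mem hτWmem i) η hηW]
      ring
  have heq : ∀ a b : G p, a ∈ B.W.fixingSubgroup → b ∈ B.W.fixingSubgroup →
      a (tameRoot p) = b (tameRoot p) → localUnits p ρ a = localUnits p ρ b := by
    intro a b ha hb hab
    have h1 := hρN (b⁻¹ * a) (fixes_tameField B
      ((IntermediateField.mem_fixingSubgroup_iff _ _).mp (mul_mem (inv_mem hb) ha))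
      (by rw [AlgEquiv.mul_apply, hab]; exact b.symm_apply_apply _))
    rw [map_mul, map_inv, inv_mul_eq_one] at h1
    exact h1.symm
  set T := localUnits p ρ τ with hT
  set F := localUnits p ρ φ with hF
  have hFT : F * T * F⁻¹ = T ^ p := by
    rw [hF, hT, ← map_inv, ← map_mul, ← map_mul, ← map_pow]
    refine heq _ _ (conj_mem_fixingSubgroup B hnorm φ hτWmem) (pow_mem hτWmem p) ?_
    have h1 : φ⁻¹ (tameRoot p) = tameRoot p := by
      conv_lhs => rw [← hφϖ]
      exact φ.symm_apply_apply _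
    rw [AlgEquiv.mul_apply, AlgEquiv.mul_apply, h1, hτϖ, map_mul, hφϖ, hφ η hηq, hτpow]
  have hTe : T ^ (p ^ 2 - 1) = 1 := by
    rw [hT, ← map_pow, ← map_one (localUnits p ρ)]
    refine heq _ _ (pow_mem hτWmem _) (one_mem _) ?_
    rw [hτpow, show p ^ 2 - 1 = tameExp p from rfl, hη.pow_eq_one, one_mul, AlgEquiv.one_apply]
  -- the determinant
  set g₀ := algebraMap (ZMod p) k (muExp τ) with hg₀
  have hTdet : (T : Matrix (Fin 2) (Fin 2) k).det = g₀ := by
    rw [hT, localUnits_val, hdet, hg₀, muExp_eq_cycloChar]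
  have hprimτ : IsPrimitiveRoot (τ (tameRoot p) / tameRoot p) (tameExp p) := by
    rw [hτϖ, mul_div_cancel_right₀ _ hϖ0]; exact hη
  have hμprim : IsPrimitiveRoot (muExp τ) (p - 1) := by
    letI := ZMod.algebra (Residue (tameField p N)) p
    have h2 := hp.out.two_le
    refine IsPrimitiveRoot.mk_of_lt _ (by omega) (ZMod.pow_card_sub_one_eq_one ?_) fun l hl0 hle hl => ?_
    · rw [muExp_eq_cycloChar]; exact Units.ne_zero _
    · have h1 := congrArg (algebraMap (ZMod p) (Residue (tameField p N))) hl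
      rw [map_pow, map_one, algebraMap_muExp hN hN2 B hτW, ← pow_mul] at h1
      have h3 := ((isPrimitiveRoot_toResidue (div_mem (hnorm τ _ tameRoot_mem) tameRoot_mem)
        hprimτ).pow_eq_one_iff_dvd _).mp h1
      rw [show tameExp p = (p + 1) * (p - 1) by rw [tameExp, ← Nat.sq_sub_sq, one_pow]] at h3
      exact absurd (Nat.le_of_dvd hl0 (Nat.dvd_of_mul_dvd_mul_left (by omega) h3)) (not_le.mpr hle)
  have hg : IsPrimitiveRoot g₀ (p - 1) :=
    hμprim.map_of_injective (algebraMap (ZMod p) k).injective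
  have hirr' : ∀ v : Fin 2 → k, v ≠ 0 → (∃ a : k, (T : Matrix (Fin 2) (Fin 2) k) *ᵥ v = a • v) →
      ¬ ∃ b : k, (F : Matrix (Fin 2) (Fin 2) k) *ᵥ v = b • v := by
    rintro v hv ⟨a, ha⟩ ⟨b, hb⟩
    refine hirr ⟨v, hv, fun g => ?_⟩
    obtain ⟨i, hi⟩ := exists_pow_prime_pow (tameField p N) g
    have hφi : ∀ n : ℕ, ∀ u : PadicAlgCl p, u ^ (q - 1) = 1 → (φ ^ n) u = u ^ p ^ n := by
      intro n
      induction n with
      | zero => simp
      | succ n ih =>
        intro u hu
        rw [pow_succ', AlgEquiv.mul_apply, ih u hu, map_pow, hφ u hu, ← pow_mul, pow_succ']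
    have h0 : (φ ^ i)⁻¹ * g ∈ B.W.fixingSubgroup := by
      have hle : B.W ≤ IntermediateField.fixedField (Subgroup.zpowers ((φ ^ i)⁻¹ * g)) := by
        conv_lhs => rw [B.W_eq, unramifiedPart]
        refine IntermediateField.adjoin_le_iff.mpr fun u hu => ?_
        refine (IntermediateField.mem_fixedField_iff _ _).mpr fun s hs => ?_
        refine Subgroup.zpowers_le.mpr (show (φ ^ i)⁻¹ * g ∈ MulAction.stabilizer _ u from ?_) hs
        rcases eq_or_ne u 0 with rfl | hu0
        · exact map_zero _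
        have hu1 : u ^ (q - 1) = 1 := mul_left_cancel₀ hu0 (by
          rw [← pow_succ', mul_one, Nat.sub_add_cancel hq.le, hu.2])
        show (φ ^ i)⁻¹ (g u) = u
        rw [hi u hu1, ← hφi i u hu1]
        exact (φ ^ i).symm_apply_apply u
      exact (IntermediateField.mem_fixingSubgroup_iff _ _).mpr fun w hw =>
        (IntermediateField.mem_fixedField_iff _ _).mp (hle hw) _ (Subgroup.mem_zpowers _)
    obtain ⟨j, -, hj⟩ := hη.eq_pow_of_pow_eq_one (root_div_pow_eq_one ((φ ^ i)⁻¹ * g))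
    have h1 : localUnits p ρ ((φ ^ i)⁻¹ * g) = T ^ j := by
      rw [hT, ← map_pow]
      exact heq _ _ h0 (pow_mem hτWmem j) (by rw [hτpow, hj, div_mul_cancel₀ _ hϖ0])
    rw [map_mul, map_inv, map_pow, inv_mul_eq_iff_eq_mul] at h1
    have hpw : ∀ (U : Matrix (Fin 2) (Fin 2) k) (c : k), U *ᵥ v = c • v →
        ∀ n : ℕ, (U ^ n) *ᵥ v = c ^ n • v := by
      intro U c hc n
      induction n with
      | zero => simp
      | succ n ih => rw [pow_succ, ← Matrix.mulVec_mulVec, hc, Matrix.mulVec_smul, ih, smul_smul,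
          pow_succ']
    refine ⟨a ^ j * b ^ i, ?_⟩
    rw [← localUnits_val, h1, Units.val_mul, Units.val_pow_eq_pow_val, Units.val_pow_eq_pow_val,
      ← Matrix.mulVec_mulVec, hpw _ _ ha, Matrix.mulVec_smul, hpw _ _ hb, smul_smul]
  -- the fixed vectors
  set X₀ := (2 : k) • (T : Matrix (Fin 2) (Fin 2) k) - (T : Matrix (Fin 2) (Fin 2) k).trace • 1
    with hX₀
  have hX₀tr : X₀ ∈ traceZero k := by
    rw [mem_traceZero, hX₀, Matrix.trace_sub, Matrix.trace_smul, Matrix.trace_smul, Matrix.trace_one,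
      Fintype.card_fin, smul_eq_mul, smul_eq_mul]
    push_cast; ring
  have hX₀0 : X₀ ≠ 0 := by
    intro h
    have h2 : (2 : k) ≠ 0 := ne_zero_of_two (p := p) hp2
    obtain ⟨c, hc⟩ : ∃ c : k, (T : Matrix (Fin 2) (Fin 2) k) = c • 1 :=
      ⟨(T : Matrix (Fin 2) (Fin 2) k).trace / 2, by
        rw [div_eq_inv_mul, mul_smul, ← sub_eq_zero.mp h, inv_smul_smul₀ h2]⟩
    have h1 : T = T ^ p := by
      rw [← hFT]
      refine Units.ext ?_
      rw [Units.val_mul, Units.val_mul, hc, mul_smul_comm, mul_one, smul_mul_assoc, Units.mul_inv]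
    have hcp : c ^ p = c := by
      have h2 := congrArg (fun U : (Matrix (Fin 2) (Fin 2) k)ˣ => U.1 0 0) h1
      simp only [Units.val_pow_eq_pow_val, hc, smul_pow, one_pow] at h2
      simpa using h2.symm
    refine not_exists_prime_eigen hp2 hFT hTe hTdet hg hirr' (v := ![1, 0])
      (fun h0 => one_ne_zero (congrFun h0 0)) hcp ?_
    rw [hc, Matrix.smul_mulVec, Matrix.one_mulVec]
  let ι : k →ₗ[ZMod p] traceZero k :=
    { toFun := fun a => a • ⟨X₀, hX₀tr⟩
      map_add' := fun a b => add_smul a b _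
      map_smul' := fun a b => smul_assoc a b _ }
  have hι : Function.Injective ι := fun a b hab =>
    smul_left_injective k (show (⟨X₀, hX₀tr⟩ : traceZero k) ≠ 0 from
      fun h => hX₀0 (congrArg Subtype.val h)) hab
  have hU : ∀ X ∈ LinearMap.range ι, localAd ρ p τ X = X := by
    rintro _ ⟨a, rfl⟩
    refine Subtype.ext ?_
    show (T : Matrix (Fin 2) (Fin 2) k) * (a • X₀) * ρ (localGaloisToGlobal p τ)⁻¹ = a • X₀
    have hcomm : (T : Matrix (Fin 2) (Fin 2) k) * X₀ = X₀ * T := by
      rw [hX₀, mul_sub, sub_mul, mul_smul_comm, smul_mul_assoc, mul_smul_comm, smul_mul_assoc,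
        mul_one, one_mul]
    rw [mul_smul_comm, smul_mul_assoc, hcomm, mul_assoc, hT, localUnits_val, rho_mul_inv, mul_one]
  have hA0 : ∀ X, localAd ρ p τ X = muExp τ • X → X = 0 := by
    intro X hX
    refine Subtype.ext (eq_zero_of_det_scaled hp2 hFT hTe hTdet hg hirr' X.2 ?_)
    have h1 : (T : Matrix (Fin 2) (Fin 2) k) * X.1 * ρ (localGaloisToGlobal p τ)⁻¹ = muExp τ • X.1 :=
      congrArg Subtype.val hX
    calc (T : Matrix (Fin 2) (Fin 2) k) * X.1
        = (T : Matrix (Fin 2) (Fin 2) k) * X.1 * ρ (localGaloisToGlobal p τ)⁻¹ * T := by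
          rw [hT, localUnits_val, mul_assoc (_ * X.1), rho_inv_mul, mul_one]
      _ = g₀ • (X.1 * T) := by rw [h1, hg₀, algebraMap_smul, smul_mul_assoc]
  have key := two_mul_sum_finrank_tameEigen_le (localAd ρ p) hN hN2 B hτW hprimτ hA0
    (LinearMap.range ι) hU
  rw [LinearMap.finrank_range_of_inj hι] at key
  have : Module.Finite (ZMod p) k := Module.Finite.of_finite
  have hW : finrank (ZMod p) (traceZero k) = 3 * finrank (ZMod p) k := by
    rw [← Module.finrank_mul_finrank (ZMod p) k (traceZero k), finrank_traceZero, mul_comm]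
  rw [hW] at key
  refine (finrank_map_kummer_le hN hN2 (fun h hh => adRep_eq_one_of_eq_one ρ p
    (congrArg Units.val (hρN h hh))) B hτW A hA hAlev L hLn hKL hlev _ fun i _ _ => le_rfl).trans
    (Nat.add_le_add_left ?_ _)
  omega

/-- **Flat classes at `p` without stable line.** -/
theorem finrank_span_flat_le_of_irreducible [Finite k] (hp2 : p ≠ 2) {n : ℕ} (hn : n ≠ 0)
    (c : Fin n → cocycles₁ (adRep ρ p)) (hc : ∀ j, IsFlatCocycle ρ p (fun g => c j g)) :
    finrank (ZMod p) (Submodule.span (ZMod p) (Set.range fun j =>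
      (groupCohomology.map (primeLocalToGlobal (pPrime p)) (𝟙 (locAdjoint ρ p)) 1).hom
        ((H1π (adRep ρ p)).hom (c j)))) ≤
      finrank (ZMod p) (locAdjoint ρ p).ρ.invariants + finrank (ZMod p) k := by
  obtain ⟨L0, _, hK0, hL0n, hL0, -⟩ :=
    exists_small_common (fun j g => c j g) hc hn two_ne_zero dvd_rfl
  obtain ⟨N, hN, hN2, hρN⟩ := exists_level hirr hp2 hL0n (hK0 tameRoot_mem) fun g hg =>
    Units.ext (hL0 g hg).1
  obtain ⟨L, _, hKL, hLn, hL, hsmall⟩ := exists_small_common (fun j g => c j g) hc hn hN hN2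
  let cl : Fin n → cocycles₁ (locAdjoint ρ p) := fun j =>
    (mapCocycles₁ (primeLocalToGlobal (pPrime p)) (𝟙 (locAdjoint ρ p))).hom (c j)
  let ψ : Fin n → ((G p) → traceZero k) := fun j g => c j (localGaloisToGlobal p g)
  let A := Submodule.span (ZMod p) (Set.range ψ)
  have : FiniteDimensional (ZMod p) A := FiniteDimensional.span_of_finite _ (Set.finite_range _)
  have hlevj : ∀ j, ∀ g, ∀ s ∈ L.fixingSubgroup, ψ j (g * s) = ψ j g := by
    intro j g s hs
    rw [show ψ j (g * s) = ψ j g + localAd ρ p g (ψ j s) from (hc j).local_mem g s, show ψ j s = 0 from (hL s hs).2 j, map_zero, add_zero]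
  have hA : A ≤ cocycleSub (localAd ρ p) :=
    Submodule.span_le.mpr (by rintro _ ⟨j, rfl⟩; exact (hc j).local_mem)
  have hr : ∀ h ∈ (tameField p N).fixingSubgroup, localAd ρ p h = 1 := fun h hh =>
    adRep_eq_one_of_eq_one ρ p (congrArg Units.val (hρN h hh))
  have hAlev : A ≤ levelSub (traceZero k) N (tameExp p) := by
    refine Submodule.span_le.mpr ?_
    rintro _ ⟨j, rfl⟩
    obtain ⟨B⟩ := exists_ramifiedBasis (L := L)
    refine hasKummerLevel_of_isSmall hN hN2 (zetaP_mem hN hN2) L hKL B (hsmall B) (ψ j)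
      (fun g hg h _ => ?_) fun g hg => (hL g hg).2 j
    rw [show ψ j (g * h) = ψ j g + localAd ρ p g (ψ j h) from (hc j).local_mem g h, hr g hg, Module.End.one_apply]
  have hlev : ∀ φ ∈ A, ∀ g, ∀ s ∈ L.fixingSubgroup, φ (g * s) = φ g := by
    intro φ hφ g s hs
    induction hφ using Submodule.span_induction with
    | mem x hx => obtain ⟨j, rfl⟩ := hx; exact hlevj j g s hs
    | zero => rfl
    | add x y _ _ hx hy => simp [hx, hy]
    | smul a x _ hx => simp [hx]
  have hspan : Submodule.span (ZMod p) (Set.range fun j =>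
      (groupCohomology.map (primeLocalToGlobal (pPrime p)) (𝟙 (locAdjoint ρ p)) 1).hom
        ((H1π (adRep ρ p)).hom (c j))) =
      (Submodule.span (ZMod p) (Set.range cl)).map (H1π (locAdjoint ρ p)).hom := by
    rw [Submodule.map_span, ← Set.range_comp]
    congr 2
    funext j
    exact H1π_comp_map_apply (primeLocalToGlobal (pPrime p)) (𝟙 (locAdjoint ρ p)) (c j)
  rw [hspan]
  refine (finrank_map_H1π_le_mkQ _ A fun z hz => ?_).trans
    (finrank_map_kummer_irreducible hirr hdet hp2 hN hN2 hρN A hA hAlev L hLn hKL hlev)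
  induction hz using Submodule.span_induction with
  | mem x hx => obtain ⟨j, rfl⟩ := hx; exact Submodule.subset_span ⟨j, rfl⟩
  | zero => exact zero_mem A
  | add x y _ _ hx hy => exact add_mem hx hy
  | smul a x _ hx => exact A.smul_mem a hx

end FermatLib.CFT.FlatTangent

end
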