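import Fermat.Agent.CFT.FlatTangentDefs
import Fermat.Agent.Galois.RepAdic
import Fermat.Prelude.Def_GaloisRep_Flat
import Mathlib.RingTheory.DualNumber

/-!
# Flat lifts give flat cocycles

A lift to the dual numbers which is flat at `p` gives an adjoint cocycle whose extension has a
finite flat model, so its local class lies in `flatClasses`.
-/

set_option autoImplicit false

noncomputable section

open CategoryTheory groupCohomology Module ExtCitation
open scoped Matrix

namespace FermatLib.CFT.FlatTangent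

open FermatLib.MLT.Ad FermatLib.Galois

local notation "Γℚ" => (AlgebraicClosure ℚ ≃ₐ[ℚ] AlgebraicClosure ℚ)

variable {k : Type} [Field k]

lemma finite_quotient_bot [Finite k] : Finite (DualNumber k ⧸ (⊥ : Ideal (DualNumber k))) := by
  have : Finite (DualNumber k) := inferInstanceAs (Finite (k × k))
  exact Finite.of_surjective (Ideal.Quotient.mk ⊥) Ideal.Quotient.mk_surjective

variable (k) in
/-- The two coordinates of a pair of dual numbers. -/
def dualPairEquiv : (Fin 2 → DualNumber k) ≃+ (Fin 2 → k) × (Fin 2 → k) where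
  toFun f := (fun i => (f i).fst, fun i => (f i).snd)
  invFun x i := ((x.1 i, x.2 i) : k × k)
  left_inv _ := rfl
  right_inv _ := rfl
  map_add' _ _ := rfl

lemma dualPairEquiv_mulVec (M : Matrix (Fin 2) (Fin 2) (DualNumber k)) (f : Fin 2 → DualNumber k) :
    dualPairEquiv k (M *ᵥ f) = (M.map TrivSqZeroExt.fst *ᵥ (dualPairEquiv k f).1,
      M.map TrivSqZeroExt.fst *ᵥ (dualPairEquiv k f).2 +
        M.map TrivSqZeroExt.snd *ᵥ (dualPairEquiv k f).1) := by
  refine Prod.ext (funext fun i => ?_) (funext fun i => ?_)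
  · show TrivSqZeroExt.fst ((M *ᵥ f) i) = (M.map TrivSqZeroExt.fst *ᵥ fun j => (f j).fst) i
    simp [Matrix.mulVec, dotProduct]
  · show TrivSqZeroExt.snd ((M *ᵥ f) i) =
      (M.map TrivSqZeroExt.fst *ᵥ fun j => (f j).snd) i +
        (M.map TrivSqZeroExt.snd *ᵥ fun j => (f j).fst) i
    simp [Matrix.mulVec, dotProduct, Fin.sum_univ_two]
    ring

variable {p : ℕ} [hp : Fact p.Prime] [Algebra (ZMod p) k] {ρ : Γℚ →* Matrix (Fin 2) (Fin 2) k}

/-- **A flat lift gives a flat cocycle.** -/
theorem isFlatCocycle_of_lift [Finite k] (ρA : GaloisRepAdic (DualNumber k))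
    (b : Basis (Fin 2) (DualNumber k) ρA.V)
    (hb : ∀ g, (repMatrix b ρA.ρ g).map TrivSqZeroExt.fst = ρ g) (hflat : ρA.IsFlatAt p)
    (c : cocycles₁ (adRep ρ p))
    (hc : ∀ g, (c g : traceZero k).1 = (repMatrix b ρA.ρ g).map TrivSqZeroExt.snd * ρ g⁻¹) :
    IsFlatCocycle ρ p (fun g => c g) where
  cocycle g h := (mem_cocycles₁_iff _).mp c.2 g h
  level := by
    obtain ⟨F, hF, h⟩ := ρA.isAdicContinuous 2
    have h0 : IsLocalRing.maximalIdeal (DualNumber k) ^ 2 = ⊥ := by
      rw [DualNumber.maximalIdeal_eq_span_singleton_eps, Ideal.span_singleton_pow, sq,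
        DualNumber.eps_mul_eps, Ideal.span_singleton_eq_bot]
    refine ⟨F, hF, fun s hs => ?_⟩
    have hsv : ρA.ρ s = 1 := LinearMap.ext fun v => by
      have := h s ((IntermediateField.mem_fixingSubgroup_iff F s).mp hs) v
      rwa [h0, Submodule.bot_smul, Submodule.mem_bot, sub_eq_zero] at this
    have hMs : repMatrix b ρA.ρ s = 1 := by rw [repMatrix_apply, hsv, LinearMap.toMatrix_one]
    have hρs : ρ s = 1 := by rw [← hb, hMs, Matrix.map_one _ rfl rfl]
    have hρs' : ρ s⁻¹ = 1 := by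
      have := rho_inv_mul ρ s
      rwa [hρs, mul_one] at this
    exact ⟨hρs, fun g => Subtype.ext (by
      rw [hc, hc, map_mul, mul_inv_rev, map_mul, hMs, mul_one, hρs', one_mul])⟩
  hasModel := by
    have h := hflat.2 ⊥ finite_quotient_bot
    have hbot : (⊥ : Ideal (DualNumber k)) • (⊤ : Submodule (DualNumber k) ρA.V) = ⊥ :=
      Submodule.bot_smul _
    refine Galois.FlatModel.HasModel.congr h
      ((Submodule.quotEquivOfEqBot _ hbot).toAddEquiv.trans
        (b.equivFun.toAddEquiv.trans (dualPairEquiv k))) fun σ x => ?_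
    obtain ⟨v, rfl⟩ := Submodule.Quotient.mk_surjective _ x
    show dualPairEquiv k (b.equivFun (ρA.ρ σ v)) = _
    rw [Basis.equivFun_apply, ← repMatrix_mulVec, dualPairEquiv_mulVec, hb]
    refine Prod.ext rfl ?_
    show _ = ρ σ *ᵥ _ + ((c σ : traceZero k).1 * ρ σ) *ᵥ _
    rw [hc, mul_assoc, rho_inv_mul, mul_one]
    rfl

/-- The localisation of the class of a flat lift lies in `flatClasses`. -/
theorem mem_flatClasses [Finite k] (ρA : GaloisRepAdic (DualNumber k))
    (b : Basis (Fin 2) (DualNumber k) ρA.V)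
    (hb : ∀ g, (repMatrix b ρA.ρ g).map TrivSqZeroExt.fst = ρ g) (hflat : ρA.IsFlatAt p)
    (c : cocycles₁ (adRep ρ p))
    (hc : ∀ g, (c g : traceZero k).1 = (repMatrix b ρA.ρ g).map TrivSqZeroExt.snd * ρ g⁻¹) :
    (groupCohomology.map (primeLocalToGlobal (pPrime p)) (𝟙 (locAdjoint ρ p)) 1).hom
      ((H1π (adRep ρ p)).hom c) ∈ flatClasses ρ p :=
  Submodule.subset_span ⟨c, isFlatCocycle_of_lift ρA b hb hflat c hc, rfl⟩

end FermatLib.CFT.FlatTangent

end
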