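import Fermat.Agent.CFT.FlatTangentTame
import Fermat.Agent.Galois.Flat.Corollaries
import Fermat.Agent.Mazur.GunitCyclo

/-!
# Flat cocycles of a reducible representation are Borel valued

When the decomposition group stabilises a line, the connected part of a flat residual representation
is a line `l` with unramified quotient; the connected part of the extension defined by a flat
cocycle moves it, by the coboundary of a nilpotent element, to a cocycle with values in the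
stabiliser of `l` whose diagonal is trivial on inertia.
-/

set_option autoImplicit false

noncomputable section

open Module ExtCitation
open scoped Matrix

namespace FermatLib.CFT.FlatTangent

open FermatLib.MLT.Ad FermatLib.Galois.Flat

local notation "Γℚ" => (AlgebraicClosure ℚ ≃ₐ[ℚ] AlgebraicClosure ℚ)
local notation "Gp" p:max => (PadicAlgCl p ≃ₐ[ℚ_[p]] PadicAlgCl p)

variable {k : Type} [Field k] (p : ℕ) [hp : Fact p.Prime]
  (ρ : Γℚ →* Matrix (Fin 2) (Fin 2) k)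

/-- The representation as additive maps. -/
def vecAct (σ : Γℚ) : (Fin 2 → k) →+ (Fin 2 → k) := (Matrix.mulVecLin (ρ σ)).toAddMonoidHom

lemma vecAct_apply (σ : Γℚ) (x : Fin 2 → k) : vecAct ρ σ x = ρ σ *ᵥ x := rfl

/-- The representation of the decomposition group in the basis `P`. -/
def locMat (P : (Matrix (Fin 2) (Fin 2) k)ˣ) : Gp p →* Matrix (Fin 2) (Fin 2) k where
  toFun g := P.1 * ρ (localGaloisToGlobal p g) * P⁻¹.1
  map_one' := by rw [map_one, map_one, mul_one, Units.mul_inv]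
  map_mul' g h := by
    rw [map_mul, map_mul]
    simp only [mul_assoc, Units.inv_mul_cancel_left]

lemma locMat_apply (P : (Matrix (Fin 2) (Fin 2) k)ˣ) (g : Gp p) :
    locMat p ρ P g = P.1 * ρ (localGaloisToGlobal p g) * P⁻¹.1 := rfl

lemma mul_mulVec_eq (P : (Matrix (Fin 2) (Fin 2) k)ˣ) (g : Gp p) (x : Fin 2 → k) :
    P.1 *ᵥ (ρ (localGaloisToGlobal p g) *ᵥ x) = locMat p ρ P g *ᵥ (P.1 *ᵥ x) := by
  rw [Matrix.mulVec_mulVec, Matrix.mulVec_mulVec, locMat_apply, mul_assoc (P.1 * _),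
    Units.inv_mul, mul_one]

/-- A basis whose first vector spans a stable line with unramified quotient. -/
structure IsFlatAdapted (P : (Matrix (Fin 2) (Fin 2) k)ˣ) : Prop where
  lower : ∀ g, locMat p ρ P g 1 0 = 0
  unram : ∀ g ∈ inertSub p, locMat p ρ P g 1 1 = 1

variable {p ρ}

omit hp in
/-- A nonzero vector is the first vector of a basis. -/
lemma exists_unit_mulVec {v : Fin 2 → k} (hv : v ≠ 0) :
    ∃ P : (Matrix (Fin 2) (Fin 2) k)ˣ, P.1 *ᵥ v = ![1, 0] := by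
  by_cases h0 : v 0 = 0
  · have h1 : v 1 ≠ 0 := fun h1 => hv (funext fun i => by fin_cases i <;> assumption)
    obtain ⟨P, hP⟩ := (Matrix.isUnit_iff_isUnit_det !![0, (v 1)⁻¹; 1, 0]).mpr (by
      simp [Matrix.det_fin_two, h1])
    exact ⟨P, funext fun i => by fin_cases i <;> simp [hP, h0, h1, Matrix.mulVec, dotProduct]⟩
  · obtain ⟨P, hP⟩ := (Matrix.isUnit_iff_isUnit_det !![(v 0)⁻¹, 0; -v 1, v 0]).mpr (by
      simp [Matrix.det_fin_two, h0])
    exact ⟨P, funext fun i => by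
      fin_cases i <;> simp [hP, h0, Matrix.mulVec, dotProduct, mul_comm]⟩

omit hp in
/-- A unit acts injectively. -/
lemma unit_mulVec_injective (P : (Matrix (Fin 2) (Fin 2) k)ˣ) {x y : Fin 2 → k}
    (h : P.1 *ᵥ x = P.1 *ᵥ y) : x = y := by
  have h1 := congrArg (fun w => P⁻¹.1 *ᵥ w) h
  rwa [Matrix.mulVec_mulVec, Matrix.mulVec_mulVec, Units.inv_mul, Matrix.one_mulVec,
    Matrix.one_mulVec] at h1

omit hp in
lemma unit_mulVec_inv (P : (Matrix (Fin 2) (Fin 2) k)ˣ) (x : Fin 2 → k) :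
    P.1 *ᵥ (P⁻¹.1 *ᵥ x) = x := by
  rw [Matrix.mulVec_mulVec, Units.mul_inv, Matrix.one_mulVec]

/-- A triangular basis gives characters on the diagonal. -/
lemma exists_diag_chars {P : (Matrix (Fin 2) (Fin 2) k)ˣ} (hl : ∀ g, locMat p ρ P g 1 0 = 0) :
    (∃ d : Gp p →* kˣ, ∀ g, (d g : k) = locMat p ρ P g 0 0) ∧
      ∃ d : Gp p →* kˣ, ∀ g, (d g : k) = locMat p ρ P g 1 1 := by
  refine ⟨⟨MonoidHom.toHomUnits
      { toFun := fun g => locMat p ρ P g 0 0
        map_one' := by rw [map_one]; rfl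
        map_mul' := fun g h => by simp [map_mul, Matrix.mul_apply, Fin.sum_univ_two, hl] },
      fun g => rfl⟩, ⟨MonoidHom.toHomUnits
      { toFun := fun g => locMat p ρ P g 1 1
        map_one' := by rw [map_one]; rfl
        map_mul' := fun g h => by simp [map_mul, Matrix.mul_apply, Fin.sum_univ_two, hl] },
      fun g => rfl⟩⟩

variable [Algebra (ZMod p) k]

lemma ext_hasModel_vec {c : Γℚ → traceZero k} (hc : IsFlatCocycle ρ p c) :
    Galois.FlatModel.HasModelAt p (Fin 2 → k) fun σ x => vecAct ρ σ x :=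
  hc.hasModel.of_injective (AddMonoidHom.inr (Fin 2 → k) (Fin 2 → k))
    (fun a b h => congrArg Prod.snd h) fun σ m => by
      refine Prod.ext ?_ ?_
      · exact (Matrix.mulVec_zero (ρ σ)).symm
      · show ρ σ *ᵥ m = ρ σ *ᵥ m + _ *ᵥ (0 : Fin 2 → k)
        rw [Matrix.mulVec_zero, add_zero]

lemma nsmul_p_eq_zero {M : Type} [AddCommGroup M] [Module k M] (x : M) : p • x = 0 := by
  rw [← Nat.cast_smul_eq_nsmul k, ← map_natCast (algebraMap (ZMod p) k), ZMod.natCast_self,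
    map_zero, zero_smul]

lemma exists_torsion_pow {M : Type} [AddCommGroup M] [Module k M] (x : M) :
    ∃ n : ℕ, p ^ n • x = 0 := ⟨1, by rw [pow_one]; exact nsmul_p_eq_zero (k := k) x⟩

variable [Finite k]

omit [Finite k] in
/-- **The connected part is a stable line with unramified quotient.** -/
theorem exists_isFlatAdapted (hp2 : p ≠ 2)
    (hdet : ∀ σ, (ρ σ).det = algebraMap (ZMod p) k ((cycloChar p σ : (ZMod p)ˣ) : ZMod p))
    {v : Fin 2 → k} (hv : v ≠ 0)
    (hstab : ∀ g : Gp p, ∃ a : k, ρ (localGaloisToGlobal p g) *ᵥ v = a • v)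
    {c : Γℚ → traceZero k} (hc : IsFlatCocycle ρ p c)
    {L : IntermediateField ℚ_[p] (PadicAlgCl p)} [FiniteDimensional ℚ_[p] L]
    (hLn : ∀ τ : Gp p, ∀ x ∈ L, τ x ∈ L)
    (hL : ∀ s ∈ L.fixingSubgroup, ρ (localGaloisToGlobal p s) = 1) :
    ∃ P, IsFlatAdapted p ρ P ∧ ∃ C : AddSubgroup (Fin 2 → k),
      IsConnectedPart (padicPlace p) p (vecAct ρ) C ∧ ∀ x, x ∈ C ↔ (P.1 *ᵥ x) 1 = 0 := by
  have : NeZero p := ⟨hp.out.ne_zero⟩
  have : CharP k p := charP_of_injective_algebraMap (algebraMap (ZMod p) k).injective p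
  have hA := Galois.padicPlace_liesOverPrime p
  obtain ⟨C, hC⟩ := exists_isConnectedPart hp.out hp2 hA (ext_hasModel_vec hc)
  -- `C` is a subspace
  have hCk : ∀ (a : k), ∀ x ∈ C, a • x ∈ C := fun a x hx =>
    hC.apply_mem (exists_torsion_pow (k := k)) (DistribSMul.toAddMonoidHom _ a)
      (fun σ _ y => by simp [vecAct_apply, Matrix.mulVec_smul]) hx
  let CS : Submodule k (Fin 2 → k) :=
    { carrier := C, zero_mem' := C.zero_mem, add_mem' := C.add_mem, smul_mem' := fun a x hx => hCk a x hx }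
  -- an element of inertia of cyclotomic exponent `-1`
  obtain ⟨σ₀, hσ₀, hω⟩ := Galois.exists_inertia_cycloChar_eq (p := p) hA (-1)
  have hω' : algebraMap (ZMod p) k ((cycloChar p σ₀ : (ZMod p)ˣ) : ZMod p) = -1 := by
    rw [hω]; simp
  have hne : (-1 : k) ≠ 1 := by
    intro h
    have h2 : ((2 : ℕ) : k) = 0 := by push_cast; linear_combination -h
    exact hp2 ((Nat.prime_dvd_prime_iff_eq hp.out Nat.prime_two).mp
      ((CharP.cast_eq_zero_iff k p 2).mp h2))
  have hCbot : CS ≠ ⊥ := by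
    intro h
    have hfix : ∀ x, ρ σ₀ *ᵥ x = x := fun x => by
      have h1 : ρ σ₀ *ᵥ x - x ∈ CS := hC.inertia_sub_mem σ₀ hσ₀ x
      rwa [h, Submodule.mem_bot, sub_eq_zero] at h1
    have h1 : ρ σ₀ = 1 := Matrix.ext_of_mulVec_single fun i => by rw [hfix, Matrix.one_mulVec]
    have h2 := hdet σ₀
    rw [h1, Matrix.det_one, hω'] at h2
    exact hne h2.symm
  have hCtop : CS ≠ ⊤ := by
    intro h
    have hall : ∀ x, x ∈ C := fun x => (h ▸ Submodule.mem_top : x ∈ CS)
    obtain ⟨P₀, hP₀⟩ := exists_unit_mulVec hv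
    have hl : ∀ g, locMat p ρ P₀ g 1 0 = 0 := by
      intro g
      obtain ⟨a, ha⟩ := hstab g
      have h1 := congrArg (fun w => (P₀.1 *ᵥ w) 1) ha
      simp only [mul_mulVec_eq, Matrix.mulVec_smul, hP₀] at h1
      simpa [Matrix.mulVec, dotProduct, Fin.sum_univ_two] using h1
    obtain ⟨⟨d0, hd0⟩, ⟨d1, hd1⟩⟩ := exists_diag_chars hl
    have hnat : ∀ (d : Gp p →* kˣ), (∀ s ∈ L.fixingSubgroup, d s = 1) → ∀ g ∈ inertSub p,
        ∃ a : ℕ, (a : k) = d g := fun d hd g hg =>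
      exists_cast_eq_of_pow (p := p) (by
        have h1 := pow_succ (d g) (p - 1)
        rw [Nat.sub_add_cancel hp.out.one_le, char_pow_eq_one_of_inert d hLn hd hg, one_mul] at h1
        rw [← Units.val_pow_eq_pow_val, h1])
    have hone : ∀ s ∈ L.fixingSubgroup, locMat p ρ P₀ s = 1 := fun s hs => by
      rw [locMat_apply, hL s hs, mul_one, Units.mul_inv]
    have hd0L : ∀ s ∈ L.fixingSubgroup, d0 s = 1 := fun s hs =>
      Units.ext (by rw [hd0, hone s hs]; rfl)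
    have hd1L : ∀ s ∈ L.fixingSubgroup, d1 s = 1 := fun s hs =>
      Units.ext (by rw [hd1, hone s hs]; rfl)
    obtain ⟨g₀, hg₀, rfl⟩ := exists_inert_of_mem hσ₀
    -- the coordinates
    set e0 : Fin 2 → k := P₀⁻¹.1 *ᵥ ![1, 0] with he0
    set e1 : Fin 2 → k := P₀⁻¹.1 *ᵥ ![0, 1] with he1
    have hback : ∀ x, P₀.1 *ᵥ (P₀⁻¹.1 *ᵥ x) = x := fun x => by
      rw [Matrix.mulVec_mulVec, Units.mul_inv, Matrix.one_mulVec]
    have hinj : ∀ {x y : Fin 2 → k}, P₀.1 *ᵥ x = P₀.1 *ᵥ y → x = y :=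
      fun {x y} h => unit_mulVec_injective P₀ h
    have hcol0 : ∀ g, ρ (localGaloisToGlobal p g) *ᵥ e0 = locMat p ρ P₀ g 0 0 • e0 := fun g => by
      refine hinj ?_
      rw [mul_mulVec_eq, Matrix.mulVec_smul, he0, hback]
      funext i
      fin_cases i <;> simp [Matrix.mulVec, dotProduct, Fin.sum_univ_two, hl]
    have hcol1 : ∀ g, ρ (localGaloisToGlobal p g) *ᵥ e1 =
        locMat p ρ P₀ g 0 1 • e0 + locMat p ρ P₀ g 1 1 • e1 := fun g => by
      refine hinj ?_
      rw [mul_mulVec_eq, Matrix.mulVec_add, Matrix.mulVec_smul, Matrix.mulVec_smul, he0, he1, hback,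
        hback]
      funext i
      fin_cases i <;> simp [Matrix.mulVec, dotProduct, Fin.sum_univ_two]
    let N₁ : AddSubgroup (Fin 2 → k) := (Submodule.span k {e0}).toAddSubgroup
    have hN₁ : IsInertiaStable (padicPlace p) (vecAct ρ) N₁ := by
      intro σ hσ x hx
      obtain ⟨g, hg, rfl⟩ := exists_inert_of_mem hσ
      obtain ⟨a, rfl⟩ := Submodule.mem_span_singleton.mp (show x ∈ Submodule.span k {e0} from hx)
      show ρ (localGaloisToGlobal p g) *ᵥ (a • e0) ∈ Submodule.span k {e0}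
      rw [Matrix.mulVec_smul, hcol0, smul_smul]
      exact Submodule.smul_mem _ _ (Submodule.mem_span_singleton_self e0)
    have he1N : e1 ∉ N₁ := by
      intro h1
      obtain ⟨a, ha⟩ := Submodule.mem_span_singleton.mp (show e1 ∈ Submodule.span k {e0} from h1)
      have h2 := congrArg (fun w => (P₀.1 *ᵥ w) 1) ha
      simp only [he0, he1, Matrix.mulVec_smul, hback] at h2
      simp at h2
    -- both characters are cyclotomic at `σ₀`
    have hexp : ∀ {a : ℕ}, (∀ μ : AlgebraicClosure ℚ, μ ^ p = 1 →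
        localGaloisToGlobal p g₀ μ = μ ^ a) → (a : k) = -1 := by
      intro a ha
      obtain ⟨ζ, hζ⟩ := HasEnoughRootsOfUnity.exists_primitiveRoot (AlgebraicClosure ℚ) p
      have h1 := (ha ζ hζ.pow_eq_one).symm.trans
        (Mazur.apply_eq_pow_cycloChar p (localGaloisToGlobal p g₀) hζ.pow_eq_one)
      replace h1 := (pow_eq_pow_mod a hζ.pow_eq_one).symm.trans
        (h1.trans (pow_eq_pow_mod _ hζ.pow_eq_one))
      have h2 : (a : ZMod p) = ((cycloChar p (localGaloisToGlobal p g₀) : (ZMod p)ˣ) : ZMod p) := by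
        rw [← ZMod.natCast_zmod_val ((cycloChar p (localGaloisToGlobal p g₀) : (ZMod p)ˣ) : ZMod p),
          ZMod.natCast_eq_natCast_iff']
        exact hζ.pow_inj (Nat.mod_lt _ hp.out.pos) (Nat.mod_lt _ hp.out.pos) h1
      rw [← map_natCast (algebraMap (ZMod p) k), h2, hω']
    have h00 : locMat p ρ P₀ g₀ 0 0 = -1 := by
      obtain ⟨a, ha⟩ := hnat d0 hd0L g₀ hg₀
      rw [hd0] at ha
      rw [← ha]
      refine hexp (hC.cyclotomic ⊥ isInertiaStable_bot e0 (hall e0) (fun h0 => ?_)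
        (by rw [nsmul_p_eq_zero (k := k)]; exact zero_mem _) (fun τ hτ => ?_) _ hσ₀ a ?_)
      · have h1 := congrArg (fun w => (P₀.1 *ᵥ w) 0) (AddSubgroup.mem_bot.mp h0)
        simp only [he0, hback, Matrix.mulVec_zero] at h1
        simp at h1
      · obtain ⟨g, hg, rfl⟩ := exists_inert_of_mem hτ
        obtain ⟨b, hb⟩ := hnat d0 hd0L g hg
        refine ⟨b, ?_⟩
        rw [vecAct_apply, hcol0, ← hd0, ← hb, Nat.cast_smul_eq_nsmul, sub_self]
        exact zero_mem _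
      · rw [vecAct_apply, hcol0, ← ha, Nat.cast_smul_eq_nsmul, sub_self]
        exact zero_mem _
    have hmem1 : ∀ g (b : ℕ), (b : k) = locMat p ρ P₀ g 1 1 →
        vecAct ρ (localGaloisToGlobal p g) e1 - b • e1 ∈ N₁ := fun g b hb => by
      rw [vecAct_apply, hcol1, ← hb, Nat.cast_smul_eq_nsmul, add_sub_cancel_right]
      exact Submodule.smul_mem _ _ (Submodule.mem_span_singleton_self e0)
    have h11 : locMat p ρ P₀ g₀ 1 1 = -1 := by
      obtain ⟨a, ha⟩ := hnat d1 hd1L g₀ hg₀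
      rw [hd1] at ha
      rw [← ha]
      refine hexp (hC.cyclotomic N₁ hN₁ e1 (hall e1) he1N
        (by rw [nsmul_p_eq_zero (k := k)]; exact zero_mem _) (fun τ hτ => ?_) _ hσ₀ a
        (hmem1 g₀ a ha))
      obtain ⟨g, hg, rfl⟩ := exists_inert_of_mem hτ
      obtain ⟨b, hb⟩ := hnat d1 hd1L g hg
      exact ⟨b, hmem1 g b (hb.trans (hd1 g))⟩
    have h2 := hdet (localGaloisToGlobal p g₀)
    have h3 : (locMat p ρ P₀ g₀).det = (ρ (localGaloisToGlobal p g₀)).det := by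
      rw [locMat_apply, Matrix.det_units_conj]
    rw [Matrix.det_fin_two, h00, h11, hl, mul_zero, sub_zero, h2, hω'] at h3
    exact hne (by linear_combination -h3)
  -- `C` is the line of a basis vector
  obtain ⟨u, huC, hu0⟩ := (Submodule.ne_bot_iff _).mp hCbot
  obtain ⟨P, hP⟩ := exists_unit_mulVec hu0
  have hCline : CS = Submodule.span k {u} := by
    have hle : Submodule.span k {u} ≤ CS :=
      (Submodule.span_singleton_le_iff_mem u CS).mpr huC
    refine (Submodule.eq_of_le_of_finrank_le hle ?_).symm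
    have h1 := Submodule.finrank_lt hCtop
    rw [Module.finrank_fin_fun] at h1
    rw [finrank_span_singleton hu0]
    omega
  have hmem : ∀ x, x ∈ C ↔ (P.1 *ᵥ x) 1 = 0 := by
    intro x
    show x ∈ CS ↔ _
    rw [hCline, Submodule.mem_span_singleton]
    constructor
    · rintro ⟨a, rfl⟩
      simp [Matrix.mulVec_smul, hP]
    · intro hx
      refine ⟨(P.1 *ᵥ x) 0, ?_⟩
      have h1 : P.1 *ᵥ ((P.1 *ᵥ x) 0 • u) = P.1 *ᵥ x := by
        rw [Matrix.mulVec_smul, hP]
        funext i; fin_cases i <;> simp [hx]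
      exact unit_mulVec_injective P h1
  refine ⟨P, ⟨fun g => ?_, fun g hg => ?_⟩, C, hC, hmem⟩
  · have h1 := (hmem _).mp (hC.decomposition_stable (localGaloisToGlobal p g)
      (localGaloisToGlobal_mem_decompositionSubgroup p g) u huC)
    rw [vecAct_apply, mul_mulVec_eq, hP] at h1
    simpa [Matrix.mulVec, dotProduct, Fin.sum_univ_two] using h1
  · have h1 := (hmem _).mp (hC.inertia_sub_mem (localGaloisToGlobal p g) hg (P⁻¹.1 *ᵥ ![0, 1]))
    rw [vecAct_apply, Matrix.mulVec_sub, mul_mulVec_eq, unit_mulVec_inv] at h1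
    simpa [Matrix.mulVec, dotProduct, Fin.sum_univ_two, sub_eq_zero] using h1

omit [Finite k] in
/-- Multiplication by scalars commutes with the extension. -/
lemma extAct_smul (c : Γℚ → Matrix (Fin 2) (Fin 2) k) (σ : Γℚ) (a : k)
    (m : (Fin 2 → k) × (Fin 2 → k)) : extAct ρ c σ (a • m) = a • extAct ρ c σ m := by
  refine Prod.ext ?_ ?_
  · exact Matrix.mulVec_smul (ρ σ) a m.1
  show ρ σ *ᵥ (a • m.2) + _ *ᵥ (a • m.1) = a • (ρ σ *ᵥ m.2 + _ *ᵥ m.1)
  rw [Matrix.mulVec_smul, Matrix.mulVec_smul, smul_add]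

variable (P : (Matrix (Fin 2) (Fin 2) k)ˣ)

omit [Algebra (ZMod p) k] [Finite k] in
/-- The lower nilpotent element. -/
def shiftElt (y : k) : traceZero k :=
  ⟨P⁻¹.1 * !![0, 0; y, 0] * P.1, by
    rw [mem_traceZero, Matrix.trace_mul_cycle, Units.mul_inv, one_mul, Matrix.trace_fin_two]
    simp⟩

/-- **A flat cocycle is Borel valued up to a coboundary**, with diagonal trivial on inertia. -/
theorem exists_shift (hp2 : p ≠ 2) (hP : IsFlatAdapted p ρ P) {C : AddSubgroup (Fin 2 → k)}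
    (hC : IsConnectedPart (padicPlace p) p (vecAct ρ) C)
    (hmem : ∀ x, x ∈ C ↔ (P.1 *ᵥ x) 1 = 0) {c : Γℚ → traceZero k} (hc : IsFlatCocycle ρ p c) :
    ∃ y : k, ∀ g : Gp p,
      (P.1 * (c (localGaloisToGlobal p g) +
        (localAd ρ p g (shiftElt P y) - shiftElt P y)).1 * P⁻¹.1) 1 0 = 0 ∧
      (g ∈ inertSub p → (P.1 * (c (localGaloisToGlobal p g) +
        (localAd ρ p g (shiftElt P y) - shiftElt P y)).1 * P⁻¹.1) 1 1 = 0) := by
  have hA := Galois.padicPlace_liesOverPrime p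
  set act := extAct ρ (fun τ => (c τ).1) with hact
  obtain ⟨CM, hCM⟩ := exists_isConnectedPart hp.out hp2 hA (act := act) hc.hasModel
  have htM := exists_torsion_pow (p := p) (k := k) (M := (Fin 2 → k) × (Fin 2 → k))
  have htV := exists_torsion_pow (p := p) (k := k) (M := Fin 2 → k)
  have hCMk : ∀ (a : k), ∀ x ∈ CM, a • x ∈ CM := fun a x hx =>
    hCM.apply_mem htM (DistribSMul.toAddMonoidHom _ a)
      (fun σ _ m => (extAct_smul _ σ a m).symm) hx
  -- the first projection maps onto `C`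
  let π₁ : (Fin 2 → k) × (Fin 2 → k) →+ (Fin 2 → k) := AddMonoidHom.fst _ _
  have hπC : ∀ x ∈ CM, x.1 ∈ C := fun x hx =>
    hCM.map_le hC htM π₁ (fun σ _ m => rfl) ⟨x, hx, rfl⟩
  have hCπ : C ≤ CM.map π₁ := by
    refine hC.le_of_quotient_fixed (fun σ hσ n hn => ?_) htV fun σ hσ x => ?_
    · obtain ⟨m, hm, rfl⟩ := hn
      exact ⟨act σ m, hCM.isInertiaStable σ hσ m hm, rfl⟩
    · exact ⟨act σ (x, 0) - (x, 0), hCM.inertia_sub_mem σ hσ _, rfl⟩
  obtain ⟨⟨u', w⟩, hw, hu'⟩ := hCπ ((hmem (P⁻¹.1 *ᵥ ![1, 0])).mpr (by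
    rw [unit_mulVec_inv]; simp))
  change u' = _ at hu'
  -- the kernel of the projection
  let ι₂ : (Fin 2 → k) →+ (Fin 2 → k) × (Fin 2 → k) := AddMonoidHom.inr _ _
  have hι : ∀ σ x, ι₂ (vecAct ρ σ x) = act σ (ι₂ x) := fun σ x => by
    refine Prod.ext ?_ ?_
    · exact (Matrix.mulVec_zero (ρ σ)).symm
    show ρ σ *ᵥ x = ρ σ *ᵥ x + _ *ᵥ (0 : Fin 2 → k)
    rw [Matrix.mulVec_zero, add_zero]
  have hker : ∀ x, ((0, x) : (Fin 2 → k) × (Fin 2 → k)) ∈ CM → x ∈ C := by
    intro x hx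
    have hN : IsInertiaStable (padicPlace p) act (C.map ι₂) := by
      rintro σ hσ _ ⟨n, hn, rfl⟩
      exact ⟨vecAct ρ σ n, hC.isInertiaStable σ hσ n hn, hι σ n⟩
    obtain ⟨n, hn, hn'⟩ := hCM.mem_of_fixed (C.map ι₂) hN (0, x) hx 1
      (by rw [pow_one, nsmul_p_eq_zero (k := k)]; exact zero_mem _)
      fun σ hσ => ⟨vecAct ρ σ x - x, hC.inertia_sub_mem σ hσ x, by
        rw [map_sub, hι]; rfl⟩
    rwa [show n = x from congrArg Prod.snd hn'] at hn
  refine ⟨(P.1 *ᵥ w) 1, fun g => ?_⟩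
  set σ := localGaloisToGlobal p g with hσ
  set y := (P.1 *ᵥ w) 1 with hy
  set T := locMat p ρ P g with hT
  set T' := locMat p ρ P g⁻¹ with hT'
  set Ĉ := P.1 * (c σ).1 * P⁻¹.1 with hĈ
  have hval : P.1 * (c σ + (localAd ρ p g (shiftElt P y) - shiftElt P y)).1 * P⁻¹.1 =
      Ĉ + (T * !![0, 0; y, 0] * T' - !![0, 0; y, 0]) := by
    show P.1 * ((c σ).1 + (ρ σ * (P⁻¹.1 * _ * P.1) * ρ σ⁻¹ - P⁻¹.1 * _ * P.1)) * P⁻¹.1 = _
    rw [hT, hT', hĈ, locMat_apply, locMat_apply, map_inv (localGaloisToGlobal p), ← hσ,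
      mul_add, add_mul, mul_sub, sub_mul]
    simp only [mul_assoc, Units.mul_inv, Units.mul_inv_cancel_left, mul_one]
  rw [hval]
  have hTT : T * T' = 1 := by rw [hT, hT', ← map_mul, mul_inv_cancel, map_one]
  have hl : T 1 0 = 0 := hP.lower g
  have hl' : T' 1 0 = 0 := hP.lower g⁻¹
  have e00 : T 0 0 * T' 0 0 = 1 := by
    have := congrFun (congrFun hTT 0) 0
    simpa [Matrix.mul_apply, Fin.sum_univ_two, hl'] using this
  have e01 : T 0 0 * T' 0 1 + T 0 1 * T' 1 1 = 0 := by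
    have := congrFun (congrFun hTT 0) 1
    simpa [Matrix.mul_apply, Fin.sum_univ_two] using this
  have e11 : T 1 1 * T' 1 1 = 1 := by
    have := congrFun (congrFun hTT 1) 1
    simpa [Matrix.mul_apply, Fin.sum_univ_two, hl] using this
  have hu : P.1 *ᵥ u' = ![1, 0] := by
    rw [hu', Matrix.mulVec_mulVec, Units.mul_inv, Matrix.one_mulVec]
  have hcρ : ∀ x, P.1 *ᵥ (((c σ).1 * ρ σ) *ᵥ x) = Ĉ *ᵥ (T *ᵥ (P.1 *ᵥ x)) := by
    intro x
    rw [hT, hĈ, locMat_apply, Matrix.mulVec_mulVec, Matrix.mulVec_mulVec, Matrix.mulVec_mulVec,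
      ← hσ]
    simp only [mul_assoc, Units.inv_mul_cancel_left, Units.inv_mul, mul_one]
  -- stability of the connected part under the decomposition group
  have hD : Ĉ 1 0 * T 0 0 + (T 1 1 - T 0 0) * y = 0 := by
    have h1 := sub_mem (hCM.decomposition_stable σ (localGaloisToGlobal_mem_decompositionSubgroup p g)
      (u', w) hw) (hCMk (T 0 0) _ hw)
    have hfst : ρ σ *ᵥ u' - T 0 0 • u' = 0 := by
      have h2 : P.1 *ᵥ (ρ σ *ᵥ u' - T 0 0 • u') = 0 := by
        rw [Matrix.mulVec_sub, Matrix.mulVec_smul, hσ, mul_mulVec_eq, hu, ← hT]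
        funext i
        fin_cases i <;> simp [hl]
      exact unit_mulVec_injective P (h2.trans (Matrix.mulVec_zero _).symm)
    have h2 := (hmem _).mp (hker (ρ σ *ᵥ w + ((c σ).1 * ρ σ) *ᵥ u' - T 0 0 • w) (by
      convert h1 using 1
      exact Prod.ext hfst.symm rfl))
    rw [Matrix.mulVec_sub, Matrix.mulVec_add, Matrix.mulVec_smul, hcρ, hu, hσ, mul_mulVec_eq,
      ← hT] at h2
    obtain ⟨z, hz⟩ : ∃ z, P.1 *ᵥ w = z := ⟨_, rfl⟩
    rw [hz] at h2
    simp [hl] at h2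
    rw [hy, hz]
    linear_combination h2
  have hT00 : T 0 0 ≠ 0 := left_ne_zero_of_mul_eq_one e00
  refine ⟨?_, fun hg => ?_⟩
  · simp [Matrix.mul_apply, Fin.sum_univ_two, hl, hl']
    refine mul_left_cancel₀ hT00 ?_
    linear_combination hD + (T 1 1 * y) * e00
  have hu11 : T 1 1 = 1 := hP.unram g hg
  set v' := P⁻¹.1 *ᵥ ![0, 1] with hv'
  have hv'P : P.1 *ᵥ v' = ![0, 1] := by
    rw [hv', Matrix.mulVec_mulVec, Units.mul_inv, Matrix.one_mulVec]
  have hI : Ĉ 1 0 * T 0 1 + Ĉ 1 1 - T 0 1 * y = 0 := by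
    have h1 := sub_mem (hCM.inertia_sub_mem σ hg (v', 0)) (hCMk (T 0 1) _ hw)
    have hfst : ρ σ *ᵥ v' - v' - T 0 1 • u' = 0 := by
      have h2 : P.1 *ᵥ (ρ σ *ᵥ v' - v' - T 0 1 • u') = 0 := by
        rw [Matrix.mulVec_sub, Matrix.mulVec_sub, Matrix.mulVec_smul, hσ, mul_mulVec_eq, hu, hv'P,
          ← hT]
        funext i
        fin_cases i <;> simp [hu11]
      exact unit_mulVec_injective P (h2.trans (Matrix.mulVec_zero _).symm)
    have h2 := (hmem _).mp (hker (((c σ).1 * ρ σ) *ᵥ v' - T 0 1 • w) (by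
      convert h1 using 1
      refine Prod.ext hfst.symm ?_
      show _ = ρ σ *ᵥ 0 + ((c σ).1 * ρ σ) *ᵥ v' - 0 - T 0 1 • w
      rw [Matrix.mulVec_zero, zero_add, sub_zero]))
    rw [Matrix.mulVec_sub, Matrix.mulVec_smul, hcρ, hv'P] at h2
    obtain ⟨z, hz⟩ : ∃ z, P.1 *ᵥ w = z := ⟨_, rfl⟩
    rw [hz] at h2
    simp [hu11] at h2
    rw [hy, hz]
    linear_combination h2
  simp [Matrix.mul_apply, Fin.sum_univ_two, hl]
  refine mul_left_cancel₀ hT00 ?_
  rw [hu11] at e11 hD ⊢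
  linear_combination T 0 0 * hI - T 0 1 * hD + y * e01 - (T 0 1 * y) * e11

end FermatLib.CFT.FlatTangent

end
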