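import Fermat.Agent.CFT.GWDefs
import Fermat.Agent.CFT.LocalFrobenius
import Fermat.Agent.Galois.FrobeniusElement

/-!
Local Frobenius and inertial elements seen through `primeLocalToGlobal`.
-/

set_option autoImplicit false
set_option linter.unusedSectionVars false

open ExtCitation

namespace FermatLib.CFT.GWUnr

local notation "Qbar" => AlgebraicClosure ℚ

variable {q : Nat.Primes}

/-- A local automorphism as an element of the local group at `q`. -/
noncomputable def locEquiv (q : Nat.Primes) : Gloc q ≃* primeLocalGaloisGroup q :=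
  MulEquiv.refl _

theorem emb_locToGlobal (τ : Gloc q) (x : Qbar) :
    padicEmbedding (q : ℕ) (primeLocalToGlobal q (locEquiv q τ) x) =
      τ (padicEmbedding (q : ℕ) x) :=
  padicEmbedding_localGaloisToGlobal (q : ℕ) τ x

theorem mem_primeLocalPlace_iff {x : Qbar} :
    x ∈ primeLocalPlace q ↔ ‖padicEmbedding (q : ℕ) x‖ ≤ 1 := Iff.rfl

theorem mem_nonunits_primeLocalPlace_iff {x : Qbar} :
    x ∈ (primeLocalPlace q).nonunits ↔ ‖padicEmbedding (q : ℕ) x‖ < 1 := by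
  rw [ValuationSubring.mem_nonunits_iff]
  rcases eq_or_ne x 0 with rfl | hx
  · simp
  · rw [lt_iff_not_ge, lt_iff_not_ge, not_iff_not, ← inv_le_one₀ (zero_lt_iff.2
      ((Valuation.ne_zero_iff _).2 hx)), ← map_inv₀, ValuationSubring.valuation_le_one_iff,
      mem_primeLocalPlace_iff, map_inv₀, norm_inv,
      inv_le_one₀ (norm_pos_iff.2 ((map_ne_zero _).2 hx))]

theorem mem_inertia_of_isInertial {τ : Gloc q} (hτ : Loc.IsInertial τ) :
    primeLocalToGlobal q (locEquiv q τ) ∈ (primeLocalPlace q).inertiaSubgroupIn ℚ := by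
  refine Galois.mem_inertiaSubgroupIn_iff_forall_mem.2
    ⟨localGaloisToGlobal_mem_decompositionSubgroup (q : ℕ) τ, fun x hx => ?_⟩
  rw [mem_nonunits_primeLocalPlace_iff, map_sub, emb_locToGlobal]
  exact hτ _ (mem_primeLocalPlace_iff.1 hx)

theorem isInertial_norm {σ : primeLocalGaloisGroup q}
    (h : primeLocalToGlobal q σ ∈ (primeLocalPlace q).inertiaSubgroupIn ℚ) {x : Qbar}
    (hx : ‖padicEmbedding (q : ℕ) x‖ ≤ 1) :
    ‖(locEquiv q).symm σ (padicEmbedding (q : ℕ) x) - padicEmbedding (q : ℕ) x‖ < 1 := by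
  have h1 := (Galois.mem_inertiaSubgroupIn_iff_forall_mem.1 h).2 x (mem_primeLocalPlace_iff.2 hx)
  rw [mem_nonunits_primeLocalPlace_iff, map_sub, ← (locEquiv q).apply_symm_apply σ,
    emb_locToGlobal] at h1
  exact h1

instance finiteDimensional_botLocalField :
    FiniteDimensional ℚ_[(q : ℕ)] (⊥ : LocalField q) := inferInstance

theorem resDeg_bot : Loc.resDeg (⊥ : LocalField q) = 1 := by
  have h := Loc.ramIdx_mul_resDeg (⊥ : LocalField q)
  rw [IntermediateField.finrank_bot] at h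
  exact (mul_eq_one.1 h).2

theorem fixesField_bot (τ : Gloc q) : Loc.FixesField (⊥ : LocalField q) τ := fun x => by
  obtain ⟨a, ha⟩ := IntermediateField.mem_bot.1 x.2
  rw [← ha]
  exact τ.commutes a

/-- A Frobenius element of `G_q`. -/
theorem exists_localFrobenius : ∃ g₀ : Gloc q,
    ∀ x, ‖x‖ ≤ 1 → ‖g₀ x - x ^ (q : ℕ)‖ < 1 := by
  obtain ⟨τ, -, hτ⟩ := Loc.exists_frobenius (⊥ : LocalField q)
  rw [resDeg_bot, pow_one] at hτ
  exact ⟨τ, hτ⟩

theorem norm_pow_frobenius {g₀ : Gloc q} (hg₀ : ∀ x, ‖x‖ ≤ 1 → ‖g₀ x - x ^ (q : ℕ)‖ < 1)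
    (k : ℕ) : ∀ x, ‖x‖ ≤ 1 → ‖(g₀ ^ k) x - x ^ (q : ℕ) ^ k‖ < 1 := by
  induction k with
  | zero => intro x _; simp
  | succ k ih =>
    intro x hx
    rw [pow_succ', AlgEquiv.mul_apply, pow_succ, pow_mul]
    exact Loc.norm_sub_lt_trans (hg₀ _ (by rwa [Loc.norm_gloc]))
      (Loc.norm_pow_sub_pow_lt (by rwa [Loc.norm_gloc])
        (by rw [norm_pow]; exact pow_le_one₀ (norm_nonneg _) hx) (ih x hx) _)

/-- On a finite level every element of `G_q` is a Frobenius power times an inertial element. -/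
theorem exists_decomp {g₀ : Gloc q} (hg₀ : ∀ x, ‖x‖ ≤ 1 → ‖g₀ x - x ^ (q : ℕ)‖ < 1)
    (K : IntermediateField ℚ Qbar) [FiniteDimensional ℚ K] (g : primeLocalGaloisGroup q) :
    ∃ (k : ℕ) (t : Gloc q) (s : primeLocalGaloisGroup q), Loc.IsInertial t ∧
      primeLocalToGlobal q s ∈ K.fixingSubgroup ∧ g = locEquiv q (g₀ ^ k * t) * s := by
  set τ : Gloc q := (locEquiv q).symm g with hτ
  let b := Module.finBasis ℚ K
  let s₀ : Set (PadicAlgCl (q : ℕ)) := Set.range fun i => padicEmbedding (q : ℕ) (b i : Qbar)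
  let E : LocalField q := IntermediateField.adjoin ℚ_[(q : ℕ)] s₀
  have : FiniteDimensional ℚ_[(q : ℕ)] E :=
    IntermediateField.finiteDimensional_adjoin fun x _ => Algebra.IsIntegral.isIntegral x
  obtain ⟨j, hj⟩ := Loc.exists_residue_pow (⊥ : LocalField q) (fixesField_bot τ) E
  rw [resDeg_bot, one_mul] at hj
  have hres : ∀ x : E, ‖x‖ ≤ 1 → ‖((g₀ ^ j)⁻¹ * τ) x - x‖ < 1 := fun x hx => by
    have h1 := hj x x.2 hx
    have h2 := norm_pow_frobenius hg₀ j (x : PadicAlgCl (q : ℕ)) hx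
    rw [AlgEquiv.mul_apply, ← Loc.norm_gloc (g₀ ^ j), map_sub, AlgEquiv.aut_inv,
      AlgEquiv.apply_symm_apply]
    exact Loc.norm_sub_lt_trans h1 (Loc.norm_sub_lt_symm h2)
  obtain ⟨t, ht, hagree⟩ := Loc.exists_inertial_agree E hres
  refine ⟨j, t, locEquiv q ((g₀ ^ j * t)⁻¹ * τ), ht, ?_, ?_⟩
  · rw [IntermediateField.mem_fixingSubgroup_iff]
    intro x hx
    apply (padicEmbedding (q : ℕ)).injective
    simp only [AlgHom.toRingHom_eq_coe, RingHom.coe_coe]
    rw [emb_locToGlobal]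
    have hxE : padicEmbedding (q : ℕ) x ∈ E := by
      rw [show x = ((⟨x, hx⟩ : K) : Qbar) from rfl, ← b.sum_repr ⟨x, hx⟩]
      simp only [AddSubmonoidClass.coe_finsetSum, SetLike.val_smul, map_sum]
      refine sum_mem fun i _ => ?_
      simp only [Algebra.smul_def, map_mul, eq_ratCast, map_ratCast]
      exact mul_mem (SubfieldClass.ratCast_mem _ _)
        (IntermediateField.subset_adjoin _ s₀ ⟨i, rfl⟩)
    rw [mul_inv_rev, mul_assoc, AlgEquiv.mul_apply, ← hagree (⟨_, hxE⟩ : E), AlgEquiv.aut_inv,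
      AlgEquiv.symm_apply_apply]
  · rw [← map_mul, mul_inv_cancel_left, hτ, MulEquiv.apply_symm_apply]

theorem apply_rootOfUnity_frobenius {g₀ : Gloc q}
    (hg₀ : ∀ x, ‖x‖ ≤ 1 → ‖g₀ x - x ^ (q : ℕ)‖ < 1) {ζ : Qbar} {m : ℕ} (hm : ¬ (q : ℕ) ∣ m)
    (hζ : ζ ^ m = 1) (k : ℕ) {t : Gloc q} (ht : Loc.IsInertial t) :
    primeLocalToGlobal q (locEquiv q (g₀ ^ k * t)) ζ = ζ ^ (q : ℕ) ^ k := by
  apply (padicEmbedding (q : ℕ)).injective
  simp only [AlgHom.toRingHom_eq_coe, RingHom.coe_coe]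
  have h : padicEmbedding (q : ℕ) ζ ^ m = 1 := by rw [← map_pow, hζ, map_one]
  rw [emb_locToGlobal, map_pow, AlgEquiv.mul_apply,
    Loc.frobenius_rootOfUnity (τ := t) (N := 1) (fun x hx => by rw [pow_one]; exact ht x hx) hm h,
    pow_one]
  exact Loc.frobenius_rootOfUnity (norm_pow_frobenius hg₀ k) hm h

end FermatLib.CFT.GWUnr
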