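import Fermat.Agent.CFT.FlatTangentDefs
import Fermat.Agent.CFT.GWUnrLocal
import Fermat.Agent.CFT.TameEigenCount
import Fermat.Agent.CFT.TameImage
import Fermat.Agent.CFT.OrdTangentKummer
import Fermat.Agent.CFT.IdeleBridge
import Fermat.Agent.Galois.CyclotomicFrobenius

/-!
# Tame characters of the local group and their small cocycles

Characters of finite level of the Galois group of `ℚ_p` have exponent `p - 1` on inertia; unramified
ones are determined by a Frobenius. For a character `χ` trivial on `K_N` which is the cyclotomic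
character on a tame generator, the cocycles which live on a Fontaine-small field span at most
`2 [k : 𝔽_p]` dimensions.
-/

set_option autoImplicit false
set_option linter.style.haveILetI false

noncomputable section

open Module ExtCitation

namespace FermatLib.CFT.FlatTangent

open FermatLib.CFT.Fontaine

variable {p : ℕ} [hp : Fact p.Prime]

local notation "Gp" => (PadicAlgCl p ≃ₐ[ℚ_[p]] PadicAlgCl p)
local notation "Qbar" => AlgebraicClosure ℚ

variable (p) in
/-- The inertia subgroup, seen through the global group. -/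
def inertSub : Subgroup Gp :=
  ((padicPlace p).inertiaSubgroupIn ℚ).comap (localGaloisToGlobal p)

/-- Every inertia element comes from the local group. -/
lemma exists_inert_of_mem {σ : Qbar ≃ₐ[ℚ] Qbar} (hσ : σ ∈ (padicPlace p).inertiaSubgroupIn ℚ) :
    ∃ g ∈ inertSub p, localGaloisToGlobal p g = σ := by
  have h := Galois.inertiaSubgroupIn_le_decompositionSubgroup hσ
  obtain ⟨g, rfl⟩ := (decompositionSubgroup_padicPlace (pPrime p)).le h
  exact ⟨g, hσ, rfl⟩

/-- Inertia fixes the unramified part. -/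
theorem mem_fixingSubgroup_W {L : IntermediateField ℚ_[p] (PadicAlgCl p)}
    [FiniteDimensional ℚ_[p] L] (B : RamifiedBasis L) {g : Gp} (hg : g ∈ inertSub p) :
    g ∈ B.W.fixingSubgroup := by
  have hq := one_lt_residueCard L
  have hndvd : ¬ p ∣ residueCard L - 1 := fun h => by
    have h1 := Nat.dvd_sub (dvd_residueCard L) h
    rw [show residueCard L - (residueCard L - 1) = 1 by omega] at h1
    exact hp.out.not_dvd_one h1
  rw [IntermediateField.mem_fixingSubgroup_iff, B.W_eq]
  intro w hw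
  induction hw using IntermediateField.adjoin_induction with
  | mem u hu =>
    rcases eq_or_ne u 0 with rfl | hu0
    · exact map_zero g
    have hu1 : u ^ (residueCard L - 1) = 1 := mul_left_cancel₀ hu0 (by
      rw [← pow_succ', mul_one, Nat.sub_add_cancel hq.le, hu.2])
    have : NeZero (residueCard L - 1) := ⟨by omega⟩
    obtain ⟨z, hz⟩ := HasEnoughRootsOfUnity.exists_primitiveRoot Qbar (residueCard L - 1)
    obtain ⟨i, -, hi⟩ := (hz.map_of_injective (f := padicEmbedding p)
      (padicEmbedding p).toRingHom.injective).eq_pow_of_pow_eq_one hu1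
    have hnorm : ‖u‖ = 1 := norm_eq_one_of_pow_eq_one (by omega) hu1
    refine eq_of_pow_eq_one_of_close hndvd (by rw [← map_pow, hu1, map_one]) hu1 ?_
    rw [← map_pow] at hi
    rw [← hi] at hnorm ⊢
    exact GWUnr.isInertial_norm (q := pPrime p) (σ := g) hg hnorm.le
  | algebraMap c => exact g.commutes c
  | add x y _ _ hx hy => rw [map_add, hx, hy]
  | inv x _ hx => rw [map_inv₀, hx]
  | mul x y _ _ hx hy => rw [map_mul, hx, hy]

lemma exists_frobenius_decomp_at (q : Nat.Primes) :
    ∃ g₀ : Gloc q, ∀ (K : IntermediateField ℚ Qbar), FiniteDimensional ℚ K → ∀ g : Gloc q,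
      ∃ (j : ℕ) (t s : Gloc q),
        primeLocalToGlobal q (GWUnr.locEquiv q t) ∈ (primeLocalPlace q).inertiaSubgroupIn ℚ ∧
        primeLocalToGlobal q (GWUnr.locEquiv q s) ∈ K.fixingSubgroup ∧ g = g₀ ^ j * t * s ∧
        ∀ ζ : Qbar, ∀ m : ℕ, ¬ (q : ℕ) ∣ m → ζ ^ m = 1 →
          primeLocalToGlobal q (GWUnr.locEquiv q (g₀ ^ j * t)) ζ = ζ ^ (q : ℕ) ^ j := by
  obtain ⟨g₀, hg₀⟩ := GWUnr.exists_localFrobenius (q := q)
  refine ⟨g₀, fun K hK g => ?_⟩
  have := hK
  obtain ⟨j, t, s, ht, hs, hg⟩ := GWUnr.exists_decomp hg₀ K (GWUnr.locEquiv q g)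
  refine ⟨j, t, (GWUnr.locEquiv q).symm s, GWUnr.mem_inertia_of_isInertial ht, ?_, ?_,
    fun ζ m hm hζ => GWUnr.apply_rootOfUnity_frobenius hg₀ hm hζ j ht⟩
  · rwa [MulEquiv.apply_symm_apply]
  · have h := congrArg (GWUnr.locEquiv q).symm hg
    rwa [map_mul, MulEquiv.symm_apply_apply, MulEquiv.symm_apply_apply] at h

/-- A Frobenius and the decomposition over a number field. -/
theorem exists_frobenius_decomp :
    ∃ g₀ : Gp, (∀ (K : IntermediateField ℚ Qbar), FiniteDimensional ℚ K → ∀ g : Gp,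
      ∃ (j : ℕ) (t s : Gp), t ∈ inertSub p ∧ localGaloisToGlobal p s ∈ K.fixingSubgroup ∧
        g = g₀ ^ j * t * s ∧ ∀ ζ : Qbar, ∀ m : ℕ, ¬ p ∣ m → ζ ^ m = 1 →
          localGaloisToGlobal p (g₀ ^ j * t) ζ = ζ ^ p ^ j) :=
  exists_frobenius_decomp_at (pPrime p)

variable {k : Type} [Field k]

/-- **A character of finite level has exponent `p - 1` on inertia.** -/
theorem char_pow_eq_one_of_inert [CharP k p] (χ : Gp →* kˣ)
    {L : IntermediateField ℚ_[p] (PadicAlgCl p)} [FiniteDimensional ℚ_[p] L]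
    (hLn : ∀ τ : Gp, ∀ x ∈ L, τ x ∈ L) (hχ : ∀ s ∈ L.fixingSubgroup, χ s = 1) {g : Gp}
    (hg : g ∈ inertSub p) : χ g ^ (p - 1) = 1 := by
  obtain ⟨B⟩ := exists_ramifiedBasis (L := L)
  have hgW := mem_fixingSubgroup_W B hg
  have hwild : ∀ h ∈ B.W.fixingSubgroup, ‖h B.π / B.π - 1‖ < 1 → χ h = 1 := by
    intro h hh hlt
    obtain ⟨a, ha⟩ := exists_pow_mem_of_wild B hh hLn hlt
    have h1 : ((χ h : kˣ) : k) ^ p ^ a = 1 := by
      rw [← Units.val_pow_eq_pow_val, ← map_pow, hχ _ ha, Units.val_one]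
    refine Units.ext (sub_eq_zero.mp (eq_zero_of_pow_eq_zero (n := p ^ a) ?_))
    rw [sub_pow_char_pow, Units.val_one, h1, one_pow, sub_self]
  obtain ⟨φ, hφ⟩ := exists_frobenius_teichmuller L
  have h1 := apply_eq_of_tameChar_eq B hLn χ hwild
    ⟨φ * g * φ⁻¹, conj_mem_fixingSubgroup B hLn φ hgW⟩ (⟨g, hgW⟩ ^ p)
    ((tameChar_frobenius B hLn hφ ⟨g, hgW⟩).trans (map_pow _ _ _).symm)
  simp only [SubmonoidClass.coe_pow] at h1
  rw [map_mul, map_mul, map_inv, mul_comm (χ φ), mul_inv_cancel_right, map_pow] at h1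
  exact mul_left_cancel (a := χ g) (by
    rw [← pow_succ', mul_one, Nat.sub_add_cancel hp.out.one_le, ← h1])

omit hp in
/-- An element of exponent `p - 1` is a scalar. -/
lemma exists_cast_eq_of_pow [Fact p.Prime] [CharP k p] {x : k} (hx : x ^ p = x) :
    ∃ a : ℕ, (a : k) = x := by
  have h := (Subfield.mem_bot_iff_pow_eq_self (F := k) (p := p)).mpr hx
  obtain ⟨a, ha⟩ : x ∈ (ZMod.castHom (dvd_refl p) k).fieldRange :=
    bot_le (a := (ZMod.castHom (dvd_refl p) k).fieldRange) h
  exact ⟨a.val, by rw [← ha, ← map_natCast (ZMod.castHom (dvd_refl p) k), ZMod.natCast_zmod_val]⟩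

/-- **An unramified character of finite level is trivial on the fixer of enough roots of unity.** -/
theorem unramified_apply_eq_one [Finite k] (δ : Gp →* kˣ) (hur : ∀ g ∈ inertSub p, δ g = 1)
    (hlev : ∃ F : IntermediateField ℚ Qbar, FiniteDimensional ℚ F ∧
      ∀ s : Gp, localGaloisToGlobal p s ∈ F.fixingSubgroup → δ s = 1)
    {N : ℕ} (hN : N ≠ 0) (hdvd : Nat.card k - 1 ∣ N) {g : Gp}
    (hg : ∀ ζ : PadicAlgCl p, ζ ^ (p ^ N - 1) = 1 → g ζ = ζ) : δ g = 1 := by
  obtain ⟨g₀, hdec⟩ := exists_frobenius_decomp (p := p)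
  obtain ⟨F, hF, hlev⟩ := hlev
  have := hF
  set m := p ^ N - 1 with hm
  have : NeZero m := ⟨pow_sub_one_ne_zero hN⟩
  obtain ⟨z, hz⟩ := HasEnoughRootsOfUnity.exists_primitiveRoot Qbar m
  have : FiniteDimensional ℚ (IntermediateField.adjoin ℚ ({z} : Set Qbar)) :=
    IntermediateField.adjoin.finiteDimensional (Algebra.IsIntegral.isIntegral z)
  obtain ⟨j, t, s, ht, hs, rfl, hrou⟩ :=
    hdec (F ⊔ IntermediateField.adjoin ℚ ({z} : Set Qbar)) inferInstance g
  have hsz : localGaloisToGlobal p s z = z :=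
    (IntermediateField.mem_fixingSubgroup_iff _ _).mp hs z
      ((le_sup_right : _ ≤ F ⊔ IntermediateField.adjoin ℚ ({z} : Set Qbar))
        (IntermediateField.mem_adjoin_simple_self ℚ z))
  have hgz : localGaloisToGlobal p (g₀ ^ j * t * s) z = z := by
    refine (padicEmbedding p).toRingHom.injective ?_
    show padicEmbedding p _ = padicEmbedding p z
    rw [padicEmbedding_localGaloisToGlobal]
    exact hg _ (by rw [← map_pow, hz.pow_eq_one, map_one])
  rw [map_mul, AlgEquiv.mul_apply, hsz, hrou z m (not_dvd_pow_sub_one hN) hz.pow_eq_one] at hgz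
  have hj : N ∣ j := by
    have h1 : p ^ j ≡ 1 [MOD m] := by
      rw [← ZMod.natCast_eq_natCast_iff]
      have h2 : z ^ p ^ j = z ^ 1 := by rw [pow_one]; exact hgz
      rw [ZMod.natCast_eq_natCast_iff']
      exact hz.pow_inj (Nat.mod_lt _ (Nat.pos_of_ne_zero (pow_sub_one_ne_zero hN)))
        (Nat.mod_lt _ (Nat.pos_of_ne_zero (pow_sub_one_ne_zero hN)))
        ((pow_eq_pow_mod _ hz.pow_eq_one).symm.trans (h2.trans (pow_eq_pow_mod _ hz.pow_eq_one)))
    have hN0 := Nat.pos_of_ne_zero hN
    have hmod : p ^ (j % N) ≡ 1 [MOD m] := by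
      have h2 : p ^ N ≡ 1 [MOD m] := ((Nat.modEq_iff_dvd' (Nat.one_le_pow _ _ hp.out.pos)).mpr
        dvd_rfl).symm
      calc p ^ (j % N) = 1 ^ (j / N) * p ^ (j % N) := by simp
        _ ≡ (p ^ N) ^ (j / N) * p ^ (j % N) [MOD m] := ((h2.pow _).mul_right _).symm
        _ = p ^ j := by rw [← pow_mul, ← pow_add, Nat.div_add_mod]
        _ ≡ 1 [MOD m] := h1
    refine Nat.dvd_of_mod_eq_zero ?_
    by_contra h0
    have hlt : p ^ (j % N) ≤ p ^ N - 1 := by
      have := Nat.pow_lt_pow_right hp.out.one_lt (Nat.mod_lt j hN0)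
      omega
    have h3 := (Nat.modEq_iff_dvd' (Nat.one_le_pow _ _ hp.out.pos)).mp hmod.symm
    have h4 : 1 < p ^ (j % N) := Nat.one_lt_pow h0 hp.out.one_lt
    have := Nat.le_of_dvd (by omega) h3
    omega
  have hfix : δ s = 1 := hlev s (IntermediateField.fixingSubgroup_antitone le_sup_left hs)
  rw [map_mul, map_mul, hur t ht, hfix, mul_one, mul_one, map_pow]
  obtain ⟨c, rfl⟩ := hdvd.trans hj
  rw [pow_mul]
  have : Fintype k := Fintype.ofFinite k
  classical
  rw [Nat.card_eq_fintype_card, ← Fintype.card_units]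
  rw [pow_card_eq_one, one_pow]

/-- The exponent on `μ_p` is the cyclotomic character. -/
lemma muExp_eq_locOmega (g : Gp) : muExp g = OrdTangent.locOmega p g := by
  have : NeZero p := ⟨hp.out.ne_zero⟩
  refine rootPow_injective ?_
  have h1 := apply_rootPow g (1 : ZMod p)
  rw [mul_one] at h1
  rw [← h1]
  show g (zetaP p ^ (1 : ZMod p).val) = zetaP p ^ (OrdTangent.locOmega p g).val
  rw [ZMod.val_one, pow_one]
  exact OrdTangent.apply_eq_pow_locOmega zetaP_isPrimitiveRoot.pow_eq_one g

/-- A tame element: it fixes the unramified part of `K_N` and its exponent on `μ_p` is not one. -/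
theorem exists_tame_generator (hp2 : p ≠ 2) {N : ℕ} (hN : N ≠ 0) (hN2 : 2 ∣ N)
    (B : RamifiedBasis (tameField p N)) :
    ∃ τ : Gp, (∀ w ∈ B.W, τ w = w) ∧
      IsPrimitiveRoot (τ (tameRoot p) / tameRoot p) (tameExp p) ∧ muExp τ ≠ 1 := by
  have : NeZero (tameExp p) := ⟨(tameExp_pos (p := p)).ne'⟩
  obtain ⟨z, hz⟩ := HasEnoughRootsOfUnity.exists_primitiveRoot (PadicAlgCl p) (tameExp p)
  obtain ⟨τ, hτ, hτϖ⟩ := exists_tame_conj B (η := z) hz.pow_eq_one
  have hprim : IsPrimitiveRoot (τ (tameRoot p) / tameRoot p) (tameExp p) := by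
    rwa [hτϖ, mul_div_assoc, div_self tameRoot_ne_zero, mul_one]
  refine ⟨τ, hτ, hprim, fun h1 => ?_⟩
  letI := ZMod.algebra (Residue (tameField p N)) p
  have h := algebraMap_muExp hN hN2 B hτ
  rw [h1, map_one] at h
  have hd := ((isPrimitiveRoot_toResidue
    (div_mem (tameField_normal hN hN2 τ _ tameRoot_mem) tameRoot_mem) hprim).pow_eq_one_iff_dvd
      (p + 1)).mp h.symm
  have h2 := hp.out.two_le
  have h3 : 2 * (p + 1) ≤ tameExp p := by
    rw [tameExp, show p ^ 2 - 1 = (p + 1) * (p - 1) by rw [← Nat.sq_sub_sq, one_pow], mul_comm]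
    exact Nat.mul_le_mul_left _ (by omega)
  have := Nat.le_of_dvd (by omega) hd
  omega

/-- The multiplication representation of a character. -/
def mulRep [Algebra (ZMod p) k] (χ : Gp →* k) : Gp →* Module.End (ZMod p) k where
  toFun g := (LinearMap.mulLeft k (χ g)).restrictScalars (ZMod p)
  map_one' := LinearMap.ext fun x => by
    show χ 1 * x = x
    rw [map_one, one_mul]
  map_mul' g h := LinearMap.ext fun x => by
    show χ (g * h) * x = χ g * (χ h * x)
    rw [map_mul, mul_assoc]

lemma mulRep_apply [Algebra (ZMod p) k] (χ : Gp →* k) (g : Gp) (x : k) :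
    mulRep χ g x = χ g * x := rfl

/-- The fixer of a finite extension has finite index. -/
lemma finite_quotient_fixingSubgroup (L : IntermediateField ℚ_[p] (PadicAlgCl p))
    [FiniteDimensional ℚ_[p] L] : Finite (Gp ⧸ L.fixingSubgroup) := by
  refine Finite.of_injective (β := L →ₐ[ℚ_[p]] PadicAlgCl p) (Quotient.lift
    (fun g : Gp => (g : PadicAlgCl p →ₐ[ℚ_[p]] PadicAlgCl p).comp L.val) fun a b hab => ?_) ?_
  · replace hab := QuotientGroup.leftRel_apply.mp hab
    rw [IntermediateField.mem_fixingSubgroup_iff] at hab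
    refine AlgHom.ext fun x => ?_
    have h1 := hab x x.2
    rw [AlgEquiv.mul_apply] at h1
    show a (x : PadicAlgCl p) = b x
    conv_lhs => rw [← h1]
    exact a.apply_symm_apply _
  · intro x y
    induction x using Quotient.inductionOn with | h a => ?_
    induction y using Quotient.inductionOn with | h b => ?_
    intro hab
    refine Quotient.sound (QuotientGroup.leftRel_apply.mpr ?_)
    rw [IntermediateField.mem_fixingSubgroup_iff]
    intro x hx
    have h1 : a x = b x := DFunLike.congr_fun hab (⟨x, hx⟩ : L)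
    rw [AlgEquiv.mul_apply, ← h1]
    exact a.symm_apply_apply x

/-- The cocycles with values in `k(χ)` which are constant on the cosets of the fixer of `L`. -/
def smallCocycles [Algebra (ZMod p) k] (χ : Gp →* k)
    (L : IntermediateField ℚ_[p] (PadicAlgCl p)) : Submodule (ZMod p) (Gp → k) where
  carrier := {ψ | ψ ∈ cocycleSub (mulRep χ) ∧ ∀ g, ∀ s ∈ L.fixingSubgroup, ψ (g * s) = ψ g}
  zero_mem' := ⟨zero_mem _, fun _ _ _ => rfl⟩
  add_mem' ha hb := ⟨add_mem ha.1 hb.1, fun g s hs => by
    simp only [Pi.add_apply, ha.2 g s hs, hb.2 g s hs]⟩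
  smul_mem' c _ ha := ⟨Submodule.smul_mem _ c ha.1, fun g s hs => by
    simp only [Pi.smul_apply, ha.2 g s hs]⟩

/-- **The small cocycles of a cyclotomic tame character span at most `2 [k : 𝔽_p]` dimensions.** -/
theorem finrank_smallCocycles_le [Finite k] [Algebra (ZMod p) k] (χ : Gp →* k) {N : ℕ}
    (hN : N ≠ 0) (hN2 : 2 ∣ N) (hχN : ∀ h ∈ (tameField p N).fixingSubgroup, χ h = 1)
    (B : RamifiedBasis (tameField p N)) {τ : Gp} (hτ : ∀ w ∈ B.W, τ w = w)
    (hprim : IsPrimitiveRoot (τ (tameRoot p) / tameRoot p) (tameExp p)) (hμ1 : muExp τ ≠ 1)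
    (hχτ : χ τ = algebraMap (ZMod p) k (muExp τ))
    {L : IntermediateField ℚ_[p] (PadicAlgCl p)} [FiniteDimensional ℚ_[p] L]
    (hKL : tameField p N ≤ L) (hLn : ∀ σ : Gp, ∀ x ∈ L, σ x ∈ L)
    (hsmall : ∀ B : RamifiedBasis L, B.IsSmall) :
    FiniteDimensional (ZMod p) (smallCocycles χ L) ∧
      finrank (ZMod p) (smallCocycles χ L) ≤ 2 * finrank (ZMod p) k := by
  classical
  have : Module.Finite (ZMod p) k := Module.Finite.of_finite
  have := finite_quotient_fixingSubgroup (p := p) L
  set A := smallCocycles χ L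
  let ι : A →ₗ[ZMod p] ((Gp ⧸ L.fixingSubgroup) → k) :=
    { toFun := fun ψ q => ψ.1 q.out
      map_add' := fun _ _ => rfl
      map_smul' := fun _ _ => rfl }
  have hι : Function.Injective ι := fun a b h => Subtype.ext <| funext fun g => by
    obtain ⟨s, hs⟩ := QuotientGroup.mk_out_eq_mul L.fixingSubgroup g
    have h1 := congrFun h (g : Gp ⧸ L.fixingSubgroup)
    change a.1 (Quotient.out (g : Gp ⧸ L.fixingSubgroup)) =
      b.1 (Quotient.out (g : Gp ⧸ L.fixingSubgroup)) at h1
    rwa [hs, a.2.2 g s s.2, b.2.2 g s s.2] at h1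
  have hfinA : FiniteDimensional (ZMod p) A := Module.Finite.of_injective ι hι
  refine ⟨hfinA, ?_⟩
  have hr : ∀ h ∈ (tameField p N).fixingSubgroup, mulRep χ h = 1 := fun h hh =>
    LinearMap.ext fun x => by rw [mulRep_apply, hχN h hh, one_mul]; rfl
  have hlev : A ≤ levelSub k N (tameExp p) := fun ψ hψ => by
    obtain ⟨BL⟩ := exists_ramifiedBasis (L := L)
    refine mem_levelSub.mpr (hasKummerLevel_of_isSmall hN hN2 (zetaP_mem hN hN2) L hKL BL (hsmall BL)
      ψ (fun g hg h _ => ?_) fun g hg => ?_)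
    · rw [hψ.1 g h, hr g hg]; rfl
    · have h1 := hψ.2 1 g hg
      rwa [one_mul, cocycle_one hψ.1] at h1
  have hfix : finrank (ZMod p) (fixedSub (mulRep χ)) = 0 := by
    have : fixedSub (mulRep χ) = ⊥ := by
      rw [eq_bot_iff]
      intro X hX
      have h1 : χ τ * X = X := hX τ
      by_contra hX0
      have h2 : χ τ = 1 := mul_right_cancel₀ hX0 (by rw [h1, one_mul])
      rw [hχτ, ← map_one (algebraMap (ZMod p) k)] at h2
      exact hμ1 ((algebraMap (ZMod p) k).injective h2)
    rw [this, finrank_bot]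
  letI := ZMod.algebra (Residue (tameField p N)) p
  letI : Field (Residue (tameField p N)) :=
    @Fintype.fieldOfDomain (Residue (tameField p N)) _ _ (Classical.decEq _) (Fintype.ofFinite _)
  have hη := isPrimitiveRoot_toResidue
    (div_mem (tameField_normal hN hN2 τ _ tameRoot_mem) tameRoot_mem) hprim
  have hd : ∀ i ≤ p, i ≠ 1 →
      finrank (Residue (tameField p N)) (tameEigen (mulRep χ) N τ (tameExp p + i)) ≤
        if i = 0 then finrank (ZMod p) k else 0 := by
    intro i hi _
    split_ifs with h0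
    · haveI : Module.Finite (Residue (tameField p N))
          (Dual (ZMod p) k →ₗ[ZMod p] Residue (tameField p N)) :=
        have : Finite (Dual (ZMod p) k) := Finite.of_injective _ DFunLike.coe_injective
        have : Finite (Dual (ZMod p) k →ₗ[ZMod p] Residue (tameField p N)) :=
          Finite.of_injective _ DFunLike.coe_injective
        Module.Finite.of_finite
      refine (Submodule.finrank_le _).trans ?_
      rw [Module.finrank_linearMap_self, Subspace.dual_finrank_eq]
    · have : tameEigen (mulRep χ) N τ (tameExp p + i) = ⊥ := by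
        rw [eq_bot_iff]
        intro θ hθ
        refine (Submodule.mem_bot _).mpr (LinearMap.ext fun l => ?_)
        have h1 := hθ l
        have hl : muExp τ • l.comp (mulRep χ τ⁻¹) = l := by
          refine LinearMap.ext fun x => ?_
          show muExp τ • l (χ τ⁻¹ * x) = l x
          rw [← map_smul, Algebra.smul_def, ← hχτ, ← mul_assoc, ← map_mul, mul_inv_cancel,
            map_one, one_mul]
        rw [hl, pow_add, hη.pow_eq_one, one_mul] at h1
        by_contra hne
        have h2 : toResidue N (τ (tameRoot p) / tameRoot p) ^ i = 1 :=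
          mul_right_cancel₀ hne (by rw [← h1, one_mul])
        have := Nat.le_of_dvd (by omega) ((hη.pow_eq_one_iff_dvd i).mp h2)
        have h3 : tameExp p = p * p - 1 := by rw [tameExp, pow_two]
        have := Nat.mul_le_mul_left p hp.out.two_le
        omega
      rw [this, finrank_bot]
  have hcount := finrank_map_kummer_le hN hN2 hr B hτ A (fun ψ hψ => hψ.1) hlev L hLn hKL
    (fun ψ hψ => hψ.2) (fun i => if i = 0 then finrank (ZMod p) k else 0) hd
  rw [hfix, zero_add, Finset.sum_ite_eq' ] at hcount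
  rw [if_pos (by simp [Finset.mem_erase, Finset.mem_range])] at hcount
  let q := (LinearMap.range (coboundary (mulRep χ))).mkQ
  have e1 := LinearMap.finrank_range_add_finrank_ker (q.domRestrict A)
  have e2 : LinearMap.range (q.domRestrict A) = A.map q := by
    rw [LinearMap.range_domRestrict]
  have hker : finrank (ZMod p) (LinearMap.ker (q.domRestrict A)) ≤ finrank (ZMod p) k := by
    refine (LinearMap.finrank_le_finrank_of_injective
      (f := (A.subtype.domRestrict (LinearMap.ker (q.domRestrict A))).codRestrict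
        (LinearMap.range (coboundary (mulRep χ))) fun ψ => ?_) fun a b h => Subtype.ext <|
          Subtype.ext (congrArg Subtype.val h :)).trans (LinearMap.finrank_range_le _)
    exact (Submodule.Quotient.mk_eq_zero _).mp (show q (ψ.1.1) = 0 from LinearMap.mem_ker.mp ψ.2)
  rw [e2] at e1
  have e3 : finrank (ZMod p) (A.map q) ≤ finrank (ZMod p) k := hcount
  omega

end FermatLib.CFT.FlatTangent

end
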