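import Mathlib.Analysis.Normed.Field.Krasner
import Mathlib.Analysis.Normed.Module.FiniteDimension
import Mathlib.Analysis.Normed.Ring.Ultra
import Mathlib.FieldTheory.Finite.Basic
import Mathlib.NumberTheory.Padics.Complex
import Mathlib.NumberTheory.Padics.ProperSpace
import Mathlib.RingTheory.Ideal.Quotient.Basic
import Mathlib.RingTheory.IntegralDomain

/-!
# Uniformizer and unramified subfield of a finite extension of `ℚ_p` inside `PadicAlgCl p`
-/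

set_option autoImplicit false

namespace FermatLib.CFT.Fontaine

variable {p : ℕ} [hp : Fact p.Prime]

lemma norm_algEquiv (σ : (PadicAlgCl p) ≃ₐ[ℚ_[p]] (PadicAlgCl p)) (x : (PadicAlgCl p)) : ‖σ x‖ = ‖x‖ :=
  (spectralNorm_eq_of_equiv σ x).symm

lemma norm_padic_algebraMap (a : ℚ_[p]) : ‖algebraMap ℚ_[p] (PadicAlgCl p) a‖ = ‖a‖ :=
  spectralNorm_extends a

/-- The norm of a non-zero element has a power in `p ^ ℤ`. -/
lemma exists_norm_pow_eq {x : (PadicAlgCl p)} (hx : x ≠ 0) :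
    ∃ m : ℤ, ‖x‖ ^ (minpoly ℚ_[p] x).natDegree = (p : ℝ) ^ m := by
  have hint : IsIntegral ℚ_[p] x := Algebra.IsIntegral.isIntegral x
  have h : ‖x‖ = _ := spectralNorm.spectralNorm_eq_norm_coeff_zero_rpow (K := ℚ_[p]) (L := PadicAlgCl p) x
  have hc : (minpoly ℚ_[p] x).coeff 0 ≠ 0 := minpoly.coeff_zero_ne_zero hint hx
  refine ⟨-((minpoly ℚ_[p] x).coeff 0).valuation, ?_⟩
  rw [← Padic.norm_eq_zpow_neg_valuation hc, h, ← Real.rpow_natCast,
    ← Real.rpow_mul (norm_nonneg _), one_div, inv_mul_cancel₀, Real.rpow_one]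
  exact_mod_cast (minpoly.natDegree_pos hint).ne'

variable (L : IntermediateField ℚ_[p] (PadicAlgCl p)) [FiniteDimensional ℚ_[p] L]

/-- A uniformizer. -/
theorem exists_uniformizer : ∃ π ∈ L, π ≠ 0 ∧ ‖π‖ < 1 ∧
    (∀ x ∈ L, ‖x‖ < 1 → ‖x‖ ≤ ‖π‖) ∧ ∀ x ∈ L, x ≠ 0 → ∃ k : ℤ, ‖x‖ = ‖π‖ ^ k := by
  classical
  set d := (Module.finrank ℚ_[p] L).factorial with hd
  have hd0 : d ≠ 0 := Nat.factorial_ne_zero _
  have hp1 : (1 : ℝ) < p := by exact_mod_cast hp.out.one_lt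
  have hval : ∀ x ∈ L, x ≠ 0 → ∃ m : ℤ, ‖x‖ ^ d = (p : ℝ) ^ m := by
    intro x hx hx0
    obtain ⟨m, hm⟩ := exists_norm_pow_eq hx0
    have hdeg : (minpoly ℚ_[p] x).natDegree ≤ Module.finrank ℚ_[p] L := by
      have e : minpoly ℚ_[p] (⟨x, hx⟩ : L) = minpoly ℚ_[p] x :=
        (minpoly.algebraMap_eq (algebraMap L (PadicAlgCl p)).injective (⟨x, hx⟩ : L)).symm
      rw [← e]
      exact minpoly.natDegree_le _
    obtain ⟨c, hc⟩ := Nat.dvd_factorial (minpoly.natDegree_pos (Algebra.IsIntegral.isIntegral x)) hdeg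
    exact ⟨m * c, by rw [hd, hc, pow_mul, hm, ← zpow_natCast, ← zpow_mul]⟩
  let Pd : ℕ → Prop := fun n => ∃ x ∈ L, x ≠ 0 ∧ ‖x‖ < 1 ∧ ‖x‖ ^ d = (p : ℝ) ^ (-(n : ℤ))
  have hex : ∃ n, Pd n := ⟨d, (p : (PadicAlgCl p)), natCast_mem L p, by simp [hp.out.ne_zero],
    by rw [show (p : (PadicAlgCl p)) = algebraMap ℚ_[p] (PadicAlgCl p) p by simp, norm_padic_algebraMap]
       exact Padic.norm_p_lt_one,
    by rw [show (p : (PadicAlgCl p)) = algebraMap ℚ_[p] (PadicAlgCl p) p by simp, norm_padic_algebraMap, Padic.norm_p,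
        inv_pow, zpow_neg, zpow_natCast]⟩
  obtain ⟨π, hπL, hπ0, hπ1, hπd⟩ := Nat.find_spec hex
  have hmax : ∀ x ∈ L, ‖x‖ < 1 → ‖x‖ ≤ ‖π‖ := by
    intro x hx hx1
    by_cases hx0 : x = 0
    · simp [hx0]
    obtain ⟨m, hm⟩ := hval x hx hx0
    have hm0 : m < 0 := by
      have : (p : ℝ) ^ m < (p : ℝ) ^ (0 : ℤ) := by
        rw [← hm, zpow_zero]; exact pow_lt_one₀ (norm_nonneg x) hx1 hd0
      exact (zpow_lt_zpow_iff_right₀ hp1).mp this
    obtain ⟨n, rfl⟩ : ∃ n : ℕ, m = -(n : ℤ) := ⟨m.natAbs, by omega⟩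
    refine le_of_pow_le_pow_left₀ hd0 (norm_nonneg π) ?_
    rw [hm, hπd, zpow_le_zpow_iff_right₀ hp1, neg_le_neg_iff, Int.ofNat_le]
    exact Nat.find_min' hex ⟨x, hx, hx0, hx1, hm⟩
  refine ⟨π, hπL, hπ0, hπ1, hmax, fun x hx hx0 => ?_⟩
  have hπpos : 0 < ‖π‖ := norm_pos_iff.mpr hπ0
  obtain ⟨n, hn⟩ := exists_mem_Ioc_zpow (norm_pos_iff.mpr hx0) ((one_lt_inv₀ hπpos).mpr hπ1)
  rw [inv_zpow, inv_zpow, ← zpow_neg, ← zpow_neg] at hn
  refine ⟨-(n + 1), le_antisymm hn.2 ?_⟩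
  by_contra hlt
  push Not at hlt
  have h1 : ‖x * π ^ (n + 1)‖ < 1 := by
    rw [norm_mul, norm_zpow]
    calc ‖x‖ * ‖π‖ ^ (n + 1) < ‖π‖ ^ (-(n + 1)) * ‖π‖ ^ (n + 1) :=
          mul_lt_mul_of_pos_right hlt (zpow_pos hπpos _)
      _ = 1 := by rw [← zpow_add₀ hπpos.ne', neg_add_cancel, zpow_zero]
  have h2 := hmax _ (mul_mem hx (zpow_mem hπL _)) h1
  rw [norm_mul, norm_zpow, zpow_add_one₀ hπpos.ne', ← mul_assoc] at h2
  have h3 : ‖x‖ * ‖π‖ ^ n ≤ 1 := le_of_mul_le_mul_right (by simpa using h2) hπpos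
  have h4 : 1 < ‖x‖ * ‖π‖ ^ n := by
    calc (1 : ℝ) = ‖π‖ ^ (-n) * ‖π‖ ^ n := by rw [← zpow_add₀ hπpos.ne', neg_add_cancel, zpow_zero]
      _ < _ := mul_lt_mul_of_pos_right hn.1 (zpow_pos hπpos n)
  exact absurd h3 (not_le.mpr h4)

/-- The ring of integers of `L`. -/
def integers : Subring L where
  carrier := {x | ‖(x : (PadicAlgCl p))‖ ≤ 1}
  mul_mem' {a b} ha hb := by simpa [norm_mul] using mul_le_one₀ ha (norm_nonneg _) hb
  one_mem' := by simp
  add_mem' {a b} ha hb := (IsUltrametricDist.norm_add_le_max _ _).trans (max_le ha hb)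
  zero_mem' := by simp
  neg_mem' {a} ha := by simpa using ha

/-- Its maximal ideal. -/
def openBall : Ideal (integers L) where
  carrier := {x | ‖((x : L) : (PadicAlgCl p))‖ < 1}
  add_mem' {a b} ha hb := lt_of_le_of_lt (IsUltrametricDist.norm_add_le_max _ _) (max_lt ha hb)
  zero_mem' := by simp
  smul_mem' a x hx := by
    show ‖(((a : L) * (x : L) : L) : (PadicAlgCl p))‖ < 1
    rw [MulMemClass.coe_mul, norm_mul]
    exact lt_of_le_of_lt (mul_le_of_le_one_left (norm_nonneg _) a.2) hx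

/-- The residue field. -/
abbrev Residue : Type := integers L ⧸ openBall L

omit [FiniteDimensional ℚ_[p] L] in
lemma residue_eq_iff (a b : integers L) :
    (Ideal.Quotient.mk (openBall L) a = Ideal.Quotient.mk (openBall L) b) ↔
      ‖((a : L) : (PadicAlgCl p)) - ((b : L) : (PadicAlgCl p))‖ < 1 := by
  rw [Ideal.Quotient.eq]; rfl

instance instIsPrimeOpenBall : (openBall L).IsPrime where
  ne_top' h := by
    have : (1 : integers L) ∈ openBall L := h ▸ Submodule.mem_top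
    have h1 : ‖((1 : L) : (PadicAlgCl p))‖ < 1 := this
    simp at h1
  mem_or_mem' {x y} h := by
    by_contra hcon
    push Not at hcon
    have hx : ‖((x : L) : (PadicAlgCl p))‖ = 1 := le_antisymm x.2 (not_lt.mp hcon.1)
    have hy : ‖((y : L) : (PadicAlgCl p))‖ = 1 := le_antisymm y.2 (not_lt.mp hcon.2)
    have hxy : ‖(((x : L) * (y : L) : L) : (PadicAlgCl p))‖ < 1 := h
    simp [hx, hy] at hxy

instance instFiniteResidue : Finite (Residue L) := by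
  have : ProperSpace L := FiniteDimensional.proper ℚ_[p] L
  have hc : IsCompact (Metric.closedBall (0 : L) 1) := isCompact_closedBall 0 1
  obtain ⟨t, ht, htf, htcov⟩ := hc.finite_cover_balls (zero_lt_one (α := ℝ))
  have : Finite ↥t := htf.to_subtype
  refine Finite.of_surjective (fun a : t => Ideal.Quotient.mk (openBall L) ⟨a, ?_⟩) fun z => ?_
  · show ‖((a : L) : (PadicAlgCl p))‖ ≤ 1
    simpa using ht a.2
  · obtain ⟨x, rfl⟩ := Ideal.Quotient.mk_surjective z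
    have hx : (x : L) ∈ Metric.closedBall (0 : L) 1 := by
      rw [mem_closedBall_zero_iff]; exact x.2
    obtain ⟨a, ha, hax⟩ := Set.mem_iUnion₂.mp (htcov hx)
    refine ⟨⟨a, ha⟩, (residue_eq_iff L _ _).mpr ?_⟩
    rw [norm_sub_rev]
    simpa [dist_eq_norm] using hax

end FermatLib.CFT.Fontaine
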