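import Fermat.Agent.CFT.FontaineSubfield
import Fermat.Agent.CFT.FlatPointsLift
import Mathlib.FieldTheory.Galois.Infinite
import Mathlib.FieldTheory.IntermediateField.Adjoin.Basic

/-!
# Fontaine's ramification bound

If the points of a finite group scheme killed by `p` over an unramified ring generate `L`, then
`D * ∏_{r ≠ π} ‖π - r‖ ≥ |p| ^ (p / (p - 1))`, the product over the conjugates of a uniformizer `π`
and `D` the smallest distance.
-/

set_option autoImplicit false

open Polynomial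

namespace FermatLib.CFT.Fontaine

open FlatPoints

variable {p : ℕ} [hp : Fact p.Prime] {L : IntermediateField ℚ_[p] (PadicAlgCl p)}

/-- The minimal polynomial of the uniformizer over the unramified subfield. -/
noncomputable def RamifiedBasis.uniformizerPoly (B : RamifiedBasis L) : (PadicAlgCl p)[X] :=
  (minpoly B.W B.π).map (algebraMap B.W (PadicAlgCl p))

/-- The conjugates of the uniformizer. -/
noncomputable def RamifiedBasis.conjugates (B : RamifiedBasis L) : Finset (PadicAlgCl p) :=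
  letI := Classical.decEq (PadicAlgCl p)
  B.uniformizerPoly.roots.toFinset

lemma isIntegral_intermediate (W : IntermediateField ℚ_[p] (PadicAlgCl p)) (x : PadicAlgCl p) :
    IsIntegral W x :=
  (Algebra.IsIntegral.isIntegral (R := ℚ_[p]) x).tower_top

lemma aeval_intermediate_commutes {W : IntermediateField ℚ_[p] (PadicAlgCl p)}
    {τ : PadicAlgCl p ≃ₐ[ℚ_[p]] PadicAlgCl p} (hτ : ∀ w ∈ W, τ w = w) (f : W[X]) (x : PadicAlgCl p) :
    aeval (τ x) f = τ (aeval x f) := by
  induction f using Polynomial.induction_on' with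
  | add a b ha hb => simp [ha, hb]
  | monomial n a =>
    simp only [aeval_monomial, map_mul, map_pow]
    rw [show τ (algebraMap W (PadicAlgCl p) a) = algebraMap W (PadicAlgCl p) a from hτ a a.2]

variable [FiniteDimensional ℚ_[p] L]

omit [FiniteDimensional ℚ_[p] L] in
lemma RamifiedBasis.mem_conjugates_iff (B : RamifiedBasis L) (r : PadicAlgCl p) :
    r ∈ B.conjugates ↔ aeval r (minpoly B.W B.π) = 0 := by
  classical
  rw [conjugates, Multiset.mem_toFinset, uniformizerPoly,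
    mem_roots_map (minpoly.ne_zero (isIntegral_intermediate _ _)), aeval_def]

omit [FiniteDimensional ℚ_[p] L] in
lemma RamifiedBasis.exists_algEquiv_of_mem (B : RamifiedBasis L) {r : PadicAlgCl p}
    (hr : r ∈ B.conjugates) :
    ∃ τ : PadicAlgCl p ≃ₐ[ℚ_[p]] PadicAlgCl p, (∀ w ∈ B.W, τ w = w) ∧ τ B.π = r := by
  classical
  rw [conjugates, Multiset.mem_toFinset, uniformizerPoly,
    mem_roots_map (minpoly.ne_zero (isIntegral_intermediate _ _)), ← aeval_def] at hr
  obtain ⟨τ, hτ⟩ := minpoly.exists_algEquiv_of_root' (K := B.W)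
    (isIntegral_intermediate _ _).isAlgebraic hr
  exact ⟨τ.restrictScalars ℚ_[p], fun w hw => τ.commutes ⟨w, hw⟩, hτ⟩

omit [FiniteDimensional ℚ_[p] L] in
lemma RamifiedBasis.norm_conjugate (B : RamifiedBasis L) {r : PadicAlgCl p}
    (hr : r ∈ B.conjugates) : ‖r‖ = ‖B.π‖ := by
  obtain ⟨τ, -, rfl⟩ := B.exists_algEquiv_of_mem hr
  exact norm_algEquiv τ _

omit [FiniteDimensional ℚ_[p] L] in
lemma RamifiedBasis.card_conjugates_le (B : RamifiedBasis L) : B.conjugates.card ≤ B.e := by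
  classical
  obtain ⟨a, ha, hsum⟩ := B.span _ (pow_mem B.mem B.e)
  let f : B.W[X] := X ^ B.e - ∑ i : Fin B.e, C (⟨a i, ha i⟩ : B.W) * X ^ (i : ℕ)
  have hdeg : (∑ i : Fin B.e, C (⟨a i, ha i⟩ : B.W) * X ^ (i : ℕ)).degree < (B.e : WithBot ℕ) :=
    (degree_sum_le _ _).trans_lt ((Finset.sup_lt_iff (WithBot.bot_lt_coe _)).mpr fun i _ =>
      (degree_C_mul_X_pow_le _ _).trans_lt (by exact_mod_cast i.2))
  have hmonic : f.Monic := monic_X_pow_sub hdeg
  have hroot : aeval B.π f = 0 := by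
    simp only [f, map_sub, map_sum, map_mul, map_pow, aeval_X, aeval_C]
    rw [sub_eq_zero]
    exact hsum
  refine (Multiset.toFinset_card_le _).trans ((card_roots' _).trans (natDegree_map_le.trans ?_))
  refine (natDegree_le_of_dvd (minpoly.dvd _ _ hroot) hmonic.ne_zero).trans (le_of_eq ?_)
  exact natDegree_eq_of_degree_eq_some (by
    rw [degree_sub_eq_left_of_degree_lt (by rw [degree_X_pow]; exact hdeg), degree_X_pow])

/-- The closed unit ball as a subring. -/
def closedUnit (p : ℕ) [Fact p.Prime] : Subring (PadicAlgCl p) where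
  carrier := {x | ‖x‖ ≤ 1}
  mul_mem' {a b} ha hb := by simpa [norm_mul] using mul_le_one₀ ha (norm_nonneg _) hb
  one_mem' := by simp
  add_mem' {a b} ha hb := (IsUltrametricDist.norm_add_le_max _ _).trans (max_le ha hb)
  zero_mem' := by simp
  neg_mem' {a} ha := by simpa using ha

omit [FiniteDimensional ℚ_[p] L] in
/-- An integral relation for the uniformizer is small at any `β` where its minimal polynomial is. -/
lemma RamifiedBasis.norm_eval_le (B : RamifiedBasis L) {Q : B.W[X]}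
    (hQ : ∀ n, ‖(Q.coeff n : PadicAlgCl p)‖ ≤ 1) (hπ : aeval B.π Q = 0) {β : PadicAlgCl p}
    (hβ : ‖β‖ ≤ 1) :
    ‖aeval β Q‖ ≤ ∏ r ∈ B.conjugates, ‖β - r‖ := by
  classical
  set G := B.uniformizerPoly
  have hmonic : G.Monic := (minpoly.monic (isIntegral_intermediate _ _)).map _
  have hprod : G = (G.roots.map fun r => X - C r).prod :=
    (IsAlgClosed.splits G).eq_prod_roots_of_monic hmonic
  have hnd : G.roots.Nodup :=
    nodup_roots ((minpoly.irreducible (isIntegral_intermediate _ _)).separable.map)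
  have hGc : ∀ n, G.coeff n ∈ closedUnit p := by
    intro n
    have : G ∈ (Polynomial.mapRingHom (closedUnit p).subtype).range := by
      rw [hprod]
      refine Subring.multiset_prod_mem _ _ fun f hf => ?_
      obtain ⟨r, hr, rfl⟩ := Multiset.mem_map.mp hf
      have hr1 : r ∈ closedUnit p := (B.norm_conjugate (Multiset.mem_toFinset.mpr hr)).trans_le B.lt_one.le
      exact ⟨X - C ⟨r, hr1⟩, by simp⟩
    obtain ⟨g, hg⟩ := this
    rw [← hg, coe_mapRingHom, coeff_map]
    exact (g.coeff n).2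
  set Qc := Q.map (algebraMap B.W (PadicAlgCl p))
  have hdvd : G ∣ Qc := Polynomial.map_dvd _ (minpoly.dvd _ _ hπ)
  obtain ⟨g, hg⟩ : ∃ g : (closedUnit p)[X], g.map (closedUnit p).subtype = G :=
    (Polynomial.mem_lifts G).mp ((Polynomial.lifts_iff_coeff_lifts G).mpr fun n => ⟨⟨_, hGc n⟩, rfl⟩)
  obtain ⟨q, hq⟩ : ∃ q : (closedUnit p)[X], q.map (closedUnit p).subtype = Qc :=
    (Polynomial.mem_lifts Qc).mp ((Polynomial.lifts_iff_coeff_lifts Qc).mpr fun n =>
      ⟨⟨_, show Qc.coeff n ∈ closedUnit p by rw [coeff_map]; exact hQ n⟩, rfl⟩)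
  have hgm : g.Monic := monic_of_injective (closedUnit p).subtype_injective (hg ▸ hmonic)
  have hQeq : Qc = G * (q /ₘ g).map (closedUnit p).subtype := by
    conv_lhs => rw [← modByMonic_add_div Qc G, (modByMonic_eq_zero_iff_dvd hmonic).mpr hdvd]
    rw [zero_add, map_divByMonic _ hgm, hg, hq]
  have hbound : ‖((q /ₘ g).map (closedUnit p).subtype).eval β‖ ≤ 1 := by
    rw [eval_eq_sum_range]
    refine IsUltrametricDist.norm_sum_le_of_forall_le_of_nonneg zero_le_one fun i _ => ?_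
    rw [norm_mul, norm_pow, coeff_map]
    exact mul_le_one₀ ((q /ₘ g).coeff i).2 (by positivity) (pow_le_one₀ (norm_nonneg _) hβ)
  rw [aeval_def, ← eval_map, show Q.map (algebraMap B.W (PadicAlgCl p)) = Qc from rfl, hQeq,
    eval_mul, norm_mul]
  refine (mul_le_of_le_one_right (norm_nonneg _) hbound).trans (le_of_eq ?_)
  rw [hprod, eval_multiset_prod, Multiset.map_map,
    show B.conjugates = ⟨G.roots, hnd⟩ from Finset.val_injective (by
      rw [RamifiedBasis.conjugates, Multiset.toFinset_val, hnd.dedup]),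
    Finset.prod_eq_multiset_prod,
    show ∀ s : Multiset (PadicAlgCl p), ‖s.prod‖ = (s.map norm).prod from fun s =>
      map_multiset_prod normHom s, Multiset.map_map]
  congr 2
  funext r
  simp

open scoped Classical in
/-- A `β` which breaks Fontaine's bound: it is close to the uniformizer `π`, the minimal
polynomial of `π` is small at it, and `π` is not in the field it generates over the fixed field of
an automorphism `σ`. -/
theorem RamifiedBasis.exists_bad_approximation (B : RamifiedBasis L)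
    (hnormal : ∀ τ : PadicAlgCl p ≃ₐ[ℚ_[p]] PadicAlgCl p, ∀ x ∈ L, τ x ∈ L)
    {σ : PadicAlgCl p ≃ₐ[ℚ_[p]] PadicAlgCl p} (hσW : ∀ w ∈ B.W, σ w = w) (hσπ : σ B.π ≠ B.π)
    (hmin : ∀ r ∈ B.conjugates, r ≠ B.π → ‖B.π - σ B.π‖ ≤ ‖B.π - r‖) :
    ∃ β : PadicAlgCl p, ‖β - B.π‖ ≤ ‖B.π - σ B.π‖ ∧
      (∏ r ∈ B.conjugates, ‖β - r‖) ≤
        ‖B.π - σ B.π‖ * ∏ r ∈ B.conjugates.erase B.π, ‖B.π - r‖ ∧
      ∃ τ : PadicAlgCl p ≃ₐ[ℚ_[p]] PadicAlgCl p, (∀ w ∈ B.W, τ w = w) ∧ τ β = β ∧ τ B.π ≠ B.π := by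
  classical
  set δ := B.π - σ B.π with hδ
  set D := ‖δ‖ with hDdef
  have hδ0 : δ ≠ 0 := sub_ne_zero.mpr (Ne.symm hσπ)
  have hDpos : 0 < D := norm_pos_iff.mpr hδ0
  have hπc : B.π ∈ B.conjugates := (B.mem_conjugates_iff _).mpr (minpoly.aeval _ _)
  have hσc : ∀ r ∈ B.conjugates, σ r ∈ B.conjugates := fun r hr => by
    rw [B.mem_conjugates_iff] at hr ⊢
    rw [aeval_intermediate_commutes hσW, hr, map_zero]
  set O := B.conjugates.filter fun r => ∃ k : ℕ, (σ ^ k) B.π = r with hO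
  have hπO : B.π ∈ O := Finset.mem_filter.mpr ⟨hπc, 0, by simp⟩
  have hσO : ∀ r ∈ O, σ r ∈ O := fun r hr => by
    obtain ⟨hrc, k, rfl⟩ := Finset.mem_filter.mp hr
    exact Finset.mem_filter.mpr ⟨hσc _ hrc, k + 1, by rw [pow_succ']; rfl⟩
  have himg : O.image σ = O :=
    Finset.eq_of_subset_of_card_le (Finset.image_subset_iff.mpr hσO)
      (by rw [Finset.card_image_of_injective _ σ.injective])
  have hOD : ∀ r ∈ O, ‖B.π - r‖ ≤ D := by
    intro r hr
    obtain ⟨-, k, rfl⟩ := Finset.mem_filter.mp hr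
    induction k with
    | zero => simp [hDpos.le]
    | succ k ih =>
      rw [← sub_add_sub_cancel _ (σ B.π)]
      refine (IsUltrametricDist.norm_add_le_max _ _).trans (max_le le_rfl ?_)
      rw [pow_succ', AlgEquiv.mul_apply, ← map_sub, norm_algEquiv]
      by_cases hk : (σ ^ k) B.π ∈ O
      · exact ih hk
      · exfalso
        apply hk
        clear ih hr hk
        induction k with
        | zero => simpa using hπO
        | succ k ih2 => rw [pow_succ', AlgEquiv.mul_apply]; exact hσO _ ih2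
  -- residues
  have hint : ∀ r ∈ O, ‖(B.π - r) / δ‖ ≤ 1 := fun r hr => by
    rw [norm_div]; exact div_le_one_of_le₀ (hOD r hr) (norm_nonneg _)
  have hrL : ∀ r ∈ O, (B.π - r) / δ ∈ L := fun r hr => by
    obtain ⟨-, k, rfl⟩ := Finset.mem_filter.mp hr
    exact div_mem (sub_mem B.mem (hnormal _ _ B.mem)) (sub_mem B.mem (hnormal _ _ B.mem))
  let ε : O → Residue L := fun r =>
    Ideal.Quotient.mk (openBall L) ⟨⟨(B.π - r.1) / δ, hrL _ r.2⟩, hint _ r.2⟩
  have : IsDomain (Residue L) := Ideal.Quotient.isDomain _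
  let P : Residue L → Residue L := fun γ => ∏ r : O, (γ + ε r)
  have hnsurj : ¬ Function.Surjective P := by
    intro hs
    have hinj := Finite.injective_iff_surjective.mpr hs
    have h0 : P 0 = 0 := Finset.prod_eq_zero (Finset.mem_univ ⟨B.π, hπO⟩) (by
      rw [zero_add]
      exact Ideal.Quotient.eq_zero_iff_mem.mpr (show ‖(B.π - B.π) / δ‖ < 1 by simp))
    have h1 : P (-1) = 0 := Finset.prod_eq_zero (Finset.mem_univ ⟨σ B.π, hσO _ hπO⟩) (by
      have : ε ⟨σ B.π, hσO _ hπO⟩ = 1 := by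
        rw [← map_one (Ideal.Quotient.mk (openBall L))]
        refine (residue_eq_iff L _ _).mpr ?_
        show ‖(B.π - σ B.π) / δ - 1‖ < 1
        rw [div_self hδ0, sub_self, norm_zero]; exact one_pos
      rw [this, neg_add_cancel])
    exact one_ne_zero (neg_eq_zero.mp (hinj (h1.trans h0.symm)))
  obtain ⟨t, ht⟩ : ∃ t, ∀ γ, P γ ≠ t := by
    by_contra hall
    push Not at hall
    exact hnsurj hall
  obtain ⟨t', rfl⟩ := Ideal.Quotient.mk_surjective t
  set n := O.card
  set c₀ := ∏ r ∈ O, (r - σ r) with hc₀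
  have hc₀σ : σ c₀ = c₀ := by
    rw [hc₀, map_prod]
    conv_rhs => rw [← himg]
    rw [Finset.prod_image σ.injective.injOn]
    exact Finset.prod_congr rfl fun r _ => map_sub σ r (σ r)
  have hc₀n : ‖c₀‖ = D ^ n := by
    rw [hc₀, norm_prod, Finset.prod_congr rfl (g := fun _ => D) fun r hr => ?_, Finset.prod_const]
    obtain ⟨-, k, rfl⟩ := Finset.mem_filter.mp hr
    rw [← AlgEquiv.mul_apply, ← pow_succ', pow_succ, AlgEquiv.mul_apply, ← map_sub, norm_algEquiv]
  have hc₀L : c₀ ∈ L := prod_mem fun r hr => by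
    obtain ⟨-, k, rfl⟩ := Finset.mem_filter.mp hr
    exact sub_mem (hnormal _ _ B.mem) (hnormal _ _ (hnormal _ _ B.mem))
  set u₀ := c₀ / δ ^ n with hu₀
  have hu₀n : ‖u₀‖ = 1 := by rw [norm_div, norm_pow, hc₀n, div_self (pow_ne_zero _ hDpos.ne')]
  have hδL : δ ∈ L := sub_mem B.mem (hnormal _ _ B.mem)
  obtain ⟨w, hwW, hw1, hw⟩ := B.residue (((t' : L) : PadicAlgCl p) / u₀)
    (div_mem (t' : L).2 (div_mem hc₀L (pow_mem hδL n)))
    (by rw [norm_div, hu₀n, div_one]; exact t'.2)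
  set g₁ : (PadicAlgCl p)[X] := ∏ r ∈ O, (X - C r) with hg₁
  have hg₁m : g₁.Monic := monic_prod_of_monic _ _ fun r _ => monic_X_sub_C r
  have hg₁d : g₁.natDegree = n := by
    rw [hg₁, natDegree_prod _ _ fun r _ => X_sub_C_ne_zero r]; simp [n]
  have hn0 : 0 < n := Finset.card_pos.mpr ⟨_, hπO⟩
  obtain ⟨β, hβ⟩ := IsAlgClosed.exists_root (g₁ - C (w * c₀)) (by
    intro h
    have := natDegree_eq_zero_iff_degree_le_zero.mpr h.le
    rw [natDegree_sub_C, hg₁d] at this
    omega)
  have hβprod : ∏ r ∈ O, (β - r) = w * c₀ := by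
    rw [IsRoot.def, eval_sub, eval_C, sub_eq_zero] at hβ
    rw [← hβ, hg₁, eval_prod]
    exact Finset.prod_congr rfl fun r _ => by simp
  have hβπ : ‖β - B.π‖ ≤ D := by
    obtain ⟨r, hr, hrD⟩ : ∃ r ∈ O, ‖β - r‖ ≤ D := by
      by_contra hcon
      push Not at hcon
      have h1 : ‖∏ r ∈ O, (β - r)‖ ≤ D ^ n := by
        rw [hβprod, norm_mul, hc₀n]; exact mul_le_of_le_one_left (pow_nonneg hDpos.le n) hw1
      rw [norm_prod] at h1
      have h2 : D ^ n < ∏ r ∈ O, ‖β - r‖ := by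
        calc D ^ n = ∏ _r ∈ O, D := (Finset.prod_const D).symm
          _ < _ := Finset.prod_lt_prod_of_nonempty (fun _ _ => hDpos) hcon ⟨_, hπO⟩
      exact absurd h1 (not_le.mpr h2)
    rw [← sub_add_sub_cancel β r B.π]
    refine (IsUltrametricDist.norm_add_le_max _ _).trans (max_le hrD ?_)
    rw [norm_sub_rev]
    exact hOD r hr
  refine ⟨β, hβπ, ?_, ?_⟩
  · rw [← Finset.mul_prod_erase _ _ hπc]
    refine mul_le_mul hβπ (Finset.prod_le_prod (fun r _ => norm_nonneg _) fun r hr => ?_)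
      (Finset.prod_nonneg fun r _ => norm_nonneg _) hDpos.le
    obtain ⟨hne, hrc⟩ := Finset.mem_erase.mp hr
    rw [← sub_add_sub_cancel β B.π r]
    exact (IsUltrametricDist.norm_add_le_max _ _).trans (max_le (hβπ.trans (hmin r hrc hne)) le_rfl)
  by_contra hcon
  push Not at hcon
  -- the fixed field of `σ` in `L`
  set L₁ := L ⊓ IntermediateField.fixedField (Subgroup.zpowers σ)
  have hWL₁ : B.W ≤ L₁ := le_inf B.le fun x hx => by
    rw [IntermediateField.mem_fixedField_iff]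
    intro g hg
    exact Subgroup.zpowers_le.mpr (show σ ∈ MulAction.stabilizer _ x from hσW x hx) hg
  have hσL₁ : ∀ x ∈ L₁, σ x = x := fun x hx =>
    IntermediateField.mem_fixedField_iff _ _ |>.mp hx.2 σ (Subgroup.mem_zpowers σ)
  have hmemL₁ : ∀ x ∈ L, σ x = x → x ∈ L₁ := fun x hx hfix => ⟨hx, by
    rw [SetLike.mem_coe, IntermediateField.mem_fixedField_iff]
    intro g hg
    exact Subgroup.zpowers_le.mpr (show σ ∈ MulAction.stabilizer _ x from hfix) hg⟩
  have hOL : ∀ r ∈ O, r ∈ L := fun r hr => by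
    obtain ⟨-, k, rfl⟩ := Finset.mem_filter.mp hr
    exact hnormal _ _ B.mem
  -- the coefficients of `g₁`
  have hg₁c : ∀ i, g₁.coeff i ∈ L₁ := by
    intro i
    refine hmemL₁ _ ?_ ?_
    · have : g₁ ∈ (Polynomial.mapRingHom (algebraMap L (PadicAlgCl p))).range :=
        Subring.prod_mem _ fun r hr => ⟨X - C ⟨r, hOL r hr⟩, by simp⟩
      obtain ⟨g, hg⟩ := this
      rw [← hg, coe_mapRingHom, coeff_map]
      exact (g.coeff i).2
    · have : g₁.map (σ : PadicAlgCl p →+* PadicAlgCl p) = g₁ := by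
        rw [hg₁, Polynomial.map_prod]
        conv_rhs => rw [← himg]
        rw [Finset.prod_image σ.injective.injOn]
        exact Finset.prod_congr rfl fun r _ => by simp
      conv_rhs => rw [← this]
      rw [coeff_map]
      rfl
  obtain ⟨g, hg⟩ : ∃ g : L₁[X], g.map (algebraMap L₁ (PadicAlgCl p)) = g₁ - C (w * c₀) :=
    (Polynomial.mem_lifts _).mp ((Polynomial.lifts_iff_coeff_lifts _).mpr fun i => ⟨⟨_, by
      show (g₁ - C (w * c₀)).coeff i ∈ L₁
      rw [coeff_sub, coeff_C]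
      refine sub_mem (hg₁c i) ?_
      split_ifs
      · exact mul_mem (hWL₁ hwW) (hmemL₁ c₀ hc₀L hc₀σ)
      · exact zero_mem L₁⟩, rfl⟩)
  have hβint := isIntegral_intermediate L₁ β
  have hπint := isIntegral_intermediate L₁ B.π
  have hdegβ : (minpoly L₁ β).natDegree ≤ n := by
    have hgd : g.natDegree = n := by
      rw [← natDegree_map (algebraMap L₁ (PadicAlgCl p)), hg, natDegree_sub_C, hg₁d]
    rw [← hgd]
    refine natDegree_le_of_dvd (minpoly.dvd _ _ ?_) fun h => by simp [h] at hgd; omega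
    rw [aeval_def, ← eval_map, hg]
    exact hβ
  have hdegπ : n ≤ (minpoly L₁ B.π).natDegree := by
    have hsub : O.val ≤ ((minpoly L₁ B.π).map (algebraMap L₁ (PadicAlgCl p))).roots := by
      rw [Multiset.le_iff_subset O.nodup]
      intro r hr
      rw [mem_roots_map (minpoly.ne_zero hπint), ← aeval_def]
      obtain ⟨-, k, rfl⟩ := Finset.mem_filter.mp (Finset.mem_def.mpr hr)
      clear hr
      induction k with
      | zero => simp
      | succ k ih => rw [pow_succ', AlgEquiv.mul_apply, aeval_intermediate_commutes hσL₁, ih, map_zero]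
    exact (Multiset.card_le_card hsub).trans ((card_roots' _).trans natDegree_map_le)
  set E := IntermediateField.adjoin L₁ ({β} : Set (PadicAlgCl p))
  have hπE : B.π ∈ E := by
    have hfix : B.π ∈ IntermediateField.fixedField (E.restrictScalars ℚ_[p]).fixingSubgroup := by
      rw [IntermediateField.mem_fixedField_iff]
      intro τ hτ
      rw [IntermediateField.mem_fixingSubgroup_iff] at hτ
      exact hcon τ (fun w hw => hτ w (E.algebraMap_mem ⟨w, hWL₁ hw⟩))
        (hτ β (IntermediateField.mem_adjoin_simple_self _ β))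
    rw [InfiniteGalois.fixedField_fixingSubgroup] at hfix
    exact hfix
  have : FiniteDimensional L₁ E := IntermediateField.adjoin.finiteDimensional hβint
  have hPE : IntermediateField.adjoin L₁ ({B.π} : Set (PadicAlgCl p)) = E :=
    IntermediateField.eq_of_le_of_finrank_le (IntermediateField.adjoin_simple_le_iff.mpr hπE) (by
      rw [IntermediateField.adjoin.finrank hβint, IntermediateField.adjoin.finrank hπint]
      exact hdegβ.trans hdegπ)
  have hβL : β ∈ L := by
    have hle : (IntermediateField.adjoin L₁ ({B.π} : Set (PadicAlgCl p))).restrictScalars ℚ_[p] ≤ L := by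
      rw [IntermediateField.restrictScalars_adjoin, IntermediateField.adjoin_le_iff]
      rintro x (hx | hx)
      · exact hx.1
      · rw [Set.mem_singleton_iff] at hx; exact hx ▸ B.mem
    exact hle (show β ∈ IntermediateField.adjoin L₁ ({B.π} : Set (PadicAlgCl p)) from
      hPE ▸ IntermediateField.mem_adjoin_simple_self _ β)
  set γ : integers L := ⟨⟨(β - B.π) / δ, div_mem (sub_mem hβL B.mem) hδL⟩, by
    show ‖(β - B.π) / δ‖ ≤ 1
    rw [norm_div]; exact div_le_one_of_le₀ hβπ (norm_nonneg _)⟩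
  refine ht (Ideal.Quotient.mk _ γ) ?_
  simp only [P, ε, ← map_add, ← map_prod]
  refine (residue_eq_iff L _ _).mpr ?_
  have e : ((((∏ r : O, (γ + ⟨⟨(B.π - r.1) / δ, hrL _ r.2⟩, hint _ r.2⟩) : integers L)) : L) :
      PadicAlgCl p) = w * u₀ := by
    push_cast
    simp only [γ, ← add_div]
    rw [Finset.prod_div_distrib, Finset.prod_const, Finset.card_univ, Fintype.card_coe, hu₀,
      mul_div_assoc', ← hβprod, ← Finset.prod_coe_sort O (fun r => β - r)]
    congr 1
    exact Finset.prod_congr rfl fun r _ => by ring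
  rw [e]
  have hu0' : u₀ ≠ 0 := norm_ne_zero_iff.mp (by rw [hu₀n]; exact one_ne_zero)
  rw [← div_mul_cancel₀ ((t' : L) : PadicAlgCl p) hu0', ← sub_mul, norm_mul, hu₀n, mul_one,
    norm_sub_rev]
  exact hw

open scoped Classical in
/-- **Fontaine's bound**, for the field generated by the points and by a set `T` of tame elements:
conjugates of `t ∈ T` which are closer to `t` than `‖t‖` are equal to it. -/
theorem RamifiedBasis.fontaine_bound (B : RamifiedBasis L)
    {M : Type*} [AddCommGroup M] [Module (ZMod p) M] [Fintype M] {ι : Type*} [Fintype ι]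
    (Λ : PointLattice (PadicAlgCl p) M ι)
    (hnormal : ∀ τ : PadicAlgCl p ≃ₐ[ℚ_[p]] PadicAlgCl p, ∀ x ∈ L, τ x ∈ L)
    (hone : ∀ l, Λ.b.repr 1 l ∈ B.W) (hmul : ∀ i j l, Λ.b.repr (Λ.b i * Λ.b j) l ∈ B.W)
    (hbL : ∀ l m, Λ.b l m ∈ L)
    (hstable : ∀ τ : PadicAlgCl p ≃ₐ[ℚ_[p]] PadicAlgCl p, (∀ w ∈ B.W, τ w = w) → ∀ m, ∃ m',
      ∀ l, τ (Λ.b l m) = Λ.b l m')
    (T : Set (PadicAlgCl p)) (hTL : T ⊆ L)
    (htame : ∀ τ : PadicAlgCl p ≃ₐ[ℚ_[p]] PadicAlgCl p, (∀ w ∈ B.W, τ w = w) →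
      ∀ t ∈ T, ‖τ t - t‖ < ‖t‖ → τ t = t)
    (hgen : ∀ τ : PadicAlgCl p ≃ₐ[ℚ_[p]] PadicAlgCl p, (∀ w ∈ B.W, τ w = w) →
      (∀ l m, τ (Λ.b l m) = Λ.b l m) → (∀ t ∈ T, τ t = t) → τ B.π = B.π)
    {σ : PadicAlgCl p ≃ₐ[ℚ_[p]] PadicAlgCl p} (hσW : ∀ w ∈ B.W, σ w = w) (hσπ : σ B.π ≠ B.π)
    (hmin : ∀ r ∈ B.conjugates, r ≠ B.π → ‖B.π - σ B.π‖ ≤ ‖B.π - r‖) :
    ‖(p : PadicAlgCl p)‖ ^ p ≤
      (‖B.π - σ B.π‖ * ∏ r ∈ B.conjugates.erase B.π, ‖B.π - r‖) ^ (p - 1) := by
  classical
  set P := ‖(p : PadicAlgCl p)‖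
  set U := ‖B.π - σ B.π‖ * ∏ r ∈ B.conjugates.erase B.π, ‖B.π - r‖
  have hP : 0 < P := norm_natCast_prime_pos
  have hP1 : P ≤ 1 := norm_natCast_prime_lt_one.le
  have hπc : B.π ∈ B.conjugates := (B.mem_conjugates_iff _).mpr (minpoly.aeval _ _)
  by_contra hcon
  push Not at hcon
  have hUpos : 0 < U := mul_pos (norm_pos_iff.mpr (sub_ne_zero.mpr (Ne.symm hσπ)))
    (Finset.prod_pos fun r hr => norm_pos_iff.mpr (sub_ne_zero.mpr (Finset.mem_erase.mp hr).1.symm))
  by_cases hD : ‖B.π - σ B.π‖ < ‖B.π‖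
  swap
  · push Not at hD
    have h1 : ‖B.π‖ ^ B.conjugates.card ≤ U := by
      rw [← Finset.card_erase_add_one hπc, pow_succ']
      refine mul_le_mul hD ?_ (by positivity) (norm_nonneg _)
      rw [← Finset.prod_const]
      exact Finset.prod_le_prod (fun _ _ => norm_nonneg _) fun r hr =>
        hD.trans (hmin r (Finset.mem_erase.mp hr).2 (Finset.mem_erase.mp hr).1)
    have h2 : P ≤ ‖B.π‖ ^ B.conjugates.card := by
      show ‖(p : PadicAlgCl p)‖ ≤ _
      rw [← B.pow_e]
      exact pow_le_pow_of_le_one (norm_nonneg _) B.lt_one.le B.card_conjugates_le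
    exact absurd hcon (not_lt.mpr ((pow_le_pow_of_le_one hP.le hP1 (Nat.sub_le p 1)).trans
      (pow_le_pow_left₀ hP.le (h2.trans h1) _)))
  obtain ⟨β, hβπ, hβU, τ, hτW, hτβ, hτπ⟩ := B.exists_bad_approximation hnormal hσW hσπ hmin
  have hβn : ‖β‖ = ‖B.π‖ := by
    have hlt : ‖β - B.π‖ < ‖B.π‖ := lt_of_le_of_lt hβπ hD
    conv_lhs => rw [← sub_add_cancel β B.π]
    rw [IsUltrametricDist.norm_add_eq_max_of_norm_ne_norm hlt.ne, max_eq_right hlt.le]
  have hβ1 : ‖β‖ ≤ 1 := hβn ▸ B.lt_one.le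
  -- polynomial expressions for the values of the basis
  choose a haW hab using fun l m => B.span _ (hbL l m)
  have ha1 : ∀ l m i, ‖a l m i‖ ≤ 1 := by
    intro l m i
    by_cases h0 : a l m i = 0
    · simp [h0]
    have h := B.term_le_norm_sum (t := B.π) rfl (haW l m) i
    rw [← hab] at h
    replace h := h.trans (Λ.norm_le l m)
    obtain ⟨k, hk⟩ := B.norm_W _ (haW l m i) h0
    rw [hk] at h ⊢
    have hk0 : 0 ≤ k := by
      by_contra hneg
      push Not at hneg
      have h2 : P⁻¹ ≤ P ^ k := by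
        rw [← zpow_neg_one]; exact zpow_le_zpow_right_of_le_one₀ hP hP1 (by omega)
      have h3 : ‖B.π‖ ^ (i : ℕ) ≤ P := by
        have := (mul_le_mul_of_nonneg_right h2 (pow_nonneg (norm_nonneg B.π) (i : ℕ))).trans h
        rwa [inv_mul_le_iff₀ hP, mul_one] at this
      have h4 : P < ‖B.π‖ ^ (i : ℕ) := by
        show ‖(p : PadicAlgCl p)‖ < _
        rw [← B.pow_e]
        exact pow_lt_pow_right_of_lt_one₀ (norm_pos_iff.mpr B.ne_zero) B.lt_one i.2
      exact absurd h3 (not_le.mpr h4)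
    exact (zpow_le_zpow_right_of_le_one₀ hP hP1 hk0).trans_eq (zpow_zero P)
  let A : ι → M → B.W[X] := fun l m => ∑ i, C (⟨a l m i, haW l m i⟩ : B.W) * X ^ (i : ℕ)
  have hAeval : ∀ (x : PadicAlgCl p) l m, aeval x (A l m) = ∑ i, a l m i * x ^ (i : ℕ) := fun x l m => by
    simp [A]
  let OW : Subring B.W := (closedUnit p).comap (algebraMap B.W (PadicAlgCl p))
  have hA1 : ∀ l m, A l m ∈ (Polynomial.mapRingHom OW.subtype).range := fun l m =>
    Subring.sum_mem _ fun i _ =>
      ⟨C ⟨⟨a l m i, haW l m i⟩, ha1 l m i⟩ * X ^ (i : ℕ), by simp⟩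
  have hcOW : ∀ c : PadicAlgCl p, (hc : c ∈ B.W) → ‖c‖ ≤ 1 →
      (C (⟨c, hc⟩ : B.W)) ∈ (Polynomial.mapRingHom OW.subtype).range := fun c hc h1 =>
    ⟨C ⟨⟨c, hc⟩, h1⟩, by simp⟩
  have happly : ∀ Q ∈ (Polynomial.mapRingHom OW.subtype).range, aeval B.π Q = 0 →
      ‖aeval β Q‖ ≤ U := fun Q hQ h0 =>
    (B.norm_eval_le (fun n => by
      obtain ⟨q, rfl⟩ := hQ
      rw [coe_mapRingHom, coeff_map]
      exact (q.coeff n).2) h0 hβ1).trans hβU
  have hlift : ∀ m : M, ∃ m' : M, ∀ l, ‖Λ.b l m' - aeval β (A l m)‖ ≤ U / P := by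
    intro m
    refine Λ.exists_point_of_approx p hUpos hcon (fun l => ?_) ?_ fun i j => ?_
    · rw [hAeval]
      refine IsUltrametricDist.norm_sum_le_of_forall_le_of_nonneg zero_le_one fun i _ => ?_
      rw [norm_mul, norm_pow]
      exact mul_le_one₀ (ha1 l m i) (by positivity) (pow_le_one₀ (norm_nonneg _) hβ1)
    · have e := happly (∑ l, C (⟨_, hone l⟩ : B.W) * A l m - 1)
        (sub_mem (Subring.sum_mem _ fun l _ => mul_mem (hcOW _ (hone l) (Λ.repr_one l)) (hA1 l m))
          (one_mem _)) (by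
          simp only [map_sub, map_sum, map_mul, aeval_C, map_one, hAeval, ← hab]
          rw [sub_eq_zero]
          have := congrArg (fun f : M → PadicAlgCl p => f m) (Λ.b.sum_repr 1)
          simpa using this)
      simpa using e
    · have e := happly (∑ l, C (⟨_, hmul i j l⟩ : B.W) * A l m - A i m * A j m)
        (sub_mem (Subring.sum_mem _ fun l _ => mul_mem (hcOW _ (hmul i j l) (Λ.repr_mul i j l)) (hA1 l m))
          (mul_mem (hA1 i m) (hA1 j m))) (by
          simp only [map_sub, map_sum, map_mul, aeval_C, hAeval, ← hab]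
          rw [sub_eq_zero]
          have := congrArg (fun f : M → PadicAlgCl p => f m) (Λ.b.sum_repr (Λ.b i * Λ.b j))
          simpa using this)
      simpa using e
  choose F hF using hlift
  have hp0 : (p : PadicAlgCl p) ≠ 0 := Nat.cast_ne_zero.mpr hp.out.ne_zero
  have hM : ∀ m : M, p • m = 0 := fun m => by
    rw [← Nat.cast_smul_eq_nsmul (ZMod p), ZMod.natCast_self, zero_smul]
  have hS0 : 0 ≤ U / P := div_nonneg hUpos.le hP.le
  have hS : (U / P) ^ (p - 1) < P := by
    rw [div_pow, div_lt_iff₀ (pow_pos hP _), ← pow_succ', Nat.sub_add_cancel hp.out.one_lt.le]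
    exact hcon
  have hinj : Function.Injective F := by
    intro m₀ m₁ h
    refine Λ.eq_of_congr hp.out hp0 hM hS0 hS fun l => ?_
    have hd : ∀ i, a l m₀ i - a l m₁ i ∈ B.W := fun i => sub_mem (haW l m₀ i) (haW l m₁ i)
    have hβd : ‖∑ i, (a l m₀ i - a l m₁ i) * β ^ (i : ℕ)‖ ≤ U / P := by
      simp only [sub_mul, Finset.sum_sub_distrib, ← hAeval]
      rw [← sub_sub_sub_cancel_left _ _ (Λ.b l (F m₀)), sub_eq_add_neg]
      refine (IsUltrametricDist.norm_add_le_max _ _).trans (max_le ?_ ?_)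
      · rw [h]; exact hF m₁ l
      · rw [norm_neg]; exact hF m₀ l
    rw [hab l m₀, hab l m₁, ← Finset.sum_sub_distrib]
    simp only [← sub_mul]
    refine IsUltrametricDist.norm_sum_le_of_forall_le_of_nonneg hS0 fun i _ => ?_
    rw [norm_mul, norm_pow]
    exact (B.term_le_norm_sum hβn hd i).trans hβd
  refine hτπ (hgen τ hτW (fun l m' => ?_) fun t ht => ?_)
  swap
  · rcases eq_or_ne t 0 with h0 | h0
    · rw [h0, map_zero]
    refine htame τ hτW t ht ?_
    obtain ⟨c, hc, hct⟩ := B.span t (hTL ht)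
    set s := ∑ i, c i * β ^ (i : ℕ) with hs
    have hτs : τ s = s := by
      rw [hs, map_sum]
      exact Finset.sum_congr rfl fun i _ => by rw [map_mul, map_pow, hτβ, hτW _ (hc i)]
    have hst : ‖s - t‖ < ‖t‖ := by
      have hπ0 : 0 < ‖B.π‖ := norm_pos_iff.mpr B.ne_zero
      have hlt : ‖β - B.π‖ / ‖B.π‖ < 1 := (div_lt_one hπ0).mpr (hβπ.trans_lt hD)
      refine lt_of_le_of_lt ?_ (mul_lt_of_lt_one_right (norm_pos_iff.mpr h0) hlt)
      rw [hs, hct, ← Finset.sum_sub_distrib]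
      refine IsUltrametricDist.norm_sum_le_of_forall_le_of_nonneg (by positivity) fun i _ => ?_
      rw [← mul_sub, ← geom_sum₂_mul, norm_mul, norm_mul, ← mul_assoc]
      have hterm := B.term_le_norm_sum (t := B.π) rfl hc i
      rcases Nat.eq_zero_or_pos (i : ℕ) with hi | hi
      · rw [hi, Finset.range_zero, Finset.sum_empty, norm_zero, mul_zero, zero_mul]; positivity
      rw [mul_div_assoc']
      rw [le_div_iff₀ hπ0, mul_comm (‖c i‖ * _) ‖β - B.π‖, mul_assoc, mul_comm _ ‖β - B.π‖]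
      refine mul_le_mul_of_nonneg_left ?_ (norm_nonneg _)
      refine le_trans ?_ hterm
      rw [mul_assoc]
      refine mul_le_mul_of_nonneg_left ?_ (norm_nonneg _)
      rw [← Nat.sub_add_cancel hi, pow_succ]
      refine mul_le_mul_of_nonneg_right ?_ hπ0.le
      refine IsUltrametricDist.norm_sum_le_of_forall_le_of_nonneg (by positivity) fun q hq => ?_
      rw [Finset.mem_range] at hq
      rw [norm_mul, norm_pow, norm_pow, hβn, ← pow_add]
      rw [show q + (((i : ℕ) - 1 + 1) - 1 - q) = (i : ℕ) - 1 by omega]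
    rw [show τ t - t = -(τ (s - t)) + (s - t) by rw [map_sub, hτs]; ring]
    refine (IsUltrametricDist.norm_add_le_max _ _).trans_lt (max_lt ?_ hst)
    rwa [norm_neg, norm_algEquiv]
  obtain ⟨m, rfl⟩ := (Finite.injective_iff_surjective.mp hinj) m'
  obtain ⟨m'', hm''⟩ := hstable τ hτW (F m)
  have : m'' = F m := Λ.eq_of_congr hp.out hp0 hM hS0 hS fun k => by
    rw [← hm'' k, ← sub_add_sub_cancel _ (aeval β (A k m))]
    refine (IsUltrametricDist.norm_add_le_max _ _).trans (max_le ?_ ?_)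
    · have hfix : τ (aeval β (A k m)) = aeval β (A k m) := by
        rw [← aeval_intermediate_commutes hτW, hτβ]
      rw [← hfix, ← map_sub, norm_algEquiv]
      exact hF m k
    · rw [norm_sub_rev]; exact hF m k
  rw [hm'' l, this]

end FermatLib.CFT.Fontaine
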