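import Fermat.Agent.CFT.FontaineOrth

/-!
# Kummer elements of Fontaine-small extensions are peu ramifiés

If `L` contains `ϖ` (a uniformizer of a subfield `K₀ = W(ϖ)`) and a `p`-th root `y` of an element of
`K₀` such that some `z = y - c` has `‖z‖ ^ p = ‖ϖ‖ ^ j`, `p ∤ j` and `‖p‖ ‖y‖ ^ p < ‖z‖ ^ p`, then
Fontaine's bound fails for `L`.
-/

set_option autoImplicit false

open Polynomial

namespace FermatLib.CFT.Fontaine

variable {p : ℕ} [hp : Fact p.Prime] {L : IntermediateField ℚ_[p] (PadicAlgCl p)}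

lemma norm_pow_sub_pow_le_mul {a b : PadicAlgCl p} (h : ‖a‖ = ‖b‖) (n : ℕ) :
    ‖a ^ n - b ^ n‖ ≤ ‖a - b‖ * ‖b‖ ^ (n - 1) := by
  rw [← geom_sum₂_mul, norm_mul, mul_comm]
  refine mul_le_mul_of_nonneg_left ?_ (norm_nonneg _)
  refine IsUltrametricDist.norm_sum_le_of_forall_le_of_nonneg (by positivity) fun i hi => ?_
  rw [Finset.mem_range] at hi
  rw [norm_mul, norm_pow, norm_pow, h, ← pow_add, show i + (n - 1 - i) = n - 1 by omega]

variable [FiniteDimensional ℚ_[p] L]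

omit [FiniteDimensional ℚ_[p] L] in
open scoped Classical in
lemma RamifiedBasis.card_conjugates (B : RamifiedBasis L) : B.conjugates.card = B.e := by
  refine le_antisymm B.card_conjugates_le ?_
  have hint := isIntegral_intermediate B.W B.π
  have hd : B.e ≤ (minpoly B.W B.π).natDegree := by
    by_contra hlt
    push Not at hlt
    let a : Fin B.e → PadicAlgCl p := fun i => ((minpoly B.W B.π).coeff i : B.W)
    have h0 : ∑ i, a i * B.π ^ (i : ℕ) = 0 := by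
      have h := minpoly.aeval B.W B.π
      rw [aeval_eq_sum_range' hlt, ← Fin.sum_univ_eq_sum_range] at h
      rw [← h]
      exact Finset.sum_congr rfl fun i _ => by rw [Algebra.smul_def]; rfl
    have h1 := B.eq_zero_of_sum_eq_zero (fun i => ((minpoly B.W B.π).coeff i).2) h0
      ⟨(minpoly B.W B.π).natDegree, hlt⟩
    have h2 : (minpoly B.W B.π).coeff (minpoly B.W B.π).natDegree = 0 := Subtype.ext h1
    rw [Polynomial.coeff_natDegree, (minpoly.monic hint).leadingCoeff] at h2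
    exact one_ne_zero h2
  rw [conjugates, uniformizerPoly, Multiset.toFinset_card_of_nodup
    (nodup_roots ((minpoly.irreducible hint).separable.map)), IsAlgClosed.card_roots_eq_natDegree,
    natDegree_map]
  exact hd

omit [FiniteDimensional ℚ_[p] L] in
lemma RamifiedBasis.exists_poly (B : RamifiedBasis L) {x : PadicAlgCl p} (hx : x ∈ L) :
    ∃ P : B.W[X], aeval B.π P = x := by
  obtain ⟨a, ha, rfl⟩ := B.span x hx
  exact ⟨∑ i, C (⟨a i, ha i⟩ : B.W) * X ^ (i : ℕ), by simp⟩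

omit [FiniteDimensional ℚ_[p] L] in
/-- An element whose value is of exact order `n` over a field has degree at least `n` over it. -/
lemma le_natDegree_minpoly {F : IntermediateField ℚ_[p] (PadicAlgCl p)} {t : PadicAlgCl p} {n : ℕ}
    (ht0 : t ≠ 0) (ht1 : ‖t‖ < 1)
    (hF : ∀ v ∈ (F : Set (PadicAlgCl p)), v ≠ 0 → ∃ k : ℤ, ‖v‖ = (‖t‖ ^ n) ^ k) :
    n ≤ (minpoly F t).natDegree := by
  by_contra hlt
  push Not at hlt
  have hint := isIntegral_intermediate F t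
  let b : Fin n → PadicAlgCl p := fun i => ((minpoly F t).coeff i : F)
  have h0 : ∑ i, b i * t ^ (i : ℕ) = 0 := by
    have h := minpoly.aeval F t
    rw [aeval_eq_sum_range' hlt, ← Fin.sum_univ_eq_sum_range] at h
    rw [← h]
    exact Finset.sum_congr rfl fun i _ => by rw [Algebra.smul_def]; rfl
  have h1 := (norm_mul_pow_le_norm_sum _ ht0 ht1 hF (a := b)
    (fun i => ((minpoly F t).coeff i).2)).1 ⟨_, hlt⟩
  rw [h0, norm_zero] at h1
  simp only [b, coeff_natDegree, (minpoly.monic hint).leadingCoeff, OneMemClass.coe_one, norm_one,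
    one_mul] at h1
  exact absurd h1 (not_le.mpr (pow_pos (norm_pos_iff.mpr ht0) _))

omit [FiniteDimensional ℚ_[p] L] in
lemma norm_coeff_prod_le_one (s : Finset (PadicAlgCl p)) (h : ∀ r ∈ s, ‖r‖ ≤ 1) (i : ℕ) :
    ‖(∏ r ∈ s, (X - Polynomial.C r)).coeff i‖ ≤ 1 := by
  classical
  induction s using Finset.induction_on generalizing i with
  | empty => rw [Finset.prod_empty, coeff_one]; split_ifs <;> simp
  | insert r s hr ih =>
    have hr1 := h r (Finset.mem_insert_self _ _)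
    have ih' := ih fun q hq => h q (Finset.mem_insert_of_mem hq)
    rw [Finset.prod_insert hr]
    cases i with
    | zero =>
      simp only [mul_coeff_zero, coeff_sub, coeff_X_zero, coeff_C_zero, zero_sub, norm_mul, norm_neg]
      exact mul_le_one₀ hr1 (norm_nonneg _) (ih' 0)
    | succ i =>
      rw [sub_mul, coeff_sub, coeff_X_mul, coeff_C_mul]
      rw [sub_eq_add_neg]
      refine (IsUltrametricDist.norm_add_le_max _ _).trans (max_le (ih' i) ?_)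
      rw [norm_neg, norm_mul]
      exact mul_le_one₀ hr1 (norm_nonneg _) (ih' _)

/-- The Kummer tower `W ⊂ W(ϖ) ⊂ W(ϖ, y)`. -/
theorem exists_kummer_tower {W : IntermediateField ℚ_[p] (PadicAlgCl p)} {ϖ y c : PadicAlgCl p}
    (hWv : ∀ w ∈ W, w ≠ 0 → ∃ k : ℤ, ‖w‖ = ‖(p : PadicAlgCl p)‖ ^ k)
    (hc : c = 0 ∨ c = 1) {n : ℕ} (hn : n ≠ 0)
    (hϖn : ‖ϖ‖ ^ n = ‖(p : PadicAlgCl p)‖)
    {a : Fin n → PadicAlgCl p} (ha : ∀ i, a i ∈ W) (hrel : ϖ ^ n = ∑ i, a i * ϖ ^ (i : ℕ))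
    (hu : y ^ p ∈ IntermediateField.adjoin W ({ϖ} : Set (PadicAlgCl p)))
    {j : ℕ} (hj : ¬ p ∣ j) (hz : ‖y - c‖ ^ p = ‖ϖ‖ ^ j) :
    y ≠ 0 ∧ n ≤ (minpoly W ϖ).natDegree ∧ ∃ (η : PadicAlgCl p) (δ : ℝ),
      IsPrimitiveRoot η p ∧ ‖η - 1‖ ^ (p - 1) = ‖(p : PadicAlgCl p)‖ ∧ 0 ≤ δ ∧
      δ ^ p = ‖ϖ‖ * (‖η - 1‖ * ‖y‖ / ‖y - c‖) ^ p ∧
      (∀ k : ℕ, ∃ τ : PadicAlgCl p ≃ₐ[ℚ_[p]] PadicAlgCl p,
        (∀ w ∈ W, τ w = w) ∧ τ ϖ = ϖ ∧ τ y = η ^ k * y) ∧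
      (∀ τ : PadicAlgCl p ≃ₐ[ℚ_[p]] PadicAlgCl p, (∀ w ∈ W, τ w = w) → τ ϖ = ϖ →
        ∃ k < p, τ y = η ^ k * y) ∧
      ∀ x : PadicAlgCl p, ‖x‖ ≤ 1 →
        (∀ τ : PadicAlgCl p ≃ₐ[ℚ_[p]] PadicAlgCl p, (∀ w ∈ W, τ w = w) → τ ϖ = ϖ → τ y = y → τ x = x) →
        ∀ τ : PadicAlgCl p ≃ₐ[ℚ_[p]] PadicAlgCl p, (∀ w ∈ W, τ w = w) → τ ϖ = ϖ → ‖τ x - x‖ ≤ δ := by
  set P := ‖(p : PadicAlgCl p)‖ with hPdef
  have hP : 0 < P := norm_natCast_prime_pos
  have hP1 : P < 1 := norm_natCast_prime_lt_one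
  have hϖ0 : ϖ ≠ 0 := fun h => by rw [h, norm_zero, zero_pow hn] at hϖn; exact hP.ne hϖn
  have hϖpos : 0 < ‖ϖ‖ := norm_pos_iff.mpr hϖ0
  have hϖ1 : ‖ϖ‖ < 1 := by
    by_contra h
    push Not at h
    exact absurd (hϖn ▸ hP1) (not_lt.mpr (one_le_pow₀ h))
  -- the base field
  set K₀ := IntermediateField.adjoin W ({ϖ} : Set (PadicAlgCl p))
  let f : W[X] := X ^ n - ∑ i : Fin n, C (⟨a i, ha i⟩ : W) * X ^ (i : ℕ)
  have hdeg : (∑ i : Fin n, C (⟨a i, ha i⟩ : W) * X ^ (i : ℕ)).degree < (n : WithBot ℕ) :=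
    (degree_sum_le _ _).trans_lt ((Finset.sup_lt_iff (WithBot.bot_lt_coe _)).mpr fun i _ =>
      (degree_C_mul_X_pow_le _ _).trans_lt (by exact_mod_cast i.2))
  have hfm : f.Monic := monic_X_pow_sub hdeg
  have hfd : f.natDegree = n := natDegree_eq_of_degree_eq_some (by
    rw [degree_sub_eq_left_of_degree_lt (by rw [degree_X_pow]; exact hdeg), degree_X_pow])
  have hf0 : aeval ϖ f = 0 := by
    simp only [f, map_sub, map_sum, map_mul, map_pow, aeval_X, aeval_C]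
    rw [sub_eq_zero]; exact hrel
  have hWv' : ∀ w ∈ (W : Set (PadicAlgCl p)), w ≠ 0 → ∃ k : ℤ, ‖w‖ = (‖ϖ‖ ^ n) ^ k :=
    fun w hw hw0 => hϖn ▸ hWv w hw hw0
  have hK₀val : ∀ x ∈ K₀, x ≠ 0 → ∃ k : ℤ, ‖x‖ = ‖ϖ‖ ^ k := by
    intro x hx hx0
    obtain ⟨b, hb, rfl⟩ := exists_sum_of_mem_adjoin f hfm hfd hn hf0 hx
    exact (norm_mul_pow_le_norm_sum _ hϖ0 hϖ1 hWv' hb).2 hx0
  have hmin : n ≤ (minpoly W ϖ).natDegree := le_natDegree_minpoly hϖ0 hϖ1 hWv'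
  set z := y - c with hzdef
  have hz0 : z ≠ 0 := fun h => by
    rw [h, norm_zero, zero_pow hp.out.ne_zero] at hz; exact (pow_pos hϖpos j).ne hz
  have hzpos : 0 < ‖z‖ := norm_pos_iff.mpr hz0
  have hy0 : y ≠ 0 := by
    intro h
    rcases hc with rfl | rfl
    · exact hz0 (by simp [hzdef, h])
    · rw [hzdef, h, zero_sub, norm_neg, norm_one, one_pow] at hz
      rcases Nat.eq_zero_or_pos j with rfl | hj'
      · exact hj (dvd_zero p)
      · exact (pow_lt_one₀ hϖpos.le hϖ1 hj'.ne').ne hz.symm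
  have hcfix : ∀ τ : PadicAlgCl p ≃ₐ[ℚ_[p]] PadicAlgCl p, τ c = c := fun τ => by
    rcases hc with rfl | rfl <;> simp
  -- the root of unity
  obtain ⟨σ₁, hσ₁W, hσ₁ϖ, hσ₁y⟩ : ∃ τ : PadicAlgCl p ≃ₐ[ℚ_[p]] PadicAlgCl p,
      (∀ w ∈ W, τ w = w) ∧ τ ϖ = ϖ ∧ τ y ≠ y := by
    by_contra hcon
    push Not at hcon
    have hyK : y ∈ K₀ := mem_adjoin_of_forall_fixed W _ fun τ hτ hτs => hcon τ hτ (hτs ϖ rfl)
    have hzK : z ∈ K₀ := sub_mem hyK (by rcases hc with rfl | rfl; exacts [zero_mem _, one_mem _])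
    obtain ⟨k, hk⟩ := hK₀val z hzK hz0
    rw [hk, ← zpow_natCast, ← zpow_mul, ← zpow_natCast] at hz
    have := zpow_right_injective₀ hϖpos hϖ1.ne hz
    exact hj (Int.natCast_dvd_natCast.mp ⟨k, by rw [← this, mul_comm]⟩)
  set η := σ₁ y / y with hηdef
  have hK₀fix : ∀ τ : PadicAlgCl p ≃ₐ[ℚ_[p]] PadicAlgCl p, (∀ w ∈ W, τ w = w) → τ ϖ = ϖ →
      ∀ x ∈ K₀, τ x = x := fun τ h1 h2 x hx => fixed_adjoin h1 (fun v hv => by rw [hv]; exact h2) hx
  have hroot : ∀ τ : PadicAlgCl p ≃ₐ[ℚ_[p]] PadicAlgCl p, (∀ w ∈ W, τ w = w) → τ ϖ = ϖ →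
      (τ y / y) ^ p = 1 := fun τ h1 h2 => by
    rw [div_pow, ← map_pow, hK₀fix τ h1 h2 _ hu, div_self (pow_ne_zero _ hy0)]
  have hη : η ^ p = 1 := hroot σ₁ hσ₁W hσ₁ϖ
  have hη1 : η ≠ 1 := fun h => hσ₁y ((div_eq_one_iff_eq hy0).mp h)
  have hηprim : IsPrimitiveRoot η p := IsPrimitiveRoot.iff_orderOf.mpr (orderOf_eq_prime hη hη1)
  -- the uniformizer of `K₀(y)`
  obtain ⟨A, m, hA⟩ : ∃ A m : ℕ, A * j = 1 + p * m := by
    have hjz : (j : ZMod p) ≠ 0 := fun h => hj ((ZMod.natCast_eq_zero_iff j p).mp h)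
    refine ⟨(j : ZMod p)⁻¹.val, ((j : ZMod p)⁻¹.val * j) / p, ?_⟩
    have h1 : ((j : ZMod p)⁻¹.val * j) % p = 1 := by
      rw [← ZMod.val_natCast, Nat.cast_mul, ZMod.natCast_val, ZMod.cast_id, inv_mul_cancel₀ hjz,
        ZMod.val_one]
    conv_lhs => rw [← Nat.mod_add_div ((j : ZMod p)⁻¹.val * j) p, h1]
  set Φ := z ^ A / ϖ ^ m with hΦ
  have hΦ0 : Φ ≠ 0 := div_ne_zero (pow_ne_zero _ hz0) (pow_ne_zero _ hϖ0)
  have hΦp : ‖Φ‖ ^ p = ‖ϖ‖ := by
    rw [hΦ, norm_div, norm_pow, norm_pow, div_pow, ← pow_mul, ← pow_mul, mul_comm A, pow_mul, hz,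
      ← pow_mul, mul_comm j, hA, pow_add, pow_one, mul_comm m p,
      mul_div_cancel_right₀ _ (pow_ne_zero _ hϖpos.ne')]
  have hΦ1 : ‖Φ‖ < 1 := by
    by_contra h
    push Not at h
    exact absurd (hΦp ▸ hϖ1) (not_lt.mpr (one_le_pow₀ h))
  set δ := ‖Φ‖ * (‖η - 1‖ * ‖y‖ / ‖z‖) with hδ
  have hA0 : A ≠ 0 := fun h => by rw [h, zero_mul] at hA; omega
  have hτΦ : ∀ τ : PadicAlgCl p ≃ₐ[ℚ_[p]] PadicAlgCl p, (∀ w ∈ W, τ w = w) → τ ϖ = ϖ →
      ‖τ Φ - Φ‖ ≤ δ := by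
    intro τ h1 h2
    obtain ⟨k, -, hk⟩ := hηprim.eq_pow_of_pow_eq_one (hroot τ h1 h2)
    have hτz : ‖τ z - z‖ ≤ ‖η - 1‖ * ‖y‖ := by
      have : τ z - z = (η ^ k - 1) * y := by
        rw [hk, hzdef, map_sub, hcfix, sub_mul, div_mul_cancel₀ _ hy0]; ring
      rw [this, norm_mul]
      refine mul_le_mul_of_nonneg_right ?_ (norm_nonneg _)
      rw [← geom_sum_mul, norm_mul]
      refine mul_le_of_le_one_left (norm_nonneg _) ?_
      refine IsUltrametricDist.norm_sum_le_of_forall_le_of_nonneg zero_le_one fun i _ => ?_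
      rw [norm_pow, (pow_eq_one_iff_of_nonneg (norm_nonneg η) hp.out.ne_zero).mp
        (by rw [← norm_pow, hη, norm_one]), one_pow]
    rw [hΦ, map_div₀, map_pow, map_pow, h2, ← sub_div, norm_div, hδ, hΦ, norm_div, norm_pow z,
      div_mul_eq_mul_div]
    gcongr
    refine (norm_pow_sub_pow_le_mul (norm_algEquiv τ z) A).trans ?_
    calc ‖τ z - z‖ * ‖z‖ ^ (A - 1) ≤ ‖η - 1‖ * ‖y‖ * ‖z‖ ^ (A - 1) :=
          mul_le_mul_of_nonneg_right hτz (by positivity)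
      _ = ‖z‖ ^ A * (‖η - 1‖ * ‖y‖ / ‖z‖) := by
          rw [← pow_sub_one_mul hA0 ‖z‖]; field_simp
  have hδpos : 0 < δ := mul_pos (norm_pos_iff.mpr hΦ0)
    (div_pos (mul_pos (norm_pos_iff.mpr (sub_ne_zero.mpr hη1)) (norm_pos_iff.mpr hy0)) hzpos)
  set K₁ := K₀.restrictScalars ℚ_[p] with hK₁
  have hK₁mem : ∀ {v}, v ∈ K₁ ↔ v ∈ K₀ := IntermediateField.mem_restrictScalars ℚ_[p]
  have hWK₀ : ∀ w ∈ W, w ∈ K₀ := fun w hw => K₀.algebraMap_mem ⟨w, hw⟩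
  have hK₁fix : ∀ ρ : PadicAlgCl p ≃ₐ[ℚ_[p]] PadicAlgCl p, (∀ v ∈ K₁, ρ v = v) →
      (∀ w ∈ W, ρ w = w) ∧ ρ ϖ = ϖ := fun ρ h =>
    ⟨fun w hw => h w (hK₁mem.mpr (hWK₀ w hw)),
      h ϖ (hK₁mem.mpr (IntermediateField.mem_adjoin_simple_self _ ϖ))⟩
  have hΦy : Φ ∈ IntermediateField.adjoin K₁ ({y} : Set (PadicAlgCl p)) :=
    mem_adjoin_of_forall_fixed K₁ _ fun ρ h1 h2 => by
      rw [hΦ, map_div₀, map_pow, map_pow, (hK₁fix ρ h1).2, hzdef, map_sub, hcfix, h2 y rfl]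
  have hyint := isIntegral_intermediate K₁ y
  have hΦint := isIntegral_intermediate K₁ Φ
  have hydeg : (minpoly K₁ y).natDegree ≤ p := by
    refine (natDegree_le_of_dvd (minpoly.dvd _ _ (p := X ^ p - C (⟨y ^ p, hK₁mem.mpr hu⟩ : K₁)) ?_)
      (X_pow_sub_C_ne_zero hp.out.pos _)).trans_eq natDegree_X_pow_sub_C
    simp [IntermediateField.algebraMap_apply]
  have hK₁val : ∀ v ∈ (K₁ : Set (PadicAlgCl p)), v ≠ 0 → ∃ k : ℤ, ‖v‖ = (‖Φ‖ ^ p) ^ k :=
    fun v hv h0 => hΦp ▸ hK₀val v (hK₁mem.mp hv) h0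
  have hΦdeg : p ≤ (minpoly K₁ Φ).natDegree := le_natDegree_minpoly hΦ0 hΦ1 hK₁val
  have : FiniteDimensional K₁ (IntermediateField.adjoin K₁ ({y} : Set (PadicAlgCl p))) :=
    IntermediateField.adjoin.finiteDimensional hyint
  have heqF : IntermediateField.adjoin K₁ ({Φ} : Set (PadicAlgCl p)) =
      IntermediateField.adjoin K₁ ({y} : Set (PadicAlgCl p)) :=
    IntermediateField.eq_of_le_of_finrank_le (IntermediateField.adjoin_simple_le_iff.mpr hΦy) (by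
      rw [IntermediateField.adjoin.finrank hyint, IntermediateField.adjoin.finrank hΦint]
      exact hydeg.trans hΦdeg)
  have hdegeq : (minpoly K₁ Φ).natDegree = p := by
    refine le_antisymm ?_ hΦdeg
    rw [← IntermediateField.adjoin.finrank hΦint, heqF, IntermediateField.adjoin.finrank hyint]
    exact hydeg
  have hyp : minpoly K₁ y = X ^ p - Polynomial.C (⟨y ^ p, hK₁mem.mpr hu⟩ : K₁) := by
    have hdvd : minpoly K₁ y ∣ X ^ p - Polynomial.C (⟨y ^ p, hK₁mem.mpr hu⟩ : K₁) :=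
      minpoly.dvd _ _ (by simp [IntermediateField.algebraMap_apply])
    refine eq_of_monic_of_associated (minpoly.monic hyint) (monic_X_pow_sub_C _ hp.out.ne_zero)
      (associated_of_dvd_of_natDegree_le hdvd (X_pow_sub_C_ne_zero hp.out.pos _) ?_)
    rw [natDegree_X_pow_sub_C, ← IntermediateField.adjoin.finrank hyint, ← heqF,
      IntermediateField.adjoin.finrank hΦint]
    exact hΦdeg
  have hσk : ∀ k : ℕ, ∃ τ : PadicAlgCl p ≃ₐ[ℚ_[p]] PadicAlgCl p,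
      (∀ w ∈ W, τ w = w) ∧ τ ϖ = ϖ ∧ τ y = η ^ k * y := by
    intro k
    have : Normal K₁ (PadicAlgCl p) := Normal.tower_top_of_normal ℚ_[p] K₁ (PadicAlgCl p)
    obtain ⟨τ, hτ⟩ := minpoly.exists_algEquiv_of_root' (L := PadicAlgCl p) (x := η ^ k * y)
      hyint.isAlgebraic (by
        rw [hyp]
        simp [IntermediateField.algebraMap_apply, mul_pow,
          show (η ^ k) ^ p = 1 by rw [← pow_mul, mul_comm, pow_mul, hη, one_pow]])
    have h := hK₁fix (τ.restrictScalars ℚ_[p]) fun v hv => τ.commutes ⟨v, hv⟩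
    exact ⟨τ.restrictScalars ℚ_[p], h.1, h.2, hτ⟩
  refine ⟨hy0, hmin, η, δ, hηprim, norm_sub_one_pow_eq hη hη1, hδpos.le, ?_, hσk,
    fun τ h1 h2 => ?_, ?_⟩
  · rw [hδ, mul_pow, hΦp]
  · obtain ⟨k, hk, hke⟩ := hηprim.eq_pow_of_pow_eq_one (hroot τ h1 h2)
    exact ⟨k, hk, by rw [hke, div_mul_cancel₀ _ hy0]⟩
  intro x hx1 hxfix τ hτW hτϖ
  have hxy : x ∈ IntermediateField.adjoin K₁ ({y} : Set (PadicAlgCl p)) :=
    mem_adjoin_of_forall_fixed K₁ _ fun ρ h1 h2 => hxfix ρ (hK₁fix ρ h1).1 (hK₁fix ρ h1).2 (h2 y rfl)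
  obtain ⟨b, hb, rfl⟩ := exists_sum_of_mem_adjoin (minpoly K₁ Φ) (minpoly.monic hΦint) hdegeq
    hp.out.ne_zero (minpoly.aeval _ _) (heqF ▸ hxy)
  rw [map_sum, ← Finset.sum_sub_distrib]
  refine IsUltrametricDist.norm_sum_le_of_forall_le_of_nonneg hδpos.le fun i _ => ?_
  rw [map_mul, hK₀fix τ hτW hτϖ _ (hK₁mem.mp (hb i)), map_pow, ← mul_sub, norm_mul]
  have hbi : ‖b i‖ ≤ 1 := by
    by_cases h0 : b i = 0
    · simp [h0]
    have h := ((norm_mul_pow_le_norm_sum _ hΦ0 hΦ1 hK₁val hb).1 i).trans hx1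
    obtain ⟨k, hk⟩ := hK₁val _ (hb i) h0
    rw [hk] at h ⊢
    refine (zpow_le_zpow_right_of_le_one₀ (by rw [hΦp]; exact hϖpos) (by rw [hΦp]; exact hϖ1.le)
      (?_ : (0 : ℤ) ≤ k)).trans_eq (zpow_zero _)
    by_contra hneg
    push Not at hneg
    have h2 : (‖Φ‖ ^ p)⁻¹ ≤ (‖Φ‖ ^ p) ^ k := by
      rw [← zpow_neg_one]
      exact zpow_le_zpow_right_of_le_one₀ (by rw [hΦp]; exact hϖpos) (by rw [hΦp]; exact hϖ1.le) (by omega)
    have h3 := (mul_le_mul_of_nonneg_right h2 (by positivity : (0 : ℝ) ≤ ‖Φ‖ ^ (i : ℕ))).trans h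
    rw [inv_mul_le_iff₀ (by rw [hΦp]; exact hϖpos), mul_one] at h3
    exact absurd h3 (not_le.mpr (pow_lt_pow_right_of_lt_one₀ (norm_pos_iff.mpr hΦ0) hΦ1 i.2))
  refine (mul_le_of_le_one_left (norm_nonneg _) hbi).trans ?_
  rw [← geom_sum₂_mul, norm_mul]
  refine (mul_le_of_le_one_left (norm_nonneg _) ?_).trans (hτΦ τ hτW hτϖ)
  refine IsUltrametricDist.norm_sum_le_of_forall_le_of_nonneg zero_le_one fun q _ => ?_
  rw [norm_mul, norm_pow, norm_pow, norm_algEquiv]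
  exact mul_le_one₀ (pow_le_one₀ (norm_nonneg _) hΦ1.le) (by positivity)
    (pow_le_one₀ (norm_nonneg _) hΦ1.le)

open scoped Classical in
/-- A wild Kummer element breaks Fontaine's bound. -/
theorem RamifiedBasis.exists_violation (B : RamifiedBasis L) {ϖ y c : PadicAlgCl p}
    (hϖL : ϖ ∈ L) (hyL : y ∈ L) (hc : c = 0 ∨ c = 1) {n : ℕ} (hn : n ≠ 0)
    (hϖn : ‖ϖ‖ ^ n = ‖(p : PadicAlgCl p)‖)
    {a : Fin n → PadicAlgCl p} (ha : ∀ i, a i ∈ B.W) (hrel : ϖ ^ n = ∑ i, a i * ϖ ^ (i : ℕ))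
    (hu : y ^ p ∈ IntermediateField.adjoin B.W ({ϖ} : Set (PadicAlgCl p)))
    {j : ℕ} (hj : ¬ p ∣ j) (hz : ‖y - c‖ ^ p = ‖ϖ‖ ^ j)
    (hlt : ‖(p : PadicAlgCl p)‖ * ‖y‖ ^ p < ‖y - c‖ ^ p) :
    ∃ σ : PadicAlgCl p ≃ₐ[ℚ_[p]] PadicAlgCl p, (∀ w ∈ B.W, σ w = w) ∧ σ B.π ≠ B.π ∧
      (∀ r ∈ B.conjugates, r ≠ B.π → ‖B.π - σ B.π‖ ≤ ‖B.π - r‖) ∧
      (‖B.π - σ B.π‖ * ∏ r ∈ B.conjugates.erase B.π, ‖B.π - r‖) ^ (p - 1) <
        ‖(p : PadicAlgCl p)‖ ^ p := by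
  obtain ⟨hy0, hmin, η, δ, hη, hη1, hδ0, hδp, hτk, hyk, hFδ⟩ :=
    exists_kummer_tower B.norm_W hc hn hϖn ha hrel hu hj hz
  set W := B.W
  set P := ‖(p : PadicAlgCl p)‖ with hPdef
  have hP : 0 < P := norm_natCast_prime_pos
  set R := B.conjugates with hR
  have hπR : B.π ∈ R := (B.mem_conjugates_iff _).mpr (minpoly.aeval _ _)
  have hτR : ∀ τ : PadicAlgCl p ≃ₐ[ℚ_[p]] PadicAlgCl p, (∀ w ∈ W, τ w = w) → ∀ r ∈ R, τ r ∈ R := by
    intro τ hτ r hr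
    rw [B.mem_conjugates_iff] at hr ⊢
    rw [aeval_intermediate_commutes hτ, hr, map_zero]
  have hRnorm : ∀ r ∈ R, ‖r‖ = ‖B.π‖ := fun r hr => by
    obtain ⟨τ, -, rfl⟩ := B.exists_algEquiv_of_mem hr
    exact norm_algEquiv τ _
  have hπ1 : ‖B.π‖ ≤ 1 := B.lt_one.le
  obtain ⟨Pϖ, hPϖ⟩ := B.exists_poly hϖL
  obtain ⟨Py, hPy⟩ := B.exists_poly hyL
  set R₀ := R.filter fun r => aeval r Pϖ = ϖ with hR₀
  have hR₀R : R₀ ⊆ R := Finset.filter_subset _ _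
  set C : ℕ → Finset (PadicAlgCl p) := fun k => R₀.filter fun r => aeval r Py = η ^ k * y with hC
  have hπ₀ : B.π ∈ R₀ := Finset.mem_filter.mpr ⟨hπR, hPϖ⟩
  have hπC : B.π ∈ C 0 := Finset.mem_filter.mpr ⟨hπ₀, by rw [hPy]; simp⟩
  have hmove : ∀ τ : PadicAlgCl p ≃ₐ[ℚ_[p]] PadicAlgCl p, (∀ w ∈ W, τ w = w) → τ ϖ = ϖ →
      ∀ r ∈ R₀, τ r ∈ R₀ := by
    intro τ hτW hτϖ r hr
    obtain ⟨hrR, hrϖ⟩ := Finset.mem_filter.mp hr
    exact Finset.mem_filter.mpr ⟨hτR τ hτW r hrR, by rw [aeval_intermediate_commutes hτW, hrϖ, hτϖ]⟩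
  have himage : ∀ (τ : PadicAlgCl p ≃ₐ[ℚ_[p]] PadicAlgCl p) (k : ℕ), (∀ w ∈ W, τ w = w) → τ ϖ = ϖ →
      τ y = η ^ k * y → (C 0).image τ = C k := by
    intro τ k hτW hτϖ hτy
    ext r
    simp only [Finset.mem_image, hC, Finset.mem_filter, pow_zero, one_mul]
    constructor
    · rintro ⟨q, ⟨hq₀, hqy⟩, rfl⟩
      exact ⟨hmove τ hτW hτϖ q hq₀, by rw [aeval_intermediate_commutes hτW, hqy, hτy]⟩
    · rintro ⟨hr₀, hry⟩
      have hW' : ∀ w ∈ W, τ.symm w = w := fun w hw => by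
        conv_lhs => rw [← hτW w hw]
        exact τ.symm_apply_apply w
      have hϖ' : τ.symm ϖ = ϖ := by conv_lhs => rw [← hτϖ]; exact τ.symm_apply_apply ϖ
      refine ⟨τ.symm r, ⟨hmove τ.symm hW' hϖ' r hr₀, ?_⟩, τ.apply_symm_apply r⟩
      rw [aeval_intermediate_commutes hW', hry, ← hτy, τ.symm_apply_apply]
  -- a class other than that of `π` has product at most `δ`
  have hclass : ∀ k : ℕ, k ∈ (Finset.range p).erase 0 → (∏ r ∈ C k, ‖B.π - r‖) ≤ δ := by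
    intro k _
    obtain ⟨τ, hτW, hτϖ, hτy⟩ := hτk k
    set g := ∏ r ∈ C 0, (X - Polynomial.C r) with hg
    have hgτ : g.map (τ : PadicAlgCl p →+* PadicAlgCl p) = ∏ r ∈ C k, (X - Polynomial.C r) := by
      rw [hg, Polynomial.map_prod, ← himage τ k hτW hτϖ hτy, Finset.prod_image τ.injective.injOn]
      exact Finset.prod_congr rfl fun r _ => by simp
    have hg1 : ∀ i, ‖g.coeff i‖ ≤ 1 := norm_coeff_prod_le_one _ fun r hr => by
      rw [hRnorm r (hR₀R (Finset.mem_filter.mp hr).1)]; exact hπ1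
    have hgfix : ∀ i, ∀ ρ : PadicAlgCl p ≃ₐ[ℚ_[p]] PadicAlgCl p, (∀ w ∈ W, ρ w = w) → ρ ϖ = ϖ →
        ρ y = y → ρ (g.coeff i) = g.coeff i := by
      intro i ρ h1 h2 h3
      have : g.map (ρ : PadicAlgCl p →+* PadicAlgCl p) = g := by
        rw [hg, Polynomial.map_prod]
        conv_rhs => rw [← himage ρ 0 h1 h2 (by simpa using h3), Finset.prod_image ρ.injective.injOn]
        exact Finset.prod_congr rfl fun r _ => by simp
      conv_rhs => rw [← this, Polynomial.coeff_map]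
      rfl
    have hg0 : g.eval B.π = 0 := by
      rw [hg, eval_prod]; exact Finset.prod_eq_zero hπC (by simp)
    calc ∏ r ∈ C k, ‖B.π - r‖ = ‖(g.map (τ : PadicAlgCl p →+* PadicAlgCl p) - g).eval B.π‖ := by
          rw [eval_sub, hg0, sub_zero, hgτ, eval_prod, norm_prod]
          simp
      _ ≤ δ := by
          rw [eval_eq_sum_range]
          refine IsUltrametricDist.norm_sum_le_of_forall_le_of_nonneg hδ0 fun i _ => ?_
          rw [norm_mul, norm_pow, coeff_sub, coeff_map]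
          refine (mul_le_of_le_one_right (norm_nonneg _) (pow_le_one₀ (norm_nonneg _) hπ1)).trans ?_
          exact hFδ _ (hg1 i) (hgfix i) τ hτW hτϖ
  -- the partition of `R₀`
  have hdisj : ((Finset.range p : Finset ℕ) : Set ℕ).PairwiseDisjoint C := by
    intro a' ha' b' hb' hab
    refine Finset.disjoint_left.mpr fun r hra hrb => hab ?_
    refine hη.pow_inj (Finset.mem_range.mp ha') (Finset.mem_range.mp hb') (mul_right_cancel₀ hy0 ?_)
    rw [← (Finset.mem_filter.mp hra).2, ← (Finset.mem_filter.mp hrb).2]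
  have hcover : R₀ = (Finset.range p).biUnion C := by
    refine Finset.Subset.antisymm (fun r hr => ?_) (Finset.biUnion_subset.mpr fun k _ =>
      Finset.filter_subset _ _)
    obtain ⟨hrR, hrϖ⟩ := Finset.mem_filter.mp hr
    obtain ⟨τ, hτW, rfl⟩ := B.exists_algEquiv_of_mem hrR
    rw [aeval_intermediate_commutes hτW, hPϖ] at hrϖ
    obtain ⟨k, hk, hke⟩ := hyk τ hτW hrϖ
    exact Finset.mem_biUnion.mpr ⟨k, Finset.mem_range.mpr hk,
      Finset.mem_filter.mpr ⟨hr, by rw [aeval_intermediate_commutes hτW, hPy, hke]⟩⟩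
  have h1p : 1 ∈ (Finset.range p).erase 0 :=
    Finset.mem_erase.mpr ⟨one_ne_zero, Finset.mem_range.mpr hp.out.one_lt⟩
  obtain ⟨h, hhW, hhϖ, hhy⟩ := hτk 1
  have hhπ : h B.π ∈ C 1 := by
    rw [← himage h 1 hhW hhϖ hhy]; exact Finset.mem_image_of_mem _ hπC
  have hne1 : ∀ r ∈ C 1, r ≠ B.π := by
    intro r hr he
    exact Finset.disjoint_left.mp (hdisj (Finset.mem_range.mpr hp.out.pos)
      (Finset.mem_range.mpr hp.out.one_lt) (zero_ne_one)) hπC (he ▸ hr)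
  obtain ⟨r₁, hr₁, hr₁min⟩ := (R.erase B.π).exists_min_image (fun r => ‖B.π - r‖)
    ⟨_, Finset.mem_erase.mpr ⟨hne1 _ hhπ, hR₀R (Finset.mem_filter.mp hhπ).1⟩⟩
  obtain ⟨hr₁π, hr₁R⟩ := Finset.mem_erase.mp hr₁
  obtain ⟨σ, hσW, rfl⟩ := B.exists_algEquiv_of_mem hr₁R
  refine ⟨σ, hσW, hr₁π, fun r hr hrπ => hr₁min r (Finset.mem_erase.mpr ⟨hrπ, hr⟩), ?_⟩
  set D := ‖B.π - σ B.π‖ with hD
  -- the class of `π` against the next one
  obtain ⟨r', hr', hr'min⟩ := (C 1).exists_min_image (fun r => ‖B.π - r‖) ⟨_, hhπ⟩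
  obtain ⟨h', hh'W, hh'ϖ, hh'y, hh'π⟩ : ∃ h' : PadicAlgCl p ≃ₐ[ℚ_[p]] PadicAlgCl p,
      (∀ w ∈ W, h' w = w) ∧ h' ϖ = ϖ ∧ h' y = η ^ 1 * y ∧ h' B.π = r' := by
    obtain ⟨hr'₀, hr'y⟩ := Finset.mem_filter.mp hr'
    obtain ⟨hr'R, hr'ϖ⟩ := Finset.mem_filter.mp hr'₀
    obtain ⟨τ, hτW, rfl⟩ := B.exists_algEquiv_of_mem hr'R
    rw [aeval_intermediate_commutes hτW, hPϖ] at hr'ϖ
    rw [aeval_intermediate_commutes hτW, hPy] at hr'y
    exact ⟨τ, hτW, hr'ϖ, hr'y, rfl⟩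
  have hfirst : D * ∏ r ∈ (C 0).erase B.π, ‖B.π - r‖ ≤ δ := by
    refine le_trans ?_ (hclass 1 h1p)
    rw [← himage h' 1 hh'W hh'ϖ hh'y, Finset.prod_image h'.injective.injOn,
      ← Finset.mul_prod_erase _ _ hπC]
    refine mul_le_mul ?_ (Finset.prod_le_prod (fun r _ => norm_nonneg _) fun r hr => ?_)
      (Finset.prod_nonneg fun r _ => norm_nonneg _) (norm_nonneg _)
    · rw [hh'π]
      exact hr₁min r' (Finset.mem_erase.mpr ⟨hne1 r' hr', hR₀R (Finset.mem_filter.mp hr').1⟩)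
    · have hrC : h' r ∈ C 1 := by
        rw [← himage h' 1 hh'W hh'ϖ hh'y]
        exact Finset.mem_image_of_mem _ (Finset.mem_of_mem_erase hr)
      have e : ‖B.π - r‖ = ‖(h' B.π - B.π) + (B.π - h' r)‖ := by
        rw [sub_add_sub_cancel, ← map_sub, norm_algEquiv]
      rw [e]
      refine (IsUltrametricDist.norm_add_le_max _ _).trans (max_le ?_ le_rfl)
      rw [hh'π, norm_sub_rev]
      exact hr'min _ hrC
  have hinner : D * ∏ r ∈ R₀.erase B.π, ‖B.π - r‖ ≤ δ ^ p := by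
    have hsplit : ∏ r ∈ R₀.erase B.π, ‖B.π - r‖ =
        (∏ r ∈ (C 0).erase B.π, ‖B.π - r‖) * ∏ k ∈ (Finset.range p).erase 0, ∏ r ∈ C k, ‖B.π - r‖ := by
      have e1 : R₀ = (C 0) ∪ ((Finset.range p).erase 0).biUnion C := by
        conv_lhs => rw [hcover, ← Finset.insert_erase (Finset.mem_range.mpr hp.out.pos),
          Finset.biUnion_insert]
      have e2 : Disjoint (C 0) (((Finset.range p).erase 0).biUnion C) :=
        (Finset.disjoint_biUnion_right _ _ _).mpr fun k hk =>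
          hdisj (Finset.mem_range.mpr hp.out.pos) (Finset.mem_of_mem_erase hk)
            (Finset.ne_of_mem_erase hk).symm
      rw [e1, Finset.erase_union_distrib,
        Finset.erase_eq_of_notMem (Finset.disjoint_left.mp e2 hπC),
        Finset.prod_union (e2.mono_left (Finset.erase_subset _ _)),
        Finset.prod_biUnion (hdisj.subset (by simp))]
    have epow : δ ^ p = δ * δ ^ (p - 1) := by
      rw [← pow_succ', Nat.sub_add_cancel hp.out.one_le]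
    rw [hsplit, ← mul_assoc, epow]
    refine mul_le_mul hfirst ?_ (Finset.prod_nonneg fun k _ => Finset.prod_nonneg fun r _ => norm_nonneg _) hδ0
    refine (Finset.prod_le_prod (fun k _ => Finset.prod_nonneg fun r _ => norm_nonneg _) hclass).trans ?_
    rw [Finset.prod_const, Finset.card_erase_of_mem (Finset.mem_range.mpr hp.out.pos), Finset.card_range]
  -- the conjugates moving `ϖ`
  have hcount : R₀.card * n ≤ R.card := by
    have hint := isIntegral_intermediate W ϖ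
    set T := (((minpoly W ϖ).map (algebraMap W (PadicAlgCl p))).roots).toFinset with hT
    have hTn : n ≤ T.card := by
      rw [hT, Multiset.toFinset_card_of_nodup
        (nodup_roots ((minpoly.irreducible hint).separable.map)),
        IsAlgClosed.card_roots_eq_natDegree, natDegree_map]
      exact hmin
    have hex : ∀ t ∈ T, ∃ τ : PadicAlgCl p ≃ₐ[ℚ_[p]] PadicAlgCl p, (∀ w ∈ W, τ w = w) ∧ τ ϖ = t := by
      intro t ht
      have : Normal W (PadicAlgCl p) := Normal.tower_top_of_normal ℚ_[p] W (PadicAlgCl p)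
      rw [hT, Multiset.mem_toFinset, mem_roots_map (minpoly.ne_zero hint)] at ht
      obtain ⟨τ, hτ⟩ := minpoly.exists_algEquiv_of_root' (L := PadicAlgCl p) hint.isAlgebraic ht
      exact ⟨τ.restrictScalars ℚ_[p], fun w hw => τ.commutes ⟨w, hw⟩, hτ⟩
    choose! τt hτW hτt using hex
    calc R₀.card * n ≤ R₀.card * T.card := Nat.mul_le_mul_left _ hTn
      _ = (R₀ ×ˢ T).card := (Finset.card_product _ _).symm
      _ ≤ R.card := by
        refine Finset.card_le_card_of_injOn (fun q => τt q.2 q.1) (fun q hq => ?_) ?_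
        · obtain ⟨h1, h2⟩ := Finset.mem_product.mp hq
          exact hτR _ (hτW _ h2) _ (hR₀R h1)
        · rintro ⟨r, t⟩ hrt ⟨r', t'⟩ hrt' he
          obtain ⟨h1, h2⟩ := Finset.mem_product.mp hrt
          obtain ⟨h1', h2'⟩ := Finset.mem_product.mp hrt'
          simp only at he
          have e' : t = t' := by
            calc t = τt t (aeval r Pϖ) := by rw [(Finset.mem_filter.mp h1).2, hτt t h2]
              _ = τt t' (aeval r' Pϖ) := by
                rw [← aeval_intermediate_commutes (hτW t h2), he,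
                  aeval_intermediate_commutes (hτW t' h2')]
              _ = t' := by rw [(Finset.mem_filter.mp h1').2, hτt t' h2']
          subst e'
          rw [(τt t).injective he]
  have hπpos : 0 < ‖B.π‖ := norm_pos_iff.mpr B.ne_zero
  have hcardR : R.card = B.e := B.card_conjugates
  have hϖle : ‖ϖ‖ ≤ ‖B.π‖ ^ R₀.card := by
    refine le_of_pow_le_pow_left₀ hn (by positivity) ?_
    rw [hϖn, hPdef, ← B.pow_e, ← pow_mul]
    exact pow_le_pow_of_le_one hπpos.le hπ1 (hcardR ▸ hcount)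
  have hU : D * ∏ r ∈ R.erase B.π, ‖B.π - r‖ ≤ P * (‖η - 1‖ * ‖y‖ / ‖y - c‖) ^ p := by
    have e1 : R.erase B.π = R₀.erase B.π ∪ (R \ R₀) := by
      ext r
      simp only [Finset.mem_erase, Finset.mem_union, Finset.mem_sdiff]
      constructor
      · rintro ⟨h1, h2⟩
        by_cases h3 : r ∈ R₀
        exacts [Or.inl ⟨h1, h3⟩, Or.inr ⟨h2, h3⟩]
      · rintro (⟨h1, h2⟩ | ⟨h1, h2⟩)
        exacts [⟨h1, hR₀R h2⟩, ⟨fun e => h2 (e ▸ hπ₀), h1⟩]
    rw [e1, Finset.prod_union (Finset.disjoint_sdiff.mono_left (Finset.erase_subset _ _)), ← mul_assoc]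
    have h2 : ∏ r ∈ R \ R₀, ‖B.π - r‖ ≤ ‖B.π‖ ^ (R.card - R₀.card) := by
      rw [← Finset.card_sdiff_of_subset hR₀R, ← Finset.prod_const]
      refine Finset.prod_le_prod (fun r _ => norm_nonneg _) fun r hr => ?_
      rw [sub_eq_add_neg]
      refine (IsUltrametricDist.norm_add_le_max _ _).trans ?_
      rw [norm_neg, hRnorm r (Finset.mem_sdiff.mp hr).1, max_self]
    refine (mul_le_mul hinner h2 (Finset.prod_nonneg fun r _ => norm_nonneg _) (pow_nonneg hδ0 _)).trans ?_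
    rw [hδp, mul_comm (‖ϖ‖), mul_assoc, mul_comm P]
    refine mul_le_mul_of_nonneg_left ?_ (by positivity)
    calc ‖ϖ‖ * ‖B.π‖ ^ (R.card - R₀.card)
        ≤ ‖B.π‖ ^ R₀.card * ‖B.π‖ ^ (R.card - R₀.card) :=
          mul_le_mul_of_nonneg_right hϖle (by positivity)
      _ = P := by rw [← pow_add, Nat.add_sub_cancel' (Finset.card_le_card hR₀R), hcardR, B.pow_e]
  have hzpos : 0 < ‖y - c‖ ^ p := lt_of_le_of_lt (by positivity) hlt
  refine (pow_le_pow_left₀ (mul_nonneg (norm_nonneg _) (Finset.prod_nonneg fun r _ => norm_nonneg _))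
    hU _).trans_lt ?_
  have e2 : (P * (‖η - 1‖ * ‖y‖ / ‖y - c‖) ^ p) ^ (p - 1) =
      P ^ p * (P * ‖y‖ ^ p / ‖y - c‖ ^ p) ^ (p - 1) := by
    rw [div_pow, mul_pow ‖η - 1‖, mul_div_assoc, mul_pow P, mul_pow (‖η - 1‖ ^ p), ← pow_mul,
      mul_comm p, pow_mul, hη1, mul_div_assoc P, mul_pow P]
    ring
  rw [e2]
  refine mul_lt_of_lt_one_right (pow_pos hP _) (pow_lt_one₀ (by positivity) ?_ ?_)
  · rwa [div_lt_one hzpos]
  · have := hp.out.two_le; omega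

end FermatLib.CFT.Fontaine
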