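import Fermat.Agent.CFT.FontainePeu
import Fermat.Agent.Galois.FlatModelRat
import Fermat.Prelude.Def_ExtEndgame_ProductionDatum

/-!
# The fields of finite flat group schemes over `ℤ_(p)` are Fontaine-small

The points of a finite flat commutative group scheme over `ℤ_(p)` give a point lattice in
`PadicAlgCl p`, so the field they generate, enlarged by tame elements, satisfies Fontaine's bound.
-/

set_option autoImplicit false

noncomputable section

open WithConv

namespace FermatLib.CFT.Fontaine

open FlatPoints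

local notation "Qbar" => AlgebraicClosure ℚ
local notation "Γℚ" => (AlgebraicClosure ℚ ≃ₐ[ℚ] AlgebraicClosure ℚ)

variable {p : ℕ} [hp : Fact p.Prime] {M : Type} [AddCommGroup M] {act : Γℚ → M → M}

lemma norm_padicEmbedding_ratLocalizedAt (r : GaloisRep.ratLocalizedAt p) :
    ‖padicEmbedding p (algebraMap (GaloisRep.ratLocalizedAt p) Qbar r)‖ ≤ 1 := by
  rw [IsScalarTower.algebraMap_apply (GaloisRep.ratLocalizedAt p) ℚ Qbar, AlgHom.commutes,
    show algebraMap (GaloisRep.ratLocalizedAt p) ℚ r = (r : ℚ) from rfl,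
    IsScalarTower.algebraMap_apply ℚ ℚ_[p] (PadicAlgCl p), norm_padic_algebraMap, eq_ratCast]
  refine Padic.norm_rat_le_one fun hdvd => ?_
  exact Nat.Prime.not_dvd_one hp.out (by
    have h : (r : ℚ).den.Coprime p := r.2
    exact (Nat.dvd_gcd hdvd dvd_rfl).trans h.dvd)

lemma padicEmbedding_rat_mem (W : IntermediateField ℚ_[p] (PadicAlgCl p))
    (r : GaloisRep.ratLocalizedAt p) :
    padicEmbedding p (algebraMap (GaloisRep.ratLocalizedAt p) Qbar r) ∈ W := by
  rw [IsScalarTower.algebraMap_apply (GaloisRep.ratLocalizedAt p) ℚ Qbar, AlgHom.commutes,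
    IsScalarTower.algebraMap_apply ℚ ℚ_[p] (PadicAlgCl p)]
  exact W.algebraMap_mem _

lemma norm_le_one_of_monic_root {P : Polynomial (PadicAlgCl p)} (hP : P.Monic)
    (hc : ∀ i, ‖P.coeff i‖ ≤ 1) {x : PadicAlgCl p} (hx : P.eval x = 0) : ‖x‖ ≤ 1 := by
  by_contra h
  push Not at h
  rw [Polynomial.eval_eq_sum_range, Finset.sum_range_succ, hP.coeff_natDegree, one_mul,
    add_eq_zero_iff_eq_neg'] at hx
  rcases Nat.eq_zero_or_pos P.natDegree with h0 | hpos
  · simp [h0] at hx
  refine absurd (congrArg norm hx) (ne_of_gt ?_)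
  rw [norm_neg, norm_pow]
  refine lt_of_le_of_lt (IsUltrametricDist.norm_sum_le_of_forall_le_of_nonneg
    (C := ‖x‖ ^ (P.natDegree - 1)) (by positivity) fun i hi => ?_)
    (pow_lt_pow_right₀ h (by omega))
  rw [norm_mul, norm_pow, Finset.mem_range] at *
  exact (mul_le_of_le_one_left (by positivity) (hc i)).trans
    (pow_le_pow_right₀ h.le (by omega))

/-- A point lattice with rational structure constants, on which the local Galois group acts through
`act`, and whose values determine the points. -/
theorem exists_pointLattice [Finite M] (h : Galois.FlatModel.HasModelAt p M act) :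
    ∃ (ι : Type) (_ : Fintype ι) (Λ : PointLattice (PadicAlgCl p) M ι),
      (∀ W : IntermediateField ℚ_[p] (PadicAlgCl p),
        (∀ l, Λ.b.repr 1 l ∈ W) ∧ ∀ i j l, Λ.b.repr (Λ.b i * Λ.b j) l ∈ W) ∧
      (∀ (τ : PadicAlgCl p ≃ₐ[ℚ_[p]] PadicAlgCl p) l m,
        τ (Λ.b l m) = Λ.b l (act (localGaloisToGlobal p τ) m)) ∧
      ∀ m m', (∀ l, Λ.b l m = Λ.b l m') → m = m' := by
  classical
  obtain ⟨H, _, _, hfin, -, -, e, hadd, hgal⟩ := h
  let R := GaloisRep.ratLocalizedAt p
  have : Fintype M := Fintype.ofFinite M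
  let ev : H →ₐ[R] (M → Qbar) := AlgHom.pi (R := R)  fun m => (e.symm m).ofConv
  have hev : ∀ a m, ev a m = (e.symm m).ofConv a := fun a m => rfl
  let A := ev.range
  have hAfin : Module.Finite R A := Module.Finite.of_surjective ev.rangeRestrict.toLinearMap
    (AlgHom.rangeRestrict_surjective ev)
  let φ : M → A →ₐ[R] Qbar := fun m => (Pi.evalAlgHom R (fun _ : M => Qbar) m).comp A.val
  have hsep : Galois.FlatModel.Separates φ := fun a ha => Subtype.ext (funext fun m => ha m)
  have hact : ∀ (σ : Γℚ) a m, ev a (act σ m) = σ (ev a m) := by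
    intro σ a m
    let g : WithConv (H →ₐ[R] Qbar) :=
      toConv (((σ : Qbar →ₐ[ℚ] Qbar).restrictScalars R).comp (e.symm m).ofConv)
    have hg : e g = act σ m := by rw [hgal σ (e.symm m) g fun _ => rfl, e.apply_symm_apply]
    rw [hev, ← hg, e.symm_apply_apply]
    rfl
  have hs : Galois.FlatModel.IsGalStable ℚ φ := fun σ m =>
    ⟨act σ m, AlgHom.ext fun ⟨a, ha⟩ => by
      obtain ⟨b, rfl⟩ := ha
      exact hact σ b m⟩
  have hinj : Function.Injective φ := fun m m' hmm => e.symm.injective
    (WithConv.ofConv_injective (AlgHom.ext fun a => AlgHom.congr_fun hmm ⟨ev a, a, rfl⟩))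
  have : Module.IsTorsionFree R A := hsep.isTorsionFree (k := ℚ)
  let κ := Module.Free.ChooseBasisIndex R A
  let b : Module.Basis κ R A := Module.Free.chooseBasis R A
  have : Fintype (A →ₐ[R] Qbar) :=
    have := Galois.FlatModel.finite_algHom_field (R := R) (A := A) (K := Qbar)
    Fintype.ofFinite _
  have hcard : Fintype.card κ = Fintype.card M := by
    rw [← hsep.card_algHom hs b, ← Nat.card_eq_fintype_card (α := M)]
    exact (Nat.card_eq_of_bijective φ ⟨hinj, hsep.surjective hs⟩).symm
  let E := padicEmbedding p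
  let v : κ → M → PadicAlgCl p := fun l m => E ((b l : M → Qbar) m)
  have htop : ⊤ ≤ Submodule.span (PadicAlgCl p) (Set.range v) := by
    intro f _
    have hδ : ∀ m₀ : M, (Pi.single m₀ (1 : PadicAlgCl p)) ∈
        Submodule.span (PadicAlgCl p) (Set.range v) := by
      intro m₀
      have hmem : (Pi.single m₀ (1 : Qbar)) ∈
          Submodule.span Qbar (Set.range fun (i : κ) (m : M) => φ m (b i)) := by
        rw [hsep.span_eq_top hs hinj b]; exact Submodule.mem_top
      obtain ⟨c, hc⟩ := (Submodule.mem_span_range_iff_exists_fun Qbar).mp hmem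
      refine (Submodule.mem_span_range_iff_exists_fun _).mpr ⟨fun i => E (c i), funext fun m => ?_⟩
      have h1 := congrArg E (congr_fun hc m)
      simp only [Finset.sum_apply, Pi.smul_apply, smul_eq_mul, map_sum, map_mul] at h1 ⊢
      refine h1.trans ?_
      rcases eq_or_ne m m₀ with rfl | hm
      · simp
      · simp [hm]
    rw [show f = ∑ m₀, f m₀ • Pi.single m₀ (1 : PadicAlgCl p) from pi_eq_sum_univ' f]
    exact Submodule.sum_mem _ fun m₀ _ => Submodule.smul_mem _ _ (hδ m₀)
  let bb : Module.Basis κ (PadicAlgCl p) (M → PadicAlgCl p) :=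
    basisOfTopLeSpanOfCardEqFinrank v htop (by rw [hcard, Module.finrank_pi])
  have hbb : ∀ l, bb l = v l := fun l => congr_fun (coe_basisOfTopLeSpanOfCardEqFinrank v htop _) l
  -- coordinates of integral functions
  have hrepr : ∀ (a : A) (l : κ), bb.repr (fun m => E ((a : M → Qbar) m)) l =
      E (algebraMap R Qbar (b.repr a l)) := by
    intro a l
    have h1 : (fun m => E ((a : M → Qbar) m)) = ∑ i, E (algebraMap R Qbar (b.repr a i)) • bb i := by
      funext m
      conv_lhs => rw [← b.sum_repr a]
      simp [hbb, v, map_sum, Algebra.smul_def, map_mul, Finset.sum_apply]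
    rw [h1, bb.repr_sum_self]
  have hone : ∀ l, bb.repr 1 l = E (algebraMap R Qbar (b.repr 1 l)) := fun l => by
    rw [← hrepr]
    congr 2
    funext m
    simp
  have hmul : ∀ i j l, bb.repr (bb i * bb j) l = E (algebraMap R Qbar (b.repr (b i * b j) l)) :=
    fun i j l => by
    rw [← hrepr]
    congr 2
    funext m
    simp [hbb, v]
  have hexp : ∀ (c : A) x, (c : M → Qbar) x =
      ∑ i, algebraMap R Qbar (b.repr c i) * (b i : M → Qbar) x := fun c x => by
    conv_lhs => rw [← b.sum_repr c]
    simp [Algebra.smul_def, Finset.sum_apply]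
  let Λ : PointLattice (PadicAlgCl p) M κ :=
    { b := bb
      norm_le := fun l m => by
        rw [hbb]
        obtain ⟨a, ha⟩ := (b l).2
        have hval : (b l : M → Qbar) m = (e.symm m).ofConv a := by rw [← ha]; exact hev a m
        show ‖E ((b l : M → Qbar) m)‖ ≤ 1
        rw [hval]
        obtain ⟨P, hP, hPx⟩ := (Algebra.IsIntegral.isIntegral (R := R) a).map (e.symm m).ofConv
        refine norm_le_one_of_monic_root (hP.map (E.toRingHom.comp (algebraMap R Qbar)))
          (fun i => ?_) ?_
        · rw [Polynomial.coeff_map]; exact norm_padicEmbedding_ratLocalizedAt _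
        · rw [Polynomial.eval_map]
          have := congrArg E.toRingHom hPx
          rwa [Polynomial.hom_eval₂, map_zero] at this
      repr_one := fun l => by rw [hone]; exact norm_padicEmbedding_ratLocalizedAt _
      repr_mul := fun i j l => by rw [hmul]; exact norm_padicEmbedding_ratLocalizedAt _
      comul := fun l => by
        obtain ⟨a, ha⟩ := (b l).2
        let ℛ := Coalgebra.Repr.arbitrary R a
        let cl : H × H → A := fun q => ⟨ev (ℛ.left q), _, rfl⟩
        let cr : H × H → A := fun q => ⟨ev (ℛ.right q), _, rfl⟩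
        refine ⟨fun i j => E (algebraMap R Qbar
          (∑ q ∈ ℛ.index, b.repr (cl q) i * b.repr (cr q) j)),
          fun i j => norm_padicEmbedding_ratLocalizedAt _, fun m n => ?_⟩
        simp only [hbb, v]
        have hsymm : e.symm (m + n) = e.symm m * e.symm n :=
          e.injective (by rw [hadd, e.apply_symm_apply, e.apply_symm_apply, e.apply_symm_apply])
        have key : (b l : M → Qbar) (m + n) =
            ∑ q ∈ ℛ.index, (cl q : M → Qbar) m * (cr q : M → Qbar) n := by
          rw [← ha]
          show (e.symm (m + n)).ofConv a = _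
          rw [hsymm]
          change ((e.symm m * e.symm n) : WithConv (H →ₐ[R] Qbar)) a = _
          rw [AlgHom.convMul_apply, ← ℛ.eq, map_sum]
          exact Finset.sum_congr rfl fun q _ => Algebra.TensorProduct.lift_tmul ..
        rw [key]
        rw [Finset.sum_congr rfl fun q _ => show (cl q : M → Qbar) m * (cr q : M → Qbar) n = _ by
          rw [hexp (cl q) m, hexp (cr q) n]]
        simp only [Finset.sum_mul, Finset.mul_sum, map_sum, map_mul]
        conv_rhs => rw [Finset.sum_comm]
        rw [Finset.sum_comm]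
        refine Finset.sum_congr rfl fun i _ => ?_
        rw [Finset.sum_comm]
        refine Finset.sum_congr rfl fun j _ => Finset.sum_congr rfl fun q _ => ?_
        ring }
  refine ⟨κ, inferInstance, Λ, fun W => ⟨fun l => ?_, fun i j l => ?_⟩, fun τ l m => ?_, fun m m' hmm => ?_⟩
  · rw [show Λ.b = bb from rfl, hone]; exact padicEmbedding_rat_mem W _
  · rw [show Λ.b = bb from rfl, hmul]; exact padicEmbedding_rat_mem W _
  · show τ (bb l m) = bb l _
    simp only [hbb, v]
    rw [← padicEmbedding_localGaloisToGlobal]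
    obtain ⟨a, ha⟩ := (b l).2
    rw [← ha]
    exact congrArg E (hact _ a m).symm
  · refine hinj (AlgHom.ext fun a => ?_)
    have hb' : ∀ i, (b i : M → Qbar) m = (b i : M → Qbar) m' := fun i =>
      E.injective (by simpa [Λ, hbb, v] using hmm i)
    show (a : M → Qbar) m = (a : M → Qbar) m'
    rw [hexp a m, hexp a m']
    simp only [hb']

open scoped Classical in
/-- A finite normal `L` generated by the points of a finite flat group scheme killed by `p` and by
tame elements is Fontaine-small. -/
theorem RamifiedBasis.isSmall_of_hasModelAt [Finite M] [Module (ZMod p) M]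
    (h : Galois.FlatModel.HasModelAt p M act) {L : IntermediateField ℚ_[p] (PadicAlgCl p)}
    [FiniteDimensional ℚ_[p] L] (B : RamifiedBasis L)
    (hnormal : ∀ τ : PadicAlgCl p ≃ₐ[ℚ_[p]] PadicAlgCl p, ∀ x ∈ L, τ x ∈ L)
    (hL : ∀ τ ∈ L.fixingSubgroup, ∀ m, act (localGaloisToGlobal p τ) m = m)
    (T : Set (PadicAlgCl p)) (hTL : T ⊆ L)
    (htame : ∀ τ : PadicAlgCl p ≃ₐ[ℚ_[p]] PadicAlgCl p, ∀ t ∈ T, ‖τ t - t‖ < ‖t‖ → τ t = t)
    (hgen : ∀ τ : PadicAlgCl p ≃ₐ[ℚ_[p]] PadicAlgCl p, (∀ m, act (localGaloisToGlobal p τ) m = m) →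
      (∀ t ∈ T, τ t = t) → ∀ x ∈ L, τ x = x) :
    B.IsSmall := by
  have : Fintype M := Fintype.ofFinite M
  obtain ⟨ι, _, Λ, hW, hact, hinj⟩ := exists_pointLattice (p := p) h
  have hbL : ∀ l m, Λ.b l m ∈ L := by
    intro l m
    rw [← InfiniteGalois.fixedField_fixingSubgroup L, IntermediateField.mem_fixedField_iff]
    intro τ hτ
    rw [hact, hL τ hτ]
  intro σ hσW hσπ hmin
  refine B.fontaine_bound Λ hnormal (hW B.W).1 (hW B.W).2 hbL
    (fun τ _ m => ⟨_, fun l => hact τ l m⟩) T hTL (fun τ _ => htame τ)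
    (fun τ _ hfix hT => hgen τ (fun m => hinj _ _ fun l => ?_) hT B.π B.mem) hσW hσπ hmin
  rw [← hact]
  exact hfix l m

end FermatLib.CFT.Fontaine
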