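import Fermat.Agent.CFT.FontaineBound

/-!
# Orthogonal power bases and roots of unity in `PadicAlgCl p`
-/

set_option autoImplicit false

open Polynomial

namespace FermatLib.CFT.Fontaine

variable {p : ℕ} [hp : Fact p.Prime]

/-- Powers of `t` are orthogonal over a field with values in `(‖t‖ ^ n) ^ ℤ`. -/
theorem norm_mul_pow_le_norm_sum {n : ℕ} (K₀ : Set (PadicAlgCl p)) {t : PadicAlgCl p} (ht0 : t ≠ 0)
    (ht1 : ‖t‖ < 1) (hK₀ : ∀ a ∈ K₀, a ≠ 0 → ∃ k : ℤ, ‖a‖ = (‖t‖ ^ n) ^ k)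
    {a : Fin n → PadicAlgCl p} (ha : ∀ i, a i ∈ K₀) :
    (∀ i : Fin n, ‖a i‖ * ‖t‖ ^ (i : ℕ) ≤ ‖∑ j, a j * t ^ (j : ℕ)‖) ∧
      (∑ j, a j * t ^ (j : ℕ) ≠ 0 → ∃ k : ℤ, ‖∑ j, a j * t ^ (j : ℕ)‖ = ‖t‖ ^ k) := by
  classical
  rcases isEmpty_or_nonempty (Fin n) with hn | hn
  · exact ⟨fun i => isEmptyElim i, fun h => absurd (by simp [Finset.univ_eq_empty]) h⟩
  obtain ⟨i₀, -, hi₀⟩ := Finset.exists_max_image Finset.univ
    (fun j : Fin n => ‖a j‖ * ‖t‖ ^ (j : ℕ)) ⟨Classical.arbitrary _, Finset.mem_univ _⟩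
  by_cases h0 : a i₀ = 0
  · have hall : ∀ j, a j = 0 := fun j => by
      have := hi₀ j (Finset.mem_univ j)
      simp only [h0, norm_zero, zero_mul] at this
      by_contra hj
      exact absurd this (not_le.mpr (mul_pos (norm_pos_iff.mpr hj) (pow_pos (norm_pos_iff.mpr ht0) _)))
    exact ⟨fun i => by simp [hall], fun h => absurd (by simp [hall]) h⟩
  have hT : 0 < ‖t‖ := norm_pos_iff.mpr ht0
  have hpos : 0 < ‖a i₀‖ * ‖t‖ ^ (i₀ : ℕ) := mul_pos (norm_pos_iff.mpr h0) (pow_pos hT _)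
  have hlt : ∀ j, j ≠ i₀ → ‖a j‖ * ‖t‖ ^ (j : ℕ) < ‖a i₀‖ * ‖t‖ ^ (i₀ : ℕ) := by
    intro j hj
    refine lt_of_le_of_ne (hi₀ j (Finset.mem_univ j)) fun heq => hj ?_
    have hj0 : a j ≠ 0 := fun h => by rw [h, norm_zero, zero_mul] at heq; exact hpos.ne heq
    obtain ⟨k, hk⟩ := hK₀ _ (ha j) hj0
    obtain ⟨k', hk'⟩ := hK₀ _ (ha i₀) h0
    rw [hk, hk', ← zpow_natCast, ← zpow_mul, ← zpow_natCast, ← zpow_mul, ← zpow_natCast,
      ← zpow_add₀ hT.ne', ← zpow_add₀ hT.ne'] at heq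
    have h1 := zpow_right_injective₀ hT ht1.ne heq
    have h2 : (n : ℤ) ∣ ((j : ℤ) - (i₀ : ℤ)) := ⟨k' - k, by linear_combination h1⟩
    have h3 := Int.eq_zero_of_dvd_of_natAbs_lt_natAbs h2 (by omega)
    exact Fin.ext (by omega)
  have hsum : ‖∑ j, a j * t ^ (j : ℕ)‖ = ‖a i₀‖ * ‖t‖ ^ (i₀ : ℕ) := by
    rw [← Finset.add_sum_erase _ _ (Finset.mem_univ i₀)]
    have hrest : ‖∑ j ∈ Finset.univ.erase i₀, a j * t ^ (j : ℕ)‖ < ‖a i₀ * t ^ (i₀ : ℕ)‖ := by
      rw [norm_mul, norm_pow]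
      rcases (Finset.univ.erase i₀).eq_empty_or_nonempty with he | he
      · rw [he, Finset.sum_empty, norm_zero]; exact hpos
      · obtain ⟨m, hm, hmle⟩ := IsUltrametricDist.exists_norm_finsetSum_le_of_nonempty he
          (fun j => a j * t ^ (j : ℕ))
        rw [norm_mul, norm_pow] at hmle
        exact lt_of_le_of_lt hmle (hlt m (Finset.mem_erase.mp hm).1)
    rw [IsUltrametricDist.norm_add_eq_max_of_norm_ne_norm hrest.ne', max_eq_left hrest.le, norm_mul,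
      norm_pow]
  refine ⟨fun i => (hi₀ i (Finset.mem_univ i)).trans hsum.ge, fun _ => ?_⟩
  obtain ⟨k', hk'⟩ := hK₀ _ (ha i₀) h0
  exact ⟨(n : ℤ) * k' + (i₀ : ℕ), by
    rw [hsum, hk', zpow_add₀ hT.ne', zpow_mul, zpow_natCast, zpow_natCast]⟩

/-- `‖η - 1‖ ^ (p - 1) = ‖p‖` for a primitive `p`-th root of unity. -/
theorem norm_sub_one_pow_eq {η : PadicAlgCl p} (hη : η ^ p = 1) (hη1 : η ≠ 1) :
    ‖η - 1‖ ^ (p - 1) = ‖(p : PadicAlgCl p)‖ := by
  obtain ⟨q, rfl⟩ : ∃ q, p = q + 1 := ⟨p - 1, (Nat.succ_pred_eq_of_pos hp.out.pos).symm⟩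
  have hprim : IsPrimitiveRoot η (q + 1) := IsPrimitiveRoot.iff_orderOf.mpr (orderOf_eq_prime hη hη1)
  have hle : ∀ μ : PadicAlgCl (q + 1), μ ^ (q + 1) = 1 → ∀ i : ℕ, ‖μ ^ i - 1‖ ≤ ‖μ - 1‖ := by
    intro μ hμ i
    have hμ1 : ‖μ‖ = 1 := (pow_eq_one_iff_of_nonneg (norm_nonneg μ) (Nat.succ_ne_zero q)).mp
      (by rw [← norm_pow, hμ, norm_one])
    rw [← geom_sum_mul, norm_mul]
    refine mul_le_of_le_one_left (norm_nonneg _) ?_
    exact IsUltrametricDist.norm_sum_le_of_forall_le_of_nonneg zero_le_one fun j _ => by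
      rw [norm_pow, hμ1, one_pow]
  have heq : ∀ i ∈ Finset.range q, ‖1 - η ^ (i + 1)‖ = ‖η - 1‖ := by
    intro i hi
    rw [Finset.mem_range] at hi
    rw [norm_sub_rev]
    refine le_antisymm (hle η hη _) ?_
    have hne : η ^ (i + 1) ≠ 1 := hprim.pow_ne_one_of_pos_of_lt (Nat.succ_ne_zero i) (by omega)
    have hpow : (η ^ (i + 1)) ^ (q + 1) = 1 := by rw [← pow_mul, mul_comm, pow_mul, hη, one_pow]
    obtain ⟨m, -, hm⟩ := (IsPrimitiveRoot.iff_orderOf.mpr (orderOf_eq_prime hpow hne) :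
      IsPrimitiveRoot (η ^ (i + 1)) (q + 1)).eq_pow_of_pow_eq_one hη
    calc ‖η - 1‖ = ‖(η ^ (i + 1)) ^ m - 1‖ := by rw [hm]
      _ ≤ _ := hle _ hpow m
  have hprod := congrArg norm hprim.prod_one_sub_pow_eq_order
  rw [norm_prod, Finset.prod_congr rfl heq, Finset.prod_const, Finset.card_range] at hprod
  simpa using hprod

lemma fixed_adjoin {F : IntermediateField ℚ_[p] (PadicAlgCl p)}
    {τ : PadicAlgCl p ≃ₐ[ℚ_[p]] PadicAlgCl p} (hF : ∀ w ∈ F, τ w = w) {s : Set (PadicAlgCl p)}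
    (hs : ∀ x ∈ s, τ x = x) {x : PadicAlgCl p} (hx : x ∈ IntermediateField.adjoin F s) : τ x = x := by
  induction hx using IntermediateField.adjoin_induction with
  | mem x hx => exact hs x hx
  | algebraMap a => exact hF a a.2
  | add x y _ _ hx hy => rw [map_add, hx, hy]
  | inv x _ hx => rw [map_inv₀, hx]
  | mul x y _ _ hx hy => rw [map_mul, hx, hy]

/-- Galois correspondence for a simple extension of an intermediate field. -/
lemma mem_adjoin_of_forall_fixed (F : IntermediateField ℚ_[p] (PadicAlgCl p)) (s : Set (PadicAlgCl p))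
    {x : PadicAlgCl p}
    (h : ∀ τ : PadicAlgCl p ≃ₐ[ℚ_[p]] PadicAlgCl p, (∀ w ∈ F, τ w = w) → (∀ v ∈ s, τ v = v) → τ x = x) :
    x ∈ IntermediateField.adjoin F s := by
  have hfix : x ∈ IntermediateField.fixedField
      ((IntermediateField.adjoin F s).restrictScalars ℚ_[p]).fixingSubgroup := by
    rw [IntermediateField.mem_fixedField_iff]
    intro τ hτ
    rw [IntermediateField.mem_fixingSubgroup_iff] at hτ
    have hτ' : ∀ w ∈ IntermediateField.adjoin F s, τ w = w := fun w hw =>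
      hτ w ((IntermediateField.mem_restrictScalars ℚ_[p]).mpr hw)
    refine h τ (fun w hw => ?_) (fun v hv => hτ' v (IntermediateField.subset_adjoin _ _ hv))
    have e : algebraMap F (PadicAlgCl p) (⟨w, hw⟩ : F) = w := rfl
    rw [← e]
    exact hτ' _ ((IntermediateField.adjoin F s).algebraMap_mem _)
  rw [InfiniteGalois.fixedField_fixingSubgroup] at hfix
  exact (IntermediateField.mem_restrictScalars ℚ_[p]).mp hfix

/-- Elements of a simple extension as polynomials of bounded degree in the generator. -/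
lemma exists_sum_of_mem_adjoin {F : IntermediateField ℚ_[p] (PadicAlgCl p)} {t : PadicAlgCl p}
    {n : ℕ} (f : F[X]) (hf : f.Monic) (hn : f.natDegree = n) (hn0 : n ≠ 0) (hroot : aeval t f = 0)
    {x : PadicAlgCl p} (hx : x ∈ IntermediateField.adjoin F ({t} : Set (PadicAlgCl p))) :
    ∃ a : Fin n → PadicAlgCl p, (∀ i, a i ∈ F) ∧ x = ∑ i, a i * t ^ (i : ℕ) := by
  have hint : IsIntegral F t := isIntegral_intermediate F t
  have hx' : x ∈ (IntermediateField.adjoin F ({t} : Set (PadicAlgCl p))).toSubalgebra := hx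
  rw [IntermediateField.adjoin_simple_toSubalgebra_of_isAlgebraic hint.isAlgebraic,
    Algebra.adjoin_singleton_eq_range_aeval] at hx'
  obtain ⟨P, rfl⟩ := hx'
  refine ⟨fun i => ((P %ₘ f).coeff i : F), fun i => ((P %ₘ f).coeff i).2, ?_⟩
  have hlt : (P %ₘ f).natDegree < n := hn ▸ natDegree_modByMonic_lt P hf (fun h => hn0 (by simp [← hn, h]))
  calc (aeval t).toRingHom P = aeval t (P %ₘ f) := (aeval_modByMonic_eq_self_of_root hroot).symm
    _ = _ := by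
      rw [aeval_eq_sum_range' hlt, ← Fin.sum_univ_eq_sum_range]
      exact Finset.sum_congr rfl fun i _ => Algebra.smul_def _ _

end FermatLib.CFT.Fontaine
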