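import Fermat.Agent.CFT.FontaineKummer

/-!
# Kummer elements inside Fontaine-small extensions

`RamifiedBasis.IsSmall` is the conclusion of Fontaine's bound. If `L` is small and contains a `p`-th
root `y` of an element of a tame field `K₀ = W₀(ϖ)`, then `y ^ p` is a `p`-th power of `K₀` up to a
unit congruent to `1` modulo `p`.
-/

set_option autoImplicit false

namespace FermatLib.CFT.Fontaine

variable {p : ℕ} [hp : Fact p.Prime] {L : IntermediateField ℚ_[p] (PadicAlgCl p)}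

open scoped Classical in
/-- Fontaine's bound for the minimal nonzero displacement of the uniformizer. -/
def RamifiedBasis.IsSmall (B : RamifiedBasis L) : Prop :=
  ∀ σ : PadicAlgCl p ≃ₐ[ℚ_[p]] PadicAlgCl p, (∀ w ∈ B.W, σ w = w) → σ B.π ≠ B.π →
    (∀ r ∈ B.conjugates, r ≠ B.π → ‖B.π - σ B.π‖ ≤ ‖B.π - r‖) →
    ‖(p : PadicAlgCl p)‖ ^ p ≤
      (‖B.π - σ B.π‖ * ∏ r ∈ B.conjugates.erase B.π, ‖B.π - r‖) ^ (p - 1)

/-- `(1 + x) ^ p ≡ 1 + x ^ p` modulo `p x`. -/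
lemma norm_one_add_pow_sub_le {x : PadicAlgCl p} (hx : ‖x‖ ≤ 1) :
    ‖(1 + x) ^ p - 1 - x ^ p‖ ≤ ‖(p : PadicAlgCl p)‖ * ‖x‖ := by
  have h2 := hp.out.two_le
  have hI : (Finset.range p).erase 0 = Finset.Ico 1 p := by
    ext i; simp only [Finset.mem_erase, Finset.mem_range, Finset.mem_Ico]; omega
  have e : (1 + x) ^ p - 1 - x ^ p = ∑ i ∈ Finset.Ico 1 p, x ^ i * (p.choose i : PadicAlgCl p) := by
    rw [add_comm, add_pow, Finset.sum_range_succ, ← Finset.add_sum_erase _ _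
      (Finset.mem_range.mpr hp.out.pos), hI]
    simp
    ring
  rw [e]
  refine IsUltrametricDist.norm_sum_le_of_forall_le_of_nonneg (by positivity) fun i hi => ?_
  rw [Finset.mem_Ico] at hi
  obtain ⟨d, hd⟩ := hp.out.dvd_choose_self (by omega) hi.2
  rw [hd, Nat.cast_mul, norm_mul, norm_mul, norm_pow, mul_comm, mul_assoc]
  refine mul_le_mul_of_nonneg_left ?_ (norm_nonneg _)
  calc ‖(d : PadicAlgCl p)‖ * ‖x‖ ^ i ≤ 1 * ‖x‖ ^ 1 :=
        mul_le_mul (IsUltrametricDist.norm_natCast_le_one _ d)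
          (pow_le_pow_of_le_one (norm_nonneg _) hx hi.1) (by positivity) zero_le_one
    _ = ‖x‖ := by simp

variable [FiniteDimensional ℚ_[p] L]

/-- **Peu ramifié Kummer elements**. -/
theorem RamifiedBasis.exists_pow_congr_one (B : RamifiedBasis L) (hsmall : B.IsSmall)
    {ϖ : PadicAlgCl p} (hϖL : ϖ ∈ L) {n : ℕ} (hn : n ≠ 0)
    (hϖn : ‖ϖ‖ ^ n = ‖(p : PadicAlgCl p)‖)
    {a : Fin n → PadicAlgCl p} (ha : ∀ i, a i ∈ B.W) (hrel : ϖ ^ n = ∑ i, a i * ϖ ^ (i : ℕ))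
    (K : IntermediateField ℚ_[p] (PadicAlgCl p)) (hKL : K ≤ L) (hϖK : ϖ ∈ K)
    (hKW : ∀ x ∈ K, x ∈ IntermediateField.adjoin B.W ({ϖ} : Set (PadicAlgCl p)))
    (hval : ∀ x ∈ K, x ≠ 0 → ∃ k : ℤ, ‖x‖ = ‖ϖ‖ ^ k)
    (hperf : ∀ x ∈ K, ‖x‖ ≤ 1 → ∃ w ∈ K, ‖x - w ^ p‖ < 1)
    {y : PadicAlgCl p} (hyL : y ∈ L) (hy0 : y ≠ 0) (hyK : y ^ p ∈ K) :
    ∃ t ∈ K, t ≠ 0 ∧ ‖y ^ p / t ^ p - 1‖ ≤ ‖(p : PadicAlgCl p)‖ := by
  set P := ‖(p : PadicAlgCl p)‖ with hPdef
  have hP : 0 < P := norm_natCast_prime_pos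
  have hP1 : P < 1 := norm_natCast_prime_lt_one
  have hϖ0 : ϖ ≠ 0 := fun h => by rw [h, norm_zero, zero_pow hn] at hϖn; exact hP.ne hϖn
  have hϖpos : 0 < ‖ϖ‖ := norm_pos_iff.mpr hϖ0
  have hϖ1 : ‖ϖ‖ < 1 := by
    by_contra h
    push Not at h
    exact absurd (hϖn ▸ hP1) (not_lt.mpr (one_le_pow₀ h))
  have hno : ∀ (z c : PadicAlgCl p), z ∈ L → z ^ p ∈ K → (c = 0 ∨ c = 1) → ∀ j : ℕ, ¬ p ∣ j →
      ‖z - c‖ ^ p = ‖ϖ‖ ^ j → P * ‖z‖ ^ p < ‖z - c‖ ^ p → False := by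
    intro z c hzL hzK hc j hj hzj hlt
    obtain ⟨σ, h1, h2, h3, h4⟩ :=
      B.exists_violation hϖL hzL hc hn hϖn ha hrel (hKW _ hzK) hj hzj hlt
    exact absurd (hsmall σ h1 h2 h3) (not_le.mpr h4)
  -- congruent to `1` to higher and higher order
  have hstep : ∀ d k : ℕ, k + d = n → 1 ≤ k → ∀ z ∈ L, z ^ p ∈ K → ‖z ^ p - 1‖ ≤ ‖ϖ‖ ^ k →
      ∃ t ∈ K, t ≠ 0 ∧ ‖z ^ p / t ^ p - 1‖ ≤ P := by
    intro d
    induction d with
    | zero =>
      intro k hk _ z _ _ hz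
      exact ⟨1, one_mem K, one_ne_zero, by simpa [show k = n by omega, hϖn] using hz⟩
    | succ d ih =>
      intro k hk hk1 z hzL hzK hz
      rcases lt_or_eq_of_le hz with hlt | heq
      · refine ih (k + 1) (by omega) (by omega) z hzL hzK ?_
        rcases eq_or_ne (z ^ p - 1) 0 with h0 | h0
        · rw [h0, norm_zero]; positivity
        obtain ⟨i, hi⟩ := hval _ (sub_mem hzK (one_mem K)) h0
        rw [hi, ← zpow_natCast, zpow_le_zpow_iff_right_of_lt_one₀ hϖpos hϖ1]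
        rw [hi, ← zpow_natCast, zpow_lt_zpow_iff_right_of_lt_one₀ hϖpos hϖ1] at hlt
        omega
      have hPk : P < ‖ϖ‖ ^ k := hϖn ▸ pow_lt_pow_right_of_lt_one₀ hϖpos hϖ1 (by omega)
      have hk1' : ‖ϖ‖ ^ k < 1 := pow_lt_one₀ hϖpos.le hϖ1 (by omega)
      have hz1 : ‖z‖ = 1 := by
        have h1 : ‖z ^ p - 1 + 1‖ = 1 := by
          rw [IsUltrametricDist.norm_add_eq_max_of_norm_ne_norm (by rw [heq, norm_one]; exact hk1'.ne),
            heq, norm_one, max_eq_right hk1'.le]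
        rw [sub_add_cancel, norm_pow] at h1
        exact (pow_eq_one_iff_of_nonneg (norm_nonneg _) hp.out.ne_zero).mp h1
      have hz' : ‖z - 1‖ ≤ 1 := by
        rw [sub_eq_add_neg]
        exact (IsUltrametricDist.norm_add_le_max _ _).trans (by simp [hz1])
      have hz1p : ‖z - 1‖ ^ p = ‖ϖ‖ ^ k := by
        have hR : ‖z ^ p - 1 - (z - 1) ^ p‖ ≤ P := by
          have h := norm_one_add_pow_sub_le hz'
          rw [show (1 : PadicAlgCl p) + (z - 1) = z by ring] at h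
          exact h.trans (mul_le_of_le_one_right hP.le hz')
        rw [← norm_pow, show (z - 1) ^ p = (z ^ p - 1) + -(z ^ p - 1 - (z - 1) ^ p) by ring,
          IsUltrametricDist.norm_add_eq_max_of_norm_ne_norm
            (by rw [norm_neg, heq]; exact (hR.trans_lt hPk).ne'),
          norm_neg, heq, max_eq_left (hR.trans hPk.le)]
      by_cases hpk : p ∣ k
      · obtain ⟨m, rfl⟩ := hpk
        have hm : m ≠ 0 := fun h => by simp [h] at hk1
        obtain ⟨w, hwK, hw⟩ := hperf ((z ^ p - 1) / ϖ ^ (p * m))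
          (div_mem (sub_mem hzK (one_mem K)) (pow_mem hϖK _))
          (by rw [norm_div, norm_pow, heq, div_self (pow_ne_zero _ hϖpos.ne')])
        have hw1 : ‖w‖ ≤ 1 := by
          by_contra hw'
          push Not at hw'
          have : ‖(z ^ p - 1) / ϖ ^ (p * m) - w ^ p‖ = ‖w‖ ^ p := by
            have h1 : ‖(z ^ p - 1) / ϖ ^ (p * m)‖ = 1 := by
              rw [norm_div, norm_pow, heq, div_self (pow_ne_zero _ hϖpos.ne')]
            rw [sub_eq_add_neg, IsUltrametricDist.norm_add_eq_max_of_norm_ne_norm, norm_neg,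
              norm_pow, h1, max_eq_right (one_le_pow₀ hw'.le)]
            rw [norm_neg, norm_pow, h1]
            exact (one_lt_pow₀ hw' hp.out.ne_zero).ne
          rw [this] at hw
          exact absurd hw (not_lt.mpr (one_le_pow₀ hw'.le))
        set s := 1 + w * ϖ ^ m with hsdef
        have hwm : ‖w * ϖ ^ m‖ < 1 := by
          rw [norm_mul, norm_pow]
          exact mul_lt_one_of_nonneg_of_lt_one_right hw1 (by positivity) (pow_lt_one₀ hϖpos.le hϖ1 hm)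
        have hs1 : ‖s‖ = 1 := by
          rw [hsdef, IsUltrametricDist.norm_add_eq_max_of_norm_ne_norm (by rw [norm_one]; exact hwm.ne'),
            norm_one, max_eq_left hwm.le]
        have hs0 : s ≠ 0 := fun h => by simp [h] at hs1
        have hsK : s ∈ K := add_mem (one_mem K) (mul_mem hwK (pow_mem hϖK _))
        have hlt' : ‖z ^ p - s ^ p‖ < ‖ϖ‖ ^ (p * m) := by
          rw [show z ^ p - s ^ p =
            ϖ ^ (p * m) * ((z ^ p - 1) / ϖ ^ (p * m) - w ^ p) +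
              -((1 + w * ϖ ^ m) ^ p - 1 - (w * ϖ ^ m) ^ p) by
            rw [mul_sub, mul_div_cancel₀ _ (pow_ne_zero _ hϖ0), mul_pow, ← pow_mul, mul_comm m p,
              hsdef]
            ring]
          refine (IsUltrametricDist.norm_add_le_max _ _).trans_lt (max_lt ?_ ?_)
          · rw [norm_mul, norm_pow]
            exact mul_lt_of_lt_one_right (pow_pos hϖpos _) hw
          · rw [norm_neg]
            exact ((norm_one_add_pow_sub_le hwm.le).trans (mul_le_of_le_one_right hP.le hwm.le)).trans_lt hPk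
        have hz2K : (z / s) ^ p ∈ K := by rw [div_pow]; exact div_mem hzK (pow_mem hsK _)
        obtain ⟨t, htK, ht0, ht⟩ := ih (p * m + 1) (by omega) (by omega) (z / s)
          (div_mem hzL (hKL hsK)) hz2K (by
            rcases eq_or_ne ((z / s) ^ p - 1) 0 with h0 | h0
            · rw [h0, norm_zero]; positivity
            obtain ⟨i, hi⟩ := hval _ (sub_mem hz2K (one_mem K)) h0
            have hlt2 : ‖(z / s) ^ p - 1‖ < ‖ϖ‖ ^ (p * m) := by
              rwa [div_pow, div_sub_one (pow_ne_zero _ hs0), norm_div, norm_pow, hs1, one_pow, div_one]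
            rw [hi, ← zpow_natCast, zpow_lt_zpow_iff_right_of_lt_one₀ hϖpos hϖ1] at hlt2
            rw [hi, ← zpow_natCast, zpow_le_zpow_iff_right_of_lt_one₀ hϖpos hϖ1]
            omega)
        refine ⟨s * t, mul_mem hsK htK, mul_ne_zero hs0 ht0, ?_⟩
        rwa [mul_pow, ← div_div, ← div_pow z s]
      · exact (hno z 1 hzL hzK (Or.inr rfl) k hpk hz1p (by rw [hz1, hz1p, one_pow, mul_one]; exact hPk)).elim
  -- reduce to a principal unit
  obtain ⟨i, hi⟩ := hval _ hyK (pow_ne_zero _ hy0)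
  by_cases hpi : (p : ℤ) ∣ i
  · obtain ⟨m, rfl⟩ := hpi
    have hu : ‖y ^ p / (ϖ ^ m) ^ p‖ = 1 := by
      rw [norm_div, norm_pow (ϖ ^ m), norm_zpow, hi, ← zpow_natCast (‖ϖ‖ ^ m), ← zpow_mul,
        mul_comm (p : ℤ), div_self (zpow_ne_zero _ hϖpos.ne')]
    have huK : y ^ p / (ϖ ^ m) ^ p ∈ K := div_mem hyK (pow_mem (zpow_mem hϖK m) _)
    obtain ⟨w, hwK, hw⟩ := hperf _ huK hu.le
    have hwp : ‖w ^ p‖ = 1 := by
      rw [show w ^ p = y ^ p / (ϖ ^ m) ^ p + -(y ^ p / (ϖ ^ m) ^ p - w ^ p) by ring,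
        IsUltrametricDist.norm_add_eq_max_of_norm_ne_norm (by rw [norm_neg, hu]; exact hw.ne'),
        hu, norm_neg, max_eq_left hw.le]
    have hw0 : w ≠ 0 := fun h => by simp [h, hp.out.ne_zero] at hwp
    have ht : ϖ ^ m * w ≠ 0 := mul_ne_zero (zpow_ne_zero _ hϖ0) hw0
    have htK : ϖ ^ m * w ∈ K := mul_mem (zpow_mem hϖK m) hwK
    have hz2K : (y / (ϖ ^ m * w)) ^ p ∈ K := by rw [div_pow]; exact div_mem hyK (pow_mem htK _)
    have hz2 : ‖(y / (ϖ ^ m * w)) ^ p - 1‖ < 1 := by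
      rwa [div_pow, mul_pow, ← div_div, div_sub_one (pow_ne_zero _ hw0), norm_div, hwp, div_one]
    obtain ⟨t, htK', ht0, htle⟩ := hstep (n - 1) 1 (by omega) le_rfl _
      (div_mem hyL (hKL htK)) hz2K (by
        rcases eq_or_ne ((y / (ϖ ^ m * w)) ^ p - 1) 0 with h0 | h0
        · rw [h0, norm_zero]; positivity
        obtain ⟨i, hi⟩ := hval _ (sub_mem hz2K (one_mem K)) h0
        rw [hi, ← zpow_zero ‖ϖ‖, zpow_lt_zpow_iff_right_of_lt_one₀ hϖpos hϖ1] at hz2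
        rw [hi, pow_one]
        conv_rhs => rw [← zpow_one ‖ϖ‖]
        rw [zpow_le_zpow_iff_right_of_lt_one₀ hϖpos hϖ1]
        omega)
    exact ⟨_, mul_mem htK htK', mul_ne_zero ht ht0,
      by rwa [mul_pow, ← div_div, ← div_pow y]⟩
  · -- a non-integral valuation
    set r := i % (p : ℤ) with hr
    have hp0 : (p : ℤ) ≠ 0 := by exact_mod_cast hp.out.ne_zero
    have hr0 := Int.emod_nonneg i hp0
    have hrne : r ≠ 0 := fun h => hpi (Int.dvd_of_emod_eq_zero h)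
    have hz' : ‖y / ϖ ^ (i / (p : ℤ)) - 0‖ ^ p = ‖ϖ‖ ^ r.toNat := by
      rw [sub_zero, norm_div, norm_zpow, div_pow, ← norm_pow, hi, ← zpow_natCast (‖ϖ‖ ^ (i / _)),
        ← zpow_mul, ← zpow_sub₀ hϖpos.ne', ← zpow_natCast ‖ϖ‖ r.toNat, Int.toNat_of_nonneg hr0,
        Int.emod_def, mul_comm]
    refine (hno _ 0 (div_mem hyL (zpow_mem hϖL _)) ?_ (Or.inl rfl) r.toNat ?_ hz' ?_).elim
    · rw [div_pow]; exact div_mem hyK (pow_mem (zpow_mem hϖK _) _)
    · intro h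
      have h2 : r < p := Int.emod_lt_of_pos i (by exact_mod_cast hp.out.pos)
      have := Nat.le_of_dvd (by omega) h
      omega
    · rw [hz']
      rw [sub_zero] at hz'
      rw [hz']
      exact mul_lt_of_lt_one_left (pow_pos hϖpos _) hP1

end FermatLib.CFT.Fontaine
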