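import Fermat.Agent.CFT.FontaineUnramified
import Mathlib.FieldTheory.IntermediateField.Adjoin.Basic
import Mathlib.FieldTheory.Separable
import Mathlib.Topology.Algebra.Module.FiniteDimension

/-!
# A totally ramified basis

A finite extension `L ⊆ PadicAlgCl p` of `ℚ_p` contains a subfield `W` with values in `p ^ ℤ` and
the full residue field; `1, π, …, π ^ (e-1)` is an orthogonal `W`-basis of `L`.
-/

set_option autoImplicit false

open Polynomial

namespace FermatLib.CFT.Fontaine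

variable {p : ℕ} [hp : Fact p.Prime] (L : IntermediateField ℚ_[p] (PadicAlgCl p))

/-- The unramified part: generated by the Teichmüller representatives. -/
noncomputable def unramifiedPart : IntermediateField ℚ_[p] (PadicAlgCl p) :=
  IntermediateField.adjoin ℚ_[p] {x | x ∈ L ∧ x ^ residueCard L = x}

/-- An unramified subfield with full residue field, and a uniformizer. -/
structure RamifiedBasis where
  W : IntermediateField ℚ_[p] (PadicAlgCl p)
  W_eq : W = unramifiedPart L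
  le : W ≤ L
  π : PadicAlgCl p
  mem : π ∈ L
  ne_zero : π ≠ 0
  lt_one : ‖π‖ < 1
  e : ℕ
  e_pos : 0 < e
  pow_e : ‖π‖ ^ e = ‖(p : PadicAlgCl p)‖
  norm_W : ∀ w ∈ W, w ≠ 0 → ∃ k : ℤ, ‖w‖ = ‖(p : PadicAlgCl p)‖ ^ k
  value : ∀ x ∈ L, x ≠ 0 → ∃ k : ℤ, ‖x‖ = ‖π‖ ^ k
  residue : ∀ x ∈ L, ‖x‖ ≤ 1 → ∃ w ∈ W, ‖w‖ ≤ 1 ∧ ‖x - w‖ < 1
  span : ∀ x ∈ L, ∃ a : Fin e → PadicAlgCl p, (∀ i, a i ∈ W) ∧ x = ∑ i, a i * π ^ (i : ℕ)

lemma norm_natCast_prime : ‖(p : PadicAlgCl p)‖ = (p : ℝ)⁻¹ := by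
  rw [show (p : PadicAlgCl p) = algebraMap ℚ_[p] (PadicAlgCl p) p by simp, norm_padic_algebraMap,
    Padic.norm_p]

lemma norm_natCast_prime_pos : 0 < ‖(p : PadicAlgCl p)‖ := by
  rw [norm_natCast_prime]; exact inv_pos.mpr (by exact_mod_cast hp.out.pos)

lemma norm_natCast_prime_lt_one : ‖(p : PadicAlgCl p)‖ < 1 := by
  rw [norm_natCast_prime]; exact inv_lt_one_of_one_lt₀ (by exact_mod_cast hp.out.one_lt)

variable {L}

/-- Orthogonality of the powers of the uniformizer, for any element of the same size. -/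
theorem RamifiedBasis.term_le_norm_sum (B : RamifiedBasis L) {t : PadicAlgCl p} (ht : ‖t‖ = ‖B.π‖)
    {a : Fin B.e → PadicAlgCl p} (ha : ∀ i, a i ∈ B.W) (i : Fin B.e) :
    ‖a i‖ * ‖B.π‖ ^ (i : ℕ) ≤ ‖∑ j, a j * t ^ (j : ℕ)‖ := by
  classical
  have hne : (Finset.univ : Finset (Fin B.e)).Nonempty := ⟨⟨0, B.e_pos⟩, Finset.mem_univ _⟩
  obtain ⟨i₀, -, hi₀⟩ := Finset.exists_max_image Finset.univ
    (fun j : Fin B.e => ‖a j‖ * ‖B.π‖ ^ (j : ℕ)) hne
  by_cases h0 : a i₀ = 0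
  · have := hi₀ i (Finset.mem_univ i)
    simp only [h0, norm_zero, zero_mul] at this
    exact this.trans (norm_nonneg _)
  have hπ : 0 < ‖B.π‖ := norm_pos_iff.mpr B.ne_zero
  have hterm : ∀ j, ‖a j * t ^ (j : ℕ)‖ = ‖a j‖ * ‖B.π‖ ^ (j : ℕ) := fun j => by
    rw [norm_mul, norm_pow, ht]
  have hpos : 0 < ‖a i₀‖ * ‖B.π‖ ^ (i₀ : ℕ) := mul_pos (norm_pos_iff.mpr h0) (pow_pos hπ _)
  have hlt : ∀ j, j ≠ i₀ → ‖a j‖ * ‖B.π‖ ^ (j : ℕ) < ‖a i₀‖ * ‖B.π‖ ^ (i₀ : ℕ) := by
    intro j hj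
    refine lt_of_le_of_ne (hi₀ j (Finset.mem_univ j)) fun heq => hj ?_
    have hj0 : a j ≠ 0 := fun h => by rw [h, norm_zero, zero_mul] at heq; exact hpos.ne heq
    obtain ⟨k, hk⟩ := B.norm_W _ (ha j) hj0
    obtain ⟨k', hk'⟩ := B.norm_W _ (ha i₀) h0
    rw [hk, hk', ← B.pow_e, ← zpow_natCast, ← zpow_mul, ← zpow_natCast, ← zpow_mul,
      ← zpow_natCast, ← zpow_add₀ hπ.ne', ← zpow_add₀ hπ.ne'] at heq
    have h1 := zpow_right_injective₀ hπ B.lt_one.ne heq
    have h2 : ((B.e : ℤ)) ∣ ((j : ℤ) - (i₀ : ℤ)) := ⟨k' - k, by linear_combination h1⟩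
    have h3 := Int.eq_zero_of_dvd_of_natAbs_lt_natAbs h2 (by omega)
    exact Fin.ext (by omega)
  refine (hi₀ i (Finset.mem_univ i)).trans (le_of_eq ?_)
  rw [← Finset.add_sum_erase _ _ (Finset.mem_univ i₀)]
  have hrest : ‖∑ j ∈ Finset.univ.erase i₀, a j * t ^ (j : ℕ)‖ < ‖a i₀ * t ^ (i₀ : ℕ)‖ := by
    rw [hterm]
    rcases (Finset.univ.erase i₀).eq_empty_or_nonempty with he | he
    · rw [he, Finset.sum_empty, norm_zero]; exact hpos
    · obtain ⟨m, hm, hmle⟩ := IsUltrametricDist.exists_norm_finsetSum_le_of_nonempty he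
        (fun j => a j * t ^ (j : ℕ))
      rw [hterm] at hmle
      exact lt_of_le_of_lt hmle (hlt m (Finset.mem_erase.mp hm).1)
  rw [IsUltrametricDist.norm_add_eq_max_of_norm_ne_norm hrest.ne', max_eq_left hrest.le, hterm]

theorem RamifiedBasis.eq_zero_of_sum_eq_zero (B : RamifiedBasis L)
    {a : Fin B.e → PadicAlgCl p} (ha : ∀ i, a i ∈ B.W) (h : ∑ j, a j * B.π ^ (j : ℕ) = 0)
    (i : Fin B.e) : a i = 0 := by
  have h1 := B.term_le_norm_sum rfl ha i
  rw [h, norm_zero] at h1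
  by_contra hne
  exact absurd h1 (not_le.mpr (mul_pos (norm_pos_iff.mpr hne) (pow_pos (norm_pos_iff.mpr B.ne_zero) _)))

variable (L) [FiniteDimensional ℚ_[p] L]

/-- The `ℚ_p`-coefficients of an element of `ℚ_p(ζ)` are as small as the element. -/
theorem exists_unramified_subfield :
    ∃ W : IntermediateField ℚ_[p] (PadicAlgCl p), W = unramifiedPart L ∧ W ≤ L ∧
      (∀ w ∈ W, w ≠ 0 → ∃ k : ℤ, ‖w‖ = ‖(p : PadicAlgCl p)‖ ^ k) ∧
      ∀ x ∈ L, ‖x‖ ≤ 1 → ∃ w ∈ W, ‖w‖ ≤ 1 ∧ ‖x - w‖ < 1 := by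
  classical
  obtain ⟨ζ, hζL, hζ, hres⟩ := exists_teichmuller_generator L
  set q := residueCard L
  have hq : 1 < q := one_lt_residueCard L
  have hζ1 : ‖ζ‖ = 1 := (pow_eq_one_iff_of_nonneg (norm_nonneg ζ) (by omega : q - 1 ≠ 0)).mp
    (by rw [← norm_pow, hζ.pow_eq_one, norm_one])
  set W : IntermediateField ℚ_[p] (PadicAlgCl p) := IntermediateField.adjoin ℚ_[p] {ζ}
  have hWeq : W = unramifiedPart L := by
    refine le_antisymm (IntermediateField.adjoin_le_iff.mpr ?_) (IntermediateField.adjoin_le_iff.mpr ?_)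
    · rintro x rfl
      refine IntermediateField.subset_adjoin _ _ ⟨hζL, ?_⟩
      calc x ^ q = x ^ (q - 1 + 1) := by rw [Nat.sub_add_cancel hq.le]
        _ = x := by rw [pow_succ, hζ.pow_eq_one, one_mul]
    · rintro x ⟨-, hx⟩
      rcases eq_or_ne x 0 with rfl | hx0
      · exact zero_mem W
      have hn0 : NeZero (q - 1) := ⟨by omega⟩
      obtain ⟨i, -, rfl⟩ := hζ.eq_pow_of_pow_eq_one (mul_left_cancel₀ hx0 (by
        rw [← pow_succ', Nat.sub_add_cancel hq.le, hx, mul_one] : x * x ^ (q - 1) = x * 1))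
      exact pow_mem (IntermediateField.mem_adjoin_simple_self ℚ_[p] ζ) i
  refine ⟨W, hWeq, IntermediateField.adjoin_simple_le_iff.mpr hζL, ?_, fun x hx hx1 => ?_⟩
  swap
  · rcases hres x hx hx1 with h | ⟨i, hi⟩
    · exact ⟨0, zero_mem W, by simp, by simpa using h⟩
    · exact ⟨ζ ^ i, pow_mem (IntermediateField.mem_adjoin_simple_self ℚ_[p] ζ) i,
        by simp [hζ1], hi⟩
  intro w hw hw0
  have hint : IsIntegral ℚ_[p] ζ := Algebra.IsIntegral.isIntegral ζ
  set h := minpoly ℚ_[p] ζ with hh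
  obtain ⟨P, hP⟩ : ∃ P : ℚ_[p][X], P.natDegree < h.natDegree ∧ aeval ζ P = w := by
    have hw' : w ∈ (IntermediateField.adjoin ℚ_[p] {ζ}).toSubalgebra := hw
    rw [IntermediateField.adjoin_simple_toSubalgebra_of_isAlgebraic hint.isAlgebraic,
      Algebra.adjoin_singleton_eq_range_aeval] at hw'
    obtain ⟨P, rfl⟩ := hw'
    refine ⟨P %ₘ h, natDegree_modByMonic_lt P (minpoly.monic hint) (minpoly.ne_one _ _), ?_⟩
    rw [modByMonic_eq_sub_mul_div P, map_sub, map_mul, hh, minpoly.aeval, zero_mul, sub_zero]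
    rfl
  obtain ⟨hdeg, rfl⟩ := hP
  obtain ⟨i₀, hi₀, hmax⟩ := Finset.exists_max_image (Finset.range (P.natDegree + 1))
    (fun i => ‖P.coeff i‖) ⟨0, by simp⟩
  have hc0 : P.coeff i₀ ≠ 0 := by
    intro h0
    apply hw0
    have : P = 0 := Polynomial.ext fun i => by
      rw [coeff_zero]
      by_cases hi : i ∈ Finset.range (P.natDegree + 1)
      · simpa [h0] using hmax i hi
      · exact coeff_eq_zero_of_natDegree_lt (by simpa using hi)
    simp [this]
  obtain ⟨k, hk⟩ : ∃ k : ℤ, ‖P.coeff i₀‖ = ‖(p : PadicAlgCl p)‖ ^ k :=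
    ⟨(P.coeff i₀).valuation, by
      rw [norm_natCast_prime, Padic.norm_eq_zpow_neg_valuation hc0, inv_zpow, zpow_neg]⟩
  refine ⟨k, hk ▸ le_antisymm ?_ ?_⟩
  · rw [aeval_eq_sum_range]
    refine IsUltrametricDist.norm_sum_le_of_forall_le_of_nonneg (norm_nonneg _) fun i hi => ?_
    rw [Algebra.smul_def, norm_mul, norm_pow, hζ1, one_pow, mul_one, norm_padic_algebraMap]
    exact hmax i hi
  -- a small value would give too many roots modulo `p`
  by_contra hlt
  push Not at hlt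
  set P' := C (P.coeff i₀)⁻¹ * P with hP'
  have hP'c : ∀ i, ‖P'.coeff i‖ ≤ 1 := fun i => by
    rw [hP', coeff_C_mul, norm_mul, norm_inv, inv_mul_le_iff₀ (norm_pos_iff.mpr hc0), mul_one]
    by_cases hi : i ∈ Finset.range (P.natDegree + 1)
    · exact hmax i hi
    · rw [coeff_eq_zero_of_natDegree_lt (by simpa using hi), norm_zero]; exact norm_nonneg _
  have hsmall : ‖aeval ζ P'‖ < 1 := by
    rw [hP', map_mul, aeval_C, norm_mul, norm_padic_algebraMap, norm_inv,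
      inv_mul_lt_iff₀ (norm_pos_iff.mpr hc0), mul_one]
    exact hlt
  have hint' : ∀ i, ∃ n : ℤ, ‖P'.coeff i - n‖ < 1 := fun i => by
    obtain ⟨n, hn⟩ := PadicInt.exists_mem_range (⟨P'.coeff i, hP'c i⟩ : ℤ_[p])
    refine ⟨(n : ℤ), ?_⟩
    have := PadicInt.mem_nonunits.mp ((IsLocalRing.mem_maximalIdeal _).mp hn.2)
    rw [PadicInt.norm_def] at this
    push_cast at this ⊢
    exact this
  choose n hn using hint'
  let Q : ℤ[X] := ∑ i ∈ Finset.range (P.natDegree + 1), monomial i (n i)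
  have hroot : ∀ ζ' : PadicAlgCl p, aeval ζ' h = 0 → ‖aeval ζ' Q‖ < 1 := by
    intro ζ' hζ'
    obtain ⟨σ, rfl⟩ := (minpoly.exists_algEquiv_of_root' (Algebra.IsAlgebraic.isAlgebraic ζ) hζ')
    have e : aeval (σ ζ) Q = σ (aeval ζ Q) := by
      rw [← AlgEquiv.coe_toAlgHom σ, ← AlgHom.coe_restrictScalars' ℤ (σ : PadicAlgCl p →ₐ[ℚ_[p]] PadicAlgCl p),
        ← aeval_algHom_apply]
    rw [e, norm_algEquiv, ← sub_add_cancel (aeval ζ Q) (aeval ζ P')]
    refine lt_of_le_of_lt (IsUltrametricDist.norm_add_le_max _ _) (max_lt ?_ hsmall)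
    have hP'd : P'.natDegree < P.natDegree + 1 :=
      Nat.lt_succ_of_le (natDegree_C_mul_le _ P)
    rw [aeval_eq_sum_range' hP'd, show aeval ζ Q =
      ∑ i ∈ Finset.range (P.natDegree + 1), (n i : PadicAlgCl p) * ζ ^ i by simp [Q, aeval_monomial],
      ← Finset.sum_sub_distrib]
    obtain ⟨m, hm, hmle⟩ := IsUltrametricDist.exists_norm_finsetSum_le_of_nonempty
      (Finset.nonempty_range_iff.mpr (Nat.succ_ne_zero P.natDegree))
      (fun i => (n i : PadicAlgCl p) * ζ ^ i - P'.coeff i • ζ ^ i)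
    refine lt_of_le_of_lt hmle ?_
    rw [Algebra.smul_def, ← sub_mul, norm_mul, norm_pow, hζ1, one_pow, mul_one,
      show (n m : PadicAlgCl p) - algebraMap ℚ_[p] _ (P'.coeff m) =
        algebraMap ℚ_[p] (PadicAlgCl p) ((n m : ℚ_[p]) - P'.coeff m) by rw [map_sub, map_intCast],
      norm_padic_algebraMap, norm_sub_rev]
    exact hn m
  -- the reductions of the conjugates of `ζ`
  have : IsDomain (Residue L) := Ideal.Quotient.isDomain _
  set Qb : (Residue L)[X] := Q.map (Int.castRingHom (Residue L))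
  have hQne : Qb ≠ 0 := by
    intro h0
    have hc := congrArg (fun f => coeff f i₀) h0
    simp only [Qb, Q, coeff_map, finsetSum_coeff, coeff_monomial, coeff_zero] at hc
    rw [Finset.sum_eq_single i₀ (fun j _ hj => if_neg hj) (fun h => absurd hi₀ h), if_pos rfl,
      eq_intCast, ← map_intCast (Ideal.Quotient.mk (openBall L)), Ideal.Quotient.eq_zero_iff_mem] at hc
    have hc' : ‖(((n i₀ : integers L) : L) : PadicAlgCl p)‖ < 1 := hc
    have h1 : ‖(n i₀ : ℚ_[p])‖ < 1 := by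
      rw [← norm_padic_algebraMap]; simpa using hc'
    have h2 := hn i₀
    have h3 : P'.coeff i₀ = 1 := by rw [hP', coeff_C_mul, inv_mul_cancel₀ hc0]
    rw [h3] at h2
    have : ‖(1 : ℚ_[p])‖ < 1 := by
      rw [← sub_add_cancel (1 : ℚ_[p]) (n i₀ : ℚ_[p])]
      exact lt_of_le_of_lt (IsUltrametricDist.norm_add_le_max _ _) (max_lt h2 h1)
    simp at this
  have hQdeg : Qb.natDegree ≤ P.natDegree := by
    refine natDegree_map_le.trans (natDegree_sum_le_of_forall_le _ _ fun i hi => ?_)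
    exact (natDegree_monomial_le _).trans (Nat.lt_succ_iff.mp (Finset.mem_range.mp hi))
  have hpow : ∀ ζ' ∈ (h.map (algebraMap ℚ_[p] (PadicAlgCl p))).roots, ∃ j, ζ ^ j = ζ' := by
    intro ζ' hζ'
    rw [mem_roots_map (minpoly.ne_zero hint), ← aeval_def] at hζ'
    have hdvd : h ∣ X ^ (q - 1) - 1 := minpoly.dvd _ _ (by simp [hζ.pow_eq_one])
    obtain ⟨c, hc⟩ := hdvd
    have : aeval ζ' (X ^ (q - 1) - 1 : ℚ_[p][X]) = 0 := by rw [hc, map_mul, hζ', zero_mul]
    have hn0 : NeZero (q - 1) := ⟨by omega⟩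
    obtain ⟨j, -, hj⟩ := hζ.eq_pow_of_pow_eq_one (sub_eq_zero.mp (by simpa using this))
    exact ⟨j, hj⟩
  let red : ℕ → Residue L := fun j =>
    Ideal.Quotient.mk (openBall L) ⟨⟨ζ ^ j, pow_mem hζL j⟩, by show ‖ζ ^ j‖ ≤ 1; simp [hζ1]⟩
  set R := (h.map (algebraMap ℚ_[p] (PadicAlgCl p))).roots.toFinset
  have hR : R.card = h.natDegree := by
    have hsep : (h.map (algebraMap ℚ_[p] (PadicAlgCl p))).Separable :=
      (minpoly.irreducible hint).separable.map
    rw [Multiset.toFinset_card_of_nodup (nodup_roots hsep), IsAlgClosed.card_roots_eq_natDegree,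
      natDegree_map]
  choose! j hj using hpow
  have hinj : Set.InjOn (fun ζ' => red (j ζ')) R := by
    intro a ha b hb hab
    have ha' := hj a (Multiset.mem_toFinset.mp ha)
    have hb' := hj b (Multiset.mem_toFinset.mp hb)
    have hab' := (residue_eq_iff L _ _).mp hab
    have hqq : ∀ m : ℕ, (ζ ^ m) ^ q = ζ ^ m := fun m => by
      rw [← Nat.sub_add_cancel hq.le, pow_succ, ← pow_mul, mul_comm m, pow_mul, hζ.pow_eq_one,
        one_pow, one_mul]
    rw [← ha', ← hb']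
    exact eq_of_pow_residueCard_eq L (by simp [hζ1]) (by simp [hζ1]) (hqq _) (hqq _) hab'
  have hsub : R.image (fun ζ' => red (j ζ')) ⊆ Qb.roots.toFinset := by
    intro y hy
    obtain ⟨ζ', hζ', rfl⟩ := Finset.mem_image.mp hy
    rw [Multiset.mem_toFinset, mem_roots hQne, IsRoot.def, eval_map, ← algebraMap_int_eq, ← aeval_def]
    have h1 := hroot ζ' (by
      have := Multiset.mem_toFinset.mp hζ'
      rwa [mem_roots_map (minpoly.ne_zero hint), ← aeval_def] at this)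
    rw [← hj ζ' (Multiset.mem_toFinset.mp hζ')] at h1
    have e1 : ∀ Z : integers L, aeval (Ideal.Quotient.mk (openBall L) Z) Q =
        Ideal.Quotient.mk (openBall L) (aeval Z Q) := fun Z =>
      aeval_algHom_apply (Ideal.Quotient.mk (openBall L)).toIntAlgHom Z Q
    have e2 : ∀ Z : integers L, aeval (((Z : L) : PadicAlgCl p)) Q =
        (((aeval Z Q : integers L) : L) : PadicAlgCl p) := fun Z =>
      aeval_algHom_apply ((L.val.toRingHom.comp (integers L).subtype).toIntAlgHom) Z Q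
    refine (e1 ⟨⟨ζ ^ j ζ', pow_mem hζL _⟩, by show ‖ζ ^ j ζ'‖ ≤ 1; simp [hζ1]⟩).trans
      (Ideal.Quotient.eq_zero_iff_mem.mpr ?_)
    show ‖(((aeval _ Q : integers L) : L) : PadicAlgCl p)‖ < 1
    rw [← e2]
    exact h1
  have := (Finset.card_image_of_injOn hinj).symm.trans_le
    ((Finset.card_le_card hsub).trans ((Multiset.toFinset_card_le _).trans (card_roots' _)))
  omega

/-- Every finite extension has a totally ramified basis over an unramified subfield. -/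
theorem exists_ramifiedBasis : Nonempty (RamifiedBasis L) := by
  classical
  obtain ⟨π, hπL, hπ0, hπ1, hmax, hval⟩ := exists_uniformizer L
  obtain ⟨W, hWeq, hWL, hWn, hWr⟩ := exists_unramified_subfield L
  have hπ : 0 < ‖π‖ := norm_pos_iff.mpr hπ0
  obtain ⟨k, hk⟩ := hval (p : PadicAlgCl p) (natCast_mem L p) (Nat.cast_ne_zero.mpr hp.out.ne_zero)
  have hkpos : 0 < k := by
    have := norm_natCast_prime_lt_one (p := p)
    rw [hk, ← zpow_zero ‖π‖] at this
    exact (zpow_lt_zpow_iff_right_of_lt_one₀ hπ hπ1).mp this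
  obtain ⟨e, rfl⟩ : ∃ e : ℕ, k = e := ⟨k.toNat, (Int.toNat_of_nonneg hkpos.le).symm⟩
  rw [zpow_natCast] at hk
  have he : 0 < e := by exact_mod_cast hkpos
  let S : Submodule ℚ_[p] (PadicAlgCl p) :=
    Submodule.span ℚ_[p] {x | ∃ w ∈ W, ∃ i : Fin e, x = w * π ^ (i : ℕ)}
  have hS : ∀ x ∈ S, ∃ a : Fin e → PadicAlgCl p, (∀ i, a i ∈ W) ∧ x = ∑ i, a i * π ^ (i : ℕ) := by
    intro x hx
    induction hx using Submodule.span_induction with
    | mem x hx =>
      obtain ⟨w, hw, i, rfl⟩ := hx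
      refine ⟨Pi.single i w, fun m => ?_, ?_⟩
      · by_cases hm : m = i
        · subst hm; simpa using hw
        · simp [Pi.single_eq_of_ne hm, zero_mem]
      · rw [Finset.sum_eq_single i (fun m _ hm => by simp [Pi.single_eq_of_ne hm])
          (fun h => absurd (Finset.mem_univ i) h), Pi.single_eq_same]
    | zero => exact ⟨0, fun _ => zero_mem W, by simp⟩
    | add x y _ _ hx hy =>
      obtain ⟨a, ha, rfl⟩ := hx
      obtain ⟨b, hb, rfl⟩ := hy
      exact ⟨a + b, fun i => add_mem (ha i) (hb i), by simp [add_mul, Finset.sum_add_distrib]⟩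
    | smul c x _ hx =>
      obtain ⟨a, ha, rfl⟩ := hx
      exact ⟨c • a, fun i => W.smul_mem (ha i), by simp [Finset.smul_sum]⟩
  have hSL : S ≤ L.toSubalgebra.toSubmodule := by
    refine Submodule.span_le.mpr ?_
    rintro x ⟨w, hw, i, rfl⟩
    show _ ∈ L
    exact mul_mem (hWL hw) (pow_mem hπL _)
  have : FiniteDimensional ℚ_[p] L.toSubalgebra.toSubmodule := ‹FiniteDimensional ℚ_[p] L›
  have : FiniteDimensional ℚ_[p] S := Submodule.finiteDimensional_of_le hSL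
  have hclosed : IsClosed (S : Set (PadicAlgCl p)) := S.closed_of_finiteDimensional
  have happ : ∀ x ∈ L, ‖x‖ ≤ 1 → ∀ n : ℕ, ∃ s ∈ S, ‖x - s‖ ≤ ‖π‖ ^ n := by
    intro x hx hx1 n
    induction n with
    | zero => exact ⟨0, zero_mem S, by simpa using hx1⟩
    | succ n ih =>
      obtain ⟨s, hs, hxs⟩ := ih
      set i : Fin e := ⟨n % e, Nat.mod_lt _ he⟩
      set d : PadicAlgCl p := (p : PadicAlgCl p) ^ (n / e) * π ^ (i : ℕ) with hd
      have hdn : ‖d‖ = ‖π‖ ^ n := by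
        rw [hd, norm_mul, norm_pow, norm_pow, hk, ← pow_mul, ← pow_add, Nat.div_add_mod]
      have hd0 : d ≠ 0 := norm_pos_iff.mp (hdn ▸ pow_pos hπ n)
      have hy : (x - s) / d ∈ L := div_mem (sub_mem hx (show s ∈ L from hSL hs))
        (mul_mem (pow_mem (natCast_mem L p) _) (pow_mem hπL _))
      obtain ⟨w, hw, -, hwy⟩ := hWr _ hy (by rw [norm_div, hdn, div_le_one (pow_pos hπ n)]; exact hxs)
      refine ⟨s + ((p : PadicAlgCl p) ^ (n / e) * w) * π ^ (i : ℕ), add_mem hs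
        (Submodule.subset_span ⟨_, mul_mem (pow_mem (natCast_mem W p) _) hw, i, rfl⟩), ?_⟩
      have e1 : x - (s + ((p : PadicAlgCl p) ^ (n / e) * w) * π ^ (i : ℕ)) = ((x - s) / d - w) * d := by
        rw [sub_mul, div_mul_cancel₀ _ hd0, hd]; ring
      rw [e1, norm_mul, hdn, pow_succ']
      exact mul_le_mul_of_nonneg_right (hmax _ (sub_mem hy (hWL hw)) hwy) (pow_nonneg hπ.le n)
  have hmem : ∀ x ∈ L, x ∈ S := by
    intro x hx
    obtain ⟨N, hN⟩ : ∃ N : ℕ, ‖(p : PadicAlgCl p)‖ ^ N * ‖x‖ ≤ 1 := by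
      obtain ⟨N, hN⟩ := exists_pow_lt_of_lt_one (inv_pos.mpr (by positivity : (0:ℝ) < ‖x‖ + 1))
        (norm_natCast_prime_lt_one (p := p))
      refine ⟨N, (mul_le_mul hN.le (by linarith : ‖x‖ ≤ ‖x‖ + 1) (norm_nonneg _) (by positivity)).trans_eq ?_⟩
      exact inv_mul_cancel₀ (by positivity)
    choose f hfS hfle using happ _ (mul_mem (pow_mem (natCast_mem L p) N) hx)
      (by rw [norm_mul, norm_pow]; exact hN)
    have h1 : (p : PadicAlgCl p) ^ N * x ∈ S := by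
      refine hclosed.mem_of_tendsto (b := Filter.atTop) (f := f) ?_ (Filter.Eventually.of_forall hfS)
      rw [tendsto_iff_norm_sub_tendsto_zero]
      refine squeeze_zero (fun n => norm_nonneg _) (fun n => ?_)
        (tendsto_pow_atTop_nhds_zero_of_lt_one hπ.le hπ1)
      rw [norm_sub_rev]
      exact hfle n
    have h2 := S.smul_mem (((p : ℚ_[p]) ^ N)⁻¹) h1
    rwa [Algebra.smul_def, ← mul_assoc, map_inv₀, map_pow, map_natCast,
      inv_mul_cancel₀ (pow_ne_zero N (Nat.cast_ne_zero.mpr hp.out.ne_zero)), one_mul] at h2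
  exact ⟨⟨W, hWeq, hWL, π, hπL, hπ0, hπ1, e, he, hk.symm, hWn, hval, hWr,
    fun x hx => hS x (hmem x hx)⟩⟩

omit [FiniteDimensional ℚ_[p] L] in
/-- The unramified part is monotone. -/
theorem unramifiedPart_mono [FiniteDimensional ℚ_[p] L] {L' : IntermediateField ℚ_[p] (PadicAlgCl p)}
    [FiniteDimensional ℚ_[p] L'] (h : L' ≤ L) : unramifiedPart L' ≤ unramifiedPart L := by
  refine IntermediateField.adjoin.mono _ _ _ fun x hx => ⟨h hx.1, ?_⟩
  obtain ⟨hx, hxq⟩ := hx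
  set q := residueCard L'
  set q' := residueCard L
  have hq : 1 < q := one_lt_residueCard L'
  rcases eq_or_ne x 0 with rfl | hx0
  · exact zero_pow (zero_lt_one.trans (one_lt_residueCard L)).ne'
  have hx1 : ‖x‖ = 1 := (pow_eq_one_iff_of_nonneg (norm_nonneg x) (by omega : q - 1 ≠ 0)).mp (by
    rw [← norm_pow, mul_left_cancel₀ hx0 (by
      rw [← pow_succ', Nat.sub_add_cancel hq.le, hxq, mul_one] : x * x ^ (q - 1) = x * 1), norm_one])
  refine eq_of_pow_residueCard_eq L' (by simp [hx1]) hx1.le ?_ hxq ?_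
  · rw [← pow_mul, mul_comm, pow_mul, hxq]
  · have := (residue_eq_iff L (⟨⟨x, h hx⟩, hx1.le⟩ ^ q') ⟨⟨x, h hx⟩, hx1.le⟩).mp
      (by rw [map_pow]; exact pow_residueCard L _)
    simpa using this

end FermatLib.CFT.Fontaine
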