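import Fermat.Agent.CFT.FontaineBasis
import Mathlib.RingTheory.RootsOfUnity.AlgebraicallyClosed

/-!
# Teichmüller representatives and the unramified subfield
-/

set_option autoImplicit false

open Polynomial

namespace FermatLib.CFT.Fontaine

variable {p : ℕ} [hp : Fact p.Prime] (L : IntermediateField ℚ_[p] (PadicAlgCl p))

/-- The cardinality of the residue field. -/
noncomputable def residueCard : ℕ := Nat.card (Residue L)

variable [FiniteDimensional ℚ_[p] L]

lemma one_lt_residueCard : 1 < residueCard L :=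
  Finite.one_lt_card_iff_nontrivial.mpr (Ideal.Quotient.nontrivial_iff.mpr (instIsPrimeOpenBall L).ne_top)

omit [FiniteDimensional ℚ_[p] L] in
lemma dvd_residueCard : p ∣ residueCard L := by
  have h0 : ((p : ℕ) : Residue L) = 0 := by
    rw [← map_natCast (Ideal.Quotient.mk (openBall L)), Ideal.Quotient.eq_zero_iff_mem]
    show ‖(((p : integers L) : L) : PadicAlgCl p)‖ < 1
    rw [show (((p : integers L) : L) : PadicAlgCl p) = algebraMap ℚ_[p] (PadicAlgCl p) p by simp,
      norm_padic_algebraMap]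
    exact Padic.norm_p_lt_one
  have hord : addOrderOf (1 : Residue L) = p :=
    addOrderOf_eq_prime (by rw [nsmul_eq_mul, h0, zero_mul])
      (fun h => (instIsPrimeOpenBall L).ne_top (Ideal.Quotient.subsingleton_iff.mp
        ⟨fun a b => by rw [← mul_one a, h, mul_zero, ← mul_one b, h, mul_zero]⟩))
  calc p = addOrderOf (1 : Residue L) := hord.symm
    _ ∣ residueCard L := addOrderOf_dvd_natCard _

lemma pow_residueCard (x : Residue L) : x ^ residueCard L = x := by
  classical
  let _ := Fintype.ofFinite (Residue L)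
  have : IsDomain (Residue L) := Ideal.Quotient.isDomain _
  let _ : Field (Residue L) := Fintype.fieldOfDomain (Residue L)
  rw [residueCard, Nat.card_eq_fintype_card]
  exact FiniteField.pow_card x

omit [FiniteDimensional ℚ_[p] L] in
lemma natCast_residueCard_norm_lt_one : ‖(residueCard L : PadicAlgCl p)‖ < 1 := by
  obtain ⟨c, hc⟩ := dvd_residueCard L
  rw [hc, Nat.cast_mul, norm_mul]
  refine lt_of_le_of_lt (mul_le_of_le_one_right (norm_nonneg _)
    (IsUltrametricDist.norm_natCast_le_one _ c)) ?_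
  rw [show (p : PadicAlgCl p) = algebraMap ℚ_[p] (PadicAlgCl p) p by simp, norm_padic_algebraMap]
  exact Padic.norm_p_lt_one

omit [FiniteDimensional ℚ_[p] L] in
/-- Raising to the power `q` contracts. -/
lemma norm_pow_sub_pow_le {a b : PadicAlgCl p} (ha : ‖a‖ ≤ 1) (hb : ‖b‖ ≤ 1) :
    ‖a ^ residueCard L - b ^ residueCard L‖ ≤
      max ‖a - b‖ ‖(residueCard L : PadicAlgCl p)‖ * ‖a - b‖ := by
  set q := residueCard L
  have hmax : (0 : ℝ) ≤ max ‖a - b‖ ‖(q : PadicAlgCl p)‖ := le_max_of_le_left (norm_nonneg _)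
  rw [← geom_sum₂_mul, norm_mul]
  refine mul_le_mul_of_nonneg_right ?_ (norm_nonneg _)
  have e : ∑ i ∈ Finset.range q, a ^ i * b ^ (q - 1 - i) =
      ∑ i ∈ Finset.range q, (a ^ i - b ^ i) * b ^ (q - 1 - i) + (q : PadicAlgCl p) * b ^ (q - 1) := by
    rw [← sub_eq_iff_eq_add', ← Finset.sum_sub_distrib]
    rw [Finset.sum_congr rfl (g := fun _ => b ^ (q - 1)) fun i hi => ?_]
    · simp
    · rw [sub_mul, sub_sub_cancel, ← pow_add]
      congr 1
      have := Finset.mem_range.mp hi
      omega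
  rw [e]
  refine (IsUltrametricDist.norm_add_le_max _ _).trans (max_le ?_ ?_)
  · refine IsUltrametricDist.norm_sum_le_of_forall_le_of_nonneg hmax fun i _ => ?_
    rw [norm_mul, norm_pow b]
    refine (mul_le_of_le_one_right (norm_nonneg _) (pow_le_one₀ (norm_nonneg _) hb)).trans
      (le_max_of_le_left ?_)
    rw [← geom_sum₂_mul a b i, norm_mul]
    refine mul_le_of_le_one_left (norm_nonneg _) ?_
    refine IsUltrametricDist.norm_sum_le_of_forall_le_of_nonneg zero_le_one fun j _ => ?_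
    rw [norm_mul, norm_pow, norm_pow]
    exact mul_le_one₀ (pow_le_one₀ (norm_nonneg _) ha) (by positivity) (pow_le_one₀ (norm_nonneg _) hb)
  · rw [norm_mul, norm_pow]
    exact (mul_le_of_le_one_right (norm_nonneg _) (pow_le_one₀ (norm_nonneg _) hb)).trans (le_max_right _ _)

omit [FiniteDimensional ℚ_[p] L] in
/-- Two fixed points of `x ↦ x ^ q` in the same residue class are equal. -/
lemma eq_of_pow_residueCard_eq {a b : PadicAlgCl p} (ha : ‖a‖ ≤ 1) (hb : ‖b‖ ≤ 1)
    (haq : a ^ residueCard L = a) (hbq : b ^ residueCard L = b) (h : ‖a - b‖ < 1) : a = b := by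
  have h1 := norm_pow_sub_pow_le L ha hb
  rw [haq, hbq] at h1
  by_contra hne
  exact absurd h1 (not_le.mpr (mul_lt_of_lt_one_left (norm_pos_iff.mpr (sub_ne_zero.mpr hne))
    (max_lt h (natCast_residueCard_norm_lt_one L))))

/-- Teichmüller representatives. -/
theorem exists_teichmuller {x : PadicAlgCl p} (hx : x ∈ L) (hx1 : ‖x‖ ≤ 1) :
    ∃ u ∈ L, ‖u‖ ≤ 1 ∧ u ^ residueCard L = u ∧ ‖u - x‖ < 1 := by
  set q := residueCard L
  have : CompleteSpace L := FiniteDimensional.complete ℚ_[p] L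
  set x' : L := ⟨x, hx⟩
  let s : ℕ → L := fun n => x' ^ q ^ n
  have hstep0 : ‖x ^ q - x‖ < 1 := by
    have := (residue_eq_iff L (⟨x', hx1⟩ ^ q) ⟨x', hx1⟩).mp (by rw [map_pow]; exact pow_residueCard L _)
    simpa using this
  set c := max ‖x ^ q - x‖ ‖(q : PadicAlgCl p)‖
  have hc : c < 1 := max_lt hstep0 (natCast_residueCard_norm_lt_one L)
  have hc0 : 0 ≤ c := le_max_of_le_left (norm_nonneg _)
  have hpow : ∀ n, ‖x ^ q ^ n‖ ≤ 1 := fun n => by
    rw [norm_pow]; exact pow_le_one₀ (norm_nonneg _) hx1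
  have hstep : ∀ n, ‖x ^ q ^ (n + 1) - x ^ q ^ n‖ ≤ c ^ (n + 1) := by
    intro n
    induction n with
    | zero => simp [c]
    | succ n ih =>
      have h1 : ∀ m, x ^ q ^ (m + 1) = (x ^ q ^ m) ^ q := fun m => by rw [pow_succ, pow_mul]
      rw [h1 (n + 1)]
      nth_rewrite 2 [h1 n]
      refine (norm_pow_sub_pow_le L (hpow _) (hpow _)).trans ?_
      rw [pow_succ' c]
      refine mul_le_mul (max_le ?_ (le_max_right _ _)) ih (norm_nonneg _) hc0
      exact ih.trans (pow_le_of_le_one hc0 hc.le (Nat.succ_ne_zero n))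
  have hdist : ∀ n, dist (s n) (s (n + 1)) ≤ c * c ^ n := fun n => by
    rw [dist_eq_norm, norm_sub_rev, ← pow_succ']
    exact hstep n
  obtain ⟨u, hu⟩ := cauchySeq_tendsto_of_complete (cauchySeq_of_le_geometric c c hc hdist)
  refine ⟨u, u.2, ?_, ?_, ?_⟩
  · exact le_of_tendsto' ((continuous_norm.tendsto u).comp hu) fun n => hpow n
  · have h1 : Filter.Tendsto (fun n => s n ^ q) Filter.atTop (nhds (u ^ q)) :=
      ((continuous_pow q).tendsto u).comp hu
    have h2 : Filter.Tendsto (fun n => s n ^ q) Filter.atTop (nhds u) := by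
      have e : (fun n => s n ^ q) = fun n => s (n + 1) := by
        funext n; simp only [s]; rw [pow_succ, pow_mul]
      rw [e]
      exact hu.comp (Filter.tendsto_add_atTop_nat 1)
    exact congrArg (fun z : L => (z : PadicAlgCl p)) (tendsto_nhds_unique h1 h2)
  · have hall : ∀ n, ‖x ^ q ^ n - x‖ ≤ c := by
      intro n
      induction n with
      | zero => simp [hc0]
      | succ n ih =>
        rw [← sub_add_sub_cancel _ (x ^ q ^ n)]
        exact (IsUltrametricDist.norm_add_le_max _ _).trans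
          (max_le ((hstep n).trans (pow_le_of_le_one hc0 hc.le (Nat.succ_ne_zero n))) ih)
    refine lt_of_le_of_lt ?_ hc
    have ht : Filter.Tendsto (fun n => ‖((s n - x' : L) : PadicAlgCl p)‖) Filter.atTop
        (nhds ‖((u - x' : L) : PadicAlgCl p)‖) :=
      ((continuous_norm.comp (continuous_id.sub continuous_const)).tendsto u).comp hu
    exact le_of_tendsto' ht fun n => hall n

/-- There is a root of unity whose powers meet every non-zero residue class. -/
theorem exists_teichmuller_generator :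
    ∃ ζ ∈ L, IsPrimitiveRoot ζ (residueCard L - 1) ∧
      ∀ x ∈ L, ‖x‖ ≤ 1 → ‖x‖ < 1 ∨ ∃ i : ℕ, ‖x - ζ ^ i‖ < 1 := by
  classical
  set q := residueCard L
  have hq : 1 < q := one_lt_residueCard L
  have hn0 : NeZero (q - 1) := ⟨by omega⟩
  let T : Set (PadicAlgCl p) := {u | u ∈ L ∧ u ^ (q - 1) = 1}
  have hTn : ∀ u ∈ T, ‖u‖ = 1 := fun u hu =>
    (pow_eq_one_iff_of_nonneg (norm_nonneg u) (by omega : q - 1 ≠ 0)).mp
      (by rw [← norm_pow, hu.2, norm_one])
  have hTq : ∀ u ∈ T, u ^ q = u := fun u hu => by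
    rw [← Nat.sub_add_cancel hq.le, pow_succ, hu.2, one_mul]
  have hex : ∀ x ∈ L, ‖x‖ = 1 → ∃ u ∈ T, ‖u - x‖ < 1 := by
    intro x hx hx1
    obtain ⟨u, huL, -, huq, hux⟩ := exists_teichmuller L hx hx1.le
    have hu0 : u ≠ 0 := fun h => by simp [h, hx1] at hux
    refine ⟨u, ⟨huL, mul_left_cancel₀ hu0 ?_⟩, hux⟩
    rw [← pow_succ', mul_one, Nat.sub_add_cancel hq.le, huq]
  have hsel : ∀ a : {a : Residue L // a ≠ 0}, ∃ u : T,
      ‖(u : PadicAlgCl p) - (((Quotient.out a.1 : integers L) : L) : PadicAlgCl p)‖ < 1 := by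
    intro a
    obtain ⟨u, hu, hux⟩ := hex _ ((Quotient.out a.1 : integers L) : L).2
      (le_antisymm (Quotient.out a.1).2 (not_lt.mp fun h => a.2 (by
        rw [← Ideal.Quotient.mk_out a.1]
        exact Ideal.Quotient.eq_zero_iff_mem.mpr h)))
    exact ⟨⟨u, hu⟩, hux⟩
  choose F hFspec using hsel
  have hF : Function.Injective F := by
    intro a b hab
    apply Subtype.ext
    rw [← Ideal.Quotient.mk_out a.1, ← Ideal.Quotient.mk_out b.1, residue_eq_iff]
    set A := (((Quotient.out a.1 : integers L) : L) : PadicAlgCl p)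
    set B := (((Quotient.out b.1 : integers L) : L) : PadicAlgCl p)
    have hA : ‖((F a : T) : PadicAlgCl p) - A‖ < 1 := hFspec a
    have hB : ‖((F b : T) : PadicAlgCl p) - B‖ < 1 := hFspec b
    rw [hab] at hA
    rw [show A - B = (((F b : T) : PadicAlgCl p) - B) - (((F b : T) : PadicAlgCl p) - A) by ring,
      sub_eq_add_neg]
    exact lt_of_le_of_lt (IsUltrametricDist.norm_add_le_max _ _) (max_lt hB (by rwa [norm_neg]))
  let toRoots : T → rootsOfUnity (q - 1) (PadicAlgCl p) := fun u =>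
    ⟨Units.mk0 u (fun h => by simpa [h] using hTn u u.2),
      (mem_rootsOfUnity' _ _).mpr u.2.2⟩
  have hto : Function.Injective toRoots := fun u v h => Subtype.ext (congrArg (fun w : rootsOfUnity (q - 1) (PadicAlgCl p) =>
    ((w : (PadicAlgCl p)ˣ) : PadicAlgCl p)) h)
  have hcard : Nat.card (rootsOfUnity (q - 1) (PadicAlgCl p)) ≤ Nat.card {a : Residue L // a ≠ 0} := by
    have h1 : Nat.card {a : Residue L // a ≠ 0} = q - 1 := by
      let _ := Fintype.ofFinite (Residue L)
      rw [Nat.card_eq_fintype_card, Fintype.card_subtype_compl, Fintype.card_subtype_eq,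
        ← Nat.card_eq_fintype_card]
      rfl
    rw [h1]
    exact card_rootsOfUnity _ _
  have hbij : Function.Bijective (toRoots ∘ F) := (hto.comp hF).bijective_of_nat_card_le hcard
  obtain ⟨z, hz⟩ := HasEnoughRootsOfUnity.exists_primitiveRoot (PadicAlgCl p) (q - 1)
  obtain ⟨a, ha⟩ := hbij.2 ⟨Units.mk0 z (hz.ne_zero hn0.1), (mem_rootsOfUnity' _ _).mpr hz.pow_eq_one⟩
  have hzT : z ∈ T := by
    have e : ((F a : T) : PadicAlgCl p) = z :=
      congrArg (fun w : rootsOfUnity (q - 1) (PadicAlgCl p) => ((w : (PadicAlgCl p)ˣ) : PadicAlgCl p)) ha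
    exact e ▸ (F a).2
  refine ⟨z, hzT.1, hz, fun x hx hx1 => ?_⟩
  rcases hx1.lt_or_eq with h | h
  · exact Or.inl h
  · obtain ⟨u, hu, hux⟩ := hex x hx h
    obtain ⟨i, -, hi⟩ := hz.eq_pow_of_pow_eq_one hu.2
    exact Or.inr ⟨i, by rw [norm_sub_rev, hi]; exact hux⟩

end FermatLib.CFT.Fontaine
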