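import Mathlib

/-!
Linear algebra behind the Greenberg-Wiles formula.
-/

set_option autoImplicit false

open Module

namespace FermatLib.CFT

variable {k U U' W W' : Type*} [Field k] [AddCommGroup U] [Module k U] [AddCommGroup U']
  [Module k U'] [AddCommGroup W] [Module k W] [AddCommGroup W'] [Module k W']

/-- The right annihilator of `L` for the form `B`. -/
def annRight (B : W →ₗ[k] W' →ₗ[k] k) (L : Submodule k W) : Submodule k W' :=
  L.dualAnnihilator.comap B.flip

theorem mem_annRight_iff (B : W →ₗ[k] W' →ₗ[k] k) (L : Submodule k W) (w : W') :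
    w ∈ annRight B L ↔ ∀ x ∈ L, B x w = 0 := by
  simp only [annRight, Submodule.mem_comap, Submodule.mem_dualAnnihilator]
  exact forall₂_congr fun x _ => by rw [LinearMap.flip_apply]

theorem annRight_sup (B : W →ₗ[k] W' →ₗ[k] k) (L M : Submodule k W) :
    annRight B (L ⊔ M) = annRight B L ⊓ annRight B M := by
  rw [annRight, Submodule.dualAnnihilator_sup_eq, Submodule.comap_inf]
  rfl

theorem finrank_annRight_add [FiniteDimensional k W] [FiniteDimensional k W']
    (B : W →ₗ[k] W' →ₗ[k] k) (hl : ∀ x, (∀ y, B x y = 0) → x = 0)
    (hr : ∀ y, (∀ x, B x y = 0) → y = 0) (L : Submodule k W) :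
    finrank k L + finrank k (annRight B L) = finrank k W := by
  have hinj : Function.Injective B.flip :=
    (injective_iff_map_eq_zero _).2 fun y hy => hr y fun x => by
      simpa using LinearMap.congr_fun hy x
  have hinj' : Function.Injective B :=
    (injective_iff_map_eq_zero _).2 fun x hx => hl x fun y => by
      simpa using LinearMap.congr_fun hx y
  have h1 : finrank k W' ≤ finrank k (Dual k W) := LinearMap.finrank_le_finrank_of_injective hinj
  have h2 : finrank k W ≤ finrank k (Dual k W') := LinearMap.finrank_le_finrank_of_injective hinj'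
  rw [Subspace.dual_finrank_eq] at h1 h2
  have hsurj : Function.Surjective B.flip :=
    (LinearMap.injective_iff_surjective_of_finrank_eq_finrank
      (by rw [Subspace.dual_finrank_eq]; omega)).1 hinj
  let e := LinearEquiv.ofBijective B.flip ⟨hinj, hsurj⟩
  have he : annRight B L = L.dualAnnihilator.map (e.symm : Dual k W →ₗ[k] W') := by
    rw [Submodule.map_equiv_eq_comap_symm, LinearEquiv.symm_symm]
    rfl
  rw [he, LinearEquiv.finrank_map_eq, Subspace.finrank_add_finrank_dualAnnihilator_eq]

theorem finrank_comap_eq [FiniteDimensional k U] (l : U →ₗ[k] W) (L : Submodule k W) :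
    finrank k (L.comap l) = finrank k (LinearMap.ker l) +
      finrank k (LinearMap.range l ⊓ L : Submodule k W) := by
  have hker : LinearMap.ker l ≤ L.comap l := fun x hx => by
    rw [Submodule.mem_comap, LinearMap.mem_ker.1 hx]; exact zero_mem L
  have := LinearMap.finrank_range_add_finrank_ker (l.domRestrict (L.comap l))
  rw [LinearMap.range_domRestrict, Submodule.map_comap_eq, LinearMap.ker_domRestrict] at this
  rw [← this, add_comm]
  congr 1
  exact LinearEquiv.finrank_eq (Submodule.comapSubtypeEquivOfLe hker)

/-- If the image of `l'` is the exact annihilator of the image of `l`, the sizes of the preimages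
of `L` and of its annihilator differ by the expected amount. -/
theorem finrank_comap_annRight [FiniteDimensional k U] [FiniteDimensional k U']
    [FiniteDimensional k W] [FiniteDimensional k W']
    (B : W →ₗ[k] W' →ₗ[k] k) (hl : ∀ x, (∀ y, B x y = 0) → x = 0)
    (hr : ∀ y, (∀ x, B x y = 0) → y = 0) (l : U →ₗ[k] W) (l' : U' →ₗ[k] W')
    (hexact : LinearMap.range l' = annRight B (LinearMap.range l)) (L : Submodule k W) :
    finrank k (L.comap l) + finrank k (LinearMap.ker l') + finrank k W =
      finrank k ((annRight B L).comap l') + finrank k U + finrank k L := by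
  have h1 := finrank_comap_eq l L
  have h2 := finrank_comap_eq l' (annRight B L)
  rw [hexact, ← annRight_sup] at h2
  have h3 := finrank_annRight_add B hl hr (LinearMap.range l ⊔ L)
  have h4 := Submodule.finrank_sup_add_finrank_inf_eq (LinearMap.range l) L
  have h5 := LinearMap.finrank_range_add_finrank_ker l
  omega

end FermatLib.CFT
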