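import Fermat.Agent.CFT.GWDefs
import Fermat.Agent.CFT.GWAlgebra

/-!
The Greenberg-Wiles formula at a set `S` from middle exactness and the Euler characteristic count.
-/

set_option autoImplicit false

open CategoryTheory Module groupCohomology ExtCitation

namespace FermatLib.CFT

variable {p : ℕ} [Fact p.Prime]

local notation "Γℚ" => AlgebraicClosure ℚ ≃ₐ[ℚ] AlgebraicClosure ℚ

/-- Localisation of a global continuous class is continuous. -/
theorem locRes_mem_continuousH1 (N : Rep (ZMod p) Γℚ) (S : Finset Nat.Primes) (v : extArithIndex S)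
    {x : H1 N} (hx : x ∈ continuousH1S S N) :
    (locRes (extArithLoc S) N v).hom x ∈
      continuousH1 (extArithLoc S v) (Rep.res (extArithLoc S v) N) := by
  obtain ⟨c, hc, rfl⟩ := (mem_continuousH1S_iff S N x).1 hx
  rw [mem_continuousH1_iff]
  refine ⟨mapCocycles₁ (extArithLoc S v) (𝟙 (Rep.res (extArithLoc S v) N)) c, ?_, ?_⟩
  · obtain ⟨F, hF, h⟩ := hc
    exact ⟨F, hF.1, fun g s hs => by
      show c (extArithLoc S v (g * s)) = c (extArithLoc S v g)
      rw [map_mul, h _ _ hs]⟩
  · exact (H1π_comp_map_apply (extArithLoc S v) (𝟙 _) c).symm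

variable (M : Rep (ZMod p) Γℚ) (S : Finset Nat.Primes)
  (Bfin : ∀ q : Nat.Primes, LocalPairing M (primeLocalToGlobal q))
  (Binf : LocalPairing M archimedeanLoc)

local notation "M'" => M.dualTwist (cycloChar p)

/-- The space of all local continuous classes. -/
abbrev localClasses (N : Rep (ZMod p) Γℚ) : Type :=
  ∀ v : extArithIndex S, ↥(continuousH1 (extArithLoc S v) (Rep.res (extArithLoc S v) N))

/-- Localisation on continuous classes. -/
noncomputable def locContinuous (N : Rep (ZMod p) Γℚ) :
    ↥(continuousH1S S N) →ₗ[ZMod p] localClasses S N :=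
  LinearMap.pi fun v => ((locRes (extArithLoc S) N v).hom ∘ₗ (continuousH1S S N).subtype).codRestrict
    _ fun x => locRes_mem_continuousH1 N S v x.2

@[simp] theorem locContinuous_apply (N : Rep (ZMod p) Γℚ) (x : ↥(continuousH1S S N))
    (v : extArithIndex S) :
    ((locContinuous S N x v :) : H1 (Rep.res (extArithLoc S v) N)) =
      (locRes (extArithLoc S) N v).hom x.1 := rfl

/-- The sum of the local pairings on continuous classes. -/
noncomputable def pairContinuous :
    localClasses S M →ₗ[ZMod p] localClasses S M' →ₗ[ZMod p] ZMod p :=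
  ∑ v, (gwPairing M Bfin Binf S v).compl₁₂
    ((continuousH1 (extArithLoc S v) (Rep.res (extArithLoc S v) M)).subtype ∘ₗ LinearMap.proj v)
    ((continuousH1 (extArithLoc S v) (Rep.res (extArithLoc S v) M')).subtype ∘ₗ LinearMap.proj v)

theorem pairContinuous_apply (x : localClasses S M) (y : localClasses S M') :
    pairContinuous M S Bfin Binf x y = ∑ v, gwPairing M Bfin Binf S v (x v).1 (y v).1 := by
  simp [pairContinuous, LinearMap.sum_apply]

theorem gwPairing_perfect (hfin : ∀ q, IsPerfectOnContinuous M (Bfin q))
    (hinf : IsPerfectOnContinuous M Binf) (v : extArithIndex S) :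
    IsPerfectOnContinuous M (gwPairing M Bfin Binf S v) := by
  rcases v with u | q
  · exact hinf
  · exact hfin q.1

/-- Middle exactness at `S`: the image of the global classes of `M'` is the annihilator of the
image of the global classes of `M`. -/
def MiddleExact : Prop :=
  ∀ y : localClasses S M',
    (∀ x ∈ continuousH1S S M,
        ∑ v, gwPairing M Bfin Binf S v ((locRes (extArithLoc S) M v).hom x) (y v).1 = 0) ↔
      ∃ w ∈ continuousH1S S M', ∀ v, (locRes (extArithLoc S) M' v).hom w = (y v).1

/-- The Euler characteristic count at `S`. -/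
structure EulerCount : Prop where
  finite_left : FiniteDimensional (ZMod p) (continuousH1S S M)
  finite_right : FiniteDimensional (ZMod p) (continuousH1S S M')
  count : finrank (ZMod p) (continuousH1S S M) + finrank (ZMod p) (M').ρ.invariants
      + ∑ v, finrank (ZMod p) (Rep.res (extArithLoc S v) M).ρ.invariants
    = finrank (ZMod p) (sha₁ S M') + finrank (ZMod p) M.ρ.invariants
      + ∑ v, finrank (ZMod p) (continuousH1 (extArithLoc S v) (Rep.res (extArithLoc S v) M))

/-- The formula at `S` from the two inputs. -/
theorem greenbergWiles_at (hfin : ∀ q, IsPerfectOnContinuous M (Bfin q))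
    (hinf : IsPerfectOnContinuous M Binf) (hmid : MiddleExact M S Bfin Binf)
    (hcount : EulerCount M S)
    (L : ∀ v : extArithIndex S, Submodule (ZMod p) (H1 (Rep.res (extArithLoc S v) M)))
    (hL : ∀ v, L v ≤ continuousH1 (extArithLoc S v) (Rep.res (extArithLoc S v) M)) :
    FiniteDimensional (ZMod p) (selmerAdm (extArithLoc S) M L (continuousH1S S M)) ∧
    FiniteDimensional (ZMod p) (selmerAdm (extArithLoc S) M'
      (dualConditions (extArithLoc S) M M' (gwPairing M Bfin Binf S) L)
      (continuousH1S S M')) ∧
    (∀ v, FiniteDimensional (ZMod p) (L v)) ∧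
    finrank (ZMod p) (selmerAdm (extArithLoc S) M L (continuousH1S S M))
        + finrank (ZMod p) (M').ρ.invariants
        + ∑ v, finrank (ZMod p) (Rep.res (extArithLoc S v) M).ρ.invariants
      = finrank (ZMod p) (selmerAdm (extArithLoc S) M'
          (dualConditions (extArithLoc S) M M' (gwPairing M Bfin Binf S) L)
          (continuousH1S S M'))
        + finrank (ZMod p) M.ρ.invariants
        + ∑ v, finrank (ZMod p) (L v) := by
  classical
  have := hcount.finite_left
  have := hcount.finite_right
  have hperf := gwPairing_perfect M S Bfin Binf hfin hinf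
  have hW : ∀ v, FiniteDimensional (ZMod p)
      (continuousH1 (extArithLoc S v) (Rep.res (extArithLoc S v) M)) := fun v => (hperf v).finite_left
  have hW' : ∀ v, FiniteDimensional (ZMod p)
      (continuousH1 (extArithLoc S v) (Rep.res (extArithLoc S v) M')) :=
    fun v => (hperf v).finite_right
  have hsub₁ : selmerAdm (extArithLoc S) M L (continuousH1S S M) ≤ continuousH1S S M :=
    selmerAdm_le_adm _ _ _ _
  have hsub₂ : selmerAdm (extArithLoc S) M'
      (dualConditions (extArithLoc S) M M' (gwPairing M Bfin Binf S) L)
      (continuousH1S S M') ≤ continuousH1S S M' := selmerAdm_le_adm _ _ _ _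
  refine ⟨Submodule.finiteDimensional_of_le hsub₁, Submodule.finiteDimensional_of_le hsub₂,
    fun v => Submodule.finiteDimensional_of_le (hL v), ?_⟩
  set B := pairContinuous M S Bfin Binf with hB
  have hl : ∀ x, (∀ y, B x y = 0) → x = 0 := fun x hx => funext fun v => Subtype.ext <|
    (hperf v).left _ (x v).2 fun y hy => by
      have := hx (Pi.single v ⟨y, hy⟩)
      rw [hB, pairContinuous_apply, Finset.sum_eq_single v (fun w _ hw => by
        rw [Pi.single_eq_of_ne hw]; simp) (fun h => absurd (Finset.mem_univ v) h)] at this
      simpa using this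
  have hr : ∀ y, (∀ x, B x y = 0) → y = 0 := fun y hy => funext fun v => Subtype.ext <|
    (hperf v).right _ (y v).2 fun x hx => by
      have := hy (Pi.single v ⟨x, hx⟩)
      rw [hB, pairContinuous_apply, Finset.sum_eq_single v (fun w _ hw => by
        rw [Pi.single_eq_of_ne hw]; simp) (fun h => absurd (Finset.mem_univ v) h)] at this
      simpa using this
  set l := locContinuous S M with hldef
  set l' := locContinuous S M' with hl'def
  have hexact : LinearMap.range l' = annRight B (LinearMap.range l) := by
    ext y
    rw [mem_annRight_iff]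
    constructor
    · rintro ⟨w, rfl⟩ _ ⟨x, rfl⟩
      rw [hB, pairContinuous_apply]
      exact (hmid (l' w)).2 ⟨w.1, w.2, fun v => rfl⟩ x.1 x.2
    · intro h
      obtain ⟨w, hw, hwy⟩ := (hmid y).1 fun x hx => by
        have := h (l ⟨x, hx⟩) ⟨⟨x, hx⟩, rfl⟩
        rw [hB, pairContinuous_apply] at this
        exact this
      exact ⟨⟨w, hw⟩, funext fun v => Subtype.ext (hwy v)⟩
  set Lc : Submodule (ZMod p) (localClasses S M) :=
    ⨅ v, ((L v).comap (continuousH1 (extArithLoc S v) (Rep.res (extArithLoc S v) M)).subtype).comap
      (LinearMap.proj v) with hLc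
  have hmemLc : ∀ x, x ∈ Lc ↔ ∀ v, (x v).1 ∈ L v := fun x => by
    simp [hLc, Submodule.mem_iInf]
  have hsel : finrank (ZMod p) (Lc.comap l) =
      finrank (ZMod p) (selmerAdm (extArithLoc S) M L (continuousH1S S M)) := by
    rw [← (Submodule.comapSubtypeEquivOfLe hsub₁).finrank_eq]
    refine congrArg (fun N : Submodule (ZMod p) ↥(continuousH1S S M) => finrank (ZMod p) N) ?_
    ext x
    simp only [Submodule.mem_comap, hmemLc, Submodule.coe_subtype, mem_selmerAdm_iff, x.2, and_true]
    exact forall_congr' fun v => by rw [hldef, locContinuous_apply]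
  have hsel' : finrank (ZMod p) ((annRight B Lc).comap l') =
      finrank (ZMod p) (selmerAdm (extArithLoc S) M'
        (dualConditions (extArithLoc S) M M' (gwPairing M Bfin Binf S) L)
        (continuousH1S S M')) := by
    rw [← (Submodule.comapSubtypeEquivOfLe hsub₂).finrank_eq]
    refine congrArg (fun N : Submodule (ZMod p) ↥(continuousH1S S M') => finrank (ZMod p) N) ?_
    ext y
    simp only [Submodule.mem_comap, mem_annRight_iff, Submodule.coe_subtype, mem_selmerAdm_iff,
      y.2, and_true, dualConditions, mem_orthogonal_iff]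
    constructor
    · intro h v x hx
      have := h (Pi.single v ⟨x, hL v hx⟩) ((hmemLc _).2 fun w => by
        rcases eq_or_ne w v with rfl | hw
        · rw [Pi.single_eq_same]; exact hx
        · rw [Pi.single_eq_of_ne hw]; exact zero_mem _)
      rw [hB, pairContinuous_apply, Finset.sum_eq_single v (fun w _ hw => by
        rw [Pi.single_eq_of_ne hw]; simp) (fun h => absurd (Finset.mem_univ v) h)] at this
      rw [Pi.single_eq_same] at this
      exact this
    · intro h x hx
      rw [hB, pairContinuous_apply]
      exact Finset.sum_eq_zero fun v _ => h v _ ((hmemLc x).1 hx v)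
  have hker : finrank (ZMod p) (LinearMap.ker l') = finrank (ZMod p) (sha₁ S M') := by
    have hle : sha₁ S M' ≤ continuousH1S S M' := inf_le_left
    rw [← (Submodule.comapSubtypeEquivOfLe hle).finrank_eq]
    refine congrArg (fun N : Submodule (ZMod p) ↥(continuousH1S S M') => finrank (ZMod p) N) ?_
    ext y
    simp only [LinearMap.mem_ker, Submodule.mem_comap, Submodule.coe_subtype, sha₁,
      Submodule.mem_inf, y.2, true_and, funext_iff]
    exact forall_congr' fun v => Subtype.ext_iff
  have hLsum : finrank (ZMod p) Lc = ∑ v, finrank (ZMod p) (L v) := by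
    let e : Lc ≃ₗ[ZMod p] ∀ v, L v :=
      { toFun := fun x v => ⟨(x.1 v).1, (hmemLc x.1).1 x.2 v⟩
        invFun := fun y => ⟨fun v => ⟨(y v).1, hL v (y v).2⟩, (hmemLc _).2 fun v => (y v).2⟩
        map_add' := fun a b => rfl
        map_smul' := fun c a => rfl
        left_inv := fun x => rfl
        right_inv := fun y => rfl }
    have := fun v => Submodule.finiteDimensional_of_le (hL v)
    rw [e.finrank_eq, Module.finrank_pi_fintype]
  have hWsum : finrank (ZMod p) (localClasses S M) =
      ∑ v, finrank (ZMod p) (continuousH1 (extArithLoc S v) (Rep.res (extArithLoc S v) M)) :=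
    Module.finrank_pi_fintype _
  have key := finrank_comap_annRight B hl hr l l' hexact Lc
  rw [hsel, hsel', hker, hLsum, hWsum] at key
  have := hcount.count
  omega

end FermatLib.CFT
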