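import Fermat.Prelude.Def_GroupCohomology_ContinuousUnramified

/-!
Definitions for the Greenberg-Wiles formula over `ℚ` for finite `F_p[G_ℚ]`-modules.
-/

set_option autoImplicit false

open CategoryTheory Module groupCohomology ExtCitation

namespace FermatLib.CFT

variable {p : ℕ} [Fact p.Prime] (M : Rep (ZMod p) (AlgebraicClosure ℚ ≃ₐ[ℚ] AlgebraicClosure ℚ))

/-- A bilinear form on local first cohomology at a place given by `f`, for `M` and its dual twist. -/
abbrev LocalPairing {H : Type} [Group H]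
    (f : H →* (AlgebraicClosure ℚ ≃ₐ[ℚ] AlgebraicClosure ℚ)) : Type :=
  H1 (Rep.res f M) →ₗ[ZMod p] H1 (Rep.res f (M.dualTwist (cycloChar p))) →ₗ[ZMod p] ZMod p

/-- The family of pairings over `S` and infinity given by pairings at each place. -/
noncomputable def gwPairing (Bfin : ∀ q : Nat.Primes, LocalPairing M (primeLocalToGlobal q))
    (Binf : LocalPairing M archimedeanLoc) (S : Finset Nat.Primes) :
    ∀ v : extArithIndex S, H1 (Rep.res (extArithLoc S v) M) →ₗ[ZMod p]
      H1 (Rep.res (extArithLoc S v) (M.dualTwist (cycloChar p))) →ₗ[ZMod p] ZMod p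
  | Sum.inl _ => Binf
  | Sum.inr q => Bfin q.1

/-- A pairing is perfect on continuous classes. -/
structure IsPerfectOnContinuous {H : Type} [Group H]
    {f : H →* (AlgebraicClosure ℚ ≃ₐ[ℚ] AlgebraicClosure ℚ)} (B : LocalPairing M f) : Prop where
  finite_left : FiniteDimensional (ZMod p) (continuousH1 f (Rep.res f M))
  finite_right :
    FiniteDimensional (ZMod p) (continuousH1 f (Rep.res f (M.dualTwist (cycloChar p))))
  left : ∀ x ∈ continuousH1 f (Rep.res f M),
    (∀ y ∈ continuousH1 f (Rep.res f (M.dualTwist (cycloChar p))), B x y = 0) → x = 0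
  right : ∀ y ∈ continuousH1 f (Rep.res f (M.dualTwist (cycloChar p))),
    (∀ x ∈ continuousH1 f (Rep.res f M), B x y = 0) → y = 0

/-- The unramified continuous classes at `q`: some level-constant cocycle is zero on inertia. -/
def unramifiedClasses (q : Nat.Primes)
    (N : Rep (ZMod p) (AlgebraicClosure ℚ ≃ₐ[ℚ] AlgebraicClosure ℚ)) :
    Set (H1 (Rep.res (primeLocalToGlobal q) N)) :=
  {x | ∃ c : cocycles₁ (Rep.res (primeLocalToGlobal q) N),
    IsLevelConstant₁ (primeLocalToGlobal q) c ∧
    (∀ g, primeLocalToGlobal q g ∈ (primeLocalPlace q).inertiaSubgroupIn ℚ → c g = 0) ∧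
    (H1π _).hom c = x}

/-- At `q ≠ p` unramified classes (inflated from `G_q / I_q`) pair to zero, and where `M` is
unramified they are mutual annihilators. -/
def UnramifiedIsOrthogonal (q : Nat.Primes) (B : LocalPairing M (primeLocalToGlobal q)) : Prop :=
  ((q : ℕ) ≠ p → ∀ x ∈ unramifiedClasses q M,
    ∀ y ∈ unramifiedClasses q (M.dualTwist (cycloChar p)), B x y = 0) ∧
  ((q : ℕ) ≠ p →
  (∀ g, primeLocalToGlobal q g ∈ (primeLocalPlace q).inertiaSubgroupIn ℚ →
    M.ρ (primeLocalToGlobal q g) = 1) →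
  (∀ y ∈ continuousH1 (primeLocalToGlobal q)
      (Rep.res (primeLocalToGlobal q) (M.dualTwist (cycloChar p))),
    (y ∈ unramifiedClasses q (M.dualTwist (cycloChar p)) ↔
      ∀ x ∈ unramifiedClasses q M, B x y = 0)) ∧
  (∀ x ∈ continuousH1 (primeLocalToGlobal q) (Rep.res (primeLocalToGlobal q) M),
    (x ∈ unramifiedClasses q M ↔
      ∀ y ∈ unramifiedClasses q (M.dualTwist (cycloChar p)), B x y = 0)))

end FermatLib.CFT
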