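import Fermat.Agent.CFT.GWEvalInf

/-!
The class of the units outside `T` of a Galois number field in terms of permutation modules.
-/

set_option autoImplicit false

open NumberField Polynomial IsDedekindDomain

namespace FermatLib.CFT

section average

variable {G A : Type*} [Group G] [AddCommGroup A] [DistribMulAction G A] {Y : Type*}
  (σ : Equiv.Perm Y) (g : G) (x₀ : Y → A) (m : ℕ)

/-- Average of `x₀` over the cyclic group of `g`, acting through `σ` on indices. -/
def cycleAverage (y : Y) : A := ∑ i ∈ Finset.range m, g ^ i • x₀ ((σ⁻¹ ^ i) y)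

theorem smul_cycleAverage (hg : g ^ m = 1) (hσ : σ ^ m = 1) (y : Y) :
    g • cycleAverage σ g x₀ m y = cycleAverage σ g x₀ m (σ y) := by
  rw [cycleAverage, cycleAverage, Finset.smul_sum]
  let F : ℕ → A := fun i => g ^ i • x₀ ((σ⁻¹ ^ i) (σ y))
  show ∑ i ∈ Finset.range m, g • g ^ i • x₀ ((σ⁻¹ ^ i) y) = ∑ i ∈ Finset.range m, F i
  have h1 : ∀ i, g • g ^ i • x₀ ((σ⁻¹ ^ i) y) = F (i + 1) := fun i => by
    simp only [F]
    rw [← mul_smul, ← pow_succ', pow_succ σ⁻¹, Equiv.Perm.mul_apply]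
    simp
  rw [Finset.sum_congr rfl fun i _ => h1 i]
  have h2 := Finset.sum_range_succ' F m
  rw [Finset.sum_range_succ F m, show F m = F 0 by simp [F, hg, inv_pow, hσ]] at h2
  exact (add_right_cancel h2).symm

end average

section matrix

/-- A matrix with negative entries off the diagonal and zero column sums only kills constants
of sum zero trivially. -/
theorem eq_zero_of_colSum_zero {Y : Type*} [Fintype Y] (N : Y → Y → ℝ)
    (hneg : ∀ y' y, y' ≠ y → N y' y < 0) (hsum : ∀ y, ∑ y', N y' y = 0) (c : Y → ℝ)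
    (h0 : ∑ y, c y = 0) (hN : ∀ y', ∑ y, c y * N y' y = 0) : c = 0 := by
  classical
  suffices h : ∀ y, c y ≤ 0 by
    funext y
    exact (Finset.sum_eq_zero_iff_of_nonpos fun z _ => h z).1 h0 y (Finset.mem_univ y)
  by_contra h
  obtain ⟨y₀, hy₀⟩ := not_forall.1 h
  let P := Finset.univ.filter fun y => 0 < c y
  have hy₀P : y₀ ∈ P := by simp [P, not_le.1 hy₀]
  obtain ⟨z, -, hz⟩ := Finset.exists_pos_of_sum_zero_of_exists_nonzero (fun y => -c y)
    (by simp [h0]) ⟨y₀, Finset.mem_univ _, by linarith [not_le.1 hy₀]⟩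
  have hzP : z ∈ Pᶜ := by simp [P]; linarith
  have htot : ∑ y, c y * ∑ y' ∈ P, N y' y = 0 := by
    simp_rw [Finset.mul_sum]
    rw [Finset.sum_comm]
    exact Finset.sum_eq_zero fun y' _ => hN y'
  have hpos : ∀ y ∈ P, 0 < c y * ∑ y' ∈ P, N y' y := fun y hy => by
    refine mul_pos (by simpa [P] using hy) ?_
    have hcompl : ∑ y' ∈ Pᶜ, N y' y < 0 :=
      Finset.sum_neg (fun y' hy' => hneg y' y fun e => by
        rw [e, Finset.mem_compl] at hy'; exact hy' hy) ⟨z, hzP⟩
    have := Finset.sum_add_sum_compl P fun y' => N y' y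
    rw [hsum] at this
    linarith
  have hnn : ∀ y ∈ (Finset.univ : Finset Y), 0 ≤ c y * ∑ y' ∈ P, N y' y := fun y _ => by
    by_cases hy : y ∈ P
    · exact (hpos y hy).le
    · exact mul_nonneg_of_nonpos_of_nonpos (by simpa [P] using hy)
        (Finset.sum_nonpos fun y' hy' => (hneg y' y fun e => hy (e ▸ hy')).le)
  exact (hpos y₀ hy₀P).ne' ((Finset.sum_eq_zero_iff_of_nonneg hnn).1 htot y₀ (Finset.mem_univ _))

end matrix

variable {L : Type} [Field L] [NumberField L]

/-- `log ‖φ x‖`. -/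
noncomputable def logNormHom {q : Nat.Primes} (φ : Emb L q) : LUnits L →+ ℝ :=
  AddMonoidHom.mk' (fun x => Real.log ‖φ x.val‖) fun x y => by
    rw [LUnits.val_add, map_mul, norm_mul, Real.log_mul] <;>
      exact norm_ne_zero_iff.2 ((map_ne_zero φ).2 (Units.ne_zero _))

theorem logNormHom_apply {q : Nat.Primes} (φ : Emb L q) (x : LUnits L) :
    logNormHom φ x = Real.log ‖φ x.val‖ := rfl

/-- `log |x|` at an infinite place. -/
noncomputable def logPlaceHom (w : InfinitePlace L) : LUnits L →+ ℝ :=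
  AddMonoidHom.mk' (fun x => Real.log (w (x.val : L))) fun x y => by
    rw [LUnits.val_add, map_mul, Real.log_mul] <;>
      exact (map_ne_zero w).2 (Units.ne_zero _)

variable [IsGalois ℚ L]

/-- The prime of a place over `q`. -/
noncomputable def placePrime {q : Nat.Primes}
    (v : PlacesAbove (⊥ : Subgroup (L ≃ₐ[ℚ] L)) q) : HeightOneSpectrum (𝓞 L) :=
  Quotient.lift (fun φ => φ.prime)
    (fun φ ψ h => (samePlace_iff_prime_eq φ ψ).1 ((samePlaceRel_bot_iff φ ψ).1 h)) v

theorem placePrime_mk {q : Nat.Primes} (φ : Emb L q) :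
    placePrime (⟦φ⟧ : PlacesAbove (⊥ : Subgroup (L ≃ₐ[ℚ] L)) q) = φ.prime := rfl

theorem placePrime_eq_iff {q : Nat.Primes} (φ : Emb L q)
    (v : PlacesAbove (⊥ : Subgroup (L ≃ₐ[ℚ] L)) q) : φ.prime = placePrime v ↔ ⟦φ⟧ = v := by
  induction v using Quotient.inductionOn with
  | h ψ =>
    rw [placePrime_mk, ← samePlace_iff_prime_eq, ← samePlaceRel_bot_iff]
    exact ⟨fun h => Quotient.sound h, fun h => Quotient.exact h⟩

theorem placePerm_pow_mk (g : L ≃ₐ[ℚ] L) (q : Nat.Primes) (i : ℕ) (φ : Emb L q) :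
    (placePerm g q ^ i) ⟦φ⟧ = ⟦φ.preComp (g⁻¹ ^ i)⟧ := by
  induction i with
  | zero => rfl
  | succ n ih =>
    rw [pow_succ', Equiv.Perm.mul_apply, ih, pow_succ, preComp_mul]
    rfl

theorem placePerm_inv_pow_mk (g : L ≃ₐ[ℚ] L) (q : Nat.Primes) (i : ℕ) (φ : Emb L q) :
    ((placePerm g q)⁻¹ ^ i) ⟦φ⟧ = ⟦φ.preComp (g ^ i)⟧ := by
  rw [inv_pow, Equiv.Perm.inv_def, Equiv.symm_apply_eq, placePerm_pow_mk, inv_pow,
    Emb.preComp_preComp_inv]

theorem placePerm_pow_orderOf (g : L ≃ₐ[ℚ] L) (q : Nat.Primes) :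
    placePerm g q ^ orderOf g = 1 :=
  Equiv.ext fun v => Quotient.inductionOn v fun φ => by
    rw [placePerm_pow_mk, inv_pow, pow_orderOf_eq_one, inv_one]
    rfl

/-- A generator supported at one place over `T`. -/
theorem exists_placeGen (T : Finset Nat.Primes) {q : Nat.Primes} (hq : q ∈ T)
    (v : PlacesAbove (⊥ : Subgroup (L ≃ₐ[ℚ] L)) q) :
    ∃ x ∈ tUnits L (T : Set Nat.Primes), ∀ (r : Nat.Primes) (φ : Emb L r),
      (φ.prime = placePrime v → 0 < logNormHom φ x) ∧
      (φ.prime ≠ placePrime v → logNormHom φ x = 0) := by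
  obtain ⟨x, hx⟩ := exists_valLog_classNumber (placePrime v)
  have h0 : ∀ (r : Nat.Primes) (φ : Emb L r), φ.prime ≠ placePrime v → ‖φ x.val‖ = 1 :=
    fun r φ h => (valLog_eq_zero_iff_norm φ x).1 (by rw [hx, if_neg h])
  refine ⟨x, (mem_tUnits_iff _ _).2 fun r hr φ => h0 r φ fun h => hr ?_,
    fun r φ => ⟨fun h => ?_, fun h => by rw [logNormHom_apply, h0 r φ h, Real.log_one]⟩⟩
  · induction v using Quotient.inductionOn with
    | h ψ => rwa [Emb.primeNumber_eq φ ψ h] at hq
  · refine Real.log_pos (not_le.1 fun hle => ?_)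
    rw [← Emb.valuation_le_one_iff] at hle
    have hne : φ.prime.valuation L (x.val : L) ≠ 0 := (_root_.map_ne_zero _).2 (Units.ne_zero _)
    have h2 : valLog φ.prime x ≤ 0 := (WithZero.log_le_log hne one_ne_zero).2 hle
    rw [hx, if_pos h] at h2
    have := classNumber_ne_zero L
    omega

/-- A unit which is small at all infinite places but one. -/
theorem exists_unitGen (T : Finset Nat.Primes) (w : InfinitePlace L) :
    ∃ x ∈ tUnits L (T : Set Nat.Primes), (∀ (r : Nat.Primes) (φ : Emb L r), ‖φ x.val‖ = 1) ∧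
      (∀ w', w' ≠ w → logPlaceHom w' x < 0) ∧
      ∑ w' : InfinitePlace L, (w'.mult : ℝ) * logPlaceHom w' x = 0 := by
  obtain ⟨u, hu⟩ := NumberField.Units.dirichletUnitTheorem.exists_unit L w
  have h1 : ∀ (r : Nat.Primes) (φ : Emb L r), ‖φ (u : L)‖ = 1 := fun r φ => by
    refine le_antisymm (φ.norm_le_one_of_isIntegral (RingOfIntegers.isIntegral_coe _)) ?_
    have h := φ.norm_le_one_of_isIntegral
      (RingOfIntegers.isIntegral_coe ((u⁻¹ : (𝓞 L)ˣ) : 𝓞 L))
    have e : φ (u : L) * φ ((u⁻¹ : (𝓞 L)ˣ) : L) = 1 := by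
      rw [← map_mul, ← Units.coe_mul, mul_inv_cancel, Units.coe_one, map_one]
    calc (1 : ℝ) = ‖φ (u : L)‖ * ‖φ ((u⁻¹ : (𝓞 L)ˣ) : L)‖ := by rw [← norm_mul, e, norm_one]
      _ ≤ ‖φ (u : L)‖ * 1 := by gcongr
      _ = _ := mul_one _
  exact ⟨LUnits.of (Units.map (algebraMap (𝓞 L) L).toMonoidHom u),
    (mem_tUnits_iff _ _).2 fun r _ φ => h1 r φ, h1, hu, NumberField.Units.sum_mult_mul_log u⟩

/-- Places at infinity and over `T`. -/
abbrev TPlaces (L : Type) [Field L] [NumberField L] (T : Finset Nat.Primes) : Type :=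
  InfinitePlace L ⊕ Σ q : T, PlacesAbove (⊥ : Subgroup (L ≃ₐ[ℚ] L)) q.1

/-- The permutation of the places at infinity and over `T`. -/
noncomputable def tPlacesPerm (T : Finset Nat.Primes) (g : L ≃ₐ[ℚ] L) :
    Equiv.Perm (TPlaces L T) :=
  Equiv.sumCongr (infPlacePerm g) (Equiv.sigmaCongrRight fun q : T => placePerm g q.1)

/-- The permutation lattice of places maps equivariantly into `T`-units times `ℤ`,
injectively. -/
theorem exists_placesLattice (T : Finset Nat.Primes) (g : L ≃ₐ[ℚ] L) :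
    ∃ Ψ : (TPlaces L T → ℤ) →+ ↥(tUnits L (T : Set Nat.Primes)) × ℤ,
      Function.Injective Ψ ∧
      ∀ c, Ψ (permHom (tPlacesPerm T g) c) =
        ((tUnitsEnd (T : Set Nat.Primes) g).prodMap (AddMonoidHom.id ℤ)) (Ψ c) := by
  classical
  choose xv hxvT hxv using fun y : Σ q : T, PlacesAbove (⊥ : Subgroup (L ≃ₐ[ℚ] L)) q.1 =>
    exists_placeGen T y.1.2 y.2
  choose xu hxuT hxu1 hxuneg hxusum using exists_unitGen (L := L) T
  let x₀ : TPlaces L T → LUnits L := Sum.elim xu xv
  let σ := tPlacesPerm (L := L) T g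
  let m := orderOf g
  let gen : TPlaces L T → LUnits L := cycleAverage σ g x₀ m
  have hgenT : ∀ y, gen y ∈ tUnits L (T : Set Nat.Primes) := fun y =>
    sum_mem fun i _ => smul_mem_tUnits _ _ (by
      rcases (σ⁻¹ ^ i) y with w | v
      · exact hxuT w
      · exact hxvT v)
  have hσinl : ∀ (i : ℕ) w, (σ⁻¹ ^ i) (Sum.inl w) = Sum.inl ((infPlacePerm g)⁻¹ ^ i |>.toFun w) := by
    intro i
    induction i with
    | zero => intro w; rfl
    | succ n ih =>
      intro w
      rw [pow_succ', Equiv.Perm.mul_apply, ih, pow_succ' (infPlacePerm g)⁻¹]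
      rfl
  have hσinr : ∀ (i : ℕ) (q : T) v, (σ⁻¹ ^ i) (Sum.inr ⟨q, v⟩) =
      Sum.inr ⟨q, ((placePerm g q.1)⁻¹ ^ i) v⟩ := by
    intro i
    induction i with
    | zero => intro q v; rfl
    | succ n ih =>
      intro q v
      rw [pow_succ', Equiv.Perm.mul_apply, ih, pow_succ' (placePerm g q.1)⁻¹]
      rfl
  have hinfpow : ∀ i : ℕ, (infPlacePerm g)⁻¹ ^ i = infPlacePerm ((g ^ i)⁻¹) := fun i => by
    have e : infPlacePerm (L := L) = ⇑(MulAction.toPermHom (L ≃ₐ[ℚ] L) (InfinitePlace L)) := rfl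
    rw [e, ← map_inv, ← map_pow, inv_pow]
  have hσm : σ ^ m = 1 := Equiv.ext fun y => by
    have hinv : σ⁻¹ ^ m = 1 := Equiv.ext fun y => by
      rcases y with w | ⟨q, v⟩
      · rw [hσinl, hinfpow, pow_orderOf_eq_one, inv_one]
        exact congrArg Sum.inl (one_smul _ w)
      · rw [hσinr, inv_pow, placePerm_pow_orderOf, inv_one]
        rfl
    rw [inv_pow, inv_eq_one] at hinv
    rw [hinv]
  have hgeng : ∀ y, g • gen y = gen (σ y) :=
    smul_cycleAverage σ g x₀ m (pow_orderOf_eq_one g) hσm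
  let Ψ₀ : (TPlaces L T → ℤ) →+ ↥(tUnits L (T : Set Nat.Primes)) × ℤ :=
    AddMonoidHom.mk' (fun c => (∑ y, c y • ⟨gen y, hgenT y⟩, ∑ y, c y)) fun c d => by
      simp [add_smul, Finset.sum_add_distrib]
  refine ⟨Ψ₀, (injective_iff_map_eq_zero Ψ₀).2 fun c hc => ?_, fun c => Prod.ext ?_ ?_⟩
  · have hc1 : ∑ y, c y • gen y = 0 := by
      have h := congrArg (fun z => (z.1 : LUnits L)) hc
      simpa [Ψ₀] using h
    have hc2 : ∑ y, c y = 0 := congrArg Prod.snd hc
    have hval : ∀ f : LUnits L →+ ℝ, ∑ y, (c y : ℝ) * f (gen y) = 0 := fun f => by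
      have h := congrArg f hc1
      simpa [map_sum, map_zsmul, zsmul_eq_mul] using h
    -- the coefficients over `T` vanish
    have hT : ∀ q v, c (Sum.inr ⟨q, v⟩) = 0 := fun q v => by
      induction v using Quotient.inductionOn with
      | h φ =>
        have h0 : ∀ y, y ≠ Sum.inr ⟨q, ⟦φ⟧⟩ → logNormHom φ (gen y) = 0 := fun y hy => by
          show logNormHom φ (∑ i ∈ Finset.range m, g ^ i • x₀ ((σ⁻¹ ^ i) y)) = 0
          rw [map_sum]
          refine Finset.sum_eq_zero fun i _ => ?_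
          show logNormHom (φ.preComp (g ^ i)) (x₀ ((σ⁻¹ ^ i) y)) = 0
          rcases y with w | ⟨r, u⟩
          · rw [hσinl]
            show Real.log ‖(φ.preComp (g ^ i)) (xu _).val‖ = 0
            rw [hxu1, Real.log_one]
          · rw [hσinr]
            refine (hxv _ _ (φ.preComp (g ^ i))).2 fun hp => hy ?_
            induction u using Quotient.inductionOn with
            | h ψ =>
              rw [placePerm_inv_pow_mk, placePrime_mk] at hp
              obtain rfl : r = q := Subtype.ext (Emb.primeNumber_eq _ _ hp)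
              have h1 := (placePrime_eq_iff (φ.preComp (g ^ i)) ⟦ψ.preComp (g ^ i)⟧).1 hp
              rw [← placePerm_inv_pow_mk, ← placePerm_inv_pow_mk] at h1
              exact congrArg (fun u => (Sum.inr ⟨r, u⟩ : TPlaces L T)) (((placePerm g r.1)⁻¹ ^ i).injective h1).symm
        have hpos : 0 < logNormHom φ (gen (Sum.inr ⟨q, ⟦φ⟧⟩)) := by
          show 0 < logNormHom φ (∑ i ∈ Finset.range m, g ^ i • x₀ ((σ⁻¹ ^ i) _))
          rw [map_sum]
          refine Finset.sum_pos (fun i _ => ?_) ⟨0, Finset.mem_range.2 (orderOf_pos g)⟩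
          show 0 < logNormHom (φ.preComp (g ^ i)) (x₀ ((σ⁻¹ ^ i) _))
          rw [hσinr, placePerm_inv_pow_mk]
          exact (hxv _ _ _).1 rfl
        have h := hval (logNormHom φ)
        rw [Finset.sum_eq_single (Sum.inr ⟨q, ⟦φ⟧⟩) (fun y _ hy => by rw [h0 y hy, mul_zero])
          (fun h => absurd (Finset.mem_univ _) h), mul_eq_zero] at h
        exact Int.cast_eq_zero.1 (h.resolve_right hpos.ne')
    -- the coefficients at infinity vanish
    have hinf : (fun w => (c (Sum.inl w) : ℝ)) = 0 := by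
      refine eq_zero_of_colSum_zero
        (fun w' w => (w'.mult : ℝ) * logPlaceHom w' (gen (Sum.inl w))) (fun w' w hne => ?_)
        (fun w => ?_) _ ?_ fun w' => ?_
      · refine mul_neg_of_pos_of_neg (by exact_mod_cast InfinitePlace.mult_pos) ?_
        show logPlaceHom w' (∑ i ∈ Finset.range m, g ^ i • x₀ ((σ⁻¹ ^ i) _)) < 0
        rw [map_sum]
        refine Finset.sum_neg (fun i _ => ?_) ⟨0, Finset.mem_range.2 (orderOf_pos g)⟩
        rw [hσinl, hinfpow]
        show logPlaceHom ((g ^ i)⁻¹ • w') (xu ((g ^ i)⁻¹ • w)) < 0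
        exact hxuneg _ _ fun e => hne (smul_left_cancel _ e)
      · simp only [gen, cycleAverage, map_sum, Finset.mul_sum]
        rw [Finset.sum_comm]
        refine Finset.sum_eq_zero fun i _ => ?_
        rw [hσinl, hinfpow]
        refine (Fintype.sum_equiv (MulAction.toPerm ((g ^ i)⁻¹)) _
          (fun u => ((u : InfinitePlace L).mult : ℝ) * logPlaceHom u (xu ((g ^ i)⁻¹ • w)))
          fun u => ?_).trans (hxusum _)
        show (u.mult : ℝ) * logPlaceHom ((g ^ i)⁻¹ • u) (xu ((g ^ i)⁻¹ • w)) =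
          (((g ^ i)⁻¹ • u).mult : ℝ) * _
        rw [InfinitePlace.mult, InfinitePlace.mult]
        simp [InfinitePlace.isReal_smul_iff]
      · have h := congrArg (Int.cast : ℤ → ℝ) hc2
        rw [Fintype.sum_sum_type] at h
        simpa [hT, Int.cast_sum] using h
      · have h := hval (logPlaceHom w')
        rw [Fintype.sum_sum_type] at h
        simp only [hT, Int.cast_zero, zero_mul, Finset.sum_const_zero, add_zero] at h
        calc _ = (w'.mult : ℝ) * ∑ w, (c (Sum.inl w) : ℝ) * logPlaceHom w' (gen (Sum.inl w)) := by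
              rw [Finset.mul_sum]; exact Finset.sum_congr rfl fun w _ => by ring
          _ = 0 := by rw [h, mul_zero]
    funext y
    rcases y with w | ⟨q, v⟩
    · exact Int.cast_eq_zero.1 (congrFun hinf w)
    · exact hT q v
  · apply Subtype.ext
    show (tUnits L (T : Set Nat.Primes)).subtype
        (∑ y, permHom σ c y • (⟨gen y, hgenT y⟩ : ↥(tUnits L (T : Set Nat.Primes)))) =
      g • (tUnits L (T : Set Nat.Primes)).subtype
        (∑ y, c y • (⟨gen y, hgenT y⟩ : ↥(tUnits L (T : Set Nat.Primes))))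
    simp only [map_sum, map_zsmul, AddSubgroup.subtype_apply, Finset.smul_sum]
    refine (Fintype.sum_equiv σ _ _ fun y => ?_).symm
    rw [permHom_apply, Equiv.symm_apply_apply, smul_comm, hgeng]
  · show ∑ y, permHom σ c y = ∑ y, c y
    exact (Fintype.sum_equiv σ _ _ fun y => by rw [permHom_apply, Equiv.symm_apply_apply]).symm

theorem tUnits_bot_eq (T : Set Nat.Primes) :
    tUnits L T ⊓ fixedPts (⊥ : Subgroup (L ≃ₐ[ℚ] L)) (LUnits L) = tUnits L T :=
  inf_eq_left.2 fun x _ => (mem_fixedPts_subgroup_iff _ _).2 fun h hh => by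
    rw [Subgroup.mem_bot.1 hh, one_smul]

theorem card_infPlacesAbove_bot :
    Nat.card (InfPlacesAbove (⊥ : Subgroup (L ≃ₐ[ℚ] L))) = Nat.card (InfinitePlace L) := by
  refine (Nat.card_congr (Equiv.ofBijective
    (Quotient.mk'' : InfinitePlace L → InfPlacesAbove (⊥ : Subgroup (L ≃ₐ[ℚ] L)))
    ⟨fun x y h => ?_, Quotient.mk''_surjective⟩)).symm
  obtain ⟨⟨k, hk⟩, hky⟩ := Quotient.eq''.1 h
  rw [← hky]
  show k • y = y
  rw [Subgroup.mem_bot.1 hk, one_smul]

variable {p : ℕ} [Fact p.Prime]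

theorem eulerRatio_intId : EulerRatio p (AddMonoidHom.id ℤ) (X - 1) 1 := by
  have h := (eulerRatio_permHom (p := p) (shiftPerm 1)).congr
    (e := { Equiv.funUnique (ZMod 1) ℤ with map_add' := fun _ _ => rfl })
    (f' := AddMonoidHom.id ℤ) fun c => congrArg c (Subsingleton.elim _ _)
  rwa [permPoly_shift, pow_one] at h

theorem eulerRatio_tUnits (g : L ≃ₐ[ℚ] L) (T : Finset Nat.Primes) :
    EulerRatio p (tUnitsEnd (T : Set Nat.Primes) g)
      (permPoly (infPlacePerm g) 1 * ∏ q ∈ T, permPoly (placePerm g q) 1) (X - 1) := by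
  classical
  obtain ⟨Ψ, hinj, hΨ⟩ := exists_placesLattice T g
  let E := ↥(tUnits L (T : Set Nat.Primes))
  have hrank : Module.finrank ℤ E + 1 = Nat.card (TPlaces L T) := by
    have h := tUnits_fixed_rank (⊥ : Subgroup (L ≃ₐ[ℚ] L)) T
    rw [tUnits_bot_eq, card_infPlacesAbove_bot, ← Finset.sum_coe_sort T] at h
    rw [h, Nat.card_sum, Nat.card_sigma]
  have hfg := tUnits_fixed_fg (⊥ : Subgroup (L ≃ₐ[ℚ] L)) T
  rw [tUnits_bot_eq] at hfg
  haveI : Module.Finite ℤ E :=
    Module.Finite.iff_addGroup_fg.2 ((AddGroup.fg_iff_addSubgroup_fg _).2 hfg)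
  let N : Submodule ℤ (E × ℤ) := LinearMap.range Ψ.toIntLinearMap
  have hN : Module.finrank ℤ N = Nat.card (TPlaces L T) := by
    rw [LinearMap.finrank_range_of_inj (show Function.Injective Ψ.toIntLinearMap from hinj),
      Module.finrank_pi, ← Nat.card_eq_fintype_card]
  have hquot : Module.finrank ℤ ((E × ℤ) ⧸ N) = 0 := by
    have hprod : Module.finrank ℤ (E × ℤ) = Module.finrank ℤ E + 1 := by
      have h := Submodule.finrank_quotient_add_finrank
        (LinearMap.ker (LinearMap.snd ℤ E ℤ))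
      rw [(LinearMap.snd ℤ E ℤ).quotKerEquivRange.finrank_eq,
        LinearMap.range_eq_top.2 (LinearMap.snd_surjective), finrank_top, Module.finrank_self] at h
      rw [← h, LinearMap.ker_snd, LinearMap.finrank_range_of_inj (LinearMap.inl_injective), add_comm]
    have := Submodule.finrank_quotient_add_finrank N
    omega
  haveI : Finite ((E × ℤ) ⧸ N) :=
    Module.finite_of_fg_torsion _ (Module.finrank_eq_zero_iff_isTorsion.1 hquot)
  haveI : Finite ((E × ℤ) ⧸ Ψ.range) := Finite.of_surjective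
    (fun x => Quotient.liftOn' x (fun y => (QuotientAddGroup.mk y : (E × ℤ) ⧸ Ψ.range))
      fun a b h => QuotientAddGroup.eq.2 (by
        rw [Submodule.quotientRel_def] at h
        obtain ⟨c, hc⟩ := h
        exact ⟨-c, by rw [map_neg, show Ψ c = a - b from hc]; abel⟩) : (E × ℤ) ⧸ N → _)
    fun x => QuotientAddGroup.induction_on x fun y => ⟨Submodule.Quotient.mk y, rfl⟩
  have hY : permPoly (tPlacesPerm T g) (1 : ZMod p) =
      permPoly (infPlacePerm g) 1 * ∏ q ∈ T, permPoly (placePerm g q) 1 := by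
    rw [tPlacesPerm, permPoly_sum, permPoly_sigma, ← Finset.prod_coe_sort T]
  have h : EulerRatio p ((tUnitsEnd (T : Set Nat.Primes) g).prodMap (AddMonoidHom.id ℤ))
      (permPoly (tPlacesPerm T g) (1 : ZMod p)) 1 :=
    (EulerRatio.of_finite_coker Ψ hinj hΨ).1 (eulerRatio_permHom _)
  have h' := EulerRatio.ses_left (AddMonoidHom.inl E ℤ) (AddMonoidHom.snd E ℤ)
    (fun _ _ h => congrArg Prod.fst h) (fun b => ⟨(0, b), rfl⟩)
    (fun x => ⟨fun h => ⟨x.1, Prod.ext rfl h.symm⟩, fun ⟨_, h⟩ => h ▸ rfl⟩)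
    (fA := tUnitsEnd (T : Set Nat.Primes) g) h (eulerRatio_intId (p := p))
    (fun _ => by simp) fun _ => rfl
  rwa [mul_one, one_mul, hY] at h'

end FermatLib.CFT
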