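import Fermat.Agent.CFT.GWEvalPrime
import Fermat.Agent.CFT.GWEvalTUnits

/-!
Evaluation of the local and global classes of the Euler characteristic. Here `ζ` is a primitive
`p`-th root of unity in `L` and `g ζ = ζ ^ a`. The finite primes are in
`Fermat.Agent.CFT.GWEvalPrime`.
-/

set_option autoImplicit false

open NumberField Polynomial

namespace FermatLib.CFT

variable {p : ℕ} [Fact p.Prime] {L : Type} [Field L] [NumberField L] [IsGalois ℚ L]
  {g : L ≃ₐ[ℚ] L} (hg : (orderOf g).Coprime p) {ζ : L} (hζ : IsPrimitiveRoot ζ p)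
  {a : ZMod p} (ha : g ζ = ζ ^ a.val)

include hg hζ ha

theorem tUnits_eulerRatio (T : Finset Nat.Primes) :
    EulerRatio p (tUnitsEnd (T : Set Nat.Primes) g)
      (permPoly (infPlacePerm g) 1 * ∏ q ∈ T, permPoly (placePerm g q) 1) (X - 1) :=
  eulerRatio_tUnits g T

variable [IsTotallyComplex L]

theorem infIdeles_eulerRatio :
    EulerRatio p (DistribSMul.toAddMonoidHom (infIdeles L) g) 1
      (permPoly (infPlacePerm g) a) :=
  eulerRatio_infIdeles hζ ha

/-- `perm ⊗ (1 + ω)` at infinity is regular. -/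
theorem infPlacePerm_regular :
    permPoly (infPlacePerm g) 1 * permPoly (infPlacePerm g) a =
      (X ^ orderOf g - 1) ^ (Module.finrank ℚ L / orderOf g) :=
  permPoly_infPlace_regular hζ ha

end FermatLib.CFT
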