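import Fermat.Agent.CFT.GWEulerInterface
import Fermat.Agent.CFT.GWEval

/-!
The class of idele classes modulo units outside a large set of primes.
-/

set_option autoImplicit false

open NumberField Polynomial

namespace FermatLib.CFT

variable {p : ℕ} [Fact p.Prime] {L : Type} [Field L] [NumberField L] [IsGalois ℚ L]
  {ζ : L} (hζ : IsPrimitiveRoot ζ p)

include hζ in
theorem isTotallyComplex_of_primitiveRoot (hp : p ≠ 2) : IsTotallyComplex L := by
  refine ⟨fun v => InfinitePlace.not_isReal_iff_isComplex.1 fun hv => hp ?_⟩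
  have h := ComplexEmbedding.isReal_iff.1 (InfinitePlace.isReal_iff.1 hv)
  have h1 : (v.embedding ζ) ^ p = 1 := by rw [← map_pow, hζ.pow_eq_one, map_one]
  have h2 : starRingEnd ℂ (v.embedding ζ) = v.embedding ζ := RingHom.congr_fun h ζ
  obtain ⟨r, hr⟩ := Complex.conj_eq_iff_real.1 h2
  rw [hr] at h1
  have h3 : r ^ p = 1 := by exact_mod_cast h1
  rcases (Fact.out : p.Prime).eq_two_or_odd' with h | h
  · exact h
  · exfalso
    have : r = 1 := by
      rw [← one_pow p] at h3
      exact h.strictMono_pow.injective h3
    refine hζ.ne_one (Fact.out : p.Prime).one_lt (v.embedding.injective ?_)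
    rw [hr, this, Complex.ofReal_one, map_one]

section exact

variable {A B C : Type*} [AddCommGroup A] [AddCommGroup B] [AddCommGroup C] (i : A →+ B)
  (π : B →+ C) (hi : Function.Injective i) (hπ : Function.Surjective π)
  (hexact : ∀ b, π b = 0 ↔ ∃ a, i a = b)

include hi hπ hexact in
/-- Multiplicativity in short exact sequences: the right term. -/
theorem EulerRatio.ses_right {fA : A →+ A} {fB : B →+ B} {fC : C →+ C} {P Q P' Q' : (ZMod p)[X]}
    (hA : EulerRatio p fA P Q) (hB : EulerRatio p fB P' Q')
    (hcA : ∀ a, i (fA a) = fB (i a)) (hcB : ∀ b, π (fB b) = fC (π b)) :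
    EulerRatio p fC (P' * Q) (Q' * P) := by
  have := hA.finite_quot; have := hA.finite_tor
  have := hB.finite_quot; have := hB.finite_tor
  have : Finite (modP p C) :=
    Finite.of_surjective _ (modPMap_surjective (p := p) π hπ)
  have : Finite (torP p C) := by
    refine finite_of_ker_range (connecting i π hi hπ hexact) ?_ inferInstance
    rw [ker_connecting i π hi hπ hexact]
    exact Finite.of_surjective _ (LinearMap.surjective_rangeRestrict (torPMap π))
  refine ⟨inferInstance, inferInstance, ?_⟩
  have h := six_term_poly (p := p) i π hi hπ hexact fA fB fC hcA hcB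
  refine mul_right_cancel₀ (mul_ne_zero (endPoly_ne_zero (torPEnd p fB))
    (endPoly_ne_zero (modPEnd p fA))) ?_
  linear_combination (-(Q' * P)) * h + endPoly (torPEnd p fA) * endPoly (torPEnd p fC) * P * hB.eq -
    endPoly (torPEnd p fC) * endPoly (torPEnd p fB) * P' * hA.eq

end exact

section idelesOver

variable (L) in
/-- Ideles which are trivial outside `T` and infinity. -/
def idelesOver (T : Set Nat.Primes) : AddSubgroup (Idele L) where
  carrier := {f | ∀ q ∉ T, ∀ φ : Emb L q, f.1.1 q φ = 0}
  zero_mem' := fun q _ φ => rfl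
  add_mem' := fun {a b} ha hb q hq φ => by simp [ha q hq φ, hb q hq φ]
  neg_mem' := fun {a} ha q hq φ => by simp [ha q hq φ]

/-- The action of `g` on ideles trivial outside `T`. -/
noncomputable def idelesOverEnd (T : Set Nat.Primes) (g : L ≃ₐ[ℚ] L) :
    idelesOver L T →+ idelesOver L T :=
  ((DistribSMul.toAddMonoidHom (Idele L) g).comp (idelesOver L T).subtype).codRestrict _
    fun f q hq φ => f.2 q hq (φ.preComp g)

theorem restrictTo_apply_of_mem {T : Set Nat.Primes} (f : Idele L) {q : Nat.Primes} (hq : q ∈ T)
    (φ : Emb L q) : (restrictTo L T f).fin q φ = f.fin q φ := by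
  classical
  exact if_pos hq

theorem restrictTo_apply_of_not_mem {T : Set Nat.Primes} (f : Idele L) {q : Nat.Primes}
    (hq : q ∉ T) (φ : Emb L q) : (restrictTo L T f).fin q φ = 0 := by
  classical
  exact if_neg hq

theorem restrictTo_inf (T : Set Nat.Primes) (f : Idele L) (φ : L →+* ℂ) :
    (restrictTo L T f).inf φ = f.inf φ := by
  simp [restrictTo]

variable {g : L ≃ₐ[ℚ] L} (hg : (orderOf g).Coprime p) {a : ZMod p} (ha : g ζ = ζ ^ a.val)

include hζ hg ha in
theorem idelesOver_eulerRatio [IsTotallyComplex L] (T : Finset Nat.Primes) :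
    EulerRatio p (idelesOverEnd (L := L) (T : Set Nat.Primes) g)
      (∏ q ∈ T, permPoly (placePerm g q) 1 *
        (if p = (q : ℕ) then (X ^ orderOf g - 1) ^ (Module.finrank ℚ L / orderOf g) else 1))
      (permPoly (infPlacePerm g) a) := by
  classical
  induction T using Finset.induction_on with
  | empty =>
    let e : infIdeles L ≃+ idelesOver L ((∅ : Finset Nat.Primes) : Set Nat.Primes) :=
      AddEquiv.addSubgroupCongr (by
        ext f
        exact ⟨fun h q _ φ => h q φ, fun h q φ => h q (by simp) φ⟩)
    rw [Finset.prod_empty]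
    exact (infIdeles_eulerRatio hg hζ ha).congr e fun f => rfl
  | insert q T hq ih =>
    let S : Set Nat.Primes := ((insert q T : Finset Nat.Primes) : Set Nat.Primes)
    let i : primeIdeles L q →+ idelesOver L S :=
      (primeIdeles L q).subtype.codRestrict _ fun f r hr φ => f.2.1 r (fun h => hr (by simp [S, h])) φ
    let π : idelesOver L S →+ idelesOver L (T : Set Nat.Primes) :=
      ((restrictTo L (T : Set Nat.Primes)).comp (idelesOver L S).subtype).codRestrict _
        fun f r hr φ => restrictTo_apply_of_not_mem _ hr φ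
    have hsub : ∀ r, r ∈ (T : Set Nat.Primes) → r ∈ S := fun r hr => by
      simp only [S, Finset.coe_insert]; exact Set.mem_insert_of_mem _ hr
    have hπ : Function.Surjective π := fun f =>
      ⟨⟨f.1, fun r hr φ => f.2 r (fun h => hr (hsub r h)) φ⟩, Subtype.ext (idele_ext
        (fun r φ => by
          by_cases hr : r ∈ (T : Set Nat.Primes)
          · exact congrArg QUnits.toField (restrictTo_apply_of_mem _ hr φ)
          · exact congrArg QUnits.toField
              ((restrictTo_apply_of_not_mem _ hr φ).trans (f.2 r hr φ).symm))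
        fun φ => congrArg CUnits.toField (restrictTo_inf _ _ φ))⟩
    have hexact : ∀ f, π f = 0 ↔ ∃ x, i x = f := fun f => by
      constructor
      · intro h
        have h' : restrictTo L (T : Set Nat.Primes) f.1 = 0 := congrArg Subtype.val h
        refine ⟨⟨f.1, fun r hr φ => ?_, funext fun φ => ?_⟩, rfl⟩
        · by_cases hrT : r ∈ (T : Set Nat.Primes)
          · have := restrictTo_apply_of_mem f.1 hrT φ
            rw [h'] at this
            exact this.symm
          · exact f.2 r (by simp [S, hr] at hrT ⊢; exact hrT) φ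
        · have := restrictTo_inf (T : Set Nat.Primes) f.1 φ
          rw [h'] at this
          exact this.symm
      · rintro ⟨x, rfl⟩
        refine Subtype.ext (idele_ext (fun r φ => ?_) fun φ => ?_)
        · show QUnits.toField ((restrictTo L (T : Set Nat.Primes) x.1).fin r φ) = QUnits.toField 0
          by_cases hr : r ∈ (T : Set Nat.Primes)
          · rw [restrictTo_apply_of_mem _ hr,
              show x.1.fin r φ = 0 from x.2.1 r (fun h => hq (h ▸ hr)) φ]
          · rw [restrictTo_apply_of_not_mem _ hr]
        · show CUnits.toField ((restrictTo L (T : Set Nat.Primes) x.1).inf φ) = CUnits.toField 0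
          rw [restrictTo_inf, show x.1.inf φ = 0 from congrFun x.2.2 φ]
    have h := EulerRatio.ses i π (fun x y h => Subtype.ext (congrArg Subtype.val h :)) hπ hexact
      (fB := idelesOverEnd S g) (fC := idelesOverEnd (T : Set Nat.Primes) g) (primeIdeles_eulerRatio hg hζ ha q) ih (fun x => rfl)
      fun f => Subtype.ext (restrictTo_smul _ g f.1)
    rw [Finset.prod_insert hq, ← one_mul (permPoly (infPlacePerm g) a)]
    exact h

end idelesOver

include hζ in
/-- For a large set `T` the classes modulo units outside `T` count as `1 + μ`-stripped free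
module: ratio `(X - 1) / 1`. -/
theorem classModUnits_eulerRatio [IsTotallyComplex L] :
    ∃ T₀ : Finset Nat.Primes, ∀ T : Finset Nat.Primes, T₀ ⊆ T → ⟨p, Fact.out⟩ ∈ T →
      ∀ g : L ≃ₐ[ℚ] L, (orderOf g).Coprime p →
        EulerRatio p (DistribSMul.toAddMonoidHom (ClassModUnits L (T : Set Nat.Primes)) g)
          (X - 1) 1 := by
  classical
  obtain ⟨T₀, hT₀⟩ := exists_primes_generate_field L
  refine ⟨T₀, fun T hT hpT g hg => ?_⟩
  obtain ⟨a, ha⟩ : ∃ a : ZMod p, g ζ = ζ ^ a.val := by
    haveI : NeZero p := ⟨(Fact.out : p.Prime).ne_zero⟩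
    obtain ⟨i, hi, e⟩ := hζ.eq_pow_of_pow_eq_one (ξ := g ζ)
      (by rw [← map_pow, hζ.pow_eq_one, map_one])
    exact ⟨i, by rw [ZMod.val_natCast_of_lt hi, e]⟩
  let S : Set Nat.Primes := (T : Set Nat.Primes)
  let i : tUnits L S →+ idelesOver L S :=
    ((restrictTo L S).comp ((principalIdele L).comp (tUnits L S).subtype)).codRestrict _
      fun x q hq φ => restrictTo_apply_of_not_mem _ hq φ
  let π : idelesOver L S →+ ClassModUnits L S :=
    (QuotientAddGroup.mk' _).comp ((QuotientAddGroup.mk' (principalIdeles L)).comp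
      (idelesOver L S).subtype)
  have hi : Function.Injective i := fun x y h => by
    apply Subtype.ext
    apply LUnits.ext_val
    let φ : L →+* ℂ := Classical.arbitrary _
    apply φ.injective
    have h' := congrArg (fun f : idelesOver L S => CUnits.toField (f.1.inf φ)) h
    have key : ∀ z : tUnits L S, CUnits.toField ((i z).1.inf φ) = φ (z.1.val : L) := fun z =>
      congrArg CUnits.toField (restrictTo_inf S _ φ)
    simpa [key] using h'
  have hmk : ∀ f : Idele L, (QuotientAddGroup.mk (QuotientAddGroup.mk f : IdeleClass L) :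
      ClassModUnits L S) = 0 ↔ ∃ x : LUnits L, f - principalIdele L x ∈ unitIdelesOutside L S := by
    intro f
    rw [QuotientAddGroup.eq_zero_iff]
    constructor
    · rintro ⟨u, hu, huf⟩
      have h2 : -u + f ∈ principalIdeles L := QuotientAddGroup.eq.1 huf
      rw [principalIdeles_eq_range] at h2
      obtain ⟨x, hx⟩ := h2
      exact ⟨x, by rwa [hx, neg_add_eq_sub, sub_sub_cancel]⟩
    · rintro ⟨x, hx⟩
      refine ⟨_, hx, QuotientAddGroup.eq.2 ?_⟩
      rw [neg_sub, sub_add_cancel, principalIdeles_eq_range]
      exact ⟨x, rfl⟩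
  have hπ : Function.Surjective π := by
    intro c
    induction c using QuotientAddGroup.induction_on with
    | H c =>
      induction c using QuotientAddGroup.induction_on with
      | H f =>
        obtain ⟨x, hx⟩ := hT₀ S (fun r hr => hT hr) f
        refine ⟨⟨restrictTo L S (f - principalIdele L x),
          fun q hq φ => restrictTo_apply_of_not_mem _ hq φ⟩, ?_⟩
        apply (sub_eq_zero).1
        show (QuotientAddGroup.mk (QuotientAddGroup.mk (restrictTo L S (f - principalIdele L x) - f) :
          IdeleClass L) : ClassModUnits L S) = 0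
        refine (hmk _).2 ⟨-x, ?_⟩
        have h := neg_mem (sub_restrictTo_mem S hx)
        rw [map_neg]
        convert h using 1
        abel
  have hexact : ∀ f, π f = 0 ↔ ∃ x, i x = f := fun f => by
    rw [show π f = (QuotientAddGroup.mk (QuotientAddGroup.mk f.1 : IdeleClass L) :
      ClassModUnits L S) from rfl, hmk]
    constructor
    · rintro ⟨x, hx⟩
      have hxT : x ∈ tUnits L S := (mem_tUnits_iff _ _).2 fun q hq φ => by
        have h := (hx.1 q φ).1
        rw [QUnits.mem_unitGroup_iff] at h
        rw [show (f.1 - principalIdele L x).1.1 q φ = f.1.fin q φ - principalFamily L x q φ from rfl,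
          show f.1.fin q φ = 0 from f.2 q hq φ, zero_sub, QUnits.toField_neg, norm_inv,
          toField_principalFamily, inv_eq_one] at h
        exact h
      refine ⟨⟨x, hxT⟩, Subtype.ext (idele_ext (fun q φ => ?_) fun φ => ?_)⟩
      · by_cases hq : q ∈ S
        · refine congrArg QUnits.toField ((restrictTo_apply_of_mem _ hq φ).trans ?_)
          have h : f.1.fin q φ - (principalIdele L x).fin q φ = 0 := (hx.1 q φ).2 hq
          exact (sub_eq_zero.1 h).symm
        · exact congrArg QUnits.toField
            ((restrictTo_apply_of_not_mem _ hq φ).trans (f.2 q hq φ).symm)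
      · refine congrArg CUnits.toField ((restrictTo_inf _ _ φ).trans ?_)
        have h : f.1.inf φ - (principalIdele L x).inf φ = 0 := congrFun hx.2 φ
        exact (sub_eq_zero.1 h).symm
    · rintro ⟨x, rfl⟩
      refine ⟨x.1, ?_⟩
      have hmem : principalIdele L x.1 ∈ sIdeles L S := x.2
      have h := neg_mem (sub_restrictTo_mem S hmem)
      rwa [neg_sub] at h
  have hc : ∀ x, i (tUnitsEnd S g x) = idelesOverEnd S g (i x) := fun x => Subtype.ext (by
    show restrictTo L S (principalIdele L (g • x.1)) = g • restrictTo L S (principalIdele L x.1)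
    rw [principalIdele_smul, restrictTo_smul])
  have h := EulerRatio.ses_right i π hi hπ hexact (fA := tUnitsEnd S g)
    (fC := DistribSMul.toAddMonoidHom (ClassModUnits L S) g)
    (tUnits_eulerRatio hg hζ ha T) (idelesOver_eulerRatio hζ hg ha T) hc fun f => rfl
  refine ⟨h.finite_quot, h.finite_tor, ?_⟩
  have hne : (∏ q ∈ T, permPoly (placePerm g q) (1 : ZMod p)) *
      (X ^ orderOf g - 1) ^ (Module.finrank ℚ L / orderOf g) ≠ 0 := by
    refine mul_ne_zero (Finset.prod_ne_zero_iff.2 fun q _ => ?_) (pow_ne_zero _ ?_)
    · exact (LinearMap.charpoly_monic _).ne_zero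
    · exact (monic_X_pow_sub_C (1 : ZMod p) (orderOf_pos g).ne').ne_zero
  refine mul_right_cancel₀ hne ?_
  have hsplit : ∏ q ∈ T, permPoly (placePerm g q) (1 : ZMod p) *
      (if p = (q : ℕ) then (X ^ orderOf g - 1) ^ (Module.finrank ℚ L / orderOf g) else 1) =
      (∏ q ∈ T, permPoly (placePerm g q) (1 : ZMod p)) *
        (X ^ orderOf g - 1) ^ (Module.finrank ℚ L / orderOf g) := by
    rw [Finset.prod_mul_distrib, Finset.prod_eq_single (⟨p, Fact.out⟩ : Nat.Primes)
      (f := fun q : Nat.Primes => if p = (q : ℕ) then
        (X ^ orderOf g - 1 : (ZMod p)[X]) ^ (Module.finrank ℚ L / orderOf g) else 1)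
      (fun q _ hne => if_neg fun hp => hne (Subtype.ext hp.symm))
      (fun hn => absurd hpT hn), if_pos rfl]
  have he := h.eq
  rw [hsplit] at he
  rw [mul_one]
  linear_combination he - (∏ q ∈ T, permPoly (placePerm g q) (1 : ZMod p)) *
    endPoly (modPEnd p (DistribSMul.toAddMonoidHom (ClassModUnits L S) g)) *
    (infPlacePerm_regular hg hζ ha)

end FermatLib.CFT
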