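import Fermat.Agent.CFT.GWEulerInterface

/-!
Counting in the exact sequence of `H⁰` and unramified outside `T` classes in `H¹` for modules split
by the level.
-/

set_option autoImplicit false

open CategoryTheory Module groupCohomology ExtCitation

namespace FermatLib.CFT

local notation "Γℚ" => AlgebraicClosure ℚ ≃ₐ[ℚ] AlgebraicClosure ℚ

variable {p : ℕ} [Fact p.Prime] {M : Rep (ZMod p) Γℚ} {T : Finset Nat.Primes}
  (D : GWKummer.Level M T)

variable {U V : Type} [AddCommGroup U] [Module (ZMod p) U] [AddCommGroup V] [Module (ZMod p) V]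
  {ρ : Representation (ZMod p) D.Gal U} {σ : Representation (ZMod p) D.Gal V}

theorem h1Map_id_H1π {A B : Rep (ZMod p) Γℚ} (φ : A ⟶ B) (c : cocycles₁ A) :
    ∃ c' : cocycles₁ B, (∀ s, c' s = φ.hom (c s)) ∧
      (groupCohomology.map (MonoidHom.id Γℚ) φ 1).hom ((H1π A).hom c) = (H1π B).hom c' :=
  ⟨mapCocycles₁ (MonoidHom.id Γℚ) φ c, fun s => rfl,
    H1π_comp_map_apply (MonoidHom.id Γℚ) φ c⟩

theorem inflH1Map_H1π (f : U →ₗ[ZMod p] V) (hf : ∀ g x, f (ρ g x) = σ g (f x))
    (c : cocycles₁ (inflRep D ρ)) :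
    ∃ c' : cocycles₁ (inflRep D σ), (∀ s, c' s = f (c s)) ∧
      inflH1Map D f hf ((H1π (inflRep D ρ)).hom c) = (H1π (inflRep D σ)).hom c' := by
  let φ : inflRep D ρ ⟶ inflRep D σ :=
    Rep.ofHom (f.intertwiningMap_of_isIntertwiningMap (ρ.comp D.res) (σ.comp D.res)
      fun s x => hf (D.res s) x)
  obtain ⟨c', h1, h2⟩ := h1Map_id_H1π φ c
  exact ⟨c', h1, h2⟩

theorem inflH1Map_mem (f : U →ₗ[ZMod p] V) (hf : ∀ g x, f (ρ g x) = σ g (f x))
    {x : H1 (inflRep D ρ)} (hx : x ∈ continuousH1S T (inflRep D ρ)) :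
    inflH1Map D f hf x ∈ continuousH1S T (inflRep D σ) := by
  obtain ⟨c, hc, rfl⟩ := (mem_continuousH1S_iff _ _ _).1 hx
  obtain ⟨c', hc', e⟩ := inflH1Map_H1π D f hf c
  refine (mem_continuousH1S_iff _ _ _).2 ⟨c', ?_, e.symm⟩
  rw [show (c' : Γℚ → V) = f ∘ (c : Γℚ → U) from funext hc']
  exact hc.comp f

/-- Cochains inflated from the level are constant on it. -/
theorem isLevelConstantS₁_comp_res {X : Type*} (f : D.Gal → X) :
    IsLevelConstantS₁ T (fun s : Γℚ => f (D.res s)) :=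
  ⟨D.field, D.unramified, fun g s hs => by
    show f (D.res (g * s)) = f (D.res g)
    rw [map_mul, (D.res_eq_one_iff s).2 hs, mul_one]⟩

theorem exists_of_H1π_eq_zero {c : cocycles₁ (inflRep D ρ)}
    (h : (H1π (inflRep D ρ)).hom c = 0) : ∃ a : U, ∀ s, c s = ρ (D.res s) a - a := by
  obtain ⟨a, ha⟩ := (H1π_eq_zero_iff c).1 h
  exact ⟨a, fun s => (congrFun ha s).symm⟩

theorem H1π_eq_zero_of_eq {c : cocycles₁ (inflRep D ρ)} (a : U)
    (h : ∀ s, c s = ρ (D.res s) a - a) : (H1π (inflRep D ρ)).hom c = 0 :=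
  (H1π_eq_zero_iff c).2 ⟨a, funext fun s => (h s).symm⟩

theorem inflRep_invariants_eq : (inflRep D ρ).ρ.invariants = ρ.invariants := by
  ext x
  constructor
  · intro hx g
    obtain ⟨s, rfl⟩ := D.res_surjective g
    exact hx s
  · exact fun hx s => hx (D.res s)

variable {W : Type} [AddCommGroup W] [Module (ZMod p) W] {τ : Representation (ZMod p) D.Gal W}
  (i : U →ₗ[ZMod p] V) (π : V →ₗ[ZMod p] W) (hie : ∀ g x, i (ρ g x) = σ g (i x))
  (hπe : ∀ g x, π (σ g x) = τ g (π x)) (hi : Function.Injective i)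
  (hπ : Function.Surjective π) (hex : LinearMap.range i = LinearMap.ker π)

include hπe hi hπ hex in
/-- The connecting map, with its kernel. -/
theorem exists_h0Conn :
    ∃ δ : τ.invariants →ₗ[ZMod p] H1 (inflRep D ρ),
      (∀ b, δ b ∈ continuousH1S T (inflRep D ρ)) ∧ (∀ b, inflH1Map D i hie (δ b) = 0) ∧
      (∀ b : τ.invariants, δ b = 0 ↔ ∃ x ∈ σ.invariants, π x = (b : W)) ∧
      ∀ x, inflH1Map D i hie x = 0 → ∃ b, δ b = x := by
  obtain ⟨sec, hsec⟩ := π.exists_rightInverse_of_surjective (LinearMap.range_eq_top.2 hπ)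
  obtain ⟨ret, hret⟩ := i.exists_leftInverse_of_injective (LinearMap.ker_eq_bot.2 hi)
  have hsec' : ∀ b, π (sec b) = b := fun b => LinearMap.congr_fun hsec b
  have hret' : ∀ a, ret (i a) = a := fun a => LinearMap.congr_fun hret a
  have hir : ∀ y, π y = 0 → i (ret y) = y := fun y hy => by
    obtain ⟨a, rfl⟩ := (hex ▸ LinearMap.mem_ker.2 hy : y ∈ LinearMap.range i)
    rw [hret']
  let c : τ.invariants →ₗ[ZMod p] (Γℚ → U) :=
    LinearMap.pi fun s => ret ∘ₗ (σ (D.res s) - LinearMap.id) ∘ₗ sec ∘ₗ τ.invariants.subtype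
  have hic : ∀ b s, i (c b s) = σ (D.res s) (sec b) - sec b := fun b s => by
    refine hir (σ (D.res s) (sec b) - sec b) ?_
    rw [map_sub, hπe, hsec', b.2 (D.res s), sub_self]
  have hcoc : ∀ b, c b ∈ cocycles₁ (inflRep D ρ) := fun b => (mem_cocycles₁_iff _).2 fun s t => hi (by
    show i (c b (s * t)) = i (ρ (D.res s) (c b t) + c b s)
    rw [map_add, hie, hic, hic, hic, map_mul D.res s t, map_mul σ, Module.End.mul_apply, map_sub]
    abel)
  let δ : τ.invariants →ₗ[ZMod p] H1 (inflRep D ρ) :=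
    (H1π (inflRep D ρ)).hom ∘ₗ c.codRestrict (cocycles₁ (inflRep D ρ)) hcoc
  refine ⟨δ, fun b => ?_, fun b => ?_, fun b => ?_, fun x hx => ?_⟩
  · exact (mem_continuousH1S_iff _ _ _).2 ⟨⟨c b, hcoc b⟩,
      isLevelConstantS₁_comp_res D fun g => ret (σ g (sec b) - sec b), rfl⟩
  · obtain ⟨c', hc', e⟩ := inflH1Map_H1π D i hie ⟨c b, hcoc b⟩
    exact e.trans (H1π_eq_zero_of_eq D (sec b) fun s => (hc' s).trans (hic b s))
  · constructor
    · intro h
      obtain ⟨a, ha⟩ := exists_of_H1π_eq_zero D (c := ⟨c b, hcoc b⟩) h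
      refine ⟨sec b - i a, fun g => ?_, ?_⟩
      · obtain ⟨s, rfl⟩ := D.res_surjective g
        have h1 := congrArg i (ha s)
        have h2 : i (c b s) = i (ρ (D.res s) a - a) := h1
        rw [hic, map_sub, hie] at h2
        rw [map_sub, ← sub_eq_zero]
        linear_combination (norm := abel) h2
      · have : i a ∈ LinearMap.ker π := hex ▸ LinearMap.mem_range_self i a
        rw [map_sub, hsec', LinearMap.mem_ker.1 this, sub_zero]
    · rintro ⟨x, hx, hxb⟩
      refine H1π_eq_zero_of_eq D (c := ⟨c b, hcoc b⟩) (ret (sec b - x)) fun s => hi ?_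
      show i (c b s) = _
      rw [hic, map_sub i, hie, hir (sec b - x) (by rw [map_sub, hsec', hxb, sub_self]), map_sub,
        hx (D.res s)]
      abel
  · induction x using H1_induction_on with
    | _ d =>
      obtain ⟨d', hd', e⟩ := inflH1Map_H1π D i hie d
      obtain ⟨m, hm⟩ := exists_of_H1π_eq_zero D (c := d') (e.symm.trans hx)
      have hm' : ∀ s, i (d s) = σ (D.res s) m - m := fun s => (hd' s).symm.trans (hm s)
      have hb : π m ∈ τ.invariants := fun g => by
        obtain ⟨s, rfl⟩ := D.res_surjective g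
        have h : i (d s) ∈ LinearMap.ker π := hex ▸ LinearMap.mem_range_self i _
        rw [LinearMap.mem_ker, hm', map_sub, hπe, sub_eq_zero] at h
        exact h
      refine ⟨⟨π m, hb⟩, (sub_eq_zero.1 ?_).symm.symm⟩
      show (H1π (inflRep D ρ)).hom ⟨c ⟨π m, hb⟩, hcoc _⟩ - (H1π (inflRep D ρ)).hom d = 0
      rw [← map_sub]
      refine H1π_eq_zero_of_eq D (ret (sec (π m) - m)) fun s => hi ?_
      show i (c ⟨π m, hb⟩ s - d s) = _
      rw [map_sub, hic, hm', map_sub i, hie, hir (sec (π m) - m) (by rw [map_sub, hsec', sub_self]),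
        map_sub]
      abel

include hi hπ hex in
theorem exists_lift_of_inflH1Map_eq_zero {x : H1 (inflRep D σ)}
    (hxS : x ∈ continuousH1S T (inflRep D σ)) (hx : inflH1Map D π hπe x = 0) :
    ∃ y ∈ continuousH1S T (inflRep D ρ), inflH1Map D i hie y = x := by
  obtain ⟨c, hc, rfl⟩ := (mem_continuousH1S_iff _ _ _).1 hxS
  obtain ⟨c', hc', e⟩ := inflH1Map_H1π D π hπe c
  obtain ⟨b, hb⟩ := exists_of_H1π_eq_zero D (c := c') (e.symm.trans hx)
  obtain ⟨m, rfl⟩ := hπ b
  obtain ⟨ret, hret⟩ := i.exists_leftInverse_of_injective (LinearMap.ker_eq_bot.2 hi)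
  let y : Γℚ → U := fun s => ret (c s - (σ (D.res s) m - m))
  have hker : ∀ s, π (c s - (σ (D.res s) m - m)) = 0 := fun s => by
    rw [map_sub, map_sub, hπe, ← hc' s, hb, sub_self]
  have hiy : ∀ s, i (y s) = c s - (σ (D.res s) m - m) := fun s => by
    obtain ⟨a, ha⟩ := (hex ▸ LinearMap.mem_ker.2 (hker s) :
      c s - (σ (D.res s) m - m) ∈ LinearMap.range i)
    have hra : ret (i a) = a := LinearMap.congr_fun hret a
    show i (ret _) = _
    rw [← ha, hra]
  have hy : y ∈ cocycles₁ (inflRep D ρ) := (mem_cocycles₁_iff _).2 fun s t => hi (by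
    show i (y (s * t)) = i (ρ (D.res s) (y t) + y s)
    have h : c (s * t) = σ (D.res s) (c t) + c s := (mem_cocycles₁_iff _).1 c.2 s t
    rw [map_add, hie, hiy, hiy, hiy, h, map_mul D.res s t, map_mul σ, Module.End.mul_apply,
      map_sub, map_sub]
    abel)
  refine ⟨(H1π (inflRep D ρ)).hom ⟨y, hy⟩, (mem_continuousH1S_iff _ _ _).2 ⟨⟨y, hy⟩, ?_, rfl⟩, ?_⟩
  · obtain ⟨F, hF, hFc⟩ := hc.add (isLevelConstantS₁_comp_res D fun g => -(σ g m - m))
    refine ⟨F, hF, fun g s hs => congrArg ret ?_⟩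
    simpa [sub_eq_add_neg] using hFc g s hs
  · obtain ⟨y', hy', e'⟩ := inflH1Map_H1π D i hie ⟨y, hy⟩
    rw [e', ← sub_eq_zero, ← map_sub]
    refine H1π_eq_zero_of_eq D (-m) fun s => ?_
    show y' s - c s = _
    rw [hy' s]
    show i (y s) - c s = _
    rw [hiy, map_neg]
    abel

include hie hi hπ hex in
/-- The count in the sequence of `H⁰` and `H¹`. -/
theorem finrank_h1_add_h0 [FiniteDimensional (ZMod p) V]
    [FiniteDimensional (ZMod p) (continuousH1S T (inflRep D ρ))]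
    [FiniteDimensional (ZMod p) (continuousH1S T (inflRep D σ))] :
    finrank (ZMod p) (continuousH1S T (inflRep D σ)) + finrank (ZMod p) ρ.invariants +
        finrank (ZMod p) τ.invariants =
      finrank (ZMod p) (continuousH1S T (inflRep D ρ)) + finrank (ZMod p) σ.invariants +
        finrank (ZMod p) ((continuousH1S T (inflRep D σ)).map (inflH1Map D π hπe)) := by
  have : FiniteDimensional (ZMod p) U := FiniteDimensional.of_injective i hi
  have : FiniteDimensional (ZMod p) W := Module.Finite.of_surjective π hπ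
  obtain ⟨δ, hδS, hδi, hδker, hδsurj⟩ := exists_h0Conn D i π hie hπe hi hπ hex
  set SA := continuousH1S T (inflRep D ρ)
  set SM := continuousH1S T (inflRep D σ)
  let R := (inflH1Map D π hπe).domRestrict SM
  let I := (inflH1Map D i hie).domRestrict SA
  have e1 := R.finrank_range_add_finrank_ker
  have e2 := I.finrank_range_add_finrank_ker
  have hR : LinearMap.range R = SM.map (inflH1Map D π hπe) := LinearMap.range_domRestrict SM _
  have hI : LinearMap.range I = (LinearMap.ker R).map SM.subtype := by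
    ext x
    constructor
    · rintro ⟨⟨y, hy⟩, rfl⟩
      refine ⟨⟨_, inflH1Map_mem D i hie hy⟩, ?_, rfl⟩
      show inflH1Map D π hπe (inflH1Map D i hie y) = 0
      obtain ⟨c, hc, rfl⟩ := (mem_continuousH1S_iff _ _ _).1 hy
      obtain ⟨c', hc', e⟩ := inflH1Map_H1π D i hie c
      obtain ⟨c'', hc'', e'⟩ := inflH1Map_H1π D π hπe c'
      rw [e, e']
      refine H1π_eq_zero_of_eq D 0 fun s => ?_
      have h : i (c s) ∈ LinearMap.ker π := hex ▸ LinearMap.mem_range_self i _
      rw [hc'', hc', LinearMap.mem_ker.1 h, map_zero, sub_zero]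
    · rintro ⟨⟨x, hx⟩, hx0, rfl⟩
      obtain ⟨y, hy, hyx⟩ := exists_lift_of_inflH1Map_eq_zero D i π hie hπe hi hπ hex hx hx0
      exact ⟨⟨y, hy⟩, hyx⟩
  let δ' : τ.invariants →ₗ[ZMod p] SA := δ.codRestrict SA hδS
  have hδ' : LinearMap.range δ' = LinearMap.ker I := by
    ext ⟨x, hx⟩
    constructor
    · rintro ⟨b, hb⟩
      rw [LinearMap.mem_ker, ← hb]
      exact hδi b
    · intro h
      obtain ⟨b, hb⟩ := hδsurj x h
      exact ⟨b, Subtype.ext hb⟩
  have e3 := δ'.finrank_range_add_finrank_ker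
  let P : σ.invariants →ₗ[ZMod p] τ.invariants :=
    (π ∘ₗ σ.invariants.subtype).codRestrict _ fun x g => by
      show τ g (π x) = π x
      rw [← hπe, x.2 g]
  have hP : LinearMap.range P = LinearMap.ker δ' := by
    ext b
    rw [LinearMap.mem_ker, Subtype.ext_iff]
    show b ∈ LinearMap.range P ↔ δ b = 0
    rw [hδker b]
    exact ⟨fun ⟨x, hx⟩ => ⟨x, x.2, congrArg Subtype.val hx⟩,
      fun ⟨x, hx, hxb⟩ => ⟨⟨x, hx⟩, Subtype.ext hxb⟩⟩
  have e4 := P.finrank_range_add_finrank_ker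
  let J : ρ.invariants →ₗ[ZMod p] σ.invariants :=
    (i ∘ₗ ρ.invariants.subtype).codRestrict _ fun x g => by
      show σ g (i x) = i x
      rw [← hie, x.2 g]
  have hJ : LinearMap.range J = LinearMap.ker P := by
    ext x
    rw [LinearMap.mem_ker, Subtype.ext_iff]
    show x ∈ LinearMap.range J ↔ π (x : V) = 0
    constructor
    · rintro ⟨a, rfl⟩
      exact LinearMap.mem_ker.1 (hex ▸ LinearMap.mem_range_self i (a : U))
    · intro h
      obtain ⟨a, ha⟩ := (hex ▸ LinearMap.mem_ker.2 h : (x : V) ∈ LinearMap.range i)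
      refine ⟨⟨a, fun g => hi ?_⟩, Subtype.ext ha⟩
      rw [hie, ha, x.2 g]
  have hJinj : Function.Injective J := fun a b h => Subtype.ext (hi (congrArg Subtype.val h))
  rw [hR] at e1
  rw [hI, ← hδ', Submodule.finrank_map_subtype_eq] at e2
  rw [← hP] at e3
  rw [← hJ, LinearMap.finrank_range_of_inj hJinj] at e4
  omega

end FermatLib.CFT
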