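import Fermat.Agent.CFT.GWEulerInterface

/-!
Counting in the exact sequence `Hom(B, C) → Hom(M, C) → Hom(A, C) → Ext¹(B, C) → Ext¹(M, C)`
for a presentation common to `M` and `B`.
-/

set_option autoImplicit false

namespace FermatLib.CFT

/-- Cardinality of the source of a homomorphism. -/
theorem natCard_eq_ker_mul_range {X Y : Type*} [AddCommGroup X] [AddCommGroup Y] (f : X →+ Y) :
    Nat.card X = Nat.card f.ker * Nat.card f.range := by
  rw [← AddSubgroup.index_ker, AddSubgroup.card_mul_index]

variable {G : Type*} [Group G] [Fintype G] {ι : Type*} [Fintype ι]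
  {A M B : Type*} [AddCommGroup A] [DistribMulAction G A] [AddCommGroup M] [DistribMulAction G M]
  [AddCommGroup B] [DistribMulAction G B] (i : A →+ M) (π : M →+ B)
  (hie : ∀ (g : G) a, i (g • a) = g • i a) (hπe : ∀ (g : G) x, π (g • x) = g • π x)
  (v : ι → M) (C : Type*) [AddCommGroup C] [DistribMulAction G C]

/-- Restriction of equivariant maps along an equivariant map. -/
def homPre : equivHom G M C →+ equivHom G A C where
  toFun f := ⟨(f : M →+ C).comp i, fun g a => by
    rw [AddMonoidHom.comp_apply, AddMonoidHom.comp_apply, hie, f.2]⟩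
  map_zero' := rfl
  map_add' _ _ := rfl

omit [Fintype G] in
theorem homPre_apply (f : equivHom G M C) (a : A) :
    (homPre i hie C f : A →+ C) a = (f : M →+ C) (i a) := rfl

omit [Fintype G] in
theorem homPre_injective (hπ : Function.Surjective π) : Function.Injective (homPre π hπe C) :=
  fun f f' h => Subtype.ext (AddMonoidHom.ext fun b => by
    obtain ⟨x, rfl⟩ := hπ b
    exact DFunLike.congr_fun (congrArg Subtype.val h) x)

variable (hi : Function.Injective i) (hπ : Function.Surjective π)
  (hex : ∀ x, π x = 0 ↔ ∃ a, i a = x)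

omit [Fintype G] in
include hπ hex in
theorem homPre_range_eq_ker : (homPre π hπe C).range = (homPre i hie C).ker := by
  ext f
  constructor
  · rintro ⟨f, rfl⟩
    refine Subtype.ext (AddMonoidHom.ext fun a => ?_)
    show (f : B →+ C) (π (i a)) = 0
    rw [(hex _).2 ⟨a, rfl⟩, map_zero]
  · intro hf
    have hf' : ∀ a, (f : M →+ C) (i a) = 0 := fun a =>
      DFunLike.congr_fun (congrArg Subtype.val (AddMonoidHom.mem_ker.1 hf)) a
    have hle : π.ker ≤ (f : M →+ C).ker := fun x hx => by
      obtain ⟨a, rfl⟩ := (hex x).1 hx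
      exact hf' a
    let φ : B →+ C := π.liftOfSurjective hπ ⟨(f : M →+ C), hle⟩
    have hφ : ∀ x, φ (π x) = (f : M →+ C) x := fun x =>
      π.liftOfRightInverse_comp_apply _ _ _ x
    refine ⟨⟨φ, fun g b => ?_⟩, Subtype.ext (AddMonoidHom.ext hφ)⟩
    obtain ⟨x, rfl⟩ := hπ b
    rw [← hπe, hφ, hφ, f.2]

include hπe hex in
/-- The preimage in `A` of the value of the presentation at a relation of `B`. -/
theorem exists_preimage_presKer (x : presKer (G := G) (π ∘ v)) :
    ∃ a, i a = presMap v (x : Pres ι G) :=
  (hex _).1 ((presMap_comp_apply π hπe v _).symm.trans x.2)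

/-- The connecting map into `Ext¹`. -/
noncomputable def extConn : equivHom G A C →+ ext1 G C (π ∘ v) :=
  (QuotientAddGroup.mk' _).comp
    { toFun := fun a => ⟨(a : A →+ C).comp (AddMonoidHom.mk'
          (fun x => (exists_preimage_presKer i π hπe v hex x).choose) fun x y => hi (by
            rw [map_add, (exists_preimage_presKer i π hπe v hex _).choose_spec,
              (exists_preimage_presKer i π hπe v hex _).choose_spec,
              (exists_preimage_presKer i π hπe v hex _).choose_spec, AddSubgroup.coe_add, map_add])),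
        fun g x => by
          show (a : A →+ C) (exists_preimage_presKer i π hπe v hex (g • x)).choose =
            g • (a : A →+ C) (exists_preimage_presKer i π hπe v hex x).choose
          rw [← a.2]
          refine congrArg _ (hi ?_)
          rw [hie, (exists_preimage_presKer i π hπe v hex _).choose_spec,
            (exists_preimage_presKer i π hπe v hex _).choose_spec, ← presMap_smul]
          rfl⟩
      map_zero' := rfl
      map_add' := fun _ _ => rfl }

include hie hi hπe hex in
theorem extConn_rep (a : equivHom G A C) :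
    ∃ h : equivHom G (presKer (G := G) (π ∘ v)) C,
      extConn i π hie hπe v C hi hex a = QuotientAddGroup.mk h ∧
      ∀ (x : presKer (G := G) (π ∘ v)) (t : A), i t = presMap v (x : Pres ι G) →
        (h : presKer (G := G) (π ∘ v) →+ C) x = (a : A →+ C) t := by
  refine ⟨_, rfl, fun x t ht => ?_⟩
  exact congrArg (a : A →+ C)
    (hi ((exists_preimage_presKer i π hπe v hex x).choose_spec.trans ht.symm))

variable (hv : Function.Surjective (presMap (G := G) v))

include hv in
theorem homPre_range_eq_extConn_ker :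
    (homPre i hie C).range = (extConn i π hie hπe v C hi hex).ker := by
  ext a
  obtain ⟨h, hh, hspec⟩ := extConn_rep i π hie hπe v C hi hex a
  rw [AddMonoidHom.mem_ker, hh, QuotientAddGroup.eq_zero_iff]
  constructor
  · rintro ⟨f, rfl⟩
    refine ⟨⟨(f : M →+ C).comp (presMap v), fun g b => ?_⟩, Subtype.ext (AddMonoidHom.ext fun x => ?_)⟩
    · rw [AddMonoidHom.comp_apply, AddMonoidHom.comp_apply, presMap_smul, f.2]
    · obtain ⟨t, ht⟩ := exists_preimage_presKer i π hπe v hex x
      rw [hspec x t ht, homPre_apply, ht]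
      rfl
  · rintro ⟨F, hF⟩
    have hF' : ∀ x : presKer (G := G) (π ∘ v), (F : Pres ι G →+ C) (x : Pres ι G) = (h : presKer (G := G) (π ∘ v) →+ C) x :=
      fun x => DFunLike.congr_fun (congrArg Subtype.val hF) x
    have hle : (presMap (G := G) v).ker ≤ (F : Pres ι G →+ C).ker := fun x hx => by
      have hx' : x ∈ presKer (G := G) (π ∘ v) := by
        show presMap (π ∘ v) x = 0
        rw [presMap_comp_apply π hπe, hx, map_zero]
      rw [AddMonoidHom.mem_ker, hF' ⟨x, hx'⟩, hspec ⟨x, hx'⟩ 0 (by rw [map_zero, hx]), map_zero]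
    let φ : M →+ C := (presMap (G := G) v).liftOfSurjective hv ⟨(F : Pres ι G →+ C), hle⟩
    have hφ : ∀ x, φ (presMap v x) = (F : Pres ι G →+ C) x := fun x =>
      (presMap (G := G) v).liftOfRightInverse_comp_apply _ _ _ x
    refine ⟨⟨φ, fun g m => ?_⟩, Subtype.ext (AddMonoidHom.ext fun t => ?_)⟩
    · obtain ⟨x, rfl⟩ := hv m
      rw [← presMap_smul, hφ, hφ, F.2]
    · obtain ⟨x, hx⟩ := hv (i t)
      have hx' : x ∈ presKer (G := G) (π ∘ v) := by
        show presMap (π ∘ v) x = 0
        rw [presMap_comp_apply π hπe, hx]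
        exact (hex _).2 ⟨t, rfl⟩
      show φ (i t) = _
      rw [← hx, hφ, hF' ⟨x, hx'⟩, hspec ⟨x, hx'⟩ t hx.symm]

include hv in
theorem extConn_range_eq_pull_ker :
    (extConn i π hie hπe v C hi hex).range = (ext1Pull C π hπe v).ker := by
  ext e
  constructor
  · rintro ⟨a, rfl⟩
    obtain ⟨h, hh, hspec⟩ := extConn_rep i π hie hπe v C hi hex a
    rw [AddMonoidHom.mem_ker, hh, ext1Pull, QuotientAddGroup.map_mk, QuotientAddGroup.eq_zero_iff]
    refine ⟨0, Subtype.ext (AddMonoidHom.ext fun x => ?_)⟩
    have hx : presMap v (x : Pres ι G) = 0 := x.2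
    show (0 : C) = (h : presKer (G := G) (π ∘ v) →+ C) ⟨(x : Pres ι G), _⟩
    rw [hspec _ 0 (by rw [map_zero]; exact hx.symm), map_zero]
  · induction e using QuotientAddGroup.induction_on with
    | H h =>
      intro he
      rw [AddMonoidHom.mem_ker, ext1Pull, QuotientAddGroup.map_mk, QuotientAddGroup.eq_zero_iff] at he
      obtain ⟨F, hF⟩ := he
      let d : presKer (G := G) (π ∘ v) →+ C :=
        (h : presKer (G := G) (π ∘ v) →+ C) - (presRestr G C (π ∘ v) F).1
      have hd0 : ∀ x : presKer (G := G) (π ∘ v), presMap v (x : Pres ι G) = 0 → d x = 0 :=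
        fun x hx => by
          have := DFunLike.congr_fun (congrArg Subtype.val hF) ⟨(x : Pres ι G), hx⟩
          show (h : presKer (G := G) (π ∘ v) →+ C) x - (F : Pres ι G →+ C) x = 0
          rw [sub_eq_zero]
          exact this.symm
      choose r hr using fun t : A => hv (i t)
      have hr' : ∀ t, r t ∈ presKer (G := G) (π ∘ v) := fun t => by
        show presMap (π ∘ v) (r t) = 0
        rw [presMap_comp_apply π hπe, hr]
        exact (hex _).2 ⟨t, rfl⟩
      have huniq : ∀ (t : A) (x : presKer (G := G) (π ∘ v)), presMap v (x : Pres ι G) = i t →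
          d x = d ⟨r t, hr' t⟩ := fun t x hx => by
        rw [← sub_eq_zero, ← map_sub]
        refine hd0 _ ?_
        rw [AddSubgroupClass.coe_sub, map_sub, hx, hr, sub_self]
      let a : equivHom G A C := ⟨AddMonoidHom.mk' (fun t => d ⟨r t, hr' t⟩) fun t t' => by
        rw [← map_add]
        exact (huniq _ _ (by rw [AddSubgroup.coe_add, map_add, hr, hr, map_add])).symm, fun g t => by
        show d ⟨r (g • t), _⟩ = g • d ⟨r t, _⟩
        rw [← huniq (g • t) (g • ⟨r t, hr' t⟩) (by
          show presMap v (g • r t) = _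
          rw [presMap_smul, hr, hie])]
        show (h : presKer (G := G) (π ∘ v) →+ C) (g • _) - (F : Pres ι G →+ C) (g • r t) = _
        rw [h.2, F.2, ← smul_sub]
        rfl⟩
      obtain ⟨h', hh', hspec⟩ := extConn_rep i π hie hπe v C hi hex a
      refine ⟨a, ?_⟩
      rw [hh', QuotientAddGroup.eq]
      refine ⟨F, Subtype.ext (AddMonoidHom.ext fun x => ?_)⟩
      obtain ⟨t, ht⟩ := exists_preimage_presKer i π hπe v hex x
      have h1 : d ⟨r t, hr' t⟩ = d x := (huniq t x ht.symm).symm
      show (F : Pres ι G →+ C) x = -(h' : presKer (G := G) (π ∘ v) →+ C) x +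
        (h : presKer (G := G) (π ∘ v) →+ C) x
      rw [hspec x t ht]
      show _ = -d ⟨r t, hr' t⟩ + _
      rw [h1]
      show _ = -((h : presKer (G := G) (π ∘ v) →+ C) x - (F : Pres ι G →+ C) x) + _
      abel

include hi hπ hex hv hie hπe in
/-- The count: `|Hom M| · |Ext B| = |Hom A| · |Hom B| · |im (Ext B → Ext M)|`. -/
theorem natCard_equivHom_mul_natCard_ext1 :
    Nat.card (equivHom G M C) * Nat.card (ext1 G C (π ∘ v)) =
      Nat.card (equivHom G A C) * Nat.card (equivHom G B C) *
        Nat.card ↥(ext1Pull C π hπe v).range := by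
  have e1 : Nat.card (equivHom G M C) =
      Nat.card (equivHom G B C) * Nat.card (extConn i π hie hπe v C hi hex).ker := by
    rw [← homPre_range_eq_extConn_ker i π hie hπe v C hi hex hv, natCard_eq_ker_mul_range (homPre i hie C),
      ← homPre_range_eq_ker i π hie hπe C hπ hex]
    congr 1
    exact Nat.card_congr (AddMonoidHom.ofInjective (homPre_injective π hπe C hπ)).symm.toEquiv
  have e2 := natCard_eq_ker_mul_range (extConn i π hie hπe v C hi hex)
  have e3 := natCard_eq_ker_mul_range (ext1Pull C π hπe v)
  rw [← extConn_range_eq_pull_ker i π hie hπe v C hi hex hv] at e3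
  rw [e1, e2, e3]
  ring

end FermatLib.CFT
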