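import Fermat.Agent.CFT.EulerPerm
import Fermat.Agent.CFT.PresDefs
import Fermat.Agent.CFT.IdeleFiniteness

/-!
Euler ratios "`A/p` over `A[p]`" of an endomorphism, as characteristic polynomials.
-/

set_option autoImplicit false

open NumberField Polynomial

namespace FermatLib.CFT

section generic

variable (p : ℕ) [Fact p.Prime] (A : Type*) [AddCommGroup A]

/-- `A / pA`. -/
abbrev modP : Type _ := A ⧸ (nsmulAddMonoidHom p : A →+ A).range

/-- `A[p]`. -/
abbrev torP : AddSubgroup A := (nsmulAddMonoidHom p : A →+ A).ker

noncomputable instance modPModule : Module (ZMod p) (modP p A) :=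
  AddCommGroup.zmodModule fun x => QuotientAddGroup.induction_on x fun a => by
    rw [← QuotientAddGroup.mk_nsmul, QuotientAddGroup.eq_zero_iff]
    exact ⟨a, rfl⟩

noncomputable instance torPModule : Module (ZMod p) (torP p A) :=
  AddCommGroup.zmodModule fun x => Subtype.ext x.2

variable {A}

/-- The endomorphism induced on `A / pA`. -/
noncomputable def modPEnd (f : A →+ A) : Module.End (ZMod p) (modP p A) :=
  AddMonoidHom.toZModLinearMap p (QuotientAddGroup.map _ _ f fun x hx => by
    obtain ⟨a, rfl⟩ := hx
    exact ⟨f a, (map_nsmul f p a).symm⟩)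

/-- The endomorphism induced on `A[p]`. -/
noncomputable def torPEnd (f : A →+ A) : Module.End (ZMod p) (torP p A) :=
  AddMonoidHom.toZModLinearMap p ((f.comp (torP p A).subtype).codRestrict (torP p A) fun x => by
    show p • f (x : A) = 0
    rw [← map_nsmul, show p • (x : A) = 0 from x.2, map_zero])

variable {p}

open Classical in
/-- The characteristic polynomial (zero unless finite dimensional). -/
noncomputable def endPoly {V : Type*} [AddCommGroup V] [Module (ZMod p) V]
    (f : Module.End (ZMod p) V) : (ZMod p)[X] :=
  if h : Module.Finite (ZMod p) V then (haveI := h; LinearMap.charpoly f) else 0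

theorem endPoly_eq {V : Type*} [AddCommGroup V] [Module (ZMod p) V] [Module.Finite (ZMod p) V]
    (f : Module.End (ZMod p) V) : endPoly f = LinearMap.charpoly f := by
  classical
  rw [endPoly, dif_pos]

variable (p) in
/-- The class of `A/p` minus `A[p]` has characteristic polynomial `P / Q`. -/
structure EulerRatio (f : A →+ A) (P Q : (ZMod p)[X]) : Prop where
  finite_quot : Finite (modP p A)
  finite_tor : Finite (torP p A)
  eq : endPoly (modPEnd p f) * Q = endPoly (torPEnd p f) * P

/-- The characteristic polynomial of a permutation module twisted by a scalar. -/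
noncomputable def permPoly {X : Type*} [Finite X] (σ : Equiv.Perm X) (c : ZMod p) : (ZMod p)[X] :=
  LinearMap.charpoly (permTensor σ (c • (LinearMap.id : ZMod p →ₗ[ZMod p] ZMod p)))

end generic

section field

variable {L : Type} [Field L] [NumberField L]

/-- The permutation of the places over `q` matching the action of `g` on ideles. -/
noncomputable def placePerm (g : L ≃ₐ[ℚ] L) (q : Nat.Primes) :
    Equiv.Perm (PlacesAbove (⊥ : Subgroup (L ≃ₐ[ℚ] L)) q) :=
  Quotient.congr
    { toFun := fun φ => φ.preComp g⁻¹
      invFun := fun φ => φ.preComp g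
      left_inv := fun φ => φ.preComp_inv_preComp g
      right_inv := fun φ => φ.preComp_preComp_inv g }
    fun φ ψ => by
      change Emb.SamePlaceRel _ φ ψ ↔ Emb.SamePlaceRel _ (φ.preComp g⁻¹) (ψ.preComp g⁻¹)
      rw [samePlaceRel_bot_iff, samePlaceRel_bot_iff]
      refine ⟨fun h => h.preComp g⁻¹, fun h => ?_⟩
      have := h.preComp g
      rwa [Emb.preComp_inv_preComp, Emb.preComp_inv_preComp] at this

/-- The permutation of the infinite places given by `g`. -/
noncomputable def infPlacePerm (g : L ≃ₐ[ℚ] L) : Equiv.Perm (InfinitePlace L) :=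
  MulAction.toPerm g

/-- The action of `g` on `T`-units. -/
noncomputable def tUnitsEnd (T : Set Nat.Primes) (g : L ≃ₐ[ℚ] L) :
    ↥(tUnits L T) →+ ↥(tUnits L T) :=
  ((DistribSMul.toAddMonoidHom (LUnits L) g).comp (tUnits L T).subtype).codRestrict _
    fun x => smul_mem_tUnits T g x.2

end field

end FermatLib.CFT
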