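import Fermat.Agent.CFT.GWGlobExt
import Fermat.Agent.CFT.GWEvalDefs

/-!
`Ext¹` of a module which is projective modulo `p` is `Hom` into the reduction modulo `p`.
-/

set_option autoImplicit false

namespace FermatLib.CFT

open GWKummer (presSingle smul_presSingle presMap_presSingle freeLift freeLift_presSingle free_ext)

section action

variable {p : ℕ} [Fact p.Prime] {G : Type*} [Monoid G] {A : Type*} [AddCommGroup A]
  [DistribMulAction G A]

/-- The action on `A / pA`. -/
noncomputable instance modPAction : DistribMulAction G (modP p A) where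
  smul g := QuotientAddGroup.map _ _ (DistribSMul.toAddMonoidHom A g) fun x hx => by
    obtain ⟨a, rfl⟩ := hx
    exact ⟨g • a, (smul_comm g p a).symm⟩
  one_smul x := QuotientAddGroup.induction_on x fun a => congrArg QuotientAddGroup.mk (one_smul G a)
  mul_smul g h x := QuotientAddGroup.induction_on x fun a =>
    congrArg QuotientAddGroup.mk (mul_smul g h a)
  smul_zero g := map_zero (QuotientAddGroup.map _ _ (DistribSMul.toAddMonoidHom A g) _)
  smul_add g a b := map_add (QuotientAddGroup.map _ _ (DistribSMul.toAddMonoidHom A g) _) a b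

theorem smul_modP_mk (g : G) (a : A) :
    g • (QuotientAddGroup.mk a : modP p A) = QuotientAddGroup.mk (g • a) := rfl

theorem modP_mk_eq_zero_iff (a : A) : (QuotientAddGroup.mk a : modP p A) = 0 ↔ ∃ y, p • y = a :=
  QuotientAddGroup.eq_zero_iff a

theorem modP_mk_nsmul (a : A) : (QuotientAddGroup.mk (p • a) : modP p A) = 0 :=
  (modP_mk_eq_zero_iff _).2 ⟨a, rfl⟩

end action

section free

variable {G : Type*} [Group G] [Fintype G] {ι : Type*} [Fintype ι] {A : Type*} [AddCommGroup A]
  [DistribMulAction G A]

/-- The equivariant map on the free module with prescribed values at the generators. -/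
theorem exists_free_equivariant (a : ι → A) :
    ∃ F : Pres ι G →+ A, (∀ (g : G) b, F (g • b) = g • F b) ∧ ∀ i, F (presSingle i 1) = a i := by
  let F : Pres ι G →+ A := freeLift fun i g => g • a i
  refine ⟨F, fun g b => ?_, fun i => by
    show F (presSingle i 1) = a i
    rw [freeLift_presSingle, one_smul]⟩
  have e : F.comp (DistribSMul.toAddMonoidHom (Pres ι G) g) =
      (DistribSMul.toAddMonoidHom A g).comp F := free_ext fun i g' => by
    show F (g • presSingle i g') = g • F (presSingle i g')
    rw [smul_presSingle, freeLift_presSingle, freeLift_presSingle, mul_smul]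
  exact DFunLike.congr_fun e b

/-- Equivariant maps from the free module are determined at the generators. -/
theorem free_equivariant_ext {F F' : Pres ι G →+ A} (hF : ∀ (g : G) b, F (g • b) = g • F b)
    (hF' : ∀ (g : G) b, F' (g • b) = g • F' b)
    (h : ∀ i, F (presSingle i 1) = F' (presSingle i 1)) : F = F' :=
  free_ext fun i g => by rw [← mul_one g, ← smul_presSingle, hF, hF', h]

end free

section section_

variable {p : ℕ} [Fact p.Prime] {G : Type*} [Group G] [Fintype G] {ι : Type*} [Fintype ι]
  {V : Type*} [AddCommGroup V] [DistribMulAction G V] (v : ι → V)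
  (A : Type*) [AddCommGroup A] [DistribMulAction G A]

/-- A section of `P / pP → V` which is additive and equivariant modulo `p`. -/
structure IsModPSection (p : ℕ) (s : V → Pres ι G) : Prop where
  killed : ∀ x : V, p • x = 0
  right_inv : ∀ x, presMap v (s x) = x
  add : ∀ x y, ∃ b, s (x + y) = s x + s y + p • b
  smul : ∀ (g : G) x, ∃ b, s (g • x) = g • s x + p • b

variable {v} {A} {s : V → Pres ι G} (hs : IsModPSection v p s)
include hs

theorem IsModPSection.nsmul_mem (b : Pres ι G) : p • b ∈ presKer (G := G) v :=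
  GWKummer.nsmul_mem_presKer hs.killed b

theorem IsModPSection.map_zero' : ∃ b, s 0 = p • b := by
  obtain ⟨b, hb⟩ := hs.add 0 0
  rw [add_zero] at hb
  exact ⟨-b, by rw [smul_neg]; linear_combination (norm := abel) -hb⟩

/-- `p`-multiples of values of a map on relations, as classes modulo `p`. -/
noncomputable def IsModPSection.toHom : equivHom G (presKer (G := G) v) A →+
    equivHom G V (modP p A) where
  toFun h := ⟨AddMonoidHom.mk'
      (fun x => (QuotientAddGroup.mk ((h : presKer (G := G) v →+ A)
        ⟨p • s x, hs.nsmul_mem _⟩) : modP p A)) fun x y => by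
        obtain ⟨b, hb⟩ := hs.add x y
        rw [← QuotientAddGroup.mk_add, ← map_add]
        have e : (⟨p • s (x + y), hs.nsmul_mem _⟩ : presKer (G := G) v) =
            (⟨p • s x, hs.nsmul_mem _⟩ + ⟨p • s y, hs.nsmul_mem _⟩) +
              p • ⟨p • b, hs.nsmul_mem _⟩ := Subtype.ext (by
          simp only [AddSubgroup.coe_add, AddSubgroup.coe_nsmul, hb, smul_add])
        rw [e, map_add, map_nsmul, QuotientAddGroup.mk_add, modP_mk_nsmul, add_zero],
    fun g x => by
      obtain ⟨b, hb⟩ := hs.smul g x
      show (QuotientAddGroup.mk _ : modP p A) = g • (QuotientAddGroup.mk _ : modP p A)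
      rw [smul_modP_mk, ← h.2 g]
      have e : (⟨p • s (g • x), hs.nsmul_mem _⟩ : presKer (G := G) v) =
          g • ⟨p • s x, hs.nsmul_mem _⟩ + p • ⟨p • b, hs.nsmul_mem _⟩ := Subtype.ext (by
        show p • s (g • x) = g • (p • s x) + p • (p • b)
        rw [hb, smul_add, smul_comm g p (s x)])
      rw [e, map_add, map_nsmul, QuotientAddGroup.mk_add, modP_mk_nsmul, add_zero]⟩
  map_zero' := Subtype.ext (AddMonoidHom.ext fun x => rfl)
  map_add' h h' := Subtype.ext (AddMonoidHom.ext fun x => rfl)

theorem IsModPSection.toHom_apply (h : equivHom G (presKer (G := G) v) A) (x : V) :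
    (hs.toHom h : V →+ modP p A) x =
      QuotientAddGroup.mk ((h : presKer (G := G) v →+ A) ⟨p • s x, hs.nsmul_mem _⟩) := rfl

theorem IsModPSection.sub_mem (f : Pres ι G) : f - s (presMap v f) ∈ presKer (G := G) v := by
  show presMap v (f - s (presMap v f)) = 0
  rw [map_sub, hs.right_inv, sub_self]

theorem IsModPSection.toHom_eq_zero_iff (h : equivHom G (presKer (G := G) v) A) :
    hs.toHom h = 0 ↔ h ∈ (presRestr G A v).range := by
  constructor
  · intro h0
    have h1 : ∀ f, ∃ y, p • y = (h : presKer (G := G) v →+ A) ⟨p • f, hs.nsmul_mem f⟩ := by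
      intro f
      have h2 := DFunLike.congr_fun (congrArg Subtype.val h0) (presMap v f)
      rw [hs.toHom_apply] at h2
      obtain ⟨y, hy⟩ := (modP_mk_eq_zero_iff _).1 h2
      refine ⟨y + (h : presKer (G := G) v →+ A) ⟨f - s (presMap v f), hs.sub_mem f⟩, ?_⟩
      rw [smul_add, hy, ← map_nsmul, ← map_add]
      exact congrArg _ (Subtype.ext (by
        simp only [AddSubgroup.coe_add, AddSubgroup.coe_nsmul, smul_sub, add_sub_cancel]))
    choose a ha using fun i => h1 (presSingle i 1)
    obtain ⟨F, hFe, hFa⟩ := exists_free_equivariant (G := G) a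
    let hp : Pres ι G →+ A :=
      (h : presKer (G := G) v →+ A).comp (AddMonoidHom.codRestrict (nsmulAddMonoidHom p)
        (presKer (G := G) v) hs.nsmul_mem)
    have hpF : hp = p • F := by
      refine free_equivariant_ext (fun g b => ?_) (fun g b => ?_) fun i => ?_
      · show (h : presKer (G := G) v →+ A) ⟨p • (g • b), _⟩ = g • (h : presKer (G := G) v →+ A) _
        rw [← h.2 g]
        exact congrArg _ (Subtype.ext (smul_comm g p b).symm)
      · simp only [AddMonoidHom.smul_apply, hFe, smul_comm g p]
      · show (h : presKer (G := G) v →+ A) ⟨p • presSingle i 1, _⟩ = _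
        rw [AddMonoidHom.smul_apply, hFa, ha]
    let d : presKer (G := G) v →+ A :=
      (h : presKer (G := G) v →+ A) - F.comp (presKer (G := G) v).subtype
    have hd : ∀ f, d ⟨p • f, hs.nsmul_mem f⟩ = 0 := fun f => by
      have := DFunLike.congr_fun hpF f
      show (h : presKer (G := G) v →+ A) _ - F (p • f) = 0
      rw [map_nsmul, sub_eq_zero]
      exact this
    have hde : ∀ (g : G) x, d (g • x) = g • d x := fun g x => by
      show (h : presKer (G := G) v →+ A) (g • x) - F ((g • x : presKer (G := G) v) : Pres ι G) =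
        g • ((h : presKer (G := G) v →+ A) x - F x)
      rw [h.2 g, smul_sub, ← hFe]
      rfl
    let F' : Pres ι G →+ A := AddMonoidHom.mk' (fun f => d ⟨f - s (presMap v f), hs.sub_mem f⟩)
      fun f f' => by
        obtain ⟨b, hb⟩ := hs.add (presMap v f) (presMap v f')
        rw [← map_add, ← sub_eq_zero, ← map_sub]
        refine (congrArg d (Subtype.ext (?_ : _ = p • (-b)))).trans (hd _)
        simp only [AddSubgroup.coe_add, AddSubgroupClass.coe_sub, map_add, hb, smul_neg]
        abel
    have hF' : ∀ (g : G) f, F' (g • f) = g • F' f := fun g f => by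
      show d _ = g • d _
      rw [← hde, ← sub_eq_zero, ← map_sub]
      obtain ⟨b, hb⟩ := hs.smul g (presMap v f)
      refine (congrArg d (Subtype.ext (?_ : _ = p • (-b)))).trans (hd _)
      show g • f - s (presMap v (g • f)) - g • (f - s (presMap v f)) = p • -b
      rw [presMap_smul, hb, smul_sub, smul_neg]
      abel
    refine ⟨⟨F + F', fun g f => by
      simp only [AddMonoidHom.add_apply, hFe, hF', smul_add]⟩, Subtype.ext ?_⟩
    refine AddMonoidHom.ext fun x => ?_
    obtain ⟨b, hb⟩ := hs.map_zero'
    have hx : d ⟨(x : Pres ι G) - s (presMap v (x : Pres ι G)), hs.sub_mem _⟩ = d x := by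
      rw [← sub_eq_zero, ← map_sub]
      refine (congrArg d (Subtype.ext (?_ : _ = p • (-b)))).trans (hd _)
      show (x : Pres ι G) - s (presMap v (x : Pres ι G)) - (x : Pres ι G) = p • -b
      rw [show presMap v (x : Pres ι G) = 0 from x.2, hb, smul_neg]
      abel
    show F (x : Pres ι G) + d ⟨(x : Pres ι G) - s (presMap v (x : Pres ι G)), hs.sub_mem _⟩ =
      (h : presKer (G := G) v →+ A) x
    rw [hx]
    show F (x : Pres ι G) + ((h : presKer (G := G) v →+ A) x - F x) = _
    abel
  · rintro ⟨F, rfl⟩
    refine Subtype.ext (AddMonoidHom.ext fun x => ?_)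
    rw [hs.toHom_apply]
    show (QuotientAddGroup.mk ((F : Pres ι G →+ A) (p • s x)) : modP p A) = 0
    rw [map_nsmul, modP_mk_nsmul]

omit hs in
theorem nsmul_pres_injective : Function.Injective fun b : Pres ι G => p • b := fun a b h => by
  funext i g
  have h1 : p • a i g = p • b i g := congrFun (congrFun h i) g
  exact nsmul_right_injective (Fact.out : p.Prime).ne_zero h1

theorem IsModPSection.toHom_surjective : Function.Surjective (hs.toHom (A := A)) := by
  intro ψ
  choose a ha using fun i =>
    QuotientAddGroup.mk_surjective ((ψ : V →+ modP p A) (presMap v (presSingle i (1 : G))))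
  obtain ⟨Ψ, hΨe, hΨa⟩ := exists_free_equivariant (G := G) a
  have hΨ : ∀ f, (QuotientAddGroup.mk (Ψ f) : modP p A) = (ψ : V →+ modP p A) (presMap v f) := by
    let l : Pres ι G →+ modP p A := (QuotientAddGroup.mk' _).comp Ψ
    have e : l = (ψ : V →+ modP p A).comp (presMap v) := by
      refine free_equivariant_ext (fun g b => ?_) (fun g b => ?_) fun i => ?_
      · show (QuotientAddGroup.mk (Ψ (g • b)) : modP p A) = g • QuotientAddGroup.mk (Ψ b)
        rw [hΨe, smul_modP_mk]
      · show (ψ : V →+ modP p A) (presMap v (g • b)) = g • (ψ : V →+ modP p A) (presMap v b)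
        rw [presMap_smul, ψ.2 g]
      · show (QuotientAddGroup.mk (Ψ (presSingle i 1)) : modP p A) = _
        rw [hΨa, ha]
        rfl
    exact fun f => DFunLike.congr_fun e f
  obtain ⟨Q, hQe, hQa⟩ := exists_free_equivariant (G := G) (A := Pres ι G)
    fun i => presSingle i 1 - s (presMap v (presSingle i (1 : G)))
  -- `Q f ≡ f - s (presMap v f)` modulo `p`
  have hQ : ∀ f, ∃ b, Q f = f - s (presMap v f) + p • b := by
    intro f
    rw [← GWKummer.sum_presSingle f]
    have hsingle : ∀ i (g : G), ∃ b, Q (presSingle i g) =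
        presSingle i g - s (presMap v (presSingle i g)) + p • b := fun i g => by
      obtain ⟨b, hb⟩ := hs.smul g (presMap v (presSingle i (1 : G)))
      refine ⟨b, ?_⟩
      conv_lhs => rw [← mul_one g, ← smul_presSingle, hQe, hQa, smul_sub, smul_presSingle, mul_one]
      conv_rhs => rw [show presSingle i g = g • presSingle i (1 : G) by
        rw [smul_presSingle, mul_one], presMap_smul, hb, smul_presSingle, mul_one]
      abel
    let Good : Pres ι G → Prop := fun f => ∃ b, Q f = f - s (presMap v f) + p • b
    have hadd : ∀ f f', Good f → Good f' → Good (f + f') := by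
      rintro f f' ⟨b, hb⟩ ⟨b', hb'⟩
      obtain ⟨c, hc⟩ := hs.add (presMap v f) (presMap v f')
      refine ⟨b + b' + c, ?_⟩
      rw [map_add, hb, hb', map_add, hc, smul_add, smul_add]
      abel
    have hzero : Good 0 := by
      obtain ⟨c, hc⟩ := hs.map_zero'
      exact ⟨c, by rw [map_zero, map_zero, hc, zero_sub, neg_add_cancel]⟩
    have hneg : ∀ f, Good f → Good (-f) := by
      rintro f ⟨b, hb⟩
      obtain ⟨c, hc⟩ := hs.add (presMap v f) (-presMap v f)
      obtain ⟨c', hc'⟩ := hs.map_zero'
      rw [add_neg_cancel, hc'] at hc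
      refine ⟨c' - c - b, ?_⟩
      rw [map_neg, hb, map_neg, smul_sub, smul_sub, hc]
      abel
    refine Finset.sum_induction _ Good hadd hzero fun i _ => ?_
    refine Finset.sum_induction _ Good hadd hzero fun g _ => ?_
    induction f i g using Int.induction_on with
    | zero => rw [zero_smul]; exact hzero
    | succ n ih => rw [add_smul, one_smul]; exact hadd _ _ ih (hsingle i g)
    | pred n ih =>
      rw [sub_smul, one_smul, sub_eq_add_neg]
      exact hadd _ _ ih (hneg _ (hsingle i g))
  have hD : ∀ x : presKer (G := G) v, ∃ b, p • b = (x : Pres ι G) - Q x := fun x => by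
    obtain ⟨b, hb⟩ := hQ x
    obtain ⟨c, hc⟩ := hs.map_zero'
    refine ⟨c - b, ?_⟩
    rw [hb, show presMap v (x : Pres ι G) = 0 from x.2, hc, smul_sub]
    abel
  choose D hD using hD
  let D' : presKer (G := G) v →+ Pres ι G := AddMonoidHom.mk' D fun x y =>
    nsmul_pres_injective (p := p) (by
      simp only [smul_add, hD, AddSubgroup.coe_add, map_add]; abel)
  have hDe : ∀ (g : G) x, D' (g • x) = g • D' x := fun g x => nsmul_pres_injective (p := p) (by
    show p • D (g • x) = p • (g • D x)
    rw [smul_comm p g (D x), hD, hD, smul_sub, ← hQe]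
    rfl)
  refine ⟨⟨Ψ.comp D', fun g x => by
    show Ψ (D' (g • x)) = g • Ψ (D' x)
    rw [hDe, hΨe]⟩, Subtype.ext (AddMonoidHom.ext fun x => ?_)⟩
  rw [hs.toHom_apply]
  show (QuotientAddGroup.mk (Ψ (D ⟨p • s x, _⟩)) : modP p A) = _
  obtain ⟨b, hb⟩ := hQ (s x)
  obtain ⟨c, hc⟩ := hs.map_zero'
  rw [hs.right_inv, sub_self, zero_add] at hb
  have hDs : D ⟨p • s x, hs.nsmul_mem _⟩ = s x - p • b := nsmul_pres_injective (p := p) (by
    show p • D _ = p • (s x - p • b)
    rw [hD, map_nsmul, hb, smul_sub]
    )
  rw [hDs, map_sub, QuotientAddGroup.mk_sub, map_nsmul, modP_mk_nsmul, sub_zero, hΨ, hs.right_inv]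

/-- `Ext¹(V, A) ≅ Hom(V, A/p)` for `V` projective modulo `p`. -/
theorem IsModPSection.natCard_ext1 :
    Nat.card (ext1 G A v) = Nat.card (equivHom G V (modP p A)) := by
  have hker : (presRestr G A v).range = (hs.toHom (A := A)).ker :=
    AddSubgroup.ext fun h => (hs.toHom_eq_zero_iff h).symm
  exact Nat.card_congr ((QuotientAddGroup.quotientAddEquivOfEq hker).trans
    (QuotientAddGroup.quotientKerEquivOfSurjective _ hs.toHom_surjective)).toEquiv

end section_

end FermatLib.CFT
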