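import Fermat.Agent.CFT.GWEulerArtin
import Fermat.Agent.CFT.GWEulerExt
import Fermat.Agent.CFT.GWEulerInterface

/-!
Representations induced from a cyclic group of order prime to `p`: Frobenius reciprocity, fixed
points and a presentation which splits modulo `p`.
-/

set_option autoImplicit false

open Module

namespace FermatLib.CFT

open GWKummer (presSingle presMap_presSingle)

variable {p : ℕ} [Fact p.Prime] {G : Type} [Group G] [Fintype G] {M : Type} [AddCommGroup M]
  [Module (ZMod p) M] (ρ : Representation (ZMod p) G M) (g : G)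

/-- The representation induced from `⟨g⟩` and `M`. -/
abbrev indRep : Representation (ZMod p) G (G ⧸ Subgroup.zpowers g → M) :=
  funRep (G ⧸ Subgroup.zpowers g) ρ

omit [Fintype G] in
theorem apply_mem_zpowers_of_commute {B : Type*} [AddCommGroup B] [DistribMulAction G B]
    {φ : M → B} (hφ : ∀ m, φ (ρ g m) = g • φ m) {c : G} (hc : c ∈ Subgroup.zpowers g) (m : M) :
    φ (ρ c m) = c • φ m := by
  let S : Subgroup G :=
    { carrier := {c | ∀ m, φ (ρ c m) = c • φ m}
      one_mem' := fun m => by simp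
      mul_mem' := fun {a b} ha hb m => by rw [map_mul, Module.End.mul_apply, ha, hb, mul_smul]
      inv_mem' := fun {a} ha m => by
        rw [eq_inv_smul_iff, ← ha, ← Module.End.mul_apply, ← map_mul, mul_inv_cancel, map_one,
          Module.End.one_apply] }
  exact (Subgroup.zpowers_le.mpr (show g ∈ S from hφ) : Subgroup.zpowers g ≤ S) hc m

section reciprocity

variable [DecidableEq (G ⧸ Subgroup.zpowers g)]

/-- The function supported at the trivial coset. -/
noncomputable def deltaOne : M →+ RepMod (indRep ρ g) :=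
  (toRepMod (indRep ρ g)).toAddMonoidHom.comp
    (AddMonoidHom.single (fun _ : G ⧸ Subgroup.zpowers g => M) ((1 : G) : G ⧸ Subgroup.zpowers g))

omit [Fintype G] in
theorem deltaOne_apply (m : M) : deltaOne ρ g m =
    toRepMod (indRep ρ g) (Pi.single ((1 : G) : G ⧸ Subgroup.zpowers g) m) := rfl

omit [Fintype G] in
theorem smul_deltaOne (x : G) (m : M) : x • deltaOne ρ g m =
    toRepMod (indRep ρ g) (Pi.single (x : G ⧸ Subgroup.zpowers g) (ρ x m)) := by
  rw [deltaOne_apply, smul_toRepMod]
  refine congrArg _ (funext fun y => ?_)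
  have e : x⁻¹ • y = ((1 : G) : G ⧸ Subgroup.zpowers g) ↔ y = (x : G ⧸ Subgroup.zpowers g) := by
    rw [inv_smul_eq_iff, MulAction.Quotient.smul_coe, smul_eq_mul, mul_one]
  rw [funRep_apply, Pi.single_apply, Pi.single_apply]
  by_cases h : y = (x : G ⧸ Subgroup.zpowers g)
  · rw [if_pos (e.2 h), if_pos h]
  · rw [if_neg (fun h' => h (e.1 h')), if_neg h, map_zero]

omit [Fintype G] in
theorem deltaOne_comm (m : M) : deltaOne ρ g (ρ g m) = g • deltaOne ρ g m := by
  rw [smul_deltaOne, deltaOne_apply]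
  refine congrArg (fun y => toRepMod (indRep ρ g) (Pi.single y (ρ g m))) ?_
  exact (QuotientGroup.eq.mpr (by simp)).symm

theorem sum_out_smul_deltaOne [Fintype (G ⧸ Subgroup.zpowers g)]
    (f : G ⧸ Subgroup.zpowers g → M) :
    ∑ y : G ⧸ Subgroup.zpowers g, y.out • deltaOne ρ g (ρ y.out⁻¹ (f y)) =
      toRepMod (indRep ρ g) f := by
  simp only [smul_deltaOne, ← Module.End.mul_apply, ← map_mul, mul_inv_cancel, map_one,
    Module.End.one_apply, QuotientGroup.out_eq', ← map_sum]
  exact congrArg _ (Finset.univ_sum_single f)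

variable (B : Type*) [AddCommGroup B] [DistribMulAction G B]

/-- Additive maps commuting with `g`. -/
def commHom : AddSubgroup (M →+ B) where
  carrier := {φ | ∀ m, φ (ρ g m) = g • φ m}
  zero_mem' := fun m => (smul_zero g).symm
  add_mem' := fun {a b} ha hb m => by
    simp only [AddMonoidHom.add_apply, ha m, hb m, smul_add]
  neg_mem' := fun {a} ha m => by simp only [AddMonoidHom.neg_apply, ha m, smul_neg]

/-- Frobenius reciprocity. -/
theorem existsUnique_equivHom_deltaOne (φ : commHom ρ g B) :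
    ∃! H : equivHom G (RepMod (indRep ρ g)) B,
      ∀ m, (H : RepMod (indRep ρ g) →+ B) (deltaOne ρ g m) = (φ : M →+ B) m := by
  classical
  have : Fintype (G ⧸ Subgroup.zpowers g) := Fintype.ofFinite _
  have hT : ∀ (x x' : G) (w : M), (x : G ⧸ Subgroup.zpowers g) = x' →
      x • (φ : M →+ B) (ρ x⁻¹ w) = x' • (φ : M →+ B) (ρ x'⁻¹ w) := fun x x' w h => by
    have hc : x⁻¹ * x' ∈ Subgroup.zpowers g := QuotientGroup.eq.mp h
    have h1 := apply_mem_zpowers_of_commute ρ g φ.2 hc (ρ x'⁻¹ w)
    rw [← Module.End.mul_apply, ← map_mul, mul_assoc, mul_inv_cancel, mul_one] at h1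
    rw [h1, ← mul_smul, mul_inv_cancel_left]
  let H₀ : RepMod (indRep ρ g) →+ B :=
    AddMonoidHom.mk' (fun f => ∑ y : G ⧸ Subgroup.zpowers g,
      y.out • (φ : M →+ B) (ρ y.out⁻¹ ((toRepMod (indRep ρ g)).symm f y)))
      fun a b => by
        rw [← Finset.sum_add_distrib]
        refine Finset.sum_congr rfl fun y _ => ?_
        rw [map_add, Pi.add_apply, map_add, map_add, smul_add]
  have hH₀ : ∀ f, H₀ (toRepMod (indRep ρ g) f) =
      ∑ y : G ⧸ Subgroup.zpowers g, y.out • (φ : M →+ B) (ρ y.out⁻¹ (f y)) := fun f => rfl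
  have hHe : ∀ (s : G) f, H₀ (s • f) = s • H₀ f := fun s f => by
    obtain ⟨f, rfl⟩ := (toRepMod (indRep ρ g)).surjective f
    rw [smul_toRepMod, hH₀, hH₀, Finset.smul_sum]
    refine (Fintype.sum_equiv (MulAction.toPerm s) _ _ fun y => ?_).symm
    rw [MulAction.toPerm_apply, funRep_apply, inv_smul_smul,
      hT (s • y).out (s * y.out) _ (by
        rw [QuotientGroup.out_eq', ← smul_eq_mul, ← MulAction.Quotient.smul_coe,
          QuotientGroup.out_eq']),
      ← Module.End.mul_apply, ← map_mul, mul_inv_rev, inv_mul_cancel_right, mul_smul]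
  have hd : ∀ m, H₀ (deltaOne ρ g m) = (φ : M →+ B) m := fun m => by
    rw [deltaOne_apply, hH₀, Finset.sum_eq_single ((1 : G) : G ⧸ Subgroup.zpowers g)]
    · rw [Pi.single_eq_same, hT _ 1 m (QuotientGroup.out_eq' _)]
      simp
    · intro y _ hy
      rw [Pi.single_eq_of_ne hy, map_zero, map_zero, smul_zero]
    · simp
  refine ⟨⟨H₀, hHe⟩, hd, fun H hH => Subtype.ext (AddMonoidHom.ext fun f => ?_)⟩
  obtain ⟨f, rfl⟩ := (toRepMod (indRep ρ g)).surjective f
  show (H : RepMod (indRep ρ g) →+ B) _ = H₀ _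
  rw [← sum_out_smul_deltaOne, map_sum, map_sum]
  refine Finset.sum_congr rfl fun y _ => ?_
  rw [H.2, hH, hHe, hd]

/-- Frobenius reciprocity, counted. -/
theorem natCard_equivHom_indRep :
    Nat.card (equivHom G (RepMod (indRep ρ g)) B) = Nat.card (commHom ρ g B) := by
  let r : equivHom G (RepMod (indRep ρ g)) B → commHom ρ g B := fun H =>
    ⟨(H : RepMod (indRep ρ g) →+ B).comp (deltaOne ρ g), fun m => by
      show (H : RepMod (indRep ρ g) →+ B) (deltaOne ρ g (ρ g m)) = g • _
      rw [deltaOne_comm, H.2]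
      rfl⟩
  refine Nat.card_congr (Equiv.ofBijective r ⟨fun H H' h => ?_, fun φ => ?_⟩)
  · exact (existsUnique_equivHom_deltaOne ρ g B (r H')).unique
      (fun m => DFunLike.congr_fun (congrArg Subtype.val h) m) fun m => rfl
  · obtain ⟨H, hH, -⟩ := existsUnique_equivHom_deltaOne ρ g B φ
    exact ⟨H, Subtype.ext (AddMonoidHom.ext hH)⟩

end reciprocity

/-- Fixed points of an induced representation. -/
theorem natCard_invariants_indRep :
    Nat.card (indRep ρ g).invariants = Nat.card {m : M // ρ g m = m} := by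
  classical
  have hfix : ∀ (f : G ⧸ Subgroup.zpowers g → M), f ∈ (indRep ρ g).invariants →
      ∀ (x : G), f (x : G ⧸ Subgroup.zpowers g) = ρ x (f ((1 : G) : G ⧸ Subgroup.zpowers g)) :=
    fun f hf x => by
      have h := congrFun (hf x) (x : G ⧸ Subgroup.zpowers g)
      rw [funRep_apply, MulAction.Quotient.smul_coe, smul_eq_mul, inv_mul_cancel] at h
      exact h.symm
  refine Nat.card_congr
    { toFun := fun f => ⟨(f : G ⧸ Subgroup.zpowers g → M) ((1 : G) : G ⧸ Subgroup.zpowers g), ?_⟩
      invFun := fun m => ⟨fun y => Quotient.liftOn' y (fun x : G => ρ x m.1) fun a b hab => ?_, ?_⟩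
      left_inv := fun f => Subtype.ext (funext fun y => ?_)
      right_inv := fun m => Subtype.ext (show ρ (1 : G) m.1 = m.1 by simp) }
  · rw [← hfix _ f.2 g, show ((g : G) : G ⧸ Subgroup.zpowers g) = ((1 : G) : G ⧸ Subgroup.zpowers g)
      from QuotientGroup.eq.mpr (by simp)]
  · rw [QuotientGroup.leftRel_apply] at hab
    have hc : ρ (a⁻¹ * b) m.1 = m.1 := by
      obtain ⟨n, hn⟩ := (isOfFinOrder_of_finite g).mem_powers_iff_mem_zpowers.mpr hab
      have hn' : g ^ n = a⁻¹ * b := hn
      rw [← hn']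
      clear hn hn'
      induction n with
      | zero => simp
      | succ n ih => rw [pow_succ, map_mul, Module.End.mul_apply, m.2, ih]
    conv_lhs => rw [← hc, ← Module.End.mul_apply, ← map_mul, mul_inv_cancel_left]
  · intro s
    funext y
    induction y using QuotientGroup.induction_on with
    | H x =>
      rw [funRep_apply, MulAction.Quotient.smul_coe]
      show ρ s (ρ (s⁻¹ • x) m.1) = ρ x m.1
      rw [← Module.End.mul_apply, ← map_mul, smul_eq_mul, mul_inv_cancel_left]
  · induction y using QuotientGroup.induction_on with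
    | H x => exact (hfix _ f.2 x).symm

/-- The reduction of a presentation map. -/
noncomputable def presMapModP {ι : Type*} [Fintype ι] {V : Type*} [AddCommGroup V]
    [DistribMulAction G V] (v : ι → V) (hV : ∀ x : V, p • x = 0) : modP p (Pres ι G) →+ V :=
  QuotientAddGroup.lift _ (presMap v) fun x hx => by
    obtain ⟨b, rfl⟩ := hx
    rw [AddMonoidHom.mem_ker, nsmulAddMonoidHom_apply, map_nsmul, hV]

theorem presMapModP_mk {ι : Type*} [Fintype ι] {V : Type*} [AddCommGroup V]
    [DistribMulAction G V] (v : ι → V) (hV : ∀ x : V, p • x = 0) (b : Pres ι G) :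
    presMapModP v hV (QuotientAddGroup.mk b) = presMap v b := rfl

/-- An equivariant splitting modulo `p` gives a section. -/
theorem exists_modPSection {ι : Type*} [Fintype ι] {V : Type*} [AddCommGroup V]
    [DistribMulAction G V] (v : ι → V) (hV : ∀ x : V, p • x = 0)
    (H : equivHom G V (modP p (Pres ι G)))
    (hH : ∀ x, presMapModP v hV ((H : V →+ modP p (Pres ι G)) x) = x) :
    ∃ s : V → Pres ι G, IsModPSection v p s := by
  choose s hs using fun x => QuotientAddGroup.mk_surjective ((H : V →+ modP p (Pres ι G)) x)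
  have key : ∀ a b : Pres ι G,
      (QuotientAddGroup.mk a : modP p (Pres ι G)) = QuotientAddGroup.mk b → ∃ c, a = b + p • c :=
    fun a b hab => by
      obtain ⟨c, hc⟩ := (modP_mk_eq_zero_iff (a - b)).1 (by
        rw [QuotientAddGroup.mk_sub, hab, sub_self])
      exact ⟨c, by rw [hc, add_sub_cancel]⟩
  refine ⟨s, hV, fun x => ?_, fun x y => key _ _ ?_, fun t x => key _ _ ?_⟩
  · rw [← presMapModP_mk (p := p) v hV, hs, hH]
  · rw [QuotientAddGroup.mk_add, hs, hs, hs, map_add]
  · rw [← smul_modP_mk, hs, hs, H.2]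

/-- Representations induced from a group of order prime to `p` split modulo `p`. -/
theorem exists_presentation_indRep [FiniteDimensional (ZMod p) M]
    (hg : (orderOf g).Coprime p) :
    ∃ (n : ℕ) (v : Fin n → RepMod (indRep ρ g)) (s : RepMod (indRep ρ g) → Pres (Fin n) G),
      Function.Surjective (presMap (G := G) v) ∧ IsModPSection v p s := by
  classical
  let b := Module.finBasis (ZMod p) M
  let v : Fin (finrank (ZMod p) M) → RepMod (indRep ρ g) := fun k => deltaOne ρ g (b k)
  have hV : ∀ x : RepMod (indRep ρ g), p • x = 0 := fun x => by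
    obtain ⟨f, rfl⟩ := (toRepMod (indRep ρ g)).surjective x
    rw [← map_nsmul, ← Nat.cast_smul_eq_nsmul (ZMod p) p f, ZMod.natCast_self, zero_smul, map_zero]
  let L : M →ₗ[ZMod p] modP p (Pres (Fin (finrank (ZMod p) M)) G) :=
    b.constr (ZMod p) fun k => QuotientAddGroup.mk (presSingle k (1 : G))
  have hL : ∀ m, presMapModP v hV (L m) = deltaOne ρ g m := fun m => by
    have hVm : ∀ x : RepMod (indRep ρ g), p • x = 0 := hV
    letI : Module (ZMod p) (RepMod (indRep ρ g)) := AddCommGroup.zmodModule hVm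
    have e : (AddMonoidHom.toZModLinearMap p (presMapModP v hV)).comp L =
        AddMonoidHom.toZModLinearMap p (deltaOne ρ g) := b.ext fun k => by
      show presMapModP v hV (L (b k)) = deltaOne ρ g (b k)
      rw [Basis.constr_basis, presMapModP_mk, presMap_presSingle, one_smul]
    exact LinearMap.congr_fun e m
  obtain ⟨u, hu⟩ : ∃ u : ℕ, ((u * orderOf g : ℕ) : ZMod p) = 1 := by
    have hne : ((orderOf g : ℕ) : ZMod p) ≠ 0 := by
      rw [Ne, ZMod.natCast_eq_zero_iff]
      exact ((Fact.out : p.Prime).coprime_iff_not_dvd).1 hg.symm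
    refine ⟨((orderOf g : ZMod p)⁻¹).val, ?_⟩
    rw [Nat.cast_mul, ZMod.natCast_zmod_val, inv_mul_cancel₀ hne]
  let T : M →+ modP p (Pres (Fin (finrank (ZMod p) M)) G) := ∑ i ∈ Finset.range (orderOf g),
    (DistribSMul.toAddMonoidHom _ (g ^ i)).comp
      (L.toAddMonoidHom.comp (ρ (g ^ i)⁻¹).toAddMonoidHom)
  have hTa : ∀ m, T m = ∑ i ∈ Finset.range (orderOf g), g ^ i • L (ρ (g ^ i)⁻¹ m) := fun m => by
    simp [T]
  let φ : commHom ρ g (modP p (Pres (Fin (finrank (ZMod p) M)) G)) := ⟨u • T, fun m => by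
    show u • T (ρ g m) = g • (u • T m)
    rw [smul_comm g u]
    congr 1
    rw [hTa, hTa, Finset.smul_sum]
    have hN : 0 < orderOf g := orderOf_pos g
    let a : ℕ → modP p (Pres (Fin (finrank (ZMod p) M)) G) := fun i =>
      g ^ i • L (ρ (g ^ i)⁻¹ (ρ g m))
    have ha : ∀ i, g • g ^ i • L (ρ (g ^ i)⁻¹ m) = a (i + 1) := fun i => by
      simp only [a, ← mul_smul, ← pow_succ', ← Module.End.mul_apply, ← map_mul]
      congr 3
      rw [pow_succ', mul_inv_rev, inv_mul_cancel_right]
    show ∑ i ∈ Finset.range (orderOf g), a i = _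
    rw [Finset.sum_congr rfl fun i _ => ha i]
    obtain ⟨N, hN'⟩ := Nat.exists_eq_succ_of_ne_zero hN.ne'
    have h0 : a (N + 1) = a 0 := by
      simp only [a, ← Nat.succ_eq_add_one, ← hN', pow_orderOf_eq_one, pow_zero]
    rw [hN', Finset.sum_range_succ' a N, Finset.sum_range_succ (fun i => a (i + 1)) N, h0]⟩
  obtain ⟨H, hH, -⟩ := existsUnique_equivHom_deltaOne ρ g _ φ
  have hsplit : ∀ x, presMapModP v hV
      ((H : RepMod (indRep ρ g) →+ modP p (Pres (Fin (finrank (ZMod p) M)) G)) x) = x := by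
    let K : equivHom G (RepMod (indRep ρ g)) (RepMod (indRep ρ g)) :=
      ⟨(presMapModP v hV).comp H.1, fun t x => by
        show presMapModP v hV (H.1 (t • x)) = t • presMapModP v hV (H.1 x)
        rw [H.2]
        refine QuotientAddGroup.induction_on (H.1 x) fun c => ?_
        rw [smul_modP_mk, presMapModP_mk, presMapModP_mk, presMap_smul]⟩
    let I : equivHom G (RepMod (indRep ρ g)) (RepMod (indRep ρ g)) :=
      ⟨AddMonoidHom.id _, fun t x => rfl⟩
    let d : commHom ρ g (RepMod (indRep ρ g)) := ⟨deltaOne ρ g, deltaOne_comm ρ g⟩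
    have hK : K = I := (existsUnique_equivHom_deltaOne ρ g _ d).unique (fun m => by
      show presMapModP v hV (H.1 (deltaOne ρ g m)) = deltaOne ρ g m
      rw [hH, show (φ : M →+ _) m = u • T m from rfl, map_nsmul, hTa, map_sum]
      have hterm : ∀ i ∈ Finset.range (orderOf g),
          presMapModP v hV (g ^ i • L (ρ (g ^ i)⁻¹ m)) = deltaOne ρ g m := fun i _ => by
        refine Eq.trans ?_ ((congrArg (g ^ i • ·) (hL (ρ (g ^ i)⁻¹ m))).trans ?_)
        · refine QuotientAddGroup.induction_on (L (ρ (g ^ i)⁻¹ m)) fun c => ?_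
          rw [smul_modP_mk, presMapModP_mk, presMapModP_mk, presMap_smul]
        · rw [← apply_mem_zpowers_of_commute ρ g (φ := deltaOne ρ g) (deltaOne_comm ρ g)
            (Subgroup.pow_mem _ (Subgroup.mem_zpowers g) i), ← Module.End.mul_apply, ← map_mul,
            mul_inv_cancel, map_one, Module.End.one_apply]
      rw [Finset.sum_congr rfl hterm, Finset.sum_const, Finset.card_range, ← mul_nsmul',
        ← map_nsmul, ← Nat.cast_smul_eq_nsmul (ZMod p) (u * orderOf g) m, hu, one_smul]) fun m => rfl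
    exact fun x => DFunLike.congr_fun (congrArg Subtype.val hK) x
  obtain ⟨s, hs⟩ := exists_modPSection v hV H hsplit
  exact ⟨_, v, s, fun x => ⟨s x, hs.right_inv x⟩, hs⟩

end FermatLib.CFT
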