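import Fermat.Agent.CFT.GWEvalPerm

/-!
The ring of integers modulo `p` under an automorphism: a free permutation module up to
finite index.
-/

set_option autoImplicit false
set_option linter.unusedSectionVars false

open NumberField Polynomial

namespace FermatLib.CFT

variable {p : ℕ} [Fact p.Prime] {L : Type} [Field L] [NumberField L] [IsGalois ℚ L]

/-- An automorphism on integers. -/
noncomputable def intEnd (g : L ≃ₐ[ℚ] L) : 𝓞 L →+ 𝓞 L :=
  (RingOfIntegers.mapRingHom (g : L →+* L)).toAddMonoidHom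

theorem coe_intEnd (g : L ≃ₐ[ℚ] L) (x : 𝓞 L) : ((intEnd g x : 𝓞 L) : L) = g (x : L) := rfl

/-- A rational basis permuted freely by `g`. -/
theorem exists_basis_free (g : L ≃ₐ[ℚ] L) :
    ∃ (ι : Type) (_ : Fintype ι) (b : Module.Basis (ι × ZMod (orderOf g)) ℚ L),
      ∀ i j, g (b (i, j)) = b (i, j + 1) := by
  classical
  set m := orderOf g with hm
  have : NeZero m := ⟨(orderOf_pos g).ne'⟩
  set F := IntermediateField.fixedField (Subgroup.zpowers g) with hF
  let u : ZMod m → (L ≃ₐ[F] L) := fun i => IntermediateField.fixingSubgroupEquiv F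
    ⟨g ^ i.val, (IntermediateField.le_iff_le _ _).1 le_rfl (Subgroup.npow_mem_zpowers g _)⟩
  have hu : ∀ i z, u i z = (g ^ i.val) z := fun _ _ => rfl
  obtain ⟨θ, hθ⟩ := exists_linearIndependent_algEquiv_apply F L
  have hli : LinearIndependent F fun i : ZMod m => (g ^ i.val) θ :=
    hθ.comp u fun i j h => ZMod.val_injective m (pow_injOn_Iio_orderOf (ZMod.val_lt i) (ZMod.val_lt j)
      (AlgEquiv.ext fun z => by rw [← hu, ← hu, h]))
  let bn : Module.Basis (ZMod m) F L := basisOfLinearIndependentOfCardEqFinrank hli (by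
    rw [ZMod.card, IntermediateField.finrank_fixedField_eq_card, Nat.card_zpowers])
  let bw := Module.Free.chooseBasis ℚ F
  refine ⟨Module.Free.ChooseBasisIndex ℚ F, inferInstance, bw.smulTower bn, fun i j => ?_⟩
  have hsucc : (g ^ ((j + 1 : ZMod m)).val) θ = g ((g ^ j.val) θ) := by
    rw [← AlgEquiv.mul_apply, ← pow_succ', ZMod.val_add, ZMod.val_one_eq_one_mod, Nat.add_mod_mod]
    exact DFunLike.congr_fun (pow_mod_orderOf g _) θ
  simp only [Module.Basis.smulTower_apply, bn, coe_basisOfLinearIndependentOfCardEqFinrank]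
  rw [IntermediateField.smul_def, IntermediateField.smul_def, smul_eq_mul, smul_eq_mul, map_mul,
    hsucc]
  congr 1
  exact (IntermediateField.mem_fixedField_iff _ _).1 (bw i).2 g (Subgroup.mem_zpowers g)

/-- The characteristic polynomial on integers modulo `p`. -/
theorem ringOfIntegers_modP_poly (g : L ≃ₐ[ℚ] L) :
    Finite (modP p (𝓞 L)) ∧ endPoly (modPEnd p (intEnd g)) =
      (X ^ orderOf g - 1) ^ (Module.finrank ℚ L / orderOf g) := by
  classical
  obtain ⟨ι, _, b, hb⟩ := exists_basis_free g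
  have hm0 : 0 < orderOf g := orderOf_pos g
  have : NeZero (orderOf g) := ⟨hm0.ne'⟩
  let σ : Equiv.Perm (ι × ZMod (orderOf g)) := Equiv.prodCongr (Equiv.refl ι) (shiftPerm _)
  obtain ⟨d, hd0, hd⟩ := exists_integral_multiples ℤ ℚ (Finset.univ.image b)
  let w : ι × ZMod (orderOf g) → 𝓞 L := fun x =>
    ⟨d • b x, hd _ (Finset.mem_image_of_mem _ (Finset.mem_univ x))⟩
  have hw : ∀ x, (w x : L) = (d : ℚ) • b x := fun x => (Int.cast_smul_eq_zsmul ℚ d (b x)).symm
  have hwg : ∀ x, intEnd g (w x) = w (σ x) := fun ⟨i, j⟩ => RingOfIntegers.ext (by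
    rw [coe_intEnd, hw, hw, Rat.smul_def, Rat.smul_def, map_mul, map_ratCast, hb]
    rfl)
  let j : ((ι × ZMod (orderOf g)) → ℤ) →+ 𝓞 L :=
    AddMonoidHom.mk' (fun c => ∑ x, c x • w x) fun c c' => by
      simp only [Pi.add_apply, add_smul, Finset.sum_add_distrib]
  have hjval : ∀ c, (j c : L) = ∑ x, ((c x * d : ℤ) : ℚ) • b x := fun c => by
    show algebraMap (𝓞 L) L (∑ x, c x • w x) = _
    rw [map_sum]
    refine Finset.sum_congr rfl fun x _ => ?_
    rw [map_zsmul, show algebraMap (𝓞 L) L (w x) = (d : ℚ) • b x from hw x, Int.cast_mul, ← smul_smul]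
    exact (Int.cast_smul_eq_zsmul ℚ _ _).symm
  have hjinj : Function.Injective j := fun c c' h => funext fun x => by
    have h' := congrArg (fun z : 𝓞 L => b.repr (z : L) x) h
    simp only [hjval, Module.Basis.repr_sum_self, Int.cast_inj] at h'
    exact mul_right_cancel₀ hd0 h'
  have : Module.Finite ℤ (𝓞 L ⧸ j.range) :=
    Module.Finite.of_surjective (QuotientAddGroup.mk' j.range).toIntLinearMap
      (QuotientAddGroup.mk'_surjective _)
  have htor : ∀ y : 𝓞 L, ∃ N : ℤ, N ≠ 0 ∧ N • y ∈ j.range := fun y => by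
    have hint : ∀ z : ℚ, ∃ N : ℕ, N ≠ 0 ∧ ∀ M : ℕ, N ∣ M → ∃ a : ℤ, (M : ℚ) * z = a := fun z => by
      refine ⟨z.den, z.den_nz, fun M ⟨k, hk⟩ => ⟨z.num * k, ?_⟩⟩
      rw [hk, Nat.cast_mul, mul_comm (z.den : ℚ), mul_assoc, Rat.den_mul_eq_num]
      push_cast
      ring
    choose N hN0 hN using fun x => hint (b.repr (y : L) x)
    choose a ha using fun x => hN x (∏ z, N z) (Finset.dvd_prod_of_mem N (Finset.mem_univ x))
    refine ⟨d * ((∏ z, N z : ℕ) : ℤ),
      mul_ne_zero hd0 (Int.natCast_ne_zero.2 (Finset.prod_ne_zero_iff.2 fun z _ => hN0 z)),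
      a, RingOfIntegers.ext ?_⟩
    rw [hjval]
    show _ = algebraMap (𝓞 L) L ((d * ((∏ z, N z : ℕ) : ℤ)) • y)
    rw [map_zsmul, ← Int.cast_smul_eq_zsmul ℚ]
    conv_rhs => rw [show algebraMap (𝓞 L) L y = ∑ x, b.repr (y : L) x • b x from
      (b.sum_repr (y : L)).symm, Finset.smul_sum]
    refine Finset.sum_congr rfl fun x _ => ?_
    rw [smul_smul]
    congr 1
    push_cast
    rw [← ha x, Nat.cast_prod]
    ring
  have : Finite (𝓞 L ⧸ j.range) := Module.finite_of_fg_torsion _ fun c => by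
    induction c using QuotientAddGroup.induction_on with
    | H y =>
      obtain ⟨N, hN, hmem⟩ := htor y
      refine ⟨⟨N, mem_nonZeroDivisors_of_ne_zero hN⟩, ?_⟩
      show N • (QuotientAddGroup.mk y : 𝓞 L ⧸ j.range) = 0
      rw [← QuotientAddGroup.mk_zsmul, QuotientAddGroup.eq_zero_iff]
      exact hmem
  have hcomm : ∀ c, j (permHom σ c) = intEnd g (j c) := fun c => by
    show ∑ x, c (σ.symm x) • w x = intEnd g (∑ x, c x • w x)
    rw [map_sum, ← Equiv.sum_comp σ]
    exact Finset.sum_congr rfl fun x _ => by rw [σ.symm_apply_apply, map_zsmul, hwg]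
  have hE := (EulerRatio.of_finite_coker j hjinj hcomm).1 (eulerRatio_permHom (p := p) σ)
  have : Subsingleton (torP p (𝓞 L)) := ⟨fun x y => Subtype.ext
    ((smul_right_inj (Fact.out : p.Prime).ne_zero).1 (x.2.trans y.2.symm))⟩
  refine ⟨hE.finite_quot, ?_⟩
  have h := hE.eq
  rw [mul_one, endPoly_subsingleton (torPEnd p (intEnd g)), one_mul] at h
  rw [h, permPoly_free hm0 σ fun x i => ?_, ← Module.finrank_eq_nat_card_basis b]
  have hs : ∀ (i : ℕ) (x : ι × ZMod (orderOf g)), (σ ^ i) x = (x.1, x.2 + i) := by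
    intro i
    induction i with
    | zero => simp
    | succ k ih =>
      intro x
      rw [pow_succ', Equiv.Perm.mul_apply, ih, Nat.cast_succ, ← add_assoc]
      rfl
  rw [hs, Prod.ext_iff, eq_self_iff_true, true_and, add_eq_left]
  exact ZMod.natCast_eq_zero_iff _ _

end FermatLib.CFT
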