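import Fermat.Agent.CFT.GWEvalPrimeUnits
import Fermat.Agent.CFT.GWEvalPrimeLattice

/-!
Euler classes of the ideles at a finite prime.
-/

set_option autoImplicit false
set_option linter.unusedSectionVars false

open NumberField Polynomial

namespace FermatLib.CFT

open Loc

variable {p : ℕ} [Fact p.Prime] {L : Type} [Field L] [NumberField L] [IsGalois ℚ L]

section units

variable {q : Nat.Primes}

/-- An algebraic number integral at every embedding is an integer. -/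
theorem isIntegral_of_norm_le_one {x : L}
    (h : ∀ (r : Nat.Primes) (ψ : Emb L r), ‖ψ x‖ ≤ 1) : IsIntegral ℤ x := by
  obtain ⟨y, hy⟩ := IsDedekindDomain.HeightOneSpectrum.mem_integers_of_valuation_le_one
    (R := 𝓞 L) L x fun v => by
    obtain ⟨r, ψ, rfl⟩ := exists_emb_prime v
    exact (ψ.valuation_le_one_iff x).2 (h r ψ)
  rw [← hy]
  exact RingOfIntegers.isIntegral_coe y

theorem norm_ringOfIntegers_le_one (x : 𝓞 L) {r : Nat.Primes} (ψ : Emb L r) : ‖ψ (x : L)‖ ≤ 1 :=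
  ψ.norm_le_one_of_isIntegral (RingOfIntegers.isIntegral_coe x)

theorem norm_q_placeField :
    ‖((q : ℕ) : PadicAlgCl (q : ℕ))‖ =
      ‖uniformizer (placeField L q)‖ ^ ramIdx (placeField L q) :=
  norm_q_eq (placeField L q)

/-- `1 + q² x` as an idele at `q`. -/
theorem exists_oneAdd (x : 𝓞 L) : ∃ f ∈ primeLvl L q (2 * ramIdx (placeField L q)),
    ∀ ψ, ((primeVal L q f ψ).el : PadicAlgCl (q : ℕ)) = 1 + (q : ℕ) ^ 2 * ψ (x : L) := by
  have hψ : ∀ ψ : Emb L q, ψ (1 + (q : ℕ) ^ 2 * (x : L)) = 1 + (q : ℕ) ^ 2 * ψ (x : L) := fun ψ => by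
    simp
  have hle : ∀ ψ : Emb L q,
      ‖((q : ℕ) : PadicAlgCl (q : ℕ)) ^ 2 * ψ (x : L)‖ ≤
        ‖uniformizer (placeField L q)‖ ^ (2 * ramIdx (placeField L q)) := fun ψ => by
    rw [norm_mul, norm_pow, norm_q_placeField (L := L), ← pow_mul, mul_comm _ 2]
    exact mul_le_of_le_one_right (pow_nonneg (norm_nonneg _) _) (norm_ringOfIntegers_le_one x ψ)
  have h1 : ∀ ψ : Emb L q, ‖1 + ((q : ℕ) : PadicAlgCl (q : ℕ)) ^ 2 * ψ (x : L)‖ = 1 := fun ψ =>
    norm_eq_one_of_sub_one_lt (by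
      rw [add_sub_cancel_left]
      exact (hle ψ).trans_lt
        (pow_unif_lt_one _ (Nat.mul_pos two_pos (ramIdx_pos (placeField L q)))))
  have hne : (1 + (q : ℕ) ^ 2 * (x : L) : L) ≠ 0 := fun e => by
    have h := h1 (Classical.arbitrary (Emb L q))
    rw [← hψ, e, map_zero, norm_zero] at h
    exact zero_ne_one h
  refine ⟨mkPrime (principalFamily L (LUnits.of (Units.mk0 _ hne)) q)
    (fun τ ψ => principalFamily_equivariant L _ q τ ψ), ?_⟩
  have hval : ∀ ψ, ((primeVal L q (mkPrime (principalFamily L (LUnits.of (Units.mk0 _ hne)) q)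
      (fun τ ψ => principalFamily_equivariant L _ q τ ψ)) ψ).el : PadicAlgCl (q : ℕ)) =
      1 + (q : ℕ) ^ 2 * ψ (x : L) := fun ψ => by
    rw [mkPrime_val]
    exact hψ ψ
  refine ⟨mem_primeLvl.2 fun ψ => (mem_lvl _).2 ⟨?_, ?_⟩, hval⟩
  · show ‖((primeVal L q _ ψ).el : PadicAlgCl (q : ℕ))‖ = 1
    rw [hval]
    exact h1 ψ
  · show ‖((primeVal L q _ ψ).el : PadicAlgCl (q : ℕ)) - 1‖ ≤ _
    rw [hval, add_sub_cancel_left]
    exact hle ψ

/-- An integer close to prescribed values at the places over `q`. -/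
theorem exists_integer_near (f : primeIdeles L q)
    (hf : f ∈ primeLvl L q (2 * ramIdx (placeField L q))) :
    ∃ x : 𝓞 L, ∀ ψ, ‖((primeVal L q f ψ).el : PadicAlgCl (q : ℕ)) -
      (1 + (q : ℕ) ^ 2 * ψ (x : L))‖ ≤ ‖((q : ℕ) : PadicAlgCl (q : ℕ))‖ ^ 3 := by
  have hq0 : (0 : ℝ) < ‖((q : ℕ) : PadicAlgCl (q : ℕ))‖ :=
    norm_pos_iff.2 (Nat.cast_ne_zero.2 q.2.ne_zero)
  have hq1 : ‖((q : ℕ) : PadicAlgCl (q : ℕ))‖ < 1 := norm_natCast_self_lt_one q
  obtain ⟨u, -, hu, -⟩ := exists_fixed_approx (⊥ : Subgroup (L ≃ₐ[ℚ] L)) {q} (f := (f : Idele L))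
    (fun h => by rw [show h = 1 from Subsingleton.elim _ _, one_smul]) (pow_pos hq0 3)
  have hu' : ∀ ψ : Emb L q, ‖ψ (u.val : L) - ((primeVal L q f ψ).el : PadicAlgCl (q : ℕ))‖ <
      ‖((q : ℕ) : PadicAlgCl (q : ℕ))‖ ^ 3 := fun ψ => hu q (Finset.mem_singleton_self q) ψ
  set y : L := ((u.val : L) - 1) / (q : ℕ) ^ 2 with hy
  have hq2 : ((q : ℕ) : L) ^ 2 ≠ 0 := pow_ne_zero _ (Nat.cast_ne_zero.2 q.2.ne_zero)
  have hψy : ∀ ψ : Emb L q, 1 + (q : ℕ) ^ 2 * ψ y = ψ (u.val : L) := fun ψ => by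
    have : (1 : L) + (q : ℕ) ^ 2 * y = u.val := by
      rw [hy, mul_div_cancel₀ _ hq2, add_sub_cancel]
    simpa using congrArg ψ this
  have hy1 : ∀ ψ : Emb L q, ‖ψ y‖ ≤ 1 := fun ψ => by
    have h : ‖((q : ℕ) : PadicAlgCl (q : ℕ)) ^ 2 * ψ y‖ ≤ ‖((q : ℕ) : PadicAlgCl (q : ℕ))‖ ^ 2 := by
      rw [show ((q : ℕ) : PadicAlgCl (q : ℕ)) ^ 2 * ψ y =
        (ψ (u.val : L) - (primeVal L q f ψ).el) + (((primeVal L q f ψ).el : PadicAlgCl (q : ℕ)) - 1) by
          rw [← hψy]; ring]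
      refine (IsUltrametricDist.norm_add_le_max _ _).trans (max_le ((hu' ψ).le.trans ?_) ?_)
      · exact pow_le_pow_of_le_one hq0.le hq1.le (by norm_num)
      · rw [norm_q_placeField (L := L), ← pow_mul, mul_comm _ 2]
        exact ((mem_lvl _).1 (mem_primeLvl.1 hf ψ)).2
    rw [norm_mul, norm_pow] at h
    exact le_of_mul_le_mul_left (h.trans (mul_one _).ge) (pow_pos hq0 2)
  obtain ⟨d, hd0, hd⟩ := exists_integral_multiples ℤ ℚ ({y} : Finset L)
  obtain ⟨a, d0, hd0q, hda⟩ := Nat.exists_eq_pow_mul_and_not_dvd (Int.natAbs_ne_zero.2 hd0) (q : ℕ)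
    q.2.ne_one
  have hint : IsIntegral ℤ ((d.natAbs : L) * y) := by
    have h := hd y (Finset.mem_singleton_self y)
    rw [zsmul_eq_mul] at h
    rcases Int.natAbs_eq d with e | e
    · rw [e, Int.cast_natCast] at h
      exact h
    · rw [e, Int.cast_neg, Int.cast_natCast, neg_mul] at h
      simpa using h.neg
  have hd0y : IsIntegral ℤ ((d0 : L) * y) := isIntegral_of_norm_le_one fun r ψ => by
    by_cases hr : r = q
    · subst hr
      rw [map_mul, norm_mul, map_natCast]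
      exact mul_le_one₀ (IsUltrametricDist.norm_natCast_le_one _ _) (norm_nonneg _) (hy1 ψ)
    · have h := ψ.norm_le_one_of_isIntegral hint
      rwa [hda, Nat.cast_mul, Nat.cast_pow, mul_assoc, map_mul, norm_mul, map_pow, map_natCast,
        norm_pow, norm_natCast_of_ne hr, one_pow, one_mul] at h
  obtain ⟨m, k, hmk⟩ : IsCoprime (d0 : ℤ) ((q : ℕ) : ℤ) :=
    Nat.Coprime.isCoprime ((q.2.coprime_iff_not_dvd.2 hd0q).symm)
  refine ⟨(m : 𝓞 L) * ⟨_, hd0y⟩, fun ψ => ?_⟩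
  rw [show ((primeVal L q f ψ).el : PadicAlgCl (q : ℕ)) -
      (1 + (q : ℕ) ^ 2 * ψ (((m : 𝓞 L) * ⟨_, hd0y⟩ : 𝓞 L) : L)) =
      -(ψ (u.val : L) - (primeVal L q f ψ).el) +
        (q : ℕ) ^ 2 * (((k : PadicAlgCl (q : ℕ)) * (q : ℕ)) * ψ y) by
    rw [← hψy]
    have e : (k : PadicAlgCl (q : ℕ)) * (q : ℕ) = 1 - (m : PadicAlgCl (q : ℕ)) * (d0 : ℕ) := by
      have := congrArg (fun z : ℤ => (z : PadicAlgCl (q : ℕ))) hmk
      push_cast at this
      linear_combination this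
    rw [e]
    show _ - (1 + _ * ψ (((m : 𝓞 L) : L) * ((d0 : L) * y))) = _
    simp only [map_mul, map_natCast, map_intCast]
    ring]
  refine (IsUltrametricDist.norm_add_le_max _ _).trans (max_le ?_ ?_)
  · rw [norm_neg]; exact (hu' ψ).le
  · rw [norm_mul, norm_pow, norm_mul, norm_mul, pow_succ _ 2]
    refine mul_le_mul_of_nonneg_left ?_ (pow_nonneg hq0.le _)
    calc _ ≤ 1 * ‖((q : ℕ) : PadicAlgCl (q : ℕ))‖ * 1 := mul_le_mul
          (mul_le_mul_of_nonneg_right (IsUltrametricDist.norm_intCast_le_one _ k) hq0.le) (hy1 ψ)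
          (norm_nonneg _) (mul_nonneg zero_le_one hq0.le)
      _ = _ := by ring

theorem norm_q_eq_natCast (hpq : p = (q : ℕ)) :
    ‖(p : placeField L q)‖ = ‖uniformizer (placeField L q)‖ ^ ramIdx (placeField L q) := by
  rw [hpq]
  exact norm_q_eq (placeField L q)

/-- Units near one at `p` modulo `p` are integers modulo `p`. -/
theorem eulerRatio_primeLvl_self (g : L ≃ₐ[ℚ] L) (hpq : p = (q : ℕ)) :
    EulerRatio p (lvlEnd (L := L) q (2 * ramIdx (placeField L q)) g)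
      ((X ^ orderOf g - 1) ^ (Module.finrank ℚ L / orderOf g)) 1 := by
  set K := placeField L q with hK
  set e := ramIdx K
  set U := primeLvl L q (2 * e)
  have he : 0 < e := ramIdx_pos K
  have hv := norm_q_eq_natCast (L := L) hpq
  have hpU : ∀ f : U, (∃ y : U, p • y = f) ↔ (f : primeIdeles L q) ∈ primeLvl L q (2 * e + e) :=
    fun f => by
      rw [mem_primeLvl_add_iff hv (show e < 2 * e by omega)]
      exact ⟨fun ⟨y, hy⟩ => ⟨y, y.2, congrArg Subtype.val hy⟩,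
        fun ⟨y, hy, hy'⟩ => ⟨⟨y, hy⟩, Subtype.ext hy'⟩⟩
  have hlvl : ∀ f : U, ((f : primeIdeles L q) ∈ primeLvl L q (2 * e + e) ↔
      ∀ ψ, ‖((primeVal L q f ψ).el : PadicAlgCl (q : ℕ)) - 1‖ ≤
        ‖((q : ℕ) : PadicAlgCl (q : ℕ))‖ ^ 3) := fun f => by
    rw [mem_primeLvl, norm_q_placeField (L := L), ← pow_mul]
    refine forall_congr' fun ψ => ?_
    rw [mem_lvl, show 2 * e + e = e * 3 by ring]
    exact ⟨fun h => h.2, fun h => ⟨((mem_lvl K).1 (mem_primeLvl.1 f.2 ψ)).1, h⟩⟩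
  choose β hβmem hβ using fun x : 𝓞 L => exists_oneAdd (q := q) x
  have hsub : ∀ (a b : U), (QuotientAddGroup.mk a : modP p U) = QuotientAddGroup.mk b ↔
      ∀ ψ, ‖((primeVal L q a ψ).el : PadicAlgCl (q : ℕ)) - (primeVal L q b ψ).el‖ ≤
        ‖((q : ℕ) : PadicAlgCl (q : ℕ))‖ ^ 3 := fun a b => by
    rw [← sub_eq_zero, ← QuotientAddGroup.mk_sub, mk_eq_zero_iff_modP, hpU, hlvl]
    refine forall_congr' fun ψ => ?_
    have hb1 : ‖((primeVal L q b ψ).el : PadicAlgCl (q : ℕ))‖ = 1 :=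
      ((mem_lvl K).1 (mem_primeLvl.1 b.2 ψ)).1
    have hb0 : ((primeVal L q b ψ).el : PadicAlgCl (q : ℕ)) ≠ 0 := fun h => by simp [h] at hb1
    have e1 : ((primeVal L q ((a - b : U) : primeIdeles L q) ψ).el : PadicAlgCl (q : ℕ)) =
        ((primeVal L q a ψ).el : PadicAlgCl (q : ℕ)) * ((primeVal L q b ψ).el : PadicAlgCl (q : ℕ))⁻¹ := by
      rw [AddSubgroup.coe_sub, map_sub, Pi.sub_apply, sub_eq_add_neg, LocUnits.el_add, LocUnits.el_neg]
      rfl
    rw [e1, show ((primeVal L q a ψ).el : PadicAlgCl (q : ℕ)) *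
        ((primeVal L q b ψ).el : PadicAlgCl (q : ℕ))⁻¹ - 1 =
        (((primeVal L q a ψ).el : PadicAlgCl (q : ℕ)) - (primeVal L q b ψ).el) *
          ((primeVal L q b ψ).el : PadicAlgCl (q : ℕ))⁻¹ by field_simp,
      norm_mul, norm_inv, hb1, inv_one, mul_one]
  let B : 𝓞 L → U := fun x => ⟨β x, hβmem x⟩
  let F : 𝓞 L →+ modP p U := AddMonoidHom.mk' (fun x => QuotientAddGroup.mk (B x)) fun x y => by
    rw [← QuotientAddGroup.mk_add, hsub]
    intro ψ
    rw [AddSubgroup.coe_add, map_add, Pi.add_apply, LocUnits.el_add]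
    show ‖((primeVal L q (β (x + y)) ψ).el : PadicAlgCl (q : ℕ)) -
      ((primeVal L q (β x) ψ).el : PadicAlgCl (q : ℕ)) * (primeVal L q (β y) ψ).el‖ ≤ _
    rw [hβ, hβ, hβ, show ((x + y : 𝓞 L) : L) = (x : L) + (y : L) from rfl, map_add, show (1 : PadicAlgCl (q : ℕ)) + (q : ℕ) ^ 2 * (ψ (x : L) + ψ (y : L)) -
      (1 + (q : ℕ) ^ 2 * ψ (x : L)) * (1 + (q : ℕ) ^ 2 * ψ (y : L)) =
      -((((q : ℕ) : PadicAlgCl (q : ℕ)) ^ 3) *
        ((q : ℕ) * ψ (x : L) * ψ (y : L))) by ring,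
      norm_neg, norm_mul, norm_pow]
    refine mul_le_of_le_one_right (pow_nonneg (norm_nonneg _) _) ?_
    rw [norm_mul, norm_mul]
    exact mul_le_one₀ (mul_le_one₀ (norm_natCast_self_lt_one q).le (norm_nonneg _)
      (norm_ringOfIntegers_le_one x ψ)) (norm_nonneg _) (norm_ringOfIntegers_le_one y ψ)
  have hker : ∀ x, F x = 0 → ∃ y, p • y = x := fun x hx => by
    have h := (hlvl _).1 ((hpU _).1 ((mk_eq_zero_iff_modP _).1 hx))
    have hle : ∀ ψ : Emb L q, ‖ψ (x : L)‖ ≤ ‖((q : ℕ) : PadicAlgCl (q : ℕ))‖ := fun ψ => by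
      have h' := h ψ
      rw [hβ, add_sub_cancel_left, norm_mul, norm_pow, pow_succ _ 2] at h'
      exact le_of_mul_le_mul_left h'
        (pow_pos (norm_pos_iff.2 (Nat.cast_ne_zero.2 q.2.ne_zero)) 2)
    refine ⟨⟨(x : L) / (q : ℕ), isIntegral_of_norm_le_one fun r ψ => ?_⟩, RingOfIntegers.ext ?_⟩
    · rw [map_div₀, norm_div, map_natCast]
      by_cases hr : r = q
      · subst hr
        exact (div_le_one (norm_pos_iff.2 (Nat.cast_ne_zero.2 r.2.ne_zero))).2 (hle ψ)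
      · rw [norm_natCast_of_ne hr, div_one]
        exact norm_ringOfIntegers_le_one x ψ
    · show p • ((x : L) / ((q : ℕ) : L)) = (x : L)
      rw [nsmul_eq_mul, hpq]
      exact mul_div_cancel₀ _ (Nat.cast_ne_zero.2 q.2.ne_zero)
  have hsurj : Function.Surjective F := fun c => by
    induction c using QuotientAddGroup.induction_on with
    | H f =>
      obtain ⟨x, hx⟩ := exists_integer_near (f : primeIdeles L q) f.2
      refine ⟨x, ((hsub f (B x)).2 fun ψ => ?_).symm⟩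
      show ‖_ - ((primeVal L q (β x) ψ).el : PadicAlgCl (q : ℕ))‖ ≤ _
      rw [hβ]
      exact hx ψ
  let Fbar : modP p (𝓞 L) →+ modP p U := QuotientAddGroup.lift _ F fun x hx => by
    obtain ⟨y, rfl⟩ := hx
    show F (p • y) = 0
    rw [map_nsmul, ← Nat.cast_smul_eq_nsmul (ZMod p), ZMod.natCast_self, zero_smul]
  have hbij : Function.Bijective (AddMonoidHom.toZModLinearMap p Fbar) := by
    refine ⟨(injective_iff_map_eq_zero Fbar).2 fun c => ?_, fun c => ?_⟩
    · induction c using QuotientAddGroup.induction_on with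
      | H x => exact fun hx => (mk_eq_zero_iff_modP x).2 (hker x hx)
    · obtain ⟨x, hx⟩ := hsurj c
      exact ⟨QuotientAddGroup.mk x, hx⟩
  obtain ⟨hfin, hpoly⟩ := ringOfIntegers_modP_poly (p := p) g
  have : Finite (modP p U) := Finite.of_surjective _ hbij.2
  have hcomm : ∀ c, LinearEquiv.ofBijective _ hbij (modPEnd p (intEnd g) c) =
      modPEnd p (lvlEnd (L := L) q (2 * e) g) (LinearEquiv.ofBijective _ hbij c) := fun c => by
    induction c using QuotientAddGroup.induction_on with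
    | H x =>
      refine (hsub (B (intEnd g x)) (lvlEnd (L := L) q (2 * e) g (B x))).2 fun ψ => ?_
      have h0 : ((primeVal L q (β (intEnd g x)) ψ).el : PadicAlgCl (q : ℕ)) -
          (primeVal L q (g • β x) ψ).el = 0 := by
        rw [primeVal_smul, hβ, hβ]
        exact sub_self _
      show ‖((primeVal L q (β (intEnd g x)) ψ).el : PadicAlgCl (q : ℕ)) -
        (primeVal L q (g • β x) ψ).el‖ ≤ _
      rw [h0, norm_zero]
      exact pow_nonneg (norm_nonneg _) _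
  have : Subsingleton (torP p U) := ⟨fun a b => Subtype.ext (Subtype.ext (sub_eq_zero.1
    (eq_zero_of_nsmul_eq_zero hv (show e < 2 * e by omega) (U.sub_mem a.1.2 b.1.2) (by
      rw [nsmul_sub, sub_eq_zero]
      exact congrArg Subtype.val (a.2.trans b.2.symm)))))⟩
  refine ⟨inferInstance, inferInstance, ?_⟩
  rw [mul_one, endPoly_subsingleton (torPEnd p (lvlEnd (L := L) q (2 * e) g)), one_mul, ← hpoly]
  exact (endPoly_congr (LinearEquiv.ofBijective _ hbij) _ _ hcomm).symm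

/-- Units near one away from `p` are uniquely divisible by `p`. -/
theorem eulerRatio_primeLvl_ne (g : L ≃ₐ[ℚ] L) (hpq : p ≠ (q : ℕ)) :
    EulerRatio p (lvlEnd (L := L) q 1 g) 1 1 := by
  have hv : ‖(p : placeField L q)‖ = ‖uniformizer (placeField L q)‖ ^ 0 := by
    rw [pow_zero]
    exact norm_natCast_eq_one (q := q) (m := p) fun hd =>
      hpq ((Nat.prime_dvd_prime_iff_eq q.2 Fact.out).1 hd).symm
  refine eulerRatio_of_bijective _ ⟨fun a b h => Subtype.ext (sub_eq_zero.1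
    (eq_zero_of_nsmul_eq_zero hv one_pos ((primeLvl L q 1).sub_mem a.2 b.2) (by
      rw [nsmul_sub, sub_eq_zero]
      exact congrArg Subtype.val h))), fun b => ?_⟩
  obtain ⟨y, hy, hyb⟩ := (mem_primeLvl_add_iff hv one_pos (b : primeIdeles L q)).1 b.2
  exact ⟨⟨y, hy⟩, Subtype.ext hyb⟩

/-- A level and the units have the same Euler ratio. -/
theorem eulerRatio_units_of_level (g : L ≃ₐ[ℚ] L) (i : ℕ) {P : (ZMod p)[X]}
    (h : EulerRatio p (lvlEnd (L := L) q i g) P 1) :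
    EulerRatio p (lvlEnd (L := L) q 0 g) P 1 := by
  have := finite_primeLvl_quotient (L := L) (q := q) i
  refine (EulerRatio.of_finite_coker (AddSubgroup.inclusion (primeLvl_le_zero (L := L) (q := q) i))
    (AddSubgroup.inclusion_injective _) fun x => ?_).1 h
  apply Subtype.ext
  rw [AddSubgroup.coe_inclusion, lvlEnd_coe, lvlEnd_coe, AddSubgroup.coe_inclusion]

end units

variable {g : L ≃ₐ[ℚ] L} (hg : (orderOf g).Coprime p) {ζ : L} (hζ : IsPrimitiveRoot ζ p)
  {a : ZMod p} (ha : g ζ = ζ ^ a.val)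

include hg hζ ha

theorem primeIdeles_eulerRatio (q : Nat.Primes) :
    EulerRatio p (DistribSMul.toAddMonoidHom (primeIdeles L q) g)
      (permPoly (placePerm g q) 1 *
        (if p = (q : ℕ) then (X ^ orderOf g - 1) ^ (Module.finrank ℚ L / orderOf g) else 1)) 1 := by
  set P : (ZMod p)[X] :=
    if p = (q : ℕ) then (X ^ orderOf g - 1) ^ (Module.finrank ℚ L / orderOf g) else 1
  have h0 : EulerRatio p (lvlEnd (L := L) q 0 g) P 1 := by
    by_cases h : p = (q : ℕ)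
    · simp only [P, if_pos h]
      exact eulerRatio_units_of_level g _ (eulerRatio_primeLvl_self g h)
    · simp only [P, if_neg h]
      exact eulerRatio_units_of_level g _ (eulerRatio_primeLvl_ne g h)
  have := EulerRatio.ses (fB := DistribSMul.toAddMonoidHom (primeIdeles L q) g)
    (primeLvl L q 0).subtype primeOrd Subtype.val_injective primeOrd_surjective
    (fun f => (primeOrd_eq_zero_iff f).trans
      ⟨fun h => ⟨⟨f, h⟩, rfl⟩, fun ⟨x, hx⟩ => hx ▸ x.2⟩)
    h0 (eulerRatio_permHom (placePerm g q)) (fun _ => rfl) fun f => primeOrd_smul g f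
  rwa [mul_comm P, one_mul] at this

end FermatLib.CFT
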