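import Fermat.Agent.CFT.GWDefs

/-!
Additivity of `h¹ - h⁰ - h⁰(dual)` on short exact sequences from pairings which are perfect on
continuous classes and natural in the module.
-/

set_option autoImplicit false

open CategoryTheory Module groupCohomology ExtCitation

namespace FermatLib.CFT.GWLocEuler

local notation "Γℚ" => AlgebraicClosure ℚ ≃ₐ[ℚ] AlgebraicClosure ℚ

variable {p : ℕ} [Fact p.Prime] {Γ : Type} [Group Γ] (f : Γ →* Γℚ)

/-- Every element is fixed by an open subgroup. -/
def IsSmoothRep (M : Rep.{0} (ZMod p) Γℚ) : Prop :=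
  ∀ m : M, ∃ F : IntermediateField ℚ (AlgebraicClosure ℚ), FiniteDimensional ℚ F ∧
    ∀ s ∈ F.fixingSubgroup, M.ρ s m = m

section maps

variable {A M : Rep.{0} (ZMod p) Γℚ} (i : A →ₗ[ZMod p] M) (hi : ∀ g a, i (A.ρ g a) = M.ρ g (i a))

/-- The restricted morphism of an equivariant map. -/
noncomputable def resHom : Rep.res f A ⟶ Rep.res f M :=
  Rep.ofHom (i.intertwiningMap_of_isIntertwiningMap (Rep.res f A).ρ (Rep.res f M).ρ
    fun g a => hi (f g) a)

/-- The map on local `H¹` of an equivariant map. -/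
noncomputable def h1Map : H1 (Rep.res f A) →ₗ[ZMod p] H1 (Rep.res f M) :=
  (groupCohomology.map (MonoidHom.id Γ) (resHom f i hi) 1).hom

theorem h1Map_π (c : cocycles₁ (Rep.res f A)) (c₁ : cocycles₁ (Rep.res f M))
    (h : ∀ g, c₁ g = i (c g)) :
    h1Map f i hi ((H1π _).hom c) = (H1π _).hom c₁ :=
by
  refine (H1π_comp_map_apply (A := Rep.res f A) (B := Rep.res f M) (MonoidHom.id Γ)
    (resHom f i hi) c).trans ?_
  congr 1
  exact Subtype.ext (funext fun g => (h g).symm)

include hi in
/-- The image of a cocycle. -/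
theorem exists_cocycle_map (c : cocycles₁ (Rep.res f A)) :
    ∃ c₁ : cocycles₁ (Rep.res f M), (∀ g, c₁ g = i (c g)) ∧
      (IsLevelConstant₁ f c → IsLevelConstant₁ f c₁) := by
  have hc := (mem_cocycles₁_iff (A := Rep.res f A) (c : Γ → A)).1 c.2
  refine ⟨⟨fun g => i (c g), (mem_cocycles₁_iff (A := Rep.res f M) _).2 fun g h => ?_⟩,
    fun g => rfl, fun hl => hl.comp i⟩
  show i (c (g * h)) = M.ρ (f g) (i (c h)) + i (c g)
  rw [← hi, ← map_add]
  exact congrArg i (hc g h)

theorem h1Map_mem {x : H1 (Rep.res f A)} (hx : x ∈ continuousH1 f (Rep.res f A)) :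
    h1Map f i hi x ∈ continuousH1 f (Rep.res f M) := by
  obtain ⟨c, hc, rfl⟩ := (mem_continuousH1_iff _ _ _).1 hx
  obtain ⟨c₁, h1, h2⟩ := exists_cocycle_map f i hi c
  rw [h1Map_π f i hi c c₁ h1]
  exact H1π_mem_continuousH1 _ _ (h2 hc)

/-- The map on continuous classes. -/
noncomputable def cH1Map :
    ↥(continuousH1 f (Rep.res f A)) →ₗ[ZMod p] ↥(continuousH1 f (Rep.res f M)) :=
  (h1Map f i hi).restrict fun _ hx => h1Map_mem f i hi hx

theorem coe_cH1Map (x : ↥(continuousH1 f (Rep.res f A))) :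
    (cH1Map f i hi x : H1 (Rep.res f M)) = h1Map f i hi x := rfl

/-- The map on invariants. -/
noncomputable def invMap :
    ↥(Rep.res f A).ρ.invariants →ₗ[ZMod p] ↥(Rep.res f M).ρ.invariants :=
  (i ∘ₗ (Rep.res f A).ρ.invariants.subtype).codRestrict _ fun a g =>
    (hi (f g) a.1).symm.trans (congrArg i (a.2 g))

theorem coe_invMap (a : ↥(Rep.res f A).ρ.invariants) :
    (invMap f i hi a : M) = i (a : A) := rfl

end maps

section exact

variable {A M B : Rep.{0} (ZMod p) Γℚ} [FiniteDimensional (ZMod p) M] (i : A →ₗ[ZMod p] M)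
  (π : M →ₗ[ZMod p] B) (hi : ∀ g a, i (A.ρ g a) = M.ρ g (i a))
  (hπ : ∀ g m, π (M.ρ g m) = B.ρ g (π m)) (hinj : Function.Injective i)
  (hsurj : Function.Surjective π) (hex : LinearMap.range i = LinearMap.ker π)

include hinj hex in
theorem ker_invMap :
    LinearMap.ker (invMap f π hπ) = LinearMap.range (invMap f i hi) := by
  ext m
  rw [LinearMap.mem_ker, LinearMap.mem_range]
  constructor
  · intro h
    have h' : π (m : M) = 0 := congrArg Subtype.val h
    obtain ⟨a, ha⟩ : (m : M) ∈ LinearMap.range i := by rw [hex]; exact h'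
    refine ⟨⟨a, fun g => hinj ?_⟩, Subtype.ext ha⟩
    show i (A.ρ (f g) a) = i a
    rw [hi, ha]
    exact m.2 g
  · rintro ⟨a, rfl⟩
    have h : i (a : A) ∈ LinearMap.ker π := by rw [← hex]; exact LinearMap.mem_range_self i _
    exact Subtype.ext h

include hi hπ hinj hsurj hex in
theorem exists_delta (hsm : IsSmoothRep M) :
    ∃ δ : ↥(Rep.res f B).ρ.invariants →ₗ[ZMod p] ↥(continuousH1 f (Rep.res f A)),
      LinearMap.range δ = LinearMap.ker (cH1Map f i hi) ∧
        LinearMap.ker δ = LinearMap.range (invMap f π hπ) := by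
  obtain ⟨s, hs⟩ := π.exists_rightInverse_of_surjective (LinearMap.range_eq_top.2 hsurj)
  obtain ⟨r, hr⟩ := i.exists_leftInverse_of_injective (LinearMap.ker_eq_bot.2 hinj)
  have hs' : ∀ b, π (s b) = b := fun b => LinearMap.congr_fun hs b
  have hr' : ∀ a, r (i a) = a := fun a => LinearMap.congr_fun hr a
  have hir : ∀ m, π m = 0 → i (r m) = m := fun m hm => by
    obtain ⟨a, rfl⟩ : m ∈ LinearMap.range i := by rw [hex]; exact hm
    rw [hr']
  let d : ↥(Rep.res f B).ρ.invariants → Γ → A := fun b g =>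
    r (M.ρ (f g) (s (b : B)) - s (b : B))
  have hker : ∀ (b : ↥(Rep.res f B).ρ.invariants) g, π (M.ρ (f g) (s (b : B)) - s (b : B)) = 0 :=
    fun b g => by rw [map_sub, hπ, hs', sub_eq_zero]; exact b.2 g
  have hd : ∀ b g, i (d b g) = M.ρ (f g) (s (b : B)) - s (b : B) := fun b g => hir _ (hker b g)
  have hcoc : ∀ b, d b ∈ cocycles₁ (Rep.res f A) := fun b =>
    (mem_cocycles₁_iff (A := Rep.res f A) _).2 fun g h => hinj (by
      show i (d b (g * h)) = i (A.ρ (f g) (d b h) + d b g)
      rw [map_add, hi, hd, hd, hd, map_mul, map_mul, Module.End.mul_apply, map_sub]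
      abel)
  have hlev : ∀ b, IsLevelConstant₁ f (d b) := fun b => by
    obtain ⟨F, hF, hFm⟩ := hsm (s (b : B))
    refine ⟨F, hF, fun g t ht => congrArg (fun m => r (m - s (b : B))) ?_⟩
    rw [map_mul, map_mul, Module.End.mul_apply, hFm _ ht]
  let δ₀ : ↥(Rep.res f B).ρ.invariants →ₗ[ZMod p] cocycles₁ (Rep.res f A) :=
    { toFun := fun b => ⟨d b, hcoc b⟩
      map_add' := fun b b' => Subtype.ext (funext fun g => by
        show r (M.ρ (f g) (s ((b : B) + b')) - s ((b : B) + b')) = d b g + d b' g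
        rw [map_add, map_add, ← map_add r]
        congr 1
        abel)
      map_smul' := fun c b => Subtype.ext (funext fun g => by
        show r (M.ρ (f g) (s (c • (b : B))) - s (c • (b : B))) = c • d b g
        rw [map_smul, map_smul, ← smul_sub, map_smul]) }
  let δ : ↥(Rep.res f B).ρ.invariants →ₗ[ZMod p] ↥(continuousH1 f (Rep.res f A)) :=
    ((H1π _).hom ∘ₗ δ₀).codRestrict _ fun b => H1π_mem_continuousH1 _ _ (hlev b)
  have hδ : ∀ b, (δ b : H1 (Rep.res f A)) = (H1π _).hom ⟨d b, hcoc b⟩ := fun b => rfl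
  refine ⟨δ, ?_, ?_⟩
  · ext x
    rw [LinearMap.mem_range, LinearMap.mem_ker]
    constructor
    · rintro ⟨b, rfl⟩
      apply Subtype.ext
      obtain ⟨c₁, h1, -⟩ := exists_cocycle_map f i hi ⟨d b, hcoc b⟩
      rw [coe_cH1Map, hδ, h1Map_π f i hi _ c₁ h1]
      refine (H1π_eq_zero_iff c₁).2 ⟨s (b : B), funext fun g => ?_⟩
      rw [d₀₁_hom_apply]
      show M.ρ (f g) (s (b : B)) - s (b : B) = c₁ g
      rw [h1 g]
      exact (hd b g).symm
    · intro hx
      obtain ⟨c, -, hcx⟩ := (mem_continuousH1_iff _ _ _).1 x.2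
      obtain ⟨c₁, h1, -⟩ := exists_cocycle_map f i hi c
      have h0 : (H1π (Rep.res f M)).hom c₁ = 0 := by
        rw [← h1Map_π f i hi c c₁ h1, hcx]
        exact congrArg Subtype.val hx
      obtain ⟨m, hm⟩ := (H1π_eq_zero_iff c₁).1 h0
      have hm' : ∀ g, M.ρ (f g) m - m = i (c g) := fun g => by
        have h := congrFun hm g
        rw [d₀₁_hom_apply] at h
        exact h.trans (h1 g)
      have hb : π m ∈ (Rep.res f B).ρ.invariants := fun g => by
        show B.ρ (f g) (π m) = π m
        rw [← hπ, ← sub_eq_zero, ← map_sub, hm']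
        exact LinearMap.mem_ker.1 (by rw [← hex]; exact LinearMap.mem_range_self i _)
      refine ⟨⟨π m, hb⟩, Subtype.ext ?_⟩
      rw [hδ, ← hcx]
      refine (H1π_eq_iff _ _).2 ⟨r (s (π m) - m), funext fun g => hinj ?_⟩
      have h3 : π (s (π m) - m) = 0 := by rw [map_sub, hs', sub_self]
      rw [d₀₁_hom_apply]
      show i (A.ρ (f g) (r (s (π m) - m)) - r (s (π m) - m)) = i (d ⟨π m, hb⟩ g - c g)
      rw [LinearMap.map_sub i (A.ρ (f g) _), LinearMap.map_sub i (d _ g), hi, hir _ h3, hd, ← hm',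
        map_sub]
      abel
  · ext b
    rw [LinearMap.mem_ker, LinearMap.mem_range]
    constructor
    · intro h
      have h0 : (H1π (Rep.res f A)).hom ⟨d b, hcoc b⟩ = 0 := by
        rw [← hδ]; exact congrArg Subtype.val h
      obtain ⟨a, ha⟩ := (H1π_eq_zero_iff _).1 h0
      have hinv : s (b : B) - i a ∈ (Rep.res f M).ρ.invariants := fun g => by
        have h := congrFun ha g
        rw [d₀₁_hom_apply] at h
        have h' : M.ρ (f g) (i a) - i a = M.ρ (f g) (s (b : B)) - s (b : B) := by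
          rw [← hi, ← map_sub, ← hd]
          exact congrArg i h
        show M.ρ (f g) (s (b : B) - i a) = s (b : B) - i a
        rw [map_sub, ← sub_eq_zero]
        calc M.ρ (f g) (s (b : B)) - M.ρ (f g) (i a) - (s (b : B) - i a)
            = (M.ρ (f g) (s (b : B)) - s (b : B)) - (M.ρ (f g) (i a) - i a) := by abel
          _ = 0 := by rw [h', sub_self]
      refine ⟨⟨_, hinv⟩, Subtype.ext ?_⟩
      rw [coe_invMap]
      show π (s (b : B) - i a) = (b : B)
      rw [map_sub, hs', LinearMap.mem_ker.1 (show i a ∈ LinearMap.ker π by rw [← hex]; exact LinearMap.mem_range_self i _), sub_zero]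
    · rintro ⟨m, rfl⟩
      apply Subtype.ext
      rw [hδ]
      have h3 : π (s (π (m : M)) - (m : M)) = 0 := by rw [map_sub, hs', sub_self]
      refine (H1π_eq_zero_iff _).2 ⟨r (s (π (m : M)) - (m : M)), funext fun g => hinj ?_⟩
      rw [d₀₁_hom_apply]
      show i (A.ρ (f g) (r (s (π (m : M)) - (m : M))) - r (s (π (m : M)) - (m : M))) =
        i (d (invMap f π hπ m) g)
      rw [map_sub, hi, hir _ h3, hd, coe_invMap, map_sub,
        show M.ρ (f g) (m : M) = (m : M) from m.2 g]
      abel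

include hi hπ hinj hsurj hex in
theorem ker_cH1Map (hsm : IsSmoothRep M) :
    LinearMap.ker (cH1Map f π hπ) = LinearMap.range (cH1Map f i hi) := by
  obtain ⟨r, hr⟩ := i.exists_leftInverse_of_injective (LinearMap.ker_eq_bot.2 hinj)
  have hir : ∀ m, π m = 0 → i (r m) = m := fun m hm => by
    obtain ⟨a, rfl⟩ : m ∈ LinearMap.range i := by rw [hex]; exact hm
    exact congrArg i (LinearMap.congr_fun hr a)
  ext x
  rw [LinearMap.mem_ker, LinearMap.mem_range]
  constructor
  · intro hx
    obtain ⟨c, hc, hcx⟩ := (mem_continuousH1_iff _ _ _).1 x.2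
    obtain ⟨c₂, h2, -⟩ := exists_cocycle_map f π hπ c
    have h0 : (H1π (Rep.res f B)).hom c₂ = 0 := by
      rw [← h1Map_π f π hπ c c₂ h2, hcx]
      exact congrArg Subtype.val hx
    obtain ⟨b, hb⟩ := (H1π_eq_zero_iff c₂).1 h0
    obtain ⟨m, rfl⟩ := hsurj b
    have hcc := (mem_cocycles₁_iff (A := Rep.res f M) (c : Γ → M)).1 c.2
    let e : Γ → M := fun g => c g - (M.ρ (f g) m - m)
    have he : ∀ g, π (e g) = 0 := fun g => by
      have h := congrFun hb g
      rw [d₀₁_hom_apply] at h
      show π (c g - (M.ρ (f g) m - m)) = 0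
      rw [map_sub, map_sub, hπ, sub_eq_zero]
      exact ((h2 g).symm.trans h.symm :)
    have hea : (fun g => r (e g)) ∈ cocycles₁ (Rep.res f A) :=
      (mem_cocycles₁_iff (A := Rep.res f A) _).2 fun g h => hinj (by
        show i (r (e (g * h))) = i (A.ρ (f g) (r (e h)) + r (e g))
        rw [map_add, hi, hir _ (he _), hir _ (he _), hir _ (he _)]
        show c (g * h) - (M.ρ (f (g * h)) m - m) =
          M.ρ (f g) (c h - (M.ρ (f h) m - m)) + (c g - (M.ρ (f g) m - m))
        rw [f.map_mul, map_mul M.ρ, Module.End.mul_apply, map_sub, map_sub,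
          show c (g * h) = M.ρ (f g) (c h) + c g from hcc g h]
        abel)
    obtain ⟨F, hF, hFc⟩ := hc
    obtain ⟨F', hF', hFm⟩ := hsm m
    haveI := hF; haveI := hF'
    have hfix : IsLevelConstant₁ f fun g => r (e g) := by
      refine ⟨F ⊔ F', inferInstance, fun g t ht => congrArg r ?_⟩
      show c (g * t) - (M.ρ (f (g * t)) m - m) = c g - (M.ρ (f g) m - m)
      rw [hFc g t (IntermediateField.fixingSubgroup_antitone le_sup_left ht), f.map_mul,
        map_mul M.ρ, Module.End.mul_apply,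
        hFm _ (IntermediateField.fixingSubgroup_antitone le_sup_right ht)]
    refine ⟨⟨(H1π _).hom ⟨_, hea⟩, H1π_mem_continuousH1 _ _ hfix⟩, Subtype.ext ?_⟩
    obtain ⟨c₁, h1, -⟩ := exists_cocycle_map f i hi ⟨_, hea⟩
    rw [coe_cH1Map, h1Map_π f i hi _ c₁ h1, ← hcx]
    refine (H1π_eq_iff _ _).2 ⟨-m, funext fun g => ?_⟩
    rw [d₀₁_hom_apply, map_neg]
    show -(M.ρ (f g) m) - -m = c₁ g - c g
    rw [h1 g]
    show _ = i (r (e g)) - c g
    rw [hir _ (he g)]
    show _ = c g - (M.ρ (f g) m - m) - c g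
    abel
  · rintro ⟨y, rfl⟩
    obtain ⟨c, -, hcy⟩ := (mem_continuousH1_iff _ _ _).1 y.2
    obtain ⟨c₁, h1, -⟩ := exists_cocycle_map f i hi c
    obtain ⟨c₂, h2, -⟩ := exists_cocycle_map f π hπ c₁
    apply Subtype.ext
    rw [coe_cH1Map, coe_cH1Map, ← hcy, h1Map_π f i hi c c₁ h1, h1Map_π f π hπ c₁ c₂ h2]
    refine (H1π_eq_zero_iff c₂).2 ⟨0, funext fun g => ?_⟩
    rw [d₀₁_hom_apply, map_zero, sub_zero]
    show (0 : B) = c₂ g
    rw [h2 g, h1 g]
    exact (LinearMap.mem_ker.1 (show i (c g) ∈ LinearMap.ker π by rw [← hex]; exact LinearMap.mem_range_self i _)).symm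

end exact

section euler

/-- The dual map is equivariant for the twisted duals. -/
theorem dualMap_equivariant {M N : Rep.{0} (ZMod p) Γℚ} (φ : M →ₗ[ZMod p] N)
    (hφ : ∀ g m, φ (M.ρ g m) = N.ρ g (φ m)) (g : Γℚ) (y : N.dualTwist (cycloChar p)) :
    φ.dualMap ((N.dualTwist (cycloChar p)).ρ g y) =
      (M.dualTwist (cycloChar p)).ρ g (φ.dualMap y) :=
  LinearMap.ext fun m => by
    show (cycloChar p g : ZMod p) • (y : Module.Dual (ZMod p) N) (N.ρ g⁻¹ (φ m)) =
      (cycloChar p g : ZMod p) • (y : Module.Dual (ZMod p) N) (φ (M.ρ g⁻¹ m))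
    rw [hφ]

/-- A family of pairings is natural in the module on continuous classes. -/
def IsNaturalPairing (Bp : ∀ M : Rep.{0} (ZMod p) Γℚ, LocalPairing M f) : Prop :=
  ∀ (M N : Rep.{0} (ZMod p) Γℚ) [FiniteDimensional (ZMod p) M] [FiniteDimensional (ZMod p) N],
    IsSmoothRep M → IsSmoothRep N → ∀ (φ : M →ₗ[ZMod p] N)
      (hφ : ∀ g m, φ (M.ρ g m) = N.ρ g (φ m)),
    ∀ x ∈ continuousH1 f (Rep.res f M),
    ∀ y ∈ continuousH1 f (Rep.res f (N.dualTwist (cycloChar p))),
      Bp N (h1Map f φ hφ x) y =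
        Bp M x (h1Map f (A := N.dualTwist (cycloChar p)) (M := M.dualTwist (cycloChar p)) φ.dualMap
          (dualMap_equivariant φ hφ) y)

variable {f}

/-- A perfect pairing gives equal dimensions. -/
theorem finrank_continuousH1_dual {M : Rep.{0} (ZMod p) Γℚ} {B : LocalPairing M f}
    (hB : IsPerfectOnContinuous M B) :
    finrank (ZMod p) (continuousH1 f (Rep.res f (M.dualTwist (cycloChar p)))) =
      finrank (ZMod p) (continuousH1 f (Rep.res f M)) := by
  have := hB.finite_left; have := hB.finite_right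
  let R := B.compl₁₂ (continuousH1 f (Rep.res f M)).subtype
    (continuousH1 f (Rep.res f (M.dualTwist (cycloChar p)))).subtype
  have h1 : Function.Injective R := (injective_iff_map_eq_zero R).2 fun x hx =>
    Subtype.ext (hB.left _ x.2 fun y hy => LinearMap.congr_fun hx ⟨y, hy⟩)
  have h2 : Function.Injective R.flip := (injective_iff_map_eq_zero R.flip).2 fun y hy =>
    Subtype.ext (hB.right _ y.2 fun x hx => LinearMap.congr_fun hy ⟨x, hx⟩)
  have e1 := LinearMap.finrank_le_finrank_of_injective h1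
  have e2 := LinearMap.finrank_le_finrank_of_injective h2
  rw [Subspace.dual_finrank_eq] at e1 e2
  exact le_antisymm e2 e1

/-- Adjoint maps for perfect pairings have equal ranks. -/
theorem finrank_range_adjoint {M N : Rep.{0} (ZMod p) Γℚ} {BM : LocalPairing M f}
    {BN : LocalPairing N f} (hM : IsPerfectOnContinuous M BM) (hN : IsPerfectOnContinuous N BN)
    (u : ↥(continuousH1 f (Rep.res f M)) →ₗ[ZMod p] ↥(continuousH1 f (Rep.res f N)))
    (v : ↥(continuousH1 f (Rep.res f (N.dualTwist (cycloChar p)))) →ₗ[ZMod p]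
      ↥(continuousH1 f (Rep.res f (M.dualTwist (cycloChar p)))))
    (h : ∀ x y, BN (u x).1 y.1 = BM x.1 (v y).1) :
    finrank (ZMod p) (LinearMap.range u) = finrank (ZMod p) (LinearMap.range v) := by
  have := hM.finite_left; have := hM.finite_right; have := hN.finite_left; have := hN.finite_right
  let RM : ↥(continuousH1 f (Rep.res f (M.dualTwist (cycloChar p)))) →ₗ[ZMod p]
      Module.Dual (ZMod p) ↥(continuousH1 f (Rep.res f M)) :=
    (BM.compl₁₂ (continuousH1 f (Rep.res f M)).subtype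
      (continuousH1 f (Rep.res f (M.dualTwist (cycloChar p)))).subtype).flip
  let RN : ↥(continuousH1 f (Rep.res f (N.dualTwist (cycloChar p)))) →ₗ[ZMod p]
      Module.Dual (ZMod p) ↥(continuousH1 f (Rep.res f N)) :=
    (BN.compl₁₂ (continuousH1 f (Rep.res f N)).subtype
      (continuousH1 f (Rep.res f (N.dualTwist (cycloChar p)))).subtype).flip
  have hRM : Function.Injective RM := (injective_iff_map_eq_zero RM).2 fun y hy =>
    Subtype.ext (hM.right _ y.2 fun x hx => LinearMap.congr_fun hy ⟨x, hx⟩)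
  have hRN : Function.Injective RN := (injective_iff_map_eq_zero RN).2 fun y hy =>
    Subtype.ext (hN.right _ y.2 fun x hx => LinearMap.congr_fun hy ⟨x, hx⟩)
  have hsurj : Function.Surjective RN :=
    (LinearMap.injective_iff_surjective_of_finrank_eq_finrank
      (by rw [Subspace.dual_finrank_eq, finrank_continuousH1_dual hN])).1 hRN
  have hcomp : u.dualMap ∘ₗ RN = RM ∘ₗ v := LinearMap.ext fun y => LinearMap.ext fun x => h x y
  rw [← LinearMap.finrank_range_dualMap_eq_finrank_range u,
    ← LinearMap.range_comp_of_range_eq_top u.dualMap (LinearMap.range_eq_top.2 hsurj), hcomp,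
    LinearMap.range_comp]
  exact (Submodule.equivMapOfInjective RM hRM _).finrank_eq.symm

variable (f) in
/-- `h¹ - h⁰ - h⁰(dual)`. -/
noncomputable def eulerDefect (M : Rep.{0} (ZMod p) Γℚ) : ℤ :=
  (finrank (ZMod p) (continuousH1 f (Rep.res f M)) : ℤ) -
    finrank (ZMod p) (Rep.res f M).ρ.invariants -
    finrank (ZMod p) (Rep.res f (M.dualTwist (cycloChar p))).ρ.invariants

/-- The rank nullity count of a piece of the long exact sequence. -/
theorem finrank_piece {A M B : Rep.{0} (ZMod p) Γℚ} [FiniteDimensional (ZMod p) A]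
    [FiniteDimensional (ZMod p) M] [FiniteDimensional (ZMod p) B] (i : A →ₗ[ZMod p] M)
    (π : M →ₗ[ZMod p] B) (hi : ∀ g a, i (A.ρ g a) = M.ρ g (i a))
    (hπ : ∀ g m, π (M.ρ g m) = B.ρ g (π m)) (hinj : Function.Injective i)
    (hsurj : Function.Surjective π) (hex : LinearMap.range i = LinearMap.ker π)
    (hsm : IsSmoothRep M) [FiniteDimensional (ZMod p) (continuousH1 f (Rep.res f A))]
    [FiniteDimensional (ZMod p) (continuousH1 f (Rep.res f M))] :
    (finrank (ZMod p) (continuousH1 f (Rep.res f A)) : ℤ) =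
        finrank (ZMod p) (LinearMap.range (cH1Map f i hi)) +
          (finrank (ZMod p) (Rep.res f B).ρ.invariants - finrank (ZMod p) (Rep.res f M).ρ.invariants
            + finrank (ZMod p) (Rep.res f A).ρ.invariants) ∧
      (finrank (ZMod p) (continuousH1 f (Rep.res f M)) : ℤ) =
        finrank (ZMod p) (LinearMap.range (cH1Map f π hπ)) +
          finrank (ZMod p) (LinearMap.range (cH1Map f i hi)) := by
  haveI : FiniteDimensional (ZMod p) (Rep.res f A) := inferInstanceAs (FiniteDimensional (ZMod p) A)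
  haveI : FiniteDimensional (ZMod p) (Rep.res f M) := inferInstanceAs (FiniteDimensional (ZMod p) M)
  haveI : FiniteDimensional (ZMod p) (Rep.res f B) := inferInstanceAs (FiniteDimensional (ZMod p) B)
  obtain ⟨δ, hδr, hδk⟩ := exists_delta f i π hi hπ hinj hsurj hex hsm
  have e1 := (cH1Map f i hi).finrank_range_add_finrank_ker
  have e2 := δ.finrank_range_add_finrank_ker
  have e3 := (invMap f π hπ).finrank_range_add_finrank_ker
  have e4 := (cH1Map f π hπ).finrank_range_add_finrank_ker
  rw [ker_invMap f i π hi hπ hinj hex] at e3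
  rw [hδr, hδk] at e2
  rw [ker_cH1Map f i π hi hπ hinj hsurj hex hsm] at e4
  have e5 : finrank (ZMod p) (LinearMap.range (invMap f i hi)) =
      finrank (ZMod p) (Rep.res f A).ρ.invariants :=
    LinearMap.finrank_range_of_inj fun a b h => Subtype.ext (hinj (congrArg Subtype.val h))
  constructor <;> omega

/-- The Euler defect is additive. -/
theorem eulerDefect_add {Bp : ∀ M : Rep.{0} (ZMod p) Γℚ, LocalPairing M f}
    (hnat : IsNaturalPairing f Bp) {A M B : Rep.{0} (ZMod p) Γℚ} [FiniteDimensional (ZMod p) A]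
    [FiniteDimensional (ZMod p) M] [FiniteDimensional (ZMod p) B]
    (hA : IsPerfectOnContinuous A (Bp A)) (hM : IsPerfectOnContinuous M (Bp M))
    (hB : IsPerfectOnContinuous B (Bp B)) (i : A →ₗ[ZMod p] M) (π : M →ₗ[ZMod p] B)
    (hi : ∀ g a, i (A.ρ g a) = M.ρ g (i a)) (hπ : ∀ g m, π (M.ρ g m) = B.ρ g (π m))
    (hinj : Function.Injective i) (hsurj : Function.Surjective π)
    (hex : LinearMap.range i = LinearMap.ker π) (hsm : IsSmoothRep M) (hsmB : IsSmoothRep B)
    (hsm' : IsSmoothRep (M.dualTwist (cycloChar p))) :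
    eulerDefect f M = eulerDefect f A + eulerDefect f B := by
  have := hA.finite_left; have := hA.finite_right; have := hM.finite_left; have := hM.finite_right
  have := hB.finite_left; have := hB.finite_right
  haveI : FiniteDimensional (ZMod p) (A.dualTwist (cycloChar p)) :=
    inferInstanceAs (FiniteDimensional (ZMod p) (Module.Dual (ZMod p) A))
  haveI : FiniteDimensional (ZMod p) (M.dualTwist (cycloChar p)) :=
    inferInstanceAs (FiniteDimensional (ZMod p) (Module.Dual (ZMod p) M))
  haveI : FiniteDimensional (ZMod p) (B.dualTwist (cycloChar p)) :=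
    inferInstanceAs (FiniteDimensional (ZMod p) (Module.Dual (ZMod p) B))
  have hex' : LinearMap.range π.dualMap = LinearMap.ker i.dualMap := by
    rw [LinearMap.range_dualMap_eq_dualAnnihilator_ker, ← hex,
      LinearMap.ker_dualMap_eq_dualAnnihilator_range]
  obtain ⟨a1, a2⟩ := finrank_piece (f := f) i π hi hπ hinj hsurj hex hsm
  obtain ⟨b1, b2⟩ := finrank_piece (f := f) (A := B.dualTwist (cycloChar p))
    (M := M.dualTwist (cycloChar p)) (B := A.dualTwist (cycloChar p)) π.dualMap i.dualMap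
    (dualMap_equivariant π hπ) (dualMap_equivariant i hi)
    (LinearMap.dualMap_injective_of_surjective hsurj)
    (LinearMap.dualMap_surjective_of_injective hinj) hex' hsm'
  have hadj := finrank_range_adjoint hM hB (cH1Map f π hπ)
    (cH1Map f (A := B.dualTwist (cycloChar p)) (M := M.dualTwist (cycloChar p)) π.dualMap
      (dualMap_equivariant π hπ))
    fun x y => hnat M B hsm hsmB π hπ x.1 x.2 y.1 y.2
  have hdB := finrank_continuousH1_dual hB
  unfold eulerDefect
  omega

end euler

end FermatLib.CFT.GWLocEuler
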