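import Fermat.Agent.CFT.GWEulerChar

/-!
An additive function vanishing on all representations induced from cyclic subgroups of order prime
to `p` vanishes.
-/

set_option autoImplicit false

open Module

namespace FermatLib.CFT

section funRep

variable {k G : Type} [CommRing k] [Group G] (X : Type) [MulAction G X] {M : Type} [AddCommGroup M]
  [Module k M]

/-- Functions on a `G`-set with values in a representation, with the diagonal action. -/
def funRep (ρM : Representation k G M) : Representation k G (X → M) where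
  toFun g :=
    { toFun := fun f x => ρM g (f (g⁻¹ • x))
      map_add' := fun a b => funext fun x => map_add _ _ _
      map_smul' := fun c a => funext fun x => map_smul _ _ _ }
  map_one' := LinearMap.ext fun f => funext fun x => by simp
  map_mul' g h := LinearMap.ext fun f => funext fun x => by simp [mul_smul]

@[simp] theorem funRep_apply (ρM : Representation k G M) (g : G) (f : X → M) (x : X) :
    funRep X ρM g f x = ρM g (f (g⁻¹ • x)) := rfl

end funRep

section perm

variable {G : Type} [Group G] (X : Type) [MulAction G X]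

/-- The permutation lattice of a `G`-set. -/
abbrev permLat : Representation ℤ G (X → ℤ) := funRep X (1 : Representation ℤ G ℤ)

theorem trace_permLat [Finite X] (g : G) :
    LinearMap.trace ℤ (X → ℤ) (permLat X g) = Nat.card {x : X // g • x = x} := by
  classical
  have : Fintype X := Fintype.ofFinite X
  rw [LinearMap.trace_eq_matrix_trace ℤ (Pi.basisFun ℤ X), Matrix.trace, Nat.card_eq_fintype_card,
    Fintype.card_subtype, ← Finset.sum_boole]
  refine Finset.sum_congr rfl fun x _ => ?_
  rw [Matrix.diag_apply, LinearMap.toMatrix_apply, Pi.basisFun_repr, Pi.basisFun_apply,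
    funRep_apply, Pi.single_apply]
  simp [eq_comm]
  exact if_congr ⟨fun h => by rw [eq_inv_smul_iff]; exact h.symm,
    fun h => by rw [eq_inv_smul_iff] at h; exact h.symm⟩ rfl rfl

variable {p : ℕ} [Fact p.Prime] {M : Type} [AddCommGroup M] [Module (ZMod p) M]

/-- Additive maps from a permutation lattice are functions. -/
noncomputable def latHomPermEquiv [Fintype X] [DecidableEq X] :
    ((X → ℤ) →+ M) ≃ₗ[ZMod p] (X → M) where
  toFun h x := h (Pi.single x 1)
  map_add' _ _ := rfl
  map_smul' _ _ := rfl
  invFun f :=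
    { toFun := fun a => ∑ x, a x • f x
      map_zero' := by simp
      map_add' := fun a b => by simp [add_smul, Finset.sum_add_distrib] }
  left_inv h := AddMonoidHom.ext fun a => by
    show ∑ x, a x • h (Pi.single x 1) = h a
    simp only [← map_zsmul, ← map_sum]
    refine congrArg h (funext fun y => ?_)
    simp [Finset.sum_apply, Pi.single_apply]
  right_inv f := funext fun y => by simp [Pi.single_apply]

theorem apply_latHom_perm [Fintype X] {F : RepFun (ZMod p) G} (hF : IsAdditiveRep F)
    [FiniteDimensional (ZMod p) M] (ρM : Representation (ZMod p) G M) :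
    F _ (latHom (permLat X) ρM) = F _ (funRep X ρM) := by
  classical
  refine hF.congr (latHomPermEquiv X) fun g h => funext fun x => ?_
  show ρM g (h (permLat X g⁻¹ (Pi.single x 1))) = ρM g (h (Pi.single (g⁻¹ • x) 1))
  refine congrArg (fun v => ρM g (h v)) (funext fun y => ?_)
  simp [Pi.single_apply, eq_inv_smul_iff]

end perm

section artin

variable {G : Type} [Group G] [Fintype G]

/-- The number of points of `G ⧸ ⟨g⟩` fixed by `h`. -/
noncomputable def fixCount (g h : G) : ℕ :=
  Nat.card {x : G ⧸ Subgroup.zpowers g // h • x = x}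

omit [Fintype G] in
theorem smul_mk_eq_iff (g h : G) (x : G) :
    h • (x : G ⧸ Subgroup.zpowers g) = x ↔ x⁻¹ * h * x ∈ Subgroup.zpowers g := by
  rw [MulAction.Quotient.smul_coe, eq_comm, QuotientGroup.eq, smul_eq_mul, ← mul_assoc]

theorem orderOf_mul_fixCount [DecidableEq G] (g h : G) :
    orderOf g * fixCount g h = Nat.card {x : G // x⁻¹ * h * x ∈ Subgroup.zpowers g} := by
  classical
  rw [← Nat.card_zpowers, fixCount, ← Nat.card_prod]
  refine Nat.card_congr ((QuotientGroup.preimageMkEquivSubgroupProdSet (Subgroup.zpowers g)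
    {x | h • x = x}).symm.trans (Equiv.subtypeEquivRight fun x => ?_))
  exact smul_mk_eq_iff g h x

/-- An element of order `n` lies in the cyclic groups of exactly `φ n` elements of order `n`. -/
theorem card_generators [DecidableEq G] (k : G) (n : ℕ) (hk : orderOf k = n) :
    Nat.card {g : G // orderOf g = n ∧ k ∈ Subgroup.zpowers g} = Nat.totient n := by
  classical
  have hd : n ∣ Fintype.card (Subgroup.zpowers k) := by
    rw [Fintype.card_zpowers, hk]
  rw [← IsCyclic.card_orderOf_eq_totient hd, ← Fintype.card_subtype, ← Nat.card_eq_fintype_card]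
  refine Nat.card_congr
    { toFun := fun g => ⟨⟨g, ?_⟩, (Subgroup.orderOf_mk _ _).trans g.2.1⟩
      invFun := fun y => ⟨y.1, (Subgroup.orderOf_coe y.1).trans y.2, ?_⟩
      left_inv := fun g => rfl
      right_inv := fun y => rfl }
  · rw [Subgroup.eq_of_le_of_card_ge (Subgroup.zpowers_le.mpr g.2.2)
      (by rw [Nat.card_zpowers, Nat.card_zpowers, hk, g.2.1])]
    exact Subgroup.mem_zpowers _
  · rw [Subgroup.eq_of_le_of_card_ge (Subgroup.zpowers_le.mpr y.1.2)
      (by rw [Nat.card_zpowers, Nat.card_zpowers, hk, Subgroup.orderOf_coe, y.2])]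
    exact Subgroup.mem_zpowers k

/-- Class functions which only depend on the cyclic subgroup generated. -/
def IsCyclicClassFun (f : G → ℤ) : Prop :=
  (∀ x h, f (x⁻¹ * h * x) = f h) ∧ ∀ h k, Subgroup.zpowers h = Subgroup.zpowers k → f h = f k

omit [Fintype G] in
theorem fixCount_conj (g x h : G) : fixCount g (x⁻¹ * h * x) = fixCount g h := by
  refine Nat.card_congr (Equiv.subtypeEquiv (MulAction.toPerm x) fun y => ?_)
  rw [MulAction.toPerm_apply, mul_smul, mul_smul, inv_smul_eq_iff]

omit [Fintype G] in
theorem fixCount_zpowers (g h k : G) (hk : Subgroup.zpowers h = Subgroup.zpowers k) :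
    fixCount g h = fixCount g k := by
  have key : ∀ (a b : G) (x : G ⧸ Subgroup.zpowers g), b ∈ Subgroup.zpowers a → a • x = x →
      b • x = x := fun a b x hb ha =>
    (Subgroup.zpowers_le.mpr (MulAction.mem_stabilizer_iff.mpr ha) :
      Subgroup.zpowers a ≤ MulAction.stabilizer G x) hb
  exact Nat.card_congr (Equiv.subtypeEquivRight fun x =>
    ⟨key h k x (hk ▸ Subgroup.mem_zpowers k), key k h x (hk ▸ Subgroup.mem_zpowers h)⟩)

/-- Artin's induction on cyclic subgroups. -/
theorem exists_fixCount_combination (d : ℕ) (f : G → ℤ) (hf : IsCyclicClassFun f)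
    (hd : ∀ h, d < orderOf h → f h = 0) :
    ∃ K : ℕ, K ≠ 0 ∧ ∃ a : G → ℤ, ∀ h, (K : ℤ) * f h = ∑ g, a g * fixCount g h := by
  classical
  induction d generalizing f with
  | zero => exact ⟨1, one_ne_zero, 0, fun h => by simp [hd h (orderOf_pos h)]⟩
  | succ d ih =>
    let N : ℕ := Fintype.card G * Nat.totient (d + 1)
    have hN : N ≠ 0 := Nat.mul_ne_zero Fintype.card_ne_zero (Nat.totient_pos.mpr d.succ_pos).ne'
    let c : G → ℤ := fun h =>
      ∑ g ∈ Finset.univ.filter (fun g => orderOf g = d + 1), ((d + 1) * f g) * fixCount g h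
    let f' : G → ℤ := fun h => (N : ℤ) * f h - c h
    have hc : IsCyclicClassFun f' := by
      refine ⟨fun x h => ?_, fun h k hk => ?_⟩
      · simp only [f', c, hf.1, fixCount_conj]
      · simp only [f', c, hf.2 h k hk, fun g => fixCount_zpowers g h k hk]
    have hne : ∀ g h : G, fixCount g h ≠ 0 →
        ∃ x : G, x⁻¹ * h * x ∈ Subgroup.zpowers g := fun g h hgh => by
      obtain ⟨⟨x, hx⟩⟩ := (Nat.card_ne_zero.mp hgh).1
      induction x using QuotientGroup.induction_on with
      | H x => exact ⟨x, (smul_mk_eq_iff g h x).mp hx⟩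
    have hord : ∀ x h : G, orderOf (x⁻¹ * h * x) = orderOf h := fun x h => by
      simpa using MulEquiv.orderOf_eq (MulAut.conj x⁻¹) h
    have hd' : ∀ h, d < orderOf h → f' h = 0 := by
      intro h hh
      rcases Nat.lt_or_ge (d + 1) (orderOf h) with h1 | h1
      · simp only [f', c, hd h h1, mul_zero, zero_sub, neg_eq_zero]
        refine Finset.sum_eq_zero fun g hg => ?_
        by_contra hne0
        obtain ⟨x, hx⟩ := hne g h (fun h0 => hne0 (by simp [h0]))
        have := Nat.le_of_dvd (orderOf_pos g) (orderOf_dvd_of_mem_zpowers hx)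
        rw [hord, (Finset.mem_filter.mp hg).2] at this
        omega
      · have hhd : orderOf h = d + 1 := by omega
        have hterm : ∀ g, orderOf g = d + 1 → ((d + 1 : ℤ) * f g) * fixCount g h =
            f h * (Nat.card {x : G // x⁻¹ * h * x ∈ Subgroup.zpowers g} : ℤ) := by
          intro g hg
          rw [← orderOf_mul_fixCount, hg]
          rcases eq_or_ne (fixCount g h) 0 with h0 | h0
          · simp [h0]
          · obtain ⟨x, hx⟩ := hne g h h0
            have heq : Subgroup.zpowers (x⁻¹ * h * x) = Subgroup.zpowers g :=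
              Subgroup.eq_of_le_of_card_ge (Subgroup.zpowers_le.mpr hx)
                (by rw [Nat.card_zpowers, Nat.card_zpowers, hord, hhd, hg])
            rw [← hf.1 x h, hf.2 _ _ heq]
            push_cast
            ring
        have hcount : ∑ g ∈ Finset.univ.filter (fun g : G => orderOf g = d + 1),
            (Nat.card {x : G // x⁻¹ * h * x ∈ Subgroup.zpowers g} : ℤ) = N := by
          rw [← Nat.cast_sum]
          refine congrArg Nat.cast ?_
          have e : ∀ g : G, Nat.card {x : G // x⁻¹ * h * x ∈ Subgroup.zpowers g} =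
              ∑ x : G, if x⁻¹ * h * x ∈ Subgroup.zpowers g then 1 else 0 := fun g => by
            rw [Nat.card_eq_fintype_card, Fintype.card_subtype, Finset.sum_boole]
            rfl
          simp only [e]
          rw [Finset.sum_comm]
          have e' : ∀ x : G, (∑ g ∈ Finset.univ.filter (fun g : G => orderOf g = d + 1),
              if x⁻¹ * h * x ∈ Subgroup.zpowers g then 1 else 0) = Nat.totient (d + 1) := fun x => by
            rw [← card_generators (x⁻¹ * h * x) (d + 1) ((hord x h).trans hhd),
              Nat.card_eq_fintype_card, Fintype.card_subtype, Finset.sum_boole, Finset.filter_filter]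
            rfl
          simp only [e', Finset.sum_const, Finset.card_univ, smul_eq_mul, N]
        simp only [f', c]
        rw [Finset.sum_congr rfl fun g hg => hterm g (Finset.mem_filter.mp hg).2, ← Finset.mul_sum,
          hcount, mul_comm, sub_self]
    obtain ⟨K, hK, a, ha⟩ := ih f' hc hd'
    refine ⟨K * N, mul_ne_zero hK hN,
      fun g => a g + if orderOf g = d + 1 then (K : ℤ) * ((d + 1) * f g) else 0, fun h => ?_⟩
    have := ha h
    simp only [f', c] at this
    rw [Finset.sum_congr rfl fun g _ => add_mul (a g) _ _, Finset.sum_add_distrib, ← this]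
    simp only [ite_mul, zero_mul]
    rw [← Finset.sum_filter]
    have e : ∑ g ∈ Finset.univ.filter (fun g : G => orderOf g = d + 1),
        (K : ℤ) * ((d + 1) * f g) * fixCount g h = (K : ℤ) * c h := by
      rw [Finset.mul_sum]
      exact Finset.sum_congr rfl fun g _ => by ring
    rw [e]
    show ((K * N : ℕ) : ℤ) * f h = (K : ℤ) * ((N : ℤ) * f h - c h) + (K : ℤ) * c h
    push_cast
    ring

end artin

section vanish

variable {G : Type} [Group G] [Fintype G] {p : ℕ} [Fact p.Prime] {F : RepFun (ZMod p) G}
  (hF : IsAdditiveRep F) {M : Type} [AddCommGroup M] [Module (ZMod p) M]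
  [FiniteDimensional (ZMod p) M] (ρM : Representation (ZMod p) G M)
include hF

omit [Fintype G] [Module (ZMod p) M] [FiniteDimensional (ZMod p) M] in
/-- A nilpotent equivariant endomorphism with the smallest possible kernel. -/
theorem apply_eq_mul_ker {V : Type} [AddCommGroup V] [Module (ZMod p) V]
    [FiniteDimensional (ZMod p) V] (ρ : Representation (ZMod p) G V) (N : Module.End (ZMod p) V)
    (hN : ∀ s f, N (ρ s f) = ρ s (N f)) (q : ℕ) (hq : N ^ q = 0)
    (hker : ∀ n s f, f ∈ LinearMap.ker (N ^ n) → ρ s f ∈ LinearMap.ker (N ^ n))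
    (hdim : finrank (ZMod p) V = q * finrank (ZMod p) (LinearMap.ker (N ^ 1))) :
    F V ρ = q * F _ (subRep ρ (LinearMap.ker (N ^ 1)) (hker 1)) := by
  set a := finrank (ZMod p) (LinearMap.ker (N ^ 1)) with ha
  let d : ℕ → ℕ := fun n => finrank (ZMod p) (LinearMap.ker (N ^ n))
  let f : ∀ n, LinearMap.ker (N ^ (n + 1)) →ₗ[ZMod p] LinearMap.ker (N ^ 1) := fun n =>
    ((N ^ n).comp (LinearMap.ker (N ^ (n + 1))).subtype).codRestrict _ fun x => by
      rw [LinearMap.mem_ker, LinearMap.comp_apply, ← Module.End.mul_apply, ← pow_add, add_comm]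
      exact x.2
  have hkf : ∀ n, LinearMap.ker (f n) =
      (LinearMap.ker (N ^ n)).comap (LinearMap.ker (N ^ (n + 1))).subtype := fun n => by
    ext x
    rw [LinearMap.mem_ker, Submodule.mem_comap, LinearMap.mem_ker, Subtype.ext_iff]
    rfl
  have hle : ∀ n, LinearMap.ker (N ^ n) ≤ LinearMap.ker (N ^ (n + 1)) := fun n x hx => by
    rw [LinearMap.mem_ker] at hx ⊢
    rw [pow_succ', Module.End.mul_apply, hx, map_zero]
  have hrk : ∀ n, d (n + 1) = d n + finrank (ZMod p) (LinearMap.range (f n)) := fun n => by
    have h := (f n).finrank_range_add_finrank_ker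
    rw [hkf, (Submodule.comapSubtypeEquivOfLe (hle n)).finrank_eq] at h
    show finrank _ _ = finrank _ _ + _
    omega
  have hub : ∀ n m, d (n + m) ≤ d n + m * a := by
    intro n m
    induction m with
    | zero => simp
    | succ m ih =>
      have := Submodule.finrank_le (LinearMap.range (f (n + m)))
      rw [← ha] at this
      have := hrk (n + m)
      rw [← add_assoc, Nat.succ_mul]
      omega
  have hdq : d q = q * a := by
    rw [← hdim]
    show finrank _ (LinearMap.ker (N ^ q)) = _
    rw [hq, LinearMap.ker_zero, finrank_top]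
  have h0 : d 0 = 0 := by
    show finrank _ (LinearMap.ker (N ^ 0)) = 0
    rw [pow_zero, Module.End.one_eq_id, LinearMap.ker_id, finrank_bot]
  have hsurj : ∀ n < q, LinearMap.range (f n) = ⊤ := fun n hn => by
    refine Submodule.eq_top_of_finrank_eq ?_
    rw [← ha]
    have h1 := hub 0 n
    have h2 := hub (n + 1) (q - (n + 1))
    have h3 := Submodule.finrank_le (LinearMap.range (f n))
    have h4 := hrk n
    rw [← ha] at h3
    rw [Nat.add_sub_cancel' (show n + 1 ≤ q from hn), hdq] at h2
    rw [zero_add, h0, zero_add] at h1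
    have h5 : (n + 1) * a + (q - (n + 1)) * a = q * a := by
      rw [← add_mul, Nat.add_sub_cancel' (show n + 1 ≤ q from hn)]
    rw [Nat.succ_mul] at h5
    omega
  have hNn : ∀ n g x, (N ^ n) (ρ g x) = ρ g ((N ^ n) x) := by
    intro n g
    induction n with
    | zero => intro x; rfl
    | succ n ih => intro x; rw [pow_succ', Module.End.mul_apply, Module.End.mul_apply, ih, hN]
  have hF' : ∀ n ≤ q, F _ (subRep ρ _ (hker n)) = n * F _ (subRep ρ _ (hker 1)) := by
    intro n hn
    induction n with
    | zero =>
      have : Subsingleton (LinearMap.ker (N ^ 0)) := by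
        rw [pow_zero, Module.End.one_eq_id, LinearMap.ker_id]; infer_instance
      simp [hF.eq_zero_of_subsingleton]
    | succ n ih =>
      have hfe : ∀ g (x : LinearMap.ker (N ^ (n + 1))),
          f n (subRep ρ _ (hker (n + 1)) g x) = subRep ρ _ (hker 1) g (f n x) := fun g x => by
        refine Subtype.ext ?_
        show (N ^ n) (ρ g x) = ρ g ((N ^ n) x)
        exact hNn n g x
      rw [hF.eq_ker_add_range _ _ (f n) hfe
        (fun g x hx => by rw [LinearMap.mem_ker] at hx ⊢; rw [hfe, hx, map_zero])
        (fun g x hx => by obtain ⟨y, rfl⟩ := hx; exact ⟨_, hfe g y⟩),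
        hF.congr (σ := subRep ρ _ (hker n)) ((LinearEquiv.ofEq _ _ (hkf n)).trans
          (Submodule.comapSubtypeEquivOfLe (hle n))) (fun g x => rfl),
        hF.congr (σ := subRep ρ _ (hker 1)) ((LinearEquiv.ofEq _ _ (hsurj n hn)).trans
          Submodule.topEquiv) (fun g x => rfl), ih (by omega)]
      push_cast
      ring
  rw [← hF' q le_rfl]
  exact (hF.congr (σ := ρ) ((LinearEquiv.ofEq _ _ (by rw [hq, LinearMap.ker_zero])).trans
    Submodule.topEquiv) fun g x => rfl).symm

theorem apply_funRep_eq_zero_step (g : G) (hpg : p ∣ orderOf g)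
    (h0 : F _ (funRep (G ⧸ Subgroup.zpowers (g ^ p)) ρM) = 0) :
    F _ (funRep (G ⧸ Subgroup.zpowers g) ρM) = 0 := by
  classical
  let C := Subgroup.zpowers g
  let C₁ := Subgroup.zpowers (g ^ p)
  have hle : C₁ ≤ C := Subgroup.zpowers_le.mpr (Subgroup.pow_mem _ (Subgroup.mem_zpowers g) p)
  have hcomm : ∀ z ∈ C₁, g⁻¹ * z * g = z := fun z hz => by
    obtain ⟨n, rfl⟩ := hz
    show g⁻¹ * (g ^ p) ^ n * g = (g ^ p) ^ n
    rw [← zpow_natCast, ← zpow_mul, ← zpow_neg_one, ← zpow_add, ← zpow_add_one]
    congr 1
    ring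
  let r : G ⧸ C₁ → G ⧸ C₁ := Quotient.map' (· * g) fun a b hab => by
    rw [QuotientGroup.leftRel_apply] at hab ⊢
    rw [mul_inv_rev, mul_assoc, ← mul_assoc a⁻¹, ← mul_assoc g⁻¹, hcomm _ hab]
    exact hab
  have hr : ∀ x : G, r (x : G ⧸ C₁) = ((x * g : G) : G ⧸ C₁) := fun x => rfl
  have hrs : ∀ (s : G) (x : G ⧸ C₁), r (s • x) = s • r x := fun s x => by
    induction x using QuotientGroup.induction_on with
    | H x => rw [hr, MulAction.Quotient.smul_coe, hr, MulAction.Quotient.smul_coe]
             simp [mul_assoc]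
  have hrp : ∀ (n : ℕ) (x : G), r^[n] (x : G ⧸ C₁) = ((x * g ^ n : G) : G ⧸ C₁) := by
    intro n
    induction n with
    | zero => intro x; simp
    | succ n ih => intro x; rw [Function.iterate_succ_apply', ih, hr, pow_succ, mul_assoc]
  let R : Module.End (ZMod p) (G ⧸ C₁ → M) := LinearMap.funLeft (ZMod p) M r
  let N : Module.End (ZMod p) (G ⧸ C₁ → M) := R - 1
  have hRn : ∀ (n : ℕ) (f : G ⧸ C₁ → M), (R ^ n) f = f ∘ r^[n] := by
    intro n
    induction n with
    | zero => intro f; rfl
    | succ n ih =>
      intro f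
      rw [pow_succ', Module.End.mul_apply, ih]
      rfl
  have : CharP (Module.End (ZMod p) (G ⧸ C₁ → M)) p ∨ Subsingleton M := by
    rcases subsingleton_or_nontrivial M with h | h
    · exact Or.inr h
    · exact Or.inl (charP_of_injective_algebraMap
        (RingHom.injective (algebraMap (ZMod p) (Module.End (ZMod p) (G ⧸ C₁ → M)))) p)
  rcases this with hchar | hsub
  swap
  · exact hF.eq_zero_of_subsingleton _
  have hNp : N ^ p = 0 := by
    rw [sub_pow_char_of_commute (p := p) (Commute.one_right R), one_pow, sub_eq_zero]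
    refine LinearMap.ext fun f => funext fun x => ?_
    rw [hRn]
    induction x using QuotientGroup.induction_on with
    | H x =>
      rw [Function.comp_apply, hrp, Module.End.one_apply]
      refine congrArg f (QuotientGroup.eq.mpr ?_)
      simp [C₁]
  have hNcomm : ∀ s f, N (funRep (G ⧸ C₁) ρM s f) = funRep (G ⧸ C₁) ρM s (N f) := by
    intro s f
    funext x
    simp only [N, LinearMap.sub_apply, Module.End.one_apply, map_sub, Pi.sub_apply, funRep_apply, R,
      LinearMap.funLeft_apply, hrs]
  have hker : ∀ n s f, f ∈ LinearMap.ker (N ^ n) →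
      funRep (G ⧸ C₁) ρM s f ∈ LinearMap.ker (N ^ n) := by
    intro n s f hf
    have hn : ∀ n f, (N ^ n) (funRep (G ⧸ C₁) ρM s f) = funRep (G ⧸ C₁) ρM s ((N ^ n) f) := by
      intro n
      induction n with
      | zero => intro f; rfl
      | succ n ih => intro f; rw [pow_succ, Module.End.mul_apply, Module.End.mul_apply, hNcomm, ih]
    rw [LinearMap.mem_ker] at hf ⊢
    rw [hn, hf, map_zero]
  -- the kernel of `N` is the module of functions on `G ⧸ C`
  let π : G ⧸ C₁ → G ⧸ C := Subgroup.quotientMapOfLE hle
  have hπ : ∀ x : G, π (x : G ⧸ C₁) = (x : G ⧸ C) := fun x => rfl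
  let j : (G ⧸ C → M) →ₗ[ZMod p] LinearMap.ker N :=
    (LinearMap.funLeft (ZMod p) M π).codRestrict _ fun f => by
      rw [LinearMap.mem_ker]
      funext x
      induction x using QuotientGroup.induction_on with
      | H x =>
        simp only [N, LinearMap.sub_apply, Module.End.one_apply, Pi.sub_apply, R,
          LinearMap.funLeft_apply, hr, hπ, Pi.zero_apply, sub_eq_zero]
        refine congrArg f (QuotientGroup.eq.mpr ?_)
        simp [C]
  have hj : Function.Bijective j := by
    refine ⟨fun a b hab => funext fun y => ?_, fun f => ?_⟩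
    · induction y using QuotientGroup.induction_on with
      | H y => exact congrFun (congrArg Subtype.val hab) (y : G ⧸ C₁)
    · have hf : ∀ (n : ℕ) (x : G), (f : G ⧸ C₁ → M) ((x * g ^ n : G) : G ⧸ C₁) =
          (f : G ⧸ C₁ → M) (x : G ⧸ C₁) := by
        intro n
        induction n with
        | zero => intro x; simp
        | succ n ih =>
          intro x
          have h := congrFun (LinearMap.mem_ker.mp f.2) ((x * g ^ n : G) : G ⧸ C₁)
          simp only [N, LinearMap.sub_apply, Module.End.one_apply, Pi.sub_apply, R,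
            LinearMap.funLeft_apply, hr, Pi.zero_apply, sub_eq_zero] at h
          rw [pow_succ, ← mul_assoc, h, ih]
      refine ⟨fun y => Quotient.liftOn' y (fun x : G => (f : G ⧸ C₁ → M) (x : G ⧸ C₁))
        fun a b hab => ?_, Subtype.ext (funext fun x => ?_)⟩
      · rw [QuotientGroup.leftRel_apply] at hab
        obtain ⟨n, hn⟩ := (isOfFinOrder_of_finite g).mem_powers_iff_mem_zpowers.mpr hab
        have hn' : g ^ n = a⁻¹ * b := hn
        rw [show b = a * g ^ n by rw [hn']; simp, hf]
      · induction x using QuotientGroup.induction_on with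
        | H x => rfl
  have hjeq : F _ (subRep (funRep (G ⧸ C₁) ρM) (LinearMap.ker (N ^ 1)) (hker 1)) =
      F _ (funRep (G ⧸ C) ρM) := by
    refine (hF.congr ((LinearEquiv.ofBijective j hj).trans
      (LinearEquiv.ofEq _ _ (by rw [pow_one]))) fun s f => Subtype.ext (funext fun x => ?_)).symm
    induction x using QuotientGroup.induction_on with
    | H x => rfl
  have hdim : finrank (ZMod p) (G ⧸ C₁ → M) = p * finrank (ZMod p) (LinearMap.ker (N ^ 1)) := by
    rw [pow_one, ← (LinearEquiv.ofBijective j hj).finrank_eq]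
    simp only [Module.finrank_pi_fintype, Finset.sum_const, Finset.card_univ, smul_eq_mul]
    have h1 := C₁.index_mul_card
    have h2 := C.index_mul_card
    rw [Nat.card_zpowers, orderOf_pow_of_dvd (Fact.out : p.Prime).ne_zero hpg] at h1
    rw [Nat.card_zpowers] at h2
    have h3 : C₁.index = p * C.index := by
      obtain ⟨e, he⟩ := hpg
      rw [he, Nat.mul_div_cancel_left _ (Fact.out : p.Prime).pos] at h1
      have he0 : 0 < e := Nat.pos_of_ne_zero fun h => (orderOf_pos g).ne' (by rw [he, h, mul_zero])
      refine Nat.eq_of_mul_eq_mul_right he0 ?_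
      rw [h1, ← h2, he]
      ring
    rw [← Nat.card_eq_fintype_card, ← Nat.card_eq_fintype_card, ← Subgroup.index_eq_card,
      ← Subgroup.index_eq_card, h3, mul_assoc]
  have h := apply_eq_mul_ker hF (funRep (G ⧸ C₁) ρM) N hNcomm p hNp hker hdim
  rw [h0, hjeq] at h
  have hp0 : (p : ℤ) ≠ 0 := Int.natCast_ne_zero.mpr (Fact.out : p.Prime).ne_zero
  exact (mul_eq_zero.mp h.symm).resolve_left hp0

theorem apply_funRep_cyclic_eq_zero
    (h : ∀ g : G, (orderOf g).Coprime p → F _ (funRep (G ⧸ Subgroup.zpowers g) ρM) = 0) (g : G) :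
    F _ (funRep (G ⧸ Subgroup.zpowers g) ρM) = 0 := by
  induction hn : orderOf g using Nat.strong_induction_on generalizing g with
  | _ n ih =>
  by_cases hpg : p ∣ orderOf g
  · refine apply_funRep_eq_zero_step hF ρM g hpg (ih _ ?_ _ rfl)
    rw [← hn, orderOf_pow_of_dvd (Fact.out : p.Prime).ne_zero hpg]
    exact Nat.div_lt_self (orderOf_pos g) (Fact.out : p.Prime).one_lt
  · exact h g (Nat.Coprime.symm ((Fact.out : p.Prime).coprime_iff_not_dvd.mpr hpg))

/-- An additive function vanishing on the modules induced from cyclic subgroups of order prime to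
`p` vanishes. -/
theorem eq_zero_of_induced
    (h : ∀ g : G, (orderOf g).Coprime p → F _ (funRep (G ⧸ Subgroup.zpowers g) ρM) = 0) :
    F M ρM = 0 := by
  classical
  have hcyc := apply_funRep_cyclic_eq_zero hF ρM h
  obtain ⟨K, hK, a, ha⟩ := exists_fixCount_combination (Fintype.card G) (fun _ : G => (1 : ℤ))
    ⟨fun _ _ => rfl, fun _ _ _ => rfl⟩ fun h hh => absurd orderOf_le_card_univ (not_le.mpr hh)
  let P := Σ g : G, Fin (a g).toNat × (G ⧸ Subgroup.zpowers g)
  let Q := (Fin K) ⊕ Σ g : G, Fin (-a g).toNat × (G ⧸ Subgroup.zpowers g)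
  letI actP : MulAction G P :=
    { smul := fun s x => ⟨x.1, x.2.1, s • x.2.2⟩
      one_smul := fun x => by
        obtain ⟨g, i, y⟩ := x
        exact Sigma.ext rfl (heq_of_eq (Prod.ext rfl (one_smul G y)))
      mul_smul := fun s t x => by
        obtain ⟨g, i, y⟩ := x
        exact Sigma.ext rfl (heq_of_eq (Prod.ext rfl (mul_smul s t y))) }
  letI actQ : MulAction G Q :=
    { smul := fun s x => x.map id fun z => ⟨z.1, z.2.1, s • z.2.2⟩
      one_smul := fun x => by
        rcases x with i | ⟨g, i, y⟩
        · rfl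
        · exact congrArg Sum.inr (Sigma.ext rfl (heq_of_eq (Prod.ext rfl (one_smul G y))))
      mul_smul := fun s t x => by
        rcases x with i | ⟨g, i, y⟩
        · rfl
        · exact congrArg Sum.inr (Sigma.ext rfl (heq_of_eq (Prod.ext rfl (mul_smul s t y)))) }
  have hfix : ∀ (b : G → ℕ) (s : G),
      Nat.card {x : Σ g : G, Fin (b g) × (G ⧸ Subgroup.zpowers g) // s • x.2.2 = x.2.2} =
        ∑ g, b g * fixCount g s := by
    intro b s
    let e : {x : Σ g : G, Fin (b g) × (G ⧸ Subgroup.zpowers g) // s • x.2.2 = x.2.2} ≃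
        Σ g : G, Fin (b g) × {y : G ⧸ Subgroup.zpowers g // s • y = y} :=
      { toFun := fun x => ⟨x.1.1, x.1.2.1, x.1.2.2, x.2⟩
        invFun := fun z => ⟨⟨z.1, z.2.1, z.2.2.1⟩, z.2.2.2⟩
        left_inv := fun x => rfl
        right_inv := fun z => rfl }
    rw [Nat.card_congr e, Nat.card_sigma]
    exact Finset.sum_congr rfl fun g _ => by rw [Nat.card_prod, Nat.card_fin, fixCount]
  have hsig : ∀ (b : G → ℕ) (s : G) (x : Σ g : G, Fin (b g) × (G ⧸ Subgroup.zpowers g)),
      ((⟨x.1, x.2.1, s • x.2.2⟩ : Σ g : G, Fin (b g) × (G ⧸ Subgroup.zpowers g)) = x ↔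
        s • x.2.2 = x.2.2) := fun b s x => by
    obtain ⟨g, i, y⟩ := x
    exact ⟨fun h => (Prod.ext_iff.mp (eq_of_heq (Sigma.ext_iff.mp h).2)).2, fun h => by simp only [h]⟩
  have htr : ∀ s : G, LinearMap.trace ℤ _ (permLat P s) = LinearMap.trace ℤ _ (permLat Q s) := by
    intro s
    rw [trace_permLat, trace_permLat]
    have e1 : Nat.card {x : P // s • x = x} = ∑ g, (a g).toNat * fixCount g s :=
      (Nat.card_congr (Equiv.subtypeEquivRight fun x => hsig _ s x)).trans (hfix _ s)
    have e2 : Nat.card {x : Q // s • x = x} = K + ∑ g, (-a g).toNat * fixCount g s := by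
      rw [Nat.card_congr (Equiv.subtypeSum (p := fun x : Q => s • x = x)), Nat.card_sum,
        Nat.card_congr (Equiv.subtypeUnivEquiv (p := fun i : Fin K => s • (Sum.inl i : Q) = Sum.inl i)
          fun i => rfl), Nat.card_fin, ← hfix _ s]
      refine congrArg (K + ·) (Nat.card_congr (Equiv.subtypeEquivRight fun x => ?_))
      rw [← hsig _ s x]
      exact Sum.inr_injective.eq_iff
    rw [e1, e2]
    have h1 := ha s
    rw [mul_one] at h1
    push_cast
    rw [h1, ← Finset.sum_add_distrib]
    refine Finset.sum_congr rfl fun g _ => ?_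
    rw [← add_mul]
    congr 1
    omega
  have heq := latHom_eq_of_trace_eq hF (permLat P) (permLat Q) ρM htr
  rw [apply_latHom_perm P hF, apply_latHom_perm Q hF] at heq
  have hsum : ∀ b : G → ℕ, F _ (piRep fun g : G => piRep fun _ : Fin (b g) =>
      funRep (G ⧸ Subgroup.zpowers g) ρM) = 0 := fun b => by
    rw [hF.pi, finsum_eq_zero_of_forall_eq_zero]
    intro g
    rw [hF.pi, finsum_eq_zero_of_forall_eq_zero]
    exact fun _ => hcyc g
  have hP : F _ (funRep P ρM) = 0 := by
    rw [← hsum fun g => (a g).toNat]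
    exact hF.congr
      { toFun := fun f g i y => f ⟨g, i, y⟩
        map_add' := fun _ _ => rfl
        map_smul' := fun _ _ => rfl
        invFun := fun f x => f x.1 x.2.1 x.2.2
        left_inv := fun f => rfl
        right_inv := fun f => rfl } fun s f => rfl
  have hQ : F _ (funRep Q ρM) = K * F M ρM := by
    have e : F _ (funRep Q ρM) = F _ ((piRep fun _ : Fin K => ρM).prod (piRep fun g : G =>
        piRep fun _ : Fin (-a g).toNat => funRep (G ⧸ Subgroup.zpowers g) ρM)) :=
      hF.congr
        { toFun := fun f => (fun i => f (Sum.inl i), fun g i y => f (Sum.inr ⟨g, i, y⟩))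
          map_add' := fun _ _ => rfl
          map_smul' := fun _ _ => rfl
          invFun := fun f x => Sum.elim f.1 (fun z => f.2 z.1 z.2.1 z.2.2) x
          left_inv := fun f => funext fun x => by rcases x with i | z <;> rfl
          right_inv := fun f => rfl } fun s f => rfl
    rw [e, hF.prod, hsum, add_zero, hF.pi, finsum_eq_sum_of_fintype, Finset.sum_const,
      Finset.card_univ, Fintype.card_fin, nsmul_eq_mul]
  rw [hP, hQ] at heq
  simpa [hK] using heq.symm

end vanish

end FermatLib.CFT
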