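import Fermat.Agent.CFT.GWEvalExact

/-!
Permutation modules: characteristic polynomials and Euler ratios of permutation lattices.
-/

set_option autoImplicit false

open Polynomial

namespace FermatLib.CFT

variable {p : ℕ} [Fact p.Prime]

theorem permPoly_congr {X Y : Type*} [Finite X] [Finite Y] (e : X ≃ Y) {σ : Equiv.Perm X}
    {τ : Equiv.Perm Y} (h : ∀ x, e (σ x) = τ (e x)) (c : ZMod p) :
    permPoly σ c = permPoly τ c :=
  charpoly_permTensor_congr e h _

theorem permPoly_sum {X Y : Type*} [Finite X] [Finite Y] (σ : Equiv.Perm X) (τ : Equiv.Perm Y)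
    (c : ZMod p) : permPoly (Equiv.sumCongr σ τ) c = permPoly σ c * permPoly τ c :=
  charpoly_permTensor_sum σ τ _

theorem permPoly_of_isEmpty {X : Type*} [IsEmpty X] (σ : Equiv.Perm X) (c : ZMod p) :
    permPoly σ c = 1 := by
  rw [permPoly]
  rw [show permTensor σ (c • (LinearMap.id : ZMod p →ₗ[ZMod p] ZMod p)) = 0 from
    LinearMap.ext fun φ => funext fun x => isEmptyElim x, LinearMap.charpoly_zero,
    Module.finrank_zero_of_subsingleton, pow_zero]

theorem permPoly_sigma {ι : Type} [Fintype ι] (Y : ι → Type) [∀ i, Finite (Y i)]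
    (σ : ∀ i, Equiv.Perm (Y i)) (c : ZMod p) :
    permPoly (Equiv.sigmaCongrRight σ) c = ∏ i, permPoly (σ i) c := by
  revert Y
  refine Fintype.induction_empty_option
    (P := fun (ι : Type) [Fintype ι] => ∀ (Y : ι → Type) [∀ i, Finite (Y i)]
      (σ : ∀ i, Equiv.Perm (Y i)), permPoly (Equiv.sigmaCongrRight σ) c = ∏ i, permPoly (σ i) c)
    ?_ ?_ ?_ ι
  · intro α β _ e ih Y _ σ
    letI : Fintype α := Fintype.ofEquiv β e.symm
    rw [← Fintype.prod_equiv e (fun a => permPoly (σ (e a)) c) _ fun _ => rfl,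
      ← ih (fun a => Y (e a)) fun a => σ (e a)]
    exact (permPoly_congr (Equiv.sigmaCongrLeft e)
      (σ := Equiv.sigmaCongrRight fun a => σ (e a)) (fun _ => rfl) c).symm
  · intro Y _ σ
    rw [permPoly_of_isEmpty, Fintype.prod_empty]
  · intro α _ ih Y _ σ
    rw [Fintype.prod_option, ← ih (fun a => Y (some a)) fun a => σ (some a), ← permPoly_sum]
    let e : (Σ i, Y i) ≃ Y none ⊕ Σ a, Y (some a) :=
      { toFun := fun x => match x with
          | ⟨none, y⟩ => Sum.inl y
          | ⟨some a, y⟩ => Sum.inr ⟨a, y⟩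
        invFun := fun x => match x with
          | Sum.inl y => ⟨none, y⟩
          | Sum.inr ⟨a, y⟩ => ⟨some a, y⟩
        left_inv := by rintro ⟨_ | a, y⟩ <;> rfl
        right_inv := by rintro (y | ⟨a, y⟩) <;> rfl }
    exact permPoly_congr e (by rintro ⟨_ | a, y⟩ <;> rfl) c

theorem permPoly_shift (m : ℕ) [NeZero m] :
    permPoly (shiftPerm m) (1 : ZMod p) = X ^ m - 1 := by
  classical
  let f : Module.End (ZMod p) (ZMod m → ZMod p) := permTensor (shiftPerm m) ((1 : ZMod p) • LinearMap.id)
  have hpow : ∀ (i : ℕ) (φ : ZMod m → ZMod p) (x : ZMod m), (f ^ i) φ x = φ (x - i) := by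
    intro i
    induction i with
    | zero => simp
    | succ n ih =>
      intro φ x
      rw [pow_succ', Module.End.mul_apply]
      show (1 : ZMod p) • ((f ^ n) φ ((shiftPerm m).symm x)) = φ (x - (n + 1 : ℕ))
      rw [one_smul, ih, show (shiftPerm m).symm x = x - 1 from (sub_eq_add_neg x 1).symm,
        Nat.cast_succ, sub_sub, add_comm (1 : ZMod m)]
  have hm : f ^ m = 1 :=
    LinearMap.ext fun φ => funext fun x => by rw [hpow, ZMod.natCast_self, sub_zero]; rfl
  have hdvd : minpoly (ZMod p) f ∣ X ^ m - 1 := minpoly.dvd _ _ (by simp [hm])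
  have hint : IsIntegral (ZMod p) f := IsIntegral.of_finite _ f
  have hdeg : m ≤ (minpoly (ZMod p) f).natDegree := by
    by_contra hlt
    set q := minpoly (ZMod p) f
    have h0 : (aeval f q) (Pi.single 0 1) (q.natDegree : ZMod m) = 0 := by
      rw [minpoly.aeval]; rfl
    rw [aeval_eq_sum_range, LinearMap.sum_apply, Finset.sum_apply,
      Finset.sum_eq_single q.natDegree] at h0
    · rw [LinearMap.smul_apply, Pi.smul_apply, hpow, sub_self, Pi.single_eq_same,
        (minpoly.monic hint).coeff_natDegree, one_smul] at h0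
      exact one_ne_zero h0
    · intro b hb hne
      rw [LinearMap.smul_apply, Pi.smul_apply, hpow, Pi.single_eq_of_ne, smul_zero]
      intro h
      rw [sub_eq_zero, ZMod.natCast_eq_natCast_iff', Nat.mod_eq_of_lt (not_le.1 hlt),
        Nat.mod_eq_of_lt ((Finset.mem_range_succ_iff.1 hb).trans_lt (not_le.1 hlt))] at h
      exact hne h.symm
    · simp
  have hX : (X ^ m - 1 : (ZMod p)[X]).Monic := monic_X_pow_sub_C 1 (NeZero.ne m)
  have hXd : (X ^ m - 1 : (ZMod p)[X]).natDegree = m := natDegree_X_pow_sub_C (r := 1)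
  have hmin : minpoly (ZMod p) f = X ^ m - 1 :=
    (eq_of_monic_of_dvd_of_natDegree_le (minpoly.monic hint) hX hdvd (by rw [hXd]; exact hdeg)).symm
  show f.charpoly = _
  rw [← hmin]
  refine eq_of_monic_of_dvd_of_natDegree_le (minpoly.monic hint) (LinearMap.charpoly_monic f)
    (minpoly.dvd _ _ (LinearMap.aeval_self_charpoly f)) ?_
  rw [LinearMap.charpoly_natDegree, Module.finrank_pi, ZMod.card]
  exact hdeg

/-- A permutation all of whose orbits have length `m`. -/
theorem permPoly_free {m : ℕ} (hm : 0 < m) :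
    ∀ {X : Type} [Finite X] (σ : Equiv.Perm X), (∀ x j, (σ ^ j) x = x ↔ m ∣ j) →
      permPoly σ (1 : ZMod p) = (Polynomial.X ^ m - 1) ^ (Nat.card X / m) := by
  intro X
  induction hn : Nat.card X using Nat.strong_induction_on generalizing X with
  | _ n ih =>
    intro _ σ h
    subst hn
    rcases isEmpty_or_nonempty X with hX | ⟨⟨x⟩⟩
    · rw [permPoly_of_isEmpty, Nat.card_of_isEmpty, Nat.zero_div, pow_zero]
    have : NeZero m := ⟨hm.ne'⟩
    obtain ⟨X', hX', σ', hpoly, hfix, hlt⟩ := exists_split σ x m hm ((h x m).2 dvd_rfl)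
      (fun j hj hx => Nat.le_of_dvd hj ((h x j).1 hx))
      ((1 : ZMod p) • (LinearMap.id : ZMod p →ₗ[ZMod p] ZMod p))
    have hs : ∀ (j : ℕ) (i : ZMod m), (shiftPerm m ^ j) i = i + j := by
      intro j
      induction j with
      | zero => simp
      | succ k ihk =>
        intro i
        rw [pow_succ', Equiv.Perm.mul_apply, ihk, Nat.cast_succ, ← add_assoc]
        rfl
    have hcard : Nat.card X = m + Nat.card X' := by
      have := hfix 0
      simp only [pow_zero, Equiv.Perm.one_apply] at this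
      simpa [Nat.card_congr (Equiv.subtypeUnivEquiv fun _ => trivial), Nat.card_zmod] using this
    have h' : ∀ z j, (σ' ^ j) z = z ↔ m ∣ j := by
      intro z j
      have hj := hfix j
      constructor
      · intro hz
        by_contra hmj
        have : IsEmpty {y : X // (σ ^ j) y = y} := ⟨fun y => hmj ((h y.1 j).1 y.2)⟩
        rw [Nat.card_of_isEmpty] at hj
        have : 0 < Nat.card {z : X' // (σ' ^ j) z = z} :=
          Nat.card_pos_iff.2 ⟨⟨⟨z, hz⟩⟩, inferInstance⟩
        omega
      · intro hmj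
        have hall : ∀ i : ZMod m, (shiftPerm m ^ j) i = i := fun i => by
          rw [hs, (ZMod.natCast_eq_zero_iff j m).2 hmj, add_zero]
        rw [Nat.card_congr (Equiv.subtypeUnivEquiv fun y => (h y j).2 hmj),
          Nat.card_congr (Equiv.subtypeUnivEquiv hall),
          Nat.card_zmod, hcard] at hj
        by_contra hz
        have := Finite.card_subtype_lt (p := fun z => (σ' ^ j) z = z) hz
        omega
    have hpoly' : permPoly σ (1 : ZMod p) = permPoly (shiftPerm m) 1 * permPoly σ' 1 := hpoly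
    rw [hpoly', permPoly_shift, ih _ hlt rfl σ' h', hcard, Nat.add_div_left _ hm, pow_succ']

section lattice

/-- The endomorphism of the lattice `ℤ^Y` given by a permutation. -/
def permHom {Y : Type*} (σ : Equiv.Perm Y) : (Y → ℤ) →+ (Y → ℤ) where
  toFun c y := c (σ.symm y)
  map_zero' := rfl
  map_add' _ _ := rfl

@[simp] theorem permHom_apply {Y : Type*} (σ : Equiv.Perm Y) (c : Y → ℤ) (y : Y) :
    permHom σ c y = c (σ.symm y) := rfl

/-- A module identified with a permutation module has the expected polynomial. -/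
theorem endPoly_eq_permPoly {V Y : Type*} [AddCommGroup V] [Module (ZMod p) V] [Finite Y]
    (e : (Y → ZMod p) ≃ₗ[ZMod p] V) (σ : Equiv.Perm Y) (c : ZMod p) (f : Module.End (ZMod p) V)
    (h : ∀ φ, e (fun y => c * φ (σ.symm y)) = f (e φ)) : endPoly f = permPoly σ c := by
  have : Finite V := Finite.of_equiv _ e.toEquiv
  rw [permPoly, ← endPoly_eq]
  exact (endPoly_congr e _ f fun φ => h φ).symm

theorem eulerRatio_permHom {Y : Type*} [Finite Y] (σ : Equiv.Perm Y) :
    EulerRatio p (permHom σ) (permPoly σ 1) 1 := by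
  have hp : p ≠ 0 := (Fact.out : p.Prime).ne_zero
  have : Subsingleton (torP p (Y → ℤ)) := ⟨fun a b => Subtype.ext <| funext fun y => by
    have h := congrFun (a.2.trans b.2.symm) y
    simp only [nsmulAddMonoidHom_apply, Pi.smul_apply] at h
    exact (smul_right_inj hp).1 h⟩
  let r : (Y → ℤ) →+ (Y → ZMod p) := (Int.castAddHom (ZMod p)).compLeft Y
  let rbar : modP p (Y → ℤ) →+ (Y → ZMod p) := QuotientAddGroup.lift _ r fun x hx => by
    obtain ⟨y, rfl⟩ := hx
    funext i
    show (((p • y) i : ℤ) : ZMod p) = 0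
    simp
  have hbij : Function.Bijective (AddMonoidHom.toZModLinearMap p rbar) := by
    refine ⟨(injective_iff_map_eq_zero _).2 ?_, fun φ =>
      ⟨(QuotientAddGroup.mk fun y => ((φ y).val : ℤ) : modP p (Y → ℤ)), funext fun y => ?_⟩⟩
    · intro x
      induction x using QuotientAddGroup.induction_on with | H c => _
      intro hc
      have hd : ∀ y, ∃ d : ℤ, (p : ℤ) * d = c y := fun y => by
        obtain ⟨d, hd⟩ := (ZMod.intCast_zmod_eq_zero_iff_dvd (c y) p).1 (congrFun hc y)
        exact ⟨d, hd.symm⟩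
      choose d hd using hd
      exact (mk_eq_zero_iff_modP c).2 ⟨d, funext fun y => by simp [hd y]⟩
    · show (((φ y).val : ℤ) : ZMod p) = φ y
      simp
  let e := (LinearEquiv.ofBijective _ hbij).symm
  have hP : endPoly (modPEnd p (permHom σ)) = permPoly σ (1 : ZMod p) := by
    refine endPoly_eq_permPoly e σ 1 _ fun φ => ?_
    obtain ⟨x, rfl⟩ := (LinearEquiv.ofBijective _ hbij).surjective φ
    apply (LinearEquiv.ofBijective _ hbij).injective
    simp only [e, LinearEquiv.apply_symm_apply, LinearEquiv.symm_apply_apply]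
    induction x using QuotientAddGroup.induction_on with
    | H c => exact funext fun y => one_mul _
  have : Finite (modP p (Y → ℤ)) := Finite.of_equiv _ e.toEquiv
  exact ⟨inferInstance, inferInstance, by rw [hP, endPoly_subsingleton, one_mul, mul_one]⟩

end lattice

/-- Euler ratios multiply in products. -/
theorem EulerRatio.prod {A B : Type*} [AddCommGroup A] [AddCommGroup B] {fA : A →+ A}
    {fB : B →+ B} {P Q P' Q' : (ZMod p)[X]} (hA : EulerRatio p fA P Q)
    (hB : EulerRatio p fB P' Q') : EulerRatio p (fA.prodMap fB) (P * P') (Q * Q') :=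
  EulerRatio.ses (AddMonoidHom.inl A B) (AddMonoidHom.snd A B)
    (fun _ _ h => congrArg Prod.fst h) (fun b => ⟨(0, b), rfl⟩)
    (fun x => ⟨fun h => ⟨x.1, Prod.ext rfl h.symm⟩, fun ⟨_, h⟩ => h ▸ rfl⟩)
    hA hB (fun _ => by simp) fun _ => rfl

end FermatLib.CFT
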