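import Fermat.Agent.CFT.GWLocEulerSemisimple
import Fermat.Agent.CFT.GWEulerArtin
import Fermat.Agent.CFT.EulerPerm
import Fermat.Agent.CFT.GWEvalPerm

/-!
Intertwiners into permutation modules and fixed vectors of induced representations.
-/

set_option autoImplicit false

open Module Polynomial

namespace FermatLib.CFT.GWLocEuler

section dual

variable {p : ℕ} [Fact p.Prime] {N : Type} [AddCommGroup N] [Module (ZMod p) N]
  (B : Module.End (ZMod p) N) {X : Type} (σ : Equiv.Perm X)

theorem permTensor_single [DecidableEq X] (x : X) (n : N) :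
    permTensor σ B (Pi.single x n) = Pi.single (σ x) (B n) := by
  funext y
  rw [permTensor_apply, Pi.single_apply, Pi.single_apply]
  by_cases h : y = σ x
  · rw [if_pos h, if_pos (by rw [h, Equiv.symm_apply_apply])]
  · rw [if_neg h, if_neg (fun h' => h (by rw [← h', Equiv.apply_symm_apply])), map_zero]

/-- The endomorphism permuting the coordinates. -/
noncomputable abbrev permEnd : Module.End (ZMod p) (X → ZMod p) :=
  permTensor σ ((1 : ZMod p) • (LinearMap.id : ZMod p →ₗ[ZMod p] ZMod p))

theorem endPoly_permEnd [Finite X] : endPoly (permEnd (p := p) σ) = permPoly σ 1 := by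
  rw [endPoly_eq, permPoly]

theorem permEnd_pow_apply (j : ℕ) (φ : X → ZMod p) (x : X) :
    (permEnd (p := p) σ ^ j) φ x = φ ((σ.symm ^ j) x) := by
  induction j generalizing φ with
  | zero => rfl
  | succ j ih =>
    rw [pow_succ, Module.End.mul_apply, ih, pow_succ', Equiv.Perm.mul_apply]
    simp

theorem permEnd_pow_eq_one {m : ℕ} (h : σ ^ m = 1) : permEnd (p := p) σ ^ m = 1 := by
  refine LinearMap.ext fun φ => funext fun x => ?_
  rw [permEnd_pow_apply, ← Equiv.Perm.inv_def, inv_pow, h, inv_one]
  rfl

/-- Intertwiners into a permutation module have the dimension of the equivariant functions. -/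
theorem finrank_intertwiners_perm [Finite N] [Finite X] :
    finrank (ZMod p) (intertwiners B (permEnd (p := p) σ)) =
      finrank (ZMod p) (LinearMap.ker (permTensor σ B - 1)) := by
  classical
  have := Fintype.ofFinite X
  let T : Module.End (ZMod p) (X → N) := permTensor σ B - 1
  have hmem : ∀ φ : Module.Dual (ZMod p) (X → N),
      φ ∈ LinearMap.ker T.dualMap ↔ ∀ x n, φ (Pi.single (σ x) (B n)) = φ (Pi.single x n) :=
      fun φ => by
    rw [LinearMap.mem_ker]
    constructor
    · intro h x n
      have := LinearMap.congr_fun h (Pi.single x n)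
      rw [LinearMap.dualMap_apply, LinearMap.zero_apply] at this
      rwa [LinearMap.sub_apply, Module.End.one_apply, map_sub, permTensor_single, sub_eq_zero]
        at this
    · intro h
      refine LinearMap.pi_ext fun x n => ?_
      rw [LinearMap.dualMap_apply, LinearMap.zero_apply, LinearMap.sub_apply, Module.End.one_apply,
        map_sub, permTensor_single, h, sub_self]
  let e : intertwiners B (permEnd (p := p) σ) ≃ₗ[ZMod p] LinearMap.ker T.dualMap :=
    { toFun := fun ψ => ⟨∑ x, (LinearMap.proj x).comp (ψ.1.comp (LinearMap.proj x)),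
        (hmem _).2 fun x n => by
          have hs : ∀ (y : X) (v : N), (∑ x, (LinearMap.proj x).comp
              (ψ.1.comp (LinearMap.proj x)) : (X → N) →ₗ[ZMod p] ZMod p) (Pi.single y v) =
                ψ.1 v y := fun y v => by
            rw [LinearMap.sum_apply, Finset.sum_eq_single y]
            · simp
            · intro z _ hz; simp [hz]
            · simp
          rw [hs, hs, ← ψ.2 n]
          simp⟩
      map_add' := fun a b => Subtype.ext (LinearMap.ext fun F => by
        simp [Finset.sum_add_distrib])
      map_smul' := fun c a => Subtype.ext (LinearMap.ext fun F => by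
        simp [Finset.mul_sum])
      invFun := fun φ => ⟨LinearMap.pi fun x => φ.1.comp (LinearMap.single (ZMod p) (fun _ => N) x),
        fun n => funext fun x => by
          have h := (hmem _).1 φ.2 (σ.symm x) n
          rw [Equiv.apply_symm_apply] at h
          simp only [permTensor_apply, LinearMap.pi_apply, LinearMap.comp_apply,
            LinearMap.single_apply, LinearMap.id_apply, one_smul]
          exact h.symm⟩
      left_inv := fun ψ => Subtype.ext (LinearMap.ext fun n => funext fun x => by
        simp only [LinearMap.pi_apply, LinearMap.comp_apply, LinearMap.single_apply,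
          LinearMap.sum_apply]
        rw [Finset.sum_eq_single x]
        · simp
        · intro z _ hz; simp [hz]
        · simp)
      right_inv := fun φ => Subtype.ext (LinearMap.pi_ext fun y v => by
        simp only [LinearMap.sum_apply, LinearMap.comp_apply]
        rw [Finset.sum_eq_single y]
        · simp
        · intro z _ hz; simp [hz]
        · simp) }
  rw [e.finrank_eq]
  have h1 := T.dualMap.finrank_range_add_finrank_ker
  have h2 := T.finrank_range_add_finrank_ker
  rw [Subspace.dual_finrank_eq, LinearMap.finrank_range_dualMap_eq_finrank_range] at h1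
  exact Nat.add_left_cancel (h1.trans h2.symm)

end dual

section induced

variable {p : ℕ} [Fact p.Prime] {G : Type} [Group G] {N : Type} [AddCommGroup N]
  [Module (ZMod p) N] (ρ : Representation (ZMod p) G N) (g : G) (H : Subgroup G)
  {X : Type} (σ : Equiv.Perm X) (π : G → X)

/-- Fixed vectors of the induced representation under a subgroup are the equivariant functions on
the left cosets of the subgroup. -/
theorem finrank_fixed_induced [Finite G] [Finite N] (hπ : Function.Surjective π)
    (hσ : ∀ x, π (x * g⁻¹) = σ (π x)) (hH : ∀ x y, π x = π y ↔ y * x⁻¹ ∈ H)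
    {V : Submodule (ZMod p) (G ⧸ Subgroup.zpowers g → N)}
    (hV : ∀ F, F ∈ V ↔ ∀ h ∈ H, funRep (G ⧸ Subgroup.zpowers g) ρ h F = F) :
    finrank (ZMod p) V = finrank (ZMod p) (LinearMap.ker (permTensor σ (ρ g) - 1)) := by
  let r : X → G := Function.surjInv hπ
  have hr : ∀ X, π (r X) = X := Function.surjInv_eq hπ
  have hker : ∀ Φ : X → N, Φ ∈ LinearMap.ker (permTensor σ (ρ g) - 1) ↔
      ∀ x, Φ (π x) = ρ g (Φ (π (x * g))) := fun Φ => by
    rw [LinearMap.mem_ker, LinearMap.sub_apply, Module.End.one_apply, sub_eq_zero]
    have e : ∀ x, σ.symm (π x) = π (x * g) := fun x => by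
      rw [Equiv.symm_apply_eq, ← hσ, mul_inv_cancel_right]
    constructor
    · intro h x
      have := congrFun h (π x)
      rw [permTensor_apply, e] at this
      exact this.symm
    · intro h
      funext y
      rw [← hr y, permTensor_apply, e]
      exact (h _).symm
  let toK : (G ⧸ Subgroup.zpowers g → N) →ₗ[ZMod p] (X → N) :=
    LinearMap.pi fun y => (ρ (r y)⁻¹).comp
      (LinearMap.proj (R := ZMod p) (φ := fun _ : G ⧸ Subgroup.zpowers g => N) (r y : G))
  have hval : ∀ F ∈ V, ∀ x, toK F (π x) = ρ x⁻¹ (F (x : G ⧸ Subgroup.zpowers g)) := by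
    intro F hF x
    obtain ⟨h, hh, hx⟩ : ∃ h ∈ H, r (π x) = h * x :=
      ⟨r (π x) * x⁻¹, (hH x (r (π x))).1 (hr _).symm, by rw [inv_mul_cancel_right]⟩
    have h1 := congrFun ((hV F).1 hF h hh) ((h * x : G) : G ⧸ Subgroup.zpowers g)
    rw [funRep_apply, MulAction.Quotient.smul_coe, smul_eq_mul, inv_mul_cancel_left] at h1
    show ρ (r (π x))⁻¹ (F (r (π x) : G ⧸ Subgroup.zpowers g)) = _
    rw [hx, ← h1, ← Module.End.mul_apply, ← map_mul, mul_inv_rev, inv_mul_cancel_right]
  have hmaps : ∀ F ∈ V, toK F ∈ LinearMap.ker (permTensor σ (ρ g) - 1) := fun F hF =>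
    (hker _).2 fun x => by
      rw [hval F hF, hval F hF, ← Module.End.mul_apply, ← map_mul, mul_inv_rev,
        mul_inv_cancel_left,
        show ((x * g : G) : G ⧸ Subgroup.zpowers g) = (x : G ⧸ Subgroup.zpowers g) from
          QuotientGroup.eq.2 (by simp)]
  let t : V →ₗ[ZMod p] LinearMap.ker (permTensor σ (ρ g) - 1) := toK.restrict hmaps
  refine (LinearEquiv.ofBijective t ⟨(injective_iff_map_eq_zero t).2 fun F hF => ?_,
    fun Φ => ?_⟩).finrank_eq
  · refine Subtype.ext (funext fun y => ?_)
    induction y using QuotientGroup.induction_on with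
    | H x =>
      have h := congrFun (congrArg Subtype.val hF) (π x)
      rw [show ((t F : LinearMap.ker _) : X → N) = toK F from rfl, hval F F.2] at h
      have h' := congrArg (ρ x) h
      rw [← Module.End.mul_apply, ← map_mul, mul_inv_cancel, map_one, Module.End.one_apply] at h'
      simpa using h'
  · have hΦ : ∀ c ∈ Subgroup.zpowers g, ∀ x, ρ c ((Φ : X → N) (π (x * c))) = (Φ : X → N) (π x) := by
      intro c hc
      let S : Subgroup G :=
        { carrier := {c | ∀ x, ρ c ((Φ : X → N) (π (x * c))) = (Φ : X → N) (π x)}
          one_mem' := fun x => by simp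
          mul_mem' := fun {a b} ha hb x => by
            rw [map_mul, Module.End.mul_apply, ← mul_assoc, hb, ha]
          inv_mem' := fun {a} ha x => by
            rw [← ha (x * a⁻¹), inv_mul_cancel_right, ← Module.End.mul_apply, ← map_mul,
              inv_mul_cancel, map_one, Module.End.one_apply] }
      exact (Subgroup.zpowers_le.mpr (show g ∈ S from fun x => ((hker _).1 Φ.2 x).symm) :
        Subgroup.zpowers g ≤ S) hc
    let F : G ⧸ Subgroup.zpowers g → N := fun y =>
      Quotient.liftOn' y (fun x : G => ρ x ((Φ : X → N) (π x))) fun a b hab => by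
        rw [QuotientGroup.leftRel_apply] at hab
        conv_lhs => rw [← hΦ _ hab a, ← Module.End.mul_apply, ← map_mul, mul_inv_cancel_left]
    have hFV : F ∈ V := (hV F).2 fun h hh => funext fun y => by
      induction y using QuotientGroup.induction_on with
      | H x =>
        rw [funRep_apply, MulAction.Quotient.smul_coe]
        show ρ h (ρ (h⁻¹ • x) ((Φ : X → N) (π (h⁻¹ • x)))) = ρ x ((Φ : X → N) (π x))
        rw [smul_eq_mul, show π (h⁻¹ * x) = π x from (hH _ _).2 (by simpa using hh),
          ← Module.End.mul_apply, ← map_mul, mul_inv_cancel_left]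
    refine ⟨⟨F, hFV⟩, Subtype.ext (funext fun y => ?_)⟩
    show ρ (r y)⁻¹ (ρ (r y) ((Φ : X → N) (π (r y)))) = _
    rw [← Module.End.mul_apply, ← map_mul, inv_mul_cancel, map_one, Module.End.one_apply, hr]

/-- Right translation by `g⁻¹`. -/
def rightPerm : Equiv.Perm G := Equiv.mulRight g⁻¹

theorem rightPerm_pow_apply (j : ℕ) (x : G) : (rightPerm g ^ j) x = x * (g ^ j)⁻¹ := by
  induction j with
  | zero => simp
  | succ j ih =>
    rw [pow_succ', Equiv.Perm.mul_apply, ih]
    simp [rightPerm, pow_succ', mul_inv_rev, mul_assoc]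

theorem rightPerm_pow_orderOf : rightPerm g ^ orderOf g = 1 :=
  Equiv.ext fun x => by simp [rightPerm_pow_apply, pow_orderOf_eq_one]

theorem permPoly_rightPerm [Finite G] :
    permPoly (rightPerm g) (1 : ZMod p) = (Polynomial.X ^ orderOf g - 1) ^ (Nat.card G / orderOf g) :=
  permPoly_free (orderOf_pos g) _ fun x j => by
    rw [rightPerm_pow_apply, mul_eq_left, inv_eq_one, orderOf_dvd_iff_pow_eq_one]

/-- The regular representation gives the dimension of the induced module. -/
theorem finrank_intertwiners_rightPerm [Finite G] [Finite N] :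
    finrank (ZMod p) (intertwiners (ρ g) (permEnd (p := p) (rightPerm g))) =
      finrank (ZMod p) (G ⧸ Subgroup.zpowers g → N) := by
  rw [finrank_intertwiners_perm, ← finrank_fixed_induced ρ g (⊥ : Subgroup G) (rightPerm g) id
    Function.surjective_id (fun x => rfl) (fun x y => by
      rw [Subgroup.mem_bot, mul_inv_eq_one]; exact eq_comm) (V := ⊤)
    (fun F => ⟨fun _ h hh => by rw [Subgroup.mem_bot.1 hh, map_one, Module.End.one_apply],
      fun _ => Submodule.mem_top⟩), finrank_top]

end induced

end FermatLib.CFT.GWLocEuler
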