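import Fermat.Agent.CFT.GWLocEulerKummer
import Fermat.Agent.CFT.GWLocEulerFixed
import Fermat.Agent.CFT.GWLocEulerExact
import Fermat.Agent.CFT.GWEulerInduced
import Fermat.Agent.CFT.GWEvalPrime

/-!
The local Euler characteristic at `q` of a module induced from a cyclic group of order prime to `p`.
-/

set_option autoImplicit false
set_option maxSynthPendingDepth 3

open CategoryTheory Module groupCohomology ExtCitation NumberField Polynomial

namespace FermatLib.CFT.GWLocEuler

open FermatLib.CFT FermatLib.CFT.GWKummer

local notation "Γℚ" => AlgebraicClosure ℚ ≃ₐ[ℚ] AlgebraicClosure ℚ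

variable {p : ℕ} [Fact p.Prime] {M : Rep.{0} (ZMod p) Γℚ} {S : Finset Nat.Primes} (D : Level M S)

/-- The level of a representation of its Galois group. -/
@[reducible] noncomputable def inflLevel {V : Type} [AddCommGroup V] [Module (ZMod p) V]
    (σ : Representation (ZMod p) D.Gal V) : Level (inflRep D σ) S where
  field := D.field
  finite := D.finite
  galois := D.galois
  unramified := D.unramified
  split s hs := by
    show σ (D.res s) = 1
    rw [(D.res_eq_one_iff s).2 hs, map_one]
  cyclo := D.cyclo
  complex := D.complex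

/-- The module of a representation of the Galois group is the module of its level. -/
noncomputable def modEquiv {V : Type} [AddCommGroup V] [Module (ZMod p) V]
    (σ : Representation (ZMod p) D.Gal V) : RepMod σ ≃+ (inflLevel D σ).Mod :=
  (toRepMod σ).symm.trans (inflLevel D σ).toMod

/-- The action of the Galois group on the module of the level of a representation. -/
noncomputable instance inflLevelAction {V : Type} [AddCommGroup V] [Module (ZMod p) V]
    (σ : Representation (ZMod p) D.Gal V) : DistribMulAction D.Gal (inflLevel D σ).Mod :=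
  Level.instAction (inflLevel D σ)

theorem modEquiv_smul {V : Type} [AddCommGroup V] [Module (ZMod p) V]
    (σ : Representation (ZMod p) D.Gal V) (x : D.Gal) (v : RepMod σ) :
    modEquiv D σ (x • v) = x • modEquiv D σ v := by
  obtain ⟨v, rfl⟩ := (toRepMod σ).surjective v
  obtain ⟨s, rfl⟩ := D.res_surjective x
  exact ((inflLevel D σ).res_smul s v).symm

/-- Equivariant maps along an equivariant bijection. -/
theorem natCard_equivHom_congr {G : Type*} [Group G] {X X' B : Type*} [AddCommGroup X]
    [AddCommGroup X'] [AddCommGroup B] [DistribMulAction G X] [DistribMulAction G X']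
    [DistribMulAction G B] (e : X ≃+ X') (he : ∀ (g : G) x, e (g • x) = g • e x) :
    Nat.card (equivHom G X' B) = Nat.card (equivHom G X B) :=
  Nat.card_congr
    { toFun := fun φ => ⟨(φ : X' →+ B).comp e.toAddMonoidHom, fun g x => by
        show (φ : X' →+ B) (e (g • x)) = g • _
        rw [he, φ.2]; rfl⟩
      invFun := fun φ => ⟨(φ : X →+ B).comp e.symm.toAddMonoidHom, fun g x => by
        show (φ : X →+ B) (e.symm (g • x)) = g • (φ : X →+ B) (e.symm x)
        rw [← φ.2]
        exact congrArg _ (e.injective (by rw [he, e.apply_symm_apply, e.apply_symm_apply]))⟩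
      left_inv := fun φ => Subtype.ext (AddMonoidHom.ext fun x => by simp)
      right_inv := fun φ => Subtype.ext (AddMonoidHom.ext fun x => by simp) }

/-- A section modulo `p` along an equivariant bijection. -/
theorem isModPSection_congr {G : Type*} [Group G] [Fintype G] {ι : Type*} [Fintype ι]
    {V V' : Type*} [AddCommGroup V] [AddCommGroup V'] [DistribMulAction G V] [DistribMulAction G V']
    (e : V ≃+ V') (he : ∀ (g : G) x, e (g • x) = g • e x) {v : ι → V} {q : ℕ}
    {s : V → Pres ι G} (hs : IsModPSection v q s) :
    IsModPSection (e ∘ v) q (s ∘ e.symm) where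
  killed x := by
    rw [← e.apply_symm_apply x, ← map_nsmul, hs.killed, map_zero]
  right_inv x := by
    show presMap (e.toAddMonoidHom ∘ v) (s (e.symm x)) = x
    rw [presMap_comp_apply e.toAddMonoidHom he, hs.right_inv]
    exact e.apply_symm_apply x
  add x y := by simpa using hs.add (e.symm x) (e.symm y)
  smul g x := by
    have : e.symm (g • x) = g • e.symm x := e.injective (by simp [he])
    simpa [this] using hs.smul g (e.symm x)

/-- Fixed vectors of the dual twist at `q` are the equivariant maps into the ideles at `q`. -/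
theorem natCard_invariants_dualTwist {ζ : AlgebraicClosure ℚ} (hζ : IsPrimitiveRoot ζ p)
    (q : Nat.Primes) :
    Nat.card (Rep.res (primeLocalToGlobal q) (M.dualTwist (cycloChar p))).ρ.invariants =
      Nat.card (equivHom D.Gal D.Mod (primeIdeles D.field q)) := by
  let I := (Rep.res (primeLocalToGlobal q) (M.dualTwist (cycloChar p))).ρ.invariants
  have hinv0 : ∀ (a : I) (τ : primeLocalGaloisGroup q) (x : D.Mod),
      (toQUnits q).comp (muMap D hζ (a : M.dualTwist (cycloChar p))) (locRes D q τ • x) =
        τ • ((toQUnits q).comp (muMap D hζ (a : M.dualTwist (cycloChar p))) x) := by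
    intro a τ x
    have h : (M.dualTwist (cycloChar p)).ρ (primeLocalToGlobal q τ) (a : M.dualTwist (cycloChar p)) =
        (a : M.dualTwist (cycloChar p)) := a.2 τ
    show toQUnits q (muMap D hζ (a : M.dualTwist (cycloChar p)) (locRes D q τ • x)) = _
    conv_lhs => rw [← h, muMap_ρ, toQUnits_smul]
    rw [show (D.res (primeLocalToGlobal q τ))⁻¹ • locRes D q τ • x = x from inv_smul_smul _ _]
    rfl
  have hinv : ∀ (a : I) (τ : Gloc q) (x : D.Mod),
      (toQUnits q).comp (muMap D hζ (a : M.dualTwist (cycloChar p))) (locRes D q τ • x) =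
        τ.onUnits ((toQUnits q).comp (muMap D hζ (a : M.dualTwist (cycloChar p))) x) := hinv0
  let r : I → equivHom D.Gal D.Mod (primeIdeles D.field q) := fun a =>
    ⟨(localLift (stdEmb D.field q) (locRes D q) (stdEmb_postComp D q)
        ((toQUnits q).comp (muMap D hζ (a : M.dualTwist (cycloChar p)))) (hinv a)).codRestrict _
        (localLift_mem _ _ _ _ (hinv a)),
      fun g x => Subtype.ext (localLift_smul _ _ _ _ (hinv a) g x)⟩
  have hr : ∀ a x, localValue D.field q
      ((r a : D.Mod →+ primeIdeles D.field q) x : Idele D.field) =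
        toQUnits q (muMap D hζ (a : M.dualTwist (cycloChar p)) x) := fun a x =>
    localLift_fin_self (stdEmb D.field q) (locRes D q) (stdEmb_postComp D q) _ (hinv a) x
  refine Nat.card_congr (Equiv.ofBijective r ⟨fun a b h => ?_, fun φ => ?_⟩)
  · refine Subtype.ext (muMap_injective D hζ (AddMonoidHom.ext fun x => toQUnits_injective q ?_))
    rw [← hr, ← hr, h]
  · obtain ⟨a, ha⟩ := exists_toQUnits_muMap D hζ q ((localValue D.field q).comp
      ((primeIdeles D.field q).subtype.comp (φ : D.Mod →+ primeIdeles D.field q)))
    have ha' : ∀ x, toQUnits q (muMap D hζ a x) =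
        localValue D.field q ((φ : D.Mod →+ primeIdeles D.field q) x : Idele D.field) :=
      fun x => DFunLike.congr_fun ha x
    have hmem : a ∈ I := fun τ =>
      muMap_injective D hζ (AddMonoidHom.ext fun x => toQUnits_injective q (by
        show toQUnits q (muMap D hζ ((M.dualTwist (cycloChar p)).ρ (primeLocalToGlobal q τ) a) x) = _
        rw [muMap_ρ, toQUnits_smul, ha', φ.2, ha']
        refine (localValue_smul D q τ _).symm.trans (congrArg (localValue D.field q) ?_)
        exact smul_inv_smul (locRes D q τ) _))
    refine ⟨⟨a, hmem⟩, Subtype.ext (AddMonoidHom.ext fun x => primeIdeles_ext D q fun g => ?_)⟩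
    refine (congrArg (fun z : primeIdeles D.field q => localValue D.field q (z : Idele D.field))
      ((r ⟨a, hmem⟩).2 g x).symm).trans ((hr _ _).trans ((ha' (g • x)).trans ?_))
    rw [φ.2]
    rfl

variable (q : Nat.Primes)

/-- The place of an element of the Galois group. -/
noncomputable def placeOf (x : D.Gal) : PlacesAbove (⊥ : Subgroup D.Gal) q :=
  Quotient.mk _ ((stdEmb D.field q).preComp x)

theorem placeOf_surjective : Function.Surjective (placeOf D q) := fun y => by
  induction y using Quotient.inductionOn with
  | h φ =>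
    obtain ⟨x, hx⟩ := Emb.exists_preComp_eq (stdEmb D.field q) φ
    exact ⟨x, congrArg (Quotient.mk _) hx⟩

theorem placePerm_placeOf (g x : D.Gal) :
    placePerm g q (placeOf D q x) = placeOf D q (x * g⁻¹) := rfl

theorem placePerm_pow_orderOf (g : D.Gal) : placePerm g q ^ orderOf g = 1 := by
  have h : ∀ (j : ℕ) x, (placePerm g q ^ j) (placeOf D q x) = placeOf D q (x * (g ^ j)⁻¹) := by
    intro j
    induction j with
    | zero => intro x; simp
    | succ j ih =>
      intro x
      rw [pow_succ', Equiv.Perm.mul_apply, ih, placePerm_placeOf, mul_assoc, pow_succ', mul_inv_rev]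
  refine Equiv.ext fun y => ?_
  obtain ⟨x, rfl⟩ := placeOf_surjective D q y
  rw [h, pow_orderOf_eq_one, inv_one, mul_one]
  rfl

theorem placeOf_eq_iff (x y : D.Gal) :
    placeOf D q x = placeOf D q y ↔ y * x⁻¹ ∈ (locRes D q).range := by
  rw [placeOf, placeOf, Quotient.eq]
  refine (samePlaceRel_bot_iff _ _).trans ⟨?_, ?_⟩
  · rintro ⟨τ, hτ⟩
    rw [postComp_preComp, stdEmb_postComp, ← preComp_mul] at hτ
    exact ⟨τ, by rw [← Emb.preComp_injective _ hτ, mul_inv_cancel_right]⟩
  · rintro ⟨τ, hτ⟩
    refine ⟨locAut τ, ?_⟩
    rw [postComp_preComp, stdEmb_postComp, ← preComp_mul]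
    exact congrArg _ (eq_mul_inv_iff_mul_eq.1 hτ)

variable {N : Type} [AddCommGroup N] [Module (ZMod p) N] [FiniteDimensional (ZMod p) N]
  (ρ : Representation (ZMod p) D.Gal N) (g : D.Gal)

/-- Fixed vectors at `q` of an induced module are the intertwiners into the places over `q`. -/
theorem finrank_invariants_induced :
    finrank (ZMod p) (Rep.res (primeLocalToGlobal q) (inflRep D (indRep ρ g))).ρ.invariants =
      finrank (ZMod p) (intertwiners (ρ g) (permEnd (p := p) (placePerm g q))) := by
  have : Finite N := Module.finite_of_finite (ZMod p)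
  rw [finrank_intertwiners_perm]
  refine finrank_fixed_induced ρ g (locRes D q).range (placePerm g q) (placeOf D q)
    (placeOf_surjective D q) (fun x => (placePerm_placeOf D q g x).symm) (placeOf_eq_iff D q)
    (V := (Rep.res (primeLocalToGlobal q) (inflRep D (indRep ρ g))).ρ.invariants) fun F => ?_
  exact ⟨fun h x ⟨τ, hτ⟩ => hτ ▸ h τ, fun h τ => h _ ⟨τ, rfl⟩⟩

set_option linter.deprecated false in
/-- Maps commuting with `g` into a module killed by `p`. -/
theorem natCard_commHom_modP {A : Type*} [AddCommGroup A] [DistribMulAction D.Gal A]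
    [Finite (modP p A)] :
    Nat.card (commHom ρ g (modP p A)) =
      p ^ finrank (ZMod p) (intertwiners (ρ g) (modPEnd p (DistribMulAction.toAddMonoidHom A g))) := by
  have : Finite N := Module.finite_of_finite (ZMod p)
  rw [← natCard_addHom_intertwining]
  exact Nat.card_congr (Equiv.subtypeEquivRight fun φ =>
    ⟨fun h n => (h n).symm, fun h n => (h n).symm⟩)

set_option linter.deprecated false in
/-- Maps commuting with `g` land in the `p`-torsion. -/
theorem natCard_commHom_torP {A : Type*} [AddCommGroup A] [DistribMulAction D.Gal A]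
    [Finite (torP p A)] :
    Nat.card (commHom ρ g A) =
      p ^ finrank (ZMod p) (intertwiners (ρ g) (torPEnd p (DistribMulAction.toAddMonoidHom A g))) := by
  have : Finite N := Module.finite_of_finite (ZMod p)
  rw [← natCard_addHom_intertwining]
  refine Nat.card_congr
    { toFun := fun φ => ⟨(φ : N →+ A).codRestrict _ fun n => by
          show p • (φ : N →+ A) n = 0
          rw [← map_nsmul, ← Nat.cast_smul_eq_nsmul (ZMod p) p n, ZMod.natCast_self, zero_smul,
            map_zero],
        fun n => Subtype.ext (φ.2 n).symm⟩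
      invFun := fun ψ => ⟨(torP p A).subtype.comp ψ.1, fun n => (congrArg Subtype.val (ψ.2 n)).symm⟩
      left_inv := fun φ => Subtype.ext (AddMonoidHom.ext fun n => rfl)
      right_inv := fun ψ => Subtype.ext (AddMonoidHom.ext fun n => rfl) }

private theorem sub_sub_eq_ite {c : Prop} [Decidable c] {a b b' x y z r : ℕ} (h₁ : a = x)
    (h₂ : b' = y) (h₃ : b = z) (h : x = y + (z + if c then r else 0)) :
    (a : ℤ) - b - b' = if c then (r : ℤ) else 0 := by
  subst h₁ h₂ h₃
  split_ifs at h ⊢ <;> omega

set_option linter.deprecated false in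
/-- The local ratio seen by intertwiners out of an induced module. -/
private theorem finrank_intertwiners_ratio {A : Type*} [AddCommGroup A] {f : A →+ A}
    (hER : EulerRatio p f (permPoly (placePerm g q) 1 *
      (if p = (q : ℕ) then (X ^ orderOf g - 1) ^ (Module.finrank ℚ D.field / orderOf g) else 1)) 1)
    (hg : (orderOf g).Coprime p) (hf : ∀ a, (f : A → A)^[orderOf g] a = a) :
    finrank (ZMod p) (intertwiners (ρ g) (modPEnd p f)) =
      finrank (ZMod p) (intertwiners (ρ g) (torPEnd p f)) +
        (finrank (ZMod p) (intertwiners (ρ g) (permEnd (p := p) (placePerm g q))) +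
          if p = (q : ℕ) then finrank (ZMod p) (D.Gal ⧸ Subgroup.zpowers g → N) else 0) := by
  classical
  have : Finite N := Module.finite_of_finite (ZMod p)
  have hQ : endPoly (1 : Module.End (ZMod p) PUnit) = 1 := endPoly_subsingleton _
  have e1 := finrank_intertwiners_subsingleton (ρ g) (1 : Module.End (ZMod p) PUnit)
  by_cases hq : p = (q : ℕ)
  · rw [if_pos hq]
    rw [if_pos hq] at hER
    have hcard : Nat.card D.Gal = Module.finrank ℚ D.field := IsGalois.card_aut_eq_finrank ℚ D.field
    have := finrank_intertwiners_eulerRatio (ρ g) hER hg hf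
      ((permEnd (p := p) (placePerm g q)).prodMap (permEnd (p := p) (rightPerm g)))
      (1 : Module.End (ZMod p) PUnit)
      (by rw [endPoly_eq, LinearMap.charpoly_prodMap, ← endPoly_eq, ← endPoly_eq, endPoly_permEnd,
        endPoly_permEnd, permPoly_rightPerm, hcard])
      hQ (prodMap_pow_eq_one (permEnd_pow_eq_one _ (placePerm_pow_orderOf D q g))
        (permEnd_pow_eq_one _ (rightPerm_pow_orderOf g))) (one_pow _)
    have e2 := (intertwinersProd (ρ g) (permEnd (p := p) (placePerm g q))
      (permEnd (p := p) (rightPerm g))).finrank_eq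
    rw [e1, add_zero] at this
    rw [this, e2, Module.finrank_prod, finrank_intertwiners_rightPerm ρ g]
  · rw [if_neg hq]
    rw [if_neg hq, mul_one] at hER
    have := finrank_intertwiners_eulerRatio (ρ g) hER hg hf (permEnd (p := p) (placePerm g q))
      (1 : Module.End (ZMod p) PUnit) (endPoly_permEnd _) hQ
      (permEnd_pow_eq_one _ (placePerm_pow_orderOf D q g)) (one_pow _)
    rw [e1, add_zero] at this
    rw [this, add_zero]

set_option linter.deprecated false in
/-- The local Euler characteristic of an induced module. -/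
theorem eulerDefect_induced {ζ : AlgebraicClosure ℚ} (hζ : IsPrimitiveRoot ζ p)
    (hg : (orderOf g).Coprime p)
    {B : LocalPairing (inflRep D (indRep ρ g)) (primeLocalToGlobal q)}
    (hB : IsPerfectOnContinuous (inflRep D (indRep ρ g)) B) :
    eulerDefect (primeLocalToGlobal q) (inflRep D (indRep ρ g)) =
      if p = (q : ℕ) then (finrank (ZMod p) (D.Gal ⧸ Subgroup.zpowers g → N) : ℤ) else 0 := by
  classical
  have hp : p.Prime := Fact.out
  have : Finite N := Module.finite_of_finite (ZMod p)
  let D' := inflLevel D (indRep ρ g)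
  let J := primeIdeles D.field q
  let f := DistribMulAction.toAddMonoidHom J g
  letI : MulAction (ZMod p) (modP p J) := (modPModule p J).toDistribMulAction.toMulAction
  letI : MulAction (ZMod p) (torP p J) := (torPModule p J).toDistribMulAction.toMulAction
  obtain ⟨ζ₀, hζ₀, -⟩ := D.isPrimitiveRoot hζ
  have : NeZero p := ⟨hp.ne_zero⟩
  obtain ⟨i, hi, hgi⟩ := hζ₀.eq_pow_of_pow_eq_one (ξ := g ζ₀)
    (by rw [← map_pow, hζ₀.pow_eq_one, map_one])
  have ha : g ζ₀ = ζ₀ ^ (i : ZMod p).val := by rw [ZMod.val_natCast_of_lt hi, hgi]
  have hER := primeIdeles_eulerRatio hg hζ₀ ha q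
  have := hER.finite_quot; have := hER.finite_tor
  have := hB.finite_left; have := hB.finite_right
  -- first cohomology
  obtain ⟨n, v, s, hv, hs⟩ := exists_presentation_indRep ρ g hg
  let e := modEquiv D (indRep ρ g)
  have he := modEquiv_smul D (indRep ρ g)
  have hv' : Function.Surjective (presMap (G := D.Gal) (e ∘ v)) := fun x => by
    obtain ⟨b, hb⟩ := hv (e.symm x)
    refine ⟨b, (presMap_comp_apply e.toAddMonoidHom he v b).trans ?_⟩
    rw [hb]
    exact e.apply_symm_apply x
  have h1 : finrank (ZMod p) (continuousH1 (primeLocalToGlobal q)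
      (Rep.res (primeLocalToGlobal q) (inflRep D (indRep ρ g)))) =
        finrank (ZMod p) (intertwiners (ρ g) (modPEnd p f)) := by
    rw [← finrank_continuousH1_dual hB]
    refine Nat.pow_right_injective hp.two_le ?_
    show p ^ _ = p ^ _
    rw [← natCard_commHom_modP, ← natCard_equivHom_indRep, ← natCard_equivHom_congr e he,
      ← (isModPSection_congr e he hs).natCard_ext1,
      ← natCard_continuousH1_dualTwist (D := D') hζ q hv', Module.natCard_eq_pow_finrank (K := ZMod p),
      Nat.card_zmod]
  have h0' : finrank (ZMod p) (Rep.res (primeLocalToGlobal q)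
      ((inflRep D (indRep ρ g)).dualTwist (cycloChar p))).ρ.invariants =
        finrank (ZMod p) (intertwiners (ρ g) (torPEnd p f)) := by
    have : FiniteDimensional (ZMod p) (Rep.res (primeLocalToGlobal q)
        ((inflRep D (indRep ρ g)).dualTwist (cycloChar p))) :=
      inferInstanceAs (FiniteDimensional (ZMod p)
        (Module.Dual (ZMod p) (D.Gal ⧸ Subgroup.zpowers g → N)))
    refine Nat.pow_right_injective hp.two_le ?_
    show p ^ _ = p ^ _
    rw [← natCard_commHom_torP, ← natCard_equivHom_indRep, ← natCard_equivHom_congr e he,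
      ← natCard_invariants_dualTwist D' hζ q, Module.natCard_eq_pow_finrank (K := ZMod p),
      Nat.card_zmod]
  have h0 := finrank_invariants_induced D q ρ g
  -- the ratio
  have hf : ∀ a : J, (f : J → J)^[orderOf g] a = a := fun a => by
    show (g • ·)^[orderOf g] a = a
    rw [smul_iterate_apply, pow_orderOf_eq_one, one_smul]
  have key := finrank_intertwiners_ratio D q ρ g hER hg hf
  exact sub_sub_eq_ite h1 h0' h0 key

end FermatLib.CFT.GWLocEuler
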