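import Fermat.Agent.CFT.GWEulerDual
import Fermat.Agent.CFT.GWEulerExactH1
import Fermat.Agent.CFT.GWEulerExactHom
import Fermat.Agent.CFT.GWEulerClass
import Fermat.Agent.CFT.GWLocEulerInduced
import Fermat.Agent.CFT.GWGlobFinite

/-!
The global Euler characteristic: the defect `dim H¹(G_T, V) - dim H⁰(V) - log |Hom_G(V, C_T)|` is
additive and vanishes on modules induced from cyclic groups of order prime to `p`, hence vanishes;
with the counted sequence of locally trivial classes this gives the count at a large set of primes.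
-/

set_option autoImplicit false
set_option maxSynthPendingDepth 3

open CategoryTheory Module groupCohomology ExtCitation NumberField Polynomial

namespace FermatLib.CFT.GWEuler

open FermatLib.CFT FermatLib.CFT.GWKummer FermatLib.CFT.GWLocEuler

local notation "Γℚ" => AlgebraicClosure ℚ ≃ₐ[ℚ] AlgebraicClosure ℚ

variable {p : ℕ} [Fact p.Prime]

/-- A finite abelian group killed by `p` has order a power of `p`. -/
theorem exists_natCard_eq_pow {X : Type*} [AddCommGroup X] [Finite X] (h : ∀ x : X, p • x = 0) :
    ∃ k, Nat.card X = p ^ k := by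
  letI : Module (ZMod p) X := AddCommGroup.zmodModule h
  haveI : Module.Finite (ZMod p) X := Module.Finite.of_finite
  exact ⟨finrank (ZMod p) X, by rw [Module.natCard_eq_pow_finrank (K := ZMod p), Nat.card_zmod]⟩

/-- The order of a finite dimensional space over `ZMod p`. -/
theorem natCard_eq_pow (X : Type*) [AddCommGroup X] [Module (ZMod p) X]
    [FiniteDimensional (ZMod p) X] : Nat.card X = p ^ finrank (ZMod p) X := by
  rw [Module.natCard_eq_pow_finrank (K := ZMod p), Nat.card_zmod]

/-- The logarithm of a power of `p`. -/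
theorem log_pow_self (k : ℕ) : Nat.log p (p ^ k) = k :=
  Nat.log_pow (Fact.out : p.Prime).one_lt k

variable {M : Rep.{0, 0, 0} (ZMod p) Γℚ} {T : Finset Nat.Primes} (D : Level M T)

local notation "CT" => ClassModUnits D.field (T : Set Nat.Primes)

/-- The defect of the global Euler characteristic at `T`. -/
noncomputable def globalDefect : RepFun (ZMod p) D.Gal := fun V _ _ σ =>
  (finrank (ZMod p) (continuousH1S T (inflRep D σ)) : ℤ) - finrank (ZMod p) σ.invariants -
    Nat.log p (Nat.card (equivHom D.Gal (RepMod σ) CT))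

variable {V : Type} [AddCommGroup V] [Module (ZMod p) V] (σ : Representation (ZMod p) D.Gal V)

theorem nsmul_repMod_eq_zero (x : RepMod σ) : p • x = 0 := by
  obtain ⟨v, rfl⟩ := (toRepMod σ).surjective x
  rw [← map_nsmul, ← Nat.cast_smul_eq_nsmul (ZMod p) p v, ZMod.natCast_self, zero_smul, map_zero]

theorem finite_equivHom [FiniteDimensional (ZMod p) V] [Finite (torP p CT)] :
    Finite (equivHom D.Gal (RepMod σ) CT) := by
  haveI : Finite V := Module.finite_of_finite (ZMod p)
  haveI : Finite (RepMod σ) := inferInstanceAs (Finite V)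
  refine Finite.of_injective
    (fun (η : equivHom D.Gal (RepMod σ) CT) (x : RepMod σ) =>
      (⟨(η : RepMod σ →+ CT) x, by
        show p • (η : RepMod σ →+ CT) x = 0
        rw [← map_nsmul, nsmul_repMod_eq_zero D σ, map_zero]⟩ : torP p CT)) fun η η' h => ?_
  exact Subtype.ext (AddMonoidHom.ext fun x => congrArg Subtype.val (congrFun h x))

theorem exists_natCard_equivHom_pow [FiniteDimensional (ZMod p) V] [Finite (torP p CT)] :
    ∃ k, Nat.card (equivHom D.Gal (RepMod σ) CT) = p ^ k := by
  haveI := finite_equivHom D σ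
  refine exists_natCard_eq_pow fun η => Subtype.ext (AddMonoidHom.ext fun x => ?_)
  show p • (η : RepMod σ →+ CT) x = 0
  rw [← map_nsmul, nsmul_repMod_eq_zero D σ, map_zero]

theorem finiteDimensional_h1 (hpT : pPrime p ∈ T) [FiniteDimensional (ZMod p) V] :
    FiniteDimensional (ZMod p) (continuousH1S T (inflRep D σ)) := by
  haveI : Finite (RepMod σ) :=
    haveI : Finite V := Module.finite_of_finite (ZMod p)
    inferInstanceAs (Finite V)
  haveI : Fintype (RepMod σ) := Fintype.ofFinite _
  refine (natCard_ext1_classModUnits D hpT σ (id : RepMod σ → RepMod σ) fun x =>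
    ⟨presSingle x 1, ?_⟩).1
  rw [presMap_presSingle, one_smul]
  rfl

theorem isAdditiveRep_globalDefect (hpT : pPrime p ∈ T) [Finite (torP p CT)] :
    IsAdditiveRep (globalDefect D) := by
  refine ⟨fun A W B _ _ _ _ _ _ _ ρA ρW ρB i π hie hπe hi hπ hex => ?_⟩
  haveI : FiniteDimensional (ZMod p) A := FiniteDimensional.of_injective i hi
  haveI : FiniteDimensional (ZMod p) B := Module.Finite.of_surjective π hπ
  haveI := finiteDimensional_h1 D ρA hpT
  haveI := finiteDimensional_h1 D ρW hpT
  haveI := finiteDimensional_h1 D ρB hpT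
  haveI : Finite (RepMod ρW) :=
    haveI : Finite W := Module.finite_of_finite (ZMod p)
    inferInstanceAs (Finite W)
  haveI : Fintype (RepMod ρW) := Fintype.ofFinite _
  let v : RepMod ρW → RepMod ρW := id
  have hv : Function.Surjective (presMap (G := D.Gal) v) := fun x =>
    ⟨presSingle x 1, by rw [presMap_presSingle, one_smul]; rfl⟩
  let i' : RepMod ρA →+ RepMod ρW :=
    (toRepMod ρW).toAddMonoidHom.comp (i.toAddMonoidHom.comp (toRepMod ρA).symm.toAddMonoidHom)
  let π' : RepMod ρW →+ RepMod ρB :=
    (toRepMod ρB).toAddMonoidHom.comp (π.toAddMonoidHom.comp (toRepMod ρW).symm.toAddMonoidHom)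
  have hie' : ∀ (g : D.Gal) a, i' (g • a) = g • i' a := fun g a =>
    congrArg (toRepMod ρW) (hie g ((toRepMod ρA).symm a))
  have hπe' : ∀ (g : D.Gal) x, π' (g • x) = g • π' x := fun g x =>
    congrArg (toRepMod ρB) (hπe g ((toRepMod ρW).symm x))
  have hi' : Function.Injective i' := fun a b h =>
    (toRepMod ρA).symm.injective (hi ((toRepMod ρW).injective h))
  have hπ' : Function.Surjective π' := fun b => by
    obtain ⟨x, hx⟩ := hπ ((toRepMod ρB).symm b)
    refine ⟨toRepMod ρW x, ?_⟩
    show toRepMod ρB (π x) = b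
    rw [hx, AddEquiv.apply_symm_apply]
  have hex' : ∀ x, π' x = 0 ↔ ∃ a, i' a = x := fun x => by
    constructor
    · intro h
      have h0 : π ((toRepMod ρW).symm x) = 0 := h
      obtain ⟨a, ha⟩ := (hex ▸ LinearMap.mem_ker.2 h0 : (toRepMod ρW).symm x ∈ LinearMap.range i)
      exact ⟨toRepMod ρA a, show toRepMod ρW (i a) = x by rw [ha, AddEquiv.apply_symm_apply]⟩
    · rintro ⟨a, rfl⟩
      have hm : i ((toRepMod ρA).symm a) ∈ LinearMap.ker π :=
        hex ▸ LinearMap.mem_range_self i ((toRepMod ρA).symm a)
      have hm0 : π (i ((toRepMod ρA).symm a)) = (0 : B) := LinearMap.mem_ker.1 hm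
      exact hm0
  have hvB : Function.Surjective (presMap (G := D.Gal) (π' ∘ v)) := fun b => by
    obtain ⟨x, rfl⟩ := hπ' b
    obtain ⟨f, rfl⟩ := hv x
    exact ⟨f, presMap_comp_apply π' hπe' v f⟩
  have h1 := finrank_h1_add_h0 D i π hie hπe hi hπ hex
  have h2 := natCard_equivHom_mul_natCard_ext1 i' π' hie' hπe' v CT hi' hπ' hex' hv
  have eB := (natCard_ext1_classModUnits D hpT ρB (π' ∘ v) hvB).2.2
  have eR := natCard_range_ext1Pull_classModUnits D hpT ρW ρB π hπe hπ v hv π' (fun x => rfl) hπe'
  obtain ⟨kA, hkA⟩ := exists_natCard_equivHom_pow D ρA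
  obtain ⟨kW, hkW⟩ := exists_natCard_equivHom_pow D ρW
  obtain ⟨kB, hkB⟩ := exists_natCard_equivHom_pow D ρB
  rw [eB, eR, hkA, hkW, hkB, natCard_eq_pow (p := p), natCard_eq_pow (p := p), ← pow_add, ← pow_add, ← pow_add] at h2
  have h3 := Nat.pow_right_injective (Fact.out : p.Prime).two_le h2
  unfold globalDefect
  rw [hkA, hkW, hkB, log_pow_self, log_pow_self, log_pow_self]
  omega

variable {N : Type} [AddCommGroup N] [Module (ZMod p) N] [FiniteDimensional (ZMod p) N]
  (ρ : Representation (ZMod p) D.Gal N) (g : D.Gal)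

set_option linter.deprecated false in
theorem globalDefect_indRep (hpT : pPrime p ∈ T) (hg : (orderOf g).Coprime p)
    (hER : EulerRatio p (DistribSMul.toAddMonoidHom CT g) (X - 1) 1) :
    globalDefect D _ (indRep ρ g) = 0 := by
  classical
  haveI : Finite N := Module.finite_of_finite (ZMod p)
  have hp : p.Prime := Fact.out
  let f := DistribMulAction.toAddMonoidHom CT g
  have hER' : EulerRatio p f (X - 1) 1 := hER
  haveI := hER'.finite_quot
  haveI := hER'.finite_tor
  haveI := finiteDimensional_h1 D (indRep ρ g) hpT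
  obtain ⟨n, v, s, hv, hs⟩ := exists_presentation_indRep ρ g hg
  have h1 : finrank (ZMod p) (continuousH1S T (inflRep D (indRep ρ g))) =
      finrank (ZMod p) (intertwiners (ρ g) (modPEnd p f)) := by
    refine Nat.pow_right_injective hp.two_le ?_
    show p ^ _ = p ^ _
    rw [← natCard_eq_pow, ← natCard_commHom_modP, ← natCard_equivHom_indRep, ← hs.natCard_ext1,
      (natCard_ext1_classModUnits D hpT (indRep ρ g) v hv).2.2]
  have he : Nat.card (equivHom D.Gal (RepMod (indRep ρ g)) CT) =
      p ^ finrank (ZMod p) (intertwiners (ρ g) (torPEnd p f)) := by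
    rw [natCard_equivHom_indRep, natCard_commHom_torP]
  have h0 : finrank (ZMod p) (indRep ρ g).invariants =
      finrank (ZMod p) (LinearMap.ker (ρ g - 1)) := by
    refine Nat.pow_right_injective hp.two_le ?_
    show p ^ _ = p ^ _
    rw [← natCard_eq_pow, ← natCard_eq_pow, natCard_invariants_indRep]
    exact Nat.card_congr (Equiv.subtypeEquivRight fun m => by
      rw [LinearMap.mem_ker, LinearMap.sub_apply, Module.End.one_apply, sub_eq_zero])
  have hf : ∀ a : CT, (f : CT → CT)^[orderOf g] a = a := fun a => by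
    show (g • ·)^[orderOf g] a = a
    rw [smul_iterate_apply, pow_orderOf_eq_one, one_smul]
  have key := finrank_intertwiners_of_ratio_X_sub_one (ρ g) hER' hg hf
  unfold globalDefect
  rw [h1, h0, he, log_pow_self, key]
  push_cast
  ring

theorem globalDefect_eq_zero (hpT : pPrime p ∈ T)
    (hER : ∀ g : D.Gal, (orderOf g).Coprime p →
      EulerRatio p (DistribSMul.toAddMonoidHom CT g) (X - 1) 1) :
    globalDefect D N ρ = 0 := by
  haveI := (hER 1 (by rw [orderOf_one]; exact Nat.coprime_one_left p)).finite_tor
  exact eq_zero_of_induced (isAdditiveRep_globalDefect D hpT) ρ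
    fun g hg => globalDefect_indRep D ρ g hpT hg (hER g hg)

/-- The module of the level as a representation of its Galois group. -/
noncomputable def levelRep : Representation (ZMod p) D.Gal M where
  toFun g := M.ρ (Function.surjInv D.res_surjective g)
  map_one' := by
    rw [(D.res_eq_res (τ := 1) (by rw [Function.surjInv_eq D.res_surjective, map_one])).1, map_one]
  map_mul' g h := by
    rw [(D.res_eq_res (τ := Function.surjInv D.res_surjective g *
      Function.surjInv D.res_surjective h) (by
        rw [map_mul, Function.surjInv_eq D.res_surjective, Function.surjInv_eq D.res_surjective,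
          Function.surjInv_eq D.res_surjective])).1, map_mul]

theorem inflRep_levelRep : inflRep D (levelRep D) = M := by
  have h : (levelRep D).comp D.res = M.ρ := MonoidHom.ext fun s =>
    (D.res_eq_res (Function.surjInv_eq D.res_surjective (D.res s))).1
  show Rep.of _ = M
  rw [h]

theorem natCard_equivHom_levelRep :
    Nat.card (equivHom D.Gal (RepMod (levelRep D)) CT) = Nat.card (equivHom D.Gal D.Mod CT) := by
  refine (natCard_equivHom_congr ((toRepMod (levelRep D)).symm.trans D.toMod) fun g x => ?_).symm
  rfl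

include D in
/-- The count at a level whose classes have ratio `(X - 1) / 1`. -/
theorem globalCount_of_eulerRatio [FiniteDimensional (ZMod p) M] (hpT : pPrime p ∈ T)
    (hER : ∀ g : D.Gal, (orderOf g).Coprime p →
      EulerRatio p (DistribSMul.toAddMonoidHom CT g) (X - 1) 1) :
    FiniteDimensional (ZMod p) (continuousH1S T M) ∧
    FiniteDimensional (ZMod p) (continuousH1S T (M.dualTwist (cycloChar p))) ∧
    finrank (ZMod p) (continuousH1S T M)
        + finrank (ZMod p) (M.dualTwist (cycloChar p)).ρ.invariants
      = finrank (ZMod p) (sha₁ T (M.dualTwist (cycloChar p))) + finrank (ZMod p) M.ρ.invariants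
        + ∑ v, finrank (ZMod p)
            (Rep.res (extArithLoc T v) (M.dualTwist (cycloChar p))).ρ.invariants := by
  haveI : Finite M := Module.finite_of_finite (ZMod p)
  haveI : FiniteDimensional (ZMod p) (M.dualTwist (cycloChar p)) :=
    inferInstanceAs (FiniteDimensional (ZMod p) (Module.Dual (ZMod p) M))
  haveI := (hER 1 (by rw [orderOf_one]; exact Nat.coprime_one_left p)).finite_tor
  have hfd := finiteDimensional_h1 D (levelRep D) hpT
  rw [inflRep_levelRep] at hfd
  haveI := finite_continuousH1S_dualTwist D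
  refine ⟨hfd, Module.Finite.of_finite, ?_⟩
  have h0 := globalDefect_eq_zero D (levelRep D) hpT hER
  obtain ⟨k, hk⟩ := exists_natCard_equivHom_pow D (levelRep D)
  have hinv : finrank (ZMod p) (levelRep D).invariants = finrank (ZMod p) M.ρ.invariants := by
    rw [← inflRep_invariants_eq D (ρ := levelRep D)]
    exact congrArg (fun X : Rep.{0, 0, 0} (ZMod p) Γℚ => finrank (ZMod p) X.ρ.invariants)
      (inflRep_levelRep D)
  have hh1 : finrank (ZMod p) (continuousH1S T (inflRep D (levelRep D))) =
      finrank (ZMod p) (continuousH1S T M) :=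
    congrArg (fun X : Rep.{0, 0, 0} (ZMod p) Γℚ => finrank (ZMod p) (continuousH1S T X))
      (inflRep_levelRep D)
  unfold globalDefect at h0
  rw [hk, log_pow_self, hinv, hh1] at h0
  obtain ⟨hsha, -, hK⟩ := natCard_equivHom_kseq D hpT
  rw [← natCard_equivHom_levelRep, hk, natCard_eq_pow (p := p), natCard_eq_pow (p := p),
    Finset.prod_congr rfl (fun v _ => natCard_eq_pow (p := p)
      (Rep.res (extArithLoc T v) (M.dualTwist (cycloChar p))).ρ.invariants),
    Finset.prod_pow_eq_pow_sum, ← pow_add, ← pow_add] at hK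
  have h3 := Nat.pow_right_injective (Fact.out : p.Prime).two_le hK
  omega

/-- The global Euler characteristic at some larger set of primes. -/
theorem exists_count {M : Rep.{0, 0, 0} (ZMod p) Γℚ} [FiniteDimensional (ZMod p) M]
    (hsm : ∀ m : M, ∃ F : IntermediateField ℚ (AlgebraicClosure ℚ), FiniteDimensional ℚ F ∧
      ∀ s ∈ F.fixingSubgroup, M.ρ s m = m)
    {S : Finset Nat.Primes} (hpS : pPrime p ∈ S) (hur : GWUnramifiedOutside M S) :
    ∃ T, S ⊆ T ∧
      FiniteDimensional (ZMod p) (continuousH1S T M) ∧
      FiniteDimensional (ZMod p) (continuousH1S T (M.dualTwist (cycloChar p))) ∧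
      finrank (ZMod p) (continuousH1S T M)
          + finrank (ZMod p) (M.dualTwist (cycloChar p)).ρ.invariants
        = finrank (ZMod p) (sha₁ T (M.dualTwist (cycloChar p))) + finrank (ZMod p) M.ρ.invariants
          + ∑ v, finrank (ZMod p)
              (Rep.res (extArithLoc T v) (M.dualTwist (cycloChar p))).ρ.invariants := by
  classical
  haveI : NeZero p := ⟨(Fact.out : p.Prime).ne_zero⟩
  obtain ⟨D₀⟩ := exists_level hsm hpS hur
  obtain ⟨ζ, hζ⟩ := HasEnoughRootsOfUnity.exists_primitiveRoot (AlgebraicClosure ℚ) p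
  obtain ⟨ζ₀, hζ₀, -⟩ := D₀.isPrimitiveRoot hζ
  haveI : IsTotallyComplex D₀.field := by
    by_cases h2 : p = 2
    · exact D₀.isTotallyComplex h2
    · exact isTotallyComplex_of_primitiveRoot hζ₀ h2
  obtain ⟨T₀, hT₀⟩ := classModUnits_eulerRatio hζ₀
  refine ⟨S ∪ T₀, Finset.subset_union_left, ?_⟩
  let D : Level M (S ∪ T₀) :=
    { field := D₀.field
      finite := D₀.finite
      galois := D₀.galois
      unramified := IntermediateField.IsUnramifiedOutside.mono Finset.subset_union_left
        D₀.unramified
      split := D₀.split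
      cyclo := D₀.cyclo
      complex := D₀.complex }
  have hpT : pPrime p ∈ S ∪ T₀ := Finset.mem_union_left _ hpS
  exact globalCount_of_eulerRatio D hpT fun g hg =>
    hT₀ (S ∪ T₀) Finset.subset_union_right hpT g hg

end FermatLib.CFT.GWEuler
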