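import Fermat.Agent.CFT.GWGlobFinite

/-!
Classes attached to equivariant maps into idele classes modulo units outside `S`: the map
`Hom_G(V, C_S) → H1(G_S, M')` and its image, the classes trivial at `S` and at infinity.
-/

set_option autoImplicit false
set_option maxSynthPendingDepth 3

open CategoryTheory groupCohomology ExtCitation NumberField

namespace FermatLib.CFT.GWKummer

open FermatLib.CFT

local notation "Γℚ" => AlgebraicClosure ℚ ≃ₐ[ℚ] AlgebraicClosure ℚ
local notation "Qbar" => AlgebraicClosure ℚ

variable {p : ℕ} [Fact p.Prime] {M : Rep (ZMod p) Γℚ} {S : Finset Nat.Primes} (D : Level M S)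
  {ζ : AlgebraicClosure ℚ} (hζ : IsPrimitiveRoot ζ p)

local notation "M'" => M.dualTwist (cycloChar p)

section classes

variable (L : Type) [Field L] [NumberField L]

/-- The projection of ideles to classes modulo units. -/
noncomputable def toClassModUnits (T : Set Nat.Primes) : Idele L →+ ClassModUnits L T :=
  (QuotientAddGroup.mk' _).comp (QuotientAddGroup.mk' (principalIdeles L))

theorem toClassModUnits_surjective (T : Set Nat.Primes) :
    Function.Surjective (toClassModUnits L T) :=
  (QuotientAddGroup.mk'_surjective _).comp (QuotientAddGroup.mk'_surjective _)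

theorem toClassModUnits_smul (T : Set Nat.Primes) (g : L ≃ₐ[ℚ] L) (f : Idele L) :
    toClassModUnits L T (g • f) = g • toClassModUnits L T f := rfl

theorem toClassModUnits_eq_zero_iff (T : Set Nat.Primes) (f : Idele L) :
    toClassModUnits L T f = 0 ↔ ∃ x : LUnits L, f - principalIdele L x ∈ unitIdelesOutside L T := by
  constructor
  · intro h
    obtain ⟨u, hu, hu'⟩ := (QuotientAddGroup.eq_zero_iff _).1 h
    have h1 : -u + f ∈ principalIdeles L := QuotientAddGroup.eq.1 hu'
    rw [principalIdeles_eq_range] at h1
    obtain ⟨x, hx⟩ := h1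
    refine ⟨x, ?_⟩
    rw [hx]
    simpa using hu
  · rintro ⟨x, hx⟩
    refine (QuotientAddGroup.eq_zero_iff _).2 ⟨_, hx, QuotientAddGroup.eq.2 ?_⟩
    rw [principalIdeles_eq_range]
    exact ⟨x, by abel⟩

variable {L}

/-- Principal ideles meet the units outside `S` trivially. -/
theorem eq_zero_of_principal_mem_units {T : Set Nat.Primes} {x : LUnits L}
    (hx : principalIdele L x ∈ unitIdelesOutside L T) : x = 0 := by
  obtain ⟨φ⟩ : Nonempty (L →+* ℂ) := inferInstance
  refine LUnits.ext_val (φ.injective ?_)
  have h := congrArg CUnits.toField (congrFun hx.2 φ)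
  rw [LUnits.val_zero, map_one]
  exact h

theorem eq_of_sub_principal_mem {T : Set Nat.Primes} {f : Idele L} {x y : LUnits L}
    (hx : f - principalIdele L x ∈ unitIdelesOutside L T)
    (hy : f - principalIdele L y ∈ unitIdelesOutside L T) : x = y := by
  refine sub_eq_zero.1 (eq_zero_of_principal_mem_units (T := T) ?_)
  have h := sub_mem hy hx
  rwa [sub_sub_sub_cancel_left, ← map_sub] at h

end classes

variable {ι : Type*} [Fintype ι] {v : ι → D.Mod}

/-- `w` is the class attached to `f` by some lift to ideles. -/
def ClassRel (hv : Function.Surjective (presMap (G := D.Gal) v))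
    (f : equivHom D.Gal D.Mod (ClassModUnits D.field (S : Set Nat.Primes))) (w : H1 M') : Prop :=
  ∃ (F : equivHom D.Gal (Pres ι D.Gal) (Idele D.field))
    (h : equivHom D.Gal (presKer (G := D.Gal) v) (LUnits D.field)) (c : cocycles₁ M'),
    (∀ b, toClassModUnits D.field _ ((F : Pres ι D.Gal →+ Idele D.field) b) =
      (f : D.Mod →+ ClassModUnits D.field (S : Set Nat.Primes)) (presMap v b)) ∧
    (∀ x : presKer (G := D.Gal) v, (F : Pres ι D.Gal →+ Idele D.field) x -
      principalIdele D.field ((h : presKer (G := D.Gal) v →+ LUnits D.field) x) ∈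
        unitIdelesOutside D.field (S : Set Nat.Primes)) ∧
    IsLevelConstantS₁ S c ∧
    IsPair D.res v ((toQbarU D).comp (h : presKer (G := D.Gal) v →+ LUnits D.field))
      (fun σ => muMap D hζ (c σ)) ∧
    (H1π M').hom c = w

variable (hpS : pPrime p ∈ S) (hv : Function.Surjective (presMap (G := D.Gal) v))

include hpS in
theorem classRel_exists (f : equivHom D.Gal D.Mod (ClassModUnits D.field (S : Set Nat.Primes))) :
    ∃ w, ClassRel D hζ hv f w := by
  set f' := (f : D.Mod →+ ClassModUnits D.field (S : Set Nat.Primes))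
  obtain ⟨F, hF, hπ⟩ := exists_equivariant_lift (toClassModUnits D.field (S : Set Nat.Primes))
    (toClassModUnits_smul D.field _) (toClassModUnits_surjective D.field _) (f'.comp (presMap v))
    fun g b => by
      show f' (presMap v (g • b)) = g • f' (presMap v b)
      rw [presMap_smul, f.2]
  have hdec : ∀ x : presKer (G := D.Gal) v, ∃ y : LUnits D.field,
      F x - principalIdele D.field y ∈ unitIdelesOutside D.field (S : Set Nat.Primes) := fun x => by
    refine (toClassModUnits_eq_zero_iff D.field _ _).1 ?_
    rw [hπ, AddMonoidHom.comp_apply, show presMap v (x : Pres ι D.Gal) = 0 from x.2, map_zero]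
  choose y hy using hdec
  let h : equivHom D.Gal (presKer (G := D.Gal) v) (LUnits D.field) :=
    ⟨AddMonoidHom.mk' y fun a b => eq_of_sub_principal_mem (hy (a + b)) (by
      have := add_mem (hy a) (hy b)
      rw [sub_add_sub_comm, ← map_add, ← map_add] at this
      exact this), fun g x => eq_of_sub_principal_mem (hy (g • x)) (by
      have := unitIdelesOutside_smul_mem D.field _ g (hy x)
      rw [smul_sub, ← hF, ← principalIdele_smul] at this
      exact this)⟩
  obtain ⟨c, hc, hpair⟩ := exists_class_of_map D hζ hpS hv h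
    (isUnramifiedMap_of_decomp D _ F fun q _ x => by
      have := neg_mem ((hy x).1 q (stdEmb D.field q)).1
      rw [← neg_sub (F x) (principalIdele D.field _), map_neg]
      exact this)
  exact ⟨_, ⟨F, hF⟩, h, c, hπ, hy, hc, hpair, rfl⟩

omit hpS in
theorem classRel_sub {f f' : equivHom D.Gal D.Mod (ClassModUnits D.field (S : Set Nat.Primes))}
    {w w' : H1 M'} (H : ClassRel D hζ hv f w) (H' : ClassRel D hζ hv f' w') :
    ClassRel D hζ hv (f - f') (w - w') := by
  obtain ⟨F, h, c, h1, h2, h3, h4, rfl⟩ := H
  obtain ⟨F', h', c', h1', h2', h3', h4', rfl⟩ := H'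
  refine ⟨F - F', h - h', c - c', fun b => ?_, fun x => ?_, ?_, ?_, map_sub _ _ _⟩
  · show toClassModUnits D.field _ ((F : Pres ι D.Gal →+ Idele D.field) b -
      (F' : Pres ι D.Gal →+ Idele D.field) b) = _
    rw [map_sub, h1, h1']
    rfl
  · have := sub_mem (h2 x) (h2' x)
    rw [sub_sub_sub_comm, ← map_sub] at this
    exact this
  · obtain ⟨E, hE, hEc⟩ := h3
    obtain ⟨E', hE', hEc'⟩ := h3'
    exact ⟨E ⊔ E', hE.sup hE', fun g s hs => by
      show c (g * s) - c' (g * s) = c g - c' g
      rw [hEc g s (IntermediateField.fixingSubgroup_antitone le_sup_left hs),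
        hEc' g s (IntermediateField.fixingSubgroup_antitone le_sup_right hs)]⟩
  · have := h4.sub D.res h4'
    have e1 : (toQbarU D).comp ((h - h' : equivHom D.Gal (presKer (G := D.Gal) v) (LUnits D.field)) :
        presKer (G := D.Gal) v →+ LUnits D.field) =
        (toQbarU D).comp (h : presKer (G := D.Gal) v →+ LUnits D.field) -
          (toQbarU D).comp (h' : presKer (G := D.Gal) v →+ LUnits D.field) :=
      AddMonoidHom.ext fun x => map_sub (toQbarU D) _ _
    have e2 : (fun σ => muMap D hζ ((c - c' : cocycles₁ M') σ)) =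
        (fun σ => muMap D hζ (c σ)) - fun σ => muMap D hζ (c' σ) :=
      funext fun σ => map_sub (muMap D hζ) _ _
    rw [e1, e2]
    exact this

/-- Pairs of the same map have the same class. -/
theorem H1π_eq_zero_of_cohomologous {c : cocycles₁ M'}
    (h : IsCohomologous D.res (fun σ => muMap D hζ (c σ)) 0) : (H1π M').hom c = 0 := by
  obtain ⟨η, hη⟩ := h
  obtain ⟨a, rfl⟩ := exists_muMap_eq D hζ η
  rw [← map_zero (H1π M').hom, H1π_eq_iff]
  refine ⟨a, funext fun σ => muMap_injective D hζ (AddMonoidHom.ext fun x => ?_)⟩
  rw [d₀₁_hom_apply]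
  show muMap D hζ ((M').ρ σ a - a) x = muMap D hζ (c σ - 0) x
  rw [sub_zero, map_sub, AddMonoidHom.sub_apply, muMap_ρ]
  have := hη σ x
  simp only [Pi.zero_apply, AddMonoidHom.zero_apply, sub_zero] at this
  exact this.symm

theorem dualFamily_zero {H : Type} [Group H] (f : H →* Γℚ) {U : Type*} [AddCommGroup U]
    (φ : QbarU →+ U) :
    dualFamily D hζ φ ((0 : cocycles₁ (Rep.res f M')) : H → M') = 0 := by
  funext σ
  refine AddMonoidHom.ext fun x => ?_
  show φ (muMap D hζ 0 x) = 0
  rw [map_zero, AddMonoidHom.zero_apply, map_zero]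

omit hpS in
theorem classRel_eq_zero {w : H1 M'} (H : ClassRel D hζ hv 0 w) : w = 0 := by
  obtain ⟨F, h, c, h1, h2, -, h4, rfl⟩ := H
  have hdec : ∀ b, ∃ k : LUnits D.field, (F : Pres ι D.Gal →+ Idele D.field) b -
      principalIdele D.field k ∈ unitIdelesOutside D.field (S : Set Nat.Primes) := fun b =>
    (toClassModUnits_eq_zero_iff D.field _ _).1 ((h1 b).trans rfl)
  choose k hk using hdec
  let K : Pres ι D.Gal →+ LUnits D.field := AddMonoidHom.mk' k fun a b =>
    eq_of_sub_principal_mem (hk (a + b)) (by
      have := add_mem (hk a) (hk b)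
      rw [sub_add_sub_comm, ← map_add, ← map_add] at this
      exact this)
  have hK : ∀ (g : D.Gal) b, K (g • b) = g • K b := fun g b =>
    eq_of_sub_principal_mem (hk (g • b)) (by
      have := unitIdelesOutside_smul_mem D.field _ g (hk b)
      rw [smul_sub, ← F.2, ← principalIdele_smul] at this
      exact this)
  refine H1π_eq_zero_of_cohomologous D hζ (h4.cohomologous D.res hv ?_)
  have e : (toQbarU D).comp (h : presKer (G := D.Gal) v →+ LUnits D.field) =
      ((toQbarU D).comp K).comp (presKer (G := D.Gal) v).subtype := by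
    refine AddMonoidHom.ext fun x => congrArg (toQbarU D) ?_
    exact eq_of_sub_principal_mem (h2 x) (hk x)
  rw [e]
  exact isPair_restr D.res fun σ b => by
    show toQbarU D (K (D.res σ • b)) = σ • toQbarU D (K b)
    rw [hK, toQbarU_smul]

omit hpS in
theorem classRel_unique {f : equivHom D.Gal D.Mod (ClassModUnits D.field (S : Set Nat.Primes))}
    {w w' : H1 M'} (H : ClassRel D hζ hv f w) (H' : ClassRel D hζ hv f w') : w = w' := by
  have := classRel_sub D hζ hv H H'
  rw [sub_self] at this
  exact sub_eq_zero.1 (classRel_eq_zero D hζ hv this)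

/-- The class of an equivariant map into classes modulo units outside `S`. -/
noncomputable def classMap :
    equivHom D.Gal D.Mod (ClassModUnits D.field (S : Set Nat.Primes)) →+ H1 M' :=
  AddMonoidHom.mk' (fun f => (classRel_exists D hζ hpS hv f).choose) fun f g => by
    have := classRel_sub D hζ hv (classRel_exists D hζ hpS hv (f + g)).choose_spec
      (classRel_exists D hζ hpS hv g).choose_spec
    rw [add_sub_cancel_right] at this
    exact sub_eq_iff_eq_add.1
      (classRel_unique D hζ hv this (classRel_exists D hζ hpS hv f).choose_spec)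

/-- The local value of a principal idele which is a lift modulo units. -/
theorem localValue_principal_eq_of_mem {q : Nat.Primes} (hq : q ∈ S) {f : Idele D.field}
    {y : LUnits D.field}
    (h : f - principalIdele D.field y ∈ unitIdelesOutside D.field (S : Set Nat.Primes)) :
    localValue D.field q (principalIdele D.field y) = localValue D.field q f := by
  have h1 : localValue D.field q (f - principalIdele D.field y) = 0 := (h.1 q _).2 hq
  rw [map_sub] at h1
  exact (sub_eq_zero.1 h1).symm

theorem infValue_principal_eq_of_mem {f : Idele D.field} {y : LUnits D.field}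
    (h : f - principalIdele D.field y ∈ unitIdelesOutside D.field (S : Set Nat.Primes)) :
    infValue D.field (principalIdele D.field y) = infValue D.field f := by
  have h1 : infValue D.field (f - principalIdele D.field y) = 0 := congrFun h.2 (stdEmbInf D)
  rw [map_sub] at h1
  exact (sub_eq_zero.1 h1).symm

theorem locRes_H1π (loc : extArithIndex S) (c : cocycles₁ M') :
    (groupCohomology.locRes (extArithLoc S) M' loc).hom ((H1π M').hom c) =
      (H1π _).hom (mapCocycles₁ (extArithLoc S loc) (𝟙 (Rep.res (extArithLoc S loc) M')) c) :=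
  H1π_comp_map_apply (extArithLoc S loc) (𝟙 _) c

end FermatLib.CFT.GWKummer
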