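import Fermat.Agent.CFT.GWGlobIsotropy
import Fermat.Agent.CFT.GWGlobClass
import Fermat.Agent.CFT.DualInstance

/-!
Middle exactness: local classes orthogonal to all global classes of `M`
come from a global class of the dual twist, given the characterisation of the local pairings by
the global invariant.
-/

set_option autoImplicit false
set_option maxSynthPendingDepth 3
set_option linter.style.haveILetI false

open CategoryTheory groupCohomology ExtCitation NumberField

namespace FermatLib.CFT.GWKummer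

open FermatLib.CFT

local notation "Γℚ" => AlgebraicClosure ℚ ≃ₐ[ℚ] AlgebraicClosure ℚ
local notation "Qbar" => AlgebraicClosure ℚ

variable {p : ℕ} [Fact p.Prime] {M : Rep (ZMod p) Γℚ} {S : Finset Nat.Primes} (D : Level M S)

section push

variable {L : IntermediateField ℚ (AlgebraicClosure ℚ)} [NumberField L] (hle : D.field ≤ L)

/-- Ideles of the level inside those of a larger level. -/
noncomputable def ideleUp : Idele D.field →+ Idele L :=
  @ideleBaseChange D.field _ _ L _ _ (algLe hle)

theorem localValue_ideleUp (q : Nat.Primes) (f : Idele D.field) :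
    localValue L q (ideleUp D hle f) = localValue D.field q f := rfl

theorem infValue_ideleUp (f : Idele D.field) :
    infValue L (ideleUp D hle f) = infValue D.field f := rfl

theorem ideleUp_mem_primeIdeles {q : Nat.Primes} {f : Idele D.field}
    (hf : f ∈ primeIdeles D.field q) : ideleUp D hle f ∈ primeIdeles L q :=
  ⟨fun r hr _ => hf.1 r hr _, funext fun _ => congrFun hf.2 _⟩

theorem ideleUp_mem_infIdeles {f : Idele D.field} (hf : f ∈ infIdeles D.field) :
    ideleUp D hle f ∈ infIdeles L := fun r _ => hf r _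

variable [IsGalois ℚ L]

omit [IsGalois ℚ L] in
theorem ideleUp_smul (g : L ≃ₐ[ℚ] L) (f : Idele D.field) :
    ideleUp D hle (galRes hle g • f) = g • ideleUp D hle f :=
  @ideleBaseChange_smul D.field _ _ L _ _ (algLe hle) g (galRes hle g)
    (fun x => (galRes_spec hle g x).symm) f

variable {ι : Type} [Fintype ι] {v : ι → D.Mod}

/-- A map on relations applied to a connecting cochain is a cocycle. -/
theorem ideleUp_connecting_mem_Z2 {φ : presKer (G := D.Gal) v →+ Idele D.field}
    (hφ : ∀ (g : D.Gal) x, φ (g • x) = g • φ x) {w : (L ≃ₐ[ℚ] L) → D.Mod}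
    {ξ : (L ≃ₐ[ℚ] L) × (L ≃ₐ[ℚ] L) → presKer (G := D.Gal) v}
    (hξ : IsConnecting (galRes hle) v w ξ) :
    (fun t => ideleUp D hle (φ (ξ t))) ∈ Z2 (L ≃ₐ[ℚ] L) (Idele L) := by
  refine mem_Z2_iff.2 fun r s t => ?_
  have e := congrArg (fun x => ideleUp D hle (φ x)) (hξ.cocycle r s t)
  simp only [map_add, hφ, ideleUp_smul] at e
  exact e

end push

variable {ζ : AlgebraicClosure ℚ} (hζ : IsPrimitiveRoot ζ p) {ι : Type} [Fintype ι] {v : ι → D.Mod}

local notation "M'" => M.dualTwist (cycloChar p)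

/-- A pair at a place pushed along a connecting cochain is the cup product, up to a coboundary. -/
theorem exists_pair_connecting {L : IntermediateField ℚ (AlgebraicClosure ℚ)} [NumberField L]
    [IsGalois ℚ L]
    (hle : D.field ≤ L) {Γ : Type} [Group Γ] (f : Γ →* Γℚ) {Ω : Type} [AddCommGroup Ω]
    [DistribMulAction Γ Ω] (φ : QbarU →+ Ω) {h : presKer (G := D.Gal) v →+ Ω} {y : Γ → M'}
    (H : IsPair (D.res.comp f) v h (dualFamily D hζ φ y))
    {w : (L ≃ₐ[ℚ] L) → D.Mod} {ξ : (L ≃ₐ[ℚ] L) × (L ≃ₐ[ℚ] L) → presKer (G := D.Gal) v}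
    (hξ : IsConnecting (galRes hle) v w ξ) (x : Γℚ → M)
    (hx : ∀ s, w (galTo L s) = D.toMod (x s)) :
    ∃ b : Γ → Ω, IsLevelConstant₁ f b ∧ ∀ σ τ,
      -h (ξ (galTo L (f σ), galTo L (f τ))) = σ • b τ - b (σ * τ) + b σ +
        φ (rootHom hζ (cupVal M f (fun τ => x (f τ)) y σ τ)) := by
  obtain ⟨e, -, hcomp⟩ := H.comp_delta
  obtain ⟨w', hw', hξ'⟩ := hξ
  have hres : ∀ σ, galRes hle (galTo L (f σ)) = D.res (f σ) := fun σ => galRes_galTo D.field hle _
  refine ⟨fun σ => -e (w' (galTo L (f σ))), ?_, fun σ τ => ?_⟩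
  · exact ⟨L, NumberField.to_finiteDimensional, fun g s hs => by
      show -e (w' (galTo L (f (g * s)))) = -e (w' (galTo L (f g)))
      rw [map_mul, map_mul, (galTo_eq_one_iff L _).2 hs, mul_one]⟩
  · have h1 := hcomp (fun σ => w' (galTo L (f σ)))
      (fun t => ξ (galTo L (f t.1), galTo L (f t.2))) (fun σ τ => by
        rw [hξ', hres, ← map_mul, ← map_mul]; rfl) σ τ
    rw [h1, hw', hx, MonoidHom.comp_apply, D.res_smul]
    show _ = _ + φ (rootHom hζ ((y σ : Module.Dual (ZMod p) M) (M.ρ (f σ) (x (f τ)))))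
    simp only [dualFamily, AddMonoidHom.comp_apply, smul_neg]
    abel

section main

variable {Bfin : ∀ q : Nat.Primes, LocalPairing M (primeLocalToGlobal q)}
  {Binf : LocalPairing M archimedeanLoc}

/-- The class of a connecting cochain pushed by a map into ideles. -/
noncomputable def pushClass {L : IntermediateField ℚ (AlgebraicClosure ℚ)} [NumberField L]
    [IsGalois ℚ L] {hle : D.field ≤ L} {U : AddSubgroup (IdeleClass D.field)}
    (hL : IsDualLevel (Γ := L ≃ₐ[ℚ] L) (G := D.Gal) (C := IdeleClass L)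
      (C₀ := IdeleClass D.field) p (galRes hle) (classLe hle) U)
    {w : (L ≃ₐ[ℚ] L) → D.Mod} {ξ : (L ≃ₐ[ℚ] L) × (L ≃ₐ[ℚ] L) → presKer (G := D.Gal) v}
    (hξ : IsConnecting (galRes hle) v w ξ)
    (φ : presKer (G := D.Gal) v →+ Idele D.field) (hφ : ∀ (g : D.Gal) x, φ (g • x) = g • φ x) :
    classesKilled p (L ≃ₐ[ℚ] L) (IdeleClass L) :=
  ⟨pairCocycle (classLe hle) ((QuotientAddGroup.mk' (principalIdeles D.field)).comp φ) ξ,
    pairCocycle_mem_killed hL D.nsmul_mod
      (h := (QuotientAddGroup.mk' (principalIdeles D.field)).comp φ)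
      (fun g x => by
        show (QuotientAddGroup.mk (φ (g • x)) : IdeleClass D.field) = _
        rw [hφ]; rfl) hξ⟩

theorem coe_pushClass {L : IntermediateField ℚ (AlgebraicClosure ℚ)} [NumberField L]
    [IsGalois ℚ L] {hle : D.field ≤ L} {U : AddSubgroup (IdeleClass D.field)}
    (hL : IsDualLevel (Γ := L ≃ₐ[ℚ] L) (G := D.Gal) (C := IdeleClass L)
      (C₀ := IdeleClass D.field) p (galRes hle) (classLe hle) U)
    {w : (L ≃ₐ[ℚ] L) → D.Mod} {ξ : (L ≃ₐ[ℚ] L) × (L ≃ₐ[ℚ] L) → presKer (G := D.Gal) v}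
    (hξ : IsConnecting (galRes hle) v w ξ)
    (φ : presKer (G := D.Gal) v →+ Idele D.field) (hφ : ∀ (g : D.Gal) x, φ (g • x) = g • φ x) :
    (pushClass D hL hξ φ hφ : (L ≃ₐ[ℚ] L) × (L ≃ₐ[ℚ] L) → IdeleClass L) =
      classCochain L (fun t => ideleUp D hle (φ (ξ t))) := rfl

variable (hB : TateCompat M hζ Bfin Binf)

include hB in
/-- At a prime, a pair gives minus the local pairing. -/
theorem globalInv_pushClass_prime {L : IntermediateField ℚ (AlgebraicClosure ℚ)} [NumberField L]
    [IsGalois ℚ L] {hle : D.field ≤ L} {U : AddSubgroup (IdeleClass D.field)}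
    (hL : IsDualLevel (Γ := L ≃ₐ[ℚ] L) (G := D.Gal) (C := IdeleClass L)
      (C₀ := IdeleClass D.field) p (galRes hle) (classLe hle) U)
    {w : (L ≃ₐ[ℚ] L) → D.Mod} {ξ : (L ≃ₐ[ℚ] L) × (L ≃ₐ[ℚ] L) → presKer (G := D.Gal) v}
    (hξ : IsConnecting (galRes hle) v w ξ) (x : cocycles₁ M)
    (hx : ∀ s, w (galTo L s) = D.toMod (x s)) (q : Nat.Primes)
    {h : presKer (G := D.Gal) v →+ QUnits q}
    {y : cocycles₁ (Rep.res (primeLocalToGlobal q) M')}
    (hy : IsLevelConstant₁ (primeLocalToGlobal q) y)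
    (hxl : IsLevelConstant₁ (primeLocalToGlobal q)
      (mapCocycles₁ (primeLocalToGlobal q) (𝟙 (Rep.res (primeLocalToGlobal q) M)) x))
    (H : IsPair (locRes D q) v h (dualFamily D hζ (toQUnits q) (y : primeLocalGaloisGroup q → M')))
    (φ : presKer (G := D.Gal) v →+ Idele D.field) (hφ : ∀ (g : D.Gal) x, φ (g • x) = g • φ x)
    (hmem : ∀ a, φ a ∈ primeIdeles D.field q) (hval : ∀ a, localValue D.field q (φ a) = h a) :
    globalInv p L (pushClass D hL hξ φ hφ) = -Bfin q
      ((H1π _).hom (mapCocycles₁ (primeLocalToGlobal q) (𝟙 (Rep.res (primeLocalToGlobal q) M)) x))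
      ((H1π _).hom y) := by
  obtain ⟨b, hb, hbe⟩ := exists_pair_connecting D hζ hle (primeLocalToGlobal q) (toQUnits q) H hξ x hx
  rw [eq_neg_iff_add_eq_zero, add_comm, ← eq_neg_iff_add_eq_zero, ← map_neg]
  refine (hB.fin L q (-fun t => ideleUp D hle (φ (ξ t))) _
    (neg_mem (ideleUp_connecting_mem_Z2 D hle hφ hξ))
    (fun t => neg_mem (ideleUp_mem_primeIdeles D hle (hmem _))) ?_ _ y b hxl hy hb
    fun σ τ => ?_).symm
  · rw [AddSubgroup.coe_neg, coe_pushClass, map_neg]
  · rw [Pi.neg_apply, map_neg, localValue_ideleUp, hval]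
    exact hbe σ τ

include hB in
/-- At infinity, a pair gives minus the local pairing. -/
theorem globalInv_pushClass_inf {L : IntermediateField ℚ (AlgebraicClosure ℚ)} [NumberField L]
    [IsGalois ℚ L] {hle : D.field ≤ L} {U : AddSubgroup (IdeleClass D.field)}
    (hL : IsDualLevel (Γ := L ≃ₐ[ℚ] L) (G := D.Gal) (C := IdeleClass L)
      (C₀ := IdeleClass D.field) p (galRes hle) (classLe hle) U)
    {w : (L ≃ₐ[ℚ] L) → D.Mod} {ξ : (L ≃ₐ[ℚ] L) × (L ≃ₐ[ℚ] L) → presKer (G := D.Gal) v}
    (hξ : IsConnecting (galRes hle) v w ξ) (x : cocycles₁ M)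
    (hx : ∀ s, w (galTo L s) = D.toMod (x s))
    {h : presKer (G := D.Gal) v →+ CUnits} {y : cocycles₁ (Rep.res archimedeanLoc M')}
    (H : IsPair (infRes D) v h (dualFamily D hζ toCUnits (y : ↥archimedeanDecomposition → M')))
    (φ : presKer (G := D.Gal) v →+ Idele D.field) (hφ : ∀ (g : D.Gal) x, φ (g • x) = g • φ x)
    (hmem : ∀ a, φ a ∈ infIdeles D.field) (hval : ∀ a, infValue D.field (φ a) = h a) :
    globalInv p L (pushClass D hL hξ φ hφ) = -Binf
      ((H1π _).hom (mapCocycles₁ archimedeanLoc (𝟙 (Rep.res archimedeanLoc M)) x))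
      ((H1π _).hom y) := by
  obtain ⟨b, -, hbe⟩ := exists_pair_connecting D hζ hle archimedeanLoc toCUnits H hξ x hx
  rw [eq_neg_iff_add_eq_zero, add_comm, ← eq_neg_iff_add_eq_zero, ← map_neg]
  refine (hB.inf L (-fun t => ideleUp D hle (φ (ξ t))) _
    (neg_mem (ideleUp_connecting_mem_Z2 D hle hφ hξ))
    (fun t => neg_mem (ideleUp_mem_infIdeles D hle (hmem _))) ?_ _ y b
    fun σ τ => ?_).symm
  · rw [AddSubgroup.coe_neg, coe_pushClass, map_neg]
  · rw [Pi.neg_apply, map_neg, infValue_ideleUp, hval]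
    exact hbe σ τ

/-- A pair remains one after restricting the equivariant map of a free module. -/
theorem isCohomologous_of_sub_restr {Γ G : Type} [Group Γ] [Group G] [Fintype G] (res : Γ →* G)
    {κ : Type} [Fintype κ] {V : Type} [AddCommGroup V] [DistribMulAction G V] {u : κ → V}
    (hu : Function.Surjective (presMap (G := G) u)) {Ω : Type} [AddCommGroup Ω]
    [DistribMulAction Γ Ω] {a b : presKer (G := G) u →+ Ω} {c c' : Γ → V →+ Ω}
    {F : Pres κ G →+ Ω} (hF : IsEquivariantFree res F)
    (H : IsPair res u a c) (H' : IsPair res u b c') (e : ∀ x : presKer (G := G) u, a x + F x = b x) :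
    IsCohomologous res c c' := by
  have h1 := H.add res (isPair_restr res hF)
  rw [add_zero, show a + F.comp (presKer (G := G) u).subtype = b from AddMonoidHom.ext e] at h1
  exact h1.cohomologous res hu H'

/-- An equivariant map into the values at `q` comes from one into the ideles at `q`. -/
theorem exists_prime_lift (q : Nat.Primes) {h : presKer (G := D.Gal) v →+ QUnits q}
    (hh : IsEquivariant (locRes D q) v h) :
    ∃ φ : presKer (G := D.Gal) v →+ Idele D.field, (∀ (g : D.Gal) a, φ (g • a) = g • φ a) ∧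
      (∀ a, φ a ∈ primeIdeles D.field q) ∧ ∀ a, localValue D.field q (φ a) = h a :=
  ⟨localLift (stdEmb D.field q) (locRes D q) (stdEmb_postComp D q) h hh,
    fun g a => localLift_smul (stdEmb D.field q) (locRes D q) (stdEmb_postComp D q) h hh g a,
    fun a => localLift_mem (stdEmb D.field q) (locRes D q) (stdEmb_postComp D q) h hh a,
    fun a => localLift_fin_self (stdEmb D.field q) (locRes D q) (stdEmb_postComp D q) h hh a⟩

/-- An equivariant map into the values at infinity comes from one into the ideles at infinity. -/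
theorem exists_inf_lift {h : presKer (G := D.Gal) v →+ CUnits}
    (hh : IsEquivariant (infRes D) v h) :
    ∃ φ : presKer (G := D.Gal) v →+ Idele D.field, (∀ (g : D.Gal) a, φ (g • a) = g • φ a) ∧
      (∀ a, φ a ∈ infIdeles D.field) ∧ ∀ a, infValue D.field (φ a) = h a :=
  have hk : ∀ a, h (D.res complexConjugation • a) = conjUnits (h a) := fun a => by
    rw [← archimedeanGen_smul]
    exact hh archimedeanGen a
  ⟨infLift (stdEmbInf D) (D.res complexConjugation) (conj_stdEmbInf D) h hk,
    fun g a => infLift_smul (stdEmbInf D) (D.res complexConjugation) (conj_stdEmbInf D) h hk g a,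
    fun a => infLift_mem (stdEmbInf D) (D.res complexConjugation) (conj_stdEmbInf D) h hk a,
    fun a => infLift_inf_self (stdEmbInf D) (D.res complexConjugation) (conj_stdEmbInf D) h hk a⟩

/-- A cocycle of a level as a cocycle of `M`. -/
theorem exists_cocycle_of_piZ1 {L : IntermediateField ℚ (AlgebraicClosure ℚ)} [IsGalois ℚ L]
    (hle : D.field ≤ L) (hL : L.IsUnramifiedOutside S) {w : (L ≃ₐ[ℚ] L) → D.Mod}
    (hw : w ∈ piZ1 (galRes hle) D.Mod) :
    ∃ x : cocycles₁ M, IsLevelConstantS₁ S x ∧ ∀ s, w (galTo L s) = D.toMod (x s) := by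
  have hxmem : (fun s => D.toMod.symm (w (galTo L s))) ∈ cocycles₁ M :=
    (mem_cocycles₁_iff (A := M) _).2 fun s t => by
      refine D.toMod.injective ?_
      rw [map_add, ← D.res_smul, AddEquiv.apply_symm_apply, AddEquiv.apply_symm_apply,
        AddEquiv.apply_symm_apply, map_mul, hw, galRes_galTo D.field hle]
      rfl
  refine ⟨⟨_, hxmem⟩, ⟨L, hL, fun g s hs => ?_⟩, fun s => (D.toMod.apply_symm_apply _).symm⟩
  show D.toMod.symm (w (galTo L (g * s))) = D.toMod.symm (w (galTo L g))
  rw [map_mul, (galTo_eq_one_iff L s).2 hs, mul_one]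

include hB in
/-- Lifts of orthogonal local classes pair to zero with all classes of a level. -/
theorem pairCocycle_mem_B2_of_orthogonal {L : IntermediateField ℚ (AlgebraicClosure ℚ)}
    [NumberField L] [IsGalois ℚ L] {hle : D.field ≤ L} {U : AddSubgroup (IdeleClass D.field)}
    (hL : IsDualLevel (Γ := L ≃ₐ[ℚ] L) (G := D.Gal) (C := IdeleClass L)
      (C₀ := IdeleClass D.field) p (galRes hle) (classLe hle) U) (hLur : L.IsUnramifiedOutside S)
    {cy : ∀ q : S, cocycles₁ (Rep.res (primeLocalToGlobal q.1) M')}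
    (hcyl : ∀ q : S, IsLevelConstant₁ (primeLocalToGlobal q.1)
      (cy q : primeLocalGaloisGroup q.1 → M'))
    {cyi : cocycles₁ (Rep.res archimedeanLoc M')}
    {hi : presKer (G := D.Gal) v →+ CUnits} {hq : ∀ q : S, presKer (G := D.Gal) v →+ QUnits q.1}
    (hpairi : IsPair (infRes D) v hi (dualFamily D hζ toCUnits (cyi : ↥archimedeanDecomposition → M')))
    (hpairq : ∀ q : S, IsPair (locRes D q.1) v (hq q)
      (dualFamily D hζ (toQUnits q.1) (cy q : primeLocalGaloisGroup q.1 → M')))
    (li : presKer (G := D.Gal) v →+ Idele D.field) (hli : ∀ (g : D.Gal) a, li (g • a) = g • li a)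
    (hlim : ∀ a, li a ∈ infIdeles D.field) (hliv : ∀ a, infValue D.field (li a) = hi a)
    (lq : S → presKer (G := D.Gal) v →+ Idele D.field)
    (hlq : ∀ q (g : D.Gal) a, lq q (g • a) = g • lq q a)
    (hlqm : ∀ q a, lq q a ∈ primeIdeles D.field q.1)
    (hlqv : ∀ q a, localValue D.field q.1 (lq q a) = hq q a)
    (hy : ∀ x : cocycles₁ M, IsLevelConstantS₁ S x →
      Binf ((H1π _).hom (mapCocycles₁ archimedeanLoc (𝟙 (Rep.res archimedeanLoc M)) x))
          ((H1π _).hom cyi) +
        ∑ q : S, Bfin q.1 ((H1π _).hom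
          (mapCocycles₁ (primeLocalToGlobal q.1) (𝟙 (Rep.res (primeLocalToGlobal q.1) M)) x))
          ((H1π _).hom (cy q)) = 0)
    {w : (L ≃ₐ[ℚ] L) → D.Mod} {ξ : (L ≃ₐ[ℚ] L) × (L ≃ₐ[ℚ] L) → presKer (G := D.Gal) v}
    (hw : w ∈ piZ1 (galRes hle) D.Mod) (hξ : IsConnecting (galRes hle) v w ξ) :
    pairCocycle (classLe hle)
        ((QuotientAddGroup.mk' (principalIdeles D.field)).comp (li + ∑ q, lq q)) ξ ∈
      B2 (L ≃ₐ[ℚ] L) (IdeleClass L) := by
  obtain ⟨x, hxl, hx⟩ := exists_cocycle_of_piZ1 D hle hLur hw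
  let Zi := pushClass D hL hξ li hli
  let Zq := fun q : S => pushClass D hL hξ (lq q) (hlq q)
  have hI : globalInv p L Zi =
      -Binf ((H1π _).hom (mapCocycles₁ archimedeanLoc (𝟙 (Rep.res archimedeanLoc M)) x))
        ((H1π _).hom cyi) :=
    globalInv_pushClass_inf D hζ hB hL hξ x hx hpairi li hli hlim hliv
  have hQ : ∀ q : S, globalInv p L (Zq q) = -Bfin q.1
      ((H1π _).hom (mapCocycles₁ (primeLocalToGlobal q.1) (𝟙 (Rep.res (primeLocalToGlobal q.1) M)) x))
      ((H1π _).hom (cy q)) := fun q => by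
    refine globalInv_pushClass_prime D hζ hB hL hξ x hx q.1 (hcyl q) ?_ (hpairq q) (lq q) (hlq q)
      (hlqm q) (hlqv q)
    obtain ⟨F, hF, h⟩ := hxl
    exact ⟨F, hF.1, fun g s hs => by
      show x (primeLocalToGlobal q.1 (g * s)) = x (primeLocalToGlobal q.1 g)
      rw [map_mul, h _ _ hs]⟩
  have hzero : globalInv p L (Zi + ∑ q, Zq q) = 0 := by
    rw [map_add, map_sum, hI, Finset.sum_congr rfl fun q _ => hQ q, Finset.sum_neg_distrib,
      ← neg_add, hy x hxl, neg_zero]
  rw [globalInv_eq_zero_iff] at hzero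
  have e : pairCocycle (classLe hle)
      ((QuotientAddGroup.mk' (principalIdeles D.field)).comp (li + ∑ q, lq q)) ξ =
      ((Zi + ∑ q, Zq q : classesKilled p (L ≃ₐ[ℚ] L) (IdeleClass L)) :
        (L ≃ₐ[ℚ] L) × (L ≃ₐ[ℚ] L) → IdeleClass L) := by
    let P : (presKer (G := D.Gal) v →+ Idele D.field) →+
        ((L ≃ₐ[ℚ] L) × (L ≃ₐ[ℚ] L) → IdeleClass L) :=
      AddMonoidHom.mk' (fun φ => pairCocycle (classLe hle)
          ((QuotientAddGroup.mk' (principalIdeles D.field)).comp φ) ξ) fun a b => by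
        funext t
        simp only [pairCocycle, AddMonoidHom.comp_apply, AddMonoidHom.add_apply, map_add,
          Pi.add_apply]
    show P (li + ∑ q, lq q) = _
    rw [map_add, map_sum]
    exact ((map_add (classesKilled p (L ≃ₐ[ℚ] L) (IdeleClass L)).subtype Zi (∑ q, Zq q)).trans
      (congrArg (fun z => (classesKilled p (L ≃ₐ[ℚ] L) (IdeleClass L)).subtype Zi + z)
        (map_sum (classesKilled p (L ≃ₐ[ℚ] L) (IdeleClass L)).subtype Zq Finset.univ))).symm
  rw [e]
  exact hzero

/-- An idele map which is principal plus extendable modulo units gives a global class with the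
prescribed local pairs. -/
theorem exists_class_of_split (hpS : pPrime p ∈ S) (hv : Function.Surjective (presMap (G := D.Gal) v))
    (J : presKer (G := D.Gal) v →+ Idele D.field) (hJ : ∀ (g : D.Gal) a, J (g • a) = g • J a)
    (hJ0 : ∀ r ∉ S, ∀ a, localValue D.field r (J a) = 0)
    (Fc : Pres ι D.Gal →+ IdeleClass D.field) (hFc : ∀ (g : D.Gal) b, Fc (g • b) = g • Fc b)
    (hFU : ∀ a : presKer (G := D.Gal) v, QuotientAddGroup.mk' (principalIdeles D.field) (J a) - Fc a ∈
      unitClassesOutside D.field (S : Set Nat.Primes)) :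
    ∃ c : cocycles₁ M', IsLevelConstantS₁ S c ∧
      (∀ (q : S) (h : presKer (G := D.Gal) v →+ QUnits q.1)
        (cq : cocycles₁ (Rep.res (primeLocalToGlobal q.1) M')),
        (∀ a, localValue D.field q.1 (J a) = h a) →
        IsPair (locRes D q.1) v h (dualFamily D hζ (toQUnits q.1) (cq : primeLocalGaloisGroup q.1 → M')) →
        (H1π _).hom (mapCocycles₁ (primeLocalToGlobal q.1)
          (𝟙 (Rep.res (primeLocalToGlobal q.1) M')) c) = (H1π _).hom cq) ∧
      ∀ (h : presKer (G := D.Gal) v →+ CUnits) (ci : cocycles₁ (Rep.res archimedeanLoc M')),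
        (∀ a, infValue D.field (J a) = h a) →
        IsPair (infRes D) v h (dualFamily D hζ toCUnits (ci : ↥archimedeanDecomposition → M')) →
        (H1π _).hom (mapCocycles₁ archimedeanLoc (𝟙 (Rep.res archimedeanLoc M')) c) =
          (H1π _).hom ci := by
  obtain ⟨F, hFsmul, hFlift⟩ := exists_equivariant_lift
    (QuotientAddGroup.mk' (principalIdeles D.field)) (fun _ _ => rfl)
    (QuotientAddGroup.mk'_surjective _) Fc hFc
  have hdec : ∀ a : presKer (G := D.Gal) v, ∃ u : LUnits D.field,
      J a - F a - principalIdele D.field u ∈ unitIdelesOutside D.field (S : Set Nat.Primes) :=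
    fun a => (toClassModUnits_eq_zero_iff D.field _ _).1 ((QuotientAddGroup.eq_zero_iff _).2 (by
      show QuotientAddGroup.mk' (principalIdeles D.field) (J a - F a) ∈ _
      rw [map_sub, hFlift]
      exact hFU a))
  choose u hu using hdec
  let h : equivHom D.Gal (presKer (G := D.Gal) v) (LUnits D.field) :=
    ⟨AddMonoidHom.mk' u fun a b => eq_of_sub_principal_mem (hu (a + b)) (by
      have := add_mem (hu a) (hu b)
      rwa [sub_add_sub_comm, sub_add_sub_comm, ← map_add, ← map_add, ← map_add,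
        ← AddSubgroup.coe_add] at this), fun g a => eq_of_sub_principal_mem (hu (g • a)) (by
      have := unitIdelesOutside_smul_mem D.field _ g (hu a)
      rwa [smul_sub, smul_sub, ← hJ, ← hFsmul, ← principalIdele_smul] at this)⟩
  have hunr : IsUnramifiedMap D (h : presKer (G := D.Gal) v →+ LUnits D.field) :=
    isUnramifiedMap_of_decomp D _ (-F) fun r hr a => by
      have h2 : localValue D.field r (principalIdele D.field (u a) - (-F) a) =
          -localValue D.field r (J a - F a - principalIdele D.field (u a)) := by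
        rw [map_sub, map_sub, map_sub, hJ0 r hr, AddMonoidHom.neg_apply, map_neg]
        abel
      show localValue D.field r (principalIdele D.field (u a) - (-F) a) ∈ _
      rw [h2]
      exact neg_mem ((hu a).1 r (stdEmb D.field r)).1
  obtain ⟨c, hc, hpair⟩ := exists_class_of_map D hζ hpS hv h hunr
  refine ⟨c, hc, fun q hq cq hval H => ?_, fun hi ci hval H => ?_⟩
  · refine H1π_eq_of_isCohomologous D hζ (f := primeLocalToGlobal q.1) (φ := toQUnits q.1)
      (toQUnits_smul q.1) (toQUnits_injective q.1) (exists_toQUnits_muMap D hζ q.1) ?_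
    refine isCohomologous_of_sub_restr (locRes D q.1) hv
      (F := (localValue D.field q.1).comp F) (fun σ b => ?_) (isPair_local D hζ hpair q.1) H fun a => ?_
    · show localValue D.field q.1 (F (locRes D q.1 σ • b)) = _
      rw [hFsmul, localValue_smul]; rfl
    · show localValue D.field q.1 (principalIdele D.field (u a)) +
        localValue D.field q.1 (F a) = hq a
      rw [localValue_principal_eq_of_mem D q.2 (hu a), map_sub, hval, sub_add_cancel]
  · refine H1π_eq_of_isCohomologous D hζ (f := archimedeanLoc) (φ := toCUnits) toCUnits_smul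
      toCUnits_injective (exists_toCUnits_muMap D hζ) ?_
    refine isCohomologous_of_sub_restr (infRes D) hv
      (F := (infValue D.field).comp F) (fun σ b => ?_) (isPair_inf D hζ hpair) H fun a => ?_
    · show infValue D.field (F (infRes D σ • b)) = _
      rw [hFsmul, infValue_smul]; rfl
    · show infValue D.field (principalIdele D.field (u a)) + infValue D.field (F a) = hi a
      rw [infValue_principal_eq_of_mem D (hu a), map_sub, hval, sub_add_cancel]

include D hζ hB in
/-- Local classes orthogonal to all global classes are global. -/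
theorem exists_global_of_orthogonal [FiniteDimensional (ZMod p) M] (hpS : pPrime p ∈ S)
    (y : localClasses S M')
    (hy : ∀ x ∈ continuousH1S S M,
      ∑ v, gwPairing M Bfin Binf S v ((groupCohomology.locRes (extArithLoc S) M v).hom x) (y v).1 = 0) :
    ∃ w ∈ continuousH1S S M', ∀ v, (groupCohomology.locRes (extArithLoc S) M' v).hom w = (y v).1 := by
  classical
  letI : Fintype D.Mod := Fintype.ofFinite _
  let v : D.Mod → D.Mod := id
  have hv : Function.Surjective (presMap (G := D.Gal) v) := fun m =>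
    ⟨presSingle m 1, (presMap_presSingle v m 1).trans (one_smul _ _)⟩
  have hfin : ∀ q : S, ∃ c : cocycles₁ (Rep.res (primeLocalToGlobal q.1) M'),
      IsLevelConstant₁ (primeLocalToGlobal q.1) c ∧ (H1π _).hom c = (y (Sum.inr q)).1 := fun q =>
    (mem_continuousH1_iff _ _ _).1 (y (Sum.inr q)).2
  choose cy hcyl hcy using hfin
  obtain ⟨cyi, -, hcyi⟩ : ∃ c : cocycles₁ (Rep.res archimedeanLoc M'),
      IsLevelConstant₁ archimedeanLoc c ∧ (H1π _).hom c = (y (Sum.inl ())).1 :=
    (mem_continuousH1_iff _ _ _).1 (y (Sum.inl ())).2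
  have hpq : ∀ q : S, ∃ h : presKer (G := D.Gal) v →+ QUnits q.1,
      IsPair (locRes D q.1) v h
        (dualFamily D hζ (toQUnits q.1) (cy q : primeLocalGaloisGroup q.1 → M')) := fun q =>
    exists_local_pair D v q.1
      (isCocycle_dualFamily D hζ (primeLocalToGlobal q.1) (toQUnits q.1) (toQUnits_smul q.1) (cy q))
      ((hcyl q).comp fun f => (toQUnits q.1).comp (muMap D hζ f))
  choose hq hpairq using hpq
  obtain ⟨hi, hpairi⟩ := exists_inf_pair D v
    (isCocycle_dualFamily D hζ archimedeanLoc toCUnits toCUnits_smul cyi)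
  choose lq hlq hlqm hlqv using fun q : S =>
    exists_prime_lift D q.1 ((hpairq q).equivariant (locRes D q.1))
  obtain ⟨li, hli, hlim, hliv⟩ := exists_inf_lift D (hpairi.equivariant (infRes D))
  have hJ : ∀ (g : D.Gal) a, (li + ∑ q, lq q) (g • a) = g • (li + ∑ q, lq q) a := fun g a => by
    simp only [AddMonoidHom.add_apply, AddMonoidHom.finsetSum_apply, hli, hlq, smul_add,
      Finset.smul_sum]
  have hjC : (QuotientAddGroup.mk' (principalIdeles D.field)).comp (li + ∑ q, lq q) ∈
      equivHom D.Gal (presKer (G := D.Gal) v) (IdeleClass D.field) := fun g a => by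
    show QuotientAddGroup.mk' (principalIdeles D.field) ((li + ∑ q, lq q) (g • a)) = _
    rw [hJ]; rfl
  have horth : ∀ x : cocycles₁ M, IsLevelConstantS₁ S x →
      Binf ((H1π _).hom (mapCocycles₁ archimedeanLoc (𝟙 (Rep.res archimedeanLoc M)) x))
          ((H1π _).hom cyi) +
        ∑ q : S, Bfin q.1 ((H1π _).hom
          (mapCocycles₁ (primeLocalToGlobal q.1) (𝟙 (Rep.res (primeLocalToGlobal q.1) M)) x))
          ((H1π _).hom (cy q)) = 0 := fun x hxl => by
    have e := (Fintype.sum_sum_type (α₁ := Unit) (α₂ := ↥S) fun v => gwPairing M Bfin Binf S v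
      ((groupCohomology.locRes (extArithLoc S) M v).hom ((H1π M).hom x)) (y v).1).symm.trans
        (hy _ ((mem_continuousH1S_iff S M _).2 ⟨x, hxl, rfl⟩))
    rw [Fintype.sum_unique (ι := Unit)] at e
    refine Eq.trans ?_ e
    refine congrArg₂ (fun a b => a + b) ?_ (Finset.sum_congr rfl fun q _ => ?_)
    · exact congrArg₂ (fun a b => Binf a b) (H1π_comp_map_apply archimedeanLoc (𝟙 _) x).symm hcyi
    · exact congrArg₂ (fun a b => Bfin q.1 a b)
        (H1π_comp_map_apply (primeLocalToGlobal q.1) (𝟙 _) x).symm (hcy q)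
  obtain ⟨ζ₀, hζ₀, -⟩ := D.isPrimitiveRoot hζ
  obtain ⟨L, hNF, hGal, hle, hexp⟩ := exists_isExponentLevel D.field ⟨ζ₀, hζ₀⟩ D.isTotallyComplex S
    hpS ((isUnramifiedOutside_iff D.field S).1 D.unramified)
  have hdual := hexp.isDualLevel le_rfl hexp.unramified
  have hLur : L.IsUnramifiedOutside S := (isUnramifiedOutside_iff L S).2 hexp.unramified
  obtain ⟨Fc, hFc, hFU⟩ := hdual.exists_extension D.nsmul_mod hjC fun w ξ hw hξ =>
    pairCocycle_mem_B2_of_orthogonal D hζ hB hdual hLur hcyl hpairi hpairq li hli hlim hliv lq hlq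
      hlqm hlqv horth hw hξ
  have hJq : ∀ r a, localValue D.field r ((li + ∑ q, lq q) a) = ∑ q, localValue D.field r (lq q a) :=
    fun r a => by
      rw [AddMonoidHom.add_apply, AddMonoidHom.finsetSum_apply, map_add, map_sum,
        show localValue D.field r (li a) = 0 from hlim a r _, zero_add]
  obtain ⟨c, hc, hcq, hci⟩ := exists_class_of_split D hζ hpS hv (li + ∑ q, lq q) hJ
    (fun r hr a => by
      rw [hJq]
      exact Finset.sum_eq_zero fun q _ => (hlqm q a).1 r (fun e => hr (e ▸ q.2)) _)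
    Fc hFc (fun a => hFU a)
  refine ⟨(H1π M').hom c, (mem_continuousH1S_iff S M' _).2 ⟨c, hc, rfl⟩, fun loc => ?_⟩
  rw [locRes_H1π]
  rcases loc with ⟨⟩ | q
  · refine (hci hi cyi (fun a => ?_) hpairi).trans hcyi
    rw [AddMonoidHom.add_apply, AddMonoidHom.finsetSum_apply, map_add, map_sum,
      Finset.sum_eq_zero fun q _ => (show infValue D.field (lq q a) = 0 from congrFun (hlqm q a).2 _),
      add_zero, hliv]
  · refine (hcq q (hq q) (cy q) (fun a => ?_) (hpairq q)).trans (hcy q)
    rw [hJq, Finset.sum_eq_single q (fun r _ hne =>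
      (show localValue D.field q.1 (lq r a) = 0 from (hlqm r a).1 q.1 (fun e =>
        hne (Subtype.ext e.symm)) _)) (fun hn => absurd (Finset.mem_univ _) hn), hlqv]

include hB in
/-- Middle exactness from the characterisation of the local pairings. -/
theorem middleExact_of_compat [FiniteDimensional (ZMod p) M]
    (hsm : ∀ m : M, ∃ F : IntermediateField ℚ Qbar, FiniteDimensional ℚ F ∧
      ∀ s ∈ F.fixingSubgroup, M.ρ s m = m)
    (hpS : pPrime p ∈ S) (hur : GWUnramifiedOutside M S) : MiddleExact M S Bfin Binf := by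
  obtain ⟨D⟩ := exists_level hsm hpS hur
  intro y
  refine ⟨exists_global_of_orthogonal D hζ hB hpS y, ?_⟩
  rintro ⟨w, hw, he⟩ x hx
  simp_rw [← he]
  exact sum_gwPairing_eq_zero D hζ hB hx hw

end main

end FermatLib.CFT.GWKummer
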