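import Fermat.Agent.CFT.GWDefs
import Fermat.Agent.Galois.CyclotomicFrobenius

/-!
The archimedean place in the Greenberg-Wiles formula.

With `c` complex conjugation, a class in `H¹` of the decomposition group at infinity is the value of a
cocycle at `c`, in `ker (1 + c)` modulo the image of `c - 1`. The form
`(x, y) ↦ y(c) (c • x(c))` on classes of `M` and `Hom(M, μ_p)` is nondegenerate on both sides.
-/

set_option autoImplicit false
set_option linter.unusedSectionVars false

open CategoryTheory Module groupCohomology ExtCitation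

namespace FermatLib.CFT.GWInf

local notation "Qbar" => AlgebraicClosure ℚ
local notation "Γℚ" => (AlgebraicClosure ℚ ≃ₐ[ℚ] AlgebraicClosure ℚ)
/-- The decomposition group at infinity. -/
abbrev InfGroup : Type := ↥ExtCitation.archimedeanDecomposition

/-! ### A bilinear form on quotients -/

section Descend

variable {k Z Z' H H' : Type*} [CommRing k] [AddCommGroup Z] [Module k Z] [AddCommGroup Z']
  [Module k Z'] [AddCommGroup H] [Module k H] [AddCommGroup H'] [Module k H']
  (π : Z →ₗ[k] H) (π' : Z' →ₗ[k] H') (hπ : Function.Surjective π) (hπ' : Function.Surjective π')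
  (B : Z →ₗ[k] Z' →ₗ[k] k) (hl : ∀ z, π z = 0 → ∀ z', B z z' = 0)
  (hr : ∀ z z', π' z' = 0 → B z z' = 0)

/-- A bilinear form descends along two surjections. -/
noncomputable def descendForm : H →ₗ[k] H' →ₗ[k] k :=
  LinearMap.mk₂ k (fun h h' => B (Function.surjInv hπ h) (Function.surjInv hπ' h'))
    (fun a b c => by
      rw [← LinearMap.add_apply, ← map_add, ← sub_eq_zero, ← LinearMap.sub_apply, ← map_sub]
      exact hl _ (by simp [Function.surjInv_eq hπ]) _)
    (fun r a c => by
      rw [← LinearMap.smul_apply, ← map_smul, ← sub_eq_zero, ← LinearMap.sub_apply, ← map_sub]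
      exact hl _ (by simp [Function.surjInv_eq hπ]) _)
    (fun a b c => by
      rw [← map_add, ← sub_eq_zero, ← map_sub]
      exact hr _ _ (by simp [Function.surjInv_eq hπ']))
    (fun r a c => by
      rw [← map_smul, ← sub_eq_zero, ← map_sub]
      exact hr _ _ (by simp [Function.surjInv_eq hπ']))

theorem descendForm_apply (z : Z) (z' : Z') :
    descendForm π π' hπ hπ' B hl hr (π z) (π' z') = B z z' := by
  show B (Function.surjInv hπ (π z)) (Function.surjInv hπ' (π' z')) = _
  have h1 : B (Function.surjInv hπ (π z) - z) (Function.surjInv hπ' (π' z')) = 0 :=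
    hl _ (by simp [Function.surjInv_eq hπ]) _
  have h2 : B z (Function.surjInv hπ' (π' z') - z') = 0 :=
    hr _ _ (by simp [Function.surjInv_eq hπ'])
  rw [map_sub, LinearMap.sub_apply, sub_eq_zero] at h1
  rw [map_sub, sub_eq_zero] at h2
  rw [h1, h2]

end Descend

/-! ### The decomposition group at infinity -/

theorem eq_one_or_gen (τ : InfGroup) : τ = 1 ∨ τ = archimedeanGen := by
  obtain ⟨k, hk⟩ := Subgroup.mem_zpowers_iff.1 τ.2
  rcases Int.even_or_odd k with ⟨j, rfl⟩ | ⟨j, rfl⟩
  · refine Or.inl (Subtype.ext ?_)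
    rw [← hk, ← two_mul, zpow_mul, zpow_two, complexConjugation_mul_self, one_zpow]
    rfl
  · refine Or.inr (Subtype.ext ?_)
    rw [← hk, zpow_add, zpow_mul, zpow_two, complexConjugation_mul_self, one_zpow, zpow_one,
      one_mul]
    rfl

theorem gen_mul_gen : (archimedeanGen : InfGroup) * archimedeanGen = 1 :=
  Subtype.ext complexConjugation_mul_self

theorem exists_conj_ne : ∃ i : Qbar, complexConjugation i ≠ i := by
  obtain ⟨i, hi⟩ := IsAlgClosed.exists_eq_mul_self (-1 : Qbar)
  refine ⟨i, fun he => ?_⟩
  have h1 := complexEmbedding_complexConjugation i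
  rw [he] at h1
  obtain ⟨r, hr⟩ := Complex.conj_eq_iff_real.1 h1.symm
  have h2 : complexEmbedding i * complexEmbedding i = -1 := by
    rw [← map_mul, ← hi, map_neg, map_one]
  rw [hr, ← Complex.ofReal_mul] at h2
  have := congrArg Complex.re h2
  simp at this
  nlinarith [mul_self_nonneg r]

theorem gen_ne_one : (archimedeanGen : InfGroup) ≠ 1 := fun h => by
  obtain ⟨i, hi⟩ := exists_conj_ne
  exact hi (by rw [show complexConjugation = 1 from congrArg Subtype.val h]; rfl)

/-- A finite level whose fixing subgroup meets the decomposition group trivially. -/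
theorem exists_level_inf : ∃ F : IntermediateField ℚ Qbar, FiniteDimensional ℚ F ∧
    ∀ s : InfGroup, archimedeanLoc s ∈ F.fixingSubgroup → s = 1 := by
  obtain ⟨i, hi⟩ := exists_conj_ne
  refine ⟨IntermediateField.adjoin ℚ {i}, IntermediateField.adjoin.finiteDimensional
    ((AlgebraicClosure.isAlgebraic ℚ).isAlgebraic i).isIntegral, fun s hs => ?_⟩
  rcases eq_one_or_gen s with rfl | rfl
  · rfl
  · exact absurd ((IntermediateField.mem_fixingSubgroup_iff _ _).1 hs i
      (IntermediateField.mem_adjoin_simple_self ℚ i)) hi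

variable {p : ℕ} [Fact p.Prime]

theorem cycloChar_conj : ((cycloChar p complexConjugation : (ZMod p)ˣ) : ZMod p) = -1 := by
  have : NeZero p := ⟨(Fact.out : p.Prime).ne_zero⟩
  rw [← FermatLib.Galois.modCycloChar_eq_cycloChar p,
    FermatLib.Galois.modCycloChar_complexConjugation]
  simp

variable (N : Rep.{0} (ZMod p) Γℚ)

/-- Every class at infinity is continuous. -/
theorem continuousH1_eq_top :
    continuousH1 archimedeanLoc (Rep.res archimedeanLoc N) = ⊤ := by
  obtain ⟨F, hF, hs1⟩ := exists_level_inf
  refine eq_top_iff.2 fun x _ => ?_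
  induction x using H1_induction_on with
  | h c => exact H1π_mem_continuousH1 _ _ ⟨F, hF, fun g s hs => by rw [hs1 s hs, mul_one]⟩

/-- The action of complex conjugation. -/
noncomputable abbrev conjEnd : Module.End (ZMod p) N := N.ρ complexConjugation

theorem conjEnd_conjEnd (m : N) : conjEnd N (conjEnd N m) = m := by
  show (N.ρ complexConjugation * N.ρ complexConjugation) m = m
  rw [← map_mul, complexConjugation_mul_self, map_one]
  rfl

/-- The value of a cocycle at complex conjugation. -/
noncomputable def evalGen : cocycles₁ (Rep.res archimedeanLoc N) →ₗ[ZMod p] N where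
  toFun c := c archimedeanGen
  map_add' _ _ := rfl
  map_smul' _ _ := rfl

theorem evalGen_injective : Function.Injective (evalGen N) := fun c d h => by
  refine cocycles₁_ext fun g => ?_
  rcases eq_one_or_gen g with rfl | rfl
  · rw [cocycles₁_map_one, cocycles₁_map_one]
  · exact h

theorem conjEnd_evalGen (c : cocycles₁ (Rep.res archimedeanLoc N)) :
    conjEnd N (evalGen N c) = -evalGen N c := by
  have h := (mem_cocycles₁_iff (c : InfGroup → N)).1 c.2 archimedeanGen archimedeanGen
  rw [gen_mul_gen, cocycles₁_map_one] at h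
  exact eq_neg_of_add_eq_zero_left h.symm

theorem range_evalGen :
    LinearMap.range (evalGen N) = LinearMap.ker (1 + conjEnd N) := by
  classical
  ext m
  rw [LinearMap.mem_ker, LinearMap.add_apply, Module.End.one_apply]
  refine ⟨?_, fun hm => ?_⟩
  · rintro ⟨c, rfl⟩
    rw [conjEnd_evalGen, add_neg_cancel]
  · let f : InfGroup → N := fun g => if g = 1 then 0 else m
    have hf : f ∈ cocycles₁ (Rep.res archimedeanLoc N) := by
      refine (mem_cocycles₁_iff (A := Rep.res archimedeanLoc N) f).2 fun g h => ?_
      show f (g * h) = N.ρ (archimedeanLoc g) (f h) + f g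
      rcases eq_one_or_gen g with rfl | rfl
      · simp [f]
      · rcases eq_one_or_gen h with rfl | rfl
        · simp [f]
        · simp only [f, gen_mul_gen, if_true, if_neg gen_ne_one, archimedeanLoc_archimedeanGen]
          rw [add_comm] at hm
          exact hm.symm
    exact ⟨⟨f, hf⟩, if_neg gen_ne_one⟩

/-- A class vanishes when its value at complex conjugation is in the image of `c - 1`. -/
theorem H1π_eq_zero_iff_evalGen (c : cocycles₁ (Rep.res archimedeanLoc N)) :
    (H1π _).hom c = 0 ↔ evalGen N c ∈ LinearMap.range (conjEnd N - 1) := by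
  refine (H1π_eq_zero_iff c).trans ⟨?_, ?_⟩
  · rintro ⟨x, hx⟩
    exact ⟨x, congrFun hx archimedeanGen⟩
  · rintro ⟨x, hx⟩
    refine ⟨x, funext fun g => ?_⟩
    rcases eq_one_or_gen g with rfl | rfl
    · rw [d₀₁_hom_apply, map_one, Module.End.one_apply, sub_self, cocycles₁_map_one]
    · exact hx

theorem H1π_surjective : Function.Surjective (H1π (Rep.res archimedeanLoc N)).hom :=
  (ModuleCat.epi_iff_surjective _).1 inferInstance

variable [FiniteDimensional (ZMod p) N]

instance finiteDimensional_cocycles₁ :
    FiniteDimensional (ZMod p) (cocycles₁ (Rep.res archimedeanLoc N)) :=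
  Module.Finite.of_injective (evalGen N) (evalGen_injective N)

theorem finiteDimensional_H1 : FiniteDimensional (ZMod p) (H1 (Rep.res archimedeanLoc N)) :=
  Module.Finite.of_surjective _ (H1π_surjective N)

theorem finiteDimensional_continuousH1 :
    FiniteDimensional (ZMod p) (continuousH1 archimedeanLoc (Rep.res archimedeanLoc N)) :=
  haveI := finiteDimensional_H1 N
  inferInstance

/-- `H¹` at infinity is `ker (1 + c)` modulo the image of `c - 1`. -/
theorem finrank_H1_add :
    finrank (ZMod p) (H1 (Rep.res archimedeanLoc N)) +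
        finrank (ZMod p) (LinearMap.range (conjEnd N - 1)) =
      finrank (ZMod p) (LinearMap.ker (1 + conjEnd N)) := by
  have h1 := LinearMap.finrank_range_add_finrank_ker (H1π (Rep.res archimedeanLoc N)).hom
  rw [LinearMap.range_eq_top.2 (H1π_surjective N), finrank_top] at h1
  change _ = finrank (ZMod p) (cocycles₁ (Rep.res archimedeanLoc N)) at h1
  have h2 : Submodule.map (evalGen N) (LinearMap.ker (H1π (Rep.res archimedeanLoc N)).hom) =
      LinearMap.range (conjEnd N - 1) := by
    ext m
    refine ⟨?_, fun hm => ?_⟩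
    · rintro ⟨c, hc, rfl⟩
      exact (H1π_eq_zero_iff_evalGen N c).1 hc
    · obtain ⟨c, hc⟩ : m ∈ LinearMap.range (evalGen N) := by
        rw [range_evalGen]
        obtain ⟨a, rfl⟩ := hm
        simp only [LinearMap.mem_ker, LinearMap.add_apply, Module.End.one_apply,
          LinearMap.sub_apply, map_sub, conjEnd_conjEnd]
        abel
      exact ⟨c, (H1π_eq_zero_iff_evalGen N c).2 (hc.symm ▸ hm), hc⟩
  have h3 := LinearMap.finrank_range_of_inj (evalGen_injective N)
  rw [range_evalGen] at h3
  have h4 := LinearEquiv.finrank_eq (Submodule.equivMapOfInjective (evalGen N) (evalGen_injective N)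
    (LinearMap.ker (H1π (Rep.res archimedeanLoc N)).hom))
  rw [h2] at h4
  exact (congrArg₂ (· + ·) rfl h4.symm).trans (h1.trans h3.symm |>.trans rfl)

theorem invariants_eq_ker :
    (Rep.res archimedeanLoc N).ρ.invariants = LinearMap.ker (conjEnd N - 1) := by
  ext m
  rw [Representation.mem_invariants, LinearMap.mem_ker, LinearMap.sub_apply,
    Module.End.one_apply, sub_eq_zero]
  refine ⟨fun h => h archimedeanGen, fun h g => ?_⟩
  rcases eq_one_or_gen g with rfl | rfl
  · rw [map_one]; rfl
  · exact h

/-! ### The dual twist -/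

variable (M : Rep.{0} (ZMod p) Γℚ)

theorem conjEnd_dualTwist (f : Module.Dual (ZMod p) M) :
    conjEnd (M.dualTwist (cycloChar p)) f = -(f ∘ₗ conjEnd M) := by
  refine (Rep.dualTwist_ρ_apply M (cycloChar p) complexConjugation f).trans ?_
  rw [cycloChar_conj, complexConjugation_inv]
  exact neg_one_smul (ZMod p) (f ∘ₗ M.ρ complexConjugation : Module.Dual (ZMod p) M)

/-- The value of a dual cocycle at complex conjugation, as a functional. -/
noncomputable def evalDual :
    cocycles₁ (Rep.res archimedeanLoc (M.dualTwist (cycloChar p))) →ₗ[ZMod p]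
      Module.Dual (ZMod p) M :=
  evalGen (M.dualTwist (cycloChar p))

theorem evalDual_conjEnd (d : cocycles₁ (Rep.res archimedeanLoc (M.dualTwist (cycloChar p))))
    (m : M) : evalDual M d (conjEnd M m) = evalDual M d m := by
  have h : conjEnd (M.dualTwist (cycloChar p)) (evalDual M d) = -evalDual M d :=
    conjEnd_evalGen (M.dualTwist (cycloChar p)) d
  rw [conjEnd_dualTwist] at h
  exact LinearMap.congr_fun (neg_inj.1 h) m

theorem exists_evalDual_eq {f : Module.Dual (ZMod p) M} (hf : ∀ m, f (conjEnd M m) = f m) :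
    ∃ d, evalDual M d = f := by
  have : f ∈ LinearMap.range (evalGen (M.dualTwist (cycloChar p))) := by
    rw [range_evalGen, LinearMap.mem_ker, LinearMap.add_apply, Module.End.one_apply,
      conjEnd_dualTwist]
    rw [add_neg_eq_zero]
    exact LinearMap.ext fun m => (hf m).symm
  exact this

theorem H1π_dual_eq_zero_iff
    (d : cocycles₁ (Rep.res archimedeanLoc (M.dualTwist (cycloChar p)))) :
    (H1π _).hom d = 0 ↔ ∃ g : Module.Dual (ZMod p) M,
      ∀ m, evalDual M d m = g (conjEnd M m + m) := by
  refine (H1π_eq_zero_iff_evalGen _ d).trans ⟨?_, ?_⟩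
  · rintro ⟨g, hg⟩
    refine ⟨(-g : Module.Dual (ZMod p) M), fun m => ?_⟩
    have h : conjEnd (M.dualTwist (cycloChar p)) g - g = evalDual M d := hg
    rw [conjEnd_dualTwist] at h
    rw [← h, map_add]
    show -(g (conjEnd M m)) - g m = -(g (conjEnd M m)) + -(g m)
    abel
  · rintro ⟨g, hg⟩
    refine ⟨(-g : Module.Dual (ZMod p) M), ?_⟩
    show conjEnd (M.dualTwist (cycloChar p)) (-g) - -g = evalDual M d
    rw [conjEnd_dualTwist]
    refine LinearMap.ext fun m => ?_
    rw [hg m, map_add]
    show -(-(g (conjEnd M m))) - -(g m) = g (conjEnd M m) + g m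
    abel

/-- The form on cocycles. -/
noncomputable def infForm :
    cocycles₁ (Rep.res archimedeanLoc M) →ₗ[ZMod p]
      cocycles₁ (Rep.res archimedeanLoc (M.dualTwist (cycloChar p))) →ₗ[ZMod p] ZMod p :=
  LinearMap.compl₂ ((Module.Dual.eval (ZMod p) M) ∘ₗ conjEnd M ∘ₗ evalGen M) (evalDual M)

@[simp] theorem infForm_apply (c : cocycles₁ (Rep.res archimedeanLoc M))
    (d : cocycles₁ (Rep.res archimedeanLoc (M.dualTwist (cycloChar p)))) :
    infForm M c d = evalDual M d (conjEnd M (evalGen M c)) := rfl

theorem infForm_eq_zero_left {c : cocycles₁ (Rep.res archimedeanLoc M)}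
    (hc : (H1π _).hom c = 0) (d : cocycles₁ (Rep.res archimedeanLoc (M.dualTwist (cycloChar p)))) :
    infForm M c d = 0 := by
  obtain ⟨a, ha⟩ := (H1π_eq_zero_iff_evalGen M c).1 hc
  rw [infForm_apply, evalDual_conjEnd, ← ha, LinearMap.sub_apply, Module.End.one_apply, map_sub,
    evalDual_conjEnd, sub_self]

theorem infForm_eq_zero_right (c : cocycles₁ (Rep.res archimedeanLoc M))
    {d : cocycles₁ (Rep.res archimedeanLoc (M.dualTwist (cycloChar p)))}
    (hd : (H1π _).hom d = 0) : infForm M c d = 0 := by
  obtain ⟨g, hg⟩ := (H1π_dual_eq_zero_iff M d).1 hd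
  rw [infForm_apply, hg, conjEnd_conjEnd, conjEnd_evalGen, add_neg_cancel, map_zero]

/-- The pairing on classes at infinity. -/
noncomputable def infCup : LocalPairing M archimedeanLoc :=
  descendForm (H1π (Rep.res archimedeanLoc M)).hom
    (H1π (Rep.res archimedeanLoc (M.dualTwist (cycloChar p)))).hom (H1π_surjective M)
    (H1π_surjective (M.dualTwist (cycloChar p))) (infForm M)
    (fun _ hc d => infForm_eq_zero_left M hc d) (fun c _ hd => infForm_eq_zero_right M c hd)

theorem infCup_H1π (c : cocycles₁ (Rep.res archimedeanLoc M))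
    (d : cocycles₁ (Rep.res archimedeanLoc (M.dualTwist (cycloChar p)))) :
    infCup M ((H1π _).hom c) ((H1π _).hom d) = infForm M c d :=
  descendForm_apply (H1π (Rep.res archimedeanLoc M)).hom
    (H1π (Rep.res archimedeanLoc (M.dualTwist (cycloChar p)))).hom (H1π_surjective M)
    (H1π_surjective (M.dualTwist (cycloChar p))) (infForm M)
    (fun _ hc d => infForm_eq_zero_left M hc d) (fun c _ hd => infForm_eq_zero_right M c hd) c d

/-- A pairing given on cocycles by the form followed by a map with trivial kernel is perfect. -/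
theorem isPerfectOnContinuous_of_infForm [FiniteDimensional (ZMod p) M]
    (B : LocalPairing M archimedeanLoc) (φ : ZMod p → ZMod p) (hφ : ∀ a, φ a = 0 → a = 0)
    (hB : ∀ c d, B ((H1π _).hom c) ((H1π _).hom d) = φ (infForm M c d)) :
    IsPerfectOnContinuous M B where
  finite_left := finiteDimensional_continuousH1 M
  finite_right := finiteDimensional_continuousH1 (M.dualTwist (cycloChar p))
  left x _ hx := by
    obtain ⟨c, rfl⟩ := H1π_surjective M x
    refine (H1π_eq_zero_iff_evalGen M c).2 ?_
    rw [← Subspace.dualAnnihilator_dualCoannihilator_eq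
      (W := LinearMap.range (conjEnd M - 1)), Submodule.mem_dualCoannihilator]
    intro f hf
    rw [Submodule.mem_dualAnnihilator] at hf
    have hfc : ∀ m, f (conjEnd M m) = f m := fun m => by
      have := hf _ ⟨m, rfl⟩
      rwa [LinearMap.sub_apply, Module.End.one_apply, map_sub, sub_eq_zero] at this
    obtain ⟨d, hd⟩ := exists_evalDual_eq M hfc
    have h0 := hφ _ ((hB c d).symm.trans
      (hx _ (continuousH1_eq_top (M.dualTwist (cycloChar p)) ▸ Submodule.mem_top)))
    rwa [infForm_apply, hd, hfc] at h0
  right y _ hy := by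
    obtain ⟨d, rfl⟩ := H1π_surjective (M.dualTwist (cycloChar p)) y
    refine (H1π_dual_eq_zero_iff M d).2 ?_
    have hann : evalDual M d ∈ (LinearMap.ker (1 + conjEnd M)).dualAnnihilator := by
      rw [Submodule.mem_dualAnnihilator]
      intro m hm
      rw [← range_evalGen] at hm
      obtain ⟨c, rfl⟩ := hm
      have h0 := hφ _ ((hB c d).symm.trans
        (hy _ (continuousH1_eq_top M ▸ Submodule.mem_top)))
      rwa [infForm_apply, evalDual_conjEnd] at h0
    rw [← LinearMap.range_dualMap_eq_dualAnnihilator_ker] at hann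
    obtain ⟨g, hg⟩ := hann
    refine ⟨g, fun m => ?_⟩
    rw [← hg, LinearMap.dualMap_apply, LinearMap.add_apply, Module.End.one_apply, add_comm]

theorem infCup_perfect [FiniteDimensional (ZMod p) M] : IsPerfectOnContinuous M (infCup M) :=
  isPerfectOnContinuous_of_infForm M (infCup M) id (fun _ h => h) (infCup_H1π M)

theorem finrank_invariants_dualTwist [FiniteDimensional (ZMod p) M] :
    finrank (ZMod p) (Rep.res archimedeanLoc (M.dualTwist (cycloChar p))).ρ.invariants =
      finrank (ZMod p) (LinearMap.ker (1 + conjEnd M)) := by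
  have h1 : (Rep.res archimedeanLoc (M.dualTwist (cycloChar p))).ρ.invariants =
      ((LinearMap.range (1 + conjEnd M)).dualAnnihilator :
        Submodule (ZMod p) (Module.Dual (ZMod p) M)) := by
    rw [invariants_eq_ker, ← LinearMap.ker_dualMap_eq_dualAnnihilator_range]
    ext f
    simp only [LinearMap.mem_ker, LinearMap.sub_apply, Module.End.one_apply]
    rw [conjEnd_dualTwist, sub_eq_zero, neg_eq_iff_add_eq_zero, LinearMap.ext_iff,
      LinearMap.ext_iff]
    refine forall_congr' fun m => ?_
    show f (conjEnd M m) + f m = 0 ↔ f ((1 + conjEnd M) m) = 0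
    rw [LinearMap.add_apply, Module.End.one_apply, map_add, add_comm]
  have h2 := Subspace.finrank_add_finrank_dualAnnihilator_eq (LinearMap.range (1 + conjEnd M))
  have h3 := LinearMap.finrank_range_add_finrank_ker (1 + conjEnd M)
  rw [h1]
  exact Nat.add_left_cancel (h2.trans h3.symm)

/-- The Euler characteristic at infinity. -/
theorem finrank_continuousH1_inf [FiniteDimensional (ZMod p) M] :
    finrank (ZMod p) (continuousH1 archimedeanLoc (Rep.res archimedeanLoc M)) +
        finrank (ZMod p) M =
      finrank (ZMod p) (Rep.res archimedeanLoc M).ρ.invariants +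
        finrank (ZMod p) (Rep.res archimedeanLoc (M.dualTwist (cycloChar p))).ρ.invariants := by
  have hi : finrank (ZMod p) (Rep.res archimedeanLoc M).ρ.invariants =
      finrank (ZMod p) (LinearMap.ker (conjEnd M - 1)) := by
    rw [invariants_eq_ker]
  have hr := LinearMap.finrank_range_add_finrank_ker (conjEnd M - 1)
  have hd := finrank_invariants_dualTwist M
  have hh := finrank_H1_add M
  have hc : finrank (ZMod p) (continuousH1 archimedeanLoc (Rep.res archimedeanLoc M)) =
      finrank (ZMod p) (H1 (Rep.res archimedeanLoc M)) := by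
    rw [continuousH1_eq_top, finrank_top]
  rw [hc, hi, hd, ← hh, ← hr]
  abel

end FermatLib.CFT.GWInf
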