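import Fermat.Agent.CFT.GWUnrLocal
import Fermat.Agent.CFT.GWUnramified

/-!
The unramified classes at `q` have the dimension of the invariants.
-/

set_option autoImplicit false
set_option linter.unusedSectionVars false

open CategoryTheory Module groupCohomology ExtCitation

local instance gwUnrQbarIsAlgebraic : Algebra.IsAlgebraic ℚ (AlgebraicClosure ℚ) :=
  AlgebraicClosure.isAlgebraic ℚ

namespace FermatLib.CFT.GWUnr

local notation "Qbar" => AlgebraicClosure ℚ
local notation "Γℚ" => (AlgebraicClosure ℚ ≃ₐ[ℚ] AlgebraicClosure ℚ)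

variable {p : ℕ} [Fact p.Prime] (M : Rep (ZMod p) Γℚ) (q : Nat.Primes)

/-- The local action. -/
noncomputable abbrev actAt (g : primeLocalGaloisGroup q) : M →ₗ[ZMod p] M :=
  M.ρ (primeLocalToGlobal q g)

theorem res_ρ_apply (g : primeLocalGaloisGroup q) (m : M) :
    (Rep.res (primeLocalToGlobal q) M).ρ g m = actAt M q g m := rfl

theorem cocycle_mul (c : cocycles₁ (Rep.res (primeLocalToGlobal q) M))
    (g h : primeLocalGaloisGroup q) :
    c (g * h) = actAt M q g (c h) + c g :=
  (mem_cocycles₁_iff (c : primeLocalGaloisGroup q → _)).1 c.2 g h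

variable [FiniteDimensional (ZMod p) M]
  (hsm : ∀ m : M, ∃ F : IntermediateField ℚ (AlgebraicClosure ℚ), FiniteDimensional ℚ F ∧
    ∀ s ∈ F.fixingSubgroup, M.ρ s m = m)

include hsm in
/-- One finite level fixes all of `M`. -/
theorem exists_level : ∃ F : IntermediateField ℚ Qbar, FiniteDimensional ℚ F ∧
    ∀ s ∈ F.fixingSubgroup, ∀ m : M, M.ρ s m = m := by
  let b := Module.finBasis (ZMod p) M
  choose F hF hfix using fun i => hsm (b i)
  refine ⟨⨆ i, F i, IntermediateField.finiteDimensional_iSup_of_finite, fun s hs m => ?_⟩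
  have h : M.ρ s = LinearMap.id := b.ext fun i =>
    hfix i s (IntermediateField.fixingSubgroup_antitone (le_iSup F i) hs)
  rw [h]
  rfl

variable {q}
variable (hur : ∀ g, primeLocalToGlobal q g ∈ (primeLocalPlace q).inertiaSubgroupIn ℚ →
    M.ρ (primeLocalToGlobal q g) = 1)
  {g₀ : Gloc q} (hg₀ : ∀ x, ‖x‖ ≤ 1 → ‖g₀ x - x ^ (q : ℕ)‖ < 1)

include hur in
theorem actAt_frobenius_pow (k : ℕ) {t : Gloc q} (ht : Loc.IsInertial t) :
    actAt M q (locEquiv q (g₀ ^ k * t)) = actAt M q (locEquiv q g₀) ^ k := by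
  have h := hur (locEquiv q t) (mem_inertia_of_isInertial ht)
  simp only [actAt, map_mul, map_pow] at h ⊢
  rw [h, mul_one]

include hsm hur hg₀ in
/-- A cocycle vanishing on inertia is determined by its value at Frobenius. -/
theorem class_eq_zero (c : cocycles₁ (Rep.res (primeLocalToGlobal q) M))
    (hc : IsLevelConstant₁ (primeLocalToGlobal q) c)
    (hI : ∀ g, primeLocalToGlobal q g ∈ (primeLocalPlace q).inertiaSubgroupIn ℚ → c g = 0)
    (a : M) (ha : c (locEquiv q g₀) = actAt M q (locEquiv q g₀) a - a) :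
    (H1π (Rep.res (primeLocalToGlobal q) M)).hom c = 0 := by
  obtain ⟨F, hF, hFc⟩ := hc
  obtain ⟨F', hF', hF'm⟩ := exists_level M hsm
  have := hF
  have := hF'
  have hc1 : c 1 = 0 := cocycles₁_map_one c
  have key : ∀ g, c g = actAt M q g a - a := by
    intro g
    obtain ⟨k, t, s, ht, hs, rfl⟩ := exists_decomp hg₀ (F ⊔ F') g
    have hs0 : c s = 0 := by
      have h := hFc 1 s (IntermediateField.fixingSubgroup_antitone le_sup_left hs)
      rwa [one_mul, hc1] at h
    have hρs : actAt M q s = 1 := LinearMap.ext fun m =>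
      hF'm _ (IntermediateField.fixingSubgroup_antitone le_sup_right hs) m
    have htI := mem_inertia_of_isInertial ht
    have hρt : actAt M q (locEquiv q t) = 1 := hur _ htI
    have hct : c (locEquiv q t) = 0 := hI _ htI
    have hk : c (locEquiv q (g₀ ^ k)) = actAt M q (locEquiv q (g₀ ^ k)) a - a := by
      induction k with
      | zero =>
        rw [pow_zero, map_one, hc1]
        simp [actAt]
      | succ k ih =>
        rw [pow_succ', map_mul, cocycle_mul, ih, ha]
        simp only [actAt, map_mul, Module.End.mul_apply, map_sub]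
        abel
    rw [cocycle_mul, hs0, map_zero, zero_add, map_mul, cocycle_mul, hct, map_zero, zero_add, hk]
    simp only [actAt, map_mul] at hρt hρs ⊢
    rw [hρt, hρs, mul_one, mul_one]
  refine (H1π_eq_zero_iff c).2 ?_
  exact ⟨a, funext fun g => by rw [d₀₁_hom_apply]; exact (key g).symm⟩

include hsm hur hg₀ in
/-- Any value at Frobenius is taken by a cocycle that vanishes on inertia. -/
theorem exists_cocycle (v : M) : ∃ c : cocycles₁ (Rep.res (primeLocalToGlobal q) M),
    IsLevelConstant₁ (primeLocalToGlobal q) c ∧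
    (∀ g, primeLocalToGlobal q g ∈ (primeLocalPlace q).inertiaSubgroupIn ℚ → c g = 0) ∧
    c (locEquiv q g₀) = v := by
  classical
  have : Finite M := Module.finite_of_finite (ZMod p)
  have : Finite (M →ₗ[ZMod p] M) := Finite.of_injective _ DFunLike.coe_injective
  have : Finite (M →ₗ[ZMod p] M)ˣ := Finite.of_injective _ Units.val_injective
  set A : M →ₗ[ZMod p] M := actAt M q (locEquiv q g₀) with hA
  obtain ⟨n, hn, hAn⟩ : ∃ n, 0 < n ∧ A ^ n = 1 := by
    obtain ⟨n, hn, h⟩ := isOfFinOrder_iff_pow_eq_one.1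
      (isOfFinOrder_of_finite ((M.ρ : Γℚ →* (M →ₗ[ZMod p] M)).toHomUnits
        (primeLocalToGlobal q (locEquiv q g₀))))
    exact ⟨n, hn, congrArg Units.val h⟩
  set N := p * n with hN
  have hN0 : N ≠ 0 := Nat.mul_ne_zero (Fact.out : p.Prime).ne_zero hn.ne'
  let S : ℕ → M := fun k => ∑ i ∈ Finset.range k, (A ^ i) v
  have hS : ∀ k l, S (k + l) = (A ^ k) (S l) + S k := fun k l => by
    simp only [S, Finset.sum_range_add, map_sum, pow_add, Module.End.mul_apply]
    abel
  have hAN : A ^ N = 1 := by rw [hN, mul_comm, pow_mul, hAn, one_pow]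
  have hSN : S N = 0 := by
    have h : ∀ m, S (m * n) = m • S n := fun m => by
      induction m with
      | zero => simp [S]
      | succ m ih =>
        rw [Nat.succ_mul, hS, mul_comm m n, pow_mul, hAn, one_pow, Module.End.one_apply,
          mul_comm n m, ih, succ_nsmul']
    rw [hN, h, ← Nat.cast_smul_eq_nsmul (ZMod p), ZMod.natCast_self, zero_smul]
  have hmod : ∀ {k l}, k ≡ l [MOD N] → S k = S l ∧ A ^ k = A ^ l := fun {k l} h => by
    have hper : ∀ m, S (k % N + N * m) = S (k % N) ∧ A ^ (k % N + N * m) = A ^ (k % N) := fun m => by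
      induction m with
      | zero => simp
      | succ m ih =>
        rw [show k % N + N * (m + 1) = N + (k % N + N * m) by ring, hS, hSN, add_zero, pow_add,
          hAN, Module.End.one_apply, one_mul]
        exact ih
    have hper' : ∀ m, S (l % N + N * m) = S (l % N) ∧ A ^ (l % N + N * m) = A ^ (l % N) := fun m => by
      induction m with
      | zero => simp
      | succ m ih =>
        rw [show l % N + N * (m + 1) = N + (l % N + N * m) by ring, hS, hSN, add_zero, pow_add,
          hAN, Module.End.one_apply, one_mul]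
        exact ih
    have h1 := hper (k / N)
    have h2 := hper' (l / N)
    rw [Nat.mod_add_div] at h1 h2
    rw [h1.1, h1.2, h2.1, h2.2, show k % N = l % N from h]
    exact ⟨rfl, rfl⟩
  set m := (q : ℕ) ^ N - 1 with hm
  have hq1 : 1 < (q : ℕ) ^ N := Nat.one_lt_pow hN0 q.2.one_lt
  have hqm : ¬ (q : ℕ) ∣ m := fun h => by
    have h2 := Nat.dvd_sub (dvd_pow_self _ hN0) h
    rw [hm, Nat.sub_sub_self hq1.le] at h2
    exact q.2.ne_one (Nat.dvd_one.1 h2)
  have : NeZero m := ⟨by omega⟩
  obtain ⟨ζ, hζ⟩ := HasEnoughRootsOfUnity.exists_primitiveRoot Qbar m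
  have huniq : ∀ {k l : ℕ}, ζ ^ (q : ℕ) ^ k = ζ ^ (q : ℕ) ^ l → k ≡ l [MOD N] := by
    intro k l h
    wlog hkl : k ≤ l generalizing k l
    · exact (this h.symm (le_of_not_ge hkl)).symm
    obtain ⟨d, rfl⟩ := Nat.exists_eq_add_of_le hkl
    rw [pow_add, pow_mul] at h
    have hprim := hζ.pow_of_coprime ((q : ℕ) ^ k)
      (((q.2.coprime_iff_not_dvd).2 hqm).pow_left k)
    have hd1 : (ζ ^ (q : ℕ) ^ k) ^ ((q : ℕ) ^ d - 1) = 1 := by
      apply mul_right_cancel₀ (hprim.ne_zero (NeZero.ne m))
      rw [← pow_succ, Nat.sub_add_cancel (Nat.one_le_pow _ _ q.2.pos), one_mul]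
      exact h.symm
    have hd := Loc.dvd_of_pow_sub_one_dvd q.2.one_lt (hprim.dvd_of_pow_eq_one _ hd1)
    exact (Nat.modEq_iff_dvd' (Nat.le_add_right k d)).2 (by rwa [Nat.add_sub_cancel_left])
  obtain ⟨F', hF', hF'm⟩ := exists_level M hsm
  have := hF'
  let Z : IntermediateField ℚ Qbar := IntermediateField.adjoin ℚ ({ζ} : Set Qbar)
  have : FiniteDimensional ℚ Z :=
    IntermediateField.adjoin.finiteDimensional (Algebra.IsIntegral.isIntegral ζ)
  have hdec := fun g => exists_decomp hg₀ (F' ⊔ Z) g
  have hspec : ∀ g, ∃ k : ℕ, primeLocalToGlobal q g ζ = ζ ^ (q : ℕ) ^ k ∧ actAt M q g = A ^ k := by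
    intro g
    obtain ⟨k, t, s, ht, hs, rfl⟩ := hdec g
    refine ⟨k, ?_, ?_⟩
    · rw [map_mul, AlgEquiv.mul_apply,
        (IntermediateField.mem_fixingSubgroup_iff Z _).1
          (IntermediateField.fixingSubgroup_antitone le_sup_right hs) ζ
          (IntermediateField.mem_adjoin_simple_self ℚ ζ)]
      exact apply_rootOfUnity_frobenius hg₀ hqm hζ.pow_eq_one k ht
    · rw [actAt, map_mul, map_mul]
      have h1 : actAt M q s = 1 := LinearMap.ext fun x =>
        hF'm _ (IntermediateField.fixingSubgroup_antitone le_sup_left hs) x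
      have h2 := actAt_frobenius_pow M hur (g₀ := g₀) k ht
      simp only [actAt] at h1 h2
      rw [h1, mul_one, h2]
  choose κ hκ hκA using hspec
  have hadd : ∀ g h, κ (g * h) ≡ κ g + κ h [MOD N] := fun g h => huniq <| by
    rw [← hκ, map_mul, AlgEquiv.mul_apply, hκ h, map_pow, hκ g, ← pow_mul, ← pow_add]
  have hcyc : (fun g => S (κ g)) ∈ cocycles₁ (Rep.res (primeLocalToGlobal q) M) := by
    refine (mem_cocycles₁_iff _).2 fun g h => ?_
    show S (κ (g * h)) = actAt M q g (S (κ h)) + S (κ g)
    rw [(hmod (hadd g h)).1, hS, hκA]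
  refine ⟨⟨_, hcyc⟩, ⟨Z, inferInstance, fun g s hs => ?_⟩, fun g hg => ?_, ?_⟩
  · refine (hmod (huniq ?_)).1
    rw [← hκ, map_mul, AlgEquiv.mul_apply, (IntermediateField.mem_fixingSubgroup_iff Z _).1 hs ζ
      (IntermediateField.mem_adjoin_simple_self ℚ ζ), hκ]
  · show S (κ g) = 0
    have hemb : ‖padicEmbedding (q : ℕ) ζ‖ ≤ 1 :=
      (Loc.norm_eq_one_of_pow_eq_one (NeZero.ne m)
        (by rw [← map_pow, hζ.pow_eq_one, map_one])).le
    have h0 : primeLocalToGlobal q g ζ = ζ := by
      apply (padicEmbedding (q : ℕ)).toRingHom.injective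
      show padicEmbedding (q : ℕ) _ = padicEmbedding (q : ℕ) ζ
      rw [← (locEquiv q).apply_symm_apply g, emb_locToGlobal]
      exact Loc.eq_of_rootOfUnity_near hqm (by rw [← map_pow, ← map_pow, hζ.pow_eq_one, map_one,
        map_one]) (by rw [← map_pow, hζ.pow_eq_one, map_one]) (isInertial_norm hg hemb)
    rw [(hmod (huniq (k := κ g) (l := 0) (by rw [← hκ, h0, pow_zero, pow_one]))).1]
    simp [S]
  · show S (κ (locEquiv q g₀)) = v
    have h1 := apply_rootOfUnity_frobenius hg₀ hqm hζ.pow_eq_one 1 (t := 1) (fun x _ => by simp)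
    rw [pow_one, mul_one] at h1
    rw [(hmod (huniq (k := κ (locEquiv q g₀)) (l := 1) (by rw [← hκ, h1, pow_one]))).1]
    simp [S]

include hsm hur in
/-- Unramified classes have the size of the invariants. -/
theorem finrank_unramifiedSub :
    finrank (ZMod p) (unramifiedSub q M)
      = finrank (ZMod p) (Rep.res (primeLocalToGlobal q) M).ρ.invariants := by
  obtain ⟨g₀, hg₀⟩ := exists_localFrobenius (q := q)
  let T : M →ₗ[ZMod p] M := actAt M q (locEquiv q g₀) - 1
  choose cv hlev hI hval using exists_cocycle M hsm hur hg₀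
  have hmem : ∀ v, (H1π (Rep.res (primeLocalToGlobal q) M)).hom (cv v) ∈ unramifiedSub q M :=
    fun v => ⟨cv v, hlev v, hI v, rfl⟩
  -- classes depend only on the value at Frobenius
  have hcong : ∀ c : cocycles₁ (Rep.res (primeLocalToGlobal q) M),
      IsLevelConstant₁ (primeLocalToGlobal q) c →
      (∀ g, primeLocalToGlobal q g ∈ (primeLocalPlace q).inertiaSubgroupIn ℚ → c g = 0) →
      (H1π _).hom c = (H1π _).hom (cv (c (locEquiv q g₀))) := fun c hc hcI => by
    rw [← sub_eq_zero, ← map_sub]
    refine class_eq_zero M hsm hur hg₀ _ ?_ (fun g hg => ?_) 0 ?_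
    · have := hc.add ((hlev (c (locEquiv q g₀))).comp Neg.neg)
      rwa [show ((c - cv (c (locEquiv q g₀)) : cocycles₁ _) : primeLocalGaloisGroup q → _) =
        (c : primeLocalGaloisGroup q → _) + Neg.neg ∘ ⇑(cv (c (locEquiv q g₀))) from
          funext fun g => sub_eq_add_neg _ _]
    · show c g - cv _ g = 0
      rw [hcI g hg, hI _ g hg, sub_zero]
    · show c _ - cv _ _ = _
      rw [hval]
      simp
  let L : M →ₗ[ZMod p] unramifiedSub q M :=
    { toFun := fun v => ⟨_, hmem v⟩
      map_add' := fun v w => Subtype.ext <| by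
        show (H1π _).hom (cv (v + w)) = (H1π _).hom (cv v) + (H1π _).hom (cv w)
        rw [← map_add, hcong (cv v + cv w) ((hlev v).add (hlev w))
          (fun g hg => by show cv v g + cv w g = 0; rw [hI v g hg, hI w g hg, add_zero])]
        exact congrArg (fun x => (H1π (Rep.res (primeLocalToGlobal q) M)).hom (cv x))
          (show v + w = cv v _ + cv w _ by rw [hval, hval])
      map_smul' := fun r v => Subtype.ext <| by
        show (H1π _).hom (cv (r • v)) = r • (H1π _).hom (cv v)
        rw [← map_smul, hcong (r • cv v) ((hlev v).comp (r • ·))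
          (fun g hg => by show r • cv v g = 0; rw [hI v g hg, smul_zero])]
        exact congrArg (fun x => (H1π (Rep.res (primeLocalToGlobal q) M)).hom (cv x))
          (show r • v = r • cv v _ by rw [hval]) }
  have hsurj : Function.Surjective L := fun x => by
    obtain ⟨c, hc, hcI, hcx⟩ := x.2
    exact ⟨c (locEquiv q g₀), Subtype.ext ((hcong c hc hcI).symm.trans hcx)⟩
  have hker : LinearMap.ker L = LinearMap.range T := by
    ext v
    rw [LinearMap.mem_ker, LinearMap.mem_range]
    refine ⟨fun hv => ?_, fun ⟨a, ha⟩ => Subtype.ext (class_eq_zero M hsm hur hg₀ _ (hlev v) (hI v) a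
      (by rw [hval, ← ha]; rfl))⟩
    obtain ⟨a, ha⟩ := (H1π_eq_zero_iff _).1 (congrArg Subtype.val hv)
    refine ⟨a, ?_⟩
    have := congrFun ha (locEquiv q g₀)
    rw [d₀₁_hom_apply] at this
    exact this.trans (hval v)
  have hinv : (Rep.res (primeLocalToGlobal q) M).ρ.invariants = LinearMap.ker T := by
    ext a
    rw [Representation.mem_invariants, LinearMap.mem_ker]
    refine ⟨fun h => sub_eq_zero.2 (h (locEquiv q g₀)), fun h g => ?_⟩
    have hfix : actAt M q (locEquiv q g₀) a = a := sub_eq_zero.1 h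
    obtain ⟨F', hF', hF'm⟩ := exists_level M hsm
    have := hF'
    obtain ⟨k, t, s, ht, hs, rfl⟩ := exists_decomp hg₀ F' g
    rw [res_ρ_apply, actAt, map_mul, map_mul, Module.End.mul_apply, hF'm _ hs a]
    have hk := actAt_frobenius_pow M hur (g₀ := g₀) k ht
    simp only [actAt] at hk hfix
    rw [hk]
    clear hk
    induction k with
    | zero => simp
    | succ k ih => rw [pow_succ, Module.End.mul_apply, hfix, ih]
  have h1 := LinearMap.finrank_range_add_finrank_ker L
  rw [LinearMap.range_eq_top.2 hsurj, finrank_top, hker] at h1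
  have h2 := LinearMap.finrank_range_add_finrank_ker T
  rw [hinv]
  refine (?_ : finrank (ZMod p) (unramifiedSub q M) = finrank (ZMod p) (LinearMap.ker T))
  omega

include hsm hur in
/-- The statement of `GWLocal.finrank_span_unramifiedClasses`. -/
theorem finrank_span_unramified :
    finrank (ZMod p) (Submodule.span (ZMod p) (unramifiedClasses q M))
      = finrank (ZMod p) (Rep.res (primeLocalToGlobal q) M).ρ.invariants := by
  rw [span_unramifiedClasses]
  exact finrank_unramifiedSub M hsm hur

end FermatLib.CFT.GWUnr
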