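import Fermat.Agent.CFT.GWLocEulerInduced
import Fermat.Agent.CFT.GWUnrDim
import Fermat.Agent.CFT.GWInfAlg
import Fermat.Agent.Galois.PlaceFiniteLevel

/-!
The local Euler characteristic, from pairings which are perfect on continuous classes and natural
in the module, and its sum over `S` and infinity.
-/

set_option autoImplicit false
set_option maxSynthPendingDepth 3

open CategoryTheory Module groupCohomology ExtCitation

namespace FermatLib.CFT.GWLocEuler

open FermatLib.CFT FermatLib.CFT.GWKummer

local notation "Γℚ" => AlgebraicClosure ℚ ≃ₐ[ℚ] AlgebraicClosure ℚ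

variable {p : ℕ} [Fact p.Prime]

/-- A finite module is unramified outside a finite set containing `p`. -/
theorem exists_unramifiedOutside (M : Rep.{0} (ZMod p) Γℚ) [FiniteDimensional (ZMod p) M]
    (hsm : IsSmoothRep M) : ∃ T : Finset Nat.Primes, pPrime p ∈ T ∧ GWUnramifiedOutside M T := by
  classical
  obtain ⟨L, hL, hLM⟩ := GWUnr.exists_level M hsm
  have := hL
  obtain ⟨T₀, hT₀⟩ := FermatLib.Galois.exists_finset_inertia_le_fixingSubgroup L
  refine ⟨insert (pPrime p) (T₀.subtype Nat.Prime), Finset.mem_insert_self _ _,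
    fun q hq A hA g hg => LinearMap.ext fun m => hLM g (hT₀ q q.2 (fun h => hq
      (Finset.mem_insert_of_mem (Finset.mem_subtype.2 h))) A hA hg) m⟩

section reps

variable {M : Rep.{0} (ZMod p) Γℚ} {S : Finset Nat.Primes} (D : Level M S)

/-- A module as a representation of the Galois group of its level. -/
noncomputable def levelRep : Representation (ZMod p) D.Gal M where
  toFun g := M.ρ (Function.surjInv D.res_surjective g)
  map_one' := by
    rw [(D.res_eq_res (τ := 1) (by rw [Function.surjInv_eq D.res_surjective, map_one])).1, map_one]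
  map_mul' g h := by
    rw [(D.res_eq_res (τ := Function.surjInv D.res_surjective g *
      Function.surjInv D.res_surjective h) (by
        rw [map_mul, Function.surjInv_eq D.res_surjective, Function.surjInv_eq D.res_surjective,
          Function.surjInv_eq D.res_surjective])).1, map_mul]

theorem inflRep_levelRep : inflRep D (levelRep D) = M := by
  have h : (levelRep D).comp D.res = M.ρ := MonoidHom.ext fun s =>
    (D.res_eq_res (Function.surjInv_eq D.res_surjective (D.res s))).1
  show Rep.of ((levelRep D).comp D.res) = M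
  rw [h]

theorem isSmoothRep_inflRep {V : Type} [AddCommGroup V] [Module (ZMod p) V]
    (σ : Representation (ZMod p) D.Gal V) : IsSmoothRep (inflRep D σ) := fun v =>
  ⟨D.field, D.finite, fun s hs => by
    show σ (D.res s) v = v
    rw [(D.res_eq_one_iff s).2 hs, map_one, Module.End.one_apply]⟩

theorem isSmoothRep_inflRep_dual {V : Type} [AddCommGroup V] [Module (ZMod p) V]
    (σ : Representation (ZMod p) D.Gal V) :
    IsSmoothRep ((inflRep D σ).dualTwist (cycloChar p)) := fun a =>
  ⟨D.field, D.finite, fun s hs => LinearMap.ext fun v => by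
    show (cycloChar p s : ZMod p) • (a : Module.Dual (ZMod p) V) (σ (D.res s⁻¹) v) =
      (a : Module.Dual (ZMod p) V) v
    rw [map_inv, (D.res_eq_one_iff s).2 hs, inv_one, map_one, D.cyclo s hs, Units.val_one, one_smul,
      Module.End.one_apply]⟩

end reps

variable (Bp : ∀ (M : Rep.{0} (ZMod p) Γℚ) (q : Nat.Primes), LocalPairing M (primeLocalToGlobal q))

/-- The local Euler characteristic at `q`. -/
theorem eulerDefect_eq (q : Nat.Primes)
    (hnat : IsNaturalPairing (primeLocalToGlobal q) fun M => Bp M q)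
    (hperf : ∀ (M : Rep.{0} (ZMod p) Γℚ) [FiniteDimensional (ZMod p) M], IsSmoothRep M →
      IsPerfectOnContinuous M (Bp M q))
    (M : Rep.{0} (ZMod p) Γℚ) [FiniteDimensional (ZMod p) M] (hsm : IsSmoothRep M) :
    eulerDefect (primeLocalToGlobal q) M =
      if p = (q : ℕ) then (finrank (ZMod p) M : ℤ) else 0 := by
  classical
  obtain ⟨T, hpT, hur⟩ := exists_unramifiedOutside M hsm
  obtain ⟨D⟩ := exists_level hsm hpT hur
  have : NeZero p := ⟨(Fact.out : p.Prime).ne_zero⟩
  obtain ⟨ζ, hζ⟩ := HasEnoughRootsOfUnity.exists_primitiveRoot (AlgebraicClosure ℚ) p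
  let F : RepFun (ZMod p) D.Gal := fun V _ _ σ =>
    eulerDefect (primeLocalToGlobal q) (inflRep D σ) -
      if p = (q : ℕ) then (finrank (ZMod p) V : ℤ) else 0
  have hF : IsAdditiveRep F := by
    constructor
    intro A V B _ _ _ _ _ _ _ ρA ρV ρB i π hi hπ hinj hsurj hex
    have : FiniteDimensional (ZMod p) A := FiniteDimensional.of_injective i hinj
    have : FiniteDimensional (ZMod p) B := Module.Finite.of_surjective π hsurj
    have h1 := eulerDefect_add hnat (hperf (inflRep D ρA) (isSmoothRep_inflRep D ρA))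
      (hperf (inflRep D ρV) (isSmoothRep_inflRep D ρV))
      (hperf (inflRep D ρB) (isSmoothRep_inflRep D ρB)) i π (fun g a => hi (D.res g) a)
      (fun g m => hπ (D.res g) m) hinj hsurj hex (isSmoothRep_inflRep D ρV)
      (isSmoothRep_inflRep D ρB) (isSmoothRep_inflRep_dual D ρV)
    have h2 : finrank (ZMod p) V = finrank (ZMod p) A + finrank (ZMod p) B := by
      rw [← π.finrank_range_add_finrank_ker, LinearMap.range_eq_top.2 hsurj, finrank_top, ← hex,
        LinearMap.finrank_range_of_inj hinj, add_comm]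
    show eulerDefect _ _ - _ = (eulerDefect _ _ - _) + (eulerDefect _ _ - _)
    rw [h1, h2]
    split_ifs <;> push_cast <;> ring
  have h0 := eq_zero_of_induced hF (levelRep D) fun g hg => by
    show eulerDefect _ _ - _ = 0
    rw [eulerDefect_induced D q (levelRep D) g hζ hg
      (hperf _ (isSmoothRep_inflRep D (indRep (levelRep D) g))), sub_self]
  have h1 : eulerDefect (primeLocalToGlobal q) (inflRep D (levelRep D)) =
      if p = (q : ℕ) then (finrank (ZMod p) M : ℤ) else 0 := sub_eq_zero.1 h0
  rwa [inflRep_levelRep] at h1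

/-- The local Euler characteristics summed over `S` and infinity. -/
theorem sum_finrank_eq
    (hnat : ∀ q, IsNaturalPairing (primeLocalToGlobal q) fun M => Bp M q)
    (hperf : ∀ (M : Rep.{0} (ZMod p) Γℚ) [FiniteDimensional (ZMod p) M], IsSmoothRep M →
      ∀ q, IsPerfectOnContinuous M (Bp M q))
    (M : Rep.{0} (ZMod p) Γℚ) [FiniteDimensional (ZMod p) M] (hsm : IsSmoothRep M)
    (S : Finset Nat.Primes) (hpS : pPrime p ∈ S) :
    ∑ v, finrank (ZMod p) (continuousH1 (extArithLoc S v) (Rep.res (extArithLoc S v) M))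
      = ∑ v, finrank (ZMod p) (Rep.res (extArithLoc S v) M).ρ.invariants
        + ∑ v, finrank (ZMod p)
            (Rep.res (extArithLoc S v) (M.dualTwist (cycloChar p))).ρ.invariants := by
  classical
  have hq : ∀ q : S, (finrank (ZMod p) (continuousH1 (primeLocalToGlobal q.1)
      (Rep.res (primeLocalToGlobal q.1) M)) : ℤ) =
        finrank (ZMod p) (Rep.res (primeLocalToGlobal q.1) M).ρ.invariants +
          finrank (ZMod p) (Rep.res (primeLocalToGlobal q.1) (M.dualTwist (cycloChar p))).ρ.invariants +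
            (if q = (⟨pPrime p, hpS⟩ : S) then (finrank (ZMod p) M : ℤ) else 0) := fun q => by
    have h := eulerDefect_eq Bp q.1 (hnat q.1) (fun M _ hM => hperf M hM q.1) M hsm
    have e : q = (⟨pPrime p, hpS⟩ : S) ↔ p = ((q.1 : Nat.Primes) : ℕ) :=
      ⟨fun h => by rw [h]; rfl, fun h => Subtype.ext (Subtype.ext h.symm)⟩
    simp only [e]
    unfold eulerDefect at h
    linarith
  have hsum := Finset.sum_congr (rfl : (Finset.univ : Finset S) = Finset.univ) fun q _ => hq q
  rw [Finset.sum_add_distrib, Finset.sum_ite_eq' Finset.univ, if_pos (Finset.mem_univ _),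
    Finset.sum_add_distrib] at hsum
  have hinf := GWInf.finrank_continuousH1_inf M
  have hs : ∀ F : extArithIndex S → ℕ,
      ∑ v, F v = F (Sum.inl ()) + ∑ q : S, F (Sum.inr q) := fun F =>
    (Fintype.sum_sum_type F).trans (by rw [Fintype.sum_unique])
  rw [hs, hs, hs]
  have key : finrank (ZMod p) (continuousH1 archimedeanLoc (Rep.res archimedeanLoc M)) +
      ∑ q : S, finrank (ZMod p) (continuousH1 (primeLocalToGlobal q.1)
        (Rep.res (primeLocalToGlobal q.1) M)) =
      (finrank (ZMod p) (Rep.res archimedeanLoc M).ρ.invariants +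
        ∑ q : S, finrank (ZMod p) (Rep.res (primeLocalToGlobal q.1) M).ρ.invariants) +
      (finrank (ZMod p) (Rep.res archimedeanLoc (M.dualTwist (cycloChar p))).ρ.invariants +
        ∑ q : S, finrank (ZMod p)
          (Rep.res (primeLocalToGlobal q.1) (M.dualTwist (cycloChar p))).ρ.invariants) := by
    rw [← Nat.cast_sum, ← Nat.cast_sum, ← Nat.cast_sum] at hsum
    omega
  exact key

/-- Naturality on classes from naturality on cocycles. -/
theorem isNaturalPairing_of_cocycles {Γ : Type} [Group Γ] {f : Γ →* Γℚ}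
    (B : ∀ M : Rep.{0} (ZMod p) Γℚ, LocalPairing M f)
    (h : ∀ {M N : Rep.{0} (ZMod p) Γℚ} (φ : M →ₗ[ZMod p] N),
      (∀ g m, φ (M.ρ g m) = N.ρ g (φ m)) →
      ∀ (c : cocycles₁ (Rep.res f M)) (c1 : cocycles₁ (Rep.res f N)), (∀ g, c1 g = φ (c g)) →
      ∀ (d : cocycles₁ (Rep.res f (N.dualTwist (cycloChar p))))
        (d1 : cocycles₁ (Rep.res f (M.dualTwist (cycloChar p)))),
      (∀ g, (d1 g : Module.Dual (ZMod p) M) = φ.dualMap (d g : Module.Dual (ZMod p) N)) →
      IsLevelConstant₁ f c → IsLevelConstant₁ f d →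
        B N ((H1π _).hom c1) ((H1π _).hom d) = B M ((H1π _).hom c) ((H1π _).hom d1)) :
    IsNaturalPairing f B := by
  intro M N _ _ _ _ φ hφ x hx y hy
  obtain ⟨c, hc, rfl⟩ := (mem_continuousH1_iff _ _ _).1 hx
  obtain ⟨d, hd, rfl⟩ := (mem_continuousH1_iff _ _ _).1 hy
  obtain ⟨c1, h1, -⟩ := exists_cocycle_map f φ hφ c
  obtain ⟨d1, h2, -⟩ := exists_cocycle_map f (A := N.dualTwist (cycloChar p))
    (M := M.dualTwist (cycloChar p)) φ.dualMap (dualMap_equivariant φ hφ) d
  rw [h1Map_π f φ hφ c c1 h1, h1Map_π f (A := N.dualTwist (cycloChar p))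
    (M := M.dualTwist (cycloChar p)) φ.dualMap (dualMap_equivariant φ hφ) d d1 h2]
  exact h φ hφ c c1 h1 d d1 h2 hc hd

end FermatLib.CFT.GWLocEuler
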