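import Fermat.Agent.CFT.GWGlobCompat
import Fermat.Agent.CFT.CohShapiro

/-!
Idele cocycles supported at one prime against local cocycles there.

A cocycle of ideles supported at `q` whose value at the standard embedding is a local coboundary of
a level-constant cochain is a coboundary, and every finite-level local cocycle with values in the
roots of unity of the level is the value of such an idele cocycle.
-/

set_option autoImplicit false

open CategoryTheory groupCohomology ExtCitation NumberField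

namespace FermatLib.CFT.GWTate

open GWKummer

local notation "Γℚ" => AlgebraicClosure ℚ ≃ₐ[ℚ] AlgebraicClosure ℚ
local notation "Qbar" => AlgebraicClosure ℚ

/-- Every finite extension inside `ℚ̄` lies in a finite Galois one. -/
theorem exists_galois_above (F : IntermediateField ℚ (AlgebraicClosure ℚ))
    [FiniteDimensional ℚ F] :
    ∃ L : IntermediateField ℚ (AlgebraicClosure ℚ),
      ∃ _ : NumberField L, ∃ _ : IsGalois ℚ L, F ≤ L := by
  haveI : IsAlgClosure ℚ Qbar := ⟨inferInstance, AlgebraicClosure.isAlgebraic ℚ⟩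
  haveI : IsGalois ℚ Qbar := IsAlgClosure.isGalois ℚ Qbar
  refine ⟨IntermediateField.normalClosure ℚ F Qbar, @NumberField.mk _ _ inferInstance inferInstance,
    ?_, IntermediateField.le_normalClosure F⟩
  have hg : IsGalois ℚ (IntermediateField.normalClosure ℚ F Qbar) :=
    IsGalois.normalClosure ℚ F Qbar
  exact @IsGalois.mk _ _ _ _ _ inferInstance (by
    convert hg.to_normal using 2)

section sup

variable (L L' : IntermediateField ℚ (AlgebraicClosure ℚ)) [NumberField L] [NumberField L']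
  [IsGalois ℚ L] [IsGalois ℚ L']

omit [IsGalois ℚ L] [IsGalois ℚ L'] in
theorem numberField_sup : NumberField ↥(L ⊔ L') :=
  @NumberField.mk _ _ inferInstance (IntermediateField.finiteDimensional_sup L L')

theorem isGalois_sup : IsGalois ℚ ↥(L ⊔ L') :=
  @IsGalois.mk _ _ _ _ _ inferInstance (@IntermediateField.normal_sup ℚ (AlgebraicClosure ℚ) _ _ _
    L L' ‹IsGalois ℚ L›.to_normal ‹IsGalois ℚ L'›.to_normal)

end sup

section restriction

variable (L : IntermediateField ℚ (AlgebraicClosure ℚ)) [IsGalois ℚ L] (q : Nat.Primes)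

/-- The local group at `q` seen in the Galois group of a level. -/
noncomputable def locTo : primeLocalGaloisGroup q →* (L ≃ₐ[ℚ] L) :=
  (galTo L).comp (primeLocalToGlobal q)

theorem locTo_apply (σ : primeLocalGaloisGroup q) :
    locTo L q σ = galTo L (primeLocalToGlobal q σ) := rfl

theorem locTo_eq_one_iff (σ : primeLocalGaloisGroup q) :
    locTo L q σ = 1 ↔ primeLocalToGlobal q σ ∈ L.fixingSubgroup := galTo_eq_one_iff L _

/-- A function of the local group which only depends on the restriction to `L`. -/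
def IsConstAt {X : Type*} (f : primeLocalGaloisGroup q → X) : Prop :=
  ∀ g s, locTo L q s = 1 → f (g * s) = f g

variable {L q}

theorem IsConstAt.eq {X : Type*} {f : primeLocalGaloisGroup q → X} (hf : IsConstAt L q f)
    {σ τ : primeLocalGaloisGroup q} (h : locTo L q σ = locTo L q τ) : f σ = f τ := by
  have := hf τ (τ⁻¹ * σ) (by rw [map_mul, map_inv, h, inv_mul_cancel])
  rwa [mul_inv_cancel_left] at this

theorem IsConstAt.left {X : Type*} {f : primeLocalGaloisGroup q → X} (hf : IsConstAt L q f)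
    {s : primeLocalGaloisGroup q} (hs : locTo L q s = 1) (g : primeLocalGaloisGroup q) :
    f (s * g) = f g :=
  hf.eq (by rw [map_mul, hs, one_mul])

theorem IsConstAt.isLevelConstant [FiniteDimensional ℚ L] {X : Type*}
    {f : primeLocalGaloisGroup q → X} (hf : IsConstAt L q f) :
    IsLevelConstant₁ (primeLocalToGlobal q) f :=
  ⟨L, inferInstance, fun g s hs => hf g s ((locTo_eq_one_iff L q s).2 hs)⟩

theorem isConstAt_of_le {F : IntermediateField ℚ (AlgebraicClosure ℚ)} {X : Type*}
    {f : primeLocalGaloisGroup q → X} (hFL : F ≤ L)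
    (hf : ∀ g s, primeLocalToGlobal q s ∈ F.fixingSubgroup → f (g * s) = f g) :
    IsConstAt L q f := fun g s hs =>
  hf g s (IntermediateField.fixingSubgroup_antitone hFL ((locTo_eq_one_iff L q s).1 hs))

variable {L' : IntermediateField ℚ (AlgebraicClosure ℚ)} [IsGalois ℚ L']

theorem galRes_locTo (h : L ≤ L') (σ : primeLocalGaloisGroup q) :
    galRes h (locTo L' q σ) = locTo L q σ := galRes_galTo L h _

theorem IsConstAt.mono {X : Type*} {f : primeLocalGaloisGroup q → X} (hf : IsConstAt L q f)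
    (h : L ≤ L') : IsConstAt L' q f := fun g s hs =>
  hf g s (by rw [← galRes_locTo h, hs, map_one])

omit [IsGalois ℚ L] in
/-- A level-constant function only depends on the restriction to some level above a given one. -/
theorem exists_isConstAt {X : Type*} {f : primeLocalGaloisGroup q → X}
    (hf : IsLevelConstant₁ (primeLocalToGlobal q) f) [FiniteDimensional ℚ L] :
    ∃ E : IntermediateField ℚ (AlgebraicClosure ℚ), ∃ _ : NumberField E, ∃ _ : IsGalois ℚ E,
      L ≤ E ∧ IsConstAt E q f := by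
  obtain ⟨F, hF, hfF⟩ := hf
  haveI : FiniteDimensional ℚ ↥(F ⊔ L) := IntermediateField.finiteDimensional_sup F L
  obtain ⟨E, hE, hE', hle⟩ := exists_galois_above (F ⊔ L)
  exact ⟨E, hE, hE', le_sup_right.trans hle, isConstAt_of_le (le_sup_left.trans hle) hfF⟩

end restriction

section values

variable (L : IntermediateField ℚ (AlgebraicClosure ℚ)) [NumberField L] [IsGalois ℚ L]
  (q : Nat.Primes)

/-- The local cochain of an idele cochain at the standard embedding. -/
noncomputable def locVal :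
    ((L ≃ₐ[ℚ] L) × (L ≃ₐ[ℚ] L) → Idele L) →+
      (primeLocalGaloisGroup q → primeLocalGaloisGroup q → QUnits q) where
  toFun f σ τ := localValue L q (f (locTo L q σ, locTo L q τ))
  map_zero' := rfl
  map_add' _ _ := rfl

theorem locVal_apply (f : (L ≃ₐ[ℚ] L) × (L ≃ₐ[ℚ] L) → Idele L) (σ τ : primeLocalGaloisGroup q) :
    locVal L q f σ τ = localValue L q (f (locTo L q σ, locTo L q τ)) := rfl

theorem stdEmb_postComp_locTo (τ : primeLocalGaloisGroup q) :
    (stdEmb L q).postComp τ = (stdEmb L q).preComp (locTo L q τ) :=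
  RingHom.ext fun x => (padicEmbedding_localGaloisToGlobal (q : ℕ) τ (x : Qbar)).symm.trans
    (congrArg (padicEmbedding (q : ℕ)) (coe_galTo L _ x).symm)

/-- The local group onto the decomposition group at the standard embedding. -/
noncomputable def locDecomp : primeLocalGaloisGroup q →* decompGroup (stdEmb L q) :=
  (locTo L q).codRestrict _ fun τ => ⟨τ, stdEmb_postComp_locTo L q τ⟩

theorem coe_locDecomp (τ : primeLocalGaloisGroup q) :
    (locDecomp L q τ : L ≃ₐ[ℚ] L) = locTo L q τ := rfl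

theorem locDecomp_surjective : Function.Surjective (locDecomp L q) := fun d => by
  obtain ⟨τ, hτ⟩ := d.2
  exact ⟨τ, Subtype.ext ((stdEmb L q).preComp_injective
    ((stdEmb_postComp_locTo L q τ).symm.trans hτ))⟩

theorem localPartVal_locDecomp (τ : primeLocalGaloisGroup q) (a : localPart (stdEmb L q)) :
    localPartVal (stdEmb L q) (locDecomp L q τ • a) = τ • localPartVal (stdEmb L q) a := by
  rw [localPartVal_smul (τ := τ) (stdEmb L q) (locDecomp L q τ) (stdEmb_postComp_locTo L q τ) a]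
  rfl

/-- A value fixed by the automorphisms trivial on `L` is the value of an element of the local
module. -/
theorem exists_localPartVal_eq {y : QUnits q}
    (hy : ∀ s : primeLocalGaloisGroup q, locTo L q s = 1 → s • y = y) :
    ∃ a : localPart (stdEmb L q), localPartVal (stdEmb L q) a = y := by
  refine (mem_range_localPartVal (stdEmb L q) y).2 ((mem_localField_iff _ _ _).2 ?_)
  rintro τ ⟨h, hh, he⟩
  have h1 : locTo L q τ = 1 := (stdEmb L q).preComp_injective
    ((stdEmb_postComp_locTo L q τ).symm.trans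
      (he.trans (congrArg _ (Subgroup.mem_bot.1 hh))))
  exact congrArg QUnits.toField (hy τ h1)

theorem primeIdeles_coinduced :
    IsCoinducedOn (decompGroup (stdEmb L q)) (primeIdeles L q) (restrictPlace (stdEmb L q)) := by
  set φ := stdEmb L q with hφ
  have horb : ∀ a : Idele L, a ∈ orbitPart (⊤ : Subgroup (L ≃ₐ[ℚ] L)) φ ↔ a ∈ primeIdeles L q :=
    fun a => by
      rw [mem_orbitPart_iff]
      refine ⟨fun h => ⟨h.2.1, funext h.2.2⟩, fun h => ⟨fun ψ hψ => ?_, h.1, congrFun h.2⟩⟩
      obtain ⟨g, rfl⟩ := Emb.exists_preComp_eq φ ψ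
      exact absurd ⟨g, Subgroup.mem_top g, Emb.SamePlace.refl _⟩ hψ
  refine ⟨fun g a ha => ((g • (⟨a, ha⟩ : primeIdeles L q) : primeIdeles L q)).2,
    fun h a _ => restrictPlace_smul φ h a, fun F hF => ?_⟩
  obtain ⟨a, ⟨ha, hx⟩, huniq⟩ := orbitPart_coinduced (⊤ : Subgroup (L ≃ₐ[ℚ] L)) φ
    (fun x => F (x : L ≃ₐ[ℚ] L)) (fun d x hd => hF ⟨d, hd⟩ x)
  exact ⟨a, ⟨(horb a).1 ha, fun x => hx ⟨x, Subgroup.mem_top x⟩⟩,
    fun b hb => huniq b ⟨(horb b).2 hb.1, fun x => hb.2 x⟩⟩

variable {L q}

/-- An idele cocycle at `q` with value a local coboundary is a coboundary. -/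
theorem mem_B2_of_locVal_eq_d1_const {f : (L ≃ₐ[ℚ] L) × (L ≃ₐ[ℚ] L) → Idele L}
    (hf : f ∈ Z2 (L ≃ₐ[ℚ] L) (Idele L)) (hval : ∀ t, f t ∈ primeIdeles L q)
    {b : primeLocalGaloisGroup q → QUnits q} (hb : IsConstAt L q b)
    (hfb : ∀ σ τ, locVal L q f σ τ = σ • b τ - b (σ * τ) + b σ) :
    f ∈ B2 (L ≃ₐ[ℚ] L) (Idele L) := by
  have hb1 : ∀ g, locVal L q f 1 g = b 1 := fun g => by
    rw [hfb, one_smul, one_mul, sub_self, zero_add]
  have hfix : ∀ g s, locTo L q s = 1 → s • b g = b g := fun g s hs => by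
    have h1 := hfb s g
    have h2 : locVal L q f s g = locVal L q f 1 g := by
      simp only [locVal_apply, hs, map_one]
    rw [h2, hb1, hb.left hs g] at h1
    rw [show b s = b 1 from hb.eq (by rw [hs, map_one])] at h1
    exact sub_eq_zero.1 (add_eq_right.1 h1.symm)
  choose lift hlift using fun g => exists_localPartVal_eq L q (fun s hs => hfix g s hs)
  have hsurj := locDecomp_surjective L q
  let B : decompGroup (stdEmb L q) → localPart (stdEmb L q) := fun d =>
    lift (Function.surjInv hsurj d)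
  have hB : ∀ σ, localPartVal (stdEmb L q) (B (locDecomp L q σ)) = b σ := fun σ => by
    rw [hlift]
    exact hb.eq (congrArg Subtype.val (Function.surjInv_eq hsurj (locDecomp L q σ)))
  obtain ⟨c, -, hc⟩ := (primeIdeles_coinduced L q).h2_injective hf hval (mem_B2_iff.2 ⟨B,
    fun d d' => by
      obtain ⟨σ, rfl⟩ := hsurj d
      obtain ⟨τ, rfl⟩ := hsurj d'
      refine localPartVal_injective (stdEmb L q) ?_
      rw [← map_mul, map_add, map_sub, localPartVal_locDecomp, hB, hB, hB, ← hfb]
      exact restrictPlace_apply (stdEmb L q) _ (Emb.SamePlace.refl _)⟩)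
  exact ⟨c, hc⟩

end values

section inflation

variable {L L' : IntermediateField ℚ (AlgebraicClosure ℚ)} [NumberField L] [NumberField L']

/-- Inclusion of ideles of subfields. -/
noncomputable def ideleLe (h : L ≤ L') : Idele L →+ Idele L' :=
  @ideleBaseChange L _ _ L' _ _ (algLe h)

theorem ideleLe_mem_primeIdeles (h : L ≤ L') {q : Nat.Primes} {f : Idele L}
    (hf : f ∈ primeIdeles L q) : ideleLe h f ∈ primeIdeles L' q :=
  ⟨fun r hr _ => hf.1 r hr _, funext fun _ => congrFun hf.2 _⟩

theorem localValue_ideleLe (h : L ≤ L') (q : Nat.Primes) (f : Idele L) :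
    localValue L' q (ideleLe h f) = localValue L q f := rfl

variable [IsGalois ℚ L]

theorem ideleLe_compat (h : L ≤ L') :
    IsCompat (A := Idele L) (B := Idele L') (galRes h) (ideleLe h) := fun g f =>
  @ideleBaseChange_smul L _ _ L' _ _ (algLe h) g (galRes h g) (fun x => (galRes_spec h g x).symm) f

/-- Inflation of idele two-cochains. -/
noncomputable def ideleInfl (h : L ≤ L') :
    ((L ≃ₐ[ℚ] L) × (L ≃ₐ[ℚ] L) → Idele L) →+ ((L' ≃ₐ[ℚ] L') × (L' ≃ₐ[ℚ] L') → Idele L') :=
  cochainMap2 (A := Idele L) (B := Idele L') (galRes h) (ideleLe h)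

theorem ideleInfl_mem_Z2 (h : L ≤ L') {f : (L ≃ₐ[ℚ] L) × (L ≃ₐ[ℚ] L) → Idele L}
    (hf : f ∈ Z2 (L ≃ₐ[ℚ] L) (Idele L)) : ideleInfl h f ∈ Z2 (L' ≃ₐ[ℚ] L') (Idele L') :=
  cochainMap2_mem_Z2 (A := Idele L) (B := Idele L') (ideleLe_compat h) hf

theorem ideleInfl_mem_primeIdeles (h : L ≤ L') {q : Nat.Primes}
    {f : (L ≃ₐ[ℚ] L) × (L ≃ₐ[ℚ] L) → Idele L} (hf : ∀ t, f t ∈ primeIdeles L q)
    (t : (L' ≃ₐ[ℚ] L') × (L' ≃ₐ[ℚ] L')) : ideleInfl h f t ∈ primeIdeles L' q :=
  ideleLe_mem_primeIdeles h (hf _)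

theorem classInfl_classCochain (h : L ≤ L') (f : (L ≃ₐ[ℚ] L) × (L ≃ₐ[ℚ] L) → Idele L) :
    classInfl h (classCochain L f) = classCochain L' (ideleInfl h f) := rfl

variable [IsGalois ℚ L']

theorem locVal_ideleInfl (h : L ≤ L') (q : Nat.Primes)
    (f : (L ≃ₐ[ℚ] L) × (L ≃ₐ[ℚ] L) → Idele L) :
    locVal L' q (ideleInfl h f) = locVal L q f := by
  funext σ τ
  rw [locVal_apply, locVal_apply, ← galRes_locTo h σ, ← galRes_locTo h τ]
  exact localValue_ideleLe h q _

omit [IsGalois ℚ L] in
theorem classCochain_mem_B2 {f : (L ≃ₐ[ℚ] L) × (L ≃ₐ[ℚ] L) → Idele L}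
    (hf : f ∈ B2 (L ≃ₐ[ℚ] L) (Idele L)) : classCochain L f ∈ B2 (L ≃ₐ[ℚ] L) (IdeleClass L) :=
  cochainMap2_mem_B2 (A := Idele L) (B := IdeleClass L) (by intro g a; rfl) hf

end inflation

/-- An idele cocycle at `q` with value the coboundary of a level-constant cochain is a coboundary
of classes. -/
theorem classCochain_mem_B2_of_locVal {L : IntermediateField ℚ (AlgebraicClosure ℚ)} [NumberField L]
    [IsGalois ℚ L] {q : Nat.Primes} {f : (L ≃ₐ[ℚ] L) × (L ≃ₐ[ℚ] L) → Idele L}
    (hf : f ∈ Z2 (L ≃ₐ[ℚ] L) (Idele L)) (hval : ∀ t, f t ∈ primeIdeles L q)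
    {b : primeLocalGaloisGroup q → QUnits q}
    (hb : IsLevelConstant₁ (primeLocalToGlobal q) b)
    (hfb : ∀ σ τ, locVal L q f σ τ = σ • b τ - b (σ * τ) + b σ) :
    classCochain L f ∈ B2 (L ≃ₐ[ℚ] L) (IdeleClass L) := by
  obtain ⟨E, hE, hE', hle, hbE⟩ := exists_isConstAt (L := L) hb
  refine (classInfl_mem_B2_iff hle (f := classCochain L f) ?_).1 ?_
  · exact cochainMap2_mem_Z2 (A := Idele L) (B := IdeleClass L) (by intro g a; rfl) hf
  rw [classInfl_classCochain]
  exact classCochain_mem_B2 (mem_B2_of_locVal_eq_d1_const (ideleInfl_mem_Z2 hle hf)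
    (ideleInfl_mem_primeIdeles hle hval) hbE fun σ τ => by rw [locVal_ideleInfl]; exact hfb σ τ)

section existence

variable {L : IntermediateField ℚ (AlgebraicClosure ℚ)} [NumberField L] [IsGalois ℚ L]
  {q : Nat.Primes}

/-- Local cocycles at a level are values of idele cocycles supported at `q`. -/
theorem exists_locVal_eq {c : primeLocalGaloisGroup q → primeLocalGaloisGroup q → QUnits q}
    (hl : ∀ τ, IsConstAt L q fun σ => c σ τ) (hr : ∀ σ, IsConstAt L q (c σ))
    (hfix : ∀ σ τ s, locTo L q s = 1 → s • c σ τ = c σ τ)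
    (hc : ∀ σ τ ρ, σ • c τ ρ + c σ (τ * ρ) = c (σ * τ) ρ + c σ τ) :
    ∃ f ∈ Z2 (L ≃ₐ[ℚ] L) (Idele L), (∀ t, f t ∈ primeIdeles L q) ∧
      ∀ σ τ, locVal L q f σ τ = c σ τ := by
  choose lift hlift using fun σ τ => exists_localPartVal_eq L q (hfix σ τ)
  have hsurj := locDecomp_surjective L q
  let z : decompGroup (stdEmb L q) × decompGroup (stdEmb L q) → localPart (stdEmb L q) := fun t =>
    lift (Function.surjInv hsurj t.1) (Function.surjInv hsurj t.2)
  have hz : ∀ σ τ, localPartVal (stdEmb L q) (z (locDecomp L q σ, locDecomp L q τ)) = c σ τ :=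
    fun σ τ => by
      rw [hlift]
      refine (IsConstAt.eq (hl _) (τ := σ) ?_).trans (IsConstAt.eq (hr σ) ?_)
      · exact congrArg Subtype.val (Function.surjInv_eq hsurj (locDecomp L q σ))
      · exact congrArg Subtype.val (Function.surjInv_eq hsurj (locDecomp L q τ))
  have hzZ : z ∈ Z2 (decompGroup (stdEmb L q)) (localPart (stdEmb L q)) :=
    mem_Z2_iff.2 fun d d' d'' => by
      obtain ⟨σ, rfl⟩ := hsurj d
      obtain ⟨τ, rfl⟩ := hsurj d'
      obtain ⟨ρ, rfl⟩ := hsurj d''
      refine localPartVal_injective (stdEmb L q) ?_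
      rw [← map_mul, ← map_mul, map_add, map_add, localPartVal_locDecomp, hz, hz, hz, hz, hc]
  obtain ⟨f, hf, hval, hfz⟩ := (primeIdeles_coinduced L q).h2_surjective hzZ
  refine ⟨f, hf, hval, fun σ τ => ?_⟩
  rw [← hz, ← hfz]
  exact (restrictPlace_apply (stdEmb L q) _ (Emb.SamePlace.refl _)).symm

end existence

end FermatLib.CFT.GWTate
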