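import Fermat.Agent.CFT.SecondLocal
import Fermat.Agent.CFT.LocalPowers

/-!
Value groups and `p`-th power indices in the completions, for the second inequality.
-/

set_option autoImplicit false
set_option linter.unusedSectionVars false

open NumberField

namespace FermatLib.CFT

variable {K : Type} [Field K] [NumberField K] {q : Nat.Primes} {p : ℕ} [Fact p.Prime]

instance Emb.completion_finite' (φ : Emb K q) :
    FiniteDimensional ℚ_[(q : ℕ)] (completion φ) := Emb.completion_finiteDimensional φ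

/-- `LocUnits` of the completion as values. -/
noncomputable def Emb.locUnitsHom (φ : Emb K q) : LocUnits (completion φ) →+ QUnits q where
  toFun x := QUnits.mk (x.el : PadicAlgCl (q : ℕ))
    (fun h => x.el_ne_zero (Subtype.ext (by simpa using h)))
  map_zero' := QUnits.toField_injective (by simp)
  map_add' x y := QUnits.toField_injective (by simp)

@[simp] theorem Emb.toField_locUnitsHom (φ : Emb K q) (x : LocUnits (completion φ)) :
    (φ.locUnitsHom x).toField = (x.el : PadicAlgCl (q : ℕ)) := rfl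

theorem Emb.locUnitsHom_injective (φ : Emb K q) : Function.Injective φ.locUnitsHom :=
  fun _ _ h => LocUnits.ext' (Subtype.ext (congrArg QUnits.toField h))

theorem Emb.range_locUnitsHom (φ : Emb K q) : φ.locUnitsHom.range = φ.localUnits := by
  ext z
  constructor
  · rintro ⟨x, rfl⟩
    exact x.el.2
  · intro hz
    exact ⟨LocUnits.mk0 ⟨z.toField, hz⟩ (fun h => z.toField_ne_zero (congrArg Subtype.val h)),
      QUnits.toField_injective rfl⟩

theorem Emb.locUnitsHom_mem_unitGroup_iff (φ : Emb K q) (x : LocUnits (completion φ)) :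
    φ.locUnitsHom x ∈ QUnits.unitGroup q ↔ x ∈ Loc.unitGroup (completion φ) := by
  rw [QUnits.mem_unitGroup_iff, Emb.toField_locUnitsHom, Loc.mem_unitGroup]
  exact Iff.rfl

theorem Emb.exists_local_uniformizer (φ : Emb K q) :
    ∃ π ∈ φ.localUnits, ∀ z ∈ φ.localUnits, ∃ n : ℤ, z - n • π ∈ QUnits.unitGroup q := by
  obtain ⟨u, hu⟩ := Loc.ord_surjective (completion φ) 1
  have hu' : φ.locUnitsHom u ∈ φ.localUnits := u.el.2
  refine ⟨φ.locUnitsHom u, hu', fun z hz => ?_⟩
  have hz' : z ∈ φ.locUnitsHom.range := by rw [φ.range_locUnitsHom]; exact hz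
  obtain ⟨x, hx⟩ := hz'
  refine ⟨Loc.ord (completion φ) x, ?_⟩
  have h0 : Loc.ord (completion φ) (x - Loc.ord (completion φ) x • u) = 0 := by
    rw [map_sub, map_zsmul, hu, smul_eq_mul, mul_one, sub_self]
  have h1 := (φ.locUnitsHom_mem_unitGroup_iff _).2 (AddMonoidHom.mem_ker.2 h0)
  rw [map_sub, map_zsmul, hx] at h1
  exact h1

theorem Emb.powUnits_eq_map (φ : Emb K q) :
    φ.powUnits p = (nsmulAddMonoidHom p :
      LocUnits (completion φ) →+ LocUnits (completion φ)).range.map φ.locUnitsHom := by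
  rw [Emb.powUnits, ← φ.range_locUnitsHom, AddMonoidHom.map_range, AddMonoidHom.map_range]
  congr 1
  ext x
  simp

theorem natCard_pow_roots_le (φ : Emb K q) :
    Nat.card {x : completion φ // x ^ p = 1} ≤ p ∧
      0 < Nat.card {x : completion φ // x ^ p = 1} := by
  classical
  have h : Set.Finite {x : completion φ | x ^ p = 1} :=
    (Polynomial.nthRoots p (1 : completion φ)).toFinset.finite_toSet.subset fun x hx => by
      rw [Finset.mem_coe, Multiset.mem_toFinset,
        Polynomial.mem_nthRoots (Fact.out : p.Prime).pos]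
      exact hx
  have : Finite {x : completion φ // x ^ p = 1} := h.to_subtype
  refine ⟨?_, Nat.card_pos_iff.2 ⟨⟨⟨1, one_pow p⟩⟩, this⟩⟩
  have hle : Nat.card {x : completion φ // x ^ p = 1} ≤
      Nat.card ((Polynomial.nthRoots p (1 : completion φ)).toFinset : Set (completion φ)) :=
    Nat.card_le_card_of_injective
      (fun x => ⟨x.1, by
        rw [Finset.mem_coe, Multiset.mem_toFinset,
          Polynomial.mem_nthRoots (Fact.out : p.Prime).pos]
        exact x.2⟩)
      (fun a b hab => Subtype.ext (congrArg (fun t => t.1) hab))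
  refine hle.trans ?_
  rw [Nat.card_coe_set_eq, Set.ncard_coe_finset]
  exact (Multiset.toFinset_card_le _).trans (Polynomial.card_nthRoots p 1)

/-- The index of the `p`-th powers. -/
theorem Emb.relIndex_powUnits (φ : Emb K q) :
    0 < (φ.powUnits p).relIndex φ.localUnits ∧
      (φ.powUnits p).relIndex φ.localUnits ≤ p * p *
        (if p = (q : ℕ) then (q : ℕ) ^ Module.finrank ℚ_[(q : ℕ)] (completion φ) else 1) := by
  have h1 : (φ.powUnits p).relIndex φ.localUnits =
      (nsmulAddMonoidHom p : LocUnits (completion φ) →+ LocUnits (completion φ)).range.index := by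
    rw [φ.powUnits_eq_map, ← φ.range_locUnitsHom, φ.locUnitsHom.range_eq_map,
      AddSubgroup.relIndex_map_map_of_injective _ _ φ.locUnitsHom_injective,
      AddSubgroup.relIndex_top_right]
  have h2 : (nsmulAddMonoidHom p : LocUnits (completion φ) →+ LocUnits (completion φ)).range.index =
      Nat.card ((↥(completion φ))ˣ ⧸ (powMonoidHom p : (↥(completion φ))ˣ →* _).range) := by
    rw [← Subgroup.index_eq_card, ← Subgroup.index_toAddSubgroup]
    rfl
  rw [h1, h2, Loc.natCard_powQuotient (completion φ) p]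
  obtain ⟨hle, hpos⟩ := natCard_pow_roots_le (p := p) φ
  refine ⟨?_, Nat.mul_le_mul_right _ (Nat.mul_le_mul_right _ hle)⟩
  refine Nat.mul_pos (Nat.mul_pos hpos (Fact.out : p.Prime).pos) ?_
  split
  · exact pow_pos q.2.pos _
  · exact one_pos

/-- Modulo `p`-th powers the units are generated by any nonpower unit, for `q ≠ p`. -/
theorem Emb.exists_nsmul_sub_mem_powUnits (hqp : (q : ℕ) ≠ p) (φ : Emb K q) {x y : QUnits q}
    (hx : x ∈ φ.localUnits) (hxu : x ∈ QUnits.unitGroup q) (hxn : x ∉ φ.powUnits p)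
    (hy : y ∈ φ.localUnits) (hyu : y ∈ QUnits.unitGroup q) :
    ∃ n : ℕ, y - n • x ∈ φ.powUnits p := by
  classical
  have hp : p.Prime := Fact.out
  rw [← φ.range_locUnitsHom] at hx hy
  obtain ⟨x, rfl⟩ := hx
  obtain ⟨y, rfl⟩ := hy
  rw [φ.locUnitsHom_mem_unitGroup_iff] at hxu hyu
  let U := Loc.unitGroup (completion φ)
  let P : AddSubgroup U := (nsmulAddMonoidHom p : U →+ U).range
  have hcard : Nat.card (U ⧸ P) ≤ p := by
    rw [Loc.natCard_unitGroup_powQuotient (completion φ) p, if_neg (fun h => hqp h.symm), mul_one]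
    exact (natCard_pow_roots_le φ).1
  have hpos : 0 < Nat.card (U ⧸ P) := by
    rw [Loc.natCard_unitGroup_powQuotient (completion φ) p, if_neg (fun h => hqp h.symm), mul_one]
    exact (natCard_pow_roots_le φ).2
  have : Finite (U ⧸ P) := (Nat.card_pos_iff.1 hpos).2
  let x' : U := ⟨x, hxu⟩
  let y' : U := ⟨y, hyu⟩
  have hx0 : (x' : U ⧸ P) ≠ 0 := by
    rw [Ne, QuotientAddGroup.eq_zero_iff]
    rintro ⟨w, hw⟩
    refine hxn ?_
    rw [φ.powUnits_eq_map]
    exact ⟨x, ⟨(w : LocUnits (completion φ)), congrArg Subtype.val hw⟩, rfl⟩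
  have hord : addOrderOf (x' : U ⧸ P) = p := by
    refine addOrderOf_eq_prime ?_ hx0
    rw [← QuotientAddGroup.mk_nsmul, QuotientAddGroup.eq_zero_iff]
    exact ⟨x', rfl⟩
  have htop : AddSubgroup.zmultiples (x' : U ⧸ P) = ⊤ :=
    AddSubgroup.eq_top_of_le_card _ (by rw [Nat.card_zmultiples, hord]; exact hcard)
  have hy' : (y' : U ⧸ P) ∈ AddSubgroup.zmultiples (x' : U ⧸ P) := htop ▸ AddSubgroup.mem_top _
  rw [← mem_multiples_iff_mem_zmultiples] at hy'
  obtain ⟨n, hn⟩ := AddSubmonoid.mem_multiples_iff _ _ |>.1 hy'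
  refine ⟨n, ?_⟩
  rw [← QuotientAddGroup.mk_nsmul, QuotientAddGroup.eq] at hn
  obtain ⟨w, hw⟩ := hn
  rw [φ.powUnits_eq_map, ← map_nsmul, ← map_sub]
  refine ⟨_, ⟨(w : LocUnits (completion φ)), ?_⟩, rfl⟩
  have e := congrArg Subtype.val hw
  simp only [nsmulAddMonoidHom_apply, AddSubgroup.coe_nsmul, AddSubgroup.coe_add,
    AddSubgroup.coe_neg] at e ⊢
  rw [e]
  simp [x', y', sub_eq_add_neg, add_comm]

end FermatLib.CFT
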