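import Fermat.Agent.CFT.GWLocEulerKummer
import Fermat.Agent.CFT.GWTateLocal
import Fermat.Agent.CFT.SecondLocalCount
import Fermat.Agent.CFT.IdeleUnramified
import Fermat.Agent.CFT.GWGlobUnits

/-!
Finiteness of continuous local classes of the dual twist: a class is determined, up to the
finitely many classes of the level, by values modulo `p`-th powers in the completion.
-/

set_option autoImplicit false
set_option maxSynthPendingDepth 3

open CategoryTheory groupCohomology ExtCitation NumberField

namespace FermatLib.CFT.GWLocFinite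

open GWKummer

local notation "Γℚ" => AlgebraicClosure ℚ ≃ₐ[ℚ] AlgebraicClosure ℚ
local notation "Qbar" => AlgebraicClosure ℚ

variable {p : ℕ} [Fact p.Prime] (M : Rep (ZMod p) (AlgebraicClosure ℚ ≃ₐ[ℚ] AlgebraicClosure ℚ))

/-- A finite smooth module is unramified outside a finite set of primes containing `p`. -/
theorem exists_unramifiedOutside [FiniteDimensional (ZMod p) M]
    (hsm : ∀ m : M, ∃ F : IntermediateField ℚ (AlgebraicClosure ℚ), FiniteDimensional ℚ F ∧
      ∀ s ∈ F.fixingSubgroup, M.ρ s m = m) :
    ∃ S : Finset Nat.Primes, pPrime p ∈ S ∧ GWUnramifiedOutside M S := by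
  classical
  let b := Module.finBasis (ZMod p) M
  choose Fm hFm hFm' using fun k => hsm (b k)
  haveI : ∀ k, FiniteDimensional ℚ (Fm k) := hFm
  haveI : FiniteDimensional ℚ (⨆ k, Fm k : IntermediateField ℚ Qbar) :=
    IntermediateField.finiteDimensional_iSup_of_finite
  obtain ⟨F, _, _, hle⟩ := GWTate.exists_galois_above (⨆ k, Fm k)
  obtain ⟨T, hT⟩ := exists_unramified_outside F
  refine ⟨insert (pPrime p) T, Finset.mem_insert_self _ _, fun q hq A hA g hg => ?_⟩
  have hur : F.IsUnramifiedOutside T := (isUnramifiedOutside_iff F T).2 fun r hr => hT r hr ⊤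
  have hgF := hur.2 q (fun h => hq (Finset.mem_insert_of_mem h)) A hA hg
  refine b.ext fun k => ?_
  exact hFm' k g (IntermediateField.fixingSubgroup_antitone ((le_iSup Fm k).trans hle) hgF)

variable {M} {S : Finset Nat.Primes} (D : Level M S)
  {ζ : AlgebraicClosure ℚ} (hζ : IsPrimitiveRoot ζ p)
  {ι : Type} [Fintype ι] {v : ι → D.Mod} (q : Nat.Primes)

local notation "M'" => M.dualTwist (cycloChar p)

/-- The classes of the cocycles which only depend on the level. -/
def levelClasses : Set (H1 (Rep.res (primeLocalToGlobal q) M')) :=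
  {w | ∃ c : cocycles₁ (Rep.res (primeLocalToGlobal q) M'),
    (∀ σ t, locRes D q t = 1 → c (σ * t) = c σ) ∧ (H1π _).hom c = w}

theorem finite_levelClasses [FiniteDimensional (ZMod p) M] : (levelClasses D q).Finite := by
  classical
  haveI : Finite (Module.Dual (ZMod p) M) := Module.finite_of_finite (ZMod p)
  let R : cocycles₁ (Rep.res (primeLocalToGlobal q) M') → D.Gal → Module.Dual (ZMod p) M :=
    fun c d => if h : ∃ σ, locRes D q σ = d then (c h.choose : Module.Dual (ZMod p) M) else 0
  let C : Set (cocycles₁ (Rep.res (primeLocalToGlobal q) M')) :=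
    {c | ∀ σ t, locRes D q t = 1 → c (σ * t) = c σ}
  have hC : C.Finite := by
    refine Set.Finite.of_finite_image (f := R) (Set.toFinite _) fun c hc c' hc' h => ?_
    refine cocycles₁_ext fun σ => ?_
    have hd : ∃ σ', locRes D q σ' = locRes D q σ := ⟨σ, rfl⟩
    have e : ∀ a : cocycles₁ (Rep.res (primeLocalToGlobal q) M'),
        (∀ s t, locRes D q t = 1 → a (s * t) = a s) → a hd.choose = a σ := fun a ha => by
      conv_lhs => rw [← mul_inv_cancel_left σ hd.choose]
      exact ha σ _ (by rw [map_mul, map_inv, hd.choose_spec, inv_mul_cancel])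
    have h1 := congrFun h (locRes D q σ)
    simp only [R, dif_pos hd] at h1
    rw [← e c hc, ← e c' hc']
    exact h1
  refine (hC.image fun c => (H1π (Rep.res (primeLocalToGlobal q) M')).hom c).subset ?_
  rintro w ⟨c, hc, rfl⟩
  exact ⟨c, hc, rfl⟩

include hζ in
/-- An element killed by `p` at the standard place is fixed by the automorphisms trivial on the
level. -/
theorem smul_eq_of_nsmul_eq_zero {z : QUnits q} (hz : p • z = 0) {t : primeLocalGaloisGroup q}
    (ht : locRes D q t = 1) : t • z = z := by
  haveI : NeZero p := ⟨(Fact.out : p.Prime).ne_zero⟩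
  have hzp : z.toField ^ p = 1 := by
    have := congrArg QUnits.toField hz
    simpa [QUnits.toField, toMul_nsmul] using this
  obtain ⟨i, -, hi⟩ :=
    (hζ.map_of_injective (padicEmbedding (q : ℕ)).toRingHom.injective).eq_pow_of_pow_eq_one hzp
  have e : toQUnits q (rootHom hζ (i : ZMod p)) = z := QUnits.toField_injective (by
    rw [toField_toQUnits, rootHom_natCast, QbarU.el_nsmul, el_rootU, map_pow]
    exact hi)
  rw [← e, ← toQUnits_smul, smul_rootHom,
    D.cyclo _ ((D.res_eq_one_iff _).1 ht), Units.val_one, one_mul]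

/-- The values of a map at the multiples by `p` of the generators, modulo `p`-th powers. -/
theorem locVal_mem_localUnits
    (h : equivHom D.Gal (presKer (G := D.Gal) v) (primeIdeles D.field q))
    (x : presKer (G := D.Gal) v) : GWLocEuler.locVal D q h x ∈ (stdEmb D.field q).localUnits := by
  rw [← (stdEmb D.field q).range_locUnitsHom]
  refine ⟨completionComp (stdEmb D.field q)
    ((h : presKer (G := D.Gal) v →+ primeIdeles D.field q) x : Idele D.field), ?_⟩
  exact QUnits.toField_injective ((Emb.toField_locUnitsHom _ _).trans (completionComp_el _ _))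

include hζ in
/-- A map with all those values `p`-th powers has its class among the classes of the level. -/
theorem mem_levelClasses_of_powUnits (hv : Function.Surjective (presMap (G := D.Gal) v))
    {h : equivHom D.Gal (presKer (G := D.Gal) v) (primeIdeles D.field q)}
    (hh : ∀ i g, GWLocEuler.locVal D q h
      ⟨p • presSingle i g, nsmul_mem_presKer D.nsmul_mod _⟩ ∈ (stdEmb D.field q).powUnits p)
    {w : H1 (Rep.res (primeLocalToGlobal q) M')} (hw : GWLocEuler.LocRel D hζ q h w) :
    w ∈ levelClasses D q := by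
  obtain ⟨c, -, ⟨e, he, hec⟩, rfl⟩ := hw
  refine ⟨c, fun σ t ht => ?_, rfl⟩
  have hfix : ∀ i g, t • e (presSingle i g) = e (presSingle i g) := by
    intro i g
    obtain ⟨u, hu, hup⟩ := hh i g
    have hu' : t • u = u := by
      refine QUnits.toField_injective ?_
      have hmem : u.toField ∈ localField (⊥ : Subgroup D.Gal) (stdEmb D.field q) :=
        (completion_eq_localField_bot (stdEmb D.field q)) ▸ hu
      exact (mem_localField_iff _ _ _).1 hmem t
        ⟨1, Subgroup.one_mem _, (stdEmb_postComp D q t).trans (congrArg _ ht)⟩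
    have hz : p • (e (presSingle i g) - u) = 0 := by
      rw [smul_sub, ← map_nsmul, he ⟨p • presSingle i g, nsmul_mem_presKer D.nsmul_mod _⟩]
      exact sub_eq_zero.2 hup.symm
    have := smul_eq_of_nsmul_eq_zero D hζ q hz ht
    rw [smul_sub, hu', sub_left_inj] at this
    exact this
  have ht' : ∀ b, t • e b = e b := fun b => DFunLike.congr_fun (free_ext
    (F := (DistribSMul.toAddMonoidHom (QUnits q) t).comp e) (F' := e) hfix) b
  refine muMap_injective D hζ (AddMonoidHom.ext fun x => toQUnits_injective q ?_)
  obtain ⟨b, rfl⟩ := hv x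
  show dualFamily D hζ (toQUnits q) (c : primeLocalGaloisGroup q → M') (σ * t) _ =
    dualFamily D hζ (toQUnits q) (c : primeLocalGaloisGroup q → M') σ _
  rw [hec, hec, map_mul, ht, mul_one, mul_smul, ht']

/-- The local units modulo `p`-th powers form a finite group. -/
theorem finite_units_mod_pow (φ : Emb D.field q) :
    Finite (φ.localUnits ⧸ (φ.powUnits p).addSubgroupOf φ.localUnits) := by
  have h := (Emb.relIndex_powUnits (p := p) φ).1
  exact Nat.finite_of_card_ne_zero (by
    rw [← AddSubgroup.index_eq_card]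
    exact h.ne')

include D in
/-- The continuous classes of the dual twist at `q` form a finite set. -/
theorem finite_continuousH1_dualTwist [FiniteDimensional (ZMod p) M] {ζ : AlgebraicClosure ℚ}
    (hζ : IsPrimitiveRoot ζ p) :
    (continuousH1 (primeLocalToGlobal q) (Rep.res (primeLocalToGlobal q) M') :
      Set (H1 (Rep.res (primeLocalToGlobal q) M'))).Finite := by
  classical
  haveI := Fintype.ofFinite D.Mod
  let v : D.Mod → D.Mod := id
  have hv : Function.Surjective (presMap (G := D.Gal) v) := fun x => ⟨presSingle x 1, by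
    rw [presMap_presSingle, one_smul]; rfl⟩
  set φ := stdEmb D.field q
  haveI := finite_units_mod_pow (p := p) D q φ
  let T : equivHom D.Gal (presKer (G := D.Gal) v) (primeIdeles D.field q) →
      (D.Mod × D.Gal → φ.localUnits ⧸ (φ.powUnits p).addSubgroupOf φ.localUnits) := fun h k =>
    QuotientAddGroup.mk ⟨GWLocEuler.locVal D q h
      ⟨p • presSingle k.1 k.2, nsmul_mem_presKer D.nsmul_mod _⟩, locVal_mem_localUnits D q h _⟩
  let cls := GWLocEuler.locClass D hζ q hv
  let sec : (D.Mod × D.Gal → φ.localUnits ⧸ (φ.powUnits p).addSubgroupOf φ.localUnits) →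
      H1 (Rep.res (primeLocalToGlobal q) M') := fun t =>
    if h : ∃ h, T h = t then cls h.choose else 0
  refine ((Set.finite_range sec).image2 (· + ·) (finite_levelClasses D q)).subset fun w hw => ?_
  have hw' : w ∈ (cls).range := (GWLocEuler.range_locClass D hζ q hv) ▸ hw
  obtain ⟨h, rfl⟩ := hw'
  have hex : ∃ h', T h' = T h := ⟨h, rfl⟩
  refine ⟨cls hex.choose, ⟨T h, dif_pos hex⟩, cls (h - hex.choose), ?_, ?_⟩
  · refine mem_levelClasses_of_powUnits D hζ q hv (fun i g => ?_)
      (GWLocEuler.locClass_spec D hζ q hv _)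
    have h1 := (QuotientAddGroup.eq.1 (congrFun hex.choose_spec (i, g)))
    rw [AddSubgroup.mem_addSubgroupOf] at h1
    have e : GWLocEuler.locVal D q (h - hex.choose)
        ⟨p • presSingle i g, nsmul_mem_presKer D.nsmul_mod _⟩ =
      -GWLocEuler.locVal D q hex.choose ⟨p • presSingle i g, nsmul_mem_presKer D.nsmul_mod _⟩ +
        GWLocEuler.locVal D q h ⟨p • presSingle i g, nsmul_mem_presKer D.nsmul_mod _⟩ := by
      rw [GWLocEuler.locVal_apply, GWLocEuler.locVal_apply, GWLocEuler.locVal_apply,
        neg_add_eq_sub, ← map_sub]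
      rfl
    rw [e]
    exact h1
  · beta_reduce
    rw [map_sub, add_sub_cancel]

/-- The continuous classes of the dual twist at `q` are finite-dimensional. -/
theorem finiteDimensional_continuousH1_dualTwist
    (M : Rep (ZMod p) (AlgebraicClosure ℚ ≃ₐ[ℚ] AlgebraicClosure ℚ)) [FiniteDimensional (ZMod p) M]
    (hsm : ∀ m : M, ∃ F : IntermediateField ℚ (AlgebraicClosure ℚ), FiniteDimensional ℚ F ∧
      ∀ s ∈ F.fixingSubgroup, M.ρ s m = m) (q : Nat.Primes) :
    FiniteDimensional (ZMod p) (continuousH1 (primeLocalToGlobal q)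
      (Rep.res (primeLocalToGlobal q) (M.dualTwist (cycloChar p)))) := by
  haveI : NeZero p := ⟨(Fact.out : p.Prime).ne_zero⟩
  obtain ⟨S, hpS, hur⟩ := exists_unramifiedOutside M hsm
  obtain ⟨D⟩ := exists_level hsm hpS hur
  obtain ⟨ζ, hζ⟩ := HasEnoughRootsOfUnity.exists_primitiveRoot (AlgebraicClosure ℚ) p
  haveI : Finite ↥(continuousH1 (primeLocalToGlobal q)
      (Rep.res (primeLocalToGlobal q) (M.dualTwist (cycloChar p)))) :=
    (finite_continuousH1_dualTwist D q hζ).to_subtype
  exact Module.Finite.of_finite

end FermatLib.CFT.GWLocFinite
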