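import Fermat.Agent.CFT.GWLocNondeg
import Fermat.Agent.CFT.GWLocFinite
import Fermat.Agent.CFT.GWUnrDim

/-!
Perfectness of local pairings given by the invariant of cup products (finiteness from
`GWLocFinite`).

The right kernel is treated with the cup product of the dual twist and its own dual twist, which is
`M` again: the two cup products differ in sign up to a coboundary.
-/

set_option autoImplicit false

open CategoryTheory groupCohomology ExtCitation NumberField

namespace FermatLib.CFT.GWLocPerf

open GWKummer GWTate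

local notation "Γℚ" => AlgebraicClosure ℚ ≃ₐ[ℚ] AlgebraicClosure ℚ
local notation "Qbar" => AlgebraicClosure ℚ

variable {p : ℕ} [Fact p.Prime] {M : Rep (ZMod p) Γℚ}

local notation "M'" => M.dualTwist (cycloChar p)

/-- The dual twist of a smooth finite module is smooth. -/
theorem smooth_dualTwist [FiniteDimensional (ZMod p) M]
    (hsm : ∀ m : M, ∃ F : IntermediateField ℚ (AlgebraicClosure ℚ), FiniteDimensional ℚ F ∧
      ∀ s ∈ F.fixingSubgroup, M.ρ s m = m) (f : M') :
    ∃ F : IntermediateField ℚ (AlgebraicClosure ℚ), FiniteDimensional ℚ F ∧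
      ∀ s ∈ F.fixingSubgroup, (M').ρ s f = f := by
  have : NeZero p := ⟨(Fact.out : p.Prime).ne_zero⟩
  obtain ⟨F, hF, hFm⟩ := GWUnr.exists_level M hsm
  obtain ⟨Fp, hFp, hFp'⟩ := Galois.exists_finite_level_modCycloChar p
  have := hF
  have := hFp
  refine ⟨F ⊔ Fp, IntermediateField.finiteDimensional_sup F Fp, fun s hs => ?_⟩
  refine (Rep.dualTwist_ρ_apply M (cycloChar p) s f).trans ?_
  rw [← Galois.modCycloChar_eq_cycloChar p,
    hFp' s (IntermediateField.fixingSubgroup_antitone le_sup_right hs), Units.val_one, one_smul]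
  exact LinearMap.ext fun m => congrArg (fun v => (f : Module.Dual (ZMod p) M) v)
    (hFm s⁻¹ (inv_mem (IntermediateField.fixingSubgroup_antitone le_sup_left hs)) m)

/-- Evaluation is equivariant into the twice twisted dual. -/
theorem bidual_ρ (σ : Γℚ) (m : M) (f : Module.Dual (ZMod p) M) :
    ((((M').dualTwist (cycloChar p)).ρ σ (Module.Dual.eval (ZMod p) M m)) :
        Module.Dual (ZMod p) (Module.Dual (ZMod p) M)) f = f (M.ρ σ m) := by
  show (cycloChar p σ : ZMod p) * (((cycloChar p σ⁻¹ : (ZMod p)ˣ) : ZMod p) *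
    f (M.ρ σ⁻¹⁻¹ m)) = _
  rw [inv_inv, map_inv (cycloChar p), ← mul_assoc, Units.mul_inv, one_mul]

variable {q : Nat.Primes}

/-- A cocycle of the twice twisted dual is minus the evaluation of a cocycle of `M`. -/
theorem exists_bidual_preimage [FiniteDimensional (ZMod p) M] (z : LocDualCocycles (M') q)
    (hz : IsLevelConstant₁ (primeLocalToGlobal q) z) :
    ∃ x : LocCocycles M q, IsLevelConstant₁ (primeLocalToGlobal q) x ∧
      ∀ σ (f : Module.Dual (ZMod p) M),
        (z σ : Module.Dual (ZMod p) (Module.Dual (ZMod p) M)) f = -f (x σ) := by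
  let E := Module.evalEquiv (ZMod p) M
  let xf : primeLocalGaloisGroup q → M := fun σ =>
    -E.symm (z σ : Module.Dual (ZMod p) (Module.Dual (ZMod p) M))
  have hE : ∀ σ (f : Module.Dual (ZMod p) M),
      (z σ : Module.Dual (ZMod p) (Module.Dual (ZMod p) M)) f = -f (xf σ) := fun σ f => by
    rw [map_neg, neg_neg]
    exact (Module.apply_evalEquiv_symm_apply (ZMod p) M f
      (z σ : Module.Dual (ZMod p) (Module.Dual (ZMod p) M))).symm
  have hmem : xf ∈ cocycles₁ (Rep.res (primeLocalToGlobal q) M) :=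
    (mem_cocycles₁_iff (A := Rep.res (primeLocalToGlobal q) M) _).2 fun σ τ => by
      show xf (σ * τ) = M.ρ (primeLocalToGlobal q σ) (xf τ) + xf σ
      refine E.injective (LinearMap.ext fun f => ?_)
      show f (xf (σ * τ)) = f (M.ρ (primeLocalToGlobal q σ) (xf τ) + xf σ)
      rw [map_add, ← neg_inj, neg_add, ← hE, ← hE, ← bidual_ρ (primeLocalToGlobal q σ) (xf τ) f]
      have h := congrArg (fun η : Module.Dual (ZMod p) (Module.Dual (ZMod p) M) => η f)
        ((mem_cocycles₁_iff (A := Rep.res (primeLocalToGlobal q) ((M').dualTwist (cycloChar p)))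
          z.1).1 z.2 σ τ)
      refine h.trans (congrArg (· + (z σ : Module.Dual (ZMod p) (Module.Dual (ZMod p) M)) f) ?_)
      have e : (z τ : Module.Dual (ZMod p) (Module.Dual (ZMod p) M)) =
          -(Module.Dual.eval (ZMod p) M (xf τ)) :=
        LinearMap.ext fun g => (hE τ g).trans rfl
      show (((M').dualTwist (cycloChar p)).ρ (primeLocalToGlobal q σ)
        (z τ : Module.Dual (ZMod p) (Module.Dual (ZMod p) M)) :
          Module.Dual (ZMod p) (Module.Dual (ZMod p) M)) f = _
      rw [e, map_neg]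
      rfl
  refine ⟨⟨xf, hmem⟩, ?_, hE⟩
  exact hz.comp fun η : Module.Dual (ZMod p) (Module.Dual (ZMod p) M) => -E.symm η

/-- The two cup products differ by a coboundary. -/
theorem cupAt_flip {x : LocCocycles M q} {y : LocDualCocycles M q}
    {z : LocDualCocycles (M') q}
    (hz : ∀ σ (f : Module.Dual (ZMod p) M),
      (z σ : Module.Dual (ZMod p) (Module.Dual (ZMod p) M)) f = -f (x σ))
    (σ τ : primeLocalGaloisGroup q) :
    cupAt (M := M') y z σ τ = cupAt x y σ τ +
      twD1 q (fun σ => (y σ : Module.Dual (ZMod p) M) (x σ)) σ τ := by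
  have e : cupAt (M := M') y z σ τ = -(locChi p q σ *
      (y τ : Module.Dual (ZMod p) M) (M.ρ (primeLocalToGlobal q σ)⁻¹ (x σ))) :=
    (hz σ _).trans rfl
  rw [e, cupAt_def, twD1]
  rw [dual_cocycle_apply, loc_cocycle x σ τ, map_add (M.ρ (primeLocalToGlobal q σ)⁻¹),
    rho_inv_apply, map_add (y τ : Module.Dual (ZMod p) M), map_add (y σ : Module.Dual (ZMod p) M)]
  ring

variable {ζ : AlgebraicClosure ℚ} {hζ : IsPrimitiveRoot ζ p}
  {Bfin : ∀ q : Nat.Primes, LocalPairing M (primeLocalToGlobal q)}
  {Binf : LocalPairing M archimedeanLoc}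

/-- The pairings take the invariant of the cup product as value. -/
theorem eq_of_isInv (hT : TateCompat M hζ Bfin Binf) {x : LocCocycles M q}
    {y : LocDualCocycles M q} (hx : IsLevelConstant₁ (primeLocalToGlobal q) x)
    (hy : IsLevelConstant₁ (primeLocalToGlobal q) y) {a : ZMod p}
    (h : IsInv hζ q (cupAt x y) a) : Bfin q ((H1π _).hom x) ((H1π _).hom y) = a := by
  obtain ⟨L, _, _, f, Z, b, hf, hval, hZ, hb, hfb, rfl⟩ := h
  exact (hT.fin L q f Z hf hval hZ x y b hx hy hb hfb).symm

variable [FiniteDimensional (ZMod p) M]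
  (hsm : ∀ m : M, ∃ F : IntermediateField ℚ (AlgebraicClosure ℚ), FiniteDimensional ℚ F ∧
    ∀ s ∈ F.fixingSubgroup, M.ρ s m = m)

include hsm in
/-- Trivial left kernel on continuous classes. -/
theorem eq_zero_of_left (hT : TateCompat M hζ Bfin Binf)
    {w : H1 (Rep.res (primeLocalToGlobal q) M)}
    (hw : w ∈ continuousH1 (primeLocalToGlobal q) (Rep.res (primeLocalToGlobal q) M))
    (h : ∀ y ∈ continuousH1 (primeLocalToGlobal q) (Rep.res (primeLocalToGlobal q) M'),
      Bfin q w y = 0) : w = 0 := by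
  obtain ⟨x, hx, rfl⟩ := (mem_continuousH1_iff _ _ _).1 hw
  by_contra hne
  obtain ⟨S, hpS, hur⟩ := GWLocFinite.exists_unramifiedOutside M hsm
  obtain ⟨D⟩ := GWKummer.exists_level hsm hpS hur
  obtain ⟨y, hy, a, ha, hinv⟩ := exists_dual_cup_ne D hζ q x hx hne
  exact ha ((eq_of_isInv hT hx hy hinv).symm.trans (h _ (H1π_mem_continuousH1 _ _ hy)))

include hsm in
/-- Trivial right kernel on continuous classes. -/
theorem eq_zero_of_right (hT : TateCompat M hζ Bfin Binf)
    {w : H1 (Rep.res (primeLocalToGlobal q) M')}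
    (hw : w ∈ continuousH1 (primeLocalToGlobal q) (Rep.res (primeLocalToGlobal q) M'))
    (h : ∀ x ∈ continuousH1 (primeLocalToGlobal q) (Rep.res (primeLocalToGlobal q) M),
      Bfin q x w = 0) : w = 0 := by
  obtain ⟨y, hy, rfl⟩ := (mem_continuousH1_iff _ _ _).1 hw
  by_contra hne
  have hsm' := smooth_dualTwist hsm
  obtain ⟨S, hpS, hur⟩ := GWLocFinite.exists_unramifiedOutside (M') hsm'
  obtain ⟨D⟩ := GWKummer.exists_level hsm' hpS hur
  obtain ⟨z, hz, a, ha, hinv⟩ := exists_dual_cup_ne D hζ q y hy hne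
  obtain ⟨x, hx, hzx⟩ := exists_bidual_preimage z hz
  have hβ : IsLevelConstant₁ (primeLocalToGlobal q)
      (fun σ => (y σ : Module.Dual (ZMod p) M) (x σ)) := by
    obtain ⟨F, hF, hyF⟩ := hy
    obtain ⟨F', hF', hxF⟩ := hx
    have := hF
    have := hF'
    refine ⟨F ⊔ F', IntermediateField.finiteDimensional_sup F F', fun g s hs => ?_⟩
    show (y (g * s) : Module.Dual (ZMod p) M) (x (g * s)) = _
    rw [hyF g s (IntermediateField.fixingSubgroup_antitone le_sup_left hs),
      hxF g s (IntermediateField.fixingSubgroup_antitone le_sup_right hs)]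
  exact ha ((eq_of_isInv hT hx hy (hinv.congr _ hβ (cupAt_flip hzx))).symm.trans
    (h _ (H1π_mem_continuousH1 _ _ hx)))

include hsm in
/-- Any pairing given by the invariant of cup products is perfect on continuous classes. -/
theorem isPerfectOnContinuous_of_tateCompat (hT : TateCompat M hζ Bfin Binf) (q : Nat.Primes) :
    IsPerfectOnContinuous M (Bfin q) where
  finite_left := by
    have := GWLocFinite.finiteDimensional_continuousH1_dualTwist M hsm q
    let B := ((Bfin q).compl₂ (continuousH1 (primeLocalToGlobal q)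
      (Rep.res (primeLocalToGlobal q) M')).subtype).domRestrict
      (continuousH1 (primeLocalToGlobal q) (Rep.res (primeLocalToGlobal q) M))
    refine Module.Finite.of_injective B ((injective_iff_map_eq_zero B).2 fun w hw => ?_)
    exact Subtype.ext (eq_zero_of_left hsm hT w.2 fun y hy =>
      LinearMap.congr_fun hw ⟨y, hy⟩)
  finite_right := GWLocFinite.finiteDimensional_continuousH1_dualTwist M hsm q
  left _ hw h := eq_zero_of_left hsm hT hw h
  right _ hw h := eq_zero_of_right hsm hT hw h

end FermatLib.CFT.GWLocPerf
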