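import Fermat.Agent.CFT.GWUnrEuler

/-!
For a perfect pairing killing unramified classes these are mutual annihilators.
-/

set_option autoImplicit false
set_option linter.unusedSectionVars false

open CategoryTheory Module groupCohomology ExtCitation

namespace FermatLib.CFT.GWUnr

local notation "Γℚ" => (AlgebraicClosure ℚ ≃ₐ[ℚ] AlgebraicClosure ℚ)

section LinAlg

variable {k V W : Type*} [Field k] [AddCommGroup V] [Module k V] [AddCommGroup W] [Module k W]

/-- An isotropic pair of complementary dimension under a perfect pairing is a pair of mutual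
annihilators. -/
theorem annihilator_eq (B : V →ₗ[k] W →ₗ[k] k) (H : Submodule k V) (H' : Submodule k W)
    [FiniteDimensional k H] [FiniteDimensional k H']
    (hl : ∀ x ∈ H, (∀ y ∈ H', B x y = 0) → x = 0)
    (hr : ∀ y ∈ H', (∀ x ∈ H, B x y = 0) → y = 0)
    (U : Submodule k V) (U' : Submodule k W) (hU : U ≤ H) (hU' : U' ≤ H')
    (hiso : ∀ x ∈ U, ∀ y ∈ U', B x y = 0)
    (hdim : finrank k U + finrank k U' = finrank k H) :
    ∀ y ∈ H', (y ∈ U' ↔ ∀ x ∈ U, B x y = 0) := by
  let b : H →ₗ[k] Dual k H' := (H'.subtype.dualMap.comp B).comp H.subtype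
  have hb : Function.Injective b := (injective_iff_map_eq_zero b).2 fun x hx =>
    Subtype.ext (hl x x.2 fun y hy => LinearMap.congr_fun hx ⟨y, hy⟩)
  let b' : H' →ₗ[k] Dual k H := (H.subtype.dualMap.comp B.flip).comp H'.subtype
  have hb' : Function.Injective b' := (injective_iff_map_eq_zero b').2 fun y hy =>
    Subtype.ext (hr y y.2 fun x hx => LinearMap.congr_fun hy ⟨x, hx⟩)
  have hd : finrank k H = finrank k H' := by
    have h1 := LinearMap.finrank_le_finrank_of_injective hb
    have h2 := LinearMap.finrank_le_finrank_of_injective hb'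
    rw [Subspace.dual_finrank_eq] at h1 h2
    omega
  let Φ : Submodule k (Dual k H') := (U.comap H.subtype).map b
  have hΦ : finrank k Φ = finrank k U := by
    rw [← LinearEquiv.finrank_eq ((Submodule.equivMapOfInjective b hb _)),
      LinearEquiv.finrank_eq (Submodule.comapSubtypeEquivOfLe hU)]
  have hsub : U'.comap H'.subtype ≤ Φ.dualCoannihilator := fun y hy => by
    rw [Submodule.mem_dualCoannihilator]
    rintro _ ⟨x, hx, rfl⟩
    exact hiso x hx y hy
  have heq : U'.comap H'.subtype = Φ.dualCoannihilator := by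
    refine Submodule.eq_of_le_of_finrank_eq hsub ?_
    have h := Subspace.finrank_add_finrank_dualCoannihilator_eq Φ
    rw [LinearEquiv.finrank_eq (Submodule.comapSubtypeEquivOfLe hU')]
    rw [hΦ] at h
    omega
  intro y hy
  refine ⟨fun h x hx => hiso x hx y h, fun h => ?_⟩
  have hmem : (⟨y, hy⟩ : H') ∈ Φ.dualCoannihilator := by
    rw [Submodule.mem_dualCoannihilator]
    rintro _ ⟨x, hx, rfl⟩
    exact h x hx
  rw [← heq] at hmem
  exact hmem

end LinAlg

variable {p : ℕ} [Fact p.Prime] (M : Rep (ZMod p) Γℚ) [FiniteDimensional (ZMod p) M]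
  {q : Nat.Primes}
  (hsm : ∀ m : M, ∃ F : IntermediateField ℚ (AlgebraicClosure ℚ), FiniteDimensional ℚ F ∧
    ∀ s ∈ F.fixingSubgroup, M.ρ s m = m)

include hsm in
/-- Isotropy and perfectness give both annihilator statements. -/
theorem unramifiedIsOrthogonal_of_isotropic (B : LocalPairing M (primeLocalToGlobal q))
    (hB : IsPerfectOnContinuous M B)
    (hiso : (q : ℕ) ≠ p → ∀ x ∈ unramifiedClasses q M,
      ∀ y ∈ unramifiedClasses q (M.dualTwist (cycloChar p)), B x y = 0) :
    UnramifiedIsOrthogonal M q B := by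
  refine ⟨hiso, fun hq hur => ?_⟩
  obtain ⟨hsm', hur'⟩ := dualTwist_props M hsm hq hur
  have := hB.finite_left
  have := hB.finite_right
  have hU := finrank_unramifiedSub M hsm hur
  have hU' := finrank_unramifiedSub (M.dualTwist (cycloChar p)) hsm' hur'
  have hH := (finrank_continuousH1_of_unramified M hsm hq hur).2
  rw [← hU, ← hU'] at hH
  have h1 := annihilator_eq B _ _ hB.left hB.right (unramifiedSub q M)
    (unramifiedSub q (M.dualTwist (cycloChar p))) (unramifiedSub_le_continuousH1 q M)
    (unramifiedSub_le_continuousH1 q _) (fun x hx y hy => hiso hq x hx y hy) hH.symm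
  refine ⟨h1, fun x hx => ?_⟩
  let b : _ →ₗ[ZMod p] Dual (ZMod p)
      (continuousH1 (primeLocalToGlobal q) (Rep.res (primeLocalToGlobal q) M)) :=
    ((Submodule.subtype _).dualMap.comp B.flip).comp
      (continuousH1 (primeLocalToGlobal q)
        (Rep.res (primeLocalToGlobal q) (M.dualTwist (cycloChar p)))).subtype
  have hdim : finrank (ZMod p) (continuousH1 (primeLocalToGlobal q)
      (Rep.res (primeLocalToGlobal q) (M.dualTwist (cycloChar p)))) =
      finrank (ZMod p) (continuousH1 (primeLocalToGlobal q) (Rep.res (primeLocalToGlobal q) M)) := by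
    have h2 : Function.Injective b := (injective_iff_map_eq_zero b).2 fun y hy =>
      Subtype.ext (hB.right y y.2 fun x hx => LinearMap.congr_fun hy ⟨x, hx⟩)
    let c : _ →ₗ[ZMod p] Dual (ZMod p) (continuousH1 (primeLocalToGlobal q)
        (Rep.res (primeLocalToGlobal q) (M.dualTwist (cycloChar p)))) :=
      ((Submodule.subtype _).dualMap.comp B).comp
        (continuousH1 (primeLocalToGlobal q) (Rep.res (primeLocalToGlobal q) M)).subtype
    have h3 : Function.Injective c := (injective_iff_map_eq_zero c).2 fun x hx =>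
      Subtype.ext (hB.left x x.2 fun y hy => LinearMap.congr_fun hx ⟨y, hy⟩)
    have h2' := LinearMap.finrank_le_finrank_of_injective h2
    have h3' := LinearMap.finrank_le_finrank_of_injective h3
    rw [Subspace.dual_finrank_eq] at h2' h3'
    omega
  have h4 := annihilator_eq B.flip _ _ hB.right hB.left (unramifiedSub q (M.dualTwist (cycloChar p)))
    (unramifiedSub q M) (unramifiedSub_le_continuousH1 q _) (unramifiedSub_le_continuousH1 q M)
    (fun y hy x hx => hiso hq x hx y hy) (by omega) x hx
  exact h4

end FermatLib.CFT.GWUnr
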