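import Fermat.Agent.CFT.IdeleDefs

/-!
Elementary properties of embeddings, values and principal ideles.
-/

set_option autoImplicit false

open NumberField

namespace FermatLib.CFT

variable {q : Nat.Primes}

/-- The underlying element of a value. -/
def QUnits.toField (x : QUnits q) : PadicAlgCl (q : ℕ) := ((Additive.toMul x : (PadicAlgCl (q : ℕ))ˣ) : PadicAlgCl (q : ℕ))

/-- The underlying complex number of an archimedean value. -/
def CUnits.toField (x : CUnits) : ℂ := ((Additive.toMul x : ℂˣ) : ℂ)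

@[simp] theorem QUnits.toField_zero : (0 : QUnits q).toField = 1 := rfl

@[simp] theorem QUnits.toField_add (x y : QUnits q) :
    (x + y).toField = x.toField * y.toField := rfl

@[simp] theorem QUnits.toField_neg (x : QUnits q) : (-x).toField = x.toField⁻¹ :=
  Units.val_inv_eq_inv_val _

theorem QUnits.toField_ne_zero (x : QUnits q) : x.toField ≠ 0 := Units.ne_zero _

theorem QUnits.toField_injective : Function.Injective (QUnits.toField (q := q)) :=
  fun _ _ h => Additive.toMul.injective (Units.ext h)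

@[simp] theorem QUnits.toField_onUnits (τ : Gloc q) (x : QUnits q) :
    (τ.onUnits x).toField = τ x.toField := rfl

theorem QUnits.mem_unitGroup_iff (x : QUnits q) :
    x ∈ QUnits.unitGroup q ↔ ‖x.toField‖ = 1 := NNReal.coe_inj.symm

@[simp] theorem CUnits.toField_zero : (0 : CUnits).toField = 1 := rfl

@[simp] theorem CUnits.toField_add (x y : CUnits) :
    CUnits.toField (x + y) = CUnits.toField x * CUnits.toField y := rfl

theorem CUnits.toField_ne_zero (x : CUnits) : CUnits.toField x ≠ 0 := Units.ne_zero _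

theorem CUnits.toField_injective : Function.Injective CUnits.toField :=
  fun _ _ h => Additive.toMul.injective (Units.ext h)

@[simp] theorem CUnits.toField_conjUnits (x : CUnits) :
    CUnits.toField (conjUnits x) = starRingEnd ℂ (CUnits.toField x) := rfl

variable {L : Type} [Field L] [NumberField L]

theorem LUnits.ext_val {x y : LUnits L} (h : (x.val : L) = y.val) : x = y :=
  Additive.toMul.injective (Units.ext h)

@[simp] theorem LUnits.val_zero : ((0 : LUnits L).val : L) = 1 := rfl

@[simp] theorem LUnits.val_add (x y : LUnits L) : ((x + y).val : L) = x.val * y.val := rfl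

@[simp] theorem LUnits.val_neg (x : LUnits L) : ((-x).val : L) = (x.val : L)⁻¹ :=
  Units.val_inv_eq_inv_val _

@[simp] theorem LUnits.val_smul (g : L ≃ₐ[ℚ] L) (x : LUnits L) :
    ((g • x).val : L) = g x.val := rfl

theorem LUnits.mem_fixedPts_iff (H : Subgroup (L ≃ₐ[ℚ] L)) (x : LUnits L) :
    x ∈ fixedPts H (LUnits L) ↔ (x.val : L) ∈ IntermediateField.fixedField H := by
  rw [IntermediateField.mem_fixedField_iff]
  refine ⟨fun hx g hg => ?_, fun hx g => LUnits.ext_val ?_⟩
  · exact congrArg (fun y : LUnits L => (y.val : L)) (hx ⟨g, hg⟩)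
  · exact (LUnits.val_smul (g : L ≃ₐ[ℚ] L) x).trans (hx g.1 g.2)

theorem mem_fixedPts_subgroup_iff {G : Type*} [Group G] {A : Type*} [AddCommGroup A]
    [DistribMulAction G A] (H : Subgroup G) (a : A) :
    a ∈ fixedPts H A ↔ ∀ h ∈ H, h • a = a :=
  ⟨fun ha h hh => ha ⟨h, hh⟩, fun ha h => ha h.1 h.2⟩

@[simp] theorem toField_principalFamily (x : LUnits L) (φ : Emb L q) :
    (principalFamily L x q φ).toField = φ x.val := rfl

@[simp] theorem toField_principalFamilyInf (x : LUnits L) (φ : L →+* ℂ) :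
    CUnits.toField (principalFamilyInf L x φ) = φ x.val := rfl

instance Emb.finite (q : Nat.Primes) : Finite (Emb L q) := Finite.of_equiv _ (RingHom.equivRatAlgHom (R := L) (S := PadicAlgCl (q : ℕ))).symm

instance Emb.nonempty (q : Nat.Primes) : Nonempty (Emb L q) := ⟨(IsAlgClosed.lift : L →ₐ[ℚ] PadicAlgCl (q : ℕ)).toRingHom⟩

theorem Emb.preComp_injective (φ : Emb L q) : Function.Injective φ.preComp := fun _ _ h =>
  AlgEquiv.ext fun x => φ.injective (RingHom.congr_fun h x)

/-- All embeddings are conjugate under the Galois group. -/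
theorem Emb.exists_preComp_eq [IsGalois ℚ L] (φ ψ : Emb L q) :
    ∃ g : L ≃ₐ[ℚ] L, φ.preComp g = ψ := by
  have hcard : Nat.card (L ≃ₐ[ℚ] L) = Nat.card (Emb L q) := by
    rw [IsGalois.card_aut_eq_finrank,
      ← AlgHom.card ℚ L (PadicAlgCl (q : ℕ)), ← Nat.card_eq_fintype_card]
    exact Nat.card_congr (RingHom.equivRatAlgHom (R := L) (S := PadicAlgCl (q : ℕ))).symm
  exact ((Nat.bijective_iff_injective_and_card φ.preComp).2
    ⟨φ.preComp_injective, hcard⟩).2 ψ

/-- All complex embeddings are conjugate under the Galois group. -/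
theorem exists_comp_eq_inf [IsGalois ℚ L] (φ ψ : L →+* ℂ) :
    ∃ g : L ≃ₐ[ℚ] L, φ.comp (g : L →+* L) = ψ := by
  have hcard : Nat.card (L ≃ₐ[ℚ] L) = Nat.card (L →+* ℂ) := by
    rw [IsGalois.card_aut_eq_finrank, ← AlgHom.card ℚ L ℂ, ← Nat.card_eq_fintype_card]
    exact Nat.card_congr (RingHom.equivRatAlgHom (R := L) (S := ℂ)).symm
  exact ((Nat.bijective_iff_injective_and_card
    (fun g : L ≃ₐ[ℚ] L => φ.comp (g : L →+* L))).2
    ⟨fun _ _ h => AlgEquiv.ext fun x => φ.injective (RingHom.congr_fun h x), hcard⟩).2 ψ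

/-- The closed unit disc of `PadicAlgCl q`. -/
noncomputable abbrev padicIntegers' (q : Nat.Primes) : ValuationSubring (PadicAlgCl (q : ℕ)) :=
  (Valued.v : Valuation (PadicAlgCl (q : ℕ)) NNReal).valuationSubring

theorem Emb.norm_le_one_of_isIntegral (φ : Emb L q) {x : L} (hx : IsIntegral ℤ x) :
    ‖φ x‖ ≤ 1 := by
  have h : IsIntegral ℤ (φ x) := hx.map φ.toIntAlgHom
  obtain ⟨y, hy⟩ := IsIntegrallyClosed.isIntegral_iff.mp (h.tower_top (A := padicIntegers' q))
  rw [← hy]
  exact y.2

theorem finite_setOf_norm_ne_one {x : L} (hx : x ≠ 0) :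
    {q : Nat.Primes | ∃ φ : Emb L q, ‖φ x‖ ≠ 1}.Finite := by
  obtain ⟨d, hd, hdint⟩ :=
    ((IsFractionRing.isAlgebraic_iff ℤ ℚ L).mpr (Algebra.IsAlgebraic.isAlgebraic x)).exists_integral_multiple
  obtain ⟨e, he, heint⟩ :=
    ((IsFractionRing.isAlgebraic_iff ℤ ℚ L).mpr
      (Algebra.IsAlgebraic.isAlgebraic x⁻¹)).exists_integral_multiple
  have hde : (d * e).natAbs ≠ 0 := by simp [hd, he]
  have hfin : {q : Nat.Primes | (q : ℕ) ∣ (d * e).natAbs}.Finite :=
    Set.Finite.of_finite_image ((Nat.divisors (d * e).natAbs).finite_toSet.subset fun n hn => by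
      obtain ⟨q, hq, rfl⟩ := hn
      exact Nat.mem_divisors.2 ⟨hq, hde⟩) Nat.Primes.coe_nat_injective.injOn
  refine hfin.subset fun q hq => ?_
  obtain ⟨φ, hφ⟩ := hq
  by_contra hndvd
  change ¬ (q : ℕ) ∣ (d * e).natAbs at hndvd
  have key : ∀ (c : ℤ) (y : L), ¬ ((q : ℕ) : ℤ) ∣ c → IsIntegral ℤ (c • y) → ‖φ y‖ ≤ 1 := by
    intro c y hc hint
    have h1 := φ.norm_le_one_of_isIntegral hint
    rw [zsmul_eq_mul, map_mul, map_intCast, norm_mul,
      ← map_intCast (algebraMap ℚ_[(q : ℕ)] (PadicAlgCl (q : ℕ))), PadicAlgCl.norm_extends,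
      Padic.norm_intCast_eq_one_iff.mpr
        ((Nat.prime_iff_prime_int.mp q.2).coprime_iff_not_dvd.mpr hc).symm, one_mul] at h1
    exact h1
  have hqd : ¬ ((q : ℕ) : ℤ) ∣ d := fun h =>
    hndvd (Int.natCast_dvd.mp (h.mul_right e))
  have hqe : ¬ ((q : ℕ) : ℤ) ∣ e := fun h =>
    hndvd (Int.natCast_dvd.mp (h.mul_left d))
  have h1 := key d x hqd hdint
  have h2 := key e x⁻¹ hqe heint
  rw [map_inv₀, norm_inv] at h2
  exact hφ (le_antisymm h1 ((inv_le_one_iff₀.mp h2).resolve_left
    (not_le.mpr (norm_pos_iff.mpr ((map_ne_zero φ).mpr hx)))))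

theorem principalHom_mem (x : LUnits L) : principalHom L x ∈ ideleSubgroup L := by
  refine ⟨fun q τ φ => principalFamily_equivariant L x q τ φ, ?_, fun φ => ?_⟩
  · refine (finite_setOf_norm_ne_one x.val.ne_zero).subset fun q ⟨φ, hφ⟩ => ⟨φ, fun h => hφ ?_⟩
    rw [QUnits.mem_unitGroup_iff]
    exact h
  · exact CUnits.toField_injective rfl

variable (L) in
/-- The principal idele of an element. -/
noncomputable def principalIdele : LUnits L →+ Idele L :=
  (principalHom L).codRestrict (ideleSubgroup L) principalHom_mem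

@[simp] theorem principalIdele_apply (x : LUnits L) (φ : Emb L q) :
    (principalIdele L x).1.1 q φ = principalFamily L x q φ := rfl

@[simp] theorem principalIdele_apply_inf (x : LUnits L) (φ : L →+* ℂ) :
    (principalIdele L x).1.2 φ = principalFamilyInf L x φ := rfl

theorem principalIdele_smul (g : L ≃ₐ[ℚ] L) (x : LUnits L) :
    principalIdele L (g • x) = g • principalIdele L x :=
  Subtype.ext (Prod.ext (funext fun _ => funext fun _ => QUnits.toField_injective rfl)
    (funext fun _ => CUnits.toField_injective rfl))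

theorem principalIdeles_eq_range : principalIdeles L = (principalIdele L).range := by
  ext f
  rw [mem_principalIdeles_iff, AddMonoidHom.mem_range]
  exact ⟨fun ⟨x, hx⟩ => ⟨x, Subtype.ext hx⟩, fun ⟨x, hx⟩ => ⟨x, congrArg Subtype.val hx⟩⟩

theorem principalIdele_injective : Function.Injective (principalIdele L) := by
  intro x y h
  obtain ⟨φ⟩ := Emb.nonempty (L := L) ⟨2, Nat.prime_two⟩
  exact LUnits.ext_val (φ.injective
    (congrArg (fun f : Idele L => (f.fin ⟨2, Nat.prime_two⟩ φ).toField) h))

/-- An invariant principal idele comes from an invariant element. -/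
theorem mem_fixedPts_principalIdele_iff (H : Subgroup (L ≃ₐ[ℚ] L)) (x : LUnits L) :
    principalIdele L x ∈ fixedPts H (Idele L) ↔ x ∈ fixedPts H (LUnits L) := by
  constructor
  · intro hx h
    exact principalIdele_injective ((principalIdele_smul (h : L ≃ₐ[ℚ] L) x).trans (hx h))
  · intro hx h
    change (h : L ≃ₐ[ℚ] L) • principalIdele L x = _
    rw [← principalIdele_smul]
    exact congrArg _ (hx h)

theorem idele_ext {f g : Idele L}
    (hfin : ∀ (q : Nat.Primes) (φ : Emb L q), (f.fin q φ).toField = (g.fin q φ).toField)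
    (hinf : ∀ φ : L →+* ℂ, CUnits.toField (f.inf φ) = CUnits.toField (g.inf φ)) : f = g :=
  Subtype.ext (Prod.ext (funext fun q => funext fun φ => QUnits.toField_injective (hfin q φ))
    (funext fun φ => CUnits.toField_injective (hinf φ)))

variable (L) in
/-- Keep the values at the primes of `T` and at infinity, trivial elsewhere. -/
noncomputable def restrictTo (T : Set Nat.Primes) : Idele L →+ Idele L := by
  classical
  exact
  { toFun := fun f => ⟨(fun q φ => if q ∈ T then f.1.1 q φ else 0, f.1.2), by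
        refine ⟨fun q τ φ => ?_, ?_, f.2.2.2⟩
        · by_cases h : q ∈ T <;> simp [h, f.2.1 q τ φ]
        · refine f.2.2.1.subset fun q ⟨φ, hφ⟩ => ⟨φ, fun h => hφ ?_⟩
          by_cases hq : q ∈ T <;> simp [hq, h, zero_mem]⟩
    map_zero' := by ext1; ext1 <;> simp [funext_iff]
    map_add' := fun a b => by
      ext1
      refine Prod.ext (funext fun q => funext fun φ => ?_) rfl
      by_cases h : q ∈ T <;> simp [h] }

theorem restrictTo_smul (T : Set Nat.Primes) (g : L ≃ₐ[ℚ] L) (f : Idele L) :
    restrictTo L T (g • f) = g • restrictTo L T f := by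
  classical
  refine idele_ext (fun q φ => ?_) (fun φ => rfl)
  by_cases h : q ∈ T <;> simp [restrictTo, h, Idele.fin]

theorem sub_restrictTo_mem (T : Set Nat.Primes) {f : Idele L} (hf : f ∈ sIdeles L T) :
    f - restrictTo L T f ∈ unitIdelesOutside L T := by
  classical
  refine ⟨fun q φ => ⟨?_, fun hq => ?_⟩, ?_⟩
  · by_cases h : q ∈ T
    · simp [restrictTo, h, zero_mem]
    · simpa [restrictTo, h] using hf q h φ
  · simp [restrictTo, hq]
  · funext φ
    simp [restrictTo]

end FermatLib.CFT
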