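import Fermat.Agent.CFT.GWUnrLocal
import Fermat.Agent.CFT.LocalUnits
import Fermat.Agent.CFT.IdeleBasic

/-!
Unit-valued unramified local 2-cocycles are coboundaries of unit-valued unramified cochains.
-/

set_option autoImplicit false
set_option linter.unusedSectionVars false

open groupCohomology ExtCitation

local instance gwUnrUnitsQbarIsAlgebraic : Algebra.IsAlgebraic ℚ (AlgebraicClosure ℚ) :=
  AlgebraicClosure.isAlgebraic ℚ

namespace FermatLib.CFT.GWUnr

local notation "Qbar" => AlgebraicClosure ℚ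

variable {q : Nat.Primes}

/-- The field generated by a root of unity of order prime to `q` is normal with trivial inertia. -/
theorem adjoin_rootOfUnity_props {η : PadicAlgCl (q : ℕ)} {m : ℕ} (hm : ¬ (q : ℕ) ∣ m)
    (hη : IsPrimitiveRoot η m) :
    Normal ℚ_[(q : ℕ)] (IntermediateField.adjoin ℚ_[(q : ℕ)] ({η} : Set (PadicAlgCl (q : ℕ)))) ∧
      ∀ _ : FiniteDimensional ℚ_[(q : ℕ)]
          (IntermediateField.adjoin ℚ_[(q : ℕ)] ({η} : Set (PadicAlgCl (q : ℕ)))),
        Loc.inertia (IntermediateField.adjoin ℚ_[(q : ℕ)] ({η} : Set (PadicAlgCl (q : ℕ)))) = ⊥ := by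
  have hm0 : m ≠ 0 := fun e => hm (e ▸ dvd_zero _)
  have : NeZero m := ⟨hm0⟩
  set E : LocalField q := IntermediateField.adjoin ℚ_[(q : ℕ)] ({η} : Set (PadicAlgCl (q : ℕ)))
    with hE
  have hηE : η ∈ E := IntermediateField.mem_adjoin_simple_self _ η
  refine ⟨?_, fun _ => ?_⟩
  · rw [IntermediateField.normal_iff_forall_map_le']
    intro τ
    rw [IntermediateField.map_le_iff_le_comap, hE, IntermediateField.adjoin_le_iff]
    intro x hx
    rw [show x = η from hx]
    obtain ⟨i, -, hi⟩ := hη.eq_pow_of_pow_eq_one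
      (show τ η ^ m = 1 by rw [← map_pow, hη.pow_eq_one, map_one])
    show τ η ∈ E
    rw [← hi]
    exact pow_mem hηE i
  · rw [eq_bot_iff]
    intro σ hσ
    rw [Subgroup.mem_bot]
    have h1 : σ ⟨η, hηE⟩ = ⟨η, hηE⟩ := by
      have hp : (⟨η, hηE⟩ : E) ^ m = 1 := Subtype.ext hη.pow_eq_one
      apply Subtype.ext
      exact Loc.eq_of_rootOfUnity_near hm
        (by rw [← SubmonoidClass.coe_pow, ← map_pow, hp, map_one]; rfl) hη.pow_eq_one
        (hσ ⟨η, hηE⟩ (Loc.norm_eq_one_of_pow_eq_one hm0 hη.pow_eq_one).le)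
    have h2 : σ.toAlgHom = AlgHom.id _ _ :=
      IntermediateField.algHom_ext_of_eq_adjoin ℚ_[(q : ℕ)] (S := E) hE fun x hx => by
        obtain rfl : x = η := hx
        exact h1
    exact AlgEquiv.ext fun x => DFunLike.congr_fun h2 x

variable {f : primeLocalGaloisGroup q × primeLocalGaloisGroup q → QUnits q}

/-- A level-constant function of two local arguments takes finitely many values. -/
theorem finite_range_of_levelConstant {X : Type*}
    {f : primeLocalGaloisGroup q × primeLocalGaloisGroup q → X}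
    (hf : IsLevelConstant₂ (primeLocalToGlobal q) f) : (Set.range f).Finite := by
  obtain ⟨F, hF, h⟩ := hf
  let res : primeLocalGaloisGroup q → (F →ₐ[ℚ] Qbar) := fun g =>
    ((primeLocalToGlobal q g : Qbar ≃ₐ[ℚ] Qbar).toAlgHom).comp F.val
  have hfib : ∀ g g', res g = res g' → ∃ s, primeLocalToGlobal q s ∈ F.fixingSubgroup ∧
      g' = g * s := fun g g' hg => by
    refine ⟨g⁻¹ * g', ?_, (mul_inv_cancel_left g g').symm⟩
    rw [IntermediateField.mem_fixingSubgroup_iff]
    intro x hx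
    have h1 := DFunLike.congr_fun hg ⟨x, hx⟩
    simp only [res, AlgHom.comp_apply] at h1
    rw [map_mul, map_inv, AlgEquiv.mul_apply, AlgEquiv.aut_inv, AlgEquiv.symm_apply_eq]
    exact h1.symm
  have : Finite (F →ₐ[ℚ] Qbar) := inferInstance
  let P := {u : (F →ₐ[ℚ] Qbar) × (F →ₐ[ℚ] Qbar) // ∃ g h, res g = u.1 ∧ res h = u.2}
  let val : P → X := fun u => f (u.2.choose, u.2.choose_spec.choose)
  refine (Set.finite_range val).subset ?_
  rintro _ ⟨⟨g, g'⟩, rfl⟩
  let u : P := ⟨(res g, res g'), g, g', rfl, rfl⟩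
  refine ⟨u, ?_⟩
  obtain ⟨h1, h2⟩ := u.2.choose_spec.choose_spec
  obtain ⟨s, hs, e1⟩ := hfib _ g h1
  obtain ⟨s', hs', e2⟩ := hfib _ g' h2
  show f (u.2.choose, u.2.choose_spec.choose) = f (g, g')
  conv_rhs => rw [e1, e2]
  exact (h _ _ s s' hs hs').symm

/-- Unit-valued unramified classes vanish in the cohomology of the units. -/
theorem exists_unit_cobound
    (hcoc : ∀ g h j : primeLocalGaloisGroup q,
      Gloc.onUnits ((locEquiv q).symm g) (f (h, j)) - f (g * h, j) + f (g, h * j) - f (g, h) = 0)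
    (hunit : ∀ x, f x ∈ QUnits.unitGroup q)
    (hlev : IsLevelConstant₂ (primeLocalToGlobal q) f)
    (hI : ∀ (g h : primeLocalGaloisGroup q) (t : Gloc q), Loc.IsInertial t →
      f (g * locEquiv q t, h) = f (g, h) ∧ f (g, h * locEquiv q t) = f (g, h))
    (hfix : ∀ (t : Gloc q), Loc.IsInertial t → ∀ x, Gloc.onUnits t (f x) = f x) :
    ∃ b : primeLocalGaloisGroup q → QUnits q, (∀ g, b g ∈ QUnits.unitGroup q) ∧
      IsLevelConstant₁ (primeLocalToGlobal q) b ∧
      (∀ (g : primeLocalGaloisGroup q) (t : Gloc q), Loc.IsInertial t →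
        b (g * locEquiv q t) = b g) ∧
      ∀ g h, Gloc.onUnits ((locEquiv q).symm g) (b h) - b (g * h) + b g = f (g, h) := by
  classical
  have hfin := finite_range_of_levelConstant hlev
  obtain ⟨F, hF, hFc⟩ := hlev
  let bF := Module.finBasis ℚ F
  -- a field containing the level and the values
  let S : Set (PadicAlgCl (q : ℕ)) :=
    Set.range (fun i => padicEmbedding (q : ℕ) (bF i : Qbar)) ∪
      (fun x : QUnits q => x.toField) '' Set.range f
  have : Finite S := ((Set.finite_range _).union (hfin.image _)).to_subtype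
  let EF : LocalField q := IntermediateField.adjoin ℚ_[(q : ℕ)] S
  have : FiniteDimensional ℚ_[(q : ℕ)] EF :=
    IntermediateField.finiteDimensional_adjoin fun x _ => Algebra.IsIntegral.isIntegral x
  set N := Loc.resDeg EF with hN
  set m := (q : ℕ) ^ N - 1 with hm
  have hqm : ¬ (q : ℕ) ∣ m := Loc.not_dvd_card_sub_one EF
  have hm0 : m ≠ 0 := fun e => hqm (e ▸ dvd_zero _)
  have : NeZero m := ⟨hm0⟩
  obtain ⟨ζ₀, hζ₀⟩ := HasEnoughRootsOfUnity.exists_primitiveRoot Qbar m
  set η := padicEmbedding (q : ℕ) ζ₀ with hηdef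
  have hη : IsPrimitiveRoot η m :=
    hζ₀.map_of_injective (f := padicEmbedding (q : ℕ)) (padicEmbedding (q : ℕ)).toRingHom.injective
  let E : LocalField q := IntermediateField.adjoin ℚ_[(q : ℕ)] ({η} : Set (PadicAlgCl (q : ℕ)))
  have : FiniteDimensional ℚ_[(q : ℕ)] E :=
    IntermediateField.adjoin.finiteDimensional (Algebra.IsIntegral.isIntegral η)
  obtain ⟨hnorm, hI0⟩ := adjoin_rootOfUnity_props hqm hη
  have : Normal ℚ_[(q : ℕ)] E := hnorm
  have hinE : Loc.inertia E = ⊥ := hI0 inferInstance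
  have hηE : η ∈ E := IntermediateField.mem_adjoin_simple_self _ η
  -- elements fixing `η` are inertial up to the level
  have key : ∀ u : Gloc q, u η = η → ∃ t : Gloc q, Loc.IsInertial t ∧
      ∀ y ∈ EF, t y = u y := fun u hu => by
    obtain ⟨t, ht, h⟩ := Loc.exists_inertial_agree EF (τ := u) fun x hx => by
      rcases hx.lt_or_eq with hlt | heq
      · rw [sub_eq_add_neg]
        refine (IsUltrametricDist.norm_add_le_max _ _).trans_lt (max_lt ?_ ?_)
        · rwa [Loc.norm_gloc]
        · rwa [norm_neg]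
      · obtain ⟨ξ, hξ, hxξ⟩ := Loc.exists_rootOfUnity_sub_lt EF heq
        have hξ' : (ξ : PadicAlgCl (q : ℕ)) ^ m = 1 := by
          simpa using congrArg Subtype.val hξ
        obtain ⟨i, -, hi⟩ := hη.eq_pow_of_pow_eq_one hξ'
        have hxξ' : ‖(x : PadicAlgCl (q : ℕ)) - ξ‖ < 1 := hxξ
        refine Loc.norm_sub_lt_trans (b := (ξ : PadicAlgCl (q : ℕ))) ?_
          (Loc.norm_sub_lt_symm hxξ')
        rw [show (ξ : PadicAlgCl (q : ℕ)) = u ξ by rw [← hi, map_pow, hu], ← map_sub, Loc.norm_gloc]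
        exact hxξ'
    exact ⟨t, ht, fun y hy => h ⟨y, hy⟩⟩
  have hval : ∀ x, (f x).toField ∈ E := fun x => by
    rw [← InfiniteGalois.fixedField_fixingSubgroup E]
    rintro ⟨u, hu⟩
    obtain ⟨t, ht, htu⟩ := key u ((IntermediateField.mem_fixingSubgroup_iff E u).1 hu η hηE)
    show u (f x).toField = (f x).toField
    rw [← htu _ (IntermediateField.subset_adjoin _ S (Or.inr ⟨f x, ⟨x, rfl⟩, rfl⟩))]
    conv_rhs => rw [← hfix t ht x, QUnits.toField_onUnits]
  -- the level is absorbed by `E`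
  have habs : ∀ u : Gloc q, u η = η → ∀ g h : primeLocalGaloisGroup q,
      f (g * locEquiv q u, h) = f (g, h) ∧ f (g, h * locEquiv q u) = f (g, h) := fun u hu g h => by
    obtain ⟨t, ht, htu⟩ := key u hu
    have hs : primeLocalToGlobal q (locEquiv q (t⁻¹ * u)) ∈ F.fixingSubgroup := by
      rw [IntermediateField.mem_fixingSubgroup_iff]
      intro x hx
      apply (padicEmbedding (q : ℕ)).toRingHom.injective
      show padicEmbedding (q : ℕ) _ = padicEmbedding (q : ℕ) x
      rw [emb_locToGlobal]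
      have hxE : padicEmbedding (q : ℕ) x ∈ EF := by
        rw [show x = ((⟨x, hx⟩ : F) : Qbar) from rfl, ← bF.sum_repr ⟨x, hx⟩]
        simp only [AddSubmonoidClass.coe_finsetSum, SetLike.val_smul, map_sum]
        refine sum_mem fun i _ => ?_
        simp only [Algebra.smul_def, map_mul, eq_ratCast, map_ratCast]
        exact mul_mem (SubfieldClass.ratCast_mem _ _)
          (IntermediateField.subset_adjoin _ S (Or.inl ⟨i, rfl⟩))
      rw [AlgEquiv.mul_apply, ← htu _ hxE, AlgEquiv.aut_inv, AlgEquiv.symm_apply_apply]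
    have he : locEquiv q u = locEquiv q t * locEquiv q (t⁻¹ * u) := by
      rw [← map_mul, mul_inv_cancel_left]
    have h1 : primeLocalToGlobal q (1 : primeLocalGaloisGroup q) ∈ F.fixingSubgroup := by
      rw [map_one]; exact one_mem _
    refine ⟨?_, ?_⟩
    · have := hFc (g * locEquiv q t) h _ 1 hs h1
      rw [mul_one, mul_assoc, ← he] at this
      exact this.trans (hI g h t ht).1
    · have := hFc g (h * locEquiv q t) 1 _ h1 hs
      rw [mul_one, mul_assoc, ← he] at this
      exact this.trans (hI g h t ht).2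
  -- descend to `E`
  let res : Gloc q →* (↥E ≃ₐ[ℚ_[(q : ℕ)]] ↥E) := AlgEquiv.restrictNormalHom E
  have hres : Function.Surjective res :=
    AlgEquiv.restrictNormalHom_surjective (PadicAlgCl (q : ℕ))
  choose lift hlift using hres
  have hsame : ∀ g g' : Gloc q, res g = res g' → (g⁻¹ * g') η = η := fun g g' hg => by
    have h1 : (res (g⁻¹ * g') ⟨η, hηE⟩ : PadicAlgCl (q : ℕ)) = η := by
      rw [map_mul, map_inv, hg, inv_mul_cancel, AlgEquiv.one_apply]
    exact (AlgEquiv.restrictNormal_commutes (g⁻¹ * g') E ⟨η, hηE⟩).symm.trans h1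
  have hdep : ∀ g g' h h' : Gloc q, res g = res g' → res h = res h' →
      f (locEquiv q g, locEquiv q h) = f (locEquiv q g', locEquiv q h') := fun g g' h h' hg hh => by
    rw [show locEquiv q g' = locEquiv q g * locEquiv q (g⁻¹ * g') by
        rw [← map_mul, mul_inv_cancel_left],
      (habs _ (hsame g g' hg) _ _).1,
      show locEquiv q h' = locEquiv q h * locEquiv q (h⁻¹ * h') by
        rw [← map_mul, mul_inv_cancel_left],
      (habs _ (hsame h h' hh) _ _).2]
  have hne : ∀ x, (⟨_, hval x⟩ : E) ≠ 0 := fun x h =>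
    QUnits.toField_ne_zero _ (congrArg Subtype.val h)
  let fbar : (↥(⊤ : Subgroup (↥E ≃ₐ[ℚ_[(q : ℕ)]] ↥E))) × (↥(⊤ : Subgroup (↥E ≃ₐ[ℚ_[(q : ℕ)]] ↥E))) →
      Loc.unitGroup E := fun st =>
    ⟨LocUnits.mk0 _ (hne (locEquiv q (lift st.1.1), locEquiv q (lift st.2.1))),
      (Loc.mem_unitGroup E).2 (by
        rw [LocUnits.el_mk0]
        exact (QUnits.mem_unitGroup_iff _).1 (hunit _))⟩
  let ι : Loc.unitGroup E →+ QUnits q :=
    AddMonoidHom.mk' (fun x => Additive.ofMul (Units.map E.val.toMonoidHom x.1.val)) fun x y =>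
      QUnits.toField_injective rfl
  have hιsmul : ∀ (g : Gloc q) (x : Loc.unitGroup E), ι (res g • x) = g.onUnits (ι x) := fun g x =>
    QUnits.toField_injective (AlgEquiv.restrictNormal_commutes g E x.1.el)
  have hιinj : Function.Injective ι := fun x y h =>
    Subtype.ext (LocUnits.ext' (Subtype.ext (congrArg QUnits.toField h)))
  have hιfbar : ∀ g h : Gloc q, ι (fbar (⟨res g, trivial⟩, ⟨res h, trivial⟩)) =
      f (locEquiv q g, locEquiv q h) := fun g h => by
    refine Eq.trans (QUnits.toField_injective ?_) (hdep _ g _ h (hlift _) (hlift _))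
    rfl
  have hz : fbar ∈ Z2 ↥(⊤ : Subgroup (↥E ≃ₐ[ℚ_[(q : ℕ)]] ↥E)) (Loc.unitGroup E) := by
    refine funext fun x => hιinj ?_
    obtain ⟨⟨s, _⟩, ⟨s', _⟩, ⟨s'', _⟩⟩ := x
    obtain ⟨g, rfl⟩ : ∃ g, res g = s := ⟨_, hlift s⟩
    obtain ⟨h, rfl⟩ : ∃ g, res g = s' := ⟨_, hlift s'⟩
    obtain ⟨j, rfl⟩ : ∃ g, res g = s'' := ⟨_, hlift s''⟩
    show ι ((res g) • fbar (⟨res h, _⟩, ⟨res j, _⟩) - fbar (⟨res g * res h, _⟩, ⟨res j, _⟩)
      + fbar (⟨res g, _⟩, ⟨res h * res j, _⟩) - fbar (⟨res g, _⟩, ⟨res h, _⟩)) = ι 0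
    simp only [← map_mul, map_sub, map_add, hιsmul, hιfbar, map_zero]
    simpa [map_mul] using hcoc (locEquiv q g) (locEquiv q h) (locEquiv q j)
  obtain ⟨bbar, hb⟩ := Loc.unitGroup_h2Trivial E ⊤ (by rw [hinE, bot_inf_eq]) fbar hz
  refine ⟨fun g => ι (bbar ⟨res ((locEquiv q).symm g), trivial⟩), fun g => ?_, ?_, fun g t ht => ?_,
    fun g h => ?_⟩
  · exact (QUnits.mem_unitGroup_iff _).2 ((Loc.mem_unitGroup E).1 (Subtype.mem _) :)
  · refine ⟨IntermediateField.adjoin ℚ ({ζ₀} : Set Qbar),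
      IntermediateField.adjoin.finiteDimensional (Algebra.IsIntegral.isIntegral ζ₀), fun g s hs => ?_⟩
    have h1 : res ((locEquiv q).symm s) = 1 := by
      have hsη : (locEquiv q).symm s η = η := by
        rw [hηdef, ← emb_locToGlobal, MulEquiv.apply_symm_apply,
          (IntermediateField.mem_fixingSubgroup_iff _ _).1 hs ζ₀
            (IntermediateField.mem_adjoin_simple_self ℚ ζ₀)]
      have h2 : (res ((locEquiv q).symm s)).toAlgHom = AlgHom.id _ _ :=
        IntermediateField.algHom_ext_of_eq_adjoin ℚ_[(q : ℕ)] (S := E) rfl fun x hx => by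
          obtain rfl : x = η := hx
          exact Subtype.ext ((AlgEquiv.restrictNormal_commutes _ E _).trans hsη)
      exact AlgEquiv.ext fun x => DFunLike.congr_fun h2 x
    show ι (bbar ⟨res ((locEquiv q).symm (g * s)), trivial⟩) = _
    congr 3
    rw [map_mul, map_mul, h1, mul_one]
  · have h1 : res t ∈ Loc.inertia E := fun x hx => by
      have := ht (x : PadicAlgCl (q : ℕ)) hx
      rw [← show (res t x : PadicAlgCl (q : ℕ)) = t x from
        AlgEquiv.restrictNormal_commutes t E x] at this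
      exact this
    rw [hinE, Subgroup.mem_bot] at h1
    show ι (bbar ⟨res ((locEquiv q).symm (g * locEquiv q t)), trivial⟩) = _
    congr 3
    rw [map_mul, map_mul, MulEquiv.symm_apply_apply, h1, mul_one]
  · have h0 := congrArg ι (congrFun hb
      (⟨res ((locEquiv q).symm g), trivial⟩, ⟨res ((locEquiv q).symm h), trivial⟩))
    rw [hιfbar, MulEquiv.apply_symm_apply, MulEquiv.apply_symm_apply] at h0
    refine Eq.trans ?_ h0
    show _ = ι ((res ((locEquiv q).symm g)) • bbar ⟨res ((locEquiv q).symm h), _⟩ -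
      bbar ⟨res ((locEquiv q).symm g) * res ((locEquiv q).symm h), _⟩ +
      bbar ⟨res ((locEquiv q).symm g), _⟩)
    simp only [map_add, map_sub, hιsmul, ← map_mul]

end FermatLib.CFT.GWUnr
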