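import Fermat.Agent.CFT.GWGlobCompat
import Fermat.Agent.CFT.GWUnrUnits
import Fermat.Agent.CFT.GWUnrOrth

/-!
The pairings characterised by the global invariant kill pairs of unramified classes at `q ≠ p`.
-/

set_option autoImplicit false
set_option linter.unusedSectionVars false

open CategoryTheory Module groupCohomology ExtCitation NumberField

namespace FermatLib.CFT.GWUnr

open GWKummer

local notation "Qbar" => AlgebraicClosure ℚ
local notation "Γℚ" => (AlgebraicClosure ℚ ≃ₐ[ℚ] AlgebraicClosure ℚ)

variable {p : ℕ} [Fact p.Prime] (M : Rep (ZMod p) Γℚ)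
  {q : Nat.Primes}

local notation "M'" => M.dualTwist (cycloChar p)

/-- The cup product of two local cocycles is a cocycle. -/
theorem cupVal_cocycle (x : cocycles₁ (Rep.res (primeLocalToGlobal q) M))
    (y : cocycles₁ (Rep.res (primeLocalToGlobal q) M')) (g h j : primeLocalGaloisGroup q) :
    kChi p g * cupVal M (primeLocalToGlobal q) x y h j
      - cupVal M (primeLocalToGlobal q) x y (g * h) j
      + cupVal M (primeLocalToGlobal q) x y g (h * j)
      - cupVal M (primeLocalToGlobal q) x y g h = 0 := by
  have hy : ∀ m : M, (y (g * h) : Dual (ZMod p) M) (actAt M q g m) =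
      kChi p g * (y h : Dual (ZMod p) M) m + (y g : Dual (ZMod p) M) (actAt M q g m) := fun m => by
    rw [cocycle_mul]
    show (((M').ρ (primeLocalToGlobal q g) (y h) : M') + y g : Dual (ZMod p) M) _ = _
    rw [LinearMap.add_apply, Rep.dualTwist_ρ_apply, LinearMap.smul_apply, LinearMap.comp_apply,
      ← Module.End.mul_apply, ← map_mul, inv_mul_cancel, map_one, Module.End.one_apply]
    rfl
  have h1 : cupVal M (primeLocalToGlobal q) x y (g * h) j =
      kChi p g * cupVal M (primeLocalToGlobal q) x y h j +
        (y g : Dual (ZMod p) M) (actAt M q g (actAt M q h (x j))) := by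
    rw [cupVal, map_mul (primeLocalToGlobal q), map_mul M.ρ, Module.End.mul_apply]
    exact hy _
  have h2 : cupVal M (primeLocalToGlobal q) x y g (h * j) =
      (y g : Dual (ZMod p) M) (actAt M q g (actAt M q h (x j))) +
        cupVal M (primeLocalToGlobal q) x y g h := by
    rw [cupVal, cocycle_mul, map_add, map_add]
    rfl
  rw [h1, h2]
  ring

section

variable [FiniteDimensional (ZMod p) M]
  (hsm : ∀ m : M, ∃ F : IntermediateField ℚ (AlgebraicClosure ℚ), FiniteDimensional ℚ F ∧
    ∀ s ∈ F.fixingSubgroup, M.ρ s m = m)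

include hsm in
/-- A pairing given by the global invariant kills pairs of unramified classes. -/
theorem isotropic_of_tateCompat {ζ : AlgebraicClosure ℚ} (hζ : IsPrimitiveRoot ζ p)
    {Bfin : ∀ q : Nat.Primes, LocalPairing M (primeLocalToGlobal q)}
    {Binf : LocalPairing M archimedeanLoc} (hT : TateCompat M hζ Bfin Binf)
    (hq : (q : ℕ) ≠ p) :
    ∀ x ∈ unramifiedClasses q M, ∀ y ∈ unramifiedClasses q M', Bfin q x y = 0 := by
  rintro _ ⟨x, hx, hxI, rfl⟩ _ ⟨y, hy, hyI, rfl⟩
  have hxt : ∀ t : Gloc q, Loc.IsInertial t → x (locEquiv q t) = 0 := fun t ht =>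
    hxI _ (mem_inertia_of_isInertial ht)
  have hyt : ∀ t : Gloc q, Loc.IsInertial t → y (locEquiv q t) = 0 := fun t ht =>
    hyI _ (mem_inertia_of_isInertial ht)
  have hfixx : ∀ (t : Gloc q), Loc.IsInertial t → ∀ g, actAt M q (locEquiv q t) (x g) = x g :=
    fun t ht g => by
    have hc := isInertial_conj ((locEquiv q).symm g)⁻¹ ht
    have h1 : x (locEquiv q t * g) = actAt M q (locEquiv q t) (x g) := by
      rw [cocycle_mul, hxt t ht, add_zero]
    rw [← h1]
    have h2 : locEquiv q t * g =
        g * locEquiv q (((locEquiv q).symm g)⁻¹ * t * ((locEquiv q).symm g)⁻¹⁻¹) := by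
      rw [map_mul (locEquiv q), map_mul (locEquiv q), inv_inv, map_inv (locEquiv q),
        MulEquiv.apply_symm_apply]
      group
    rw [h2, cocycle_mul, hxt _ hc, map_zero, zero_add]
  obtain ⟨F', hF', hF'm⟩ := exists_level M hsm
  let v : primeLocalGaloisGroup q → primeLocalGaloisGroup q → QUnits q := fun σ τ =>
    toQUnits q (rootHom hζ (cupVal M (primeLocalToGlobal q) x y σ τ))
  have hsmul : ∀ (g : primeLocalGaloisGroup q) (a : ZMod p),
      g • toQUnits q (rootHom hζ a) = toQUnits q (rootHom hζ (kChi p g * a)) := fun g a => by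
    rw [← toQUnits_smul, smul_rootHom]
    rfl
  obtain ⟨b, -, hblev, -, hb⟩ := exists_unit_cobound
    (f := fun st : primeLocalGaloisGroup q × primeLocalGaloisGroup q => v st.1 st.2) (fun g h j => by
      show g • v h j - v (g * h) j + v g (h * j) - v g h = 0
      simp only [v, hsmul]
      rw [← map_sub, ← map_add, ← map_sub, ← map_sub, ← map_add, ← map_sub, cupVal_cocycle,
        map_zero, map_zero])
    (fun st => by
      refine (QUnits.mem_unitGroup_iff _).2 ?_
      show ‖(v st.1 st.2).toField‖ = 1
      rw [toField_toQUnits, el_rootHom]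
      refine Loc.norm_eq_one_of_pow_eq_one (Fact.out : p.Prime).ne_zero ?_
      rw [← map_pow, ← pow_mul, mul_comm, pow_mul, hζ.pow_eq_one, one_pow, map_one])
    (by
      obtain ⟨F₁, hF₁, h₁⟩ := hx
      obtain ⟨F₂, hF₂, h₂⟩ := hy
      refine ⟨F₁ ⊔ F₂ ⊔ F', inferInstance, fun g h s s' hs hs' => ?_⟩
      show v (g * s) (h * s') = v g h
      simp only [v, cupVal]
      rw [h₁ h s' (IntermediateField.fixingSubgroup_antitone (le_sup_left.trans le_sup_left) hs'),
        h₂ g s (IntermediateField.fixingSubgroup_antitone (le_sup_right.trans le_sup_left) hs),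
        map_mul (primeLocalToGlobal q), map_mul M.ρ, Module.End.mul_apply,
        hF'm _ (IntermediateField.fixingSubgroup_antitone le_sup_right hs) (x h)])
    (fun g h t ht => by
      refine ⟨?_, ?_⟩
      · show v (g * locEquiv q t) h = v g h
        simp only [v, cupVal]
        rw [cocycle_mul, hyt t ht, map_zero, zero_add, map_mul (primeLocalToGlobal q), map_mul M.ρ,
          Module.End.mul_apply, hfixx t ht h]
      · show v g (h * locEquiv q t) = v g h
        simp only [v, cupVal]
        rw [cocycle_mul, hxt t ht, map_zero, zero_add])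
    (fun t ht st => by
      show locEquiv q t • v st.1 st.2 = v st.1 st.2
      rw [hsmul, kChi_inertial hq ht, one_mul])
  have : FiniteDimensional ℚ (⊥ : IntermediateField ℚ Qbar) := inferInstance
  have : NumberField (⊥ : IntermediateField ℚ Qbar) := ⟨⟩
  have : IsGalois ℚ (⊥ : IntermediateField ℚ Qbar) :=
    IsGalois.of_algEquiv (IntermediateField.botEquiv ℚ Qbar).symm
  have h := hT.fin ⊥ q 0 0 (zero_mem _) (fun _ => zero_mem _) (map_zero _).symm x y (fun g => -b g)
    hx hy (hblev.comp Neg.neg) (fun σ τ => by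
      show localValue _ q 0 = σ • (-b τ) - -b (σ * τ) + -b σ + v σ τ
      have hb' : σ • b τ - b (σ * τ) + b σ = v σ τ := hb σ τ
      rw [map_zero, smul_neg, ← hb']
      abel)
  rw [map_zero] at h
  exact h.symm

include hsm in
/-- A perfect pairing given by the global invariant has orthogonal unramified classes. -/
theorem unramifiedIsOrthogonal_of_tateCompat {ζ : AlgebraicClosure ℚ} (hζ : IsPrimitiveRoot ζ p)
    {Bfin : ∀ q : Nat.Primes, LocalPairing M (primeLocalToGlobal q)}
    {Binf : LocalPairing M archimedeanLoc} (hT : TateCompat M hζ Bfin Binf)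
    (hB : IsPerfectOnContinuous M (Bfin q)) : UnramifiedIsOrthogonal M q (Bfin q) :=
  unramifiedIsOrthogonal_of_isotropic M hsm (Bfin q) hB
    fun hq => isotropic_of_tateCompat M hsm hζ hT hq

end

end FermatLib.CFT.GWUnr
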