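import Fermat.Agent.CFT.GWTateInf
import Fermat.Agent.CFT.GWUnrDim
import Fermat.Agent.CFT.GWUnrCompat
import Fermat.Agent.CFT.GWLocEulerSum
import Fermat.Agent.CFT.GWLocPerfect

/-!
The main statements on local Tate pairings. The definitions are in `GWLocalDefs`.
-/

set_option autoImplicit false

open CategoryTheory Module groupCohomology ExtCitation

namespace FermatLib.CFT

variable {p : ℕ} [Fact p.Prime] (M : Rep (ZMod p) (AlgebraicClosure ℚ ≃ₐ[ℚ] AlgebraicClosure ℚ))

variable [FiniteDimensional (ZMod p) M]
  (hsm : ∀ m : M, ∃ F : IntermediateField ℚ (AlgebraicClosure ℚ), FiniteDimensional ℚ F ∧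
    ∀ s ∈ F.fixingSubgroup, M.ρ s m = m)

include hsm in
theorem tateFin_perfect (q : Nat.Primes) : IsPerfectOnContinuous M (tateFin M q) :=
  GWLocPerf.isPerfectOnContinuous_of_tateCompat hsm (GWTate.tate_compat M) q

include hsm in
theorem tateInf_perfect : IsPerfectOnContinuous M (tateInf M) :=
  GWInf.infCup_perfect M

include hsm in
theorem tateFin_unramified (q : Nat.Primes) : UnramifiedIsOrthogonal M q (tateFin M q) :=
  GWUnr.unramifiedIsOrthogonal_of_tateCompat M hsm (GWTate.tateRoot_spec p) (GWTate.tate_compat M)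
    (tateFin_perfect M hsm q)

include hsm in
/-- Unramified classes have the size of the invariants. -/
theorem finrank_span_unramifiedClasses (q : Nat.Primes) (hq : (q : ℕ) ≠ p)
    (hur : ∀ g, primeLocalToGlobal q g ∈ (primeLocalPlace q).inertiaSubgroupIn ℚ →
      M.ρ (primeLocalToGlobal q g) = 1) :
    finrank (ZMod p) (Submodule.span (ZMod p) (unramifiedClasses q M))
      = finrank (ZMod p) (Rep.res (primeLocalToGlobal q) M).ρ.invariants :=
  GWUnr.finrank_span_unramified M hsm hur

include hsm in
/-- The local Euler characteristic summed over `S` and infinity. -/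
theorem sum_finrank_continuousH1 (S : Finset Nat.Primes) (hpS : pPrime p ∈ S) :
    ∑ v, finrank (ZMod p) (continuousH1 (extArithLoc S v) (Rep.res (extArithLoc S v) M))
      = ∑ v, finrank (ZMod p) (Rep.res (extArithLoc S v) M).ρ.invariants
        + ∑ v, finrank (ZMod p)
            (Rep.res (extArithLoc S v) (M.dualTwist (cycloChar p))).ρ.invariants :=
  GWLocEuler.sum_finrank_eq (fun M q => tateFin M q)
    (fun q => GWLocEuler.isNaturalPairing_of_cocycles _ fun φ hφ c c1 hc d d1 hd hcl hdl =>
      tateFin_natural φ hφ q c c1 hc d d1 hd hcl hdl)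
    (fun N _ hN q => tateFin_perfect N hN q) M hsm S hpS

end FermatLib.CFT
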