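import Fermat.Agent.CFT.GWAssembly
import Fermat.Agent.CFT.GWLocal
import Fermat.Agent.CFT.GWGlobMiddle
import Fermat.Agent.CFT.GWEulerCount

/-!
Global duality and Euler characteristic: the main statements.
-/

set_option autoImplicit false

open CategoryTheory Module groupCohomology ExtCitation

namespace FermatLib.CFT

variable {p : ℕ} [Fact p.Prime] (M : Rep (ZMod p) (AlgebraicClosure ℚ ≃ₐ[ℚ] AlgebraicClosure ℚ))
  [FiniteDimensional (ZMod p) M]
  (hsm : ∀ m : M, ∃ F : IntermediateField ℚ (AlgebraicClosure ℚ), FiniteDimensional ℚ F ∧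
    ∀ s ∈ F.fixingSubgroup, M.ρ s m = m)
  (S : Finset Nat.Primes) (hpS : pPrime p ∈ S)
  (hur : ∀ q : Nat.Primes, q ∉ S → ∀ A : ValuationSubring (AlgebraicClosure ℚ),
    A.LiesOverPrime (q : ℕ) → ∀ g ∈ A.inertiaSubgroupIn ℚ, M.ρ g = 1)

include hsm hpS hur in
/-- Middle exactness. -/
theorem middleExact_tate : MiddleExact M S (tateFin M) (tateInf M) :=
  GWKummer.middleExact_of_compat (GWTate.tateRoot_spec p) (GWTate.tate_compat M) hsm hpS hur

include hsm hpS hur in
/-- The global Euler characteristic at some larger set of primes. -/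
theorem exists_globalCount : ∃ T, S ⊆ T ∧
    FiniteDimensional (ZMod p) (continuousH1S T M) ∧
    FiniteDimensional (ZMod p) (continuousH1S T (M.dualTwist (cycloChar p))) ∧
    finrank (ZMod p) (continuousH1S T M)
        + finrank (ZMod p) (M.dualTwist (cycloChar p)).ρ.invariants
      = finrank (ZMod p) (sha₁ T (M.dualTwist (cycloChar p))) + finrank (ZMod p) M.ρ.invariants
        + ∑ v, finrank (ZMod p)
            (Rep.res (extArithLoc T v) (M.dualTwist (cycloChar p))).ρ.invariants := by
  exact GWEuler.exists_count hsm hpS hur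

end FermatLib.CFT
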