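import Fermat.Agent.CFT.GWAssembly
import Fermat.Agent.CFT.GWUnramified
import Fermat.Agent.CFT.GWGlobal
import Fermat.Agent.Galois.CyclotomicFrobenius

/-!
Change of the set of primes in the Greenberg-Wiles formula.
-/

set_option autoImplicit false

open CategoryTheory Module groupCohomology ExtCitation
open scoped Pointwise

namespace FermatLib.CFT

variable {p : ℕ} [Fact p.Prime]

local notation "Γℚ" => AlgebraicClosure ℚ ≃ₐ[ℚ] AlgebraicClosure ℚ

variable {M : Rep (ZMod p) Γℚ} {S T : Finset Nat.Primes}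

theorem dualTwist_unramified (hur : GWUnramifiedOutside M S) (hpS : pPrime p ∈ S) :
    GWUnramifiedOutside (M.dualTwist (cycloChar p)) S := by
  haveI : NeZero p := ⟨(Fact.out : p.Prime).ne_zero⟩
  intro q hq A hA g hg
  have hqp : ¬ (q : ℕ) ∣ p := fun h => hq (by
    have : q = pPrime p := Subtype.ext ((Nat.prime_dvd_prime_iff_eq q.2 Fact.out).1 h)
    rwa [this])
  have hχ : cycloChar p g = 1 := by
    rw [← Galois.modCycloChar_eq_cycloChar p]
    exact Galois.modCycloChar_inertia q.2 hqp hA hg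
  refine LinearMap.ext fun f => ?_
  refine (Rep.dualTwist_ρ_apply M (cycloChar p) g f).trans ?_
  rw [hχ, hur q hq A hA g⁻¹ (inv_mem hg)]
  ext x
  simp

/-- The local conditions at `T`: those at `S`, unramified elsewhere. -/
noncomputable def extendConditions
    (L : ∀ v : extArithIndex S, Submodule (ZMod p) (H1 (Rep.res (extArithLoc S v) M))) :
    ∀ v : extArithIndex T, Submodule (ZMod p) (H1 (Rep.res (extArithLoc T v) M))
  | Sum.inl u => L (Sum.inl u)
  | Sum.inr q => if h : q.1 ∈ S then L (Sum.inr ⟨q.1, h⟩) else unramifiedSub q.1 M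

variable (L : ∀ v : extArithIndex S, Submodule (ZMod p) (H1 (Rep.res (extArithLoc S v) M)))

theorem extendConditions_inr_mem (q : ↥T) (h : q.1 ∈ S) :
    extendConditions (T := T) L (Sum.inr q) = L (Sum.inr ⟨q.1, h⟩) :=
  dif_pos h

theorem extendConditions_inr_not_mem (q : ↥T) (h : q.1 ∉ S) :
    extendConditions (T := T) L (Sum.inr q) = unramifiedSub q.1 M :=
  dif_neg h

theorem extendConditions_le
    (hL : ∀ v, L v ≤ continuousH1 (extArithLoc S v) (Rep.res (extArithLoc S v) M)) :
    ∀ v : extArithIndex T, extendConditions L v ≤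
      continuousH1 (extArithLoc T v) (Rep.res (extArithLoc T v) M)
  | Sum.inl u => hL (Sum.inl u)
  | Sum.inr q => by
    by_cases h : q.1 ∈ S
    · rw [extendConditions_inr_mem L q h]
      exact hL (Sum.inr ⟨q.1, h⟩)
    · rw [extendConditions_inr_not_mem L q h]
      exact unramifiedSub_le_continuousH1 q.1 M

theorem selmerAdm_extend (hST : S ⊆ T) (hur : GWUnramifiedOutside M S) :
    selmerAdm (extArithLoc T) M (extendConditions L) (continuousH1S T M) =
      selmerAdm (extArithLoc S) M L (continuousH1S S M) := by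
  ext x
  rw [mem_selmerAdm_iff, mem_selmerAdm_iff]
  constructor
  · rintro ⟨hloc, hx⟩
    refine ⟨?_, mem_continuousH1S_of_unramified hur hx fun r hrT hrS => ?_⟩
    · rintro (u | q)
      · exact hloc (Sum.inl u)
      · have := hloc (Sum.inr ⟨q.1, hST q.2⟩)
        rw [extendConditions_inr_mem L ⟨q.1, hST q.2⟩ q.2] at this
        exact this
    · have := hloc (Sum.inr ⟨r, hrT⟩)
      rw [extendConditions_inr_not_mem L ⟨r, hrT⟩ hrS] at this
      exact this
  · rintro ⟨hloc, hx⟩
    refine ⟨?_, continuousH1S_mono M hST hx⟩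
    rintro (u | q)
    · exact hloc (Sum.inl u)
    · by_cases h : q.1 ∈ S
      · rw [extendConditions_inr_mem L q h]
        exact hloc (Sum.inr ⟨q.1, h⟩)
      · rw [extendConditions_inr_not_mem L q h]
        exact resAt_mem_unramified q.1 hx h

theorem dualSelmerAdm_extend (hST : S ⊆ T) (hpS : pPrime p ∈ S)
    (hur : GWUnramifiedOutside M S)
    (Bfin : ∀ q, LocalPairing M (primeLocalToGlobal q)) (Binf : LocalPairing M archimedeanLoc)
    (horth : ∀ q, UnramifiedIsOrthogonal M q (Bfin q)) :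
    selmerAdm (extArithLoc T) (M.dualTwist (cycloChar p))
        (dualConditions (extArithLoc T) M (M.dualTwist (cycloChar p))
          (gwPairing M Bfin Binf T) (extendConditions L))
        (continuousH1S T (M.dualTwist (cycloChar p))) =
      selmerAdm (extArithLoc S) (M.dualTwist (cycloChar p))
        (dualConditions (extArithLoc S) M (M.dualTwist (cycloChar p)) (gwPairing M Bfin Binf S) L)
        (continuousH1S S (M.dualTwist (cycloChar p))) := by
  have hur' := dualTwist_unramified hur hpS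
  have hne : ∀ q : Nat.Primes, q ∉ S → (q : ℕ) ≠ p := fun q hq h => hq (by
    have : q = pPrime p := Subtype.ext h
    rwa [this])
  have hM : ∀ q : Nat.Primes, q ∉ S → ∀ g, primeLocalToGlobal q g ∈
      (primeLocalPlace q).inertiaSubgroupIn ℚ → M.ρ (primeLocalToGlobal q g) = 1 :=
    fun q hq g hg => hur q hq _ (padicPlace_liesOverPrime q) _ hg
  ext x
  simp only [mem_selmerAdm_iff, dualConditions, mem_orthogonal_iff]
  constructor
  · rintro ⟨hloc, hx⟩
    refine ⟨?_, mem_continuousH1S_of_unramified hur' hx fun r hrT hrS => ?_⟩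
    · rintro (u | q) z hz
      · exact hloc (Sum.inl u) z hz
      · exact hloc (Sum.inr ⟨q.1, hST q.2⟩) z
          (by rw [extendConditions_inr_mem L ⟨q.1, hST q.2⟩ q.2]; exact hz)
    · rw [mem_unramifiedSub_iff]
      refine (((horth r).2 (hne r hrS) (hM r hrS)).1 _
        (locRes_mem_continuousH1 _ T (Sum.inr ⟨r, hrT⟩) hx)).2 fun z hz => ?_
      exact hloc (Sum.inr ⟨r, hrT⟩) z
        (by rw [extendConditions_inr_not_mem L ⟨r, hrT⟩ hrS]; exact hz)
  · rintro ⟨hloc, hx⟩
    refine ⟨?_, continuousH1S_mono (M.dualTwist (cycloChar p)) hST hx⟩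
    rintro (u | q) z hz
    · exact hloc (Sum.inl u) z hz
    · by_cases h : q.1 ∈ S
      · rw [extendConditions_inr_mem L q h] at hz
        exact hloc (Sum.inr ⟨q.1, h⟩) z hz
      · rw [extendConditions_inr_not_mem L q h] at hz
        have hy := resAt_mem_unramified q.1 hx h
        exact (((horth q.1).2 (hne q.1 h) (hM q.1 h)).1 _
          (unramifiedSub_le_continuousH1 _ _ hy)).1 hy z hz

/-- Splitting a sum over `T` and infinity along `S`. -/
theorem sum_extArithIndex (hST : S ⊆ T) (f : extArithIndex T → ℕ) (g : extArithIndex S → ℕ)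
    (d : Nat.Primes → ℕ) (hinl : ∀ u, f (Sum.inl u) = g (Sum.inl u))
    (hS : ∀ q (hqT : q ∈ T) (hqS : q ∈ S), f (Sum.inr ⟨q, hqT⟩) = g (Sum.inr ⟨q, hqS⟩))
    (hd : ∀ q (hqT : q ∈ T), q ∉ S → f (Sum.inr ⟨q, hqT⟩) = d q) :
    ∑ v, f v = ∑ v, g v + ∑ q ∈ T \ S, d q := by
  classical
  show ∑ v : Unit ⊕ ↥T, f v = ∑ v : Unit ⊕ ↥S, g v + _
  rw [Fintype.sum_sum_type, Fintype.sum_sum_type]
  have e1 : ∑ u : Unit, f (Sum.inl u) = ∑ u : Unit, g (Sum.inl u) :=
    Finset.sum_congr rfl fun u _ => hinl u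
  let f' : Nat.Primes → ℕ := fun q => if h : q ∈ T then f (Sum.inr ⟨q, h⟩) else 0
  have e2 : ∑ q : ↥T, f (Sum.inr q) = ∑ q ∈ T, f' q := by
    rw [← Finset.sum_coe_sort T f']
    exact Finset.sum_congr rfl fun q _ => by
      show f (Sum.inr q) = dite _ _ _
      rw [dif_pos q.2]
  have e3 : ∑ q : ↥S, g (Sum.inr q) = ∑ q ∈ S, f' q := by
    rw [← Finset.sum_coe_sort S f']
    exact Finset.sum_congr rfl fun q _ => by
      show g (Sum.inr q) = dite _ _ _
      rw [dif_pos (hST q.2), hS q.1 (hST q.2) q.2]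
  have e4 : ∑ q ∈ T \ S, f' q = ∑ q ∈ T \ S, d q := Finset.sum_congr rfl fun q hq => by
    obtain ⟨hqT, hqS⟩ := Finset.mem_sdiff.1 hq
    show dite _ _ _ = d q
    rw [dif_pos hqT, hd q hqT hqS]
  rw [e1, e2, e3, ← e4, ← Finset.sum_sdiff hST]
  ring

/-- Greenberg-Wiles at `S` for the Tate pairings. -/
theorem greenbergWiles_tate (M : Rep (ZMod p) Γℚ) [FiniteDimensional (ZMod p) M]
    (hsm : ∀ m : M, ∃ F : IntermediateField ℚ (AlgebraicClosure ℚ), FiniteDimensional ℚ F ∧
      ∀ s ∈ F.fixingSubgroup, M.ρ s m = m)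
    (S : Finset Nat.Primes) (hpS : pPrime p ∈ S) (hur : GWUnramifiedOutside M S)
    (L : ∀ v : extArithIndex S, Submodule (ZMod p) (H1 (Rep.res (extArithLoc S v) M)))
    (hL : ∀ v, L v ≤ continuousH1 (extArithLoc S v) (Rep.res (extArithLoc S v) M)) :
    FiniteDimensional (ZMod p) (selmerAdm (extArithLoc S) M L (continuousH1S S M)) ∧
    FiniteDimensional (ZMod p) (selmerAdm (extArithLoc S) (M.dualTwist (cycloChar p))
      (dualConditions (extArithLoc S) M (M.dualTwist (cycloChar p))
        (gwPairing M (tateFin M) (tateInf M) S) L)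
      (continuousH1S S (M.dualTwist (cycloChar p)))) ∧
    (∀ v, FiniteDimensional (ZMod p) (L v)) ∧
    finrank (ZMod p) (selmerAdm (extArithLoc S) M L (continuousH1S S M))
        + finrank (ZMod p) (M.dualTwist (cycloChar p)).ρ.invariants
        + ∑ v, finrank (ZMod p) (Rep.res (extArithLoc S v) M).ρ.invariants
      = finrank (ZMod p) (selmerAdm (extArithLoc S) (M.dualTwist (cycloChar p))
          (dualConditions (extArithLoc S) M (M.dualTwist (cycloChar p))
            (gwPairing M (tateFin M) (tateInf M) S) L)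
          (continuousH1S S (M.dualTwist (cycloChar p))))
        + finrank (ZMod p) M.ρ.invariants
        + ∑ v, finrank (ZMod p) (L v) := by
  obtain ⟨T, hST, hf₁, hf₂, hc⟩ := exists_globalCount M hsm S hpS hur
  have hpT : pPrime p ∈ T := hST hpS
  have hurT : GWUnramifiedOutside M T := hur.mono hST
  have hcount : EulerCount M T :=
    ⟨hf₁, hf₂, by
      have := sum_finrank_continuousH1 M hsm T hpT
      omega⟩
  have hmid := middleExact_tate M hsm T hpT hurT
  obtain ⟨h₁, h₂, h₃, h₄⟩ := greenbergWiles_at M T (tateFin M) (tateInf M) (tateFin_perfect M hsm)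
    (tateInf_perfect M hsm) hmid hcount (extendConditions L) (extendConditions_le L hL)
  rw [selmerAdm_extend L hST hur] at h₁ h₄
  rw [dualSelmerAdm_extend L hST hpS hur _ _ (tateFin_unramified M hsm)] at h₂ h₄
  refine ⟨h₁, h₂, ?_, ?_⟩
  · rintro (u | q)
    · exact h₃ (Sum.inl u)
    · have := h₃ (Sum.inr ⟨q.1, hST q.2⟩)
      rw [extendConditions_inr_mem L ⟨q.1, hST q.2⟩ q.2] at this
      exact this
  let d : Nat.Primes → ℕ := fun q =>
    finrank (ZMod p) (Rep.res (primeLocalToGlobal q) M).ρ.invariants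
  have hs1 : ∑ v, finrank (ZMod p) (Rep.res (extArithLoc T v) M).ρ.invariants =
      ∑ v, finrank (ZMod p) (Rep.res (extArithLoc S v) M).ρ.invariants + ∑ q ∈ T \ S, d q :=
    sum_extArithIndex hST _ _ d (fun _ => rfl) (fun _ _ _ => rfl) (fun _ _ _ => rfl)
  have hs2 : ∑ v, finrank (ZMod p) (extendConditions (T := T) L v) =
      ∑ v, finrank (ZMod p) (L v) + ∑ q ∈ T \ S, d q :=
    sum_extArithIndex hST _ _ d (fun _ => rfl)
      (fun q hqT hqS => by rw [extendConditions_inr_mem L ⟨q, hqT⟩ hqS]; rfl)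
      (fun q hqT hqS => by
        rw [extendConditions_inr_not_mem L ⟨q, hqT⟩ hqS, ← span_unramifiedClasses]
        refine finrank_span_unramifiedClasses M hsm q (fun h => hqS ?_)
          (fun g hg => hur q hqS _ (padicPlace_liesOverPrime q) _ hg)
        have : q = pPrime p := Subtype.ext h
        rwa [this])
  omega

end FermatLib.CFT
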