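import Mathlib

/-!
Additive functions of finite-dimensional mod `p` representations.
-/

set_option autoImplicit false

open Module

namespace FermatLib.CFT

/-- A function of representations. -/
abbrev RepFun (k G : Type) [CommRing k] [Monoid G] : Type 1 :=
  ∀ (V : Type) [AddCommGroup V] [Module k V], Representation k G V → ℤ

/-- Additivity on short exact sequences of finite-dimensional representations. -/
structure IsAdditiveRep {k G : Type} [Field k] [Group G] (F : RepFun k G) : Prop where
  add : ∀ (A M B : Type) [AddCommGroup A] [Module k A] [AddCommGroup M] [Module k M]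
    [AddCommGroup B] [Module k B] [FiniteDimensional k M] (ρA : Representation k G A)
    (ρM : Representation k G M) (ρB : Representation k G B) (i : A →ₗ[k] M) (π : M →ₗ[k] B),
    (∀ g x, i (ρA g x) = ρM g (i x)) → (∀ g x, π (ρM g x) = ρB g (π x)) →
    Function.Injective i → Function.Surjective π → LinearMap.range i = LinearMap.ker π →
    F M ρM = F A ρA + F B ρB

variable {k G : Type} [Field k] [Group G]

/-- The restriction of a representation to a stable subspace. -/
def subRep {V : Type} [AddCommGroup V] [Module k V] (ρ : Representation k G V) (W : Submodule k V)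
    (hW : ∀ g, ∀ x ∈ W, ρ g x ∈ W) : Representation k G W where
  toFun g := (ρ g).restrict (hW g)
  map_one' := LinearMap.ext fun x => Subtype.ext (by simp)
  map_mul' g h := LinearMap.ext fun x => Subtype.ext (by simp)

@[simp] theorem coe_subRep {V : Type} [AddCommGroup V] [Module k V] (ρ : Representation k G V)
    (W : Submodule k V) (hW : ∀ g, ∀ x ∈ W, ρ g x ∈ W) (g : G) (x : W) :
    ((subRep ρ W hW g x : W) : V) = ρ g x := rfl

namespace IsAdditiveRep

variable {F : RepFun k G} (hF : IsAdditiveRep F)
include hF

theorem eq_zero_of_subsingleton {V : Type} [AddCommGroup V] [Module k V] [Subsingleton V]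
    (ρ : Representation k G V) : F V ρ = 0 := by
  have h := hF.add V V V ρ ρ ρ LinearMap.id LinearMap.id (fun _ _ => rfl) (fun _ _ => rfl)
    (fun _ _ h => h) (fun x => ⟨x, rfl⟩) (Subsingleton.elim _ _)
  omega

theorem congr {V W : Type} [AddCommGroup V] [Module k V] [AddCommGroup W] [Module k W]
    [FiniteDimensional k W] {ρ : Representation k G V} {σ : Representation k G W} (e : V ≃ₗ[k] W)
    (he : ∀ g x, e (ρ g x) = σ g (e x)) : F V ρ = F W σ := by
  have h := hF.add V W PUnit ρ σ (1 : Representation k G PUnit) e.toLinearMap 0 he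
    (fun g x => rfl) e.injective (fun x => ⟨0, Subsingleton.elim _ _⟩)
    (by rw [LinearMap.ker_zero, LinearEquiv.range])
  rw [hF.eq_zero_of_subsingleton (1 : Representation k G PUnit), add_zero] at h
  exact h.symm

/-- Additivity in the form of a map, its kernel and its image. -/
theorem eq_ker_add_range {V W : Type} [AddCommGroup V] [Module k V] [AddCommGroup W] [Module k W]
    [FiniteDimensional k V] (ρ : Representation k G V) (σ : Representation k G W)
    (f : V →ₗ[k] W) (hf : ∀ g x, f (ρ g x) = σ g (f x))
    (hker : ∀ g, ∀ x ∈ LinearMap.ker f, ρ g x ∈ LinearMap.ker f)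
    (hrange : ∀ g, ∀ x ∈ LinearMap.range f, σ g x ∈ LinearMap.range f) :
    F V ρ = F _ (subRep ρ (LinearMap.ker f) hker) + F _ (subRep σ (LinearMap.range f) hrange) :=
  hF.add _ _ _ _ ρ _ (LinearMap.ker f).subtype f.rangeRestrict (fun _ _ => rfl)
    (fun g x => Subtype.ext (hf g x)) Subtype.val_injective f.surjective_rangeRestrict
    (by rw [Submodule.range_subtype, LinearMap.ker_rangeRestrict])

theorem prod {V W : Type} [AddCommGroup V] [Module k V] [AddCommGroup W] [Module k W]
    [FiniteDimensional k V] [FiniteDimensional k W] (ρ : Representation k G V)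
    (σ : Representation k G W) : F (V × W) (ρ.prod σ) = F V ρ + F W σ :=
  hF.add _ _ _ ρ _ σ (LinearMap.inl k V W) (LinearMap.snd k V W)
    (fun g x => by simp [Representation.prod]) (fun g x => by simp [Representation.prod])
    LinearMap.inl_injective (fun x => ⟨(0, x), rfl⟩) (LinearMap.range_inl k V W)

end IsAdditiveRep

/-- A product of representations. -/
def piRep {ι : Type} {V : ι → Type} [∀ i, AddCommGroup (V i)] [∀ i, Module k (V i)]
    (ρ : ∀ i, Representation k G (V i)) : Representation k G (∀ i, V i) where
  toFun g := LinearMap.pi fun i => (ρ i g) ∘ₗ LinearMap.proj i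
  map_one' := LinearMap.ext fun x => funext fun i => by simp
  map_mul' g h := LinearMap.ext fun x => funext fun i => by simp

@[simp] theorem piRep_apply {ι : Type} {V : ι → Type} [∀ i, AddCommGroup (V i)]
    [∀ i, Module k (V i)] (ρ : ∀ i, Representation k G (V i)) (g : G) (x : ∀ i, V i) (i : ι) :
    piRep ρ g x i = ρ i g (x i) := rfl

theorem IsAdditiveRep.pi {F : RepFun k G} (hF : IsAdditiveRep F) {ι : Type} [Finite ι]
    {V : ι → Type} [∀ i, AddCommGroup (V i)] [∀ i, Module k (V i)]
    [∀ i, FiniteDimensional k (V i)] (ρ : ∀ i, Representation k G (V i)) :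
    F (∀ i, V i) (piRep ρ) = ∑ᶠ i, F (V i) (ρ i) := by
  classical
  have : Fintype ι := Fintype.ofFinite ι
  rw [finsum_eq_sum_of_fintype]
  revert V
  refine Fintype.induction_empty_option (P := fun ι _ => ∀ {V : ι → Type} [∀ i, AddCommGroup (V i)]
    [∀ i, Module k (V i)] [∀ i, FiniteDimensional k (V i)] (ρ : ∀ i, Representation k G (V i)),
    F (∀ i, V i) (piRep ρ) = ∑ i, F (V i) (ρ i)) ?_ ?_ ?_ ι
  · intro α β _ e ih V _ _ _ ρ
    let _ : Fintype α := Fintype.ofEquiv β e.symm
    have h := ih (fun a => ρ (e a))
    rw [← e.sum_comp (fun b => F (V b) (ρ b))]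
    refine Eq.trans ?_ h
    refine hF.congr (LinearEquiv.piCongrLeft' k V e.symm) fun g x => ?_
    rfl
  · intro V _ _ _ ρ
    rw [hF.eq_zero_of_subsingleton, Finset.univ_eq_empty, Finset.sum_empty]
  · intro α _ ih V _ _ _ ρ
    rw [Fintype.sum_option, ← ih (fun a => ρ (some a)), ← hF.prod]
    refine hF.congr (LinearEquiv.piOptionEquivProd k) fun g x => ?_
    rfl

end FermatLib.CFT
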