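import Fermat.Agent.CFT.GWEulerLattice

/-!
Lattices with equal ranks of fixed points of all elements have equal reductions for every
additive function.
-/

set_option autoImplicit false

open Module LinearMap
open scoped TensorProduct

namespace FermatLib.CFT

section Field

variable {k G : Type} [Field k] [Group G] [Fintype G] [CharZero k]

/-- A stable subspace has a stable complement. -/
theorem exists_stable_compl {V : Type} [AddCommGroup V] [Module k V] (ρ : Representation k G V)
    (W : Submodule k V) (hW : ∀ g, ∀ x ∈ W, ρ g x ∈ W) :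
    ∃ Q : Submodule k V, IsCompl W Q ∧ ∀ g, ∀ x ∈ Q, ρ g x ∈ Q := by
  obtain ⟨Q₀, hQ₀⟩ := W.exists_isCompl
  let P : V →ₗ[k] V := W.subtype ∘ₗ Submodule.projectionOnto W Q₀ hQ₀
  let P' : V →ₗ[k] V := (Fintype.card G : k)⁻¹ • ∑ g : G, ρ g ∘ₗ P ∘ₗ ρ g⁻¹
  have hPmem : ∀ v, P v ∈ W := fun v => (W.projectionOnto Q₀ hQ₀ v).2
  have hPid : ∀ v ∈ W, P v = v := fun v hv =>
    congrArg Subtype.val (Submodule.projectionOnto_apply_left hQ₀ ⟨v, hv⟩)
  have hP'mem : ∀ v, P' v ∈ W := fun v => by
    simp only [P', LinearMap.smul_apply, LinearMap.sum_apply, LinearMap.comp_apply]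
    exact W.smul_mem _ (W.sum_mem fun g _ => hW g _ (hPmem _))
  have hP'id : ∀ v ∈ W, P' v = v := fun v hv => by
    simp only [P', LinearMap.smul_apply, LinearMap.sum_apply, LinearMap.comp_apply]
    have h : ∀ g : G, ρ g (P (ρ g⁻¹ v)) = v := fun g => by
      rw [hPid _ (hW _ _ hv), Representation.self_inv_apply]
    simp only [h, Finset.sum_const, Finset.card_univ, ← Nat.cast_smul_eq_nsmul k, smul_smul]
    rw [inv_mul_cancel₀ (Nat.cast_ne_zero.mpr Fintype.card_ne_zero), one_smul]
  have hP'comm : ∀ h v, P' (ρ h v) = ρ h (P' v) := fun h v => by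
    simp only [P', LinearMap.smul_apply, LinearMap.sum_apply, LinearMap.comp_apply, map_smul,
      map_sum]
    congr 1
    refine Fintype.sum_equiv (Equiv.mulLeft h⁻¹) _ _ fun g => ?_
    simp only [Equiv.coe_mulLeft, mul_inv_rev, inv_inv, ← Module.End.mul_apply]
    rw [← mul_assoc (ρ h), show ρ h * ρ (h⁻¹ * g) = ρ g by rw [← map_mul, mul_inv_cancel_left], map_mul]
  refine ⟨LinearMap.ker P', ⟨?_, ?_⟩, fun g x hx => ?_⟩
  · rw [Submodule.disjoint_def]
    exact fun v hv hv' => (hP'id v hv).symm.trans hv'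
  · rw [codisjoint_iff, eq_top_iff]
    intro v _
    refine Submodule.mem_sup.mpr ⟨P' v, hP'mem v, v - P' v, ?_, by simp⟩
    rw [LinearMap.mem_ker, map_sub, hP'id _ (hP'mem v), sub_self]
  · rw [LinearMap.mem_ker] at hx ⊢
    rw [hP'comm, hx, map_zero]

omit [Fintype G] [CharZero k] in
/-- The character is additive on a stable decomposition. -/
theorem character_eq_add_of_isCompl {V : Type} [AddCommGroup V] [Module k V]
    [FiniteDimensional k V] (ρ : Representation k G V) {A B : Submodule k V} (h : IsCompl A B)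
    (hA : ∀ g, ∀ x ∈ A, ρ g x ∈ A) (hB : ∀ g, ∀ x ∈ B, ρ g x ∈ B) (g : G) :
    ρ.character g = (subRep ρ A hA).character g + (subRep ρ B hB).character g := by
  have he : ρ g = (Submodule.prodEquivOfIsCompl A B h).conj
      ((subRep ρ A hA g).prodMap (subRep ρ B hB g)) := by
    refine LinearMap.ext fun v => ?_
    obtain ⟨⟨a, b⟩, rfl⟩ := (Submodule.prodEquivOfIsCompl A B h).surjective v
    rw [LinearEquiv.conj_apply, LinearMap.comp_apply, LinearMap.comp_apply,
      LinearEquiv.coe_coe, LinearEquiv.coe_coe, LinearEquiv.symm_apply_apply]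
    simp
  rw [Representation.character, he, LinearMap.trace_conj', LinearMap.trace_prodMap']
  rfl

/-- In characteristic zero representations with equal characters are isomorphic. -/
theorem exists_equiv_of_character_eq {V W : Type} [AddCommGroup V] [Module k V]
    [FiniteDimensional k V] [AddCommGroup W] [Module k W] [FiniteDimensional k W]
    (ρ : Representation k G V) (σ : Representation k G W)
    (h : ∀ g, ρ.character g = σ.character g) :
    ∃ e : V ≃ₗ[k] W, ∀ g x, e (ρ g x) = σ g (e x) := by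
  have hdim : finrank k V = finrank k W := by
    have := h 1
    rwa [Representation.char_one, Representation.char_one, Nat.cast_inj] at this
  induction hn : finrank k V using Nat.strong_induction_on generalizing V W with
  | _ n ih =>
  rcases subsingleton_or_nontrivial V with hV | hV
  · refine ⟨LinearEquiv.ofFinrankEq V W hdim, fun g x => ?_⟩
    rw [Subsingleton.elim (ρ g x) 0, Subsingleton.elim x 0, map_zero, map_zero]
  have : Invertible (Nat.card G : k) := invertibleOfNonzero (Nat.cast_ne_zero.mpr Nat.card_pos.ne')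
  have hpos : 0 < finrank k (Representation.IntertwiningMap ρ ρ) := by
    refine Module.finrank_pos_iff_exists_ne_zero.mpr
      ⟨LinearMap.id.intertwiningMap_of_isIntertwiningMap ρ ρ fun _ _ => rfl, fun h0 => ?_⟩
    obtain ⟨v, hv⟩ := exists_ne (0 : V)
    exact hv (congrArg (fun f : Representation.IntertwiningMap ρ ρ => f v) h0)
  have heq : finrank k (Representation.IntertwiningMap ρ σ) =
      finrank k (Representation.IntertwiningMap ρ ρ) := by
    have h1 := Representation.card_inv_mul_sum_char_mul_char_eq_finrank ρ σ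
    have h2 := Representation.card_inv_mul_sum_char_mul_char_eq_finrank ρ ρ
    simp only [← h] at h1
    exact Nat.cast_injective (R := k) (h1.symm.trans h2)
  obtain ⟨f, hf⟩ := Module.finrank_pos_iff_exists_ne_zero.mp (heq ▸ hpos)
  have hfe : ∀ g x, f.toLinearMap (ρ g x) = σ g (f.toLinearMap x) := fun g x => f.isIntertwining _ _ g x
  have hK : ∀ g, ∀ x ∈ ker f.toLinearMap, ρ g x ∈ ker f.toLinearMap := fun g x hx => by
    rw [LinearMap.mem_ker] at hx ⊢; rw [hfe, hx, map_zero]
  have hR : ∀ g, ∀ x ∈ range f.toLinearMap, σ g x ∈ range f.toLinearMap := by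
    rintro g _ ⟨x, rfl⟩; exact ⟨ρ g x, hfe g x⟩
  obtain ⟨V', hV', hV's⟩ := exists_stable_compl ρ _ hK
  obtain ⟨W', hW', hW's⟩ := exists_stable_compl σ _ hR
  let u : V' ≃ₗ[k] range f.toLinearMap :=
    (Submodule.quotientEquivOfIsCompl _ _ hV').symm.trans f.toLinearMap.quotKerEquivRange
  have hu' : ∀ x : V', (u x : W) = f.toLinearMap x := fun x => rfl
  have hu : ∀ g (x : V'), u (subRep ρ V' hV's g x) = subRep σ _ hR g (u x) := fun g x =>
    Subtype.ext (by rw [hu', coe_subRep, coe_subRep, hu', hfe])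
  have hchar : ∀ g, (subRep ρ _ hK).character g = (subRep σ W' hW's).character g := by
    intro g
    have e0 : (subRep ρ V' hV's).character g = (subRep σ _ hR).character g := by
      have : subRep σ _ hR g = u.conj (subRep ρ V' hV's g) := LinearMap.ext fun y => by
        obtain ⟨x, rfl⟩ := u.surjective y
        rw [LinearEquiv.conj_apply_apply, LinearEquiv.symm_apply_apply, hu]
      rw [Representation.character, Representation.character, this, LinearMap.trace_conj']
    have e1 := character_eq_add_of_isCompl ρ hV' hK hV's g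
    have e2 := character_eq_add_of_isCompl σ hW' hR hW's g
    rw [h g, e2, e0] at e1
    linear_combination -e1
  have hlt : finrank k (ker f.toLinearMap) < n := by
    rw [← hn]
    refine Submodule.finrank_lt fun htop => hf ?_
    exact Representation.IntertwiningMap.ext (LinearMap.ker_eq_top.mp htop)
  have hdim' : finrank k (ker f.toLinearMap) = finrank k W' := by
    have h1 := Submodule.finrank_add_eq_of_isCompl hV'
    have h2 := Submodule.finrank_add_eq_of_isCompl hW'
    rw [u.finrank_eq] at h1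
    omega
  obtain ⟨e₁, he₁⟩ := ih _ hlt (subRep ρ _ hK) (subRep σ W' hW's) hchar hdim' rfl
  let e : V ≃ₗ[k] W := (Submodule.prodEquivOfIsCompl _ _ hV').symm.trans
    ((e₁.prodCongr u).trans ((LinearEquiv.prodComm k _ _).trans
      (Submodule.prodEquivOfIsCompl _ _ hW')))
  have hap : ∀ (a : ker f.toLinearMap) (b : V'),
      e ((a : V) + b) = (u b : W) + (e₁ a : W) := fun a b => by
    rw [show (a : V) + b = Submodule.prodEquivOfIsCompl _ _ hV' (a, b) from by simp]
    simp [e, add_comm]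
  refine ⟨e, fun g x => ?_⟩
  obtain ⟨⟨a, b⟩, rfl⟩ := (Submodule.prodEquivOfIsCompl _ _ hV').surjective x
  rw [Submodule.coe_prodEquivOfIsCompl']
  have h1 := hap (subRep ρ _ hK g a) (subRep ρ V' hV's g b)
  rw [he₁, hu, coe_subRep, coe_subRep, coe_subRep, coe_subRep] at h1
  rw [map_add, h1, hap, map_add]

end Field

variable {G : Type} [Group G] [Fintype G] {L L' : Type} [AddCommGroup L] [AddCommGroup L']
  [Module.Free ℤ L] [Module.Finite ℤ L] [Module.Free ℤ L'] [Module.Finite ℤ L']

/-- The rationalisation of a lattice representation. -/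
noncomputable def ratRep (ρ : Representation ℤ G L) : Representation ℚ G (ℚ ⊗[ℤ] L) where
  toFun g := (ρ g).baseChange ℚ
  map_one' := by rw [map_one, LinearMap.baseChange_one]
  map_mul' g h := by rw [map_mul, LinearMap.baseChange_mul]

omit [Fintype G] in
theorem ratRep_character (ρ : Representation ℤ G L) (g : G) :
    (ratRep ρ).character g = (trace ℤ L (ρ g) : ℤ) :=
  LinearMap.trace_baseChange (ρ g) ℚ

/-- Lattices with equal traces embed equivariantly with cokernel killed by a nonzero integer. -/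
theorem exists_injective_of_trace_eq (ρ : Representation ℤ G L) (σ : Representation ℤ G L')
    (h : ∀ g, trace ℤ L (ρ g) = trace ℤ L' (σ g)) :
    ∃ φ : L →+ L', Function.Injective φ ∧ (∀ g x, φ (ρ g x) = σ g (φ x)) ∧
      ∃ n : ℕ, n ≠ 0 ∧ ∀ y, ∃ x, φ x = (n : ℤ) • y := by
  classical
  obtain ⟨e, he⟩ := exists_equiv_of_character_eq (ratRep ρ) (ratRep σ) fun g => by
    rw [ratRep_character, ratRep_character, h]
  let jL : L →+ ℚ ⊗[ℤ] L := (TensorProduct.mk ℤ ℚ L 1).toAddMonoidHom
  let jL' : L' →+ ℚ ⊗[ℤ] L' := (TensorProduct.mk ℤ ℚ L' 1).toAddMonoidHom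
  have hinj : ∀ (A : Type) [AddCommGroup A] [Module.Free ℤ A],
      Function.Injective (fun x : A => (1 : ℚ) ⊗ₜ[ℤ] x) := fun A _ _ x y hxy => by
    let b := Module.Free.chooseBasis ℤ A
    refine b.repr.injective (Finsupp.ext fun i => Int.cast_injective (α := ℚ) ?_)
    simpa [Algebra.TensorProduct.basis_repr_tmul, Finsupp.mapRange_apply] using
      congrArg (fun v => (Algebra.TensorProduct.basis ℚ b).repr v i) hxy
  have hden : ∀ (A : Type) [AddCommGroup A] (v : ℚ ⊗[ℤ] A),
      ∃ n : ℕ, n ≠ 0 ∧ ∃ x : A, (n : ℤ) • v = (1 : ℚ) ⊗ₜ[ℤ] x := fun A _ v => by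
    induction v using TensorProduct.induction_on with
    | zero => exact ⟨1, one_ne_zero, 0, by simp⟩
    | tmul r x =>
      refine ⟨r.den, r.den_nz, r.num • x, ?_⟩
      rw [TensorProduct.tmul_smul, TensorProduct.smul_tmul', TensorProduct.smul_tmul']
      congr 1
      simp [mul_comm, Rat.mul_den_eq_num]
    | add u v hu hv =>
      obtain ⟨a, ha, x, hx⟩ := hu
      obtain ⟨b, hb, y, hy⟩ := hv
      refine ⟨a * b, mul_ne_zero ha hb, (b : ℤ) • x + (a : ℤ) • y, ?_⟩
      rw [TensorProduct.tmul_add, TensorProduct.tmul_smul, TensorProduct.tmul_smul, ← hx, ← hy,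
        smul_add, smul_smul, smul_smul, Nat.cast_mul, mul_comm (b : ℤ)]
  have common : ∀ (A B : Type) [AddCommGroup A] [AddCommGroup B] [Module.Finite ℤ A]
      (f : A →+ ℚ ⊗[ℤ] B), ∃ n : ℕ, n ≠ 0 ∧ ∀ x, ∃ y : B, (n : ℤ) • f x = (1 : ℚ) ⊗ₜ[ℤ] y := by
    intro A B _ _ _ f
    obtain ⟨s, hs⟩ := ‹Module.Finite ℤ A›
    choose n hn y hy using fun a : A => hden B (f a)
    refine ⟨∏ a ∈ s, n a, Finset.prod_ne_zero_iff.mpr fun a _ => hn a, fun x => ?_⟩
    have hx : x ∈ Submodule.span ℤ (s : Set A) := hs ▸ Submodule.mem_top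
    induction hx using Submodule.span_induction with
    | mem a ha =>
      obtain ⟨c, hc⟩ := Finset.dvd_prod_of_mem n ha
      refine ⟨(c : ℤ) • y a, ?_⟩
      rw [hc, mul_comm, Nat.cast_mul, mul_smul, hy, TensorProduct.tmul_smul]
    | zero => exact ⟨0, by simp⟩
    | add u v _ _ hu hv =>
      obtain ⟨a, ha⟩ := hu; obtain ⟨b, hb⟩ := hv
      exact ⟨a + b, by rw [map_add, smul_add, ha, hb, TensorProduct.tmul_add]⟩
    | smul c u _ hu =>
      obtain ⟨a, ha⟩ := hu
      exact ⟨c • a, by rw [map_zsmul, smul_comm, ha, TensorProduct.tmul_smul]⟩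
  obtain ⟨N, hN, hNspec⟩ := common L L' ((e.toLinearMap.toAddMonoidHom).comp jL)
  obtain ⟨M, hM, hMspec⟩ := common L' L ((e.symm.toLinearMap.toAddMonoidHom).comp jL')
  choose φ hφ using hNspec
  choose ψ hψ using hMspec
  let φ' : L →+ L' := AddMonoidHom.mk' φ fun a b => hinj L' (by
    simp only [TensorProduct.tmul_add, ← hφ, map_add, smul_add])
  refine ⟨φ', fun a b hab => hinj L ?_, fun g x => hinj L' ?_, N * M, mul_ne_zero hN hM,
    fun y => ⟨ψ y, hinj L' ?_⟩⟩
  · have := (hφ a).trans ((congrArg (fun z => (1 : ℚ) ⊗ₜ[ℤ] z) hab).trans (hφ b).symm)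
    rw [← Int.cast_smul_eq_zsmul ℚ, ← Int.cast_smul_eq_zsmul ℚ] at this
    exact e.injective (smul_right_injective _
      (Int.cast_ne_zero.mpr (Int.natCast_ne_zero.mpr hN)) this)
  · show (1 : ℚ) ⊗ₜ[ℤ] φ (ρ g x) = (1 : ℚ) ⊗ₜ[ℤ] σ g (φ x)
    rw [← hφ, show (1 : ℚ) ⊗ₜ[ℤ] σ g (φ x) = ratRep σ g ((1 : ℚ) ⊗ₜ[ℤ] φ x) from rfl, ← hφ,
      map_zsmul]
    exact congrArg _ (he g ((1 : ℚ) ⊗ₜ[ℤ] x))
  · show (1 : ℚ) ⊗ₜ[ℤ] φ (ψ y) = (1 : ℚ) ⊗ₜ[ℤ] (((N * M : ℕ) : ℤ) • y)
    rw [← hφ, TensorProduct.tmul_smul, Nat.cast_mul, mul_smul]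
    show (N : ℤ) • e ((1 : ℚ) ⊗ₜ[ℤ] ψ y) = _
    rw [← hψ, map_zsmul]
    exact congrArg _ (congrArg _ (e.apply_symm_apply _))

/-- Equal traces give equal values of every additive function on the reductions. -/
theorem latHom_eq_of_trace_eq {p : ℕ} [Fact p.Prime] {F : RepFun (ZMod p) G}
    (hF : IsAdditiveRep F) {M : Type} [AddCommGroup M] [Module (ZMod p) M]
    [FiniteDimensional (ZMod p) M] (ρ : Representation ℤ G L) (σ : Representation ℤ G L')
    (ρM : Representation (ZMod p) G M) (h : ∀ g, trace ℤ L (ρ g) = trace ℤ L' (σ g)) :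
    F _ (latHom ρ ρM) = F _ (latHom σ ρM) := by
  obtain ⟨φ, hinj, hφ, n, hn, hcok⟩ := exists_injective_of_trace_eq ρ σ h
  have := Module.Finite.iff_addGroup_fg.mp (inferInstance : Module.Finite ℤ L)
  have := Module.Finite.iff_addGroup_fg.mp (inferInstance : Module.Finite ℤ L')
  have : IsAddTorsionFree L' := Module.isTorsionFree_int_iff_isAddTorsionFree.mp inferInstance
  exact latHom_eq_of_injective hF ρ σ ρM φ hφ hinj hn hcok

end FermatLib.CFT
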