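import Fermat.Agent.CFT.GWEulerUnitsCore
import Fermat.Agent.CFT.DualGlobal

/-!
Maps from relation lattices into classes modulo units of a level lift to idele classes.
-/

set_option autoImplicit false

open CategoryTheory Module groupCohomology ExtCitation NumberField

namespace FermatLib.CFT

local notation "Γℚ" => AlgebraicClosure ℚ ≃ₐ[ℚ] AlgebraicClosure ℚ

variable {p : ℕ} [Fact p.Prime] {M : Rep (ZMod p) Γℚ} {T : Finset Nat.Primes}
  (D : GWKummer.Level M T)
  {V : Type} [AddCommGroup V] [Module (ZMod p) V] (σ : Representation (ZMod p) D.Gal V)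
  {ι : Type} [Fintype ι] (v : ι → RepMod σ)

/-- The lifting input of global duality holds at every level. -/
theorem liftsToClasses : LiftsToClasses D σ v := by
  intro hq hh
  haveI := (presKer_free_finite (G := D.Gal) v).1
  obtain ⟨h, h1, h2⟩ := GWKummer.exists_lift_classModUnits
    ((isUnramifiedOutside_iff D.field T).1 D.unramified) hq hh
  exact ⟨h, h1, h2⟩

end FermatLib.CFT
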