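import Fermat.Agent.CFT.DualFinal
import Fermat.Agent.CFT.GWEulerUnits

/-!
Duality between `Ext¹` into the classes modulo units and `H¹`.
-/

set_option autoImplicit false

open CategoryTheory Module groupCohomology ExtCitation

namespace FermatLib.CFT

local notation "Γℚ" => AlgebraicClosure ℚ ≃ₐ[ℚ] AlgebraicClosure ℚ

variable {p : ℕ} [Fact p.Prime] {M : Rep (ZMod p) Γℚ} {T : Finset Nat.Primes}
  (D : GWKummer.Level M T)

/-- Duality, dimension form: `Ext¹_G(V, C_T)` has the size of `H¹(G_T, V)`. -/
theorem natCard_ext1_classModUnits (hpT : pPrime p ∈ T) {V : Type} [AddCommGroup V]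
    [Module (ZMod p) V] [FiniteDimensional (ZMod p) V] (σ : Representation (ZMod p) D.Gal V)
    {ι : Type} [Fintype ι] (v : ι → RepMod σ)
    (hv : Function.Surjective (presMap (G := D.Gal) v)) :
    FiniteDimensional (ZMod p) (continuousH1S T (inflRep D σ)) ∧
    Finite (ext1 D.Gal (ClassModUnits D.field (T : Set Nat.Primes)) v) ∧
    Nat.card (ext1 D.Gal (ClassModUnits D.field (T : Set Nat.Primes)) v) =
      Nat.card (continuousH1S T (inflRep D σ)) := by
  exact natCard_ext1_classModUnits_of_lifts D σ v hpT hv (liftsToClasses D σ v)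

/-- Duality, naturality: pulling back along a quotient and pushing forward have equal ranks. -/
theorem natCard_range_ext1Pull_classModUnits (hpT : pPrime p ∈ T) {V W : Type} [AddCommGroup V]
    [Module (ZMod p) V] [FiniteDimensional (ZMod p) V] [AddCommGroup W] [Module (ZMod p) W]
    (σ : Representation (ZMod p) D.Gal V) (τ : Representation (ZMod p) D.Gal W)
    (π : V →ₗ[ZMod p] W) (hπ : ∀ g x, π (σ g x) = τ g (π x)) (hsurj : Function.Surjective π)
    {ι : Type} [Fintype ι] (v : ι → RepMod σ)
    (hv : Function.Surjective (presMap (G := D.Gal) v))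
    (π' : RepMod σ →+ RepMod τ) (hπ' : ∀ x, π' (toRepMod σ x) = toRepMod τ (π x))
    (hπ'e : ∀ (g : D.Gal) x, π' (g • x) = g • π' x) :
    Nat.card ↥(ext1Pull (ClassModUnits D.field (T : Set Nat.Primes)) π' hπ'e v).range =
      Nat.card ((continuousH1S T (inflRep D σ)).map (inflH1Map D π hπ)) := by
  exact natCard_range_ext1Pull_classModUnits_of_lifts D σ τ v hpT π hπ hsurj π' hπ' hπ'e hv
    (liftsToClasses D σ v) (liftsToClasses D τ (π' ∘ v))
end FermatLib.CFT
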