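import Fermat.Agent.CFT.GWEulerAdditive

/-!
Integral lattices with the same character have the same value under every additive function of
their reductions.

For a lattice `L` and a mod `p` representation `M` we use the representation `L →+ M`.
-/

set_option autoImplicit false

open Module

namespace FermatLib.CFT

variable {p : ℕ} [Fact p.Prime] {G : Type} [Group G]
  {L : Type} [AddCommGroup L] {M : Type} [AddCommGroup M] [Module (ZMod p) M]

/-- The conjugation representation on additive maps from a lattice. -/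
def latHom (ρL : Representation ℤ G L) (ρM : Representation (ZMod p) G M) :
    Representation (ZMod p) G (L →+ M) where
  toFun g :=
    { toFun := fun h => (ρM g).toAddMonoidHom.comp (h.comp (ρL g⁻¹).toAddMonoidHom)
      map_add' := fun a b => AddMonoidHom.ext fun x => by simp
      map_smul' := fun c a => AddMonoidHom.ext fun x => by simp }
  map_one' := LinearMap.ext fun h => AddMonoidHom.ext fun x => by simp
  map_mul' g g' := LinearMap.ext fun h => AddMonoidHom.ext fun x => by simp

@[simp] theorem latHom_apply (ρL : Representation ℤ G L) (ρM : Representation (ZMod p) G M) (g : G)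
    (h : L →+ M) (x : L) : latHom ρL ρM g h x = ρM g (h (ρL g⁻¹ x)) := rfl

instance latHom_finiteDimensional [AddGroup.FG L] [FiniteDimensional (ZMod p) M] :
    FiniteDimensional (ZMod p) (L →+ M) := by
  obtain ⟨s, hs⟩ := AddGroup.fg_def.mp ‹AddGroup.FG L›
  refine FiniteDimensional.of_injective
    ({ toFun := fun h (x : s) => h x
       map_add' := fun _ _ => rfl
       map_smul' := fun _ _ => rfl } : (L →+ M) →ₗ[ZMod p] (s → M)) fun a b hab => ?_
  exact AddMonoidHom.eq_of_eqOn_dense hs fun x hx => congrFun hab ⟨x, hx⟩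

/-- Extension of an additive map into a mod `p` space, given that it kills the multiples of `p`. -/
theorem exists_extend_of_zsmul_eq_zero {N : Type} [AddCommGroup N] (ι : N →+ L) (h : N →+ M)
    (hp : ∀ (x : N) (y : L), ι x = (p : ℤ) • y → h x = 0) :
    ∃ H : L →+ M, ∀ x, H (ι x) = h x := by
  let P : AddSubgroup L := (zsmulAddGroupHom (p : ℤ) : L →+ L).range
  have hpQ : ∀ x : L ⧸ P, p • x = 0 := by
    intro x
    obtain ⟨y, rfl⟩ := QuotientAddGroup.mk'_surjective P x
    rw [← map_nsmul, QuotientAddGroup.mk'_apply, QuotientAddGroup.eq_zero_iff]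
    exact ⟨y, by simp⟩
  letI instQ : Module (ZMod p) (L ⧸ P) := AddCommGroup.zmodModule (n := p) (G := L ⧸ P) hpQ
  let f : N →+ L ⧸ P := (QuotientAddGroup.mk' P).comp ι
  have hker : ∀ x, f x = 0 → h x = 0 := fun x hx => by
    obtain ⟨y, hy⟩ := (QuotientAddGroup.eq_zero_iff (ι x)).mp hx
    exact hp x y hy.symm
  let φ : f.range →+ M :=
    AddMonoidHom.liftOfSurjective f.rangeRestrict f.rangeRestrict_surjective
      ⟨h, fun x hx => hker x (congrArg Subtype.val hx)⟩
  have hφ : ∀ x, φ (f.rangeRestrict x) = h x := fun x =>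
    AddMonoidHom.liftOfRightInverse_comp_apply _ _ _ _ x
  let R : Submodule (ZMod p) (L ⧸ P) :=
    { carrier := {x | x ∈ f.range}
      add_mem' := fun {a b} (ha : a ∈ f.range) (hb : b ∈ f.range) => f.range.add_mem ha hb
      zero_mem' := f.range.zero_mem
      smul_mem' := fun c x (hx : x ∈ f.range) => by
        show c • x ∈ f.range
        rw [← ZMod.intCast_zmod_cast c, Int.cast_smul_eq_zsmul]
        exact f.range.zsmul_mem hx _ }
  let ψ₀ : ↥R →+ M :=
    { toFun := fun x : ↥R => φ ⟨(x : L ⧸ P), x.2⟩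
      map_zero' := map_zero φ
      map_add' := fun (a b : ↥R) => map_add φ ⟨(a : L ⧸ P), a.2⟩ ⟨(b : L ⧸ P), b.2⟩ }
  let ψ : ↥R →ₗ[ZMod p] M := AddMonoidHom.toZModLinearMap p ψ₀
  obtain ⟨Ψ, hΨ⟩ := LinearMap.exists_extend ψ
  refine ⟨Ψ.toAddMonoidHom.comp (QuotientAddGroup.mk' P), fun x => ?_⟩
  exact (LinearMap.congr_fun hΨ ⟨f x, ⟨x, rfl⟩⟩).trans (hφ x)

variable {L' : Type} [AddCommGroup L']

/-- Restriction of additive maps along an equivariant map of lattices. -/
def latPre (φ : L →+ L') : (L' →+ M) →ₗ[ZMod p] (L →+ M) where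
  toFun h := h.comp φ
  map_add' _ _ := rfl
  map_smul' _ _ := rfl

@[simp] theorem latPre_apply (φ : L →+ L') (h : L' →+ M) (x : L) :
    latPre (p := p) φ h x = h (φ x) := rfl

theorem latPre_equivariant (ρL : Representation ℤ G L) (ρL' : Representation ℤ G L')
    (ρM : Representation (ZMod p) G M) (φ : L →+ L') (hφ : ∀ g x, φ (ρL g x) = ρL' g (φ x))
    (g : G) (h : L' →+ M) : latPre (p := p) φ (latHom ρL' ρM g h) = latHom ρL ρM g (latPre (p := p) φ h) :=
  AddMonoidHom.ext fun x => by simp [hφ]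

/-- One step: `L → L'` injective with `p L'` in its image. -/
theorem latHom_eq_of_step {F : RepFun (ZMod p) G} (hF : IsAdditiveRep F)
    [FiniteDimensional (ZMod p) M] [AddGroup.FG L] [AddGroup.FG L'] [IsAddTorsionFree L']
    (ρL : Representation ℤ G L) (ρL' : Representation ℤ G L') (ρM : Representation (ZMod p) G M)
    (φ : L →+ L') (hinj : Function.Injective φ) (hφ : ∀ g x, φ (ρL g x) = ρL' g (φ x))
    (ψ : L' →+ L) (hψ : ∀ y, φ (ψ y) = (p : ℤ) • y) :
    F _ (latHom ρL ρM) = F _ (latHom ρL' ρM) := by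
  have hψφ : ∀ x, ψ (φ x) = (p : ℤ) • x := fun x => hinj (by rw [hψ, map_zsmul])
  have hψe : ∀ g x, ψ (ρL' g x) = ρL g (ψ x) := fun g x => hinj (by
    rw [hψ, hφ, hψ, map_zsmul])
  have hpM : ∀ m : M, p • m = 0 := fun m => by
    rw [← Nat.cast_smul_eq_nsmul (ZMod p)]; simp
  let r := latPre (p := p) (M := M) φ
  let r' := latPre (p := p) (M := M) ψ
  have hex1 : LinearMap.range r' = LinearMap.ker r := by
    ext f
    constructor
    · rintro ⟨h, rfl⟩
      refine AddMonoidHom.ext fun x => ?_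
      simp [r, r', hψφ, hpM]
    · intro hf
      have hf' : ∀ x, f (φ x) = 0 := fun x => DFunLike.congr_fun (LinearMap.mem_ker.mp hf) x
      obtain ⟨h, hh⟩ := exists_extend_of_zsmul_eq_zero ψ f fun y z hyz => by
        have : (p : ℤ) • y = (p : ℤ) • φ z := by rw [← hψ, hyz, map_zsmul]
        rw [(zsmul_right_injective (Int.natCast_ne_zero.mpr (Fact.out : p.Prime).ne_zero)) this, hf']
      exact ⟨h, AddMonoidHom.ext hh⟩
  have hex2 : LinearMap.range r = LinearMap.ker r' := by
    ext f
    constructor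
    · rintro ⟨h, rfl⟩
      refine AddMonoidHom.ext fun x => ?_
      simp [r, r', hψ, hpM]
    · intro hf
      have hf' : ∀ x, f (ψ x) = 0 := fun x => DFunLike.congr_fun (LinearMap.mem_ker.mp hf) x
      obtain ⟨h, hh⟩ := exists_extend_of_zsmul_eq_zero φ f fun x y hxy => by
        have : x = ψ y := hinj (by rw [hψ, hxy])
        rw [this, hf']
      exact ⟨h, AddMonoidHom.ext hh⟩
  have he := latPre_equivariant ρL ρL' ρM φ hφ
  have he' := latPre_equivariant ρL' ρL ρM ψ hψe
  have hk : ∀ g, ∀ x ∈ LinearMap.ker r, latHom ρL' ρM g x ∈ LinearMap.ker r := fun g x hx => by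
    rw [LinearMap.mem_ker] at hx ⊢; rw [he, hx, map_zero]
  have hk' : ∀ g, ∀ x ∈ LinearMap.ker r', latHom ρL ρM g x ∈ LinearMap.ker r' := fun g x hx => by
    rw [LinearMap.mem_ker] at hx ⊢; rw [he', hx, map_zero]
  have h1 := hF.eq_ker_add_range (latHom ρL' ρM) (latHom ρL ρM) r he hk (hex2 ▸ hk')
  have h2 := hF.eq_ker_add_range (latHom ρL ρM) (latHom ρL' ρM) r' he' hk' (hex1 ▸ hk)
  have e1 : F _ (subRep (latHom ρL ρM) (LinearMap.range r) (hex2 ▸ hk')) =
      F _ (subRep (latHom ρL ρM) (LinearMap.ker r') hk') :=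
    hF.congr (LinearEquiv.ofEq _ _ hex2) fun _ _ => rfl
  have e2 : F _ (subRep (latHom ρL' ρM) (LinearMap.range r') (hex1 ▸ hk)) =
      F _ (subRep (latHom ρL' ρM) (LinearMap.ker r) hk) :=
    hF.congr (LinearEquiv.ofEq _ _ hex1) fun _ _ => rfl
  omega

/-- A lattice map with cokernel killed by an integer prime to `p` changes nothing. -/
theorem latHom_eq_of_coprime {F : RepFun (ZMod p) G} (hF : IsAdditiveRep F)
    [FiniteDimensional (ZMod p) M] [AddGroup.FG L]
    (ρL : Representation ℤ G L) (ρL' : Representation ℤ G L') (ρM : Representation (ZMod p) G M)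
    (φ : L →+ L') (hφ : ∀ g x, φ (ρL g x) = ρL' g (φ x)) (hinj : Function.Injective φ)
    (m : ℤ) (hm : (m : ZMod p) ≠ 0) (ψ : L' →+ L) (hψ : ∀ y, φ (ψ y) = m • y) :
    F _ (latHom ρL ρM) = F _ (latHom ρL' ρM) := by
  have hψφ : ∀ x, ψ (φ x) = m • x := fun x => hinj (by rw [hψ, map_zsmul])
  have hsm : ∀ (y : M), m • y = (m : ZMod p) • y := fun y => (Int.cast_smul_eq_zsmul (ZMod p) m y).symm
  let e : (L' →+ M) ≃ₗ[ZMod p] (L →+ M) :=
    { latPre φ with
      invFun := fun h => (m : ZMod p)⁻¹ • h.comp ψ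
      left_inv := fun h => AddMonoidHom.ext fun y => by
        show (m : ZMod p)⁻¹ • h (φ (ψ y)) = h y
        rw [hψ, map_zsmul, hsm, inv_smul_smul₀ hm]
      right_inv := fun h => AddMonoidHom.ext fun x => by
        show (m : ZMod p)⁻¹ • h (ψ (φ x)) = h x
        rw [hψφ, map_zsmul, hsm, inv_smul_smul₀ hm] }
  exact (hF.congr (ρ := latHom ρL' ρM) (σ := latHom ρL ρM) e
    (latPre_equivariant ρL ρL' ρM φ hφ)).symm

/-- An equivariant map whose cokernel is killed by a nonzero integer changes nothing. -/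
theorem latHom_eq_of_injective {F : RepFun (ZMod p) G} (hF : IsAdditiveRep F)
    [FiniteDimensional (ZMod p) M] [AddGroup.FG L] [AddGroup.FG L'] [IsAddTorsionFree L']
    (ρL : Representation ℤ G L) (ρL' : Representation ℤ G L') (ρM : Representation (ZMod p) G M)
    (φ : L →+ L') (hφ : ∀ g x, φ (ρL g x) = ρL' g (φ x)) (hinj : Function.Injective φ)
    {n : ℕ} (hn : n ≠ 0) (hcok : ∀ y : L', ∃ x, φ x = (n : ℤ) • y) :
    F _ (latHom ρL ρM) = F _ (latHom ρL' ρM) := by
  induction n using Nat.strong_induction_on generalizing L with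
  | _ n ih =>
  by_cases hpn : p ∣ n
  · obtain ⟨n', rfl⟩ := hpn
    have hn' : n' ≠ 0 := fun h => hn (by simp [h])
    -- the intermediate lattice of points whose `p`-th multiple is in the image
    let N : AddSubgroup L' := φ.range.comap (zsmulAddGroupHom (p : ℤ))
    have hN : ∀ g, ∀ y ∈ N, ρL' g y ∈ N := fun g y ⟨x, hx⟩ =>
      ⟨ρL g x, by rw [hφ, hx]; simp⟩
    let N' : Submodule ℤ L' := AddSubgroup.toIntSubmodule N
    have : AddGroup.FG N := by
      have : Module.Finite ℤ L' := Module.Finite.iff_addGroup_fg.mpr inferInstance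
      have : Module.Finite ℤ N' := inferInstance
      exact Module.Finite.iff_addGroup_fg.mp this
    let ρN : Representation ℤ G N :=
      { toFun := fun g => (AddMonoidHom.codRestrict ((ρL' g).toAddMonoidHom.comp N.subtype) N
            fun x => hN g x x.2).toIntLinearMap
        map_one' := LinearMap.ext fun x => Subtype.ext (by simp)
        map_mul' := fun g h => LinearMap.ext fun x => Subtype.ext (by simp) }
    let φ₁ : L →+ N := φ.codRestrict N fun x =>
      (⟨(p : ℤ) • x, by simp⟩ : φ x ∈ N)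
    have hψ₁ : ∀ y : N, ∃ x, φ₁ x = (p : ℤ) • y := fun y => by
      obtain ⟨x, hx⟩ := y.2
      exact ⟨x, Subtype.ext (by simpa [φ₁] using hx)⟩
    have hinj₁ : Function.Injective φ₁ := fun a b h => hinj (congrArg Subtype.val h)
    choose ψ₁ hψ₁' using hψ₁
    let ψ₁' : N →+ L := AddMonoidHom.mk' ψ₁ fun a b => hinj₁ (by
      rw [hψ₁', map_add, hψ₁', hψ₁', smul_add])
    rw [latHom_eq_of_step hF ρL ρN ρM φ₁ hinj₁ (fun g x => Subtype.ext (hφ g x)) ψ₁' hψ₁']
    refine ih n' (lt_mul_of_one_lt_left (Nat.pos_of_ne_zero hn') (Fact.out : p.Prime).one_lt)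
      ρN N.subtype (fun _ _ => rfl) Subtype.val_injective hn' fun y => ⟨⟨(n' : ℤ) • y, ?_⟩, rfl⟩
    obtain ⟨x, hx⟩ := hcok y
    exact ⟨x, by rw [hx]; simp [mul_smul]⟩
  · have hm : ((n : ℤ) : ZMod p) ≠ 0 := by
      rw [Int.cast_natCast, Ne, ZMod.natCast_eq_zero_iff]; exact hpn
    choose ψ hψ using hcok
    exact latHom_eq_of_coprime hF ρL ρL' ρM φ hφ hinj (n : ℤ) hm
      (AddMonoidHom.mk' ψ fun a b => hinj (by rw [hψ, map_add, hψ, hψ, smul_add])) hψ

end FermatLib.CFT
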