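import Fermat.Agent.CFT.IdeleBasic
import Fermat.Agent.CFT.PresDefs

/-!
Idele classes modulo units as a target of the ideles.
-/

set_option autoImplicit false

namespace FermatLib.CFT

/-- Idele classes modulo units form a commutative group. -/
noncomputable instance classModUnitsAddCommGroup (L : Type) [Field L] [NumberField L]
    (S : Set Nat.Primes) : AddCommGroup (ClassModUnits L S) :=
  { (inferInstance : AddGroup (ClassModUnits L S)) with
    add_comm := fun a b => QuotientAddGroup.induction_on a fun x =>
      QuotientAddGroup.induction_on b fun y => congrArg QuotientAddGroup.mk (add_comm x y) }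

variable (L : Type) [Field L] [NumberField L] (S : Set Nat.Primes)

/-- The class of an idele modulo units. -/
noncomputable def classModUnitsMk : Idele L →+ ClassModUnits L S :=
  (QuotientAddGroup.mk' _).comp (QuotientAddGroup.mk' (principalIdeles L))

theorem classModUnitsMk_surjective : Function.Surjective (classModUnitsMk L S) :=
  (QuotientAddGroup.mk'_surjective _).comp (QuotientAddGroup.mk'_surjective _)

theorem classModUnitsMk_smul (g : L ≃ₐ[ℚ] L) (f : Idele L) :
    classModUnitsMk L S (g • f) = g • classModUnitsMk L S f := rfl

theorem classModUnitsMk_eq_zero_iff (f : Idele L) :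
    classModUnitsMk L S f = 0 ↔
      ∃ a : LUnits L, f - principalIdele L a ∈ unitIdelesOutside L S := by
  refine (QuotientAddGroup.eq_zero_iff _).trans ⟨fun hf => ?_, fun hf => ?_⟩
  · obtain ⟨u, hu, he⟩ := hf
    obtain ⟨a, ha⟩ : ∃ a, principalIdele L a = -u + f := by
      have := QuotientAddGroup.eq.1 he
      rwa [principalIdeles_eq_range] at this
    refine ⟨a, ?_⟩
    rw [ha, show f - (-u + f) = u by abel]
    exact hu
  · obtain ⟨a, ha⟩ := hf
    refine ⟨_, ha, QuotientAddGroup.eq.2 ?_⟩
    rw [principalIdeles_eq_range]
    exact ⟨a, by abel⟩

/-- A principal idele which is a unit outside `S` and trivial at infinity is trivial. -/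
theorem eq_zero_of_principalIdele_mem {a : LUnits L}
    (ha : principalIdele L a ∈ unitIdelesOutside L S) : a = 0 := by
  obtain ⟨χ⟩ : Nonempty (L →+* ℂ) := inferInstance
  have h : (principalIdele L a).inf χ = 0 := congrFun ha.2 χ
  refine LUnits.ext_val (χ.injective ?_)
  rw [LUnits.val_zero, map_one]
  have h1 := congrArg CUnits.toField h
  rw [CUnits.toField_zero] at h1
  exact h1

/-- The principal part of an idele killed by `classModUnitsMk` is unique. -/
theorem eq_of_sub_principalIdele_mem {f : Idele L} {a b : LUnits L}
    (ha : f - principalIdele L a ∈ unitIdelesOutside L S)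
    (hb : f - principalIdele L b ∈ unitIdelesOutside L S) : a = b := by
  refine sub_eq_zero.1 (eq_zero_of_principalIdele_mem L S ?_)
  rw [map_sub, show principalIdele L a - principalIdele L b =
    (f - principalIdele L b) - (f - principalIdele L a) by abel]
  exact sub_mem hb ha

end FermatLib.CFT
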