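import Fermat.Agent.CFT.GWGlobUnits
import Fermat.Agent.CFT.GWKSeqBase
import Fermat.Agent.CFT.DualLift

/-!
Equivariant maps from lattices into the idele classes modulo units lift to idele classes when the
field is unramified outside the set: crossed homomorphisms into maps
from a lattice into local units of an unramified completion are coboundaries.
-/

set_option autoImplicit false

namespace FermatLib.CFT.GWKummer

open FermatLib.CFT

section cobound

variable {Γ : Type*} [Group Γ] [Finite Γ] {G : Type*} [Group G] {A : Type*} [AddCommGroup A]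
  [DistribMulAction Γ A] {X : Type*} [AddCommGroup X] [Module.Free ℤ X] [DistribMulAction G X]

/-- Crossed homomorphisms into maps from a lattice to a subgroup with trivial `H1` and `H2` on all
subgroups are coboundaries. -/
theorem exists_hom_cobound (ρ : Γ →* G) (U : AddSubgroup A) [DistribMulAction Γ U]
    (hcoe : ∀ (γ : Γ) (u : U), ((γ • u : U) : A) = γ • (u : A))
    (h1 : ∀ P : Subgroup Γ, H1Trivial P U) (h2 : ∀ P : Subgroup Γ, H2Trivial P U)
    (z : Γ → X →+ A) (hzU : ∀ s x, z s x ∈ U)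
    (hz : ∀ s t x, z (s * t) x = s • z t ((ρ s)⁻¹ • x) + z s x) :
    ∃ e : X →+ A, (∀ x, e x ∈ U) ∧ ∀ s x, z s x = s • e ((ρ s)⁻¹ • x) - e x := by
  classical
  let I : AddSubgroup ℤ :=
    { carrier := {n | ∃ e : X →+ A, (∀ x, e x ∈ U) ∧
        ∀ s x, n • z s x = s • e ((ρ s)⁻¹ • x) - e x}
      zero_mem' := ⟨0, fun _ => U.zero_mem, fun s x => by simp⟩
      add_mem' := by
        rintro m n ⟨e, he, he'⟩ ⟨f, hf, hf'⟩
        refine ⟨e + f, fun x => U.add_mem (he x) (hf x), fun s x => ?_⟩
        rw [add_smul, he', hf', AddMonoidHom.add_apply, AddMonoidHom.add_apply, smul_add]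
        abel
      neg_mem' := by
        rintro n ⟨e, he, he'⟩
        refine ⟨-e, fun x => U.neg_mem (he x), fun s x => ?_⟩
        rw [neg_smul, he', AddMonoidHom.neg_apply, AddMonoidHom.neg_apply, smul_neg]
        abel }
  have hindex : ∀ (l : ℕ) [Fact l.Prime] (P : Sylow l Γ),
      ((P : Subgroup Γ).index : ℤ) ∈ I := by
    intro l _ P
    have : Fintype (P : Subgroup Γ) := Fintype.ofFinite _
    have : Fintype (Γ ⧸ (P : Subgroup Γ)) := Fintype.ofFinite _
    letI : DistribMulAction ↥(P : Subgroup Γ) X :=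
      DistribMulAction.compHom X (ρ.comp (P : Subgroup Γ).subtype)
    let z₀ : ↥(P : Subgroup Γ) → X →+ U := fun s =>
      AddMonoidHom.mk' (fun x => ⟨z s x, hzU s x⟩) fun x y => Subtype.ext (map_add (z s) x y)
    obtain ⟨a₀, ha₀⟩ := TN.exists_homCoboundary P.isPGroup' (h1 _) (h2 _) z₀ fun s t x =>
      Subtype.ext (by
        rw [AddSubgroup.coe_add, Subgroup.smul_def, hcoe]
        show z ((s : Γ) * t) x = (s : Γ) • z t (ρ ((s⁻¹ : (P : Subgroup Γ)) : Γ) • x) + z s x
        rw [Subgroup.coe_inv, map_inv, hz])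
    set a : X →+ A := U.subtype.comp a₀ with ha
    let z' : Γ → X → A := fun s x => z s x - (s • a ((ρ s)⁻¹ • x) - a x)
    have hz' : ∀ s t x, z' (s * t) x = s • z' t ((ρ s)⁻¹ • x) + z' s x := fun s t x => by
      simp only [z', hz, map_mul, mul_inv_rev, mul_smul, smul_sub]
      abel
    have hP : ∀ s ∈ (P : Subgroup Γ), ∀ x, z' s x = 0 := fun s hs x => by
      have h := congrArg Subtype.val (ha₀ ⟨s, hs⟩ x)
      rw [AddSubgroup.coe_sub, Subgroup.smul_def, hcoe] at h
      show z s x - _ = 0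
      rw [sub_eq_zero, ha]
      refine h.trans ?_
      show s • (a₀ (ρ ((⟨s, hs⟩⁻¹ : (P : Subgroup Γ)) : Γ) • x) : A) - (a₀ x : A) =
        s • (a₀ ((ρ s)⁻¹ • x) : A) - (a₀ x : A)
      rw [Subgroup.coe_inv, map_inv]
    have hk : ∀ k, ∀ s ∈ (P : Subgroup Γ), ∀ x, z' (k * s) x = z' k x := fun k s hs x => by
      rw [hz', hP s hs, smul_zero, zero_add]
    have hzU' : ∀ s x, z' s x ∈ U := fun s x =>
      U.sub_mem (hzU s x) (U.sub_mem (hcoe s (a₀ _) ▸ (s • a₀ ((ρ s)⁻¹ • x)).2) (a₀ x).2)
    let B : X →+ A := AddMonoidHom.mk'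
      (fun x => ∑ c : Γ ⧸ (P : Subgroup Γ), z' c.out x) fun x y => by
        simp only [z', map_add, smul_add, ← Finset.sum_add_distrib]
        exact Finset.sum_congr rfl fun c _ => by abel
    refine ⟨(P : Subgroup Γ).index • a - B, fun x => U.sub_mem (U.nsmul_mem (a₀ x).2 _)
      (U.sum_mem fun c _ => hzU' _ _), fun s x => ?_⟩
    have key : B x = s • B ((ρ s)⁻¹ • x) + (P : Subgroup Γ).index • z' s x := by
      show ∑ c : Γ ⧸ (P : Subgroup Γ), z' c.out x =
        s • (∑ c : Γ ⧸ (P : Subgroup Γ), z' c.out ((ρ s)⁻¹ • x)) + _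
      rw [Finset.smul_sum, Subgroup.index_eq_card, Nat.card_eq_fintype_card, ← Finset.card_univ,
        ← Finset.sum_const, ← Finset.sum_add_distrib]
      refine (Fintype.sum_equiv (MulAction.toPerm s) _ _ fun c => ?_).symm
      have hmem : (s • c).out⁻¹ * (s * c.out) ∈ (P : Subgroup Γ) := by
        rw [← QuotientGroup.eq, QuotientGroup.out_eq', ← smul_eq_mul s c.out]
        conv_lhs => rw [← QuotientGroup.out_eq' c]
        rfl
      show _ = z' (s • c).out x
      rw [← hk (s • c).out _ hmem, mul_inv_cancel_left, hz']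
    have e : z' s x = z s x - (s • a ((ρ s)⁻¹ • x) - a x) := rfl
    rw [natCast_zsmul, AddMonoidHom.sub_apply, AddMonoidHom.sub_apply, AddMonoidHom.smul_apply,
      AddMonoidHom.smul_apply, key, e, smul_sub, smul_comm s, nsmul_sub, nsmul_sub]
    abel
  obtain ⟨n, hn⟩ := Int.subgroup_cyclic I
  have hn1 : n.natAbs = 1 := by
    by_contra hne
    obtain ⟨l, hl, hdvd⟩ := Nat.exists_prime_and_dvd hne
    have := Fact.mk hl
    let P : Sylow l Γ := default
    have hi := hindex l P
    rw [hn, AddSubgroup.mem_closure_singleton] at hi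
    obtain ⟨k, hk⟩ := hi
    refine P.not_dvd_index (Int.natCast_dvd_natCast.1 ?_)
    rw [← hk, smul_eq_mul]
    exact Dvd.dvd.mul_left (Int.natCast_dvd.2 hdvd) k
  have h1I : (1 : ℤ) ∈ I := by
    rw [hn, AddSubgroup.mem_closure_singleton]
    rcases Int.natAbs_eq_iff.1 hn1 with h | h <;> subst h
    · exact ⟨1, by simp⟩
    · exact ⟨-1, by simp⟩
  obtain ⟨e, he, he'⟩ := h1I
  exact ⟨e, he, fun s x => by rw [← he', one_zsmul]⟩

end cobound

variable {L : Type} [Field L] [NumberField L] [IsGalois ℚ L]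
  {X : Type*} [AddCommGroup X] [Module.Free ℤ X] [DistribMulAction (L ≃ₐ[ℚ] L) X]

/-- A crossed homomorphism into maps from a lattice to unit ideles bounds at a prime outside `S`. -/
theorem exists_local_cobound {S : Set Nat.Primes} {q : Nat.Primes} (φ : Emb L q)
    (hur : IsUnramifiedAtRel (⊤ : Subgroup (L ≃ₐ[ℚ] L)) q)
    (u : (L ≃ₐ[ℚ] L) → X →+ Idele L)
    (hu : ∀ g g' x, u (g * g') x = g • u g' (g⁻¹ • x) + u g x)
    (hU : ∀ g x, u g x ∈ unitIdelesOutside L S) :
    ∃ w : Emb L q → X →+ QUnits q,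
      (∀ (τ : Gloc q) ψ x, w (ψ.postComp τ) x = τ.onUnits (w ψ x)) ∧
      (∀ ψ x, w ψ x ∈ QUnits.unitGroup q) ∧
      ∀ g ψ x, w (ψ.preComp g) (g⁻¹ • x) - w ψ x = (u g x).fin q ψ := by
  let Γ := completion φ ≃ₐ[ℚ_[(q : ℕ)]] completion φ
  let ρ : Γ →* (L ≃ₐ[ℚ] L) := (decompGroup φ).subtype.comp (decompEquiv φ).symm.toMonoidHom
  let ev : Idele L →+ LocUnits (completion φ) := completionComp φ
  have hev : ∀ (τ : Γ) (f : Idele L), ev (ρ τ • f) = τ • ev f := fun τ f => by
    show localPartEquiv φ (restrictPlace φ (((decompEquiv φ).symm τ : L ≃ₐ[ℚ] L) • f)) = _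
    rw [restrictPlace_smul, localPartEquiv_smul, MulEquiv.apply_symm_apply]
    rfl
  have hevu : ∀ g x, ev (u g x) ∈ Loc.unitGroup (completion φ) := fun g x => by
    rw [Loc.mem_unitGroup]
    show ‖((completionComp φ (u g x)).el : PadicAlgCl (q : ℕ))‖ = 1
    rw [completionComp_el]
    exact (QUnits.mem_unitGroup_iff _).1 ((hU g x).1 q φ).1
  have hI : ∀ P : Subgroup Γ, Loc.inertia (completion φ) ⊓ P = ⊥ := fun P => by
    rw [eq_bot_iff]
    rintro t ⟨ht, -⟩
    obtain ⟨a, rfl⟩ := (decompEquiv φ).surjective t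
    rw [Subgroup.mem_bot, show a = 1 from
      Subtype.ext (hur φ a trivial ((mem_inertiaGroup_iff φ a).2 ht)), map_one]
  haveI : Finite Γ := inferInstance
  obtain ⟨e, he, he'⟩ := exists_hom_cobound ρ (Loc.unitGroup (completion φ)) (fun _ _ => rfl)
    (fun P => Loc.unitGroup_h1Trivial (completion φ) P (hI P))
    (fun P => Loc.unitGroup_h2Trivial (completion φ) P (hI P))
    (fun τ => ev.comp (u (ρ τ))) (fun τ x => hevu _ _) fun s t x => by
      show ev (u (ρ (s * t)) x) = s • ev (u (ρ t) ((ρ s)⁻¹ • x)) + ev (u (ρ s) x)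
      rw [map_mul, hu, map_add, hev]
  let W : (L ≃ₐ[ℚ] L) → X →+ LocUnits (completion φ) := fun h =>
    (e + ev.comp (u h)).comp (DistribSMul.toAddMonoidHom X h)
  have hW : ∀ h x, W h x = e (h • x) + ev (u h (h • x)) := fun h x => rfl
  clear_value W
  refine ⟨fun ψ => (complVal φ).comp (W (autOf φ ψ)), fun τ ψ x => ?_, fun ψ x => ?_,
    fun g ψ x => ?_⟩
  · set a := autOf φ (φ.postComp τ) with ha
    have had : a ∈ decompGroup φ := ⟨τ, (preComp_autOf φ _).symm⟩
    set t : Γ := decompEquiv φ ⟨a, had⟩ with ht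
    have hρ : ρ t = a := by
      show ((decompEquiv φ).symm (decompEquiv φ ⟨a, had⟩) : L ≃ₐ[ℚ] L) = a
      rw [MulEquiv.symm_apply_apply]
    have e1 : autOf φ (ψ.postComp τ) = ρ t * autOf φ ψ := by
      rw [hρ]
      refine φ.preComp_injective ?_
      rw [preComp_autOf, preComp_mul]
      show _ = (φ.preComp a).preComp (autOf φ ψ)
      rw [show φ.preComp a = φ.postComp τ from preComp_autOf φ _, ← postComp_preComp,
        preComp_autOf]
    set h := autOf φ ψ
    have key : W (ρ t * h) x = t • W h x := by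
      have h2 : ev (u (ρ t) (ρ t • h • x)) = t • e (h • x) - e (ρ t • h • x) := by
        have := he' t (ρ t • h • x)
        rw [inv_smul_smul] at this
        exact this
      rw [hW, hW, mul_smul, hu, inv_smul_smul, map_add, hev, h2, smul_add]
      abel
    show complVal φ (W (autOf φ (ψ.postComp τ)) x) = τ.onUnits (complVal φ (W h x))
    rw [e1, key]
    exact QUnits.toField_injective
      (decompEquiv_eq_gloc φ ⟨a, had⟩ (preComp_autOf φ _).symm (W h x).el)
  · have hm : W (autOf φ ψ) x ∈ Loc.unitGroup (completion φ) := by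
      rw [hW]
      exact AddSubgroup.add_mem _ (he (autOf φ ψ • x)) (hevu (autOf φ ψ) (autOf φ ψ • x))
    show complVal φ (W (autOf φ ψ) x) ∈ QUnits.unitGroup q
    generalize W (autOf φ ψ) x = y at hm ⊢
    exact (QUnits.mem_unitGroup_iff _).2 ((Loc.mem_unitGroup (completion φ)).1 hm)
  · have e2 : autOf φ (ψ.preComp g) = autOf φ ψ * g := by
      refine φ.preComp_injective ?_
      rw [preComp_autOf, preComp_mul, preComp_autOf]
    set h := autOf φ ψ with hh
    show complVal φ (W (autOf φ (ψ.preComp g)) (g⁻¹ • x)) - complVal φ (W h x) = _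
    rw [e2, ← map_sub, hW, hW, mul_smul, smul_inv_smul,
      show e (h • x) + ev (u (h * g) (h • x)) - (e (h • x) + ev (u h (h • x))) =
        ev (h • u g x) by rw [hu, inv_smul_smul, map_add]; abel,
      complVal_completionComp]
    show (u g x).fin q (φ.preComp h) = _
    rw [hh, preComp_autOf]

/-- A crossed homomorphism into maps from a lattice to unit ideles outside `S` is a coboundary. -/
theorem exists_unitIdeles_hom_cobound {S : Set Nat.Primes}
    (hur : ∀ q ∉ S, IsUnramifiedAtRel (⊤ : Subgroup (L ≃ₐ[ℚ] L)) q)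
    (u : (L ≃ₐ[ℚ] L) → X →+ Idele L)
    (hu : ∀ g g' x, u (g * g') x = g • u g' (g⁻¹ • x) + u g x)
    (hU : ∀ g x, u g x ∈ unitIdelesOutside L S) :
    ∃ a : X →+ Idele L, (∀ x, a x ∈ unitIdelesOutside L S) ∧
      ∀ g x, u g x = g • a (g⁻¹ • x) - a x := by
  classical
  have hloc : ∀ q : Nat.Primes, q ∉ S → _ := fun q hq =>
    exists_local_cobound (Classical.arbitrary (Emb L q)) (hur q hq) u hu hU
  choose w hw1 hw2 hw3 using hloc
  let v : ∀ q, Emb L q → X →+ QUnits q := fun q ψ => if h : q ∈ S then 0 else w q h ψ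
  have hvS : ∀ q, q ∈ S → ∀ ψ x, v q ψ x = 0 := fun q h ψ x => by
    simp only [v, dif_pos h, AddMonoidHom.zero_apply]
  have hvu : ∀ q ψ x, v q ψ x ∈ QUnits.unitGroup q := fun q ψ x => by
    by_cases h : q ∈ S
    · rw [hvS q h]; exact zero_mem _
    · simp only [v, dif_neg h]; exact hw2 q h ψ x
  let b : X → Idele L := fun x => ⟨(fun q ψ => v q ψ x, 0), fun q τ ψ => by
    by_cases h : q ∈ S
    · show v q _ x = _
      rw [hvS q h]
      exact ((congrArg τ.onUnits (hvS q h ψ x)).trans (map_zero _)).symm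
    · show v q _ x = τ.onUnits (v q ψ x)
      simp only [v, dif_neg h]; exact hw1 q h τ ψ x,
    Set.finite_empty.subset fun q ⟨ψ, hψ⟩ => (hψ (hvu q ψ x)).elim,
    fun ψ => (map_zero conjUnits).symm⟩
  refine ⟨AddMonoidHom.mk' b fun x y => Subtype.ext (Prod.ext
      (funext fun q => funext fun ψ => map_add (v q ψ) x y) (funext fun χ => (add_zero 0).symm)),
    fun x => ⟨fun q ψ => ⟨hvu q ψ x, fun h => hvS q h ψ x⟩, rfl⟩, fun g x => ?_⟩
  refine Subtype.ext (Prod.ext (funext fun q => funext fun ψ => ?_) (funext fun χ => ?_))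
  · show (u g x).fin q ψ = v q (ψ.preComp g) (g⁻¹ • x) - v q ψ x
    by_cases h : q ∈ S
    · rw [hvS q h, hvS q h, sub_zero]
      exact ((hU g x).1 q ψ).2 h
    · simp only [v, dif_neg h]
      exact (hw3 q h g ψ x).symm
  · show (u g x).inf χ = (0 : CUnits) - 0
    rw [sub_zero]
    exact congrFun (hU g x).2 χ

/-- Equivariant maps from lattices to classes modulo units lift to the classes. -/
theorem exists_lift_classModUnits {S : Set Nat.Primes}
    (hur : ∀ q ∉ S, IsUnramifiedAtRel (⊤ : Subgroup (L ≃ₐ[ℚ] L)) q)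
    (hq : X →+ ClassModUnits L S) (hh : ∀ (g : L ≃ₐ[ℚ] L) x, hq (g • x) = g • hq x) :
    ∃ h : X →+ IdeleClass L, (∀ (g : L ≃ₐ[ℚ] L) x, h (g • x) = g • h x) ∧
      ∀ x, (QuotientAddGroup.mk (h x) : ClassModUnits L S) = hq x := by
  obtain ⟨Λ, hΛ⟩ := Module.projective_lifting_property (R := ℤ)
    (classModUnitsMk L S).toIntLinearMap hq.toIntLinearMap (classModUnitsMk_surjective L S)
  have hΛ' : ∀ x, classModUnitsMk L S (Λ x) = hq x := LinearMap.congr_fun hΛ
  let z : (L ≃ₐ[ℚ] L) → X → Idele L := fun g x => g • Λ (g⁻¹ • x) - Λ x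
  have hz0 : ∀ g x, classModUnitsMk L S (z g x) = 0 := fun g x => by
    show classModUnitsMk L S (g • Λ (g⁻¹ • x) - Λ x) = 0
    rw [map_sub, classModUnitsMk_smul, hΛ', hΛ', ← hh, smul_inv_smul, sub_self]
  choose w hw using fun g x => (classModUnitsMk_eq_zero_iff L S _).1 (hz0 g x)
  have hwadd : ∀ g x y, w g (x + y) = w g x + w g y := fun g x y =>
    eq_of_sub_principalIdele_mem L S (hw g (x + y)) (by
      have e : z g (x + y) - principalIdele L (w g x + w g y) =
          (z g x - principalIdele L (w g x)) + (z g y - principalIdele L (w g y)) := by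
        simp only [z, map_add, smul_add]
        abel
      rw [e]
      exact add_mem (hw g x) (hw g y))
  let u : (L ≃ₐ[ℚ] L) → X →+ Idele L := fun g =>
    AddMonoidHom.mk' (fun x => z g x - principalIdele L (w g x)) fun x y => by
      simp only [z, hwadd, map_add, smul_add]
      abel
  have hu : ∀ g g' x, u (g * g') x = g • u g' (g⁻¹ • x) + u g x := fun g g' x => by
    have hzz : z (g * g') x = g • z g' (g⁻¹ • x) + z g x := by
      simp only [z, mul_inv_rev, mul_smul, smul_sub]
      abel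
    have hww : w (g * g') x = g • w g' (g⁻¹ • x) + w g x :=
      eq_of_sub_principalIdele_mem L S (hw (g * g') x) (by
        have e : z (g * g') x - principalIdele L (g • w g' (g⁻¹ • x) + w g x) =
            g • (z g' (g⁻¹ • x) - principalIdele L (w g' (g⁻¹ • x))) +
              (z g x - principalIdele L (w g x)) := by
          rw [hzz, map_add, principalIdele_smul]
          generalize z g' (g⁻¹ • x) = A
          generalize z g x = B
          rw [smul_sub]
          abel
        rw [e]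
        exact add_mem (unitIdelesOutside_smul_mem L S g (hw _ _)) (hw g x))
    show z (g * g') x - principalIdele L (w (g * g') x) =
      g • (z g' (g⁻¹ • x) - principalIdele L (w g' (g⁻¹ • x))) +
        (z g x - principalIdele L (w g x))
    rw [hzz, hww, map_add, principalIdele_smul]
    generalize z g' (g⁻¹ • x) = A
    generalize z g x = B
    rw [smul_sub]
    abel
  obtain ⟨a, ha, ha'⟩ := exists_unitIdeles_hom_cobound hur u hu fun g x => hw g x
  refine ⟨(QuotientAddGroup.mk' (principalIdeles L)).comp (Λ.toAddMonoidHom - a),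
    fun g x => ?_, fun x => ?_⟩
  · have h1 : Λ (g • x) - a (g • x) - g • (Λ x - a x) = -principalIdele L (w g (g • x)) := by
      have h2 : g • Λ x - Λ (g • x) - principalIdele L (w g (g • x)) =
          g • a x - a (g • x) := by
        have := ha' g (g • x)
        rw [inv_smul_smul] at this
        rw [← this]
        show _ = g • Λ (g⁻¹ • g • x) - Λ (g • x) - _
        rw [inv_smul_smul]
      rw [smul_sub]
      linear_combination (norm := abel) -h2
    show (QuotientAddGroup.mk (Λ (g • x) - a (g • x)) : IdeleClass L) =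
      QuotientAddGroup.mk (g • (Λ x - a x))
    rw [QuotientAddGroup.eq_iff_sub_mem, h1, principalIdeles_eq_range]
    exact ⟨-w g (g • x), map_neg _ _⟩
  · show classModUnitsMk L S (Λ x - a x) = hq x
    rw [map_sub, hΛ', sub_eq_self, classModUnitsMk_eq_zero_iff]
    exact ⟨0, by rw [map_zero, sub_zero]; exact ha x⟩

end FermatLib.CFT.GWKummer
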