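import Fermat.Agent.CFT.GWEvalDefs

/-!
Euler ratios are multiplicative in short exact sequences and trivial on finite groups.
-/

set_option autoImplicit false

open Polynomial

namespace FermatLib.CFT

section charpoly

variable {k V : Type*} [Field k] [AddCommGroup V] [Module k V] [FiniteDimensional k V]

open Module.Basis in
theorem charpoly_eq_restrict_mul_mapQ (W : Submodule k V) (e : V →ₗ[k] V) (he : W ≤ W.comap e) :
    e.charpoly = (e.restrict he).charpoly * (W.mapQ W e he).charpoly := by
  let m := Module.Free.ChooseBasisIndex k W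
  let bW : Module.Basis m k W := Module.Free.chooseBasis k W
  let n := Module.Free.ChooseBasisIndex k (V ⧸ W)
  let bQ : Module.Basis n k (V ⧸ W) := Module.Free.chooseBasis k (V ⧸ W)
  let b := sumQuot bW bQ
  let A : Matrix m m k := LinearMap.toMatrix bW bW (e.restrict he)
  let B : Matrix m n k := Matrix.of fun i l ↦
    ((sumQuot bW bQ).repr (e ((sumQuot bW bQ) (Sum.inr l)))) (Sum.inl i)
  let D : Matrix n n k := LinearMap.toMatrix bQ bQ (W.mapQ W e he)
  suffices LinearMap.toMatrix b b e = Matrix.fromBlocks A B 0 D by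
    rw [← LinearMap.charpoly_toMatrix e b, this, ← LinearMap.charpoly_toMatrix _ bW,
      ← LinearMap.charpoly_toMatrix _ bQ, Matrix.charpoly_fromBlocks_zero₂₁]
  ext u v
  cases u with
  | inl i =>
    cases v with
    | inl j =>
      simp only [b, sumQuot_inl, Matrix.fromBlocks_apply₁₁, A, LinearMap.toMatrix_apply]
      apply sumQuot_repr_inl_of_mem
    | inr l => simp [b, LinearMap.toMatrix_apply, Matrix.fromBlocks_apply₁₂, B]
  | inr j =>
    cases v with
    | inl i =>
      suffices W.mkQ (e (bW i)) = 0 by simp [LinearMap.toMatrix_apply, b, this]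
      rw [← LinearMap.mem_ker, Submodule.ker_mkQ]
      exact he (Submodule.coe_mem (bW i))
    | inr l =>
      simp only [LinearMap.toMatrix_apply, sumQuot_repr_inr,
        Matrix.fromBlocks_apply₂₂, b, D]
      rw [← sumQuot_inr bW bQ l, W.mapQ_apply]
      simp

end charpoly

section poly

variable {p : ℕ} [Fact p.Prime] {V W : Type*} [AddCommGroup V] [Module (ZMod p) V]
  [AddCommGroup W] [Module (ZMod p) W]

theorem endPoly_monic [Finite V] (f : Module.End (ZMod p) V) : (endPoly f).Monic := by
  rw [endPoly_eq]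
  exact LinearMap.charpoly_monic f

theorem endPoly_ne_zero [Finite V] (f : Module.End (ZMod p) V) : endPoly f ≠ 0 :=
  (endPoly_monic f).ne_zero

theorem endPoly_subsingleton [Subsingleton V] (f : Module.End (ZMod p) V) : endPoly f = 1 := by
  rw [endPoly_eq, show f = 0 from Subsingleton.elim _ _, LinearMap.charpoly_zero,
    Module.finrank_zero_of_subsingleton, pow_zero]

theorem endPoly_congr [Finite V] [Finite W] (e : V ≃ₗ[ZMod p] W) (f : Module.End (ZMod p) V)
    (f' : Module.End (ZMod p) W) (h : ∀ x, e (f x) = f' (e x)) : endPoly f = endPoly f' := by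
  rw [endPoly_eq, endPoly_eq, ← e.charpoly_conj f]
  congr 1
  refine LinearMap.ext fun y => ?_
  rw [LinearEquiv.conj_apply_apply, h, e.apply_symm_apply]

/-- The polynomial of the restriction to a submodule (junk unless invariant). -/
noncomputable def subPoly (f : Module.End (ZMod p) V) (S : Submodule (ZMod p) V) : (ZMod p)[X] := by
  classical
  exact if h : ∀ x ∈ S, f x ∈ S then endPoly (f.restrict h) else 0

theorem subPoly_eq (f : Module.End (ZMod p) V) {S : Submodule (ZMod p) V} (h : ∀ x ∈ S, f x ∈ S) :
    subPoly f S = endPoly (f.restrict h) := by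
  classical
  rw [subPoly, dif_pos h]

theorem subPoly_top [Finite V] (f : Module.End (ZMod p) V) : subPoly f ⊤ = endPoly f := by
  rw [subPoly_eq f fun _ _ => Submodule.mem_top]
  exact endPoly_congr Submodule.topEquiv _ _ fun _ => rfl

theorem subPoly_bot [Finite V] (f : Module.End (ZMod p) V) : subPoly f ⊥ = 1 := by
  rw [subPoly_eq f fun x hx => by rw [(Submodule.mem_bot _).1 hx, map_zero]; exact zero_mem _]
  exact endPoly_subsingleton _

theorem endPoly_eq_ker_mul_range [Finite V] [Finite W] (φ : V →ₗ[ZMod p] W)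
    (f : Module.End (ZMod p) V) (f' : Module.End (ZMod p) W) (h : ∀ x, φ (f x) = f' (φ x)) :
    endPoly f = subPoly f (LinearMap.ker φ) * subPoly f' (LinearMap.range φ) := by
  have hk : ∀ x ∈ LinearMap.ker φ, f x ∈ LinearMap.ker φ := fun x hx => by
    rw [LinearMap.mem_ker] at hx ⊢
    rw [h, hx, map_zero]
  have hr : ∀ y ∈ LinearMap.range φ, f' y ∈ LinearMap.range φ := by
    rintro _ ⟨x, rfl⟩
    exact ⟨f x, h x⟩
  have : Finite (V ⧸ LinearMap.ker φ) := Finite.of_surjective _ (Submodule.mkQ_surjective _)
  rw [subPoly_eq f hk, subPoly_eq f' hr, endPoly_eq, endPoly_eq,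
    charpoly_eq_restrict_mul_mapQ (LinearMap.ker φ) f hk, ← endPoly_eq]
  congr 1
  refine (endPoly_eq _).symm.trans (endPoly_congr φ.quotKerEquivRange _ _ fun x => ?_)
  obtain ⟨x, rfl⟩ := Submodule.Quotient.mk_surjective _ x
  exact Subtype.ext (h x)

end poly

section six

variable {p : ℕ} [Fact p.Prime] {A B C : Type*} [AddCommGroup A] [AddCommGroup B] [AddCommGroup C]

/-- Functoriality of `A[p]`. -/
noncomputable def torPMap (i : A →+ B) : torP p A →ₗ[ZMod p] torP p B :=
  AddMonoidHom.toZModLinearMap p ((i.comp (torP p A).subtype).codRestrict (torP p B) fun x => by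
    show p • i (x : A) = 0
    rw [← map_nsmul, show p • (x : A) = 0 from x.2, map_zero])

/-- Functoriality of `A / pA`. -/
noncomputable def modPMap (i : A →+ B) : modP p A →ₗ[ZMod p] modP p B :=
  AddMonoidHom.toZModLinearMap p (QuotientAddGroup.map _ _ i fun x hx => by
    obtain ⟨a, rfl⟩ := hx
    exact ⟨i a, (map_nsmul i p a).symm⟩)

theorem mk_eq_zero_iff_modP (a : A) : (QuotientAddGroup.mk a : modP p A) = 0 ↔ ∃ y, p • y = a :=
  QuotientAddGroup.eq_zero_iff a

variable (i : A →+ B) (π : B →+ C) (hi : Function.Injective i) (hπ : Function.Surjective π)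
  (hexact : ∀ b, π b = 0 ↔ ∃ a, i a = b)

include hi hπ hexact in
theorem connecting_exists (c : torP p C) :
    ∃ a : A, ∃ b : B, π b = c ∧ i a = p • b := by
  obtain ⟨b, hb⟩ := hπ c
  obtain ⟨a, ha⟩ := (hexact (p • b)).1 (by rw [map_nsmul, hb]; exact c.2)
  exact ⟨a, b, hb, ha⟩

include hi hπ hexact in
theorem connecting_unique {c : torP p C} {a a' : A} {b b' : B} (hb : π b = c) (ha : i a = p • b)
    (hb' : π b' = c) (ha' : i a' = p • b') :
    (QuotientAddGroup.mk a : modP p A) = QuotientAddGroup.mk a' := by
  obtain ⟨y, hy⟩ := (hexact (b - b')).1 (by rw [map_sub, hb, hb', sub_self])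
  rw [← sub_eq_zero, ← QuotientAddGroup.mk_sub, mk_eq_zero_iff_modP]
  exact ⟨y, hi (by rw [map_nsmul, hy, map_sub, ha, ha', nsmul_sub])⟩

/-- The connecting map of the six term sequence. -/
noncomputable def connecting : torP p C →ₗ[ZMod p] modP p A :=
  AddMonoidHom.toZModLinearMap p (AddMonoidHom.mk'
    (fun c => QuotientAddGroup.mk (connecting_exists i π hi hπ hexact c).choose) fun c d => by
      obtain ⟨b, hb, ha⟩ := (connecting_exists i π hi hπ hexact c).choose_spec
      obtain ⟨b', hb', ha'⟩ := (connecting_exists i π hi hπ hexact d).choose_spec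
      obtain ⟨b'', hb'', ha''⟩ := (connecting_exists i π hi hπ hexact (c + d)).choose_spec
      rw [← QuotientAddGroup.mk_add]
      exact connecting_unique i π hi hπ hexact hb'' ha'' (b' := b + b')
        (by rw [map_add, hb, hb']; rfl) (by rw [map_add, ha, ha', nsmul_add]))

theorem connecting_eq {c : torP p C} {a : A} {b : B} (hb : π b = c) (ha : i a = p • b) :
    connecting i π hi hπ hexact c = QuotientAddGroup.mk a := by
  obtain ⟨b', hb', ha'⟩ := (connecting_exists i π hi hπ hexact c).choose_spec
  exact connecting_unique i π hi hπ hexact hb' ha' hb ha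

include hi hexact in
theorem ker_torPMap_snd : LinearMap.ker (torPMap (p := p) π) = LinearMap.range (torPMap i) := by
  ext b
  rw [LinearMap.mem_ker, LinearMap.mem_range]
  constructor
  · intro h
    obtain ⟨a, ha⟩ := (hexact (b : B)).1 (congrArg Subtype.val h)
    exact ⟨⟨a, hi (by rw [nsmulAddMonoidHom_apply, map_nsmul, ha, map_zero]; exact b.2)⟩,
      Subtype.ext ha⟩
  · rintro ⟨a, rfl⟩
    exact Subtype.ext ((hexact _).2 ⟨_, rfl⟩)

theorem ker_connecting :
    LinearMap.ker (connecting i π hi hπ hexact) = LinearMap.range (torPMap (p := p) π) := by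
  ext c
  rw [LinearMap.mem_ker, LinearMap.mem_range]
  obtain ⟨a, b, hb, ha⟩ := connecting_exists i π hi hπ hexact c
  constructor
  · intro h
    rw [connecting_eq i π hi hπ hexact hb ha, mk_eq_zero_iff_modP] at h
    obtain ⟨y, hy⟩ := h
    refine ⟨⟨b - i y, ?_⟩, Subtype.ext ?_⟩
    · show p • (b - i y) = 0
      rw [nsmul_sub, ← ha, ← map_nsmul, hy, sub_self]
    · show π (b - i y) = c
      rw [map_sub, hb, (hexact _).2 ⟨y, rfl⟩, sub_zero]
  · rintro ⟨t, rfl⟩
    rw [connecting_eq i π hi hπ hexact (b := (t : B)) (a := 0) rfl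
      (by rw [map_zero]; exact t.2.symm)]
    rfl

theorem ker_modPMap_fst :
    LinearMap.ker (modPMap (p := p) i) = LinearMap.range (connecting i π hi hπ hexact) := by
  ext x
  induction x using QuotientAddGroup.induction_on with
  | H a =>
    rw [LinearMap.mem_ker, LinearMap.mem_range]
    constructor
    · intro h
      obtain ⟨b, hb⟩ := (mk_eq_zero_iff_modP (i a)).1 h
      exact ⟨⟨π b, show p • π b = 0 by rw [← map_nsmul, hb, (hexact _).2 ⟨a, rfl⟩]⟩,
        connecting_eq i π hi hπ hexact rfl hb.symm⟩
    · rintro ⟨c, hc⟩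
      obtain ⟨a', b, hb, ha⟩ := connecting_exists i π hi hπ hexact c
      rw [← hc, connecting_eq i π hi hπ hexact hb ha]
      exact (mk_eq_zero_iff_modP (i a')).2 ⟨b, ha.symm⟩

include hπ hexact in
theorem ker_modPMap_snd :
    LinearMap.ker (modPMap (p := p) π) = LinearMap.range (modPMap i) := by
  ext x
  induction x using QuotientAddGroup.induction_on with
  | H b =>
    rw [LinearMap.mem_ker, LinearMap.mem_range]
    constructor
    · intro h
      obtain ⟨c, hc⟩ := (mk_eq_zero_iff_modP (π b)).1 h
      obtain ⟨b', rfl⟩ := hπ c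
      obtain ⟨a, ha⟩ := (hexact (b - p • b')).1 (by rw [map_sub, map_nsmul, hc, sub_self])
      refine ⟨(QuotientAddGroup.mk a : modP p A), ?_⟩
      show (QuotientAddGroup.mk (i a) : modP p B) = QuotientAddGroup.mk b
      rw [ha, ← sub_eq_zero, ← QuotientAddGroup.mk_sub, mk_eq_zero_iff_modP]
      exact ⟨-b', by rw [neg_nsmul]; abel⟩
    · rintro ⟨y, hy⟩
      induction y using QuotientAddGroup.induction_on with
      | H a =>
        rw [← hy]
        show (QuotientAddGroup.mk (π (i a)) : modP p C) = 0
        rw [(hexact _).2 ⟨a, rfl⟩]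
        rfl

include hi in
theorem torPMap_injective : Function.Injective (torPMap (p := p) i) :=
  fun _ _ h => Subtype.ext (hi (congrArg Subtype.val h))

include hπ in
theorem modPMap_surjective : Function.Surjective (modPMap (p := p) π) := fun y => by
  induction y using QuotientAddGroup.induction_on with
  | H c =>
    obtain ⟨b, rfl⟩ := hπ c
    exact ⟨(QuotientAddGroup.mk b : modP p B), rfl⟩

theorem finite_of_ker_range {R M N : Type*} [Ring R] [AddCommGroup M] [Module R M]
    [AddCommGroup N] [Module R N] (φ : M →ₗ[R] N) (hk : Finite (LinearMap.ker φ))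
    (hr : Finite (LinearMap.range φ)) : Finite M := by
  have : Finite (M ⧸ (LinearMap.ker φ).toAddSubgroup) :=
    Finite.of_equiv _ φ.quotKerEquivRange.toEquiv.symm
  exact Finite.of_addSubgroup_quotient (H := (LinearMap.ker φ).toAddSubgroup)

include hi hπ hexact in
theorem finite_torP_middle [Finite (torP p A)] [Finite (torP p C)] : Finite (torP p B) := by
  refine finite_of_ker_range (torPMap π) ?_ inferInstance
  rw [ker_torPMap_snd i π hi hexact]
  exact Finite.of_surjective _ (LinearMap.surjective_rangeRestrict (torPMap i))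

include hi hπ hexact in
theorem finite_modP_middle [Finite (modP p A)] [Finite (modP p C)] : Finite (modP p B) := by
  refine finite_of_ker_range (modPMap π) ?_ inferInstance
  rw [ker_modPMap_snd i π hπ hexact]
  exact Finite.of_surjective _ (LinearMap.surjective_rangeRestrict (modPMap i))

include hi hπ hexact in
theorem finite_torP_left [Finite (torP p B)] : Finite (torP p A) :=
  Finite.of_injective _ (torPMap_injective (p := p) i hi)

include hi hπ hexact in
theorem finite_modP_left [Finite (torP p C)] [Finite (modP p B)] : Finite (modP p A) := by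
  refine finite_of_ker_range (modPMap i) ?_ inferInstance
  rw [ker_modPMap_fst i π hi hπ hexact]
  exact Finite.of_surjective _ (LinearMap.surjective_rangeRestrict (connecting i π hi hπ hexact))

include hi hπ hexact in
theorem six_term_poly [Finite (torP p A)] [Finite (torP p B)] [Finite (torP p C)]
    [Finite (modP p A)] [Finite (modP p B)] [Finite (modP p C)]
    (fA : A →+ A) (fB : B →+ B) (fC : C →+ C) (hcA : ∀ a, i (fA a) = fB (i a))
    (hcB : ∀ b, π (fB b) = fC (π b)) :
    endPoly (modPEnd p fB) * endPoly (torPEnd p fA) * endPoly (torPEnd p fC) =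
      endPoly (modPEnd p fA) * endPoly (modPEnd p fC) * endPoly (torPEnd p fB) := by
  have h1 := endPoly_eq_ker_mul_range (torPMap (p := p) i) (torPEnd p fA) (torPEnd p fB)
    fun x => Subtype.ext (hcA x)
  have h2 := endPoly_eq_ker_mul_range (torPMap (p := p) π) (torPEnd p fB) (torPEnd p fC)
    fun x => Subtype.ext (hcB x)
  have h3 := endPoly_eq_ker_mul_range (connecting i π hi hπ hexact) (torPEnd p fC) (modPEnd p fA)
    fun c => by
      obtain ⟨a, b, hb, ha⟩ := connecting_exists i π hi hπ hexact c
      rw [connecting_eq i π hi hπ hexact hb ha,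
        connecting_eq i π hi hπ hexact (b := fB b) (a := fA a)
          (by rw [hcB, hb]; rfl) (by rw [hcA, ha, map_nsmul])]
      rfl
  have h4 := endPoly_eq_ker_mul_range (modPMap (p := p) i) (modPEnd p fA) (modPEnd p fB) fun x => by
    induction x using QuotientAddGroup.induction_on with
    | H a => exact congrArg QuotientAddGroup.mk (hcA a)
  have h5 := endPoly_eq_ker_mul_range (modPMap (p := p) π) (modPEnd p fB) (modPEnd p fC) fun x => by
    induction x using QuotientAddGroup.induction_on with
    | H b => exact congrArg QuotientAddGroup.mk (hcB b)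
  rw [LinearMap.ker_eq_bot.2 (torPMap_injective i hi), subPoly_bot, one_mul] at h1
  rw [ker_torPMap_snd i π hi hexact] at h2
  rw [ker_connecting i π hi hπ hexact] at h3
  rw [ker_modPMap_fst i π hi hπ hexact] at h4
  rw [ker_modPMap_snd i π hπ hexact, LinearMap.range_eq_top.2 (modPMap_surjective π hπ),
    subPoly_top] at h5
  rw [h1, h2, h3, h4, h5]
  ring

include hi hπ hexact in
/-- Multiplicativity in short exact sequences: the middle term. -/
theorem EulerRatio.ses {fA : A →+ A} {fB : B →+ B} {fC : C →+ C} {P Q P' Q' : (ZMod p)[X]}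
    (hA : EulerRatio p fA P Q) (hC : EulerRatio p fC P' Q')
    (hcA : ∀ a, i (fA a) = fB (i a)) (hcB : ∀ b, π (fB b) = fC (π b)) :
    EulerRatio p fB (P * P') (Q * Q') := by
  have := hA.finite_quot; have := hA.finite_tor
  have := hC.finite_quot; have := hC.finite_tor
  have := finite_torP_middle (p := p) i π hi hπ hexact
  have := finite_modP_middle (p := p) i π hi hπ hexact
  refine ⟨inferInstance, inferInstance, ?_⟩
  have h := six_term_poly (p := p) i π hi hπ hexact fA fB fC hcA hcB
  refine mul_right_cancel₀ (mul_ne_zero (endPoly_ne_zero (torPEnd p fA))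
    (endPoly_ne_zero (torPEnd p fC))) ?_
  linear_combination Q * Q' * h + endPoly (modPEnd p fC) * endPoly (torPEnd p fB) * Q' * hA.eq +
    endPoly (torPEnd p fA) * endPoly (torPEnd p fB) * P * hC.eq

include hi hπ hexact in
/-- Multiplicativity in short exact sequences: the left term. -/
theorem EulerRatio.ses_left {fA : A →+ A} {fB : B →+ B} {fC : C →+ C} {P Q P' Q' : (ZMod p)[X]}
    (hB : EulerRatio p fB P Q) (hC : EulerRatio p fC P' Q')
    (hcA : ∀ a, i (fA a) = fB (i a)) (hcB : ∀ b, π (fB b) = fC (π b)) :
    EulerRatio p fA (P * Q') (Q * P') := by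
  have := hB.finite_quot; have := hB.finite_tor
  have := hC.finite_quot; have := hC.finite_tor
  have := finite_torP_left (p := p) i π hi hπ hexact
  have := finite_modP_left (p := p) i π hi hπ hexact
  refine ⟨inferInstance, inferInstance, ?_⟩
  have h := six_term_poly (p := p) i π hi hπ hexact fA fB fC hcA hcB
  refine mul_right_cancel₀ (mul_ne_zero (endPoly_ne_zero (torPEnd p fB))
    (endPoly_ne_zero (torPEnd p fC))) ?_
  linear_combination (-(Q * Q')) * h + endPoly (torPEnd p fA) * endPoly (torPEnd p fC) * Q' * hB.eq -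
    endPoly (modPEnd p fA) * endPoly (torPEnd p fB) * Q * hC.eq

end six

section basic

variable {p : ℕ} [Fact p.Prime]

theorem EulerRatio.congr {A B : Type*} [AddCommGroup A] [AddCommGroup B] {f : A →+ A} {f' : B →+ B}
    {P Q : (ZMod p)[X]} (h : EulerRatio p f P Q) (e : A ≃+ B) (he : ∀ a, e (f a) = f' (e a)) :
    EulerRatio p f' P Q := by
  have := h.finite_quot; have := h.finite_tor
  let et : torP p A ≃ₗ[ZMod p] torP p B :=
    LinearEquiv.ofBijective (torPMap e.toAddMonoidHom)
      ⟨torPMap_injective _ e.injective, fun b => ⟨⟨e.symm b, by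
        show p • e.symm (b : B) = 0
        rw [← map_nsmul, show p • (b : B) = 0 from b.2, map_zero]⟩,
        Subtype.ext (e.apply_symm_apply _)⟩⟩
  let eq : modP p A ≃ₗ[ZMod p] modP p B :=
    LinearEquiv.ofBijective (modPMap e.toAddMonoidHom)
      ⟨(injective_iff_map_eq_zero _).2 fun x => QuotientAddGroup.induction_on x fun a hx => by
        obtain ⟨y, hy⟩ := (mk_eq_zero_iff_modP (e a)).1 hx
        refine (mk_eq_zero_iff_modP a).2 ⟨e.symm y, ?_⟩
        rw [← map_nsmul, hy, e.symm_apply_apply], modPMap_surjective _ e.surjective⟩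
  have : Finite (torP p B) := Finite.of_equiv _ et.toEquiv
  have : Finite (modP p B) := Finite.of_equiv _ eq.toEquiv
  refine ⟨inferInstance, inferInstance, ?_⟩
  rw [← endPoly_congr et (torPEnd p f) (torPEnd p f') fun x => Subtype.ext (he x),
    ← endPoly_congr eq (modPEnd p f) (modPEnd p f') fun x => by
      induction x using QuotientAddGroup.induction_on with
      | H a => exact congrArg QuotientAddGroup.mk (he a)]
  exact h.eq

theorem eulerRatio_of_bijective {A : Type*} [AddCommGroup A] (f : A →+ A)
    (h : Function.Bijective fun a : A => p • a) : EulerRatio p f 1 1 := by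
  have : Subsingleton (torP p A) := ⟨fun a b => Subtype.ext (h.1 (a.2.trans b.2.symm))⟩
  have : Subsingleton (modP p A) := subsingleton_of_forall_eq 0 fun x =>
    QuotientAddGroup.induction_on x fun a => (mk_eq_zero_iff_modP a).2 (h.2 a)
  exact ⟨inferInstance, inferInstance, by rw [endPoly_subsingleton, endPoly_subsingleton]⟩

theorem eulerRatio_of_killed {A : Type*} [AddCommGroup A] [Finite A] (f : A →+ A)
    (h : ∀ a : A, p • a = 0) : EulerRatio p f 1 1 := by
  refine ⟨inferInstance, inferInstance, ?_⟩
  rw [mul_one, mul_one]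
  let e : torP p A ≃+ modP p A :=
    AddEquiv.ofBijective ((QuotientAddGroup.mk' _).comp (torP p A).subtype)
      ⟨(injective_iff_map_eq_zero _).2 fun x hx => by
        obtain ⟨y, hy⟩ := (mk_eq_zero_iff_modP (x : A)).1 hx
        exact Subtype.ext (by rw [← hy, h y]; rfl),
       fun y => QuotientAddGroup.induction_on y fun a => ⟨⟨a, h a⟩, rfl⟩⟩
  exact (endPoly_congr { e with map_smul' := ZMod.map_smul e.toAddMonoidHom }
    (torPEnd p f) (modPEnd p f) fun _ => rfl).symm

theorem eulerRatio_of_finite {A : Type*} [AddCommGroup A] [Finite A] (f : A →+ A) :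
    EulerRatio p f 1 1 := by
  suffices H : ∀ (n : ℕ) (S : AddSubgroup A), Nat.card S ≤ n →
      ∀ g : S →+ S, EulerRatio p g 1 1 by
    exact (H _ ⊤ le_rfl ((f.comp (⊤ : AddSubgroup A).subtype).codRestrict ⊤
      fun _ => AddSubgroup.mem_top _)).congr AddSubgroup.topEquiv fun _ => rfl
  intro n
  induction n with
  | zero => exact fun S hS => absurd hS (not_le.2 Nat.card_pos)
  | succ n ih =>
    intro S hS g
    by_cases hsurj : Function.Surjective fun a : S => p • a
    · exact eulerRatio_of_bijective g ((Finite.surjective_iff_bijective).1 hsurj)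
    · let S' : AddSubgroup A := (nsmulAddMonoidHom p : S →+ S).range.map S.subtype
      have hle : S' ≤ S := by
        rintro _ ⟨y, -, rfl⟩
        exact y.2
      have hmem : ∀ x : S', g ⟨x, hle x.2⟩ ∈ (nsmulAddMonoidHom p : S →+ S).range := by
        rintro ⟨_, y, ⟨z, rfl⟩, rfl⟩
        exact ⟨g z, (map_nsmul g p z).symm⟩
      have hlt : Nat.card S' < Nat.card S := by
        rw [Nat.card_congr (AddSubgroup.equivMapOfInjective _ _ Subtype.val_injective).toEquiv.symm]
        obtain ⟨a, ha⟩ := not_forall.1 hsurj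
        exact Finite.card_subtype_lt (x := a) ha
      let g' : S' →+ S' := (S.subtype.comp (g.comp (AddSubgroup.inclusion hle))).codRestrict S'
        fun x => ⟨_, hmem x, rfl⟩
      have h := EulerRatio.ses (AddSubgroup.inclusion hle)
        (QuotientAddGroup.mk' (nsmulAddMonoidHom p : S →+ S).range)
        (AddSubgroup.inclusion_injective hle) (QuotientAddGroup.mk'_surjective _)
        (fun b => by
          rw [QuotientAddGroup.mk'_apply, QuotientAddGroup.eq_zero_iff]
          exact ⟨fun hb => ⟨⟨b, b, hb, rfl⟩, Subtype.ext rfl⟩,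
            fun ⟨⟨_, y, hy, rfl⟩, e⟩ => e ▸ hy⟩)
        (fA := g') (fB := g) (fC := (modPEnd p g).toAddMonoidHom)
        (ih S' (by omega) g') (eulerRatio_of_killed _ fun x =>
          QuotientAddGroup.induction_on x fun a =>
            (mk_eq_zero_iff_modP (p • a)).2 ⟨a, rfl⟩)
        (fun _ => Subtype.ext rfl) fun _ => rfl
      rwa [one_mul] at h

/-- A subgroup of finite index has the same Euler ratio. -/
theorem EulerRatio.of_finite_coker {A B : Type*} [AddCommGroup A] [AddCommGroup B] {fA : A →+ A}
    {fB : B →+ B} {P Q : (ZMod p)[X]} (i : A →+ B) (hi : Function.Injective i)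
    [Finite (B ⧸ i.range)] (hc : ∀ a, i (fA a) = fB (i a)) :
    (EulerRatio p fA P Q → EulerRatio p fB P Q) ∧ (EulerRatio p fB P Q → EulerRatio p fA P Q) := by
  let fC : B ⧸ i.range →+ B ⧸ i.range := QuotientAddGroup.map _ _ fB fun x hx => by
    obtain ⟨a, rfl⟩ := hx
    exact ⟨fA a, hc a⟩
  have hex : ∀ b, QuotientAddGroup.mk' i.range b = 0 ↔ ∃ a, i a = b := fun b =>
    (QuotientAddGroup.eq_zero_iff b).trans AddMonoidHom.mem_range
  constructor
  · intro h
    simpa using h.ses i _ hi (QuotientAddGroup.mk'_surjective _) hex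
      (eulerRatio_of_finite fC) hc fun _ => rfl
  · intro h
    simpa using EulerRatio.ses_left i _ hi (QuotientAddGroup.mk'_surjective _) hex
      h (eulerRatio_of_finite fC) hc fun _ => rfl

end basic

end FermatLib.CFT
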