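import Fermat.Agent.CFT.GWEvalPerm

/-!
The ideles at infinity of a totally complex field, and the roots of unity as a permutation
twisted by a character.
-/

set_option autoImplicit false

open NumberField Polynomial

namespace FermatLib.CFT

variable {p : ℕ} [Fact p.Prime] {L : Type} [Field L] [NumberField L] {ζ : L}
  (hζ : IsPrimitiveRoot ζ p)

include hζ in
theorem zeta_pow_congr {m n : ℕ} (h : (m : ZMod p) = n) : ζ ^ m = ζ ^ n := by
  rw [pow_eq_pow_mod m hζ.pow_eq_one, pow_eq_pow_mod n hζ.pow_eq_one,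
    (ZMod.natCast_eq_natCast_iff' m n p).1 h]

/-- `c ↦ ζ ^ c`. -/
noncomputable def zetaHom : ZMod p →+ LUnits L :=
  AddMonoidHom.mk'
    (fun c => LUnits.of (Units.mk0 (ζ ^ c.val)
      (pow_ne_zero _ (hζ.ne_zero (Fact.out : p.Prime).ne_zero))))
    fun c d => LUnits.ext_val <| by
      show ζ ^ (c + d).val = ζ ^ c.val * ζ ^ d.val
      rw [← pow_add]
      exact zeta_pow_congr hζ (by simp [ZMod.natCast_val])

@[simp] theorem zetaHom_val (c : ZMod p) : ((zetaHom hζ c).val : L) = ζ ^ c.val := rfl

theorem zetaHom_injective : Function.Injective (zetaHom hζ) := fun c d h => by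
  have : ζ ^ c.val = ζ ^ d.val := congrArg (fun x : LUnits L => (x.val : L)) h
  exact ZMod.val_injective p (hζ.pow_inj (ZMod.val_lt c) (ZMod.val_lt d) this)

theorem nsmul_zetaHom (c : ZMod p) : p • zetaHom hζ c = 0 := by
  rw [← map_nsmul, show p • c = 0 by simp, map_zero]

variable {g : L ≃ₐ[ℚ] L} {a : ZMod p} (ha : g ζ = ζ ^ a.val)

include ha in
theorem smul_zetaHom (c : ZMod p) : g • zetaHom hζ c = zetaHom hζ (a * c) := by
  apply LUnits.ext_val
  rw [LUnits.val_smul, zetaHom_val, zetaHom_val, map_pow, ha, ← pow_mul]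
  exact zeta_pow_congr hζ (by simp [ZMod.natCast_val])

include hζ ha in
theorem twist_ne_zero : a ≠ 0 := by
  rintro rfl
  rw [ZMod.val_zero, pow_zero] at ha
  exact hζ.ne_one (Fact.out : p.Prime).one_lt (g.injective (ha.trans (map_one g).symm))

/-- A `p`-th root of unity in a field receiving `L` is the image of a power of `ζ`. -/
theorem exists_zetaHom_eq {F : Type*} [Field F] (φ : L →+* F) {z : F} (hz : z ^ p = 1) :
    ∃ c : ZMod p, φ (zetaHom hζ c).val = z := by
  have : NeZero p := ⟨(Fact.out : p.Prime).ne_zero⟩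
  obtain ⟨i, hi, hiz⟩ := (hζ.map_of_injective φ.injective).eq_pow_of_pow_eq_one hz
  exact ⟨i, by rw [zetaHom_val, ZMod.val_natCast_of_lt hi, map_pow, hiz]⟩

theorem smul_infPlace_mk (g : L ≃ₐ[ℚ] L) (φ : L →+* ℂ) :
    g⁻¹ • InfinitePlace.mk φ = InfinitePlace.mk (φ.comp (g : L →+* L)) := rfl

theorem conj_comp_comp (ψ : L →+* ℂ) :
    (starRingEnd ℂ).comp ((starRingEnd ℂ).comp ψ) = ψ := RingHom.ext fun x => Complex.conj_conj _

theorem conjUnits_involutive (y : CUnits) : conjUnits (conjUnits y) = y :=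
  CUnits.toField_injective (by simp)

theorem infPlace_mk_conj (φ : L →+* ℂ) :
    InfinitePlace.mk ((starRingEnd ℂ).comp φ) = InfinitePlace.mk φ :=
  InfinitePlace.mk_eq_iff.2 (Or.inr (RingHom.ext fun x => Complex.conj_conj (φ x)))

theorem eq_embedding_or_conj (φ : L →+* ℂ) :
    φ = (InfinitePlace.mk φ).embedding ∨
      φ = (starRingEnd ℂ).comp (InfinitePlace.mk φ).embedding := by
  rcases InfinitePlace.mk_eq_iff.1 (InfinitePlace.mk_embedding (InfinitePlace.mk φ)) with h | h
  · exact Or.inl h.symm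
  · exact Or.inr h.symm

/-- The torsion ideles at infinity with prescribed exponents. -/
noncomputable def infZeta : (InfinitePlace L → ZMod p) →+ torP p (infIdeles L) :=
  AddMonoidHom.mk' (fun c => ⟨⟨singleInf
      (fun φ => principalFamilyInf L (zetaHom hζ (c (InfinitePlace.mk φ))) φ) fun φ => by
        apply CUnits.toField_injective
        rw [CUnits.toField_conjUnits, infPlace_mk_conj]
        rfl, fun _ _ => rfl⟩, Subtype.ext <| Subtype.ext <| Prod.ext (funext fun _ => funext fun _ => by
          show p • (0 : QUnits _) = 0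
          simp) (funext fun φ => by
          show p • principalFamilyInf L (zetaHom hζ (c (InfinitePlace.mk φ))) φ = 0
          have key : ∀ z, p • z = (0 : LUnits L) → p • principalFamilyInf L z φ = 0 := fun z hz => by
            let E : LUnits L →+ CUnits := (Pi.evalAddMonoidHom (fun _ : L →+* ℂ => CUnits) φ).comp
              ((AddMonoidHom.snd _ _).comp (principalHom L))
            show p • E z = 0
            rw [← map_nsmul, hz, map_zero]
          exact key _ (nsmul_zetaHom hζ _))⟩)
    fun c d => Subtype.ext <| Subtype.ext <| idele_ext (fun _ _ => by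
      show (0 : QUnits _).toField = ((0 : QUnits _) + 0).toField
      rw [add_zero]) fun φ => by
      show φ ((zetaHom hζ ((c + d) (InfinitePlace.mk φ))).val : L) =
        φ ((zetaHom hζ (c (InfinitePlace.mk φ))).val : L) *
          φ ((zetaHom hζ (d (InfinitePlace.mk φ))).val : L)
      rw [Pi.add_apply, map_add, LUnits.val_add, map_mul]

theorem infZeta_apply (c : InfinitePlace L → ZMod p) (φ : L →+* ℂ) :
    CUnits.toField ((infZeta hζ c : torP p (infIdeles L)).1.1.inf φ) =
      φ (zetaHom hζ (c (InfinitePlace.mk φ))).val := rfl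

theorem infZeta_bijective : Function.Bijective (infZeta (p := p) hζ) := by
  refine ⟨fun c d h => funext fun w => ?_, fun f => ?_⟩
  · obtain ⟨φ, rfl⟩ : ∃ φ, InfinitePlace.mk φ = w := ⟨_, w.mk_embedding⟩
    have e := infZeta_apply hζ c φ
    rw [h, infZeta_apply] at e
    exact zetaHom_injective hζ (LUnits.ext_val (φ.injective e.symm))
  · have hroot : ∀ φ : L →+* ℂ, CUnits.toField (f.1.1.inf φ) ^ p = 1 := fun φ => by
      have h : p • f.1.1.inf φ = 0 :=
        congrArg (fun x : infIdeles L => x.1.inf φ) (f.2 : p • (f : infIdeles L) = 0)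
      have h' := congrArg (fun x : CUnits => ((Additive.toMul x : ℂˣ) : ℂ)) h
      simpa [toMul_nsmul, CUnits.toField] using h'
    choose c hc using fun w : InfinitePlace L =>
      exists_zetaHom_eq hζ w.embedding (hroot w.embedding)
    refine ⟨c, Subtype.ext <| Subtype.ext <| idele_ext (fun r φ => ?_) fun φ => ?_⟩
    · show (0 : QUnits _).toField = _
      rw [show f.1.1.fin r φ = 0 from f.1.2 r φ]
    · rw [infZeta_apply]
      have key : ∀ (w : InfinitePlace L) (ψ : L →+* ℂ),
          ψ = w.embedding ∨ ψ = (starRingEnd ℂ).comp w.embedding →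
          ψ (zetaHom hζ (c w)).val = CUnits.toField (f.1.1.inf ψ) := by
        rintro w ψ (rfl | rfl)
        · exact hc w
        · rw [show f.1.1.inf ((starRingEnd ℂ).comp w.embedding) = conjUnits (f.1.1.inf w.embedding)
            from f.1.1.2.2.2 w.embedding, CUnits.toField_conjUnits, ← hc w]
          rfl
      exact key _ φ (eq_embedding_or_conj φ)

include ha in
theorem infZeta_smul (c : InfinitePlace L → ZMod p) :
    infZeta hζ (fun w => a * c ((infPlacePerm g).symm w)) =
      torPEnd p (DistribSMul.toAddMonoidHom (infIdeles L) g) (infZeta hζ c) :=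
  Subtype.ext <| Subtype.ext <| idele_ext (fun _ _ => rfl) fun φ => by
    show φ (zetaHom hζ (a * c (g⁻¹ • InfinitePlace.mk φ))).val =
      φ (g (zetaHom hζ (c (InfinitePlace.mk (φ.comp (g : L →+* L))))).val)
    rw [← LUnits.val_smul, smul_zetaHom hζ ha, smul_infPlace_mk]

/-- The torsion at infinity as a permutation module. -/
noncomputable def infZetaEquiv : (InfinitePlace L → ZMod p) ≃ₗ[ZMod p] torP p (infIdeles L) :=
  { AddEquiv.ofBijective _ (infZeta_bijective hζ) with
    map_smul' := ZMod.map_smul (infZeta hζ) }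

include hζ in
theorem finite_torP_infIdeles : Finite (torP p (infIdeles L)) :=
  Finite.of_equiv _ (infZetaEquiv hζ).toEquiv

include hζ ha in
theorem endPoly_torP_infIdeles :
    endPoly (torPEnd p (DistribSMul.toAddMonoidHom (infIdeles L) g)) =
      permPoly (infPlacePerm g) a :=
  endPoly_eq_permPoly (infZetaEquiv hζ) _ a _ fun c => infZeta_smul hζ ha c

variable [IsTotallyComplex L]

theorem conj_comp_ne (φ : L →+* ℂ) : (starRingEnd ℂ).comp φ ≠ φ := fun h =>
  IsTotallyComplex.complexEmbedding_not_isReal φ (ComplexEmbedding.isReal_iff.2 h)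

open Classical in
theorem modP_infIdeles_subsingleton (n : ℕ) [Fact n.Prime] :
    Subsingleton (modP n (infIdeles L)) := by
  refine subsingleton_of_forall_eq 0 fun x => QuotientAddGroup.induction_on x fun f => ?_
  refine (mk_eq_zero_iff_modP f).2 ?_
  have hr : ∀ w : InfinitePlace L, ∃ y : CUnits, n • y = f.1.inf w.embedding := fun w => by
    obtain ⟨z, hz⟩ := IsAlgClosed.exists_pow_nat_eq (CUnits.toField (f.1.inf w.embedding))
      (Fact.out : n.Prime).pos
    have hz0 : z ≠ 0 := by
      rintro rfl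
      rw [zero_pow (Fact.out : n.Prime).ne_zero] at hz
      exact CUnits.toField_ne_zero _ hz.symm
    refine ⟨Additive.ofMul (Units.mk0 z hz0), CUnits.toField_injective ?_⟩
    simpa [toMul_nsmul, CUnits.toField] using hz
  choose r hr using hr
  let v : (L →+* ℂ) → CUnits := fun φ =>
    if φ = (InfinitePlace.mk φ).embedding then r (InfinitePlace.mk φ)
    else conjUnits (r (InfinitePlace.mk φ))
  have hv : ∀ φ, v ((starRingEnd ℂ).comp φ) = conjUnits (v φ) := fun φ => by
    simp only [v, infPlace_mk_conj]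
    rcases eq_embedding_or_conj φ with h | h
    · rw [if_pos h, if_neg fun h' => conj_comp_ne φ (h'.trans h.symm)]
    · have h' : φ ≠ (InfinitePlace.mk φ).embedding := fun h' =>
        conj_comp_ne _ (h.symm.trans h')
      rw [if_neg h', if_pos, conjUnits_involutive]
      conv_lhs => rw [h]
      exact conj_comp_comp _
  refine ⟨⟨singleInf v hv, fun _ _ => rfl⟩, Subtype.ext <| Subtype.ext <|
    Prod.ext (funext fun q => funext fun φ => ?_) (funext fun φ => ?_)⟩
  · show n • (0 : QUnits q) = f.1.fin q φ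
    rw [smul_zero, show f.1.fin q φ = 0 from f.2 q φ]
  · show n • v φ = f.1.inf φ
    simp only [v]
    rcases eq_embedding_or_conj φ with h | h
    · rw [if_pos h, hr, ← h]
    · rw [if_neg fun h' => conj_comp_ne _ (h.symm.trans h'), ← map_nsmul, hr,
        ← f.1.2.2.2 _, ← h]

include hζ ha in
theorem eulerRatio_infIdeles :
    EulerRatio p (DistribSMul.toAddMonoidHom (infIdeles L) g) 1
      (permPoly (infPlacePerm g) a) := by
  have := modP_infIdeles_subsingleton (L := L) p
  exact ⟨inferInstance, finite_torP_infIdeles hζ,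
    by rw [endPoly_subsingleton, endPoly_torP_infIdeles hζ ha, one_mul, mul_one]⟩

/-- The permutation of the complex embeddings given by `g`. -/
noncomputable def embPerm (g : L ≃ₐ[ℚ] L) : Equiv.Perm (L →+* ℂ) where
  toFun φ := φ.comp ((g⁻¹ : L ≃ₐ[ℚ] L) : L →+* L)
  invFun φ := φ.comp (g : L →+* L)
  left_inv φ := RingHom.ext fun x => congrArg φ (g.symm_apply_apply x)
  right_inv φ := RingHom.ext fun x => congrArg φ (g.apply_symm_apply x)

theorem embPerm_pow_apply (g : L ≃ₐ[ℚ] L) (j : ℕ) (φ : L →+* ℂ) (x : L) :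
    (embPerm g ^ j) φ x = φ ((g⁻¹ ^ j) x) := by
  induction j generalizing x with
  | zero => simp
  | succ n ih =>
    rw [pow_succ', Equiv.Perm.mul_apply]
    show (embPerm g ^ n) φ (g⁻¹ x) = _
    rw [ih, pow_succ]
    rfl

theorem permPoly_embPerm (g : L ≃ₐ[ℚ] L) :
    permPoly (embPerm g) (1 : ZMod p) =
      (X ^ orderOf g - 1) ^ (Module.finrank ℚ L / orderOf g) := by
  rw [permPoly_free (orderOf_pos g), Nat.card_eq_fintype_card, NumberField.Embeddings.card]
  intro φ j
  rw [orderOf_dvd_iff_pow_eq_one, ← inv_eq_one (a := g ^ j), ← inv_pow]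
  constructor
  · exact fun h => AlgEquiv.ext fun x => φ.injective (by
      rw [← embPerm_pow_apply g j φ x, h]; rfl)
  · exact fun h => RingHom.ext fun x => by rw [embPerm_pow_apply, h]; rfl

include hζ ha in
theorem permPoly_infPlace_regular :
    permPoly (infPlacePerm g) 1 * permPoly (infPlacePerm g) a =
      (X ^ orderOf g - 1) ^ (Module.finrank ℚ L / orderOf g) := by
  classical
  let φ₀ : L →+* ℂ := Classical.arbitrary _
  have hk : ∀ φ : L →+* ℂ, ∃ k : ZMod p, φ₀ (zetaHom hζ k).val = φ ζ := fun φ =>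
    exists_zetaHom_eq hζ φ₀ (by rw [← map_pow, hζ.pow_eq_one, map_one])
  choose k hk using hk
  have hk0 : ∀ φ, k φ ≠ 0 := fun φ h => by
    have := hk φ
    rw [h, map_zero, LUnits.val_zero, map_one] at this
    exact hζ.ne_one (Fact.out : p.Prime).one_lt (φ.injective (this.symm.trans (map_one φ).symm))
  have hkuniq : ∀ (φ : L →+* ℂ) (c : ZMod p), φ₀ (zetaHom hζ c).val = φ ζ → k φ = c :=
    fun φ c h => zetaHom_injective hζ (LUnits.ext_val (φ₀.injective ((hk φ).trans h.symm)))
  have hkg : ∀ φ : L →+* ℂ, k (φ.comp (g : L →+* L)) = a * k φ := fun φ => by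
    apply hkuniq
    show φ₀ (zetaHom hζ (a * k φ)).val = φ (g ζ)
    rw [ha, map_pow, ← hk φ, ← map_pow, zetaHom_val, zetaHom_val, ← pow_mul]
    congr 1
    exact zeta_pow_congr hζ (by simp [ZMod.natCast_val, mul_comm])
  have hkc : ∀ φ : L →+* ℂ, k ((starRingEnd ℂ).comp φ) = - k φ := fun φ => by
    apply hkuniq
    rw [map_neg, LUnits.val_neg, map_inv₀, hk φ]
    show (φ ζ)⁻¹ = starRingEnd ℂ (φ ζ)
    rw [Complex.inv_eq_conj]
    exact Complex.norm_eq_one_of_pow_eq_one (by rw [← map_pow, hζ.pow_eq_one, map_one])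
      (Fact.out : p.Prime).ne_zero
  let fY : Module.End (ZMod p) (InfinitePlace L → ZMod p) :=
    permTensor (infPlacePerm g) ((1 : ZMod p) • LinearMap.id)
  let fE : Module.End (ZMod p) ((L →+* ℂ) → ZMod p) :=
    permTensor (embPerm g) ((1 : ZMod p) • LinearMap.id)
  let fT : Module.End (ZMod p) (InfinitePlace L → ZMod p) :=
    permTensor (infPlacePerm g) (a • LinearMap.id)
  let i : (InfinitePlace L → ZMod p) →ₗ[ZMod p] ((L →+* ℂ) → ZMod p) :=
    LinearMap.funLeft (ZMod p) (ZMod p) InfinitePlace.mk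
  let π : ((L →+* ℂ) → ZMod p) →ₗ[ZMod p] (InfinitePlace L → ZMod p) :=
    LinearMap.pi fun w => (k w.embedding)⁻¹ •
      ((LinearMap.proj w.embedding : ((L →+* ℂ) → ZMod p) →ₗ[ZMod p] ZMod p) -
        LinearMap.proj ((starRingEnd ℂ).comp w.embedding))
  have hπ : ∀ ψ φ, π ψ (InfinitePlace.mk φ) =
      (k φ)⁻¹ * (ψ φ - ψ ((starRingEnd ℂ).comp φ)) := fun ψ φ => by
    show (k (InfinitePlace.mk φ).embedding)⁻¹ * (ψ (InfinitePlace.mk φ).embedding -
      ψ ((starRingEnd ℂ).comp (InfinitePlace.mk φ).embedding)) = _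
    rcases eq_embedding_or_conj φ with h | h
    · rw [← h]
    · generalize (InfinitePlace.mk φ).embedding = χ at h
      subst h
      rw [conj_comp_comp, hkc, inv_neg, neg_mul, ← mul_neg, neg_sub]
  have hsurj : Function.Surjective π := fun c =>
    ⟨fun φ => if φ = (InfinitePlace.mk φ).embedding then c (InfinitePlace.mk φ) * k φ else 0,
      funext fun w => by
        obtain ⟨φ, rfl⟩ : ∃ φ, InfinitePlace.mk φ = w := ⟨_, w.mk_embedding⟩
        rw [hπ, infPlace_mk_conj]
        rcases eq_embedding_or_conj φ with h | h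
        · rw [if_pos h, if_neg fun h' => conj_comp_ne φ (h'.trans h.symm), sub_zero, mul_comm,
            mul_inv_cancel_right₀ (hk0 φ)]
        · rw [if_neg fun h' => conj_comp_ne _ (h.symm.trans h'),
            if_pos ((congrArg _ h).trans (conj_comp_comp _)), hkc, zero_sub, ← mul_neg,
            neg_neg, mul_comm, mul_inv_cancel_right₀ (hk0 φ)]⟩
  have hker : LinearMap.ker π = LinearMap.range i := by
    ext ψ
    rw [LinearMap.mem_ker, LinearMap.mem_range]
    constructor
    · intro h
      refine ⟨fun w => ψ w.embedding, funext fun φ => ?_⟩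
      have h2 := congrFun h (InfinitePlace.mk φ)
      rw [hπ, Pi.zero_apply, mul_eq_zero, inv_eq_zero, sub_eq_zero] at h2
      show ψ (InfinitePlace.mk φ).embedding = ψ φ
      rcases eq_embedding_or_conj φ with h' | h'
      · rw [← h']
      · generalize (InfinitePlace.mk φ).embedding = χ at h'
        subst h'
        rw [conj_comp_comp] at h2
        exact (h2.resolve_left (hk0 _)).symm
    · rintro ⟨c, rfl⟩
      funext w
      obtain ⟨φ, rfl⟩ : ∃ φ, InfinitePlace.mk φ = w := ⟨_, w.mk_embedding⟩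
      rw [hπ]
      show _ * (c _ - c _) = 0
      rw [infPlace_mk_conj, sub_self, mul_zero]
  have hinj : Function.Injective i :=
    LinearMap.funLeft_injective_of_surjective _ _ _ fun w => ⟨_, w.mk_embedding⟩
  have hci : ∀ c, i (fY c) = fE (i c) := fun c => funext fun φ => rfl
  have hcπ : ∀ ψ, π (fE ψ) = fT (π ψ) := fun ψ => funext fun w => by
    obtain ⟨φ, rfl⟩ : ∃ φ, InfinitePlace.mk φ = w := ⟨_, w.mk_embedding⟩
    rw [hπ]
    show (k φ)⁻¹ * ((1 : ZMod p) * ψ (φ.comp (g : L →+* L)) -
        (1 : ZMod p) * ψ (((starRingEnd ℂ).comp φ).comp (g : L →+* L))) =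
      a * π ψ (InfinitePlace.mk (φ.comp (g : L →+* L)))
    rw [hπ, hkg, one_mul, one_mul, mul_inv, RingHom.comp_assoc, ← mul_assoc, ← mul_assoc,
      mul_inv_cancel₀ (twist_ne_zero hζ ha), one_mul]
  have h1 := endPoly_eq_ker_mul_range i fY fE hci
  have h2 := endPoly_eq_ker_mul_range π fE fT hcπ
  rw [LinearMap.ker_eq_bot.2 hinj, subPoly_bot, one_mul] at h1
  rw [hker, ← h1, LinearMap.range_eq_top.2 hsurj, subPoly_top] at h2
  rw [endPoly_eq, endPoly_eq, endPoly_eq] at h2
  rw [← permPoly_embPerm g]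
  exact h2.symm

end FermatLib.CFT
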