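import Fermat.Agent.CFT.LocalFrobenius

/-!
Finite groups of automorphisms of local fields: inertia and Frobenius.
-/

set_option autoImplicit false
set_option linter.unusedSectionVars false

namespace FermatLib.CFT.Loc

variable {q : Nat.Primes} (K : LocalField q) [FiniteDimensional ℚ_[(q : ℕ)] K]
  (H : Subgroup ((↥K) ≃ₐ[ℚ_[(q : ℕ)]] (↥K)))

theorem fixedLF_le : fixedLF K H ≤ K :=
  IntermediateField.lift_le _

theorem mem_fixedLF {x : K} :
    (x : PadicAlgCl (q : ℕ)) ∈ fixedLF K H ↔ ∀ h ∈ H, h x = x :=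
  (IntermediateField.mem_lift x).trans (IntermediateField.mem_fixedField_iff H x)

theorem card_mul_finrank_fixedLF :
    Nat.card H * Module.finrank ℚ_[(q : ℕ)] (fixedLF K H) = Module.finrank ℚ_[(q : ℕ)] K := by
  rw [← IntermediateField.finrank_fixedField_eq_card H, mul_comm,
    ← (IntermediateField.liftAlgEquiv (IntermediateField.fixedField H)).toLinearEquiv.finrank_eq,
    Module.finrank_mul_finrank]

instance inertia_normal : (inertia K).Normal := ⟨fun i hi g x hx => by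
  have h := hi (g⁻¹ x) (by rwa [norm_algEquiv])
  calc ‖(g * i * g⁻¹) x - x‖ = ‖g (i (g⁻¹ x) - g⁻¹ x)‖ := by
        rw [map_sub, AlgEquiv.aut_inv, AlgEquiv.apply_symm_apply]
        rfl
    _ = ‖i (g⁻¹ x) - g⁻¹ x‖ := norm_algEquiv K g _
    _ < 1 := h⟩

theorem norm_pow_sub_pow_lt' {a b : K} (ha : ‖a‖ ≤ 1) (hb : ‖b‖ ≤ 1) (h : ‖a - b‖ < 1) (n : ℕ) :
    ‖a ^ n - b ^ n‖ < 1 := by
  simpa using norm_pow_sub_pow_lt (q := q) (a := (a : PadicAlgCl (q : ℕ))) (b := b) ha hb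
    (by simpa using h) n

theorem norm_iterate_sub_lt {g : (↥K) ≃ₐ[ℚ_[(q : ℕ)]] (↥K)} {d : ℕ}
    (hg : ∀ x : K, ‖x‖ ≤ 1 → ‖g x - x ^ (q : ℕ) ^ d‖ < 1) (n : ℕ) :
    ∀ x : K, ‖x‖ ≤ 1 → ‖(g ^ n) x - x ^ (q : ℕ) ^ (d * n)‖ < 1 := by
  induction n with
  | zero => intro x _; simp
  | succ n ih =>
    intro x hx
    have h1 := norm_pow_sub_pow_lt' K (a := (g ^ n) x) (b := x ^ (q : ℕ) ^ (d * n))
      (by rwa [norm_algEquiv]) (by rw [norm_pow]; exact pow_le_one₀ (norm_nonneg _) hx) (ih x hx)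
      ((q : ℕ) ^ d)
    have h2 := hg ((g ^ n) x) (by rwa [norm_algEquiv])
    rw [pow_succ', AlgEquiv.mul_apply, show d * (n + 1) = d * n + d by ring, pow_add, pow_mul]
    have e : g ((g ^ n) x) - (x ^ (q : ℕ) ^ (d * n)) ^ (q : ℕ) ^ d =
        (g ((g ^ n) x) - (g ^ n) x ^ (q : ℕ) ^ d) +
          ((g ^ n) x ^ (q : ℕ) ^ d - (x ^ (q : ℕ) ^ (d * n)) ^ (q : ℕ) ^ d) := by ring
    rw [e]
    exact (IsUltrametricDist.norm_add_le_max _ _).trans_lt (max_lt h2 h1)

/-- A local automorphism fixing the fixed field of `H` restricts to an element of `H`. -/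
theorem exists_restrict_mem {τ : Gloc q} (hτ : FixesField (fixedLF K H) τ) :
    ∃ g ∈ H, ∀ x : K, (g x : PadicAlgCl (q : ℕ)) = τ x := by
  classical
  have := Fintype.ofFinite H
  have hmem : ∀ x : K, τ x ∈ K := fun x => by
    set P : Polynomial K := ∏ h : H, (Polynomial.X - Polynomial.C (h.1 x))
      with hP
    have hfix : ∀ h' ∈ H, P.map ((h' : (↥K) ≃ₐ[ℚ_[(q : ℕ)]] (↥K)) : K →+* K) = P := fun h' hh' => by
      rw [hP, Polynomial.map_prod]
      refine Fintype.prod_equiv (Equiv.mulLeft (⟨h', hh'⟩ : H)) _ _ fun h => ?_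
      simp [Polynomial.map_sub]
    have hcoef : ((P.map K.val.toRingHom).map (τ : PadicAlgCl (q : ℕ) →+* PadicAlgCl (q : ℕ))) =
        P.map K.val.toRingHom := by
      ext n
      rw [Polynomial.coeff_map, Polynomial.coeff_map]
      refine hτ ⟨_, (mem_fixedLF K H (x := P.coeff n)).2 fun h' hh' => ?_⟩
      conv_rhs => rw [← hfix h' hh']
      rw [Polynomial.coeff_map]; rfl
    have hroot : (P.map K.val.toRingHom).eval (τ x) = 0 := by
      rw [← hcoef, Polynomial.eval_map]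
      refine (Polynomial.eval₂_hom (τ : PadicAlgCl (q : ℕ) →+* PadicAlgCl (q : ℕ))
        (x : PadicAlgCl (q : ℕ))).trans ?_
      have : (P.map K.val.toRingHom).eval (x : PadicAlgCl (q : ℕ)) = 0 := by
        rw [Polynomial.eval_map]
        refine (Polynomial.eval₂_hom K.val.toRingHom x).trans ?_
        rw [hP, Polynomial.eval_prod, Finset.prod_eq_zero (Finset.mem_univ (1 : H)) (by simp)]
        simp
      rw [this, map_zero]
    rw [hP, Polynomial.map_prod, Polynomial.eval_prod, Finset.prod_eq_zero_iff] at hroot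
    obtain ⟨h, -, hh⟩ := hroot
    simp only [Polynomial.map_sub, Polynomial.map_X, Polynomial.map_C, Polynomial.eval_sub,
      Polynomial.eval_X, Polynomial.eval_C, sub_eq_zero] at hh
    rw [hh]
    exact Subtype.mem _
  let f : K →ₐ[ℚ_[(q : ℕ)]] K := (τ.toAlgHom.comp K.val).codRestrict K.toSubalgebra hmem
  have hb : Function.Bijective f := f.bijective
  refine ⟨AlgEquiv.ofBijective f hb, ?_, fun x => rfl⟩
  rw [← IntermediateField.fixingSubgroup_fixedField H, IntermediateField.mem_fixingSubgroup_iff]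
  intro x hx
  exact Subtype.ext (hτ ⟨x, (IntermediateField.mem_lift x).2 hx⟩)

/-- The data of a Frobenius generator. -/
theorem exists_frobenius_generator' : ∃ g ∈ H,
    (∀ x : K, ‖x‖ ≤ 1 → ‖g x - x ^ (q : ℕ) ^ resDeg (fixedLF K H)‖ < 1) ∧
    (∀ h ∈ H, ∃ j : ℕ, (g ^ j)⁻¹ * h ∈ inertia K) ∧
    ∀ j : ℕ, g ^ j ∈ inertia K ↔ resDeg K ∣ resDeg (fixedLF K H) * j := by
  obtain ⟨φ, hφF, hφ⟩ := exists_frobenius (fixedLF K H)
  obtain ⟨g, hg, hgx⟩ := exists_restrict_mem K H hφF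
  have hgf : ∀ x : K, ‖x‖ ≤ 1 → ‖g x - x ^ (q : ℕ) ^ resDeg (fixedLF K H)‖ < 1 := fun x hx => by
    have h := hφ (x : PadicAlgCl (q : ℕ)) hx
    rw [← hgx] at h
    simpa using h
  refine ⟨g, hg, hgf, fun h hh => ?_, fun j => ⟨fun hj => ?_, fun hj x hx => ?_⟩⟩
  · obtain ⟨j, hj⟩ := exists_residue_pow_algEquiv K h
    obtain ⟨i, rfl⟩ : resDeg (fixedLF K H) ∣ j := dvd_of_forall_pow_sub_lt _ fun y hy => by
      have hyK : (y : PadicAlgCl (q : ℕ)) ∈ K := fixedLF_le K H y.2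
      have := hj ⟨y, hyK⟩ hy
      rw [(mem_fixedLF K H (x := ⟨y, hyK⟩)).1 y.2 h hh] at this
      simpa using this
    refine ⟨i, fun x hx => ?_⟩
    have h1 := norm_iterate_sub_lt K hgf i x hx
    have h2 := hj x hx
    have e : ((g ^ i)⁻¹ * h) x - x = (g ^ i)⁻¹ (h x - (g ^ i) x) := by
      rw [map_sub, AlgEquiv.mul_apply, AlgEquiv.aut_inv, AlgEquiv.symm_apply_apply]
    rw [e, norm_algEquiv]
    have e2 : h x - (g ^ i) x = (h x - x ^ (q : ℕ) ^ (resDeg (fixedLF K H) * i)) +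
        (x ^ (q : ℕ) ^ (resDeg (fixedLF K H) * i) - (g ^ i) x) := by ring
    rw [e2]
    exact (IsUltrametricDist.norm_add_le_max _ _).trans_lt (max_lt h2 (by rwa [norm_sub_rev]))
  · refine dvd_of_forall_pow_sub_lt K fun x hx => ?_
    have h1 := norm_iterate_sub_lt K hgf j x hx
    have h2 := hj x hx
    have e : x - x ^ (q : ℕ) ^ (resDeg (fixedLF K H) * j) =
        -((g ^ j) x - x) + ((g ^ j) x - x ^ (q : ℕ) ^ (resDeg (fixedLF K H) * j)) := by ring
    rw [e]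
    exact (IsUltrametricDist.norm_add_le_max _ _).trans_lt (max_lt (by rwa [norm_neg]) h1)
  · have h1 := norm_iterate_sub_lt K hgf j x hx
    have h2 : ‖x ^ (q : ℕ) ^ (resDeg (fixedLF K H) * j) - x‖ < 1 := by
      have := pow_pow_sub_lt K hj hx
      simpa using this
    have e : (g ^ j) x - x = ((g ^ j) x - x ^ (q : ℕ) ^ (resDeg (fixedLF K H) * j)) +
        (x ^ (q : ℕ) ^ (resDeg (fixedLF K H) * j) - x) := by ring
    rw [e]
    exact (IsUltrametricDist.norm_add_le_max _ _).trans_lt (max_lt h1 h2)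

theorem exists_frobenius_generator : ∃ g ∈ H,
    (∀ x : K, ‖x‖ ≤ 1 → ‖g x - x ^ (q : ℕ) ^ resDeg (fixedLF K H)‖ < 1) ∧
    ∀ h ∈ H, ∃ j : ℕ, (g ^ j)⁻¹ * h ∈ inertia K := by
  obtain ⟨g, hg, h1, h2, -⟩ := exists_frobenius_generator' K H
  exact ⟨g, hg, h1, h2⟩

theorem card_inertia_inf :
    Nat.card ↥(inertia K ⊓ H) * ramIdx (fixedLF K H) = ramIdx K := by
  obtain ⟨g, hg, -, hgen, hord⟩ := exists_frobenius_generator' K H
  obtain ⟨d, hd⟩ := resDeg_dvd (fixedLF_le K H)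
  have hd0 : 0 < d := Nat.pos_of_ne_zero fun e => (resDeg_pos K).ne' (by rw [hd, e, mul_zero])
  set N : Subgroup H := (inertia K).subgroupOf H with hN
  let gq : H ⧸ N := QuotientGroup.mk ⟨g, hg⟩
  have hz : ∀ x : H ⧸ N, x ∈ Subgroup.zpowers gq := fun x => by
    obtain ⟨h, rfl⟩ := QuotientGroup.mk_surjective x
    obtain ⟨j, hj⟩ := hgen h h.2
    refine ⟨j, ?_⟩
    change gq ^ (j : ℤ) = _
    rw [show gq ^ (j : ℤ) = QuotientGroup.mk (⟨g, hg⟩ ^ j : H) by rw [zpow_natCast]; rfl]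
    refine QuotientGroup.eq.2 ?_
    rw [hN, Subgroup.mem_subgroupOf]
    simpa using hj
  have hpow : ∀ j : ℕ, gq ^ j = 1 ↔ d ∣ j := fun j => by
    rw [← QuotientGroup.mk_pow, QuotientGroup.eq_one_iff, hN, Subgroup.mem_subgroupOf,
      SubmonoidClass.coe_pow, hord, hd]
    exact Nat.mul_dvd_mul_iff_left (resDeg_pos _)
  have hidx : N.index = d := by
    rw [Subgroup.index_eq_card, ← orderOf_eq_card_of_forall_mem_zpowers hz]
    exact Nat.dvd_antisymm (orderOf_dvd_of_pow_eq_one ((hpow d).2 dvd_rfl))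
      ((hpow _).1 (pow_orderOf_eq_one gq))
  have h1 : Nat.card H = Nat.card ↥(inertia K ⊓ H) * d := by
    rw [← N.card_mul_index, hidx]
    congr 1
    rw [hN, ← Subgroup.inf_subgroupOf_right]
    exact Nat.card_congr (Subgroup.subgroupOfEquivOfLe inf_le_right).toEquiv
  have h2 := card_mul_finrank_fixedLF K H
  rw [← ramIdx_mul_resDeg K, ← ramIdx_mul_resDeg (fixedLF K H), h1, hd] at h2
  refine Nat.eq_of_mul_eq_mul_left (Nat.mul_pos (resDeg_pos (fixedLF K H)) hd0) ?_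
  calc resDeg (fixedLF K H) * d * (Nat.card ↥(inertia K ⊓ H) * ramIdx (fixedLF K H))
      = Nat.card ↥(inertia K ⊓ H) * d * (ramIdx (fixedLF K H) * resDeg (fixedLF K H)) := by ring
    _ = _ := h2
    _ = _ := by ring

end FermatLib.CFT.Loc
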