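import Fermat.Agent.CFT.LocalResidue
import Fermat.Agent.CFT.LocalFrobenius
import Fermat.Agent.CFT.LocalGalois
import Fermat.Agent.CFT.LocalUnits
import Fermat.Agent.CFT.LocalPowers
import Fermat.Agent.CFT.LocalCyclotomic
import Fermat.Agent.CFT.LocalPlace

/-! Umbrella module for local fields inside `PadicAlgCl q`. -/
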