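import Fermat.Agent.CFT.GWEvalPerm
import Fermat.Agent.CFT.IdeleDecomp
import Fermat.Agent.CFT.IdeleApprox
import Fermat.Agent.CFT.Local

/-!
Ideles at one prime as families in one local field: valuations and levels of units.
-/

set_option autoImplicit false
set_option linter.unusedSectionVars false

open NumberField

namespace FermatLib.CFT

open Loc

variable {L : Type} [Field L] [NumberField L] [IsGalois ℚ L] {q : Nat.Primes}

variable (L q) in
/-- The common completion of a Galois field at the places over `q`. -/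
noncomputable abbrev placeField : LocalField q := completion (Classical.arbitrary (Emb L q))

theorem completion_eq_placeField (ψ : Emb L q) : completion ψ = placeField L q := by
  obtain ⟨g, rfl⟩ := exists_preComp_eq (Classical.arbitrary (Emb L q)) ψ
  refine congrArg (IntermediateField.adjoin ℚ_[(q : ℕ)]) ?_
  ext y
  exact ⟨fun ⟨x, hx⟩ => ⟨g x, hx⟩, fun ⟨x, hx⟩ => ⟨g.symm x, by
    rw [← hx]; exact congrArg _ (g.apply_symm_apply x)⟩⟩

theorem fin_mem_placeField (f : Idele L) (ψ : Emb L q) : (f.fin q ψ).el ∈ placeField L q :=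
  completion_eq_placeField ψ ▸ idele_apply_mem_completion f ψ

variable (L q) in
/-- The values of an idele at `q`. -/
noncomputable def primeVal : primeIdeles L q →+ (Emb L q → LocUnits (placeField L q)) :=
  AddMonoidHom.mk' (fun f ψ => LocUnits.mk0 ⟨_, fin_mem_placeField (f : Idele L) ψ⟩
    fun h => ((f : Idele L).fin q ψ).toMul.ne_zero
      (congrArg (fun z : placeField L q => (z : PadicAlgCl (q : ℕ))) h))
    fun _ _ => funext fun _ => LocUnits.ext' (Subtype.ext rfl)

theorem primeVal_el (f : primeIdeles L q) (ψ : Emb L q) :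
    ((primeVal L q f ψ).el : PadicAlgCl (q : ℕ)) = ((f : Idele L).fin q ψ).el := rfl

theorem primeVal_injective : Function.Injective (primeVal L q) := fun a b h => by
  refine Subtype.ext (idele_ext (fun r ψ => congrArg QUnits.toField ?_) fun χ => ?_)
  · rcases eq_or_ne r q with rfl | hr
    · exact QUnits.toField_injective
        (congrArg (fun z : Emb L r → LocUnits (placeField L r) => ((z ψ).el : PadicAlgCl (r : ℕ))) h)
    · exact (a.2.1 r hr ψ).trans (b.2.1 r hr ψ).symm
  · rw [Idele.inf, Idele.inf, a.2.2, b.2.2]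

theorem primeVal_smul (g : L ≃ₐ[ℚ] L) (f : primeIdeles L q) (ψ : Emb L q) :
    primeVal L q (g • f) ψ = primeVal L q f (ψ.preComp g) :=
  LocUnits.ext' (Subtype.ext rfl)

theorem primeVal_postComp (f : primeIdeles L q) (τ : Gloc q) (ψ : Emb L q) :
    ((primeVal L q f (ψ.postComp τ)).el : PadicAlgCl (q : ℕ)) =
      τ ((primeVal L q f ψ).el : PadicAlgCl (q : ℕ)) :=
  congrArg QUnits.el ((f : Idele L).2.1 q τ ψ)

/-- An idele at `q` from an equivariant family. -/
noncomputable def mkPrime (v : Emb L q → QUnits q)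
    (hv : ∀ (τ : Gloc q) (ψ : Emb L q), v (ψ.postComp τ) = τ.onUnits (v ψ)) : primeIdeles L q :=
  ⟨singlePrime q v hv, fun _ hr ψ => singlePrime_apply_of_ne v hv hr ψ, rfl⟩

theorem mkPrime_val (v : Emb L q → QUnits q)
    (hv : ∀ (τ : Gloc q) (ψ : Emb L q), v (ψ.postComp τ) = τ.onUnits (v ψ)) (ψ : Emb L q) :
    ((primeVal L q (mkPrime v hv) ψ).el : PadicAlgCl (q : ℕ)) = (v ψ).el := by
  rw [primeVal_el]
  exact congrArg QUnits.el (singlePrime_apply v hv ψ)

variable (L q) in
/-- Ideles at `q` all whose values lie in a level of units. -/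
noncomputable def primeLvl (i : ℕ) : AddSubgroup (primeIdeles L q) :=
  (AddSubgroup.pi Set.univ fun _ : Emb L q => lvl (placeField L q) i).comap (primeVal L q)

theorem mem_primeLvl {i : ℕ} {f : primeIdeles L q} :
    f ∈ primeLvl L q i ↔ ∀ ψ, primeVal L q f ψ ∈ lvl (placeField L q) i :=
  ⟨fun h ψ => h ψ (Set.mem_univ ψ), fun h ψ _ => h ψ⟩

theorem mem_lvl_zero {x : LocUnits (placeField L q)} :
    x ∈ lvl (placeField L q) 0 ↔ ord (placeField L q) x = 0 := by
  rw [ord_eq_zero_iff, mem_lvl, pow_zero]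
  refine ⟨fun h => h.1, fun h => ⟨h, ?_⟩⟩
  rw [sub_eq_add_neg]
  refine (IsUltrametricDist.norm_add_le_max _ _).trans (max_le h.le ?_)
  rw [norm_neg, norm_one]

theorem smul_mem_primeLvl {i : ℕ} (g : L ≃ₐ[ℚ] L) {f : primeIdeles L q}
    (hf : f ∈ primeLvl L q i) : g • f ∈ primeLvl L q i :=
  mem_primeLvl.2 fun ψ => by rw [primeVal_smul]; exact mem_primeLvl.1 hf _

variable (q) in
/-- The action on a level. -/
noncomputable def lvlEnd (i : ℕ) (g : L ≃ₐ[ℚ] L) : primeLvl L q i →+ primeLvl L q i :=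
  ((DistribSMul.toAddMonoidHom (primeIdeles L q) g).comp (primeLvl L q i).subtype).codRestrict
    _ fun x => smul_mem_primeLvl g x.2

theorem lvlEnd_coe (i : ℕ) (g : L ≃ₐ[ℚ] L) (x : primeLvl L q i) :
    ((lvlEnd q i g x : primeLvl L q i) : primeIdeles L q) = g • (x : primeIdeles L q) := rfl

theorem primeLvl_le_zero (i : ℕ) : primeLvl L q i ≤ primeLvl L q 0 := fun f hf =>
  mem_primeLvl.2 fun ψ => mem_lvl_zero.2 (lvl_le_unitGroup _ i (mem_primeLvl.1 hf ψ))

instance finite_primeLvl_quotient (i : ℕ) :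
    Finite (primeLvl L q 0 ⧸ (AddSubgroup.inclusion (primeLvl_le_zero (L := L) (q := q) i)).range) := by
  set K := placeField L q
  let B := (lvl K i).addSubgroupOf (unitGroup K)
  have hfin : Finite (unitGroup K ⧸ B) := by
    have h := relIndex_normOne_ne_zero (L := ↥K) (B := lvl K i) (r := ‖uniformizer K‖₊ ^ i)
      (pow_pos (nnnorm_pos.2 (isUniformizer_uniformizer K).1) _) le_rfl
    have e : (normOne (↥K) : AddSubgroup (LocUnits K)) = unitGroup K :=
      SetLike.ext fun x => (mem_unitGroup K).symm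
    refine Nat.finite_of_card_ne_zero fun h0 => h ?_
    show (lvl K i).relIndex (normOne (↥K) : AddSubgroup (LocUnits K)) = 0
    rw [e]
    exact h0
  let χ : primeLvl L q 0 →+ (Emb L q → unitGroup K ⧸ B) :=
    AddMonoidHom.mk' (fun f ψ => QuotientAddGroup.mk
      (⟨primeVal L q f ψ, mem_lvl_zero.1 (mem_primeLvl.1 f.2 ψ)⟩ : unitGroup K))
      fun a b => funext fun ψ => by
        rw [Pi.add_apply, ← QuotientAddGroup.mk_add]
        exact congrArg QuotientAddGroup.mk (Subtype.ext (congrFun (map_add (primeVal L q) _ _) ψ))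
  have hker : χ.ker = (AddSubgroup.inclusion (primeLvl_le_zero (L := L) (q := q) i)).range := by
    ext f
    rw [AddMonoidHom.mem_ker, funext_iff, AddMonoidHom.mem_range]
    constructor
    · intro h
      exact ⟨⟨f, mem_primeLvl.2 fun ψ =>
        AddSubgroup.mem_addSubgroupOf.1 ((QuotientAddGroup.eq_zero_iff _).1 (h ψ))⟩, rfl⟩
    · rintro ⟨y, rfl⟩ ψ
      exact (QuotientAddGroup.eq_zero_iff _).2 (mem_primeLvl.1 y.2 ψ)
  rw [← hker]
  exact Finite.of_injective _ (QuotientAddGroup.kerLift_injective χ)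

variable {p v i : ℕ}

theorem eq_zero_of_nsmul_eq_zero (hv : ‖(p : placeField L q)‖ = ‖uniformizer (placeField L q)‖ ^ v)
    (hi : v < i) {f : primeIdeles L q} (hf : f ∈ primeLvl L q i) (h0 : p • f = 0) : f = 0 := by
  refine primeVal_injective ?_
  rw [map_zero]
  funext ψ
  refine eq_zero_of_mem_lvl_of_nsmul _ hv hi (mem_primeLvl.1 hf ψ) ?_
  rw [← Pi.smul_apply, ← map_nsmul, h0, map_zero]
  rfl

/-- Beyond the valuation of `p`, multiplication by `p` shifts the level by it. -/
theorem mem_primeLvl_add_iff (hv : ‖(p : placeField L q)‖ = ‖uniformizer (placeField L q)‖ ^ v)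
    (hi : v < i) (f : primeIdeles L q) :
    f ∈ primeLvl L q (i + v) ↔ ∃ y ∈ primeLvl L q i, p • y = f := by
  set K := placeField L q
  constructor
  · intro hf
    have hex : ∀ ψ, ∃ w ∈ lvl K i, p • w = primeVal L q f ψ := fun ψ => by
      have := mem_primeLvl.1 hf ψ
      rw [← map_lvl K hv hi] at this
      exact this
    choose w hw hpw using hex
    have heq : ∀ (τ : Gloc q) (ψ : Emb L q),
        ((w (ψ.postComp τ)).el : PadicAlgCl (q : ℕ)) = τ ((w ψ).el : PadicAlgCl (q : ℕ)) := by
      intro τ ψ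
      have hmem : τ ((w ψ).el : PadicAlgCl (q : ℕ)) ∈ K := by
        have key : ∀ y ∈ completion ψ, τ y ∈ completion ψ := fun y hy => by
          rw [← coe_restrict_completion ψ τ ⟨y, hy⟩]
          exact SetLike.coe_mem _
        rw [completion_eq_placeField] at key
        exact key _ (w ψ).el.2
      obtain ⟨h1, h2⟩ := (mem_lvl K).1 (hw ψ)
      let z : LocUnits K := LocUnits.mk0 ⟨_, hmem⟩ fun e => (w ψ).el_ne_zero
        (Subtype.ext ((map_eq_zero τ).1 (congrArg (fun t : K => (t : PadicAlgCl (q : ℕ))) e)))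
      have hz : z ∈ lvl K i := by
        refine (mem_lvl K).2 ⟨?_, ?_⟩
        · show ‖τ ((w ψ).el : PadicAlgCl (q : ℕ))‖ = 1
          rw [norm_gloc]; exact h1
        · show ‖τ ((w ψ).el : PadicAlgCl (q : ℕ)) - 1‖ ≤ _
          rw [← map_one τ, ← map_sub, norm_gloc]
          exact h2
      have hdiff : w (ψ.postComp τ) - z = 0 := by
        refine eq_zero_of_mem_lvl_of_nsmul K hv hi ((lvl K i).sub_mem (hw _) hz) ?_
        rw [nsmul_sub, hpw, sub_eq_zero]
        refine LocUnits.ext' (Subtype.ext ?_)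
        rw [primeVal_postComp, el_nsmul, SubmonoidClass.coe_pow, ← hpw ψ, el_nsmul,
          SubmonoidClass.coe_pow, map_pow]
        rfl
      rw [sub_eq_zero.1 hdiff]
      rfl
    let u : Emb L q → QUnits q := fun ψ => Additive.ofMul (Units.mk0 ((w ψ).el : PadicAlgCl (q : ℕ))
      fun e => (w ψ).el_ne_zero (Subtype.ext e))
    have hu : ∀ (τ : Gloc q) (ψ : Emb L q), u (ψ.postComp τ) = τ.onUnits (u ψ) := fun τ ψ =>
      congrArg Additive.ofMul (Units.ext (heq τ ψ))
    have hval : primeVal L q (mkPrime u hu) = w := funext fun ψ =>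
      LocUnits.ext' (Subtype.ext (mkPrime_val u hu ψ))
    refine ⟨mkPrime u hu, mem_primeLvl.2 fun ψ => by rw [hval]; exact hw ψ, primeVal_injective ?_⟩
    rw [map_nsmul, hval]
    exact funext hpw
  · rintro ⟨y, hy, rfl⟩
    refine mem_primeLvl.2 fun ψ => ?_
    rw [map_nsmul, Pi.smul_apply, ← map_lvl K hv hi]
    exact ⟨_, mem_primeLvl.1 hy ψ, rfl⟩

section valuation

/-- The valuation at a place. -/
noncomputable def primeOrd : primeIdeles L q →+ (PlacesAbove (⊥ : Subgroup (L ≃ₐ[ℚ] L)) q → ℤ) :=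
  AddMonoidHom.mk' (fun f => Quotient.lift (fun ψ => ord (placeField L q) (primeVal L q f ψ))
    fun a b h => by
      obtain ⟨τ, hτ⟩ := (samePlaceRel_bot_iff a b).1 h
      refine (ord_eq_of_norm _ ?_).symm
      rw [← norm_el, ← hτ]
      show ‖((primeVal L q f (a.postComp τ)).el : PadicAlgCl (q : ℕ))‖ = _
      rw [primeVal_postComp, norm_gloc]
      rfl)
    fun a b => funext fun y => Quotient.inductionOn y fun ψ => by
      show ord _ (primeVal L q (a + b) ψ) = _
      rw [map_add, Pi.add_apply, map_add]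
      rfl

theorem primeOrd_mk (f : primeIdeles L q) (ψ : Emb L q) :
    primeOrd f (Quotient.mk _ ψ) = ord (placeField L q) (primeVal L q f ψ) := rfl

theorem primeOrd_smul (g : L ≃ₐ[ℚ] L) (f : primeIdeles L q) :
    primeOrd (g • f) = permHom (placePerm g q) (primeOrd f) := funext fun y =>
  Quotient.inductionOn y fun ψ => by
    rw [permHom_apply, primeOrd_mk, primeVal_smul]
    rfl

theorem primeOrd_eq_zero_iff (f : primeIdeles L q) : primeOrd f = 0 ↔ f ∈ primeLvl L q 0 := by
  rw [mem_primeLvl]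
  refine ⟨fun h ψ => mem_lvl_zero.2 (congrFun h (Quotient.mk _ ψ)), fun h => funext fun y =>
    Quotient.inductionOn y fun ψ => mem_lvl_zero.1 (h ψ)⟩

theorem primeOrd_surjective : Function.Surjective (primeOrd (L := L) (q := q)) := by
  classical
  set K := placeField L q
  have := Fintype.ofFinite (PlacesAbove (⊥ : Subgroup (L ≃ₐ[ℚ] L)) q)
  have hex : ∀ y : PlacesAbove (⊥ : Subgroup (L ≃ₐ[ℚ] L)) q,
      ∃ f : primeIdeles L q, primeOrd f = Pi.single y 1 := by
    intro y
    obtain ⟨φ, rfl⟩ := Quotient.exists_rep y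
    obtain ⟨x, -, hx0, hx⟩ := exists_norm_eq (⊥ : Subgroup (L ≃ₐ[ℚ] L)) φ
      (y := (uniformizer K : PadicAlgCl (q : ℕ)))
      (by rw [← completion_eq_localField_bot, completion_eq_placeField]; exact (uniformizer K).2)
      (fun h => (isUniformizer_uniformizer K).1 (Subtype.ext h))
    set F := principalIdele L (LUnits.of (Units.mk0 x hx0))
    refine ⟨⟨restrictPlace φ F, fun r hr ψ => localPart_apply_of_ne (restrictPlace φ F).2 hr ψ,
      (restrictPlace φ F).2.2⟩, funext fun z => Quotient.inductionOn z fun ψ => ?_⟩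
    rw [primeOrd_mk]
    by_cases h : φ.SamePlace ψ
    · have hmk : (Quotient.mk _ ψ : PlacesAbove (⊥ : Subgroup (L ≃ₐ[ℚ] L)) q) = Quotient.mk _ φ :=
        Quotient.sound ((samePlaceRel_bot_iff _ _).2 h.symm)
      rw [hmk, Pi.single_eq_same]
      refine ord_eq_of_norm _ ?_
      rw [zpow_one]
      show ‖((restrictPlace φ F : Idele L).fin q ψ).el‖ = _
      rw [restrictPlace_apply φ F h]
      show ‖ψ x‖ = ‖(uniformizer K : PadicAlgCl (q : ℕ))‖
      rw [← hx, ← (samePlace_iff_norm φ ψ).1 h x]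
    · rw [Pi.single_eq_of_ne fun e => h
        ((samePlaceRel_bot_iff _ _).1 (Quotient.exact e)).symm]
      refine (ord_eq_zero_iff _ _).2 ?_
      show ‖((restrictPlace φ F : Idele L).fin q ψ).el‖ = 1
      rw [localPart_apply_eq_zero (restrictPlace φ F).2 h]
      simp [QUnits.el]
  choose w hw using hex
  intro c
  refine ⟨∑ y, c y • w y, ?_⟩
  rw [map_sum]
  funext z
  rw [Finset.sum_apply, Finset.sum_eq_single z]
  · simp [map_zsmul, hw]
  · intro b _ hb
    simp [map_zsmul, hw, Ne.symm hb]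
  · simp

end valuation

end FermatLib.CFT
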