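import Fermat.Agent.CFT.GWGlobKummer

/-!
Global maps and their idele decompositions: an equivariant map into the
units of the level with valuations divisible by `p` outside `S` is an equivariant map from the free
module into ideles plus units outside `S`, once this holds at the places of `S` and at infinity.
-/

set_option autoImplicit false

open CategoryTheory groupCohomology ExtCitation NumberField

namespace FermatLib.CFT.GWKummer

open FermatLib.CFT

local notation "Γℚ" => AlgebraicClosure ℚ ≃ₐ[ℚ] AlgebraicClosure ℚ
local notation "Qbar" => AlgebraicClosure ℚ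

variable {p : ℕ} [Fact p.Prime] {M : Rep (ZMod p) Γℚ} {S : Finset Nat.Primes} (D : Level M S)

section values

variable (L : IntermediateField ℚ (AlgebraicClosure ℚ)) [NumberField L]

/-- The value at the standard embedding. -/
noncomputable def localValue (q : Nat.Primes) : Idele L →+ QUnits q where
  toFun f := f.fin q (stdEmb L q)
  map_zero' := rfl
  map_add' _ _ := rfl

theorem localValue_apply (q : Nat.Primes) (f : Idele L) :
    localValue L q f = f.fin q (stdEmb L q) := rfl

/-- The value at the standard complex embedding. -/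
noncomputable def infValue : Idele L →+ CUnits where
  toFun f := f.inf (complexEmbedding.toRingHom.comp (algebraMap L Qbar))
  map_zero' := rfl
  map_add' _ _ := rfl

end values

theorem infValue_apply (f : Idele D.field) : infValue D.field f = f.inf (stdEmbInf D) := rfl

theorem localValue_smul (q : Nat.Primes) (τ : primeLocalGaloisGroup q) (f : Idele D.field) :
    localValue D.field q (locRes D q τ • f) = τ • localValue D.field q f := by
  show f.fin q ((stdEmb D.field q).preComp (locRes D q τ)) = _
  rw [← stdEmb_postComp D q τ]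
  exact f.2.1 q τ _

theorem infValue_conj (f : Idele D.field) :
    infValue D.field (D.res complexConjugation • f) = conjUnits (infValue D.field f) := by
  show f.inf ((stdEmbInf D).comp ((D.res complexConjugation : D.Gal) : D.field →+* D.field)) = _
  rw [← conj_stdEmbInf D]
  exact f.2.2.2 _

theorem infValue_smul (τ : ↥archimedeanDecomposition) (f : Idele D.field) :
    infValue D.field (infRes D τ • f) = τ • infValue D.field f := by
  rcases mem_archimedeanDecomposition τ.2 with h | h
  · obtain rfl : τ = 1 := Subtype.ext h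
    rw [map_one, one_smul, one_smul]
  · obtain rfl : τ = archimedeanGen := Subtype.ext h
    rw [archimedeanGen_smul]
    exact infValue_conj D f

theorem localValue_principal (q : Nat.Primes) (x : LUnits D.field) :
    localValue D.field q (principalIdele D.field x) = toQUnits q (toQbarU D x) :=
  QUnits.toField_injective rfl

theorem infValue_principal (x : LUnits D.field) :
    infValue D.field (principalIdele D.field x) = toCUnits (toQbarU D x) :=
  CUnits.toField_injective rfl

/-- Ideles of the level vanishing outside the values at the standard embeddings. -/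
theorem eq_zero_of_localValue {f : Idele D.field} (q : Nat.Primes)
    (h : ∀ g : D.Gal, localValue D.field q (g • f) = 0) (ψ : Emb D.field q) :
    f.fin q ψ = 0 := by
  have := h (autOf (stdEmb D.field q) ψ)
  rwa [localValue_apply, Idele.fin, idele_smul_apply, preComp_autOf] at this

variable {ι : Type*} [Fintype ι] {v : ι → D.Mod}

section local_pairs

variable {ζ : AlgebraicClosure ℚ} (hζ : IsPrimitiveRoot ζ p)
  {h : presKer (G := D.Gal) v →+ LUnits D.field} {c : Γℚ → M.dualTwist (cycloChar p)}
  (H : IsPair D.res v ((toQbarU D).comp h) (fun σ => muMap D hζ (c σ)))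

include H in
theorem isPair_local (q : Nat.Primes) :
    IsPair (locRes D q) v ((localValue D.field q).comp ((principalIdele D.field).comp h))
      (dualFamily D hζ (toQUnits q) fun τ => c (primeLocalToGlobal q τ)) := by
  have := H.map D.res (primeLocalToGlobal q) (toQUnits q) (toQUnits_smul q)
  have e : (localValue D.field q).comp ((principalIdele D.field).comp h) =
      (toQUnits q).comp ((toQbarU D).comp h) :=
    AddMonoidHom.ext fun x => localValue_principal D q (h x)
  rw [e]
  exact this

include H in
theorem isPair_inf :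
    IsPair (infRes D) v ((infValue D.field).comp ((principalIdele D.field).comp h))
      (dualFamily D hζ toCUnits fun τ => c (archimedeanLoc τ)) := by
  have := H.map D.res archimedeanLoc toCUnits toCUnits_smul
  have e : (infValue D.field).comp ((principalIdele D.field).comp h) =
      toCUnits.comp ((toQbarU D).comp h) :=
    AddMonoidHom.ext fun x => infValue_principal D (h x)
  rw [e]
  exact this

end local_pairs

/-- A decomposition outside `S` gives the valuation condition. -/
theorem isUnramifiedMap_of_decomp (h : presKer (G := D.Gal) v →+ LUnits D.field)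
    (F : Pres ι D.Gal →+ Idele D.field)
    (hu : ∀ q ∉ S, ∀ x : presKer (G := D.Gal) v,
      localValue D.field q (principalIdele D.field (h x) - F x) ∈ QUnits.unitGroup q) :
    IsUnramifiedMap D h := by
  intro q hq b
  set z := localValue D.field q (F b) with hz
  obtain ⟨x, -, hx0, hxn⟩ := exists_norm_eq (⊥ : Subgroup D.Gal) (stdEmb D.field q)
    (fin_mem_localField_bot (F b) (stdEmb D.field q)) (QUnits.toField_ne_zero z)
  obtain ⟨k, hk⟩ := exists_zpow_norm_of_inertia_fixed (q := q) (x := (x : Qbar))
    (fun h0 => hx0 (Subtype.ext h0)) fun σ hσ => by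
      rw [← D.coe_res σ x, res_eq_one_of_inertia D hq (padicPlace_liesOverPrime q) hσ]
      rfl
  refine ⟨k, ?_⟩
  have h1 := (QUnits.mem_unitGroup_iff _).1 (hu q hq ⟨p • b, nsmul_mem_presKer D.nsmul_mod b⟩)
  set a := localValue D.field q
    (principalIdele D.field (h ⟨p • b, nsmul_mem_presKer D.nsmul_mod b⟩)) with ha
  have h2 : localValue D.field q (F (p • b)) = p • z := by rw [map_nsmul, map_nsmul]
  rw [map_sub, h2, ← ha, sub_eq_add_neg, QUnits.toField_add, QUnits.toField_neg, norm_mul,
    norm_inv] at h1
  have h3 : ‖a.toField‖ = ‖(p • z).toField‖ :=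
    (mul_inv_eq_one₀ (norm_ne_zero_iff.2 (QUnits.toField_ne_zero _))).1 h1
  have h4 : ∀ n : ℕ, (n • z).toField = z.toField ^ n := fun n => by
    induction n with
    | zero => simp
    | succ n ih => rw [succ_nsmul, QUnits.toField_add, ih, pow_succ]
  rw [ha, localValue_principal, toField_toQUnits, h4, norm_pow] at h3
  rw [h3, zpow_mul', zpow_natCast, ← hk]
  congr 1
  exact hxn.symm

section construction

/-- The element `q` as a value at `q`. -/
noncomputable def primeVal (q : Nat.Primes) : QUnits q :=
  Additive.ofMul (Units.mk0 ((q : ℕ) : PadicAlgCl (q : ℕ)) (Nat.cast_ne_zero.2 q.2.ne_zero))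

theorem primeVal_fixed (q : Nat.Primes) (τ : Gloc q) : τ.onUnits (primeVal q) = primeVal q :=
  QUnits.toField_injective ((QUnits.toField_onUnits τ _).trans (map_natCast τ _))

theorem toField_zsmul_primeVal (q : Nat.Primes) (k : ℤ) :
    (k • primeVal q).toField = ((q : ℕ) : PadicAlgCl (q : ℕ)) ^ k := by
  show ((Additive.toMul (k • primeVal q) : (PadicAlgCl (q : ℕ))ˣ) : PadicAlgCl (q : ℕ)) = _
  rw [toMul_zsmul, Units.val_zpow_eq_zpow_val]
  rfl

end construction

/-- Prescribed local extensions at `S` and infinity extend to an equivariant map from the free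
module into ideles with units outside `S` as remainder. -/
theorem exists_free_idele (h : equivHom D.Gal (presKer (G := D.Gal) v) (LUnits D.field))
    (hunr : IsUnramifiedMap D (h : presKer (G := D.Gal) v →+ LUnits D.field))
    (F : ∀ q : Nat.Primes, Pres ι D.Gal →+ QUnits q)
    (hF : ∀ q ∈ S, IsEquivariantFree (locRes D q) (F q))
    (Finf : Pres ι D.Gal →+ CUnits) (hFinf : IsEquivariantFree (infRes D) Finf) :
    ∃ F' : equivHom D.Gal (Pres ι D.Gal) (Idele D.field),
      (∀ q ∈ S, ∀ b, localValue D.field q ((F' : Pres ι D.Gal →+ Idele D.field) b) = F q b) ∧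
      (∀ b, infValue D.field ((F' : Pres ι D.Gal →+ Idele D.field) b) = Finf b) ∧
      ∀ q ∉ S, ∀ (x : presKer (G := D.Gal) v) (ψ : Emb D.field q),
        (principalIdele D.field ((h : presKer (G := D.Gal) v →+ LUnits D.field) x) -
          (F' : Pres ι D.Gal →+ Idele D.field) x).fin q ψ ∈ QUnits.unitGroup q := by
  classical
  set h' := (h : presKer (G := D.Gal) v →+ LUnits D.field) with hh'
  have hp0 : p ≠ 0 := (Fact.out : p.Prime).ne_zero
  have hp0' : (p : ℤ) ≠ 0 := Int.natCast_ne_zero.2 hp0
  -- valuations
  let pb : Pres ι D.Gal → presKer (G := D.Gal) v := fun b => ⟨p • b, nsmul_mem_presKer D.nsmul_mod b⟩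
  choose n hn using hunr
  let N : ∀ q : Nat.Primes, Pres ι D.Gal → ℤ := fun q b => if hq : q ∈ S then 0 else n q hq b
  have hN : ∀ q, q ∉ S → ∀ b, ‖padicEmbedding (q : ℕ) (toQbarU D (h' (pb b))).el‖ =
      ‖((q : ℕ) : PadicAlgCl (q : ℕ))‖ ^ ((p : ℤ) * N q b) := fun q hq b => by
    simp only [N, dif_neg hq]; exact hn q hq b
  have hNadd : ∀ q a b, N q (a + b) = N q a + N q b := fun q a b => by
    by_cases hq : q ∈ S
    · simp [N, hq]
    · refine mul_left_cancel₀ hp0' (zpow_norm_q_inj (q := q) ?_)
      rw [← hN q hq, mul_add, zpow_add₀ norm_q_pos.ne', ← hN q hq, ← hN q hq, ← norm_mul,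
        ← map_mul, ← QbarU.el_add, ← map_add, ← map_add,
        show pb (a + b) = pb a + pb b from Subtype.ext (smul_add p a b)]
  have hNeq : ∀ q (τ : primeLocalGaloisGroup q) b, N q (locRes D q τ • b) = N q b := fun q τ b => by
    by_cases hq : q ∈ S
    · simp [N, hq]
    · refine mul_left_cancel₀ hp0' (zpow_norm_q_inj (q := q) ?_)
      rw [← hN q hq, ← hN q hq,
        show pb (locRes D q τ • b) = locRes D q τ • pb b from Subtype.ext (smul_comm p (locRes D q τ) b),
        hh', h.2, show toQbarU D (locRes D q τ • (h : presKer (G := D.Gal) v →+ LUnits D.field)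
          (pb b)) = primeLocalToGlobal q τ • toQbarU D (h' (pb b)) from toQbarU_smul D _ _,
        QbarU.el_smul]
      exact (congrArg _ (padicEmbedding_localGaloisToGlobal (q : ℕ) τ _)).trans (norm_gloc (q := q) τ _)
  let Nh : ∀ q, Pres ι D.Gal →+ ℤ := fun q => AddMonoidHom.mk' (N q) (hNadd q)
  -- local maps at every prime
  let Fl : ∀ q : Nat.Primes, Pres ι D.Gal →+ QUnits q := fun q =>
    if q ∈ S then F q else (zmultiplesHom (QUnits q) (primeVal q)).comp (Nh q)
  have hFl : ∀ q τ b, Fl q (locRes D q τ • b) = Gloc.onUnits (q := q) τ (Fl q b) := fun q τ b => by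
    by_cases hq : q ∈ S
    · simp only [Fl, if_pos hq]; exact hF q hq τ b
    · simp only [Fl, if_neg hq]
      show N q (locRes D q τ • b) • primeVal q = _
      rw [hNeq]
      refine ((map_zsmul (Gloc.onUnits (q := q) τ) _ _).trans ?_).symm
      exact congrArg (fun z => N q b • z) (primeVal_fixed q τ)
  let vfin : Pres ι D.Gal → ∀ q, Emb D.field q → QUnits q := fun b q ψ =>
    Fl q (autOf (stdEmb D.field q) ψ • b)
  let vinf : Pres ι D.Gal → (D.field →+* ℂ) → CUnits := fun b χ =>
    Finf (autOfInf (stdEmbInf D) χ • b)
  have hFinf' : ∀ b, Finf (D.res complexConjugation • b) = conjUnits (Finf b) := fun b => by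
    rw [← archimedeanGen_smul]; exact hFinf archimedeanGen b
  have hmem : ∀ b, ((vfin b, vinf b) : IdeleFamily D.field) ∈ ideleSubgroup D.field := by
    intro b
    refine ⟨fun q τ ψ => ?_, ?_, fun χ => ?_⟩
    · exact localValues_equivariant (stdEmb D.field q) (locRes D q) (stdEmb_postComp D q) (Fl q)
        (hFl q) b τ ψ
    · refine ((S.finite_toSet).union (Set.finite_iUnion fun g : D.Gal => finite_setOf_norm_ne_one
        (L := D.field) (x := ((h' (pb (g • b))).val : D.field)) (Units.ne_zero _))).subset ?_
      rintro q ⟨ψ, hψ⟩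
      refine or_iff_not_imp_left.2 fun hq => Set.mem_iUnion.2
        ⟨autOf (stdEmb D.field q) ψ, stdEmb D.field q, fun h1 => hψ ?_⟩
      show Fl q (autOf (stdEmb D.field q) ψ • b) ∈ _
      have hq' : q ∉ S := fun h => hq h
      simp only [Fl, if_neg hq']
      have h0 := hN q (fun hq' => hq hq') (autOf (stdEmb D.field q) ψ • b)
      have h1' : ‖padicEmbedding (q : ℕ)
          (toQbarU D (h' (pb (autOf (stdEmb D.field q) ψ • b)))).el‖ = 1 := h1
      rw [h1'] at h0
      have h2 : (p : ℤ) * N q (autOf (stdEmb D.field q) ψ • b) = 0 :=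
        zpow_norm_q_inj (q := q) (by rw [← h0, zpow_zero])
      show N q _ • primeVal q ∈ _
      rw [(mul_eq_zero.1 h2).resolve_left hp0', zero_smul]
      exact zero_mem _
    · exact infValues_equivariant (stdEmbInf D) (D.res complexConjugation) (conj_stdEmbInf D) Finf
        hFinf' b χ
  let F' : Pres ι D.Gal →+ Idele D.field :=
    { toFun := fun b => ⟨(vfin b, vinf b), hmem b⟩
      map_zero' := Subtype.ext (Prod.ext
        (funext fun q => funext fun ψ => by
          show Fl q (autOf (stdEmb D.field q) ψ • (0 : Pres ι D.Gal)) = 0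
          rw [smul_zero, map_zero])
        (funext fun χ => by
          show Finf (autOfInf (stdEmbInf D) χ • (0 : Pres ι D.Gal)) = 0
          rw [smul_zero, map_zero]))
      map_add' := fun a b => Subtype.ext (Prod.ext
        (funext fun q => funext fun ψ => by
          show Fl q (autOf (stdEmb D.field q) ψ • (a + b)) = Fl q _ + Fl q _
          rw [smul_add, map_add])
        (funext fun χ => by
          show Finf (autOfInf (stdEmbInf D) χ • (a + b)) = Finf _ + Finf _
          rw [smul_add, map_add])) }
  have hfin : ∀ b q g, (F' b).fin q ((stdEmb D.field q).preComp g) = Fl q (g • b) := fun b q g => by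
    show Fl q (autOf _ _ • b) = _
    rw [autOf_preComp]
  have hinf : ∀ (b : Pres ι D.Gal) (g : D.Gal), (F' b).inf ((stdEmbInf D).comp (g : D.field →+* D.field)) = Finf (g • b) :=
    fun b g => by
      show Finf (autOfInf _ _ • b) = _
      rw [autOfInf_comp]
  refine ⟨⟨F', fun g b => ?_⟩, fun q hq b => ?_, fun b => ?_, fun q hq x ψ => ?_⟩
  · refine Subtype.ext (Prod.ext (funext fun q => funext fun ψ => ?_) (funext fun χ => ?_))
    · show (F' (g • b)).fin q ψ = (F' b).fin q (ψ.preComp g)
      conv_lhs => rw [← preComp_autOf (stdEmb D.field q) ψ, hfin]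
      conv_rhs => rw [← preComp_autOf (stdEmb D.field q) ψ, ← preComp_mul, hfin, mul_smul]
    · show (F' (g • b)).inf χ = (F' b).inf (χ.comp (g : D.field →+* D.field))
      conv_lhs => rw [← comp_autOfInf (stdEmbInf D) χ, hinf]
      conv_rhs => rw [← comp_autOfInf (stdEmbInf D) χ, ← comp_algEquiv_mul, hinf, mul_smul]
  · have := hfin b q 1
    rw [one_smul] at this
    rw [localValue_apply]
    exact this.trans (by simp only [Fl, if_pos hq])
  · have := hinf b 1
    rw [one_smul] at this
    rw [infValue_apply]
    exact this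
  · set g := autOf (stdEmb D.field q) ψ with hg
    show (principalIdele D.field (h' x)).fin q ψ - (F' (x : Pres ι D.Gal)).fin q ψ ∈ _
    rw [← preComp_autOf (stdEmb D.field q) ψ, ← hg, hfin]
    rw [show (principalIdele D.field (h' x)).fin q ((stdEmb D.field q).preComp g) =
      localValue D.field q (g • principalIdele D.field (h' x)) from rfl, ← principalIdele_smul,
      localValue_principal, hh', ← h.2]
    simp only [Fl, if_neg hq]
    show _ - N q (((g • x : presKer (G := D.Gal) v) : Pres ι D.Gal)) • primeVal q ∈ _
    set y := g • x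
    rw [QUnits.mem_unitGroup_iff, sub_eq_add_neg, QUnits.toField_add, QUnits.toField_neg,
      toField_toQUnits, toField_zsmul_primeVal, norm_mul, norm_inv, norm_zpow]
    have h1 := hN q hq (y : Pres ι D.Gal)
    rw [show pb (y : Pres ι D.Gal) = p • y from rfl, map_nsmul, map_nsmul, QbarU.el_nsmul, map_pow,
      norm_pow, zpow_mul', zpow_natCast] at h1
    rw [(pow_left_inj₀ (norm_nonneg _) (zpow_nonneg (norm_nonneg _) _) hp0).1 h1,
      mul_inv_cancel₀ (zpow_ne_zero _ norm_q_pos.ne')]

/-- The remainder lies in the units outside `S` when it vanishes at `S` and at infinity. -/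
theorem sub_mem_unitIdelesOutside {f : Idele D.field}
    (hout : ∀ q ∉ S, ∀ ψ, f.fin q ψ ∈ QUnits.unitGroup q)
    (hS : ∀ q ∈ S, ∀ g : D.Gal, localValue D.field q (g • f) = 0)
    (hinf : ∀ g : D.Gal, infValue D.field (g • f) = 0) :
    f ∈ unitIdelesOutside D.field (S : Set Nat.Primes) := by
  refine ⟨fun q ψ => ⟨?_, fun hq => eq_zero_of_localValue D q (hS q hq) ψ⟩, funext fun χ => ?_⟩
  · by_cases hq : q ∈ S
    · rw [show f.1.1 q ψ = 0 from eq_zero_of_localValue D q (hS q hq) ψ]
      exact zero_mem _
    · exact hout q hq ψ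
  · have := hinf (autOfInf (stdEmbInf D) χ)
    rwa [infValue_apply, Idele.inf, idele_smul_apply_inf, comp_autOfInf] at this

end FermatLib.CFT.GWKummer
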