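import Fermat.Agent.CFT.DualInv
import Fermat.Agent.CFT.GWGlobIdele

/-!
The characterisation of the local pairings by the global invariant:
a 2-cocycle of ideles supported at one place which is the cup product of two local cocycles there,
up to a coboundary, has as invariant the local pairing of the two classes.
-/

set_option autoImplicit false

open CategoryTheory groupCohomology ExtCitation NumberField

namespace FermatLib.CFT.GWKummer

open FermatLib.CFT

local notation "Γℚ" => AlgebraicClosure ℚ ≃ₐ[ℚ] AlgebraicClosure ℚ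
local notation "Qbar" => AlgebraicClosure ℚ

section restriction

variable (L : IntermediateField ℚ (AlgebraicClosure ℚ)) [IsGalois ℚ L]

/-- Restriction to a Galois subfield of `ℚ̄`. -/
noncomputable def galTo : Γℚ →* (L ≃ₐ[ℚ] L) :=
  AlgEquiv.restrictNormalHom (F := ℚ) (K₁ := Qbar) L

theorem coe_galTo (σ : Γℚ) (x : L) : ((galTo L σ x : L) : Qbar) = σ x :=
  AlgEquiv.restrictNormal_commutes σ L x

theorem galTo_surjective : Function.Surjective (galTo L) :=
  haveI : Normal ℚ Qbar :=
    haveI : IsAlgClosure ℚ Qbar := ⟨inferInstance, AlgebraicClosure.isAlgebraic ℚ⟩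
    IsAlgClosure.normal ℚ Qbar
  AlgEquiv.restrictNormalHom_surjective Qbar

theorem galTo_eq_one_iff (σ : Γℚ) : galTo L σ = 1 ↔ σ ∈ L.fixingSubgroup := by
  rw [IntermediateField.mem_fixingSubgroup_iff]
  constructor
  · intro h x hx
    have := coe_galTo L σ ⟨x, hx⟩
    rw [h] at this
    exact this.symm
  · intro h
    exact AlgEquiv.ext fun x => Subtype.ext ((coe_galTo L σ x).trans (h x x.2))

theorem galRes_galTo {L' : IntermediateField ℚ (AlgebraicClosure ℚ)} [IsGalois ℚ L'] (h : L ≤ L')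
    (σ : Γℚ) : galRes h (galTo L' σ) = galTo L σ :=
  AlgEquiv.ext fun x => Subtype.ext (by
    rw [coe_galTo]
    refine (congrArg Subtype.val (galRes_spec h (galTo L' σ) x)).trans ?_
    exact coe_galTo L' σ _)

variable [NumberField L]

/-- The classes of a cochain of ideles. -/
noncomputable def classCochain :
    ((L ≃ₐ[ℚ] L) × (L ≃ₐ[ℚ] L) → Idele L) →+ ((L ≃ₐ[ℚ] L) × (L ≃ₐ[ℚ] L) → IdeleClass L) :=
  cochainMap2 (A := Idele L) (B := IdeleClass L) (MonoidHom.id _)
    (QuotientAddGroup.mk' (principalIdeles L))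

end restriction

variable {p : ℕ} [Fact p.Prime] (M : Rep (ZMod p) (AlgebraicClosure ℚ ≃ₐ[ℚ] AlgebraicClosure ℚ))

local notation "M'" => M.dualTwist (cycloChar p)

/-- The cup product of cochains of a group over `Γℚ` with values in `M` and in its dual twist. -/
noncomputable def cupVal {Γ : Type} [Group Γ] (f : Γ →* Γℚ) (x : Γ → M)
    (y : Γ → M.dualTwist (cycloChar p)) (σ τ : Γ) : ZMod p :=
  (y σ : Module.Dual (ZMod p) M) (M.ρ (f σ) (x τ))

/-- The local pairings are given by the global invariant of cup products. -/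
structure TateCompat {ζ : AlgebraicClosure ℚ} (hζ : IsPrimitiveRoot ζ p)
    (Bfin : ∀ q : Nat.Primes, LocalPairing M (primeLocalToGlobal q))
    (Binf : LocalPairing M archimedeanLoc) : Prop where
  fin : ∀ (L : IntermediateField ℚ (AlgebraicClosure ℚ)) [NumberField L] [IsGalois ℚ L]
    (q : Nat.Primes) (f : (L ≃ₐ[ℚ] L) × (L ≃ₐ[ℚ] L) → Idele L)
    (Z : classesKilled p (L ≃ₐ[ℚ] L) (IdeleClass L)),
    f ∈ Z2 (L ≃ₐ[ℚ] L) (Idele L) → (∀ t, f t ∈ primeIdeles L q) →
    (Z : (L ≃ₐ[ℚ] L) × (L ≃ₐ[ℚ] L) → IdeleClass L) = classCochain L f →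
    ∀ (x : cocycles₁ (Rep.res (primeLocalToGlobal q) M))
      (y : cocycles₁ (Rep.res (primeLocalToGlobal q) M'))
      (b : primeLocalGaloisGroup q → QUnits q),
      IsLevelConstant₁ (primeLocalToGlobal q) x → IsLevelConstant₁ (primeLocalToGlobal q) y →
      IsLevelConstant₁ (primeLocalToGlobal q) b →
      (∀ σ τ, localValue L q
          (f (galTo L (primeLocalToGlobal q σ), galTo L (primeLocalToGlobal q τ))) =
        σ • b τ - b (σ * τ) + b σ +
          toQUnits q (rootHom hζ (cupVal M (primeLocalToGlobal q) x y σ τ))) →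
      globalInv p L Z = Bfin q ((H1π _).hom x) ((H1π _).hom y)
  inf : ∀ (L : IntermediateField ℚ (AlgebraicClosure ℚ)) [NumberField L] [IsGalois ℚ L]
    (f : (L ≃ₐ[ℚ] L) × (L ≃ₐ[ℚ] L) → Idele L)
    (Z : classesKilled p (L ≃ₐ[ℚ] L) (IdeleClass L)),
    f ∈ Z2 (L ≃ₐ[ℚ] L) (Idele L) → (∀ t, f t ∈ infIdeles L) →
    (Z : (L ≃ₐ[ℚ] L) × (L ≃ₐ[ℚ] L) → IdeleClass L) = classCochain L f →
    ∀ (x : cocycles₁ (Rep.res archimedeanLoc M)) (y : cocycles₁ (Rep.res archimedeanLoc M'))
      (b : ↥archimedeanDecomposition → CUnits),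
      (∀ σ τ, infValue L (f (galTo L (archimedeanLoc σ), galTo L (archimedeanLoc τ))) =
        σ • b τ - b (σ * τ) + b σ +
          toCUnits (rootHom hζ (cupVal M archimedeanLoc x y σ τ))) →
      globalInv p L Z = Binf ((H1π _).hom x) ((H1π _).hom y)

end FermatLib.CFT.GWKummer
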