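import Fermat.Agent.CFT.GWGlobLocal

/-!
The dual twist as homomorphisms into roots of unity.
-/

set_option autoImplicit false

open CategoryTheory groupCohomology ExtCitation NumberField

namespace FermatLib.CFT.GWKummer

open FermatLib.CFT

local notation "Γℚ" => AlgebraicClosure ℚ ≃ₐ[ℚ] AlgebraicClosure ℚ
local notation "Qbar" => AlgebraicClosure ℚ

variable {p : ℕ} [Fact p.Prime] {M : Rep (ZMod p) Γℚ} {S : Finset Nat.Primes} (D : Level M S)
  {ζ : AlgebraicClosure ℚ} (hζ : IsPrimitiveRoot ζ p)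

local notation "M'" => M.dualTwist (cycloChar p)

/-- A functional as a homomorphism into the roots of unity. -/
noncomputable def muMap : M' →+ (D.Mod →+ QbarU) where
  toFun f := (rootHom hζ).comp ((LinearMap.toAddMonoidHom (f : Module.Dual (ZMod p) M)).comp
    D.toMod.symm.toAddMonoidHom)
  map_zero' := AddMonoidHom.ext fun x => map_zero (rootHom hζ)
  map_add' f g := AddMonoidHom.ext fun x => map_add (rootHom hζ) _ _

theorem muMap_toMod (f : M') (m : M) :
    muMap D hζ f (D.toMod m) = rootHom hζ ((f : Module.Dual (ZMod p) M) m) := rfl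

theorem muMap_ρ (σ : Γℚ) (f : M') (x : D.Mod) :
    muMap D hζ ((M').ρ σ f) x = σ • muMap D hζ f ((D.res σ)⁻¹ • x) := by
  obtain ⟨m, rfl⟩ := D.toMod.surjective x
  rw [← map_inv, D.res_smul, muMap_toMod, muMap_toMod, smul_rootHom]
  rfl

theorem muMap_injective : Function.Injective (muMap D hζ) := fun f g h =>
  LinearMap.ext fun m => rootHom_injective hζ (DFunLike.congr_fun h (D.toMod m))

theorem nsmul_hom_eq_zero {Ω : Type*} [AddCommGroup Ω] (φ : D.Mod →+ Ω) (x : D.Mod) :
    p • φ x = 0 := by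
  rw [← map_nsmul, D.nsmul_mod, map_zero]

/-- Every homomorphism into `ℚ̄ˣ` is a functional. -/
theorem exists_muMap_eq (φ : D.Mod →+ QbarU) : ∃ f : M', muMap D hζ f = φ := by
  choose a ha using fun m : M => exists_rootHom_eq hζ (nsmul_hom_eq_zero D φ (D.toMod m))
  refine ⟨(AddMonoidHom.mk' a fun m n => rootHom_injective hζ (by
    rw [map_add, ha, ha, ha, map_add, map_add])).toZModLinearMap p, AddMonoidHom.ext fun x => ?_⟩
  obtain ⟨m, rfl⟩ := D.toMod.surjective x
  exact ha m

/-- The homomorphism attached to a functional. -/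
noncomputable def muInv (φ : D.Mod →+ QbarU) : M' := (exists_muMap_eq D hζ φ).choose

theorem muMap_muInv (φ : D.Mod →+ QbarU) : muMap D hζ (muInv D hζ φ) = φ :=
  (exists_muMap_eq D hζ φ).choose_spec

/-- The roots of unity are all the `p`-torsion of a field containing a primitive root. -/
theorem exists_rootHom_eq_of_map {K : Type*} [Field K] (ι : Qbar →+* K) {z : Kˣ}
    (hz : z ^ p = 1) : ∃ a : ZMod p, (z : K) = ι (rootHom hζ a).el := by
  haveI : NeZero p := ⟨(Fact.out : p.Prime).ne_zero⟩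
  have h : (z : K) ^ p = 1 := by rw [← Units.val_pow_eq_pow_val, hz, Units.val_one]
  obtain ⟨i, hi, e⟩ := (hζ.map_of_injective ι.injective).eq_pow_of_pow_eq_one h
  exact ⟨(i : ZMod p), by rw [el_rootHom, ZMod.val_natCast_of_lt hi, map_pow, e]⟩

/-- Every homomorphism into the values at `q` is a functional. -/
theorem exists_toQUnits_muMap (q : Nat.Primes) (φ : D.Mod →+ QUnits q) :
    ∃ f : M', (toQUnits q).comp (muMap D hζ f) = φ := by
  have h : ∀ x, ∃ a : ZMod p, toQUnits q (rootHom hζ a) = φ x := fun x => by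
    have hz : (Additive.toMul (φ x) : (PadicAlgCl (q : ℕ))ˣ) ^ p = 1 := by
      rw [← toMul_nsmul, nsmul_hom_eq_zero D φ x, toMul_zero]
    obtain ⟨a, ha⟩ := exists_rootHom_eq_of_map hζ (padicEmbedding (q : ℕ)).toRingHom hz
    exact ⟨a, QUnits.toField_injective ha.symm⟩
  choose a ha using h
  refine ⟨muInv D hζ ((rootHom hζ).comp (AddMonoidHom.mk' a fun x y => rootHom_injective hζ
    (toQUnits_injective q (by rw [map_add, map_add, ha, ha, ha, map_add])))),
    AddMonoidHom.ext fun x => ?_⟩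
  rw [AddMonoidHom.comp_apply, muMap_muInv]
  exact ha x

/-- Every homomorphism into the values at infinity is a functional. -/
theorem exists_toCUnits_muMap (φ : D.Mod →+ CUnits) :
    ∃ f : M', toCUnits.comp (muMap D hζ f) = φ := by
  have h : ∀ x, ∃ a : ZMod p, toCUnits (rootHom hζ a) = φ x := fun x => by
    have hz : (Additive.toMul (φ x) : ℂˣ) ^ p = 1 := by
      rw [← toMul_nsmul, nsmul_hom_eq_zero D φ x, toMul_zero]
    obtain ⟨a, ha⟩ := exists_rootHom_eq_of_map hζ complexEmbedding.toRingHom hz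
    exact ⟨a, CUnits.toField_injective ha.symm⟩
  choose a ha using h
  refine ⟨muInv D hζ ((rootHom hζ).comp (AddMonoidHom.mk' a fun x y => rootHom_injective hζ
    (toCUnits_injective (by rw [map_add, map_add, ha, ha, ha, map_add])))),
    AddMonoidHom.ext fun x => ?_⟩
  rw [AddMonoidHom.comp_apply, muMap_muInv]
  exact ha x

section local_

variable {Γ : Type} [Group Γ] (f : Γ →* Γℚ) {Ω : Type*} [AddCommGroup Ω] [DistribMulAction Γ Ω]
  (φ : QbarU →+ Ω)

/-- A cocycle of the dual twist as a family of homomorphisms. -/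
noncomputable def dualFamily (c : Γ → M') (σ : Γ) : D.Mod →+ Ω := φ.comp (muMap D hζ (c σ))

variable (hφ : ∀ σ w, φ (f σ • w) = σ • φ w)

include hφ in
theorem isCocycle_dualFamily (c : cocycles₁ (Rep.res f M')) :
    IsCocycle (D.res.comp f) (dualFamily D hζ φ (c : Γ → M')) := by
  intro σ τ x
  have h : c (σ * τ) = (M').ρ (f σ) (c τ) + c σ :=
    (mem_cocycles₁_iff (c : Γ → _)).1 c.2 σ τ
  show φ (muMap D hζ (c (σ * τ)) x) = _
  rw [h, map_add, AddMonoidHom.add_apply, map_add, muMap_ρ, hφ]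
  rfl

include hφ in
theorem isCohomologous_dualFamily {c c' : cocycles₁ (Rep.res f M')}
    (h : (H1π _).hom c = (H1π _).hom c') :
    IsCohomologous (D.res.comp f) (dualFamily D hζ φ (c : Γ → M'))
      (dualFamily D hζ φ (c' : Γ → M')) := by
  obtain ⟨a, ha⟩ := (H1π_eq_iff _ _).1 h
  refine ⟨φ.comp (muMap D hζ a), fun σ x => ?_⟩
  have h1 : c σ - c' σ = (M').ρ (f σ) a - a := by
    have := congrFun ha σ; rw [d₀₁_hom_apply] at this; exact this.symm
  show φ (muMap D hζ (c σ) x) - φ (muMap D hζ (c' σ) x) = _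
  rw [← map_sub, ← AddMonoidHom.sub_apply, ← map_sub, h1, map_sub, AddMonoidHom.sub_apply,
    map_sub, muMap_ρ, hφ]
  rfl

include hφ in
/-- Cohomologous families of functionals have equal classes, when all homomorphisms into the
coefficients are functionals. -/
theorem H1π_eq_of_isCohomologous (hinj : Function.Injective φ)
    (hsurj : ∀ ψ : D.Mod →+ Ω, ∃ g : M', φ.comp (muMap D hζ g) = ψ)
    {c c' : cocycles₁ (Rep.res f M')}
    (h : IsCohomologous (D.res.comp f) (dualFamily D hζ φ (c : Γ → M'))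
      (dualFamily D hζ φ (c' : Γ → M'))) :
    (H1π _).hom c = (H1π _).hom c' := by
  obtain ⟨η, hη⟩ := h
  obtain ⟨a, rfl⟩ := hsurj η
  refine (H1π_eq_iff _ _).2 ⟨a, funext fun σ => muMap_injective D hζ (AddMonoidHom.ext fun x =>
    hinj ?_)⟩
  have h1 : φ (muMap D hζ (c σ) x) - φ (muMap D hζ (c' σ) x) =
      σ • φ (muMap D hζ a ((D.res (f σ))⁻¹ • x)) - φ (muMap D hζ a x) := hη σ x
  rw [d₀₁_hom_apply]
  show φ (muMap D hζ ((M').ρ (f σ) a - a) x) = φ (muMap D hζ (c σ - c' σ) x)
  rw [map_sub, map_sub, AddMonoidHom.sub_apply, AddMonoidHom.sub_apply, map_sub, map_sub,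
    muMap_ρ, hφ, h1]

end local_

end FermatLib.CFT.GWKummer
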