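import Fermat.Agent.CFT.PresDefs

/-!
Kummer pairs: for a presentation `v` of a module killed by `p`, a
`res`-equivariant `h : presKer v → Ω` into a divisible `Γ`-module and a crossed homomorphism
`c : Γ → Hom(V, Ω)` form a pair when some extension of `h` to the free module has coboundary `c`.
The generic form serves the global (`Ω = ℚ̄ˣ`) and the local (`Ω = ℚ̄_qˣ`, `ℂˣ`) Kummer maps.
-/

set_option autoImplicit false

namespace FermatLib.CFT.GWKummer

variable {Γ G : Type*} [Group Γ] [Group G] [Fintype G] (res : Γ →* G)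
  {ι : Type*} [Fintype ι] {V : Type*} [AddCommGroup V] [DistribMulAction G V] (v : ι → V)
  {Ω : Type*} [AddCommGroup Ω] [DistribMulAction Γ Ω]

/-- Compatibility of a map on the relation lattice with the action. -/
def IsEquivariant (h : presKer (G := G) v →+ Ω) : Prop :=
  ∀ σ x, h (res σ • x) = σ • h x

/-- Compatibility of a map on the free module with the action. -/
def IsEquivariantFree (F : Pres ι G →+ Ω) : Prop :=
  ∀ σ b, F (res σ • b) = σ • F b

/-- The crossed homomorphism identity in `Hom(V, Ω)`. -/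
def IsCocycle (c : Γ → V →+ Ω) : Prop :=
  ∀ σ τ x, c (σ * τ) x = σ • c τ ((res σ)⁻¹ • x) + c σ x

/-- Two crossed homomorphisms differ by a coboundary. -/
def IsCohomologous (c c' : Γ → V →+ Ω) : Prop :=
  ∃ η : V →+ Ω, ∀ σ x, c σ x - c' σ x = σ • η ((res σ)⁻¹ • x) - η x

/-- Kummer pairs. -/
def IsPair (h : presKer (G := G) v →+ Ω) (c : Γ → V →+ Ω) : Prop :=
  ∃ e : Pres ι G →+ Ω, (∀ x : presKer (G := G) v, e (x : Pres ι G) = h x) ∧
    ∀ σ b, c σ (presMap v b) = σ • e ((res σ)⁻¹ • b) - e b

/-- The generator `(i, g)` of the free module. -/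
noncomputable def presSingle (i : ι) (g : G) : Pres ι G := by
  classical exact fun j h => if j = i ∧ h = g then 1 else 0

omit [Fintype G] [Fintype ι] in
theorem smul_presSingle (g' : G) (i : ι) (g : G) :
    g' • presSingle i g = presSingle i (g' * g) := by
  classical
  funext j h
  show (if j = i ∧ g'⁻¹ * h = g then (1 : ℤ) else 0) = if j = i ∧ h = g' * g then 1 else 0
  simp only [inv_mul_eq_iff_eq_mul]

theorem presMap_presSingle (i : ι) (g : G) : presMap v (presSingle i g) = g • v i := by
  classical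
  show ∑ j, ∑ h, (if j = i ∧ h = g then (1 : ℤ) else 0) • (h • v j) = g • v i
  rw [Finset.sum_eq_single i (fun j _ hj => Finset.sum_eq_zero fun h _ => by simp [hj])
    (fun h => absurd (Finset.mem_univ i) h)]
  rw [Finset.sum_eq_single g (fun h _ hh => by simp [hh]) (fun h => absurd (Finset.mem_univ g) h)]
  simp

/-- The map on the free module with prescribed values at the generators. -/
def freeLift (f : ι → G → Ω) : Pres ι G →+ Ω where
  toFun a := ∑ i, ∑ g, a i g • f i g
  map_zero' := by
    show ∑ i, ∑ g, (0 : ℤ) • f i g = 0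
    simp
  map_add' a b := by
    show ∑ i, ∑ g, (a i g + b i g) • f i g = _
    simp [add_smul, Finset.sum_add_distrib]

omit [Group G] in
theorem sum_presSingle (a : Pres ι G) : ∑ i, ∑ g, a i g • presSingle i g = a := by
  classical
  funext j h
  let ev : Pres ι G →+ ℤ :=
    { toFun := fun a => a j h, map_zero' := rfl, map_add' := fun _ _ => rfl }
  show ev (∑ i, ∑ g, a i g • presSingle i g) = a j h
  simp only [map_sum, map_zsmul]
  refine (Finset.sum_eq_single j (fun i _ hi => Finset.sum_eq_zero fun g _ => ?_)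
    (fun hj => absurd (Finset.mem_univ j) hj)).trans ?_
  · show a i g • (if j = i ∧ h = g then (1 : ℤ) else 0) = 0
    simp [Ne.symm hi]
  · refine (Finset.sum_eq_single h (fun g _ hg => ?_)
      (fun hh => absurd (Finset.mem_univ h) hh)).trans ?_
    · show a j g • (if j = j ∧ h = g then (1 : ℤ) else 0) = 0
      simp [Ne.symm hg]
    · show a j h • (if j = j ∧ h = h then (1 : ℤ) else 0) = a j h
      simp

theorem free_ext {F F' : Pres ι G →+ Ω} (h : ∀ i g, F (presSingle i g) = F' (presSingle i g)) :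
    F = F' := by
  ext a
  rw [← sum_presSingle a]
  simp [map_sum, map_zsmul, h]

omit [Group G] in
theorem freeLift_presSingle (f : ι → G → Ω) (i : ι) (g : G) :
    freeLift f (presSingle i g) = f i g := by
  classical
  show ∑ j, ∑ h, (if j = i ∧ h = g then (1 : ℤ) else 0) • f j h = f i g
  rw [Finset.sum_eq_single i (fun j _ hj => Finset.sum_eq_zero fun h _ => by simp [hj])
    (fun h => absurd (Finset.mem_univ i) h)]
  rw [Finset.sum_eq_single g (fun h _ hh => by simp [hh]) (fun h => absurd (Finset.mem_univ g) h)]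
  simp

variable {v}

omit [DistribMulAction Γ Ω] in
/-- Multiples by an integer killing `V` are relations. -/
theorem nsmul_mem_presKer {p : ℕ} (hp : ∀ x : V, p • x = 0) (b : Pres ι G) :
    p • b ∈ presKer (G := G) v := by
  show presMap v (p • b) = 0
  rw [map_nsmul, hp]

theorem IsPair.add {h h' : presKer (G := G) v →+ Ω} {c c' : Γ → V →+ Ω}
    (H : IsPair res v h c) (H' : IsPair res v h' c') : IsPair res v (h + h') (c + c') := by
  obtain ⟨e, he, hc⟩ := H
  obtain ⟨e', he', hc'⟩ := H'
  refine ⟨e + e', fun x => by simp [he, he'], fun σ b => ?_⟩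
  simp [hc, hc', smul_add]
  abel

theorem IsPair.neg {h : presKer (G := G) v →+ Ω} {c : Γ → V →+ Ω} (H : IsPair res v h c) :
    IsPair res v (-h) (-c) := by
  obtain ⟨e, he, hc⟩ := H
  refine ⟨-e, fun x => by simp [he], fun σ b => ?_⟩
  simp [hc, smul_neg]
  abel

theorem IsPair.sub {h h' : presKer (G := G) v →+ Ω} {c c' : Γ → V →+ Ω}
    (H : IsPair res v h c) (H' : IsPair res v h' c') : IsPair res v (h - h') (c - c') := by
  rw [sub_eq_add_neg, sub_eq_add_neg]
  exact H.add res (H'.neg res)

/-- Restrictions of equivariant maps pair with zero. -/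
theorem isPair_restr {F : Pres ι G →+ Ω} (hF : IsEquivariantFree res F) :
    IsPair res v (F.comp (presKer (G := G) v).subtype) 0 :=
  ⟨F, fun _ => rfl, fun σ b => by rw [← hF, ← mul_smul, mul_inv_cancel, one_smul]; simp⟩

theorem IsPair.equivariant {h : presKer (G := G) v →+ Ω} {c : Γ → V →+ Ω}
    (H : IsPair res v h c) : IsEquivariant res v h := by
  obtain ⟨e, he, hc⟩ := H
  intro σ x
  have := hc σ (res σ • (x : Pres ι G))
  rw [presMap_smul, show presMap v (x : Pres ι G) = 0 from x.2, smul_zero, map_zero,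
    inv_smul_smul, eq_comm, sub_eq_zero, he] at this
  exact ((he (res σ • x)).symm.trans this.symm)

theorem IsPair.isCocycle (hv : Function.Surjective (presMap (G := G) v))
    {h : presKer (G := G) v →+ Ω} {c : Γ → V →+ Ω}
    (H : IsPair res v h c) : IsCocycle res c := by
  obtain ⟨e, -, hc⟩ := H
  intro σ τ x
  obtain ⟨b, rfl⟩ := hv x
  rw [hc, ← presMap_smul, hc, hc, map_mul, mul_inv_rev, mul_smul, smul_sub, mul_smul]
  abel

/-- Changing the cocycle by a coboundary keeps the pair, up to nothing. -/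
theorem IsPair.of_cohomologous {h : presKer (G := G) v →+ Ω} {c c' : Γ → V →+ Ω}
    (H : IsPair res v h c) (hcc' : IsCohomologous res c' c) : IsPair res v h c' := by
  obtain ⟨e, he, hc⟩ := H
  obtain ⟨η, hη⟩ := hcc'
  refine ⟨e + η.comp (presMap v), fun x => ?_, fun σ b => ?_⟩
  · simp [he, show presMap v (x : Pres ι G) = 0 from x.2]
  · have := hη σ (presMap v b)
    rw [hc, sub_eq_iff_eq_add] at this
    simp only [AddMonoidHom.add_apply, AddMonoidHom.comp_apply, smul_add, presMap_smul]
    rw [this]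
    abel

/-- A pair with a coboundary: the map extends equivariantly. -/
theorem IsPair.exists_extension {h : presKer (G := G) v →+ Ω} {c : Γ → V →+ Ω}
    (H : IsPair res v h c) (hc : IsCohomologous res c 0) :
    ∃ F : Pres ι G →+ Ω, IsEquivariantFree res F ∧ ∀ x : presKer (G := G) v, F x = h x := by
  have H0 : IsPair res v h (0 : Γ → V →+ Ω) := by
    refine H.of_cohomologous res ?_
    obtain ⟨η, hη⟩ := hc
    exact ⟨-η, fun σ x => by
      have := hη σ x
      simp only [Pi.zero_apply, AddMonoidHom.zero_apply, sub_zero, zero_sub] at this ⊢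
      rw [this]; simp [smul_neg]; abel⟩
  obtain ⟨e, he, hc0⟩ := H0
  refine ⟨e, fun σ b => ?_, he⟩
  have := hc0 σ (res σ • b)
  rw [inv_smul_smul] at this
  exact (sub_eq_zero.1 this.symm).symm

/-- Pairs with the same map have cohomologous cocycles. -/
theorem IsPair.cohomologous (hv : Function.Surjective (presMap (G := G) v))
    {h : presKer (G := G) v →+ Ω} {c c' : Γ → V →+ Ω}
    (H : IsPair res v h c) (H' : IsPair res v h c') : IsCohomologous res c c' := by
  obtain ⟨e, he, hc⟩ := H
  obtain ⟨e', he', hc'⟩ := H'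
  have hker : ∀ b, presMap v b = 0 → e b = e' b := fun b hb =>
    (he ⟨b, hb⟩).trans (he' ⟨b, hb⟩).symm
  have hsec := Function.surjInv_eq hv
  have hwd : ∀ b b', presMap v b = presMap v b' → e b - e' b = e b' - e' b' := by
    intro b b' hb
    have := hker (b - b') (by rw [map_sub, hb, sub_self])
    rw [map_sub, map_sub] at this
    rw [sub_eq_sub_iff_sub_eq_sub]
    exact this
  let η : V →+ Ω := AddMonoidHom.mk' (fun x => e (Function.surjInv hv x) - e' (Function.surjInv hv x))
    fun x y => by
      rw [hwd _ (Function.surjInv hv x + Function.surjInv hv y)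
        (by rw [hsec, map_add, hsec, hsec]), map_add, map_add]
      abel
  refine ⟨η, fun σ x => ?_⟩
  obtain ⟨b, rfl⟩ := hv x
  rw [hc, hc', ← presMap_smul]
  show _ = σ • (e (Function.surjInv hv _) - e' (Function.surjInv hv _)) - (e _ - e' _)
  rw [hwd _ ((res σ)⁻¹ • b) (hsec _), hwd _ b (hsec _), smul_sub]
  abel

/-- Homomorphisms from subgroups to divisible groups extend. -/
theorem exists_extend [DivisibleBy Ω ℤ] {B : Type*} [AddCommGroup B] (K : AddSubgroup B)
    (f : K →+ Ω) : ∃ e : B →+ Ω, ∀ x : K, e x = f x := by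
  obtain ⟨e, he⟩ := (Module.Baer.of_divisible Ω).extension_property_addMonoidHom K.subtype
    Subtype.val_injective f
  exact ⟨e, fun x => DFunLike.congr_fun he x⟩

/-- Every equivariant map has a pair. -/
theorem exists_pair_cocycle [DivisibleBy Ω ℤ] (hv : Function.Surjective (presMap (G := G) v))
    {h : presKer (G := G) v →+ Ω} (hh : IsEquivariant res v h) :
    ∃ c : Γ → V →+ Ω, IsPair res v h c := by
  obtain ⟨e, he⟩ := exists_extend _ h
  let D : Γ → Pres ι G →+ Ω := fun σ =>
    AddMonoidHom.mk' (fun b => σ • e ((res σ)⁻¹ • b) - e b) fun a b => by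
      rw [smul_add (res σ)⁻¹, map_add, map_add, smul_add]
      abel
  have hD : ∀ σ, (presMap (G := G) v).ker ≤ (D σ).ker := by
    intro σ b hb
    have h1 := hh σ ((res σ)⁻¹ • ⟨b, hb⟩)
    rw [smul_inv_smul] at h1
    show σ • e ((res σ)⁻¹ • b) - e b = 0
    rw [show e b = h ⟨b, hb⟩ from he ⟨b, hb⟩,
      show e ((res σ)⁻¹ • b) = h ((res σ)⁻¹ • ⟨b, hb⟩) from he ((res σ)⁻¹ • ⟨b, hb⟩), ← h1,
      sub_self]
  refine ⟨fun σ => (presMap (G := G) v).liftOfSurjective hv ⟨D σ, hD σ⟩, e, he, fun σ b => ?_⟩
  exact AddMonoidHom.liftOfRightInverse_comp_apply _ _ _ ⟨D σ, hD σ⟩ b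

/-- Hilbert 90 makes every crossed homomorphism part of a pair. -/
theorem exists_pair_map {c : Γ → V →+ Ω} (hc : IsCocycle res c)
    (h90 : ∀ x : V, ∃ β : Ω, ∀ τ, res τ = 1 → c τ x = τ • β - β) :
    ∃ h : presKer (G := G) v →+ Ω, IsPair res v h c := by
  classical
  choose β hβ using h90
  let R : G → G ⧸ res.range := fun g => QuotientGroup.mk g⁻¹
  let rep : G → G := fun g => ((R g).out)⁻¹
  have hrep : ∀ g, g * (rep g)⁻¹ ∈ res.range := fun g => by
    have h1 : (g⁻¹)⁻¹ * (R g).out ∈ res.range :=
      QuotientGroup.eq.1 (QuotientGroup.out_eq' (R g)).symm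
    simpa [rep] using h1
  choose lift hlift using hrep
  have hlift' : ∀ g, res (lift g) * rep g = g := fun g => by rw [hlift, inv_mul_cancel_right]
  have hrepR : ∀ σ g, rep (res σ * g) = rep g := fun σ g => by
    have : R (res σ * g) = R g := by
      apply QuotientGroup.eq.2
      simp
    simp only [rep, this]
  let f : ι → G → Ω := fun i g =>
    lift g • β (rep g • v i) - c (lift g) (g • v i)
  refine ⟨(freeLift f).comp (presKer (G := G) v).subtype, freeLift f, fun x => rfl, fun σ => ?_⟩
  let E : Pres ι G →+ Ω := AddMonoidHom.mk'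
    (fun b => σ • freeLift f ((res σ)⁻¹ • b) - freeLift f b) fun a b => by
      rw [smul_add (res σ)⁻¹, map_add, map_add, smul_add]
      abel
  have heq : (c σ).comp (presMap v) = E := free_ext fun i g => by
    show c σ (presMap v (presSingle i g)) =
      σ • freeLift f ((res σ)⁻¹ • presSingle i g) - freeLift f (presSingle i g)
    rw [presMap_presSingle, smul_presSingle, freeLift_presSingle, freeLift_presSingle]
    set g' := (res σ)⁻¹ * g with hg'
    have hr : rep g' = rep g := by
      rw [hg', ← map_inv]; exact hrepR σ⁻¹ g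
    have hk : res ((lift g)⁻¹ * (σ * lift g')) = 1 := by
      rw [map_mul, map_inv, map_mul, inv_mul_eq_one]
      apply mul_right_cancel (b := rep g)
      rw [hlift' g, mul_assoc, ← hr, hlift' g', hg', mul_inv_cancel_left]
    have h1 := hβ (rep g • v i) _ hk
    have h2 := hc (lift g) ((lift g)⁻¹ * (σ * lift g')) (g • v i)
    rw [mul_inv_cancel_left, hc σ (lift g') (g • v i), ← mul_smul (res (lift g))⁻¹,
      inv_mul_eq_iff_eq_mul.2 (hlift' g).symm, ← mul_smul (res σ)⁻¹, ← hg', h1, smul_sub,
      smul_smul (lift g), mul_inv_cancel_left] at h2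
    rw [show f i g' = lift g' • β (rep g • v i) - c (lift g') (g' • v i) by simp only [f, hr],
      show f i g = lift g • β (rep g • v i) - c (lift g) (g • v i) from rfl, smul_sub,
      smul_smul σ (lift g')]
    have h3 : c σ (g • v i) = (σ * lift g') • β (rep g • v i) - lift g • β (rep g • v i) +
        c (lift g) (g • v i) - σ • c (lift g') (g' • v i) := by
      rw [← h2]; abel
    rw [h3]
    abel
  intro b
  exact DFunLike.congr_fun heq b

/-- For a pair, `h ∘ δx` is minus the cup product of `c` and `x`, up to the coboundary of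
`e ∘ x̃`: the compatibility of cup products with connecting maps. -/
theorem IsPair.comp_delta {h : presKer (G := G) v →+ Ω} {c : Γ → V →+ Ω} (H : IsPair res v h c) :
    ∃ e : Pres ι G →+ Ω, (∀ x : presKer (G := G) v, e (x : Pres ι G) = h x) ∧
      ∀ (xt : Γ → Pres ι G) (a : Γ × Γ → presKer (G := G) v),
        (∀ σ τ, (a (σ, τ) : Pres ι G) = res σ • xt τ - xt (σ * τ) + xt σ) →
        ∀ σ τ, h (a (σ, τ)) = σ • e (xt τ) - e (xt (σ * τ)) + e (xt σ)
          - c σ (res σ • presMap v (xt τ)) := by
  obtain ⟨e, he, hc⟩ := H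
  refine ⟨e, he, fun xt a ha σ τ => ?_⟩
  have h1 := hc σ (res σ • xt τ)
  rw [presMap_smul, inv_smul_smul] at h1
  rw [h1, ← he, ha, map_add, map_sub]
  abel

section functorial

variable {Γ' : Type*} [Group Γ'] (f : Γ' →* Γ) {Ω' : Type*} [AddCommGroup Ω']
  [DistribMulAction Γ' Ω']

/-- Pairs restrict along compatible maps. -/
theorem IsPair.map (φ : Ω →+ Ω') (hφ : ∀ σ w, φ (f σ • w) = σ • φ w)
    {h : presKer (G := G) v →+ Ω} {c : Γ → V →+ Ω} (H : IsPair res v h c) :
    IsPair (res.comp f) v (φ.comp h) (fun σ => φ.comp (c (f σ))) := by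
  obtain ⟨e, he, hc⟩ := H
  exact ⟨φ.comp e, fun x => by simp [he], fun σ b => by simp [hc, hφ]⟩

omit [Fintype G] in
theorem IsCohomologous.map (φ : Ω →+ Ω') (hφ : ∀ σ w, φ (f σ • w) = σ • φ w)
    {c c' : Γ → V →+ Ω} (H : IsCohomologous res c c') :
    IsCohomologous (res.comp f) (fun σ => φ.comp (c (f σ))) (fun σ => φ.comp (c' (f σ))) := by
  obtain ⟨η, hη⟩ := H
  refine ⟨φ.comp η, fun σ x => ?_⟩
  show φ (c (f σ) x) - φ (c' (f σ) x) = σ • φ (η ((res (f σ))⁻¹ • x)) - φ (η x)
  rw [← map_sub, hη, map_sub, hφ]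

end functorial

end FermatLib.CFT.GWKummer
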