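import Fermat.Agent.CFT.GWGlobSplit
import Fermat.Agent.CFT.GWGlobUnits
import Fermat.Agent.CFT.GWAssembly

/-!
Global classes are isotropic: the cup product of two global classes
unramified outside `S` is a principal idele, so the local pairings at `S` and infinity sum to zero.
-/

set_option autoImplicit false
set_option linter.style.haveILetI false

open CategoryTheory groupCohomology ExtCitation NumberField

namespace FermatLib.CFT.GWKummer

open FermatLib.CFT

local notation "Γℚ" => AlgebraicClosure ℚ ≃ₐ[ℚ] AlgebraicClosure ℚ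
local notation "Qbar" => AlgebraicClosure ℚ

variable {p : ℕ} [Fact p.Prime] {M : Rep (ZMod p) Γℚ} {S : Finset Nat.Primes} (D : Level M S)
  {ζ : AlgebraicClosure ℚ} (hζ : IsPrimitiveRoot ζ p)

local notation "M'" => M.dualTwist (cycloChar p)

section level

variable {L : IntermediateField ℚ (AlgebraicClosure ℚ)} (hle : D.field ≤ L)

include D hle in
theorem rootHom_mem (a : ZMod p) : (rootHom hζ a).el ∈ L := by
  obtain ⟨z, -, hz⟩ := D.isPrimitiveRoot hζ
  rw [el_rootHom]
  exact pow_mem (hle (hz ▸ z.2)) _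

variable [NumberField L]

/-- The roots of unity in a level. -/
noncomputable def zetaUnit : ZMod p →+ LUnits L where
  toFun a := LUnits.of (Units.mk0 ⟨(rootHom hζ a).el, rootHom_mem D hζ hle a⟩ fun h =>
    (rootHom hζ a).el_ne_zero (congrArg Subtype.val h))
  map_zero' := LUnits.ext_val (Subtype.ext (by
    show (rootHom hζ 0).el = 1
    rw [map_zero]; rfl))
  map_add' a b := LUnits.ext_val (Subtype.ext (by
    show (rootHom hζ (a + b)).el = (rootHom hζ a).el * (rootHom hζ b).el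
    rw [map_add]; rfl))

theorem coe_zetaUnit (a : ZMod p) :
    (((zetaUnit D hζ hle a).val : L) : Qbar) = (rootHom hζ a).el := rfl

theorem localValue_principal_zetaUnit (q : Nat.Primes) (a : ZMod p) :
    localValue L q (principalIdele L (zetaUnit D hζ hle a)) = toQUnits q (rootHom hζ a) :=
  QUnits.toField_injective rfl

theorem infValue_principal_zetaUnit (a : ZMod p) :
    infValue L (principalIdele L (zetaUnit D hζ hle a)) = toCUnits (rootHom hζ a) :=
  CUnits.toField_injective rfl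

theorem zetaUnit_mem_unitGroup (a : ZMod p) (q : Nat.Primes) (ψ : Emb L q) :
    (principalIdele L (zetaUnit D hζ hle a)).fin q ψ ∈ QUnits.unitGroup q := by
  rw [QUnits.mem_unitGroup_iff]
  show ‖ψ ((zetaUnit D hζ hle a).val : L)‖ = 1
  have h1 : ((zetaUnit D hζ hle a).val : L) ^ p = 1 := Subtype.ext (by
    show ((((zetaUnit D hζ hle a).val : L) : Qbar)) ^ p = 1
    rw [coe_zetaUnit, ← QbarU.el_nsmul, ← map_nsmul, nsmul_eq_mul, ZMod.natCast_self, zero_mul,
      map_zero, QbarU.el_zero])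
  refine (pow_eq_one_iff_of_nonneg (norm_nonneg _) (Fact.out : p.Prime).ne_zero).1 ?_
  rw [← norm_pow, ← map_pow, h1, map_one, norm_one]

variable [IsGalois ℚ L]

theorem galTo_smul_zetaUnit (σ : Γℚ) (a : ZMod p) :
    galTo L σ • zetaUnit D hζ hle a = zetaUnit D hζ hle ((cycloChar p σ : ZMod p) * a) := by
  refine LUnits.ext_val (Subtype.ext ?_)
  show ((galTo L σ ((zetaUnit D hζ hle a).val : L) : L) : Qbar) = _
  rw [coe_galTo, coe_zetaUnit, coe_zetaUnit, ← smul_rootHom, QbarU.el_smul]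

end level

section cup

omit D in
/-- The cup product of two cocycles is a cocycle in the roots of unity. -/
theorem cupVal_cocycle (x : cocycles₁ M) (y : cocycles₁ M') (σ τ υ : Γℚ) :
    (cycloChar p σ : ZMod p) * cupVal M (MonoidHom.id Γℚ) x y τ υ +
        cupVal M (MonoidHom.id Γℚ) x y σ (τ * υ) =
      cupVal M (MonoidHom.id Γℚ) x y (σ * τ) υ + cupVal M (MonoidHom.id Γℚ) x y σ τ := by
  simp only [cupVal, MonoidHom.id_apply]
  have hy := (mem_cocycles₁_iff y).1 y.2 σ τ
  have hx := (mem_cocycles₁_iff x).1 x.2 τ υ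
  rw [hy, hx, Rep.dualTwist_ρ_apply]
  have hinv : M.ρ σ⁻¹ (M.ρ (σ * τ) (x υ)) = M.ρ τ (x υ) := by
    rw [← Module.End.mul_apply, ← map_mul, inv_mul_cancel_left]
  have hmul : M.ρ σ (M.ρ τ (x υ)) = M.ρ (σ * τ) (x υ) := by
    rw [← Module.End.mul_apply, ← map_mul]
  show (cycloChar p σ : ZMod p) * (y τ : Module.Dual (ZMod p) M) (M.ρ τ (x υ)) +
      (y σ : Module.Dual (ZMod p) M) (M.ρ σ (M.ρ τ (x υ) + x τ)) =
    ((cycloChar p σ : ZMod p) * (y τ : Module.Dual (ZMod p) M) (M.ρ σ⁻¹ (M.ρ (σ * τ) (x υ))) +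
      (y σ : Module.Dual (ZMod p) M) (M.ρ (σ * τ) (x υ))) +
        (y σ : Module.Dual (ZMod p) M) (M.ρ σ (x τ))
  rw [hinv, map_add, map_add, hmul]
  abel

variable {L : IntermediateField ℚ (AlgebraicClosure ℚ)} [NumberField L] [IsGalois ℚ L]
  (hle : D.field ≤ L) (x : cocycles₁ M) (y : cocycles₁ (M.dualTwist (cycloChar p)))

/-- The cup product as a cochain of principal ideles of the level. -/
noncomputable def cupCochain : (L ≃ₐ[ℚ] L) × (L ≃ₐ[ℚ] L) → Idele L := fun t =>
  principalIdele L (zetaUnit D hζ hle (cupVal M (MonoidHom.id Γℚ) x y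
    (Function.surjInv (galTo_surjective L) t.1) (Function.surjInv (galTo_surjective L) t.2)))

variable {x y} (hker : ∀ s ∈ L.fixingSubgroup, x s = 0 ∧ y s = 0)

include hker in
theorem cupCochain_galTo (σ τ : Γℚ) :
    cupCochain D hζ hle x y (galTo L σ, galTo L τ) =
      principalIdele L (zetaUnit D hζ hle (cupVal M (MonoidHom.id Γℚ) x y σ τ)) := by
  set σ' := Function.surjInv (galTo_surjective L) (galTo L σ)
  set τ' := Function.surjInv (galTo_surjective L) (galTo L τ)
  have hs : σ⁻¹ * σ' ∈ L.fixingSubgroup := (galTo_eq_one_iff L _).1 (by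
    rw [map_mul, map_inv, Function.surjInv_eq (galTo_surjective L), inv_mul_cancel])
  have ht : τ⁻¹ * τ' ∈ L.fixingSubgroup := (galTo_eq_one_iff L _).1 (by
    rw [map_mul, map_inv, Function.surjInv_eq (galTo_surjective L), inv_mul_cancel])
  have hρ : M.ρ σ' = M.ρ σ := by
    rw [← mul_inv_cancel_left σ σ', map_mul,
      D.split _ (IntermediateField.fixingSubgroup_antitone hle hs), mul_one]
  have hy : y σ' = y σ := by
    rw [← mul_inv_cancel_left σ σ', (mem_cocycles₁_iff y).1 y.2, (hker _ hs).2, map_zero, zero_add]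
  have hx : x τ' = x τ := by
    rw [← mul_inv_cancel_left τ τ', (mem_cocycles₁_iff x).1 x.2, (hker _ ht).1, map_zero, zero_add]
  show principalIdele L (zetaUnit D hζ hle (cupVal M (MonoidHom.id Γℚ) x y σ' τ')) = _
  simp only [cupVal, MonoidHom.id_apply]
  rw [hρ, hy, hx]

include hker in
theorem cupCochain_mem_Z2 : cupCochain D hζ hle x y ∈ Z2 (L ≃ₐ[ℚ] L) (Idele L) := by
  refine mem_Z2_iff.2 fun g h k => ?_
  obtain ⟨σ, rfl⟩ := galTo_surjective L g
  obtain ⟨τ, rfl⟩ := galTo_surjective L h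
  obtain ⟨υ, rfl⟩ := galTo_surjective L k
  rw [← map_mul, ← map_mul, cupCochain_galTo D hζ hle hker, cupCochain_galTo D hζ hle hker,
    cupCochain_galTo D hζ hle hker, cupCochain_galTo D hζ hle hker, ← principalIdele_smul,
    galTo_smul_zetaUnit, ← map_add, ← map_add, ← map_add, ← map_add, cupVal_cocycle]

end cup

section killed

variable {L : IntermediateField ℚ (AlgebraicClosure ℚ)} [NumberField L] [IsGalois ℚ L]

omit [IsGalois ℚ L] in
theorem classCochain_mem_Z2 {f : (L ≃ₐ[ℚ] L) × (L ≃ₐ[ℚ] L) → Idele L}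
    (hf : f ∈ Z2 (L ≃ₐ[ℚ] L) (Idele L)) :
    classCochain L f ∈ Z2 (L ≃ₐ[ℚ] L) (IdeleClass L) :=
  cochainMap2_mem_Z2 (A := Idele L) (B := IdeleClass L) (fun _ _ => rfl) hf

omit [IsGalois ℚ L] [Fact p.Prime] in
theorem classCochain_mem_killed {f : (L ≃ₐ[ℚ] L) × (L ≃ₐ[ℚ] L) → Idele L}
    (hf : f ∈ Z2 (L ≃ₐ[ℚ] L) (Idele L)) (hp : p • f ∈ B2 (L ≃ₐ[ℚ] L) (Idele L)) :
    classCochain L f ∈ classesKilled p (L ≃ₐ[ℚ] L) (IdeleClass L) := by
  refine mem_classesKilled.2 ⟨classCochain_mem_Z2 hf, ?_⟩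
  rw [← map_nsmul]
  exact cochainMap2_mem_B2 (A := Idele L) (B := IdeleClass L) (fun _ _ => rfl) hp

omit [IsGalois ℚ L] in
theorem classCochain_principal {f : (L ≃ₐ[ℚ] L) × (L ≃ₐ[ℚ] L) → Idele L}
    (hf : ∀ t, f t ∈ principalIdeles L) : classCochain L f = 0 :=
  funext fun t => (QuotientAddGroup.eq_zero_iff _).2 (hf t)

end killed

include D in
/-- Global classes unramified outside `S` are isotropic. -/
theorem sum_gwPairing_eq_zero {Bfin : ∀ q : Nat.Primes, LocalPairing M (primeLocalToGlobal q)}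
    {Binf : LocalPairing M archimedeanLoc} (hB : TateCompat M hζ Bfin Binf)
    {x : H1 M} (hx : x ∈ continuousH1S S M) {w : H1 M'} (hw : w ∈ continuousH1S S M') :
    ∑ v, gwPairing M Bfin Binf S v ((groupCohomology.locRes (extArithLoc S) M v).hom x)
      ((groupCohomology.locRes (extArithLoc S) M' v).hom w) = 0 := by
  classical
  obtain ⟨cx, hcx, rfl⟩ := (mem_continuousH1S_iff S M x).1 hx
  obtain ⟨cy, hcy, rfl⟩ := (mem_continuousH1S_iff S M' w).1 hw
  obtain ⟨L, hNF, hGal, hle, hur, hker⟩ := exists_common_level D hcx hcy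
  set f := cupCochain D hζ hle cx cy with hfdef
  have hf : f ∈ Z2 (L ≃ₐ[ℚ] L) (Idele L) := cupCochain_mem_Z2 D hζ hle hker
  have hpf : p • f = 0 := funext fun t => by
    show p • principalIdele L (zetaUnit D hζ hle _) = 0
    rw [← map_nsmul, ← map_nsmul, nsmul_eq_mul, ZMod.natCast_self, zero_mul, map_zero, map_zero]
  let pr : Nat.Primes → (L ≃ₐ[ℚ] L) × (L ≃ₐ[ℚ] L) → Idele L := fun q =>
    cochainMap2 (A := Idele L) (B := Idele L) (MonoidHom.id _) (primeProj q) f
  let fi : (L ≃ₐ[ℚ] L) × (L ≃ₐ[ℚ] L) → Idele L :=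
    cochainMap2 (A := Idele L) (B := Idele L) (MonoidHom.id _) infProj f
  have hpr : ∀ q, pr q ∈ Z2 (L ≃ₐ[ℚ] L) (Idele L) := fun q =>
    cochainMap2_mem_Z2 (A := Idele L) (B := Idele L) (fun g a => primeProj_smul q g a) hf
  have hfi : fi ∈ Z2 (L ≃ₐ[ℚ] L) (Idele L) :=
    cochainMap2_mem_Z2 (A := Idele L) (B := Idele L) (fun g a => infProj_smul g a) hf
  let Zq : Nat.Primes → classesKilled p (L ≃ₐ[ℚ] L) (IdeleClass L) := fun q =>
    ⟨classCochain L (pr q), classCochain_mem_killed (hpr q) (by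
      show p • pr q ∈ _
      rw [← map_nsmul, hpf, map_zero]; exact zero_mem _)⟩
  let Zi : classesKilled p (L ≃ₐ[ℚ] L) (IdeleClass L) :=
    ⟨classCochain L fi, classCochain_mem_killed hfi (by
      show p • fi ∈ _
      rw [← map_nsmul, hpf, map_zero]; exact zero_mem _)⟩
  have hzero : globalInv p L (Zi + ∑ q ∈ S, Zq q) = 0 := by
    rw [globalInv_eq_zero_iff]
    have hrest : f - ∑ q ∈ S, pr q - fi ∈ Z2 (L ≃ₐ[ℚ] L) (Idele L) :=
      sub_mem (sub_mem hf (sum_mem fun q _ => hpr q)) hfi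
    have hU : ∀ t, (f - ∑ q ∈ S, pr q - fi) t ∈ unitIdelesOutside L (S : Set Nat.Primes) :=
      fun t => by
        rw [Pi.sub_apply, Pi.sub_apply, Finset.sum_apply]
        exact sub_sum_proj_mem S fun q ψ => zetaUnit_mem_unitGroup D hζ hle _ q ψ
    have hB2 := unitIdeles_class_mem_B2 (S := (S : Set Nat.Primes))
      (fun q hq => (isUnramifiedOutside_iff L S).1 hur q hq) hrest hU
    have e : ((Zi + ∑ q ∈ S, Zq q : classesKilled p (L ≃ₐ[ℚ] L) (IdeleClass L)) :
        (L ≃ₐ[ℚ] L) × (L ≃ₐ[ℚ] L) → IdeleClass L) =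
        classCochain L f - classCochain L (f - ∑ q ∈ S, pr q - fi) := by
      refine ((map_add (classesKilled p (L ≃ₐ[ℚ] L) (IdeleClass L)).subtype _ _).trans
        (congrArg _ (map_sum (classesKilled p (L ≃ₐ[ℚ] L) (IdeleClass L)).subtype Zq S))).trans ?_
      show classCochain L fi + ∑ q ∈ S, classCochain L (pr q) = _
      rw [← map_sum, ← map_add]
      exact (congrArg (classCochain L) (by abel)).trans (map_sub (classCochain L) f _)
    rw [e]
    refine sub_mem ?_ hB2
    rw [classCochain_principal fun t => by rw [principalIdeles_eq_range]; exact ⟨_, rfl⟩]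
    exact zero_mem _
  have hlev : ∀ (N : Rep (ZMod p) Γℚ) (c : cocycles₁ N), IsLevelConstantS₁ S c → ∀ q,
      IsLevelConstant₁ (primeLocalToGlobal q) (mapCocycles₁ (primeLocalToGlobal q)
        (𝟙 (Rep.res (primeLocalToGlobal q) N)) c) := fun N c hc q => by
    obtain ⟨F, hF, h⟩ := hc
    exact ⟨F, hF.1, fun g s hs => by
      show c (primeLocalToGlobal q (g * s)) = c (primeLocalToGlobal q g)
      rw [map_mul, h _ _ hs]⟩
  have hloc : ∀ (N : Rep (ZMod p) Γℚ) (v : extArithIndex S) (c : cocycles₁ N),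
      (groupCohomology.locRes (extArithLoc S) N v).hom ((H1π N).hom c) =
        (H1π _).hom (mapCocycles₁ (extArithLoc S v) (𝟙 (Rep.res (extArithLoc S v) N)) c) :=
    fun N v c => H1π_comp_map_apply (extArithLoc S v) (𝟙 _) c
  refine (Fintype.sum_sum_type (α₁ := Unit) (α₂ := ↥S) _).trans ?_
  rw [map_add, map_sum] at hzero
  refine Eq.trans ?_ hzero
  rw [Fintype.sum_unique, ← Finset.sum_coe_sort S]
  refine congrArg₂ (· + ·) ?_ (Finset.sum_congr rfl fun q _ => ?_)
  · refine (congrArg₂ (fun a b => gwPairing M Bfin Binf S (Sum.inl default) a b)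
      (hloc M (Sum.inl default) cx) (hloc M' (Sum.inl default) cy)).trans ?_
    refine (hB.inf L fi Zi hfi (fun t => infProj_mem _) rfl _ _ 0 fun σ τ => ?_).symm
    show infValue L (f (galTo L (archimedeanLoc σ), galTo L (archimedeanLoc τ))) = _
    rw [hfdef, cupCochain_galTo D hζ hle hker, infValue_principal_zetaUnit]
    simp only [Pi.zero_apply, smul_zero, sub_self, zero_add]
    rfl
  · refine (congrArg₂ (fun a b => gwPairing M Bfin Binf S (Sum.inr q) a b)
      (hloc M (Sum.inr q) cx) (hloc M' (Sum.inr q) cy)).trans ?_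
    refine (hB.fin L q.1 (pr q.1) (Zq q.1) (hpr q.1) (fun t => primeProj_mem _ _) rfl _ _ 0
      (hlev M cx hcx q.1) (hlev M' cy hcy q.1) (isLevelConstant₁_const _ 0) fun σ τ => ?_).symm
    show localValue L q.1 (primeProj q.1
      (f (galTo L (primeLocalToGlobal q.1 σ), galTo L (primeLocalToGlobal q.1 τ)))) = _
    rw [localValue_apply, primeProj_apply, ← localValue_apply, hfdef,
      cupCochain_galTo D hζ hle hker, localValue_principal_zetaUnit]
    simp only [Pi.zero_apply, smul_zero, sub_self, zero_add]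
    rfl

end FermatLib.CFT.GWKummer
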