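import Fermat.Agent.CFT.IdeleDefs

/-!
Finite extensions of `ℚ_q` inside `PadicAlgCl q`: compactness, uniformisers, normalised
valuation, residue field, inertia.
-/

set_option autoImplicit false
set_option linter.unusedSectionVars false
set_option linter.unusedVariables false

open scoped NNReal

namespace FermatLib.CFT

/-- Intermediate fields of `PadicAlgCl q / ℚ_q`. -/
abbrev LocalField (q : Nat.Primes) : Type :=
  IntermediateField ℚ_[(q : ℕ)] (PadicAlgCl (q : ℕ))

namespace Loc

variable {q : Nat.Primes}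

theorem norm_natCast_q : ‖((q : ℕ) : PadicAlgCl (q : ℕ))‖ = ((q : ℕ) : ℝ)⁻¹ := by
  rw [← map_natCast (algebraMap ℚ_[(q : ℕ)] (PadicAlgCl (q : ℕ))), norm_algebraMap',
    Padic.norm_p]

theorem norm_gloc (τ : Gloc q) (x : PadicAlgCl (q : ℕ)) : ‖τ x‖ = ‖x‖ :=
  (spectralNorm_eq_of_equiv τ x).symm

variable (K : LocalField q) [FiniteDimensional ℚ_[(q : ℕ)] K]

theorem properSpace : ProperSpace K :=
  FiniteDimensional.proper ℚ_[(q : ℕ)] K

instance : ProperSpace K := properSpace K

theorem norm_q_coe : ‖((q : ℕ) : K)‖ = ((q : ℕ) : ℝ)⁻¹ := norm_natCast_q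

theorem norm_q_lt_one : ‖((q : ℕ) : K)‖ < 1 := by
  rw [norm_q_coe]
  exact inv_lt_one_of_one_lt₀ (by exact_mod_cast q.2.one_lt)

theorem q_ne_zero : ((q : ℕ) : K) ≠ 0 := Nat.cast_ne_zero.2 q.2.ne_zero

/-- An element of largest norm smaller than one. -/
def IsUniformizer (π : K) : Prop :=
  π ≠ 0 ∧ ‖π‖ < 1 ∧ ∀ x : K, ‖x‖ < 1 → ‖x‖ ≤ ‖π‖

theorem exists_isUniformizer : ∃ π : K, IsUniformizer K π := by
  obtain ⟨π, hπ, hmax⟩ := (isCompact_closedBall (0 : K) 1).inter_right
    (IsUltrametricDist.isClosed_ball (0 : K) 1) |>.exists_isMaxOn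
      ⟨0, by simp, by simp⟩ (continuous_norm.continuousOn)
  simp only [Set.mem_inter_iff, Metric.mem_ball, dist_zero_right] at hπ
  have hq := hmax (a := ((q : ℕ) : K)) ⟨by
    rw [Metric.mem_closedBall, dist_zero_right]; exact (norm_q_lt_one K).le, by
    rw [Metric.mem_ball, dist_zero_right]; exact norm_q_lt_one K⟩
  refine ⟨π, fun h => ?_, hπ.2, fun x hx => hmax ⟨by
    rw [Metric.mem_closedBall, dist_zero_right]; exact hx.le, by
    rw [Metric.mem_ball, dist_zero_right]; exact hx⟩⟩
  rw [h] at hq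
  simp at hq
  exact q.2.ne_zero hq

/-- A chosen uniformiser. -/
noncomputable def uniformizer : K := (exists_isUniformizer K).choose

theorem isUniformizer_uniformizer : IsUniformizer K (uniformizer K) :=
  (exists_isUniformizer K).choose_spec

theorem norm_uniformizer_pos : 0 < ‖uniformizer K‖ :=
  norm_pos_iff.2 (isUniformizer_uniformizer K).1

theorem norm_uniformizer_lt_one : ‖uniformizer K‖ < 1 := (isUniformizer_uniformizer K).2.1

theorem norm_le_uniformizer {x : K} (hx : ‖x‖ < 1) : ‖x‖ ≤ ‖uniformizer K‖ :=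
  (isUniformizer_uniformizer K).2.2 x hx

/-- The value group is generated by the norm of a uniformiser. -/
theorem exists_zpow_eq_norm {x : K} (hx : x ≠ 0) : ∃ k : ℤ, ‖x‖ = ‖uniformizer K‖ ^ k := by
  obtain ⟨n, hn⟩ := exists_mem_Ioc_zpow (norm_pos_iff.2 hx)
    (one_lt_inv₀ (norm_uniformizer_pos K) |>.2 (norm_uniformizer_lt_one K))
  refine ⟨-(n + 1), ?_⟩
  simp only [inv_zpow', Set.mem_Ioc] at hn
  rcases hn.2.lt_or_eq with h | h
  · exfalso
    have hlt : ‖x * uniformizer K ^ (n + 1)‖ < 1 := by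
      rw [norm_mul, norm_zpow]
      calc ‖x‖ * ‖uniformizer K‖ ^ (n + 1)
          < ‖uniformizer K‖ ^ (-(n + 1)) * ‖uniformizer K‖ ^ (n + 1) :=
            mul_lt_mul_of_pos_right h (zpow_pos (norm_uniformizer_pos K) _)
        _ = 1 := by rw [zpow_neg, inv_mul_cancel₀ (zpow_ne_zero _ (norm_uniformizer_pos K).ne')]
    have := norm_le_uniformizer K hlt
    rw [norm_mul, norm_zpow] at this
    have h2 : ‖uniformizer K‖ ^ (-n) * ‖uniformizer K‖ ^ (n + 1) = ‖uniformizer K‖ := by
      rw [← zpow_add₀ (norm_uniformizer_pos K).ne']; simp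
    have h3 := mul_lt_mul_of_pos_right hn.1 (zpow_pos (norm_uniformizer_pos K) (n + 1))
    rw [h2] at h3
    exact absurd this h3.not_ge
  · exact h

end Loc

/-- The multiplicative group of a local field, written additively, as a Galois module. -/
def LocUnits {q : Nat.Primes} (K : LocalField q) : Type := Additive (↥K)ˣ

namespace LocUnits

variable {q : Nat.Primes} {K : LocalField q}

noncomputable instance : AddCommGroup (LocUnits K) := inferInstanceAs (AddCommGroup (Additive (↥K)ˣ))

/-- Wrap a unit. -/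
def of (x : (↥K)ˣ) : LocUnits K := Additive.ofMul x

/-- Unwrap a unit. -/
def val (x : LocUnits K) : (↥K)ˣ := Additive.toMul x

/-- The underlying element. -/
def el (x : LocUnits K) : K := (x.val : K)

@[simp] theorem el_of (x : (↥K)ˣ) : (of x).el = x := rfl
@[simp] theorem el_zero : (0 : LocUnits K).el = 1 := rfl
@[simp] theorem el_add (x y : LocUnits K) : (x + y).el = x.el * y.el := rfl
@[simp] theorem el_neg (x : LocUnits K) : (-x).el = (x.el)⁻¹ := Units.val_inv_eq_inv_val x.val
theorem el_ne_zero (x : LocUnits K) : x.el ≠ 0 := x.val.ne_zero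
theorem ext' {x y : LocUnits K} (h : x.el = y.el) : x = y := Units.ext (u := x.val) h

/-- A nonzero element as a member of `LocUnits`. -/
noncomputable def mk0 (x : K) (hx : x ≠ 0) : LocUnits K := of (Units.mk0 x hx)

@[simp] theorem el_mk0 (x : K) (hx : x ≠ 0) : (mk0 x hx).el = x := rfl

noncomputable instance instAction : DistribMulAction ((↥K) ≃ₐ[ℚ_[(q : ℕ)]] (↥K)) (LocUnits K) where
  smul g x := of (Units.map (g : K →* K) x.val)
  one_smul x := ext' rfl
  mul_smul g h x := ext' rfl
  smul_zero g := ext' (map_one g)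
  smul_add g x y := ext' (map_mul g _ _)

@[simp] theorem el_smul (g : (↥K) ≃ₐ[ℚ_[(q : ℕ)]] (↥K)) (x : LocUnits K) :
    (g • x).el = g x.el := rfl

/-- Inclusion of multiplicative groups along `F ≤ K`. -/
noncomputable def incl {F K : LocalField q} (h : F ≤ K) : LocUnits F →+ LocUnits K where
  toFun x := of (Units.map (IntermediateField.inclusion h : F →* K) x.val)
  map_zero' := ext' (map_one (IntermediateField.inclusion h))
  map_add' x y := ext' (map_mul (IntermediateField.inclusion h) _ _)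

@[simp] theorem el_incl {F K : LocalField q} (h : F ≤ K) (x : LocUnits F) :
    ((incl h x).el : PadicAlgCl (q : ℕ)) = (x.el : PadicAlgCl (q : ℕ)) := rfl

end LocUnits

namespace Loc

variable {q : Nat.Primes} (K : LocalField q) [FiniteDimensional ℚ_[(q : ℕ)] K]

/-- An automorphism is isometric. -/
theorem norm_algEquiv (g : (↥K) ≃ₐ[ℚ_[(q : ℕ)]] (↥K)) (x : K) : ‖g x‖ = ‖x‖ := by
  show ‖(g x : PadicAlgCl (q : ℕ))‖ = ‖(x : PadicAlgCl (q : ℕ))‖
  rw [← norm_gloc (g.liftNormal (PadicAlgCl (q : ℕ))) x]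
  exact congrArg norm (g.liftNormal_commutes (PadicAlgCl (q : ℕ)) x).symm

/-- Normalised valuation. -/
noncomputable def ord : LocUnits K →+ ℤ where
  toFun x := (exists_zpow_eq_norm K x.el_ne_zero).choose
  map_zero' := by
    have h := (exists_zpow_eq_norm K (0 : LocUnits K).el_ne_zero).choose_spec
    apply zpow_right_injective₀ (norm_uniformizer_pos K) (norm_uniformizer_lt_one K).ne
    simp only at h ⊢
    rw [← h, zpow_zero]
    simp
  map_add' x y := by
    have h := (exists_zpow_eq_norm K (x + y).el_ne_zero).choose_spec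
    have hx := (exists_zpow_eq_norm K x.el_ne_zero).choose_spec
    have hy := (exists_zpow_eq_norm K y.el_ne_zero).choose_spec
    apply zpow_right_injective₀ (norm_uniformizer_pos K) (norm_uniformizer_lt_one K).ne
    simp only at h ⊢
    rw [zpow_add₀ (norm_uniformizer_pos K).ne', ← h, ← hx, ← hy, LocUnits.el_add, norm_mul]

theorem norm_el (x : LocUnits K) : ‖x.el‖ = ‖uniformizer K‖ ^ ord K x :=
  (exists_zpow_eq_norm K x.el_ne_zero).choose_spec

theorem ord_eq_of_norm {x : LocUnits K} {k : ℤ} (h : ‖x.el‖ = ‖uniformizer K‖ ^ k) :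
    ord K x = k :=
  zpow_right_injective₀ (norm_uniformizer_pos K) (norm_uniformizer_lt_one K).ne
    ((norm_el K x).symm.trans h)

theorem ord_eq_zero_iff (x : LocUnits K) : ord K x = 0 ↔ ‖x.el‖ = 1 :=
  ⟨fun h => by rw [norm_el, h, zpow_zero], fun h => ord_eq_of_norm K (by rw [h, zpow_zero])⟩

theorem ord_smul (g : (↥K) ≃ₐ[ℚ_[(q : ℕ)]] (↥K)) (x : LocUnits K) : ord K (g • x) = ord K x :=
  ord_eq_of_norm K (by rw [LocUnits.el_smul, norm_algEquiv, norm_el])

theorem ord_uniformizer :
    ord K (LocUnits.mk0 (uniformizer K) (isUniformizer_uniformizer K).1) = 1 :=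
  ord_eq_of_norm K (by simp)

theorem ord_surjective : Function.Surjective (ord K) := fun k =>
  ⟨k • LocUnits.mk0 (uniformizer K) (isUniformizer_uniformizer K).1, by
    rw [map_zsmul, ord_uniformizer]; simp⟩

/-- The units. -/
noncomputable def unitGroup : AddSubgroup (LocUnits K) := (ord K).ker

theorem mem_unitGroup {x : LocUnits K} : x ∈ unitGroup K ↔ ‖x.el‖ = 1 := ord_eq_zero_iff K x

noncomputable instance unitGroupAction :
    DistribMulAction ((↥K) ≃ₐ[ℚ_[(q : ℕ)]] (↥K)) (unitGroup K) where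
  smul g x := ⟨g • (x : LocUnits K), (ord_smul K g x).trans x.2⟩
  one_smul x := Subtype.ext (one_smul _ _)
  mul_smul g h x := Subtype.ext (mul_smul g h (x : LocUnits K))
  smul_zero g := Subtype.ext (smul_zero g)
  smul_add g x y := Subtype.ext (smul_add g _ _)

@[simp] theorem coe_smul_unitGroup (g : (↥K) ≃ₐ[ℚ_[(q : ℕ)]] (↥K)) (x : unitGroup K) :
    ((g • x : unitGroup K) : LocUnits K) = g • (x : LocUnits K) := rfl

/-- Absolute ramification index. -/
noncomputable def ramIdx : ℕ := (ord K (LocUnits.mk0 ((q : ℕ) : K) (q_ne_zero K))).toNat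

theorem inv_q_eq_pow_ramIdx : ((q : ℕ) : ℝ)⁻¹ = ‖uniformizer K‖ ^ ramIdx K := by
  have h := norm_el K (LocUnits.mk0 ((q : ℕ) : K) (q_ne_zero K))
  rw [LocUnits.el_mk0, norm_q_coe] at h
  have hpos : 0 ≤ ord K (LocUnits.mk0 ((q : ℕ) : K) (q_ne_zero K)) := by
    by_contra hneg
    have : (1 : ℝ) ≤ ((q : ℕ) : ℝ)⁻¹ := h ▸
      one_le_zpow_of_nonpos₀ (norm_uniformizer_pos K) (norm_uniformizer_lt_one K).le (by omega)
    exact absurd this (inv_lt_one_of_one_lt₀ (by exact_mod_cast q.2.one_lt)).not_ge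
  rw [h, ramIdx, ← zpow_natCast, Int.toNat_of_nonneg hpos]

/-- The ring of integers. -/
noncomputable abbrev intRing : ValuationSubring K :=
  (NormedField.valuation (K := K)).valuationSubring

omit [FiniteDimensional ℚ_[(q : ℕ)] K] in
theorem mem_intRing {x : K} : x ∈ intRing K ↔ ‖x‖ ≤ 1 := Iff.rfl

/-- The residue field. -/
abbrev Residue : Type := IsLocalRing.ResidueField (intRing K)

/-- Absolute residue degree. -/
noncomputable def resDeg : ℕ := Nat.log (q : ℕ) (Nat.card (Residue K))

/-- Inertia: automorphisms congruent to the identity on integers. -/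
noncomputable def inertia : Subgroup ((↥K) ≃ₐ[ℚ_[(q : ℕ)]] (↥K)) where
  carrier := {g | ∀ x : K, ‖x‖ ≤ 1 → ‖g x - x‖ < 1}
  one_mem' := fun x _ => by simp
  mul_mem' := fun {g h} hg hh x hx => by
    have h1 := hg (h x) (by rwa [norm_algEquiv])
    have h2 := hh x hx
    calc ‖(g * h) x - x‖ = ‖(g (h x) - h x) + (h x - x)‖ := by simp
      _ ≤ max ‖g (h x) - h x‖ ‖h x - x‖ := IsUltrametricDist.norm_add_le_max _ _
      _ < 1 := max_lt h1 h2
  inv_mem' := fun {g} hg x hx => by
    have h1 := hg (g⁻¹ x) (by rwa [norm_algEquiv])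
    rwa [← norm_neg, neg_sub, AlgEquiv.aut_inv, AlgEquiv.apply_symm_apply] at h1

/-- An element of `Gloc q` acting trivially on all residues. -/
def IsInertial (τ : Gloc q) : Prop := ∀ x, ‖x‖ ≤ 1 → ‖τ x - x‖ < 1

/-- `τ` fixes the field `K` pointwise. -/
def FixesField (τ : Gloc q) : Prop := ∀ x : K, τ x = x

omit [FiniteDimensional ℚ_[(q : ℕ)] K] in
theorem fixesField_iff (τ : Gloc q) : FixesField K τ ↔ τ ∈ K.fixingSubgroup := by
  rw [IntermediateField.mem_fixingSubgroup_iff]
  exact ⟨fun h x hx => h ⟨x, hx⟩, fun h x => h x x.2⟩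

/-- The fixed field of a group of automorphisms of `K`, inside `PadicAlgCl q`. -/
noncomputable abbrev fixedLF (H : Subgroup ((↥K) ≃ₐ[ℚ_[(q : ℕ)]] (↥K))) : LocalField q :=
  IntermediateField.lift (IntermediateField.fixedField H)

instance (H : Subgroup ((↥K) ≃ₐ[ℚ_[(q : ℕ)]] (↥K))) :
    FiniteDimensional ℚ_[(q : ℕ)] (fixedLF K H) :=
  LinearEquiv.finiteDimensional (IntermediateField.liftAlgEquiv (IntermediateField.fixedField H)).toLinearEquiv

end Loc

section Completion

variable {L : Type} [Field L] [NumberField L] {q : Nat.Primes}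

/-- The completion of `L` at the place of `φ`. -/
noncomputable abbrev completion (φ : Emb L q) : LocalField q :=
  IntermediateField.adjoin ℚ_[(q : ℕ)] (Set.range φ)

end Completion

end FermatLib.CFT
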