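import Fermat.Agent.CFT.GWGlobDual
import Fermat.Agent.CFT.GWUnrLocal
import Fermat.Agent.CFT.LocalGalois
import Fermat.Agent.CFT.LocalDefs

/-!
The global Kummer correspondence unramified outside `S`: equivariant
maps `presKer v → L₀ˣ` with valuations divisible by `p` outside `S` against classes of
`H1(G_S, M')`.
-/

set_option autoImplicit false

open CategoryTheory groupCohomology ExtCitation NumberField

namespace FermatLib.CFT.GWKummer

open FermatLib.CFT

local notation "Γℚ" => AlgebraicClosure ℚ ≃ₐ[ℚ] AlgebraicClosure ℚ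
local notation "Qbar" => AlgebraicClosure ℚ

local instance gwKummerQbarIsGalois : IsGalois ℚ (AlgebraicClosure ℚ) :=
  haveI : IsAlgClosure ℚ (AlgebraicClosure ℚ) := ⟨inferInstance, AlgebraicClosure.isAlgebraic ℚ⟩
  IsAlgClosure.isGalois ℚ (AlgebraicClosure ℚ)

section valuation

variable {q : Nat.Primes}

theorem norm_q_pos : 0 < ‖((q : ℕ) : PadicAlgCl (q : ℕ))‖ :=
  norm_pos_iff.2 (Nat.cast_ne_zero.2 q.2.ne_zero)

theorem norm_q_ne_one : ‖((q : ℕ) : PadicAlgCl (q : ℕ))‖ ≠ 1 := by
  rw [Loc.norm_natCast_q]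
  exact ne_of_lt (inv_lt_one_of_one_lt₀ (by exact_mod_cast q.2.one_lt))

theorem zpow_norm_q_inj {m n : ℤ} (h : ‖((q : ℕ) : PadicAlgCl (q : ℕ))‖ ^ m =
    ‖((q : ℕ) : PadicAlgCl (q : ℕ))‖ ^ n) : m = n :=
  zpow_right_injective₀ norm_q_pos norm_q_ne_one h

/-- An algebraic number fixed by the inertia group of the standard place has integral valuation. -/
theorem exists_zpow_norm_of_inertia_fixed {x : Qbar} (hx : x ≠ 0)
    (hfix : ∀ σ ∈ (primeLocalPlace q).inertiaSubgroupIn ℚ, σ x = x) :
    ∃ k : ℤ, ‖padicEmbedding (q : ℕ) x‖ = ‖((q : ℕ) : PadicAlgCl (q : ℕ))‖ ^ k := by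
  set y := padicEmbedding (q : ℕ) x with hy
  haveI : FiniteDimensional ℚ_[(q : ℕ)]
      (IntermediateField.adjoin ℚ_[(q : ℕ)] ({y} : Set (PadicAlgCl (q : ℕ)))) :=
    IntermediateField.adjoin.finiteDimensional (Algebra.IsIntegral.isIntegral y)
  obtain ⟨E, hE, hEn, hle⟩ := Loc.exists_normal_le (q := q)
    (IntermediateField.adjoin ℚ_[(q : ℕ)] ({y} : Set (PadicAlgCl (q : ℕ))))
  haveI : IsGalois ℚ_[(q : ℕ)] E := ⟨⟩
  have hyE : y ∈ E := hle (IntermediateField.mem_adjoin_simple_self _ y)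
  set F := Loc.fixedLF E (Loc.inertia E) with hF
  have hyF : y ∈ F := (Loc.mem_fixedLF E (Loc.inertia E) (x := ⟨y, hyE⟩)).2 fun g hg => by
    obtain ⟨τ, rfl⟩ := AlgEquiv.restrictNormalHom_surjective (PadicAlgCl (q : ℕ)) g
    have hres : ∀ z : E, ((AlgEquiv.restrictNormalHom E τ z : E) : PadicAlgCl (q : ℕ)) = τ z :=
      fun z => AlgEquiv.restrictNormal_commutes τ E z
    obtain ⟨τ', hτ', hag⟩ := Loc.exists_inertial_agree E (τ := τ) fun z hz => by
      have := hg z hz
      rw [← hres]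
      exact this
    refine Subtype.ext ((hres ⟨y, hyE⟩).trans ?_)
    rw [← hag ⟨y, hyE⟩]
    have h1 := hfix _ (GWUnr.mem_inertia_of_isInertial hτ')
    show τ' y = y
    rw [hy, ← GWUnr.emb_locToGlobal, h1]
  have hram : Loc.ramIdx F = 1 := by
    have h1 := Loc.card_inertia_inf E (Loc.inertia E)
    have h2 := Loc.card_inertia_inf E ⊤
    rw [inf_idem] at h1
    rw [inf_top_eq] at h2
    have htop : Loc.fixedLF E ⊤ = (⊥ : LocalField q) := by
      rw [Loc.fixedLF, show IntermediateField.fixedField (⊤ : Subgroup (E ≃ₐ[ℚ_[(q : ℕ)]] E)) = ⊥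
        from IsGalois.fixedField_top, IntermediateField.lift_bot]
    have hbot : Loc.ramIdx (⊥ : LocalField q) = 1 := by
      have h := Loc.ramIdx_mul_resDeg (⊥ : LocalField q)
      rw [IntermediateField.finrank_bot] at h
      exact (mul_eq_one.1 h).1
    have hcard : 0 < Nat.card ↥(Loc.inertia E) := Nat.card_pos
    refine Nat.eq_of_mul_eq_mul_left hcard ?_
    rw [h1, ← h2]
    congr 1
    convert hbot
  obtain ⟨k, hk⟩ := Loc.exists_zpow_eq_norm F (x := ⟨y, hyF⟩)
    (fun h => hx ((padicEmbedding (q : ℕ)).toRingHom.injective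
      ((congrArg Subtype.val h).trans (map_zero (padicEmbedding (q : ℕ))).symm)))
  have hq := Loc.norm_q_eq F
  rw [hram, pow_one] at hq
  refine ⟨k, hk.trans ?_⟩
  rw [← hq]
  rfl

/-- A root of unity of order prime to `q` near `1` at `q` is `1`. -/
theorem eq_one_of_inertial {p : ℕ} (hqp : ¬ (q : ℕ) ∣ p) {σ : primeLocalGaloisGroup q}
    (hσ : primeLocalToGlobal q σ ∈ (primeLocalPlace q).inertiaSubgroupIn ℚ) {w : Qbar}
    (hw : ‖padicEmbedding (q : ℕ) w‖ = 1)
    (hp : (primeLocalToGlobal q σ w / w) ^ p = 1) : primeLocalToGlobal q σ w = w := by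
  have hw0 : padicEmbedding (q : ℕ) w ≠ 0 := by rw [← norm_ne_zero_iff, hw]; exact one_ne_zero
  have h1 := GWUnr.isInertial_norm hσ (x := w) hw.le
  rw [← GWUnr.emb_locToGlobal, MulEquiv.apply_symm_apply] at h1
  have h2 : padicEmbedding (q : ℕ) (primeLocalToGlobal q σ w / w) = 1 := by
    refine Loc.eq_one_of_pow_eq_one hqp (by rw [← map_pow, hp, map_one]) ?_
    rw [map_div₀, div_sub_one hw0, norm_div, hw, div_one]
    exact h1
  rw [← map_one (padicEmbedding (q : ℕ))] at h2
  have h3 : primeLocalToGlobal q σ w / w = 1 := (padicEmbedding (q : ℕ)).toRingHom.injective h2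
  exact (div_eq_one_iff_eq (fun h => hw0 (by rw [h, map_zero]))).1 h3

end valuation

variable {p : ℕ} [Fact p.Prime] {M : Rep (ZMod p) Γℚ} {S : Finset Nat.Primes} (D : Level M S)
  {ζ : AlgebraicClosure ℚ} (hζ : IsPrimitiveRoot ζ p)
  {ι : Type*} [Fintype ι] {v : ι → D.Mod}

/-- The units of the level inside `ℚ̄ˣ`. -/
noncomputable def toQbarU : LUnits D.field →+ QbarU where
  toFun x := QbarU.of (Units.map (algebraMap D.field Qbar : D.field →* Qbar) x.val)
  map_zero' := QbarU.el_injective rfl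
  map_add' _ _ := QbarU.el_injective rfl

@[simp] theorem el_toQbarU (x : LUnits D.field) :
    (toQbarU D x).el = ((x.val : D.field) : Qbar) := rfl

theorem toQbarU_smul (σ : Γℚ) (x : LUnits D.field) :
    toQbarU D (D.res σ • x) = σ • toQbarU D x :=
  QbarU.el_injective (D.coe_res σ x.val)

theorem toQbarU_injective : Function.Injective (toQbarU D) := fun _ _ h =>
  LUnits.ext_val (Subtype.ext (congrArg QbarU.el h))

/-- Fixed by inertia at a prime outside `S`. -/
theorem res_eq_one_of_inertia {q : Nat.Primes} (hq : q ∉ S) {A : ValuationSubring Qbar}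
    (hA : A.LiesOverPrime (q : ℕ)) {σ : Γℚ} (hσ : σ ∈ A.inertiaSubgroupIn ℚ) : D.res σ = 1 :=
  (D.res_eq_one_iff σ).2 (D.unramified.2 q hq A hA hσ)

theorem not_dvd_of_not_mem (hpS : pPrime p ∈ S) {q : Nat.Primes} (hq : q ∉ S) :
    ¬ (q : ℕ) ∣ p := fun h => hq (by
  rwa [show q = pPrime p from Subtype.ext ((Nat.prime_dvd_prime_iff_eq q.2 Fact.out).1 h)])

/-- The valuation condition outside `S` on a map into the units of the level. -/
def IsUnramifiedMap (h : presKer (G := D.Gal) v →+ LUnits D.field) : Prop :=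
  ∀ q ∉ S, ∀ b : Pres ι D.Gal, ∃ k : ℤ,
    ‖padicEmbedding (q : ℕ) (toQbarU D (h ⟨p • b, nsmul_mem_presKer D.nsmul_mod b⟩)).el‖ =
      ‖((q : ℕ) : PadicAlgCl (q : ℕ))‖ ^ ((p : ℤ) * k)

theorem IsPair.nsmul_eq {Γ : Type*} [Group Γ] {res : Γ →* D.Gal} {Ω : Type*} [AddCommGroup Ω]
    {h : presKer (G := D.Gal) v →+ Ω} {e : Pres ι D.Gal →+ Ω}
    (he : ∀ x : presKer (G := D.Gal) v, e (x : Pres ι D.Gal) = h x) (b : Pres ι D.Gal) :
    p • e b = h ⟨p • b, nsmul_mem_presKer D.nsmul_mod b⟩ := by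
  rw [← map_nsmul, ← he]

include hζ in
/-- The class of an equivariant map with valuations divisible by `p` outside `S`. -/
theorem exists_class_of_map (hpS : pPrime p ∈ S)
    (hv : Function.Surjective (presMap (G := D.Gal) v))
    (h : equivHom D.Gal (presKer (G := D.Gal) v) (LUnits D.field))
    (hunr : IsUnramifiedMap D (h : presKer (G := D.Gal) v →+ LUnits D.field)) :
    ∃ c : cocycles₁ (M.dualTwist (cycloChar p)), IsLevelConstantS₁ S c ∧
      IsPair D.res v ((toQbarU D).comp (h : presKer (G := D.Gal) v →+ LUnits D.field))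
        (fun σ => muMap D hζ (c σ)) := by
  classical
  have heq : IsEquivariant D.res v ((toQbarU D).comp (h : presKer (G := D.Gal) v →+ LUnits D.field)) :=
    fun σ x => by
      show toQbarU D ((h : presKer (G := D.Gal) v →+ LUnits D.field) (D.res σ • x)) = _
      rw [h.2, toQbarU_smul]
      rfl
  obtain ⟨cV, hpair⟩ := exists_pair_cocycle D.res hv heq
  have hcoc := hpair.isCocycle D.res hv
  obtain ⟨e, he, hcV⟩ := hpair
  let cf : Γℚ → M.dualTwist (cycloChar p) := fun σ => muInv D hζ (cV σ)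
  have hcf : ∀ σ, muMap D hζ (cf σ) = cV σ := fun σ => muMap_muInv D hζ _
  have hmem : cf ∈ cocycles₁ (M.dualTwist (cycloChar p)) :=
    (mem_cocycles₁_iff _).2 fun σ τ => muMap_injective D hζ (AddMonoidHom.ext fun x => by
      rw [map_add, AddMonoidHom.add_apply, muMap_ρ, hcf, hcf, hcf]
      exact hcoc σ τ x)
  let c : cocycles₁ (M.dualTwist (cycloChar p)) := ⟨cf, hmem⟩
  have hmul : ∀ σ τ, cf (σ * τ) = (M.dualTwist (cycloChar p)).ρ σ (cf τ) + cf σ :=
    (mem_cocycles₁_iff _).1 hmem
  have hρ : ∀ σ, D.res σ = 1 → (M.dualTwist (cycloChar p)).ρ σ = 1 := fun σ hσ => by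
    obtain ⟨h1, h2⟩ := D.res_eq_res (τ := 1) (hσ.trans D.res.map_one.symm)
    have h1' : M.ρ σ⁻¹ = 1 := by
      have : M.ρ σ⁻¹ * M.ρ σ = 1 := by rw [← map_mul, inv_mul_cancel, map_one]
      rwa [h1, map_one, mul_one] at this
    refine LinearMap.ext fun f => ?_
    refine (Rep.dualTwist_ρ_apply M (cycloChar p) σ f).trans ?_
    rw [h2, map_one, h1']
    ext x
    simp
  have hc1 : cf 1 = 0 := cocycles₁_map_one c
  let K : Subgroup Γℚ :=
    { carrier := {σ | D.res σ = 1 ∧ cf σ = 0}
      one_mem' := ⟨D.res.map_one, cocycles₁_map_one c⟩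
      mul_mem' := fun {a b} ha hb => ⟨by rw [map_mul, ha.1, hb.1, one_mul], by
        rw [hmul, hb.2, ha.2, map_zero, add_zero]⟩
      inv_mem' := fun {a} ha => ⟨by rw [map_inv, ha.1, inv_one], by
        have := hmul a⁻¹ a
        rw [inv_mul_cancel, hc1, ha.2, map_zero, zero_add] at this
        exact this.symm⟩ }
  have hconj : ∀ g k, k ∈ K → g * k * g⁻¹ ∈ K := fun g k hk => ⟨by
    rw [map_mul, map_mul, hk.1, mul_one, map_inv, mul_inv_cancel], by
    rw [hmul, hmul g k, hk.2, map_zero, zero_add, map_mul, hρ k hk.1, mul_one,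
      ← hmul, mul_inv_cancel]
    exact hc1⟩
  -- a finite level inside `K`
  let vals : Finset Qbar := Finset.univ.image fun t : ι × D.Gal => (e (presSingle t.1 t.2)).el
  haveI : FiniteDimensional ℚ (IntermediateField.adjoin ℚ (vals : Set Qbar)) :=
    IntermediateField.finiteDimensional_adjoin fun x _ =>
      ((AlgebraicClosure.isAlgebraic ℚ).isAlgebraic x).isIntegral
  let F : IntermediateField ℚ Qbar := D.field ⊔ IntermediateField.adjoin ℚ (vals : Set Qbar)
  haveI : FiniteDimensional ℚ F := IntermediateField.finiteDimensional_sup _ _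
  have hFK : F.fixingSubgroup ≤ K := by
    intro σ hσ
    have hres : D.res σ = 1 :=
      (D.res_eq_one_iff σ).2 (IntermediateField.fixingSubgroup_antitone le_sup_left hσ)
    refine ⟨hres, muMap_injective D hζ ?_⟩
    rw [hcf, map_zero]
    refine AddMonoidHom.ext fun x => ?_
    obtain ⟨b, rfl⟩ := hv x
    rw [hcV, hres, inv_one, one_smul, AddMonoidHom.zero_apply, sub_eq_zero]
    have e1 : (DistribSMul.toAddMonoidHom QbarU σ).comp e = e := free_ext fun i g => by
      refine QbarU.el_injective ?_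
      show σ (e (presSingle i g)).el = _
      refine (IntermediateField.mem_fixingSubgroup_iff _ σ).1 hσ _ ?_
      exact le_sup_right (a := D.field) (IntermediateField.subset_adjoin _ _
        (Finset.mem_coe.2 (Finset.mem_image.2 ⟨(i, g), Finset.mem_univ _, rfl⟩)))
    exact DFunLike.congr_fun e1 b
  have hopen : IsOpen (K : Set Γℚ) :=
    Subgroup.isOpen_mono hFK (IntermediateField.fixingSubgroup_isOpen F)
  have hfix : (IntermediateField.fixedField K).fixingSubgroup = K :=
    InfiniteGalois.fixingSubgroup_fixedField ⟨K, Subgroup.isClosed_of_isOpen K hopen⟩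
  have hKF : IntermediateField.fixedField K ≤ F := by
    rw [← InfiniteGalois.fixedField_fixingSubgroup F]
    exact fun x hx s => hx ⟨s.1, hFK s.2⟩
  refine ⟨c, ⟨IntermediateField.fixedField K, ⟨FiniteDimensional.of_injective
    (IntermediateField.inclusion hKF).toLinearMap (IntermediateField.inclusion_injective hKF),
    fun q hq A hA σ hσ => ?_⟩, fun g s hs => ?_⟩, e, he, fun σ b => ?_⟩
  · rw [hfix]
    obtain ⟨g, t, ht, rfl⟩ := exists_conj_inertia q hA hσ
    refine hconj g _ ?_
    have hres : D.res (primeLocalToGlobal q t) = 1 :=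
      res_eq_one_of_inertia D hq (padicPlace_liesOverPrime q) ht
    refine ⟨hres, muMap_injective D hζ ?_⟩
    rw [hcf, map_zero]
    refine AddMonoidHom.ext fun x => ?_
    obtain ⟨b, rfl⟩ := hv x
    have hval : cV (primeLocalToGlobal q t) (presMap v b) =
        primeLocalToGlobal q t • e b - e b := by rw [hcV, hres, inv_one, one_smul]
    rw [AddMonoidHom.zero_apply, hval, sub_eq_zero]
    obtain ⟨k, hk⟩ := hunr q hq b
    have hk' : ‖padicEmbedding (q : ℕ) (e b).el‖ ^ p =
        ‖((q : ℕ) : PadicAlgCl (q : ℕ))‖ ^ ((p : ℤ) * k) := by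
      rw [← hk, ← norm_pow, ← map_pow, ← QbarU.el_nsmul,
        IsPair.nsmul_eq D (res := D.res) he b]
      rfl
    have hp0 : p ≠ 0 := (Fact.out : p.Prime).ne_zero
    have hk'' : ‖padicEmbedding (q : ℕ) (e b).el‖ = ‖((q : ℕ) : PadicAlgCl (q : ℕ))‖ ^ k := by
      refine (pow_left_inj₀ (norm_nonneg _) (zpow_nonneg (norm_nonneg _) _) hp0).1 ?_
      rw [hk', ← zpow_natCast (_ ^ k) p, ← zpow_mul, mul_comm]
    have hq0 : ((q : ℕ) : Qbar) ≠ 0 := Nat.cast_ne_zero.2 q.2.ne_zero
    set w : Qbar := (e b).el / ((q : ℕ) : Qbar) ^ k with hw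
    have hσq : primeLocalToGlobal q t (((q : ℕ) : Qbar) ^ k) = ((q : ℕ) : Qbar) ^ k := by
      rw [map_zpow₀, map_natCast]
    have hwn : ‖padicEmbedding (q : ℕ) w‖ = 1 := by
      rw [hw, map_div₀, map_zpow₀, map_natCast, norm_div, norm_zpow, hk'',
        div_self (zpow_ne_zero _ norm_q_pos.ne')]
    have hratio : primeLocalToGlobal q t w / w =
        (cV (primeLocalToGlobal q t) (presMap v b)).el := by
      have h4 : (cV (primeLocalToGlobal q t) (presMap v b) + e b).el =
          (primeLocalToGlobal q t • e b).el := by rw [hval, sub_add_cancel]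
      rw [QbarU.el_add, QbarU.el_smul] at h4
      rw [hw, map_div₀, hσq, div_div_div_cancel_right₀ (zpow_ne_zero _ hq0), ← h4,
        mul_div_cancel_right₀ _ (e b).el_ne_zero]
    have h5 := eq_one_of_inertial (not_dvd_of_not_mem hpS hq) ht hwn (by
      rw [hratio, ← QbarU.el_nsmul, nsmul_hom_eq_zero D, QbarU.el_zero])
    refine QbarU.el_injective ?_
    rw [QbarU.el_smul]
    rw [hw, map_div₀, hσq, div_left_inj' (zpow_ne_zero _ hq0)] at h5
    exact h5
  · rw [hfix] at hs
    show cf (g * s) = cf g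
    rw [hmul, hs.2, map_zero, zero_add]
  · show muMap D hζ (cf σ) (presMap v b) = _
    rw [hcf, hcV]

include hζ in
/-- A class unramified outside `S` comes from an equivariant map, with valuations divisible by
`p` outside `S`. -/
theorem exists_map_of_class (c : cocycles₁ (M.dualTwist (cycloChar p)))
    (hc : IsLevelConstantS₁ S c) :
    ∃ h : equivHom D.Gal (presKer (G := D.Gal) v) (LUnits D.field),
      IsPair D.res v ((toQbarU D).comp (h : presKer (G := D.Gal) v →+ LUnits D.field))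
        (fun σ => muMap D hζ (c σ)) ∧
      IsUnramifiedMap D (h : presKer (G := D.Gal) v →+ LUnits D.field) := by
  classical
  obtain ⟨F, hF, hcF⟩ := hc
  haveI := hF.1
  have hcoc : IsCocycle D.res (fun σ => muMap D hζ (c σ)) := fun σ τ x => by
    show muMap D hζ (c (σ * τ)) x = _
    rw [(mem_cocycles₁_iff c).1 c.2 σ τ, map_add, AddMonoidHom.add_apply, muMap_ρ]
  let act : Γℚ →* (Qbar ≃+* Qbar) := MonoidHom.mk' (fun σ => σ.toRingEquiv) fun _ _ => rfl
  obtain ⟨h₁, hpair⟩ := exists_pair_map (v := v) D.res hcoc fun x => by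
    haveI : FiniteDimensional ℚ (F ⊔ D.field : IntermediateField ℚ Qbar) :=
      IntermediateField.finiteDimensional_sup _ _
    haveI : NumberField (F ⊔ D.field : IntermediateField ℚ Qbar) := ⟨⟩
    refine (exists_coboundary_of_embedding act
      (algebraMap (F ⊔ D.field : IntermediateField ℚ Qbar) Qbar) D.res.ker
      (fun τ => Additive.toMul (muMap D hζ (c τ) x)) (fun σ hσ τ _ => ?_)
      fun σ _ τ _ h => ?_).elim fun β hβ => ?_
    · have := hcoc σ τ x
      rw [MonoidHom.mem_ker.1 hσ, inv_one, one_smul] at this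
      show QbarU.el (muMap D hζ (c (σ * τ)) x) = _
      rw [this, QbarU.el_add, mul_comm]
      rfl
    · have hfix : σ⁻¹ * τ ∈ F.fixingSubgroup := by
        rw [IntermediateField.mem_fixingSubgroup_iff]
        intro y hy
        have hy' : σ y = τ y := h ⟨y, le_sup_left (b := D.field) hy⟩
        rw [AlgEquiv.mul_apply, ← hy', AlgEquiv.aut_inv, AlgEquiv.symm_apply_apply]
      have h1 := hcF σ _ hfix
      rw [mul_inv_cancel_left] at h1
      rw [h1]
    · refine ⟨QbarU.of β, fun τ hτ => ?_⟩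
      rw [eq_sub_iff_add_eq]
      have h1 : QbarU.el (τ • QbarU.of β) = QbarU.el (muMap D hζ (c τ) x + QbarU.of β) := hβ τ hτ
      exact (QbarU.el_injective h1).symm
  have heq := hpair.equivariant D.res
  have hdesc : ∀ x, ∃ y, toQbarU D y = h₁ x := fun x => by
    have hmem : (h₁ x).el ∈ D.field := by
      suffices hfix : (h₁ x).el ∈ IntermediateField.fixedField D.field.fixingSubgroup by
        rwa [InfiniteGalois.fixedField_fixingSubgroup] at hfix
      rw [IntermediateField.mem_fixedField_iff]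
      intro σ hσ
      have := heq σ x
      rw [(D.res_eq_one_iff σ).2 hσ, one_smul] at this
      exact ((congrArg QbarU.el this).trans (QbarU.el_smul σ _)).symm
    exact ⟨LUnits.of (Units.mk0 ⟨(h₁ x).el, hmem⟩ fun h => (h₁ x).el_ne_zero
      (congrArg Subtype.val h)), QbarU.el_injective rfl⟩
  choose y hy using hdesc
  let h : equivHom D.Gal (presKer (G := D.Gal) v) (LUnits D.field) :=
    ⟨AddMonoidHom.mk' y fun a b => toQbarU_injective D (by
      rw [map_add, hy, hy, hy, map_add]), fun g x => by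
      obtain ⟨σ, rfl⟩ := D.res_surjective g
      refine toQbarU_injective D ?_
      show toQbarU D (y _) = toQbarU D (D.res σ • y x)
      rw [toQbarU_smul, hy, hy]
      exact heq σ x⟩
  have hh : (toQbarU D).comp (h : presKer (G := D.Gal) v →+ LUnits D.field) = h₁ :=
    AddMonoidHom.ext hy
  refine ⟨h, by rw [hh]; exact hpair, fun q hq b => ?_⟩
  obtain ⟨e, he, hce⟩ := hpair
  obtain ⟨k, hk⟩ := exists_zpow_norm_of_inertia_fixed (q := q) (e b).el_ne_zero fun σ hσ => by
    have hA := padicPlace_liesOverPrime q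
    have hres : D.res σ = 1 := res_eq_one_of_inertia D hq hA hσ
    have hc0 : c σ = 0 := by
      have := hcF 1 σ (hF.2 q hq _ hA hσ)
      rwa [one_mul, cocycles₁_map_one] at this
    have h1 : muMap D hζ (c σ) (presMap v b) = σ • e ((D.res σ)⁻¹ • b) - e b := hce σ b
    rw [hc0, map_zero, AddMonoidHom.zero_apply, hres, inv_one, one_smul, eq_comm, sub_eq_zero] at h1
    exact congrArg QbarU.el h1
  refine ⟨k, ?_⟩
  show ‖padicEmbedding (q : ℕ) (toQbarU D (y _)).el‖ = _
  rw [hy, ← IsPair.nsmul_eq D (res := D.res) he b, QbarU.el_nsmul, map_pow, norm_pow, hk,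
    ← zpow_natCast (_ ^ k) p, ← zpow_mul, mul_comm]

end FermatLib.CFT.GWKummer
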