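import Fermat.Agent.CFT.IdeleBasic

/-!
The completion of the fixed field at an embedding and the values of invariant ideles.
-/

set_option autoImplicit false

open NumberField

namespace FermatLib.CFT

variable {L : Type} [Field L] [NumberField L] {q : Nat.Primes}

instance padicAlgCl_isGalois (q : Nat.Primes) :
    IsGalois ℚ_[(q : ℕ)] (PadicAlgCl (q : ℕ)) := by
  have : IsAlgClosure ℚ_[(q : ℕ)] (PadicAlgCl (q : ℕ)) := ⟨inferInstance, inferInstance⟩
  have : Normal ℚ_[(q : ℕ)] (PadicAlgCl (q : ℕ)) := IsAlgClosure.normal _ _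
  exact ⟨⟩

theorem norm_gloc (τ : Gloc q) (y : PadicAlgCl (q : ℕ)) : ‖τ y‖ = ‖y‖ :=
  (spectralNorm_eq_of_equiv τ y).symm

/-- Two ultrametrically close values have the same norm. -/
theorem norm_eq_of_norm_sub_lt {a b : PadicAlgCl (q : ℕ)} (h : ‖a - b‖ < ‖b‖) : ‖a‖ = ‖b‖ := by
  have := IsUltrametricDist.norm_add_eq_max_of_norm_ne_norm (x := a - b) (y := b) h.ne
  rwa [sub_add_cancel, max_eq_right h.le] at this

/-- The completion of `L^H` at the place of `φ`, inside `PadicAlgCl q`. -/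
noncomputable def localField (H : Subgroup (L ≃ₐ[ℚ] L)) (φ : Emb L q) :
    IntermediateField ℚ_[(q : ℕ)] (PadicAlgCl (q : ℕ)) :=
  IntermediateField.adjoin ℚ_[(q : ℕ)] (φ '' (IntermediateField.fixedField H : Set L))

theorem apply_mem_localField (H : Subgroup (L ≃ₐ[ℚ] L)) (φ : Emb L q) {x : L}
    (hx : x ∈ IntermediateField.fixedField H) : φ x ∈ localField H φ :=
  IntermediateField.subset_adjoin _ _ ⟨x, hx, rfl⟩

theorem mem_fixedField_bot (x : L) :
    x ∈ IntermediateField.fixedField (⊥ : Subgroup (L ≃ₐ[ℚ] L)) := by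
  rw [IntermediateField.mem_fixedField_iff]
  intro g hg
  rw [Subgroup.mem_bot.1 hg]
  rfl

theorem apply_mem_localField_bot (φ : Emb L q) (x : L) :
    φ x ∈ localField (⊥ : Subgroup (L ≃ₐ[ℚ] L)) φ :=
  apply_mem_localField ⊥ φ (mem_fixedField_bot x)

theorem localField_antitone {H' H : Subgroup (L ≃ₐ[ℚ] L)} (h : H' ≤ H) (φ : Emb L q) :
    localField H φ ≤ localField H' φ := by
  refine IntermediateField.adjoin.mono _ _ _ (Set.image_mono fun x hx => ?_)
  rw [SetLike.mem_coe, IntermediateField.mem_fixedField_iff] at hx ⊢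
  exact fun g hg => hx g (h hg)

instance localField_finiteDimensional (H : Subgroup (L ≃ₐ[ℚ] L)) (φ : Emb L q) :
    FiniteDimensional ℚ_[(q : ℕ)] (localField H φ) := by
  classical
  obtain ⟨s, hs⟩ := Module.Finite.fg_top (R := ℚ) (M := L)
  have hle : localField H φ ≤
      IntermediateField.adjoin ℚ_[(q : ℕ)] (φ '' (s : Set L)) := by
    rw [localField, IntermediateField.adjoin_le_iff]
    rintro _ ⟨x, -, rfl⟩
    have hx : x ∈ Submodule.span ℚ (s : Set L) := hs ▸ Submodule.mem_top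
    induction hx using Submodule.span_induction with
    | mem y hy => exact IntermediateField.subset_adjoin _ _ ⟨y, hy, rfl⟩
    | zero => rw [map_zero]; exact zero_mem _
    | add a b _ _ ha hb => rw [map_add]; exact add_mem ha hb
    | smul c a _ ha =>
      rw [Rat.smul_def, map_mul, map_ratCast]
      exact mul_mem (SubfieldClass.ratCast_mem _ c) ha
  have : FiniteDimensional ℚ_[(q : ℕ)]
      (IntermediateField.adjoin ℚ_[(q : ℕ)] (φ '' (s : Set L))) := by
    have : Finite (φ '' (s : Set L)) := (s.finite_toSet.image φ).to_subtype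
    exact IntermediateField.finiteDimensional_adjoin fun y _ =>
      (Algebra.IsAlgebraic.isAlgebraic y).isIntegral
  exact FiniteDimensional.of_injective (IntermediateField.inclusion hle).toLinearMap
    (IntermediateField.inclusion_injective hle)

/-- The fixed field is dense in its completion. -/
theorem exists_norm_sub_lt_fixed (H : Subgroup (L ≃ₐ[ℚ] L)) (φ : Emb L q) {y : PadicAlgCl (q : ℕ)}
    (hy : y ∈ localField H φ) {ε : ℝ} (hε : 0 < ε) :
    ∃ x ∈ IntermediateField.fixedField H, ‖φ x - y‖ < ε := by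
  have hmem : y ∈ ((IntermediateField.fixedField H).toSubfield.toSubring.map φ).topologicalClosure := by
    rw [localField, ← IntermediateField.mem_toSubalgebra,
      IntermediateField.adjoin_toSubalgebra_of_isAlgebraic
        (fun z _ => Algebra.IsAlgebraic.isAlgebraic z)] at hy
    induction hy using Algebra.adjoin_induction with
    | mem z hz =>
      obtain ⟨x, hx, rfl⟩ := hz
      exact Subring.le_topologicalClosure _ ⟨x, hx, rfl⟩
    | algebraMap r =>
      refine (map_mem_closure (f := algebraMap ℚ_[(q : ℕ)] (PadicAlgCl (q : ℕ)))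
        (continuous_algebraMap _ _) (Padic.denseRange_ratCast (q : ℕ) r) ?_ :)
      rintro _ ⟨c, rfl⟩
      refine ⟨(c : L), ?_, by simp⟩
      exact SubfieldClass.ratCast_mem (IntermediateField.fixedField H) c
    | add a b _ _ ha hb => exact add_mem ha hb
    | mul a b _ _ ha hb => exact mul_mem ha hb
  obtain ⟨z, ⟨x, hx, rfl⟩, hz⟩ := Metric.mem_closure_iff.1 hmem ε hε
  exact ⟨x, hx, by rwa [dist_comm, dist_eq_norm] at hz⟩

/-- The value group of the completion is that of the fixed field. -/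
theorem exists_norm_eq (H : Subgroup (L ≃ₐ[ℚ] L)) (φ : Emb L q) {y : PadicAlgCl (q : ℕ)}
    (hy : y ∈ localField H φ) (hy0 : y ≠ 0) :
    ∃ x ∈ IntermediateField.fixedField H, x ≠ 0 ∧ ‖φ x‖ = ‖y‖ := by
  obtain ⟨x, hx, hlt⟩ := exists_norm_sub_lt_fixed H φ hy (norm_pos_iff.2 hy0)
  have h := norm_eq_of_norm_sub_lt hlt
  refine ⟨x, hx, fun h0 => ?_, h⟩
  rw [h0, map_zero, norm_zero] at h
  exact hy0 (norm_eq_zero.1 h.symm)

theorem postComp_one (φ : Emb L q) : φ.postComp (1 : Gloc q) = φ := rfl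

theorem postComp_mul (φ : Emb L q) (τ σ : Gloc q) :
    φ.postComp (τ * σ) = (φ.postComp σ).postComp τ := rfl

theorem preComp_mul (φ : Emb L q) (g h : L ≃ₐ[ℚ] L) :
    φ.preComp (g * h) = (φ.preComp g).preComp h := rfl

theorem postComp_preComp (φ : Emb L q) (τ : Gloc q) (g : L ≃ₐ[ℚ] L) :
    (φ.preComp g).postComp τ = (φ.postComp τ).preComp g := rfl

/-- Two polynomial expressions with the same norm at rational coefficients have the same norm. -/
theorem norm_sum_eq_of_rat {n : ℕ} {a b : PadicAlgCl (q : ℕ)}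
    (h : ∀ c : Fin n → ℚ, ‖∑ i, (c i : PadicAlgCl (q : ℕ)) * a ^ (i : ℕ)‖ =
      ‖∑ i, (c i : PadicAlgCl (q : ℕ)) * b ^ (i : ℕ)‖)
    (c : Fin n → ℚ_[(q : ℕ)]) :
    ‖∑ i, algebraMap ℚ_[(q : ℕ)] (PadicAlgCl (q : ℕ)) (c i) * a ^ (i : ℕ)‖ =
      ‖∑ i, algebraMap ℚ_[(q : ℕ)] (PadicAlgCl (q : ℕ)) (c i) * b ^ (i : ℕ)‖ := by
  have hcont : ∀ z : PadicAlgCl (q : ℕ), Continuous fun c : Fin n → ℚ_[(q : ℕ)] =>
      ‖∑ i, algebraMap ℚ_[(q : ℕ)] (PadicAlgCl (q : ℕ)) (c i) * z ^ (i : ℕ)‖ := fun z =>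
    (continuous_finsetSum _ fun i _ =>
      ((continuous_algebraMap _ _).comp (continuous_apply i)).mul continuous_const).norm
  refine congrFun ((DenseRange.piMap fun _ : Fin n => Padic.denseRange_ratCast (q : ℕ)).equalizer
    (hcont a) (hcont b) (funext fun c => ?_)) c
  simpa [Pi.map] using h c

/-- Embeddings with the same absolute value define the same place. -/
theorem samePlace_iff_norm_eq (φ ψ : Emb L q) : φ.SamePlace ψ ↔ ∀ x, ‖φ x‖ = ‖ψ x‖ := by
  refine ⟨?_, fun hg => ?_⟩
  · rintro ⟨τ, rfl⟩ x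
    exact (norm_gloc τ (φ x)).symm
  let pb := Field.powerBasisOfFiniteOfSeparable ℚ L
  set α := pb.gen
  set m := minpoly ℚ_[(q : ℕ)] (φ α)
  have heval : ∀ z : PadicAlgCl (q : ℕ), Polynomial.aeval z m =
      ∑ i : Fin (m.natDegree + 1),
        algebraMap ℚ_[(q : ℕ)] (PadicAlgCl (q : ℕ)) (m.coeff i) * z ^ (i : ℕ) := fun z => by
    rw [Polynomial.aeval_def, Polynomial.eval₂_eq_sum_range, ← Fin.sum_univ_eq_sum_range]
  have hroot : Polynomial.aeval (ψ α) m = 0 := by
    have h0 : Polynomial.aeval (φ α) m = 0 := minpoly.aeval _ _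
    rw [← norm_eq_zero, heval] at h0 ⊢
    rw [← h0]
    refine norm_sum_eq_of_rat (fun c => ?_) _
    have := (hg (∑ i, (c i : L) * α ^ (i : ℕ))).symm
    simpa [map_sum, map_mul, map_pow, map_ratCast] using this
  obtain ⟨τ, hτ⟩ := minpoly.exists_algEquiv_of_root'
    (K := ℚ_[(q : ℕ)]) (Algebra.IsAlgebraic.isAlgebraic (φ α)) hroot
  refine ⟨τ, ?_⟩
  have : (φ.postComp τ).toRatAlgHom = ψ.toRatAlgHom := pb.algHom_ext hτ
  exact RingHom.ext fun x => AlgHom.congr_fun this x

/-- Values of ideles lie in the completion. -/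
theorem fin_mem_localField_bot (f : Idele L) (φ : Emb L q) :
    (f.fin q φ).toField ∈ localField ⊥ φ := by
  rw [← InfiniteGalois.fixedField_fixingSubgroup (localField ⊥ φ),
    IntermediateField.mem_fixedField_iff]
  intro τ hτ
  rw [IntermediateField.mem_fixingSubgroup_iff] at hτ
  have he : φ.postComp τ = φ := RingHom.ext fun x => hτ _ (apply_mem_localField_bot φ x)
  rw [← QUnits.toField_onUnits, Idele.fin, ← f.2.1 q τ φ, he]

variable [IsGalois ℚ L]

/-- A local automorphism fixes the completion of `L^H` iff it induces an element of `H`. -/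
theorem gloc_fixes_localField_iff (H : Subgroup (L ≃ₐ[ℚ] L)) (φ : Emb L q) (τ : Gloc q) :
    (∀ y ∈ localField H φ, τ y = y) ↔ ∃ h ∈ H, φ.postComp τ = φ.preComp h := by
  constructor
  · intro h
    obtain ⟨g, hg⟩ := Emb.exists_preComp_eq φ (φ.postComp τ)
    refine ⟨g, ?_, hg.symm⟩
    rw [← IntermediateField.fixingSubgroup_fixedField H, IntermediateField.mem_fixingSubgroup_iff]
    intro x hx
    exact φ.injective ((RingHom.congr_fun hg x).trans (h _ (apply_mem_localField H φ hx)))
  · rintro ⟨g, hg, h⟩ y hy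
    induction hy using IntermediateField.adjoin_induction with
    | mem z hz =>
      obtain ⟨x, hx, rfl⟩ := hz
      refine (RingHom.congr_fun h x).trans (congrArg φ ?_)
      exact (IntermediateField.mem_fixedField_iff H x).1 hx g hg
    | algebraMap r => exact τ.commutes r
    | add a b _ _ ha hb => rw [map_add, ha, hb]
    | inv a _ ha => rw [map_inv₀, ha]
    | mul a b _ _ ha hb => rw [map_mul, ha, hb]

theorem mem_localField_iff (H : Subgroup (L ≃ₐ[ℚ] L)) (φ : Emb L q) (y : PadicAlgCl (q : ℕ)) :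
    y ∈ localField H φ ↔ ∀ τ : Gloc q, (∃ h ∈ H, φ.postComp τ = φ.preComp h) → τ y = y := by
  refine ⟨fun hy τ hτ => (gloc_fixes_localField_iff H φ τ).2 hτ y hy, fun h => ?_⟩
  rw [← InfiniteGalois.fixedField_fixingSubgroup (localField H φ),
    IntermediateField.mem_fixedField_iff]
  intro τ hτ
  rw [IntermediateField.mem_fixingSubgroup_iff] at hτ
  exact h τ ((gloc_fixes_localField_iff H φ τ).1 hτ)

theorem fixed_fin_mem_localField (H : Subgroup (L ≃ₐ[ℚ] L)) {f : Idele L}
    (hf : f ∈ fixedPts H (Idele L)) (φ : Emb L q) :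
    (f.fin q φ).toField ∈ localField H φ := by
  rw [mem_localField_iff]
  rintro τ ⟨h, hh, he⟩
  rw [← QUnits.toField_onUnits, Idele.fin, ← f.2.1 q τ φ, he, ← idele_smul_apply,
    (mem_fixedPts_subgroup_iff H f).1 hf h hh]

end FermatLib.CFT
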