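import Fermat.Agent.CFT.IdeleSingle
import Fermat.Agent.CFT.IdeleLocalField
import Fermat.Agent.CFT.GWGlobExt

/-!
Ideles from local data: an equivariant map into the values at the base
embedding of a prime, or of infinity, extends uniquely to an equivariant map into the ideles
supported there; equivariant maps from free modules lift along surjections.
-/

set_option autoImplicit false

namespace FermatLib.CFT.GWKummer

open FermatLib.CFT

variable {L : Type} [Field L] [NumberField L] [IsGalois ℚ L] {q : Nat.Primes}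

/-- The automorphism carrying the base embedding to `ψ`. -/
noncomputable def autOf (φ₀ ψ : Emb L q) : L ≃ₐ[ℚ] L := (Emb.exists_preComp_eq φ₀ ψ).choose

theorem preComp_autOf (φ₀ ψ : Emb L q) : φ₀.preComp (autOf φ₀ ψ) = ψ :=
  (Emb.exists_preComp_eq φ₀ ψ).choose_spec

theorem autOf_preComp (φ₀ : Emb L q) (g : L ≃ₐ[ℚ] L) : autOf φ₀ (φ₀.preComp g) = g :=
  φ₀.preComp_injective (preComp_autOf φ₀ _)

variable {X : Type*} [AddCommGroup X] [DistribMulAction (L ≃ₐ[ℚ] L) X]
  (φ₀ : Emb L q) (ρ : Gloc q → (L ≃ₐ[ℚ] L)) (hρ : ∀ τ, φ₀.postComp τ = φ₀.preComp (ρ τ))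
  (h : X →+ QUnits q) (hh : ∀ τ x, h (ρ τ • x) = τ.onUnits (h x))

include hρ hh in
theorem localValues_equivariant (x : X) (τ : Gloc q) (ψ : Emb L q) :
    h (autOf φ₀ (ψ.postComp τ) • x) = τ.onUnits (h (autOf φ₀ ψ • x)) := by
  have e : ψ.postComp τ = φ₀.preComp (ρ τ * autOf φ₀ ψ) := by
    rw [preComp_mul, ← hρ, ← postComp_preComp, preComp_autOf]
  rw [e, autOf_preComp, mul_smul, hh]

/-- The equivariant map into ideles supported at `q` with value `h` at `φ₀`. -/
noncomputable def localLift : X →+ Idele L where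
  toFun x := singlePrime q (fun ψ => h (autOf φ₀ ψ • x))
    (localValues_equivariant φ₀ ρ hρ h hh x)
  map_zero' := by
    refine (eq_singlePrime (localValues_equivariant φ₀ ρ hρ h hh (0 : X)) (fun ψ => ?_)
      (fun r _ ψ => rfl) (fun χ => rfl)).symm
    show (0 : QUnits q) = _
    rw [smul_zero, map_zero]
  map_add' a b := by
    refine (eq_singlePrime (localValues_equivariant φ₀ ρ hρ h hh (a + b)) (fun ψ => ?_)
      (fun r hr ψ => ?_) (fun χ => ?_)).symm
    · show (singlePrime q _ _).fin q ψ + (singlePrime q _ _).fin q ψ = _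
      rw [singlePrime_apply, singlePrime_apply, smul_add, map_add]
    · show (singlePrime q _ _).fin r ψ + (singlePrime q _ _).fin r ψ = 0
      rw [singlePrime_apply_of_ne _ _ hr, singlePrime_apply_of_ne _ _ hr, add_zero]
    · show (singlePrime q _ _).inf χ + (singlePrime q _ _).inf χ = 0
      rw [singlePrime_inf, singlePrime_inf, add_zero]

theorem localLift_apply (x : X) (ψ : Emb L q) :
    (localLift φ₀ ρ hρ h hh x).fin q ψ = h (autOf φ₀ ψ • x) :=
  singlePrime_apply (fun ψ => h (autOf φ₀ ψ • x)) (localValues_equivariant φ₀ ρ hρ h hh x) ψ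

theorem localLift_apply_of_ne (x : X) {r : Nat.Primes} (hr : r ≠ q) (ψ : Emb L r) :
    (localLift φ₀ ρ hρ h hh x).fin r ψ = 0 :=
  singlePrime_apply_of_ne (fun ψ => h (autOf φ₀ ψ • x)) (localValues_equivariant φ₀ ρ hρ h hh x)
    hr ψ

theorem localLift_fin (x : X) (g : L ≃ₐ[ℚ] L) :
    (localLift φ₀ ρ hρ h hh x).fin q (φ₀.preComp g) = h (g • x) := by
  rw [localLift_apply, autOf_preComp]

theorem localLift_fin_self (x : X) : (localLift φ₀ ρ hρ h hh x).fin q φ₀ = h x := by
  have := localLift_fin φ₀ ρ hρ h hh x 1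
  rwa [one_smul] at this

theorem localLift_mem (x : X) : localLift φ₀ ρ hρ h hh x ∈ primeIdeles L q :=
  ⟨fun _ hr ψ => localLift_apply_of_ne φ₀ ρ hρ h hh x hr ψ, funext fun _ => rfl⟩

omit [IsGalois ℚ L] in
theorem comp_algEquiv_mul {B : Type*} [Semiring B] (φ : L →+* B) (g h : L ≃ₐ[ℚ] L) :
    φ.comp ((g * h : L ≃ₐ[ℚ] L) : L →+* L) =
      (φ.comp (g : L →+* L)).comp (h : L →+* L) := rfl

theorem localLift_smul (g : L ≃ₐ[ℚ] L) (x : X) :
    localLift φ₀ ρ hρ h hh (g • x) = g • localLift φ₀ ρ hρ h hh x := by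
  refine (eq_singlePrime (localValues_equivariant φ₀ ρ hρ h hh (g • x)) (fun ψ => ?_)
    (fun r hr ψ => ?_) (fun χ => rfl)).symm
  · show (localLift φ₀ ρ hρ h hh x).fin q (ψ.preComp g) = _
    conv_lhs => rw [← preComp_autOf φ₀ ψ, ← preComp_mul, localLift_fin, mul_smul]
  · exact localLift_apply_of_ne φ₀ ρ hρ h hh x hr (ψ.preComp g)

section infinity

variable (χ₀ : L →+* ℂ) (c : L ≃ₐ[ℚ] L) (hc : (starRingEnd ℂ).comp χ₀ = χ₀.comp (c : L →+* L))
  (k : X →+ CUnits) (hk : ∀ x, k (c • x) = conjUnits (k x))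

/-- The automorphism carrying the base complex embedding to `ψ`. -/
noncomputable def autOfInf (ψ : L →+* ℂ) : L ≃ₐ[ℚ] L := (exists_comp_eq_inf χ₀ ψ).choose

theorem comp_autOfInf (ψ : L →+* ℂ) : χ₀.comp ((autOfInf χ₀ ψ : L ≃ₐ[ℚ] L) : L →+* L) = ψ :=
  (exists_comp_eq_inf χ₀ ψ).choose_spec

theorem autOfInf_comp (g : L ≃ₐ[ℚ] L) : autOfInf χ₀ (χ₀.comp (g : L →+* L)) = g :=
  AlgEquiv.ext fun x => χ₀.injective (RingHom.congr_fun (comp_autOfInf χ₀ _) x)

include hc hk in
theorem infValues_equivariant (x : X) (ψ : L →+* ℂ) :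
    k (autOfInf χ₀ ((starRingEnd ℂ).comp ψ) • x) = conjUnits (k (autOfInf χ₀ ψ • x)) := by
  have e : (starRingEnd ℂ).comp ψ = χ₀.comp ((c * autOfInf χ₀ ψ : L ≃ₐ[ℚ] L) : L →+* L) := by
    conv_lhs => rw [← comp_autOfInf χ₀ ψ, ← RingHom.comp_assoc, hc]
    rfl
  rw [e, autOfInf_comp, mul_smul, hk]

/-- The equivariant map into ideles supported at infinity with value `k` at `χ₀`. -/
noncomputable def infLift : X →+ Idele L where
  toFun x := singleInf (fun ψ => k (autOfInf χ₀ ψ • x)) (infValues_equivariant χ₀ c hc k hk x)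
  map_zero' := idele_ext (fun _ _ => rfl) fun ψ => by
    show CUnits.toField (k (autOfInf χ₀ ψ • 0)) = _
    rw [smul_zero, map_zero]; rfl
  map_add' a b := idele_ext (fun _ _ => by
      show QUnits.toField 0 = QUnits.toField (0 + 0)
      rw [add_zero]) fun ψ => by
    show CUnits.toField (k (autOfInf χ₀ ψ • (a + b))) = CUnits.toField (k _ + k _)
    rw [smul_add, map_add]

theorem infLift_inf (x : X) (g : L ≃ₐ[ℚ] L) :
    (infLift χ₀ c hc k hk x).inf (χ₀.comp (g : L →+* L)) = k (g • x) := by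
  show k _ = _
  rw [autOfInf_comp]

theorem infLift_inf_self (x : X) : (infLift χ₀ c hc k hk x).inf χ₀ = k x := by
  have := infLift_inf χ₀ c hc k hk x 1
  rwa [one_smul] at this

theorem infLift_mem (x : X) : infLift χ₀ c hc k hk x ∈ infIdeles L := fun _ _ => rfl

theorem infLift_smul (g : L ≃ₐ[ℚ] L) (x : X) :
    infLift χ₀ c hc k hk (g • x) = g • infLift χ₀ c hc k hk x := by
  refine idele_ext (fun _ _ => rfl) fun ψ => congrArg CUnits.toField ?_
  show (infLift χ₀ c hc k hk (g • x)).inf ψ =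
    (infLift χ₀ c hc k hk x).inf (ψ.comp (g : L →+* L))
  conv_lhs => rw [← comp_autOfInf χ₀ ψ, infLift_inf]
  conv_rhs => rw [← comp_autOfInf χ₀ ψ, ← comp_algEquiv_mul, infLift_inf, mul_smul]

end infinity

section free

variable {G : Type*} [Group G] [Fintype G] {ι : Type*} [Fintype ι]
  {A B : Type*} [AddCommGroup A] [AddCommGroup B] [DistribMulAction G A] [DistribMulAction G B]

/-- Equivariant maps from free modules lift along equivariant surjections. -/
theorem exists_equivariant_lift (π : A →+ B) (hπ : ∀ (g : G) a, π (g • a) = g • π a)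
    (hsurj : Function.Surjective π) (F : Pres ι G →+ B)
    (hF : ∀ (g : G) b, F (g • b) = g • F b) :
    ∃ F' : Pres ι G →+ A, (∀ (g : G) b, F' (g • b) = g • F' b) ∧ ∀ b, π (F' b) = F b := by
  choose r hr using fun i => hsurj (F (presSingle i 1))
  let F' : Pres ι G →+ A := freeLift fun i g => g • r i
  refine ⟨F', fun g b => ?_, fun b => ?_⟩
  · have e : F'.comp (DistribSMul.toAddMonoidHom (Pres ι G) g) =
        (DistribSMul.toAddMonoidHom A g).comp F' := free_ext fun i g' => by
      show F' (g • presSingle i g') = g • F' (presSingle i g')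
      rw [smul_presSingle, freeLift_presSingle, freeLift_presSingle, mul_smul]
    exact DFunLike.congr_fun e b
  · have e : π.comp F' = F := free_ext fun i g => by
      show π (F' (presSingle i g)) = F (presSingle i g)
      rw [freeLift_presSingle, hπ, hr, ← hF, smul_presSingle, mul_one]
    exact DFunLike.congr_fun e b

end free

end FermatLib.CFT.GWKummer
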