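import Fermat.Agent.CFT.GWGlobSetting
import Fermat.Agent.CFT.GWGlobLift

/-!
Local Kummer data: the local actions on values, the maps from `ℚ̄ˣ`, and
Hilbert 90 for level-constant local cocycles, giving local pairs.
-/

set_option autoImplicit false

open CategoryTheory groupCohomology ExtCitation NumberField

namespace FermatLib.CFT.GWKummer

open FermatLib.CFT

local notation "Γℚ" => AlgebraicClosure ℚ ≃ₐ[ℚ] AlgebraicClosure ℚ
local notation "Qbar" => AlgebraicClosure ℚ

noncomputable instance gwLocalUnitsAction (q : Nat.Primes) :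
    DistribMulAction (primeLocalGaloisGroup q) (QUnits q) where
  smul τ x := Gloc.onUnits (q := q) τ x
  one_smul _ := QUnits.toField_injective rfl
  mul_smul _ _ _ := QUnits.toField_injective rfl
  smul_zero _ := map_zero _
  smul_add _ _ _ := map_add _ _ _

/-- The map from `ℚ̄ˣ` to the values at `q`. -/
noncomputable def toQUnits (q : Nat.Primes) : QbarU →+ QUnits q where
  toFun x := Additive.ofMul (Units.map (padicEmbedding (q : ℕ) : Qbar →* PadicAlgCl (q : ℕ))
    (Additive.toMul x))
  map_zero' := QUnits.toField_injective (map_one (padicEmbedding (q : ℕ)))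
  map_add' x y := QUnits.toField_injective (map_mul (padicEmbedding (q : ℕ)) x.el y.el)

@[simp] theorem toField_toQUnits (q : Nat.Primes) (x : QbarU) :
    (toQUnits q x).toField = padicEmbedding (q : ℕ) x.el := rfl

theorem toQUnits_smul (q : Nat.Primes) (τ : primeLocalGaloisGroup q) (x : QbarU) :
    toQUnits q (primeLocalToGlobal q τ • x) = τ • toQUnits q x :=
  QUnits.toField_injective (padicEmbedding_localGaloisToGlobal (q : ℕ) τ x.el)

theorem toQUnits_injective (q : Nat.Primes) : Function.Injective (toQUnits q) := fun _ _ h =>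
  QbarU.el_injective ((padicEmbedding (q : ℕ)).toRingHom.injective (congrArg QUnits.toField h))

/-- The map from `ℚ̄ˣ` to the values at infinity. -/
noncomputable def toCUnits : QbarU →+ CUnits where
  toFun x := Additive.ofMul (Units.map (complexEmbedding : Qbar →* ℂ) (Additive.toMul x))
  map_zero' := CUnits.toField_injective (map_one complexEmbedding)
  map_add' x y := CUnits.toField_injective (map_mul complexEmbedding x.el y.el)

@[simp] theorem toField_toCUnits (x : QbarU) :
    CUnits.toField (toCUnits x) = complexEmbedding x.el := rfl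

theorem toCUnits_injective : Function.Injective toCUnits := fun _ _ h =>
  QbarU.el_injective (complexEmbedding.toRingHom.injective (congrArg CUnits.toField h))

theorem complexConjugation_ne_one' : complexConjugation ≠ 1 := by
  intro h
  obtain ⟨i, hi⟩ := IsAlgClosed.exists_eq_mul_self (-1 : Qbar)
  have h1 := complexEmbedding_complexConjugation i
  rw [h, AlgEquiv.one_apply] at h1
  obtain ⟨r, hr⟩ := Complex.conj_eq_iff_real.1 h1.symm
  have h2 : complexEmbedding i * complexEmbedding i = -1 := by
    rw [← map_mul, ← hi, map_neg, map_one]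
  rw [hr, ← Complex.ofReal_mul] at h2
  have := congrArg Complex.re h2
  simp at this
  nlinarith [mul_self_nonneg r]

theorem mem_archimedeanDecomposition {σ : Γℚ} (hσ : σ ∈ archimedeanDecomposition) :
    σ = 1 ∨ σ = complexConjugation := by
  obtain ⟨k, rfl⟩ := Subgroup.mem_zpowers_iff.1 hσ
  rcases Int.even_or_odd k with ⟨j, rfl⟩ | ⟨j, rfl⟩
  · refine Or.inl ?_
    rw [← two_mul, zpow_mul, zpow_two, complexConjugation_mul_self, one_zpow]
  · refine Or.inr ?_
    rw [zpow_add, zpow_mul, zpow_two, complexConjugation_mul_self, one_zpow, zpow_one, one_mul]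

/-- The action of the decomposition group at infinity on `ℂ`. -/
noncomputable def archimedeanAct : ↥archimedeanDecomposition →* (ℂ ≃+* ℂ) :=
  haveI : DecidableEq Γℚ := Classical.decEq _
  { toFun := fun τ => if (τ : Γℚ) = 1 then 1 else complexConjAlgEquiv.toRingEquiv
    map_one' := if_pos rfl
    map_mul' := fun a b => by
      have hc : complexConjAlgEquiv.toRingEquiv * complexConjAlgEquiv.toRingEquiv = 1 :=
        RingEquiv.ext fun z => Complex.conj_conj z
      rcases mem_archimedeanDecomposition a.2 with ha | ha <;>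
        rcases mem_archimedeanDecomposition b.2 with hb | hb <;>
        simp [Subgroup.coe_mul, ha, hb, complexConjugation_mul_self,
          complexConjugation_ne_one', hc] }

theorem complexEmbedding_archimedean (τ : ↥archimedeanDecomposition) (x : Qbar) :
    complexEmbedding (archimedeanLoc τ x) = archimedeanAct τ (complexEmbedding x) := by
  classical
  rcases mem_archimedeanDecomposition τ.2 with h | h
  · obtain rfl : τ = 1 := Subtype.ext h
    rw [map_one, map_one]; rfl
  · have hne : (τ : Γℚ) ≠ 1 := h ▸ complexConjugation_ne_one'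
    show complexEmbedding ((τ : Γℚ) x) = (if (τ : Γℚ) = 1 then 1 else _ : ℂ ≃+* ℂ) _
    rw [if_neg hne, h, complexEmbedding_complexConjugation]
    rfl

noncomputable instance gwArchimedeanUnitsAction :
    DistribMulAction ↥archimedeanDecomposition CUnits where
  smul τ x := Additive.ofMul (Units.map (archimedeanAct τ : ℂ →* ℂ) (Additive.toMul x))
  one_smul _ := CUnits.toField_injective (by
    show archimedeanAct 1 _ = _; rw [map_one]; rfl)
  mul_smul _ _ _ := CUnits.toField_injective (by
    show archimedeanAct (_ * _) _ = _; rw [map_mul]; rfl)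
  smul_zero τ := CUnits.toField_injective (map_one (archimedeanAct τ))
  smul_add τ _ _ := CUnits.toField_injective (map_mul (archimedeanAct τ) _ _)

theorem archimedeanGen_smul (x : CUnits) : archimedeanGen • x = conjUnits x := by
  refine CUnits.toField_injective ?_
  show archimedeanAct archimedeanGen (CUnits.toField x) = starRingEnd ℂ (CUnits.toField x)
  have : archimedeanAct archimedeanGen = complexConjAlgEquiv.toRingEquiv := by
    simp [archimedeanAct, archimedeanGen, complexConjugation_ne_one']
  rw [this]; rfl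

theorem toCUnits_smul (τ : ↥archimedeanDecomposition) (x : QbarU) :
    toCUnits (archimedeanLoc τ • x) = τ • toCUnits x :=
  CUnits.toField_injective (complexEmbedding_archimedean τ x.el)

/-- Hilbert 90 for crossed homomorphisms determined by the restriction to a number field. -/
theorem exists_coboundary_of_embedding {Γ F Ω : Type*} [Group Γ] [Field F] [Field Ω]
    [Finite (F →+* Ω)] (act : Γ →* (Ω ≃+* Ω)) (ι : F →+* Ω) (K : Subgroup Γ) (c : Γ → Ωˣ)
    (hc : ∀ σ ∈ K, ∀ τ ∈ K, ((c (σ * τ) : Ω)) = (c σ : Ω) * act σ (c τ))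
    (hdep : ∀ σ ∈ K, ∀ τ ∈ K, (∀ x, act σ (ι x) = act τ (ι x)) → c σ = c τ) :
    ∃ β : Ωˣ, ∀ σ ∈ K, act σ β = (c σ : Ω) * β := by
  classical
  haveI := Fintype.ofFinite (F →+* Ω)
  let R : Finset (F →+* Ω) :=
    Finset.univ.filter fun r => ∃ σ ∈ K, (act σ : Ω →+* Ω).comp ι = r
  have hR : ∀ r ∈ R, ∃ σ ∈ K, (act σ : Ω →+* Ω).comp ι = r := fun r hr => (Finset.mem_filter.1 hr).2
  choose! rep hrepK hrep using hR
  have hmem : ∀ σ ∈ K, (act σ : Ω →+* Ω).comp ι ∈ R := fun σ hσ =>
    Finset.mem_filter.2 ⟨Finset.mem_univ _, σ, hσ, rfl⟩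
  have hval : ∀ σ ∈ K, c (rep ((act σ : Ω →+* Ω).comp ι)) = c σ := fun σ hσ =>
    hdep _ (hrepK _ (hmem σ hσ)) σ hσ fun x => RingHom.congr_fun (hrep _ (hmem σ hσ)) x
  obtain ⟨a, ha⟩ : ∃ a : F, ∑ r ∈ R, (c (rep r) : Ω) * r a ≠ 0 := by
    by_contra h
    simp only [not_exists, not_not] at h
    have hli := (linearIndependent_monoidHom F Ω).comp (fun r : F →+* Ω => r.toMonoidHom)
      fun r r' e => RingHom.ext fun x => DFunLike.congr_fun e x
    have := linearIndependent_iff'.1 hli R (fun r => (c (rep r) : Ω)) (funext fun x => by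
      simpa [Finset.sum_apply, smul_eq_mul] using h x) _ (hmem 1 K.one_mem)
    exact (c (rep _)).ne_zero this
  have hcomp : ∀ s t, (act (s * t) : Ω →+* Ω).comp ι =
      (act s : Ω →+* Ω).comp ((act t : Ω →+* Ω).comp ι) := fun s t => by rw [map_mul]; rfl
  have happ : ∀ (s t : Γ) (z : Ω), act s (act t z) = act (s * t) z := fun s t z => by
    rw [map_mul]; rfl
  refine ⟨(Units.mk0 _ ha)⁻¹, fun σ hσ => ?_⟩
  have key : (c σ : Ω) * act σ (∑ r ∈ R, (c (rep r) : Ω) * r a) =
      ∑ r ∈ R, (c (rep r) : Ω) * r a := by
    rw [map_sum, Finset.mul_sum]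
    refine Finset.sum_bij' (fun r _ => (act σ : Ω →+* Ω).comp r)
      (fun r _ => (act σ⁻¹ : Ω →+* Ω).comp r) (fun r hr => ?_) (fun r hr => ?_)
      (fun r _ => ?_) (fun r _ => ?_) fun r hr => ?_
    · have := hmem _ (K.mul_mem hσ (hrepK r hr))
      rwa [hcomp, hrep r hr] at this
    · have := hmem _ (K.mul_mem (K.inv_mem hσ) (hrepK r hr))
      rwa [hcomp, hrep r hr] at this
    · refine RingHom.ext fun x => ?_
      show act σ⁻¹ (act σ (r x)) = r x
      rw [happ, inv_mul_cancel, map_one]; rfl
    · refine RingHom.ext fun x => ?_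
      show act σ (act σ⁻¹ (r x)) = r x
      rw [happ, mul_inv_cancel, map_one]; rfl
    · have h1 := hval _ (K.mul_mem hσ (hrepK r hr))
      rw [hcomp, hrep r hr] at h1
      rw [map_mul, ← mul_assoc, ← hc σ hσ _ (hrepK r hr), h1]
      rfl
  rw [Units.val_inv_eq_inv_val, Units.val_mk0, map_inv₀]
  have hne : act σ (∑ r ∈ R, (c (rep r) : Ω) * r a) ≠ 0 := (map_ne_zero (act σ)).2 ha
  field_simp
  linear_combination -key

instance finite_ringHom_numberField (F Ω : Type*) [Field F] [NumberField F] [Field Ω] [CharZero Ω] :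
    Finite (F →+* Ω) :=
  Finite.of_equiv _ (RingHom.equivRatAlgHom (R := F) (S := Ω)).symm

variable {p : ℕ} [Fact p.Prime] {M : Rep (ZMod p) Γℚ} {S : Finset Nat.Primes} (D : Level M S)

/-- The restriction from the local group at `q` to the level. -/
noncomputable abbrev locRes (q : Nat.Primes) : primeLocalGaloisGroup q →* D.Gal :=
  D.res.comp (primeLocalToGlobal q)

/-- The restriction from the decomposition group at infinity to the level. -/
noncomputable abbrev infRes : ↥archimedeanDecomposition →* D.Gal :=
  D.res.comp archimedeanLoc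

theorem stdEmb_postComp (q : Nat.Primes) (τ : Gloc q) :
    (stdEmb D.field q).postComp τ = (stdEmb D.field q).preComp (locRes D q τ) :=
  RingHom.ext fun x => (padicEmbedding_localGaloisToGlobal (q : ℕ) τ (x : Qbar)).symm.trans
    (congrArg (padicEmbedding (q : ℕ)) (D.coe_res _ x).symm)

/-- The base complex embedding of the level. -/
noncomputable def stdEmbInf : D.field →+* ℂ :=
  complexEmbedding.toRingHom.comp (algebraMap D.field Qbar)

theorem conj_stdEmbInf :
    (starRingEnd ℂ).comp (stdEmbInf D) =
      (stdEmbInf D).comp ((D.res complexConjugation : D.Gal) : D.field →+* D.field) :=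
  RingHom.ext fun x => (complexEmbedding_complexConjugation (x : Qbar)).symm.trans
    (congrArg complexEmbedding (D.coe_res _ x).symm)

variable {ι : Type*} [Fintype ι] (v : ι → D.Mod)

/-- Level-constant local cocycles have pairs. -/
theorem exists_local_pair (q : Nat.Primes) {c : primeLocalGaloisGroup q → D.Mod →+ QUnits q}
    (hc : IsCocycle (locRes D q) c) (hlev : IsLevelConstant₁ (primeLocalToGlobal q) c) :
    ∃ h : presKer (G := D.Gal) v →+ QUnits q, IsPair (locRes D q) v h c := by
  obtain ⟨F, hF, hcF⟩ := hlev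
  refine exists_pair_map (locRes D q) hc fun x => ?_
  haveI := hF
  haveI : FiniteDimensional ℚ (F ⊔ D.field : IntermediateField ℚ Qbar) :=
    IntermediateField.finiteDimensional_sup _ _
  haveI : NumberField (F ⊔ D.field : IntermediateField ℚ Qbar) := ⟨⟩
  let act : primeLocalGaloisGroup q →* (PadicAlgCl (q : ℕ) ≃+* PadicAlgCl (q : ℕ)) :=
    MonoidHom.mk' (fun τ => AlgEquiv.toRingEquiv
      (show PadicAlgCl (q : ℕ) ≃ₐ[ℚ_[(q : ℕ)]] PadicAlgCl (q : ℕ) from τ)) fun _ _ => rfl
  have hK : ∀ τ ∈ (locRes D q).ker, (locRes D q τ)⁻¹ • x = x := fun τ hτ => by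
    rw [MonoidHom.mem_ker.1 hτ, inv_one, one_smul]
  refine (exists_coboundary_of_embedding act
    ((padicEmbedding (q : ℕ)).toRingHom.comp (algebraMap (F ⊔ D.field : IntermediateField ℚ Qbar) Qbar))
    (locRes D q).ker (fun τ => Additive.toMul (c τ x)) (fun σ hσ τ _ => ?_)
    fun σ _ τ _ h => ?_).elim fun β hβ => ?_
  · have := hc σ τ x
    rw [hK σ hσ] at this
    rw [this, add_comm]
    try rfl
  · have hfix : primeLocalToGlobal q (σ⁻¹ * τ) ∈ F.fixingSubgroup := by
      rw [IntermediateField.mem_fixingSubgroup_iff]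
      intro y hy
      refine (padicEmbedding (q : ℕ)).toRingHom.injective ?_
      have hy' := h ⟨y, le_sup_left (b := D.field) hy⟩
      refine (padicEmbedding_localGaloisToGlobal (q : ℕ) (σ⁻¹ * τ) y).trans ?_
      show act (σ⁻¹ * τ) (padicEmbedding (q : ℕ) y) = _
      rw [map_mul, RingAut.mul_apply,
        show act τ (padicEmbedding (q : ℕ) y) = act σ (padicEmbedding (q : ℕ) y) from hy'.symm,
        ← RingAut.mul_apply, ← map_mul, inv_mul_cancel, map_one]
      rfl
    have := hcF σ (σ⁻¹ * τ) hfix
    rw [mul_inv_cancel_left] at this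
    rw [this]
  · refine ⟨Additive.ofMul β, fun τ hτ => ?_⟩
    have h1 : QUnits.toField (τ • (Additive.ofMul β : QUnits q)) =
        QUnits.toField (c τ x + Additive.ofMul β) := hβ τ hτ
    rw [eq_sub_iff_add_eq]
    exact (QUnits.toField_injective h1).symm

/-- Cocycles at infinity have pairs. -/
theorem exists_inf_pair {c : ↥archimedeanDecomposition → D.Mod →+ CUnits}
    (hc : IsCocycle (infRes D) c) :
    ∃ h : presKer (G := D.Gal) v →+ CUnits, IsPair (infRes D) v h c := by
  refine exists_pair_map (infRes D) hc fun x => ?_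
  obtain ⟨i, hi⟩ := IsAlgClosed.exists_eq_mul_self (-1 : Qbar)
  let Fi : IntermediateField ℚ Qbar := IntermediateField.adjoin ℚ {i}
  haveI : FiniteDimensional ℚ Fi := IntermediateField.adjoin.finiteDimensional
    ((AlgebraicClosure.isAlgebraic ℚ).isAlgebraic i).isIntegral
  haveI : NumberField Fi := ⟨⟩
  refine (exists_coboundary_of_embedding archimedeanAct
    (complexEmbedding.toRingHom.comp (algebraMap Fi Qbar))
    (infRes D).ker (fun τ => Additive.toMul (c τ x)) (fun σ hσ τ _ => ?_)
    fun σ _ τ _ h => ?_).elim fun β hβ => ?_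
  · have := hc σ τ x
    rw [MonoidHom.mem_ker.1 hσ, inv_one, one_smul] at this
    rw [this, add_comm]
    try rfl
  · have h' := h ⟨i, IntermediateField.mem_adjoin_simple_self ℚ i⟩
    have e : complexEmbedding (archimedeanLoc σ i) = complexEmbedding (archimedeanLoc τ i) := by
      rw [complexEmbedding_archimedean, complexEmbedding_archimedean]; exact h'
    have hne : complexConjugation i ≠ i := fun he => by
      have h1 := complexEmbedding_complexConjugation i
      rw [he] at h1
      obtain ⟨r, hr⟩ := Complex.conj_eq_iff_real.1 h1.symm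
      have h2 : complexEmbedding i * complexEmbedding i = -1 := by
        rw [← map_mul, ← hi, map_neg, map_one]
      rw [hr, ← Complex.ofReal_mul] at h2
      have := congrArg Complex.re h2
      simp at this
      nlinarith [mul_self_nonneg r]
    have e' := complexEmbedding.toRingHom.injective e
    suffices hστ : σ = τ by rw [hστ]
    apply Subtype.ext
    rcases mem_archimedeanDecomposition σ.2 with hs | hs <;>
      rcases mem_archimedeanDecomposition τ.2 with ht | ht <;>
      simp [archimedeanLoc, hs, ht] at e' ⊢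
    · exact absurd e'.symm hne
    · exact absurd e' hne
  · refine ⟨Additive.ofMul β, fun τ hτ => ?_⟩
    have h1 : CUnits.toField (τ • (Additive.ofMul β : CUnits)) =
        CUnits.toField (c τ x + Additive.ofMul β) := hβ τ hτ
    rw [eq_sub_iff_add_eq]
    exact (CUnits.toField_injective h1).symm

end FermatLib.CFT.GWKummer
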