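import Fermat.Agent.CFT.GWUnramified
import Fermat.Agent.Galois.CyclotomicFrobenius

/-!
The setting of global duality: `ℚ̄ˣ` as a Galois module, roots of unity,
and a finite Galois level splitting a module and containing the `p`-th roots of unity.
-/

set_option autoImplicit false

open CategoryTheory groupCohomology ExtCitation NumberField

namespace FermatLib.CFT.GWKummer

open FermatLib

local notation "Γℚ" => AlgebraicClosure ℚ ≃ₐ[ℚ] AlgebraicClosure ℚ
local notation "Qbar" => AlgebraicClosure ℚ

/-- The multiplicative group of `ℚ̄`, written additively. -/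
def QbarU : Type := Additive (AlgebraicClosure ℚ)ˣ

noncomputable instance : AddCommGroup QbarU := inferInstanceAs (AddCommGroup (Additive Qbarˣ))

/-- Wrap a unit. -/
def QbarU.of (x : (AlgebraicClosure ℚ)ˣ) : QbarU := Additive.ofMul x

/-- The underlying element. -/
def QbarU.el (x : QbarU) : AlgebraicClosure ℚ :=
  ((Additive.toMul x : (AlgebraicClosure ℚ)ˣ) : AlgebraicClosure ℚ)

@[simp] theorem QbarU.el_zero : (0 : QbarU).el = 1 := rfl
@[simp] theorem QbarU.el_add (x y : QbarU) : (x + y).el = x.el * y.el := rfl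
@[simp] theorem QbarU.el_of (x : Qbarˣ) : (QbarU.of x).el = x := rfl

theorem QbarU.el_ne_zero (x : QbarU) : x.el ≠ 0 := Units.ne_zero _

theorem QbarU.el_injective : Function.Injective QbarU.el :=
  fun _ _ h => Additive.toMul.injective (Units.ext h)

theorem QbarU.el_nsmul (n : ℕ) (x : QbarU) : (n • x).el = x.el ^ n := by
  induction n with
  | zero => simp
  | succ n ih => rw [succ_nsmul, QbarU.el_add, ih, pow_succ]

noncomputable instance qbarUAction : DistribMulAction Γℚ QbarU where
  smul σ x := QbarU.of (Units.map (σ : Qbar →* Qbar) (Additive.toMul x))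
  one_smul x := QbarU.el_injective rfl
  mul_smul σ τ x := QbarU.el_injective rfl
  smul_zero σ := QbarU.el_injective (map_one σ)
  smul_add σ x y := QbarU.el_injective (map_mul σ _ _)

@[simp] theorem QbarU.el_smul (σ : Γℚ) (x : QbarU) : (σ • x).el = σ x.el := rfl

noncomputable instance qbarUDivisible : DivisibleBy QbarU ℤ := by
  refine divisibleByOfSMulRightSurj _ _ fun {n} hn x => ?_
  have hn' : n.natAbs ≠ 0 := Int.natAbs_ne_zero.2 hn
  obtain ⟨y, hy⟩ := IsAlgClosed.exists_pow_nat_eq x.el (Nat.pos_of_ne_zero hn')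
  have hy0 : y ≠ 0 := fun h => x.el_ne_zero (by rw [← hy, h, zero_pow hn'])
  have key : n.natAbs • QbarU.of (Units.mk0 y hy0) = x :=
    QbarU.el_injective ((QbarU.el_nsmul _ _).trans hy)
  rcases Int.natAbs_eq n with h | h
  · refine ⟨QbarU.of (Units.mk0 y hy0), ?_⟩
    show n • QbarU.of (Units.mk0 y hy0) = x
    rw [h, natCast_zsmul, key]
  · refine ⟨-QbarU.of (Units.mk0 y hy0), ?_⟩
    show n • -QbarU.of (Units.mk0 y hy0) = x
    rw [h, neg_zsmul, zsmul_neg, neg_neg, natCast_zsmul, key]

variable {p : ℕ} [Fact p.Prime]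

section root

variable {ζ : AlgebraicClosure ℚ} (hζ : IsPrimitiveRoot ζ p)

/-- A primitive root as an element of `QbarU`. -/
noncomputable def rootU : QbarU := QbarU.of (hζ.isUnit (Fact.out : p.Prime).ne_zero).unit

theorem el_rootU : (rootU hζ).el = ζ := rfl

theorem nsmul_rootU : (p : ℤ) • rootU hζ = 0 := by
  rw [natCast_zsmul]
  exact QbarU.el_injective (by rw [QbarU.el_nsmul, el_rootU, hζ.pow_eq_one, QbarU.el_zero])

/-- `a ↦ ζ ^ a`. -/
noncomputable def rootHom : ZMod p →+ QbarU :=
  ZMod.lift p ⟨zmultiplesHom QbarU (rootU hζ), nsmul_rootU hζ⟩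

theorem rootHom_natCast (n : ℕ) : rootHom hζ (n : ZMod p) = n • rootU hζ := by
  rw [← Int.cast_natCast, rootHom, ZMod.lift_coe]
  show (n : ℤ) • rootU hζ = _
  rw [natCast_zsmul]

theorem el_rootHom (a : ZMod p) : (rootHom hζ a).el = ζ ^ a.val := by
  haveI : NeZero p := ⟨(Fact.out : p.Prime).ne_zero⟩
  conv_lhs => rw [← ZMod.natCast_zmod_val a]
  rw [rootHom_natCast, QbarU.el_nsmul, el_rootU]

theorem rootHom_injective : Function.Injective (rootHom hζ) := fun a b h => by
  haveI : NeZero p := ⟨(Fact.out : p.Prime).ne_zero⟩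
  refine ZMod.val_injective p (hζ.pow_inj (ZMod.val_lt a) (ZMod.val_lt b) ?_)
  rw [← el_rootHom hζ, ← el_rootHom hζ, h]

/-- Elements killed by `p` are powers of `ζ`. -/
theorem exists_rootHom_eq {x : QbarU} (hx : p • x = 0) : ∃ a, rootHom hζ a = x := by
  haveI : NeZero p := ⟨(Fact.out : p.Prime).ne_zero⟩
  have h : x.el ^ p = 1 := by rw [← QbarU.el_nsmul, hx, QbarU.el_zero]
  obtain ⟨i, hi, e⟩ := hζ.eq_pow_of_pow_eq_one h
  exact ⟨(i : ZMod p), QbarU.el_injective (by
    rw [el_rootHom, ZMod.val_natCast_of_lt hi, e])⟩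

theorem smul_rootHom (σ : Γℚ) (a : ZMod p) :
    σ • rootHom hζ a = rootHom hζ ((cycloChar p σ : ZMod p) * a) := by
  haveI : NeZero p := ⟨(Fact.out : p.Prime).ne_zero⟩
  refine QbarU.el_injective ?_
  rw [QbarU.el_smul, el_rootHom, el_rootHom, map_pow,
    Galois.apply_eq_pow_modCycloChar p σ hζ.pow_eq_one, ← pow_mul,
    ← Galois.modCycloChar_eq_cycloChar p, ZMod.val_mul, ← pow_mod_natCast_eq hζ]
where
  pow_mod_natCast_eq {ζ : AlgebraicClosure ℚ} {p n : ℕ} (hζ : IsPrimitiveRoot ζ p) :
      ζ ^ n = ζ ^ (n % p) := by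
    conv_lhs => rw [← Nat.mod_add_div n p, pow_add, pow_mul, hζ.pow_eq_one, one_pow, mul_one]

end root

variable (M : Rep (ZMod p) Γℚ)

/-- A finite Galois level over which `M` and `μ_p` are trivial, with no real place for `p = 2`. -/
structure Level (S : Finset Nat.Primes) where
  /-- The field. -/
  field : IntermediateField ℚ (AlgebraicClosure ℚ)
  finite : FiniteDimensional ℚ field
  galois : IsGalois ℚ field
  unramified : field.IsUnramifiedOutside S
  split : ∀ σ ∈ field.fixingSubgroup, M.ρ σ = 1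
  cyclo : ∀ σ ∈ field.fixingSubgroup, cycloChar p σ = 1
  complex : p = 2 → ∃ x : field, x * x = -1

variable {M} {S : Finset Nat.Primes}

theorem exists_level [FiniteDimensional (ZMod p) M]
    (hsm : ∀ m : M, ∃ F : IntermediateField ℚ Qbar, FiniteDimensional ℚ F ∧
      ∀ s ∈ F.fixingSubgroup, M.ρ s m = m)
    (hpS : pPrime p ∈ S) (hur : GWUnramifiedOutside M S) : Nonempty (Level M S) := by
  haveI : NeZero p := ⟨(Fact.out : p.Prime).ne_zero⟩
  have hpdvd : ∀ q : Nat.Primes, q ∉ S → ¬ (q : ℕ) ∣ p := fun q hq h => hq (by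
    rwa [show q = pPrime p from Subtype.ext ((Nat.prime_dvd_prime_iff_eq q.2 Fact.out).1 h)])
  obtain ⟨i, hi⟩ := IsAlgClosed.exists_eq_mul_self (-1 : Qbar)
  have h4 : IsPrimitiveRoot i 4 := by
    have hi2 : i ^ 2 = -1 := by rw [sq, ← hi]
    refine (IsPrimitiveRoot.iff_orderOf).2 (orderOf_eq_iff (by norm_num) |>.2 ⟨?_, ?_⟩)
    · rw [show 4 = 2 * 2 from rfl, pow_mul, hi2]; ring
    · intro m hm hm0 h
      interval_cases m
      · rw [pow_one] at h; rw [h] at hi; norm_num at hi
      · rw [hi2] at h; norm_num at h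
      · rw [pow_succ, hi2] at h
        have : i = -1 := by linear_combination -h
        rw [this] at hi; norm_num at hi
  let K : Subgroup Γℚ := (MonoidHom.ker M.ρ) ⊓ (cycloChar p).ker ⊓
    (if p = 2 then (Galois.modCycloChar 4).ker else ⊤)
  let b := Module.finBasis (ZMod p) M
  choose Fm hFm hFm' using fun k => hsm (b k)
  obtain ⟨Fp, hFp, hFp'⟩ := Galois.exists_finite_level_modCycloChar p
  obtain ⟨F4, hF4, hF4'⟩ := Galois.exists_finite_level_modCycloChar 4
  haveI : FiniteDimensional ℚ (⨆ k, Fm k : IntermediateField ℚ Qbar) :=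
    IntermediateField.finiteDimensional_iSup_of_finite
  let F := (⨆ k, Fm k) ⊔ Fp ⊔ F4
  haveI : FiniteDimensional ℚ F := IntermediateField.finiteDimensional_sup _ _
  have hle : F.fixingSubgroup ≤ K := by
    intro σ hσ
    refine ⟨⟨?_, ?_⟩, ?_⟩
    · show M.ρ σ = 1
      refine b.ext fun k => ?_
      exact hFm' k σ (IntermediateField.fixingSubgroup_antitone
        ((le_iSup Fm k).trans (le_sup_left.trans le_sup_left)) hσ)
    · show cycloChar p σ = 1
      rw [← Galois.modCycloChar_eq_cycloChar p]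
      exact hFp' σ (IntermediateField.fixingSubgroup_antitone
        (le_sup_right.trans le_sup_left) hσ)
    · split_ifs
      · exact hF4' σ (IntermediateField.fixingSubgroup_antitone le_sup_right hσ)
      · trivial
  haveI hN : K.Normal := by
    haveI : (if p = 2 then (Galois.modCycloChar 4).ker else ⊤ : Subgroup Γℚ).Normal := by
      split_ifs <;> infer_instance
    infer_instance
  have hopen : IsOpen (K : Set Γℚ) :=
    Subgroup.isOpen_mono hle (IntermediateField.fixingSubgroup_isOpen F)
  haveI : IsGalois ℚ Qbar :=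
    haveI : IsAlgClosure ℚ Qbar := ⟨inferInstance, AlgebraicClosure.isAlgebraic ℚ⟩
    IsAlgClosure.isGalois ℚ Qbar
  have hfix : (IntermediateField.fixedField K).fixingSubgroup = K :=
    InfiniteGalois.fixingSubgroup_fixedField ⟨K, Subgroup.isClosed_of_isOpen K hopen⟩
  have hFK : IntermediateField.fixedField K ≤ F := by
    rw [← InfiniteGalois.fixedField_fixingSubgroup F]
    exact fun x hx s => hx ⟨s.1, hle s.2⟩
  have hfin : FiniteDimensional ℚ (IntermediateField.fixedField K) :=
    FiniteDimensional.of_injective (IntermediateField.inclusion hFK).toLinearMap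
      (IntermediateField.inclusion_injective hFK)
  refine ⟨⟨IntermediateField.fixedField K, hfin, ?_, ⟨hfin, ?_⟩, ?_, ?_, fun h2 => ?_⟩⟩
  · have h0 : IsGalois ℚ _ := (InfiniteGalois.normal_iff_isGalois (IntermediateField.fixedField K)).1
      (by rw [hfix]; exact hN)
    exact { to_normal := by convert h0.to_normal using 2; exact Subsingleton.elim _ _ }
  · intro q hq A hA σ hσ
    rw [hfix]
    refine ⟨⟨hur q hq A hA σ hσ, ?_⟩, ?_⟩
    · show cycloChar p σ = 1
      rw [← Galois.modCycloChar_eq_cycloChar p]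
      exact Galois.modCycloChar_inertia q.2 (hpdvd q hq) hA hσ
    · split_ifs with h2
      · refine Galois.modCycloChar_inertia q.2 (fun h => hpdvd q hq ?_) hA hσ
        rw [h2]
        exact q.2.dvd_of_dvd_pow (show (q : ℕ) ∣ 2 ^ 2 from h)
      · trivial
  · intro σ hσ; rw [hfix] at hσ; exact hσ.1.1
  · intro σ hσ; rw [hfix] at hσ; exact hσ.1.2
  · have hmem : i ∈ IntermediateField.fixedField K := by
      rw [IntermediateField.mem_fixedField_iff]
      rintro σ ⟨-, hσ⟩
      rw [if_pos h2] at hσ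
      rw [Galois.apply_eq_pow_modCycloChar 4 σ h4.pow_eq_one,
        show Galois.modCycloChar 4 σ = 1 from hσ, Units.val_one, show ((1 : ZMod 4)).val = 1 from rfl, pow_one]
    exact ⟨⟨i, hmem⟩, Subtype.ext hi.symm⟩

namespace Level

variable (D : Level M S)

instance : FiniteDimensional ℚ D.field := D.finite
instance : IsGalois ℚ D.field := D.galois
instance instNormal : Normal ℚ D.field := D.galois.to_normal
instance : NumberField D.field where

/-- The Galois group of the level. -/
abbrev Gal : Type := D.field ≃ₐ[ℚ] D.field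

/-- Restriction to the level. -/
noncomputable def res : Γℚ →* D.Gal :=
  AlgEquiv.restrictNormalHom (F := ℚ) (K₁ := Qbar) D.field

theorem coe_res (σ : Γℚ) (x : D.field) : ((D.res σ x : D.field) : Qbar) = σ x :=
  AlgEquiv.restrictNormal_commutes σ D.field x

theorem res_surjective : Function.Surjective D.res :=
  haveI : Normal ℚ Qbar :=
    haveI : IsAlgClosure ℚ Qbar := ⟨inferInstance, AlgebraicClosure.isAlgebraic ℚ⟩
    IsAlgClosure.normal ℚ Qbar
  AlgEquiv.restrictNormalHom_surjective Qbar

theorem res_eq_one_iff (σ : Γℚ) : D.res σ = 1 ↔ σ ∈ D.field.fixingSubgroup := by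
  rw [IntermediateField.mem_fixingSubgroup_iff]
  constructor
  · intro h x hx
    have := D.coe_res σ ⟨x, hx⟩
    rw [h] at this
    exact this.symm
  · intro h
    exact AlgEquiv.ext fun x => Subtype.ext ((D.coe_res σ x).trans (h x x.2))

theorem res_eq_res {σ τ : Γℚ} (h : D.res σ = D.res τ) :
    M.ρ σ = M.ρ τ ∧ cycloChar p σ = cycloChar p τ := by
  have h1 : τ⁻¹ * σ ∈ D.field.fixingSubgroup := by
    rw [← res_eq_one_iff, map_mul, map_inv, h, inv_mul_cancel]
  refine ⟨?_, ?_⟩
  · conv_lhs => rw [← mul_inv_cancel_left τ σ, map_mul, D.split _ h1, mul_one]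
  · conv_lhs => rw [← mul_inv_cancel_left τ σ, map_mul, D.cyclo _ h1, mul_one]

theorem isPrimitiveRoot {ζ : Qbar} (hζ : IsPrimitiveRoot ζ p) :
    ∃ ζ₀ : D.field, IsPrimitiveRoot ζ₀ p ∧ (ζ₀ : Qbar) = ζ := by
  haveI : IsGalois ℚ Qbar :=
    haveI : IsAlgClosure ℚ Qbar := ⟨inferInstance, AlgebraicClosure.isAlgebraic ℚ⟩
    IsAlgClosure.isGalois ℚ Qbar
  haveI : NeZero p := ⟨(Fact.out : p.Prime).ne_zero⟩
  haveI : Fact (1 < p) := ⟨(Fact.out : p.Prime).one_lt⟩
  have hmem : ζ ∈ D.field := by
    rw [← InfiniteGalois.fixedField_fixingSubgroup D.field, IntermediateField.mem_fixedField_iff]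
    intro σ hσ
    rw [Galois.apply_eq_pow_modCycloChar p σ hζ.pow_eq_one, Galois.modCycloChar_eq_cycloChar p,
      D.cyclo σ hσ, Units.val_one, ZMod.val_one, pow_one]
  exact ⟨⟨ζ, hmem⟩, IsPrimitiveRoot.coe_submonoidClass_iff.1 hζ, rfl⟩

theorem isTotallyComplex (h2 : p = 2) : IsTotallyComplex D.field := by
  obtain ⟨x, hx⟩ := D.complex h2
  refine ⟨fun v => InfinitePlace.not_isReal_iff_isComplex.1 fun hv => ?_⟩
  have h := ComplexEmbedding.isReal_iff.1 (InfinitePlace.isReal_iff.1 hv)
  have h1 : v.embedding x * v.embedding x = -1 := by rw [← map_mul, hx, map_neg, map_one]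
  have h3 : starRingEnd ℂ (v.embedding x) = v.embedding x := RingHom.congr_fun h x
  obtain ⟨r, hr⟩ := Complex.conj_eq_iff_real.1 h3
  rw [hr, ← Complex.ofReal_mul] at h1
  have := congrArg Complex.re h1
  simp at this
  nlinarith [mul_self_nonneg r]

/-- The module `M` as a module of the Galois group of the level. -/
def Mod (_D : Level M S) : Type := M

noncomputable instance : AddCommGroup D.Mod := inferInstanceAs (AddCommGroup M)

noncomputable instance instAction : DistribMulAction D.Gal D.Mod where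
  smul g m := (M.ρ (Function.surjInv D.res_surjective g) (m : M) : M)
  one_smul m := by
    show M.ρ (Function.surjInv D.res_surjective 1) (m : M) = (m : M)
    rw [(D.res_eq_res (τ := 1) (by rw [Function.surjInv_eq D.res_surjective, map_one])).1, map_one]
    rfl
  mul_smul g h m := by
    show M.ρ (Function.surjInv D.res_surjective (g * h)) (m : M) =
      M.ρ (Function.surjInv D.res_surjective g) (M.ρ (Function.surjInv D.res_surjective h) (m : M))
    rw [(D.res_eq_res (τ := Function.surjInv D.res_surjective g *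
      Function.surjInv D.res_surjective h) (by
        rw [map_mul, Function.surjInv_eq D.res_surjective, Function.surjInv_eq D.res_surjective,
          Function.surjInv_eq D.res_surjective])).1, map_mul]
    rfl
  smul_zero g := map_zero (M.ρ (Function.surjInv D.res_surjective g))
  smul_add g a b := map_add (M.ρ (Function.surjInv D.res_surjective g)) _ _

/-- The identity onto the module of the level. -/
def toMod : M ≃+ D.Mod := AddEquiv.refl M

theorem res_smul (σ : Γℚ) (m : M) : D.res σ • D.toMod m = D.toMod (M.ρ σ m) := by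
  show M.ρ (Function.surjInv D.res_surjective (D.res σ)) m = M.ρ σ m
  rw [(D.res_eq_res (Function.surjInv_eq D.res_surjective (D.res σ))).1]

theorem nsmul_mod (x : D.Mod) : p • x = 0 := by
  obtain ⟨m, rfl⟩ := D.toMod.surjective x
  rw [← map_nsmul, ← Nat.cast_smul_eq_nsmul (ZMod p) p m, ZMod.natCast_self, zero_smul, map_zero]

instance [FiniteDimensional (ZMod p) M] : Finite D.Mod :=
  haveI : Finite M := Module.finite_of_finite (ZMod p)
  inferInstanceAs (Finite M)

end Level

end FermatLib.CFT.GWKummer
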