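import Fermat.Agent.CFT.GWGlobCompat

/-!
Splitting an idele of roots of unity by places, and Galois levels for finitely many cocycles.
-/

set_option autoImplicit false

set_option linter.style.haveILetI false

open CategoryTheory groupCohomology ExtCitation NumberField

namespace FermatLib.CFT.GWKummer

open FermatLib.CFT

local notation "Γℚ" => AlgebraicClosure ℚ ≃ₐ[ℚ] AlgebraicClosure ℚ
local notation "Qbar" => AlgebraicClosure ℚ

section split

variable {L : Type} [Field L] [NumberField L]

/-- The part of an idele at `q`. -/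
noncomputable def primeProj (q : Nat.Primes) : Idele L →+ Idele L where
  toFun f := singlePrime q (fun ψ => f.fin q ψ) fun τ ψ => f.2.1 q τ ψ
  map_zero' := (eq_singlePrime _ (fun _ => rfl) (fun _ _ _ => rfl) fun _ => rfl).symm
  map_add' a b := by
    refine (eq_singlePrime _ (fun ψ => ?_) (fun r hr ψ => ?_) fun χ => ?_).symm
    · show (singlePrime q _ _).fin q ψ + (singlePrime q _ _).fin q ψ = _
      rw [singlePrime_apply, singlePrime_apply]
      rfl
    · show (singlePrime q _ _).fin r ψ + (singlePrime q _ _).fin r ψ = 0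
      rw [singlePrime_apply_of_ne _ _ hr, singlePrime_apply_of_ne _ _ hr, add_zero]
    · show (singlePrime q _ _).inf χ + (singlePrime q _ _).inf χ = 0
      rw [singlePrime_inf, singlePrime_inf, add_zero]

/-- The part of an idele at infinity. -/
noncomputable def infProj : Idele L →+ Idele L where
  toFun f := singleInf (fun χ => f.inf χ) fun χ => f.2.2.2 χ
  map_zero' := idele_ext (fun _ _ => rfl) fun _ => rfl
  map_add' _ _ := idele_ext (fun _ _ => by
      show QUnits.toField 0 = QUnits.toField (0 + 0)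
      rw [add_zero]) fun _ => rfl

theorem primeProj_apply (q : Nat.Primes) (f : Idele L) (ψ : Emb L q) :
    (primeProj q f).fin q ψ = f.fin q ψ :=
  singlePrime_apply (fun ψ => f.fin q ψ) (fun τ ψ => f.2.1 q τ ψ) ψ

theorem primeProj_apply_of_ne (q : Nat.Primes) (f : Idele L) {r : Nat.Primes} (hr : r ≠ q)
    (ψ : Emb L r) : (primeProj q f).fin r ψ = 0 :=
  singlePrime_apply_of_ne (fun ψ => f.fin q ψ) (fun τ ψ => f.2.1 q τ ψ) hr ψ

theorem primeProj_mem (q : Nat.Primes) (f : Idele L) : primeProj q f ∈ primeIdeles L q :=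
  ⟨fun _ hr ψ => primeProj_apply_of_ne q f hr ψ, funext fun _ => rfl⟩

theorem infProj_mem (f : Idele L) : infProj f ∈ infIdeles L := fun _ _ => rfl

theorem primeProj_smul (q : Nat.Primes) (g : L ≃ₐ[ℚ] L) (f : Idele L) :
    primeProj q (g • f) = g • primeProj q f := by
  refine idele_ext (fun r ψ => congrArg QUnits.toField ?_) fun χ => rfl
  rcases eq_or_ne r q with rfl | hr
  · rw [primeProj_apply]
    exact (primeProj_apply r f (ψ.preComp g)).symm
  · rw [primeProj_apply_of_ne q _ hr]
    exact (primeProj_apply_of_ne q f hr (ψ.preComp g)).symm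

theorem infProj_smul (g : L ≃ₐ[ℚ] L) (f : Idele L) : infProj (g • f) = g • infProj f :=
  idele_ext (fun _ _ => rfl) fun _ => rfl

/-- The value at an embedding, as a homomorphism. -/
noncomputable def finVal {q : Nat.Primes} (ψ : Emb L q) : Idele L →+ QUnits q where
  toFun f := f.fin q ψ
  map_zero' := rfl
  map_add' _ _ := rfl

theorem finVal_apply {q : Nat.Primes} (ψ : Emb L q) (f : Idele L) : finVal ψ f = f.fin q ψ := rfl

/-- An idele of roots of unity is the sum of its parts at `S` and infinity, up to units outside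
`S`. -/
theorem sub_sum_proj_mem (S : Finset Nat.Primes) {f : Idele L}
    (hf : ∀ q (ψ : Emb L q), f.fin q ψ ∈ QUnits.unitGroup q) :
    f - ∑ q ∈ S, primeProj q f - infProj f ∈ unitIdelesOutside L (S : Set Nat.Primes) := by
  classical
  refine ⟨fun q ψ => ?_, funext fun χ => ?_⟩
  · have hval : finVal ψ (f - ∑ r ∈ S, primeProj r f - infProj f) =
        if q ∈ S then 0 else f.fin q ψ := by
      rw [map_sub, map_sub, map_sum, show finVal ψ (infProj f) = 0 from rfl, sub_zero,
        finVal_apply]
      by_cases hq : q ∈ S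
      · rw [if_pos hq, Finset.sum_eq_single_of_mem q hq fun r _ hr =>
          (show finVal ψ (primeProj r f) = 0 from primeProj_apply_of_ne r f hr.symm ψ),
          finVal_apply, primeProj_apply, sub_self]
      · rw [if_neg hq, Finset.sum_eq_zero fun r hr =>
          (show finVal ψ (primeProj r f) = 0 from
            primeProj_apply_of_ne r f (fun h => hq (by rw [h]; exact hr)) ψ), sub_zero]
    refine ⟨?_, fun hq => hval.trans (if_pos (Finset.mem_coe.1 hq))⟩
    show finVal ψ (f - ∑ r ∈ S, primeProj r f - infProj f) ∈ _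
    rw [hval]
    split_ifs
    · exact zero_mem _
    · exact hf q ψ
  · let iv : Idele L →+ CUnits :=
      { toFun := fun f => f.inf χ, map_zero' := rfl, map_add' := fun _ _ => rfl }
    show iv (f - ∑ r ∈ S, primeProj r f - infProj f) = 0
    rw [map_sub, map_sub, map_sum, Finset.sum_eq_zero fun r _ =>
      (show iv (primeProj r f) = 0 from rfl), sub_zero]
    exact sub_self _

end split

section levels

variable {p : ℕ} [Fact p.Prime] {M : Rep (ZMod p) Γℚ} {S : Finset Nat.Primes} (D : Level M S)

local notation "M'" => M.dualTwist (cycloChar p)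

theorem res_dualTwist_eq_one {σ : Γℚ} (hσ : σ ∈ D.field.fixingSubgroup) (f : M') :
    (M').ρ σ f = f := by
  rw [Rep.dualTwist_ρ_apply, D.cyclo σ hσ, D.split σ⁻¹ (inv_mem hσ)]
  exact (one_smul _ _).trans (LinearMap.comp_id _)

/-- The zero set of a cocycle on a subgroup acting trivially. -/
def trivialKer {N : Rep (ZMod p) Γℚ} (H : Subgroup Γℚ) (hH : ∀ σ ∈ H, N.ρ σ = 1)
    (c : cocycles₁ N) : Subgroup Γℚ where
  carrier := {σ | σ ∈ H ∧ c σ = 0}
  one_mem' := ⟨one_mem H, cocycles₁_map_one c⟩
  mul_mem' := fun {a b} ha hb => ⟨mul_mem ha.1 hb.1, by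
    rw [(mem_cocycles₁_iff c).1 c.2, hH a ha.1, hb.2, ha.2, map_zero, add_zero]⟩
  inv_mem' := fun {a} ha => ⟨inv_mem ha.1, by
    have h3 := (mem_cocycles₁_iff c).1 c.2 a⁻¹ a
    rw [inv_mul_cancel, cocycles₁_map_one, ha.2, map_zero, zero_add] at h3
    exact h3.symm⟩

theorem trivialKer_normal {N : Rep (ZMod p) Γℚ} (H : Subgroup Γℚ) [H.Normal]
    (hH : ∀ σ ∈ H, N.ρ σ = 1) (c : cocycles₁ N) : (trivialKer H hH c).Normal := by
  refine ⟨fun s hs g => ⟨Subgroup.Normal.conj_mem inferInstance s hs.1 g, ?_⟩⟩
  have h3 := (mem_cocycles₁_iff c).1 c.2 g g⁻¹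
  rw [mul_inv_cancel, cocycles₁_map_one] at h3
  rw [(mem_cocycles₁_iff c).1 c.2, (mem_cocycles₁_iff c).1 c.2, hs.2, map_zero, zero_add, map_mul,
    hH s hs.1, mul_one]
  exact h3.symm

theorem eq_zero_of_levelConstant {X : Type*} [Zero X] {c : Γℚ → X} (h1 : c 1 = 0)
    {F : IntermediateField ℚ Qbar} (hc : ∀ g s, s ∈ F.fixingSubgroup → c (g * s) = c g) :
    ∀ s ∈ F.fixingSubgroup, c s = 0 := fun s hs => by
  have := hc 1 s hs
  rwa [one_mul, h1] at this

/-- A Galois level unramified outside `S`, containing the level, killing two cocycles. -/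
theorem exists_common_level {x : cocycles₁ M} {y : cocycles₁ M'} (hx : IsLevelConstantS₁ S x)
    (hy : IsLevelConstantS₁ S y) :
    ∃ (L : IntermediateField ℚ Qbar) (_ : NumberField L) (_ : IsGalois ℚ L),
      D.field ≤ L ∧ L.IsUnramifiedOutside S ∧ ∀ s ∈ L.fixingSubgroup, x s = 0 ∧ y s = 0 := by
  obtain ⟨Fx, hFx, hx'⟩ := hx
  obtain ⟨Fy, hFy, hy'⟩ := hy
  have : IsGalois ℚ Qbar :=
    haveI : IsAlgClosure ℚ Qbar := ⟨inferInstance, AlgebraicClosure.isAlgebraic ℚ⟩
    IsAlgClosure.isGalois ℚ Qbar
  haveI hH : D.field.fixingSubgroup.Normal := by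
    have e : D.field.fixingSubgroup = D.res.ker :=
      Subgroup.ext fun σ => (D.res_eq_one_iff σ).symm
    rw [e]
    infer_instance
  let K := trivialKer D.field.fixingSubgroup D.split x ⊓
    trivialKer D.field.fixingSubgroup (fun σ hσ => LinearMap.ext (res_dualTwist_eq_one D hσ)) y
  haveI hN : K.Normal := by
    haveI := trivialKer_normal D.field.fixingSubgroup D.split x
    haveI := trivialKer_normal D.field.fixingSubgroup
      (fun σ hσ => LinearMap.ext (res_dualTwist_eq_one D hσ)) y
    exact Subgroup.normal_inf_normal _ _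
  let F := D.field ⊔ Fx ⊔ Fy
  have hF : F.IsUnramifiedOutside S := (D.unramified.sup hFx).sup hFy
  have hle : F.fixingSubgroup ≤ K := fun σ hσ => by
    have h1 : σ ∈ D.field.fixingSubgroup :=
      IntermediateField.fixingSubgroup_antitone (le_sup_left.trans le_sup_left) hσ
    exact ⟨⟨h1, eq_zero_of_levelConstant (cocycles₁_map_one x) hx' σ
        (IntermediateField.fixingSubgroup_antitone (le_sup_right.trans le_sup_left) hσ)⟩,
      h1, eq_zero_of_levelConstant (cocycles₁_map_one y) hy' σ
        (IntermediateField.fixingSubgroup_antitone le_sup_right hσ)⟩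
  haveI := hF.1
  have hopen : IsOpen (K : Set Γℚ) :=
    Subgroup.isOpen_mono hle (IntermediateField.fixingSubgroup_isOpen F)
  have hfix : (IntermediateField.fixedField K).fixingSubgroup = K :=
    InfiniteGalois.fixingSubgroup_fixedField ⟨K, Subgroup.isClosed_of_isOpen K hopen⟩
  have hKF : IntermediateField.fixedField K ≤ F := by
    rw [← InfiniteGalois.fixedField_fixingSubgroup F]
    exact fun x hx s => hx ⟨s.1, hle s.2⟩
  have hfin : FiniteDimensional ℚ (IntermediateField.fixedField K) :=
    FiniteDimensional.of_injective (IntermediateField.inclusion hKF).toLinearMap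
      (IntermediateField.inclusion_injective hKF)
  refine ⟨IntermediateField.fixedField K, @NumberField.mk _ _ inferInstance hfin, ?_, ?_,
    hF.of_le hKF, fun s hs => ?_⟩
  · have h0 : IsGalois ℚ _ := (InfiniteGalois.normal_iff_isGalois
      (IntermediateField.fixedField K)).1 (by rw [hfix]; exact hN)
    exact { to_normal := by convert h0.to_normal using 2; exact Subsingleton.elim _ _ }
  · rw [← InfiniteGalois.fixedField_fixingSubgroup D.field]
    exact fun z hz s => hz ⟨s.1, s.2.1.1⟩
  · rw [hfix] at hs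
    exact ⟨hs.1.2, hs.2.2⟩

end levels

end FermatLib.CFT.GWKummer
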