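import Fermat.Agent.CFT.GWGlobClass
import Fermat.Agent.CFT.IdeleLocalField
import Fermat.Agent.CFT.FlatPointsChar

/-!
Continuous classes at `q` of the dual twist are `Ext¹` into the ideles at `q`.
-/

set_option autoImplicit false
set_option maxSynthPendingDepth 3

open CategoryTheory groupCohomology ExtCitation NumberField

namespace FermatLib.CFT.GWLocEuler

open FermatLib.CFT FermatLib.CFT.GWKummer

local notation "Γℚ" => AlgebraicClosure ℚ ≃ₐ[ℚ] AlgebraicClosure ℚ
local notation "Qbar" => AlgebraicClosure ℚ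

noncomputable instance qUnitsDivisible (q : Nat.Primes) : DivisibleBy (QUnits q) ℤ :=
  have : DivisibleBy (QUnits q) ℕ := divisibleByOfSMulRightSurj _ _ fun {n} hn x => by
    obtain ⟨z, hz⟩ := IsAlgClosed.exists_pow_nat_eq x.toField (Nat.pos_of_ne_zero hn)
    have hz0 : z ≠ 0 := by
      rintro rfl
      rw [zero_pow hn] at hz
      exact x.toField_ne_zero hz.symm
    refine ⟨Additive.ofMul (Units.mk0 z hz0), QUnits.toField_injective ?_⟩
    simpa [QUnits.toField, toMul_nsmul] using hz
  AddGroup.divisibleByIntOfDivisibleByNat _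

/-- A local automorphism. -/
abbrev locAut {q : Nat.Primes} (τ : primeLocalGaloisGroup q) : Gloc q := τ

theorem apply_padicEmbedding (q : Nat.Primes) (τ : primeLocalGaloisGroup q) {x : Qbar}
    {F : IntermediateField ℚ Qbar} (hτ : primeLocalToGlobal q τ ∈ F.fixingSubgroup) (hx : x ∈ F) :
    (locAut τ) (padicEmbedding (q : ℕ) x) = padicEmbedding (q : ℕ) x :=
  (padicEmbedding_localGaloisToGlobal (q : ℕ) τ x).symm.trans
    (congrArg (padicEmbedding (q : ℕ)) ((IntermediateField.mem_fixingSubgroup_iff _ _).1 hτ x hx))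

variable {p : ℕ} [Fact p.Prime] {M : Rep (ZMod p) Γℚ} {S : Finset Nat.Primes} (D : Level M S)
  {ζ : AlgebraicClosure ℚ} (hζ : IsPrimitiveRoot ζ p)

local notation "M'" => M.dualTwist (cycloChar p)

include hζ in
/-- A root of an element of the completion is fixed by the automorphisms of a finite level. -/
theorem exists_fixing_field (q : Nat.Primes) {y : PadicAlgCl (q : ℕ)} (hy0 : y ≠ 0)
    (hy : y ^ p ∈ localField (⊥ : Subgroup D.Gal) (stdEmb D.field q)) :
    ∃ F : IntermediateField ℚ Qbar, FiniteDimensional ℚ F ∧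
      ∀ τ : primeLocalGaloisGroup q, primeLocalToGlobal q τ ∈ F.fixingSubgroup →
        (locAut τ) y = y := by
  have hp : p.Prime := Fact.out
  set a := y ^ p with ha
  have ha0 : a ≠ 0 := pow_ne_zero _ hy0
  have hc : 0 < ‖(p : PadicAlgCl (q : ℕ))‖ := norm_pos_iff.2 (Nat.cast_ne_zero.2 hp.ne_zero)
  have hc1 : ‖(p : PadicAlgCl (q : ℕ))‖ ≤ 1 := IsUltrametricDist.norm_natCast_le_one _ p
  set ε := ‖(p : PadicAlgCl (q : ℕ))‖ / 2 with hε
  have hε0 : 0 < ε := half_pos hc
  have hε1 : ε < 1 := by rw [hε]; linarith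
  have hεp : ε ^ (p - 1) < ‖(p : PadicAlgCl (q : ℕ))‖ :=
    (pow_le_of_le_one hε0.le hε1.le (by have := hp.two_le; omega)).trans_lt (half_lt_self hc)
  obtain ⟨x, -, hx⟩ := exists_norm_sub_lt_fixed (⊥ : Subgroup D.Gal) (stdEmb D.field q) hy
    (mul_pos (pow_pos hε0 p) (norm_pos_iff.2 ha0))
  have hnx : ‖stdEmb D.field q x‖ = ‖a‖ := norm_eq_of_norm_sub_lt (hx.trans_le
    (mul_le_of_le_one_left (norm_nonneg _) (pow_le_one₀ hε0.le hε1.le)))
  obtain ⟨x', hx'⟩ := IsAlgClosed.exists_pow_nat_eq (x : Qbar) hp.pos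
  let F : IntermediateField ℚ Qbar := D.field ⊔ IntermediateField.adjoin ℚ {x', ζ}
  have : FiniteDimensional ℚ (IntermediateField.adjoin ℚ ({x', ζ} : Set Qbar)) :=
    IntermediateField.finiteDimensional_adjoin fun z _ =>
      ((AlgebraicClosure.isAlgebraic ℚ).isAlgebraic z).isIntegral
  refine ⟨F, IntermediateField.finiteDimensional_sup _ _, fun τ hτ => ?_⟩
  set w := padicEmbedding (q : ℕ) x' with hw
  have hwp : w ^ p = stdEmb D.field q x := by
    rw [hw, ← map_pow, hx']; rfl
  have hx0 : stdEmb D.field q x ≠ 0 := fun h => ha0 (norm_eq_zero.1 (by rw [← hnx, h, norm_zero]))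
  have hw0 : w ≠ 0 := fun h => hx0 (by rw [← hwp, h, zero_pow hp.ne_zero])
  have hζq : IsPrimitiveRoot (padicEmbedding (q : ℕ) ζ) p :=
    hζ.map_of_injective (padicEmbedding (q : ℕ)).toRingHom.injective
  have hr : ‖(y / w) ^ p - 1‖ ≤ ε ^ p := by
    rw [div_pow, ← ha, hwp, div_sub_one hx0, norm_div, hnx, norm_sub_rev,
      div_le_iff₀ (norm_pos_iff.2 ha0)]
    exact hx.le
  obtain ⟨i, -, hi⟩ := FlatPoints.exists_root_near hp hζq (y / w) hε0.le hr
  set z := w * padicEmbedding (q : ℕ) ζ ^ i with hz
  have hζn : ‖padicEmbedding (q : ℕ) ζ ^ i‖ = 1 := by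
    rw [norm_pow, (pow_eq_one_iff_of_nonneg (norm_nonneg _) hp.ne_zero).1
      (by rw [← norm_pow, hζq.pow_eq_one, norm_one]), one_pow]
  have hζ0 : padicEmbedding (q : ℕ) ζ ^ i ≠ 0 := norm_ne_zero_iff.1 (by rw [hζn]; exact one_ne_zero)
  set r := y / z with hrdef
  have hr1 : ‖r - 1‖ ≤ ε := by
    have e : r - 1 = (y / w - padicEmbedding (q : ℕ) ζ ^ i) / padicEmbedding (q : ℕ) ζ ^ i := by
      rw [hrdef, hz]; field_simp
    rw [e, norm_div, hζn, div_one]
    exact hi
  have hrn : ‖r‖ = 1 := by
    rw [norm_eq_of_norm_sub_lt (b := (1 : PadicAlgCl (q : ℕ))) (by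
      rw [norm_one]; exact hr1.trans_lt hε1), norm_one]
  have hr0 : r ≠ 0 := norm_ne_zero_iff.1 (by rw [hrn]; exact one_ne_zero)
  have hτz : (locAut τ) z = z := by
    rw [hz, map_mul, map_pow, apply_padicEmbedding q τ hτ (le_sup_right (a := D.field)
      (IntermediateField.subset_adjoin _ _ (Set.mem_insert x' {ζ}))),
      apply_padicEmbedding q τ hτ (le_sup_right (a := D.field)
      (IntermediateField.subset_adjoin _ _ (Set.mem_insert_of_mem x' rfl)))]
  have hres : GWKummer.locRes D q τ = 1 :=
    (D.res_eq_one_iff _).2 (IntermediateField.fixingSubgroup_antitone le_sup_left hτ)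
  have hτa : (locAut τ) a = a :=
    (mem_localField_iff _ _ a).1 hy (locAut τ) ⟨1, Subgroup.one_mem _, by
      rw [stdEmb_postComp, ← hres]⟩
  have hpow : ((locAut τ) r / r) ^ p = 1 := by
    rw [div_pow, ← map_pow, hrdef, div_pow, map_div₀, ← ha, hτa, map_pow, hτz,
      div_self (div_ne_zero ha0 (pow_ne_zero _ (mul_ne_zero hw0 hζ0)))]
  have hclose : ‖(locAut τ) r / r - 1‖ ≤ ε := by
    rw [div_sub_one hr0, norm_div, hrn, div_one]
    have e : (locAut τ) r - r = (locAut τ) (r - 1) + (1 - r) := by rw [map_sub, map_one]; ring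
    rw [e]
    refine (IsUltrametricDist.norm_add_le_max _ _).trans (max_le ?_ ?_)
    · rwa [norm_gloc]
    · rwa [norm_sub_rev]
  have hone := FlatPoints.eq_one_of_pow_prime_eq_one hp hpow
    ((pow_le_pow_left₀ (norm_nonneg _) hclose _).trans_lt hεp)
  have hτr : (locAut τ) r = r := (div_eq_one_iff_eq hr0).1 hone
  rw [show y = r * z by rw [hrdef, div_mul_cancel₀ _ (mul_ne_zero hw0 hζ0)], map_mul, hτr, hτz]

section main

variable {ι : Type} [Fintype ι] {v : ι → D.Mod} (q : Nat.Primes)

/-- An element supported at `q` is determined by its values at the standard embedding. -/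
theorem primeIdeles_ext {f f' : primeIdeles D.field q}
    (h : ∀ g : D.Gal, localValue D.field q (g • (f : Idele D.field)) =
      localValue D.field q (g • (f' : Idele D.field))) : f = f' := by
  refine Subtype.ext (idele_ext (fun r ψ => congrArg QUnits.toField ?_)
    fun χ => congrArg CUnits.toField ((congrFun f.2.2 χ).trans (congrFun f'.2.2 χ).symm))
  by_cases hr : r = q
  · subst hr
    have := eq_zero_of_localValue D r (f := (f : Idele D.field) - f') (fun g => by
      rw [smul_sub, map_sub, h, sub_self]) ψ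
    exact sub_eq_zero.1 this
  · exact (f.2.1 r hr ψ).trans (f'.2.1 r hr ψ).symm

/-- The local value of a map into the ideles at `q`. -/
noncomputable def locVal (h : equivHom D.Gal (presKer (G := D.Gal) v) (primeIdeles D.field q)) :
    presKer (G := D.Gal) v →+ QUnits q :=
  (localValue D.field q).comp
    ((primeIdeles D.field q).subtype.comp (h : presKer (G := D.Gal) v →+ primeIdeles D.field q))

theorem locVal_apply (h : equivHom D.Gal (presKer (G := D.Gal) v) (primeIdeles D.field q))
    (x : presKer (G := D.Gal) v) :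
    locVal D q h x = localValue D.field q
      ((h : presKer (G := D.Gal) v →+ primeIdeles D.field q) x : Idele D.field) := rfl

/-- `w` is the class of `h`. -/
def LocRel (h : equivHom D.Gal (presKer (G := D.Gal) v) (primeIdeles D.field q))
    (w : H1 (Rep.res (primeLocalToGlobal q) M')) : Prop :=
  ∃ c : cocycles₁ (Rep.res (primeLocalToGlobal q) M'),
    IsLevelConstant₁ (primeLocalToGlobal q) c ∧
    IsPair (locRes D q) v (locVal D q h)
      (dualFamily D hζ (toQUnits q) (c : primeLocalGaloisGroup q → M')) ∧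
    (H1π _).hom c = w

variable (hv : Function.Surjective (presMap (G := D.Gal) v))

include hv in
theorem locRel_exists (h : equivHom D.Gal (presKer (G := D.Gal) v) (primeIdeles D.field q)) :
    ∃ w, LocRel D hζ q h w := by
  have hh : IsEquivariant (locRes D q) v (locVal D q h) := fun σ x => by
    rw [locVal_apply, locVal_apply, h.2]
    exact localValue_smul D q σ _
  obtain ⟨c', hc'⟩ := exists_pair_cocycle (locRes D q) hv hh
  choose g hg using fun σ => exists_toQUnits_muMap D hζ q (c' σ)
  have hc'g : c' = dualFamily D hζ (toQUnits q) g := funext fun σ => (hg σ).symm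
  have hcoc : g ∈ cocycles₁ (Rep.res (primeLocalToGlobal q) M') :=
    (mem_cocycles₁_iff (A := Rep.res (primeLocalToGlobal q) M') _).2 fun σ τ => by
      refine muMap_injective D hζ (AddMonoidHom.ext fun x => toQUnits_injective q ?_)
      have := hc'.isCocycle (locRes D q) hv σ τ x
      rw [hc'g] at this
      refine this.trans ?_
      show _ = toQUnits q (muMap D hζ ((M').ρ (primeLocalToGlobal q σ) (g τ) + g σ) x)
      rw [map_add, AddMonoidHom.add_apply, map_add, muMap_ρ, toQUnits_smul]
      rfl
  refine ⟨_, ⟨g, hcoc⟩, ?_, hc'g ▸ hc', rfl⟩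
  obtain ⟨e, he, hec⟩ := hc'
  classical
  have hfix : ∀ k : ι × D.Gal, ∃ F : IntermediateField ℚ Qbar, FiniteDimensional ℚ F ∧
      ∀ τ : primeLocalGaloisGroup q, primeLocalToGlobal q τ ∈ F.fixingSubgroup →
        τ • e (presSingle k.1 k.2) = e (presSingle k.1 k.2) := fun k => by
    let x : presKer (G := D.Gal) v := ⟨p • presSingle k.1 k.2, nsmul_mem_presKer D.nsmul_mod _⟩
    have h1 : (p • e (presSingle k.1 k.2)).toField ∈
        localField (⊥ : Subgroup D.Gal) (stdEmb D.field q) := by
      rw [← map_nsmul, he x]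
      exact fin_mem_localField_bot _ _
    have h2 : (p • e (presSingle k.1 k.2)).toField = (e (presSingle k.1 k.2)).toField ^ p := by
      simp [QUnits.toField, toMul_nsmul]
    obtain ⟨F, hF, hFy⟩ := exists_fixing_field D hζ q (QUnits.toField_ne_zero _) (h2 ▸ h1)
    exact ⟨F, hF, fun τ hτ => QUnits.toField_injective (hFy τ hτ)⟩
  choose Fk hFk hFy using hfix
  have : ∀ k, FiniteDimensional ℚ (Fk k) := hFk
  have : FiniteDimensional ℚ (⨆ k, Fk k : IntermediateField ℚ Qbar) :=
    IntermediateField.finiteDimensional_iSup_of_finite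
  let F : IntermediateField ℚ Qbar := D.field ⊔ ⨆ k, Fk k
  refine ⟨F, IntermediateField.finiteDimensional_sup _ _, fun σ t ht => ?_⟩
  have hres : locRes D q t = 1 :=
    (D.res_eq_one_iff _).2 (IntermediateField.fixingSubgroup_antitone le_sup_left ht)
  have ht' : ∀ b, t • e b = e b := fun b => DFunLike.congr_fun (free_ext
    (F := (DistribSMul.toAddMonoidHom (QUnits q) t).comp e) (F' := e) fun i g =>
      hFy (i, g) t (IntermediateField.fixingSubgroup_antitone
        ((le_iSup Fk (i, g)).trans le_sup_right) ht)) b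
  refine muMap_injective D hζ (AddMonoidHom.ext fun x => toQUnits_injective q ?_)
  obtain ⟨b, rfl⟩ := hv x
  show dualFamily D hζ (toQUnits q) g (σ * t) _ = dualFamily D hζ (toQUnits q) g σ _
  rw [← hc'g, hec, hec, map_mul, hres, mul_one, mul_smul, ht']

include hv in
theorem locRel_unique {h : equivHom D.Gal (presKer (G := D.Gal) v) (primeIdeles D.field q)}
    {w w'} (H : LocRel D hζ q h w) (H' : LocRel D hζ q h w') : w = w' := by
  obtain ⟨c, -, hc, rfl⟩ := H
  obtain ⟨c', -, hc', rfl⟩ := H'
  exact H1π_eq_of_isCohomologous D hζ (f := primeLocalToGlobal q) (φ := toQUnits q)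
    (toQUnits_smul q) (toQUnits_injective q) (exists_toQUnits_muMap D hζ q)
    (hc.cohomologous (locRes D q) hv hc')

theorem locRel_add {h h' : equivHom D.Gal (presKer (G := D.Gal) v) (primeIdeles D.field q)}
    {w w'} (H : LocRel D hζ q h w) (H' : LocRel D hζ q h' w') :
    LocRel D hζ q (h + h') (w + w') := by
  obtain ⟨c, ⟨E, hE, hEc⟩, hc, rfl⟩ := H
  obtain ⟨c', ⟨E', hE', hEc'⟩, hc', rfl⟩ := H'
  have := hE; have := hE'
  refine ⟨c + c', ⟨E ⊔ E', IntermediateField.finiteDimensional_sup _ _, fun g s hs => ?_⟩, ?_, map_add _ _ _⟩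
  · show c (g * s) + c' (g * s) = c g + c' g
    rw [hEc g s (IntermediateField.fixingSubgroup_antitone le_sup_left hs),
      hEc' g s (IntermediateField.fixingSubgroup_antitone le_sup_right hs)]
  · have e1 : locVal D q (h + h') = locVal D q h + locVal D q h' :=
      AddMonoidHom.ext fun x => map_add (localValue D.field q) _ _
    have e2 : dualFamily D hζ (toQUnits q) ((c + c' : cocycles₁ _) : primeLocalGaloisGroup q → M') =
        dualFamily D hζ (toQUnits q) (c : primeLocalGaloisGroup q → M') +
          dualFamily D hζ (toQUnits q) (c' : primeLocalGaloisGroup q → M') :=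
      funext fun σ => AddMonoidHom.ext fun x => by
        show toQUnits q (muMap D hζ (c σ + c' σ) x) = _
        rw [map_add, AddMonoidHom.add_apply, map_add]
        rfl
    rw [e1, e2]
    exact hc.add _ hc'

/-- The class of a map from relations into the ideles at `q`. -/
noncomputable def locClass :
    equivHom D.Gal (presKer (G := D.Gal) v) (primeIdeles D.field q) →+
      H1 (Rep.res (primeLocalToGlobal q) M') :=
  AddMonoidHom.mk' (fun h => (locRel_exists D hζ q hv h).choose) fun h h' =>
    locRel_unique D hζ q hv (locRel_exists D hζ q hv (h + h')).choose_spec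
      (locRel_add D hζ q (locRel_exists D hζ q hv h).choose_spec
        (locRel_exists D hζ q hv h').choose_spec)

theorem locClass_spec (h : equivHom D.Gal (presKer (G := D.Gal) v) (primeIdeles D.field q)) :
    LocRel D hζ q h (locClass D hζ q hv h) :=
  (locRel_exists D hζ q hv h).choose_spec

theorem range_locClass :
    (locClass D hζ q hv).range =
      (continuousH1 (primeLocalToGlobal q) (Rep.res (primeLocalToGlobal q) M')).toAddSubgroup := by
  ext w
  constructor
  · rintro ⟨h, rfl⟩
    obtain ⟨c, hc, -, e⟩ := locClass_spec D hζ q hv h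
    exact e ▸ H1π_mem_continuousH1 _ _ hc
  · intro hw
    obtain ⟨c, hc, rfl⟩ := (mem_continuousH1_iff _ _ _).1 hw
    obtain ⟨h₀, hpair⟩ := exists_local_pair D v q
      (isCocycle_dualFamily D hζ (primeLocalToGlobal q) (toQUnits q) (toQUnits_smul q) c)
      (hc.comp fun a => (toQUnits q).comp (muMap D hζ a))
    have hh : ∀ (τ : Gloc q) x, h₀ (locRes D q τ • x) = τ.onUnits (h₀ x) :=
      hpair.equivariant
    let F : presKer (G := D.Gal) v →+ primeIdeles D.field q :=
      (localLift (stdEmb D.field q) (locRes D q) (stdEmb_postComp D q) h₀ hh).codRestrict _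
        (localLift_mem _ _ _ h₀ hh)
    refine ⟨⟨F, fun g x => Subtype.ext (localLift_smul _ _ _ h₀ hh g x)⟩,
      locRel_unique D hζ q hv (locClass_spec D hζ q hv _) ⟨c, hc, ?_, rfl⟩⟩
    refine Eq.mp (congrArg (fun k => IsPair (locRes D q) v k _) (AddMonoidHom.ext fun x => ?_)) hpair
    exact (localLift_fin_self (stdEmb D.field q) (locRes D q) (stdEmb_postComp D q) h₀ hh x).symm

omit hv in
/-- Restrictions of equivariant maps from the free module have class zero. -/
theorem locRel_restr (F : equivHom D.Gal (Pres ι D.Gal) (primeIdeles D.field q)) :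
    LocRel D hζ q (presRestr D.Gal (primeIdeles D.field q) v F) 0 := by
  have e0 : dualFamily D hζ (toQUnits q) (fun _ : primeLocalGaloisGroup q => (0 : M')) = 0 :=
    funext fun σ => AddMonoidHom.ext fun x => by
      show toQUnits q (muMap D hζ 0 x) = 0
      rw [map_zero, AddMonoidHom.zero_apply, map_zero]
  have hG : IsEquivariantFree (locRes D q) ((localValue D.field q).comp
      ((primeIdeles D.field q).subtype.comp (F : Pres ι D.Gal →+ primeIdeles D.field q))) :=
    fun σ b => (congrArg (localValue D.field q) (congrArg Subtype.val (F.2 (locRes D q σ) b))).trans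
      (localValue_smul D q σ _)
  exact ⟨0, ⟨⊥, inferInstance, fun _ _ _ => rfl⟩,
    Eq.mpr (congrArg (IsPair (locRes D q) v _) e0) (isPair_restr (locRes D q) hG), map_zero _⟩

theorem ker_locClass :
    (locClass D hζ q hv).ker = (presRestr D.Gal (primeIdeles D.field q) v).range := by
  ext h
  constructor
  · intro h0
    obtain ⟨c, -, hpair, hcw⟩ := locClass_spec D hζ q hv h
    have h1 := isCohomologous_dualFamily D hζ (primeLocalToGlobal q) (toQUnits q) (toQUnits_smul q)
      (c := c) (c' := 0) (hcw.trans ((AddMonoidHom.mem_ker.1 h0).trans (map_zero _).symm))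
    have e0 : dualFamily D hζ (toQUnits q)
        ((0 : cocycles₁ (Rep.res (primeLocalToGlobal q) M')) : primeLocalGaloisGroup q → M') = 0 := by
      exact dualFamily_zero D hζ _ _
    rw [e0] at h1
    obtain ⟨F₀, hF₀, hF₀x⟩ := hpair.exists_extension (locRes D q) h1
    let F : Pres ι D.Gal →+ primeIdeles D.field q :=
      (localLift (stdEmb D.field q) (locRes D q) (stdEmb_postComp D q) F₀ hF₀).codRestrict _
        (localLift_mem _ _ _ F₀ hF₀)
    refine ⟨⟨F, fun g x => Subtype.ext (localLift_smul _ _ _ F₀ hF₀ g x)⟩, Subtype.ext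
      (AddMonoidHom.ext fun x => primeIdeles_ext D q fun g => ?_)⟩
    show localValue D.field q (g • localLift _ _ _ F₀ hF₀ (x : Pres ι D.Gal)) = _
    refine (congrArg (localValue D.field q) (localLift_smul (stdEmb D.field q) (locRes D q)
      (stdEmb_postComp D q) F₀ hF₀ g (x : Pres ι D.Gal)).symm).trans ?_
    refine (localLift_fin_self (stdEmb D.field q) (locRes D q) (stdEmb_postComp D q) F₀ hF₀
      _).trans ((hF₀x (g • x)).trans ?_)
    rw [locVal_apply, h.2]
    rfl
  · rintro ⟨F, rfl⟩
    exact AddMonoidHom.mem_ker.2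
      (locRel_unique D hζ q hv (locClass_spec D hζ q hv _) (locRel_restr D hζ q F))

include hζ hv in
/-- Local Kummer theory: `Ext¹` into the ideles at `q` has the size of the continuous classes of
the dual twist. -/
theorem natCard_continuousH1_dualTwist :
    Nat.card (continuousH1 (primeLocalToGlobal q) (Rep.res (primeLocalToGlobal q) M')) =
      Nat.card (ext1 D.Gal (primeIdeles D.field q) v) := by
  have e : (presRestr D.Gal (primeIdeles D.field q) v).range = (locClass D hζ q hv).ker :=
    (ker_locClass D hζ q hv).symm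
  exact Nat.card_congr (((QuotientAddGroup.quotientAddEquivOfEq e).trans
    (QuotientAddGroup.quotientKerEquivRange _)).trans
    (AddEquiv.addSubgroupCongr (range_locClass D hζ q hv))).symm.toEquiv

end main

end FermatLib.CFT.GWLocEuler
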