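import Fermat.Agent.CFT.GWEvalExact

/-!
Endomorphisms of finite order prime to the characteristic are determined by their characteristic
polynomials, and so are their spaces of intertwiners.
-/

set_option autoImplicit false

open Polynomial Module

namespace FermatLib.CFT

section conj

variable {k : Type*} [Field k]

/-- An irreducible factor of the characteristic polynomial kills a nonzero vector. -/
theorem exists_aeval_apply_eq_zero {W : Type*} [AddCommGroup W] [Module k W]
    [FiniteDimensional k W] (f : Module.End k W) {r : k[X]} (hr : Irreducible r)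
    (hdvd : r ∣ f.charpoly) : ∃ w : W, w ≠ 0 ∧ aeval f r w = 0 := by
  classical
  let b := Module.Free.chooseBasis k W
  let ι := Module.Free.ChooseBasisIndex k W
  let A : Matrix ι ι k := LinearMap.toMatrix b b f
  let K := AlgebraicClosure k
  let AK : Matrix ι ι K := A.map (algebraMap k K)
  obtain ⟨l, hl⟩ : ∃ l : K, aeval l r = 0 :=
    IsAlgClosed.exists_aeval_eq_zero K r hr.degree_pos.ne'
  have hroot : (LinearMap.charpoly (Matrix.toLin' AK)).IsRoot l := by
    rw [Matrix.charpoly_toLin', show AK.charpoly = A.charpoly.map (algebraMap k K) from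
      Matrix.charpoly_map A (algebraMap k K), LinearMap.charpoly_toMatrix f b, IsRoot, eval_map,
      ← aeval_def]
    exact aeval_eq_zero_of_dvd_aeval_eq_zero hdvd hl
  obtain ⟨u, hu⟩ := ((Module.End.hasEigenvalue_iff_isRoot_charpoly _ l).2 hroot).exists_hasEigenvector
  have h1 : aeval (Matrix.toLin' AK) (r.map (algebraMap k K)) u = 0 := by
    rw [Module.End.aeval_apply_of_hasEigenvector hu, eval_map, ← aeval_def, hl, zero_smul]
  have h2 : (aeval AK (r.map (algebraMap k K))).det = 0 := by
    by_contra hne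
    have hinj : Function.Injective (Matrix.toLin' (aeval AK (r.map (algebraMap k K)))) :=
      Matrix.mulVec_injective_iff_isUnit.2 ((Matrix.isUnit_iff_isUnit_det _).2 (Ne.isUnit hne))
    refine hu.2 (hinj ?_)
    rw [map_zero, show Matrix.toLin' (aeval AK (r.map (algebraMap k K))) =
      aeval (Matrix.toLin' AK) (r.map (algebraMap k K)) from
        (aeval_algHom_apply (Matrix.toLinAlgEquiv' : Matrix ι ι K ≃ₐ[K] _).toAlgHom AK _).symm]
    exact h1
  have h3 : (aeval A r).det = 0 := by
    apply (algebraMap k K).injective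
    rw [map_zero, RingHom.map_det, ← h2]
    congr 1
    rw [aeval_map_algebraMap]
    exact (aeval_algHom_apply ((Algebra.ofId k K).mapMatrix) A r).symm
  have h4 : LinearMap.det (aeval f r) = 0 := by
    rw [← LinearMap.det_toMatrix b, ← h3]
    congr 1
    exact (aeval_algHom_apply (LinearMap.toMatrixAlgEquiv b).toAlgHom f r).symm
  obtain ⟨w, hw, hw0⟩ := Submodule.exists_mem_ne_zero_of_ne_bot
    (LinearMap.bot_lt_ker_of_det_eq_zero h4).ne'
  exact ⟨w, hw0, hw⟩

/-- `q ↦ q(f) w`. -/
noncomputable def polyOrbit {W : Type*} [AddCommGroup W] [Module k W] (f : Module.End k W)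
    (w : W) : k[X] →ₗ[k] W :=
  (LinearMap.applyₗ w).comp (aeval f).toLinearMap

theorem polyOrbit_X_mul {W : Type*} [AddCommGroup W] [Module k W] (f : Module.End k W) (w : W)
    (q : k[X]) : polyOrbit f w (X * q) = f (polyOrbit f w q) := by
  show aeval f (X * q) w = f (aeval f q w)
  rw [map_mul, aeval_X]
  rfl

theorem ker_polyOrbit {W : Type*} [AddCommGroup W] [Module k W] (f : Module.End k W) {w : W}
    (hw : w ≠ 0) {r : k[X]} (hr : Irreducible r) (h : aeval f r w = 0) (q : k[X]) :
    q ∈ LinearMap.ker (polyOrbit f w) ↔ r ∣ q := by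
  constructor
  · intro hq
    by_contra hndvd
    obtain ⟨a, b, hab⟩ : IsCoprime r q := hr.coprime_iff_not_dvd.2 hndvd
    apply hw
    have : aeval f (a * r + b * q) w = 0 := by
      rw [map_add, map_mul, map_mul, LinearMap.add_apply, Module.End.mul_apply,
        Module.End.mul_apply, h, show aeval f q w = 0 from hq, map_zero, map_zero, add_zero]
    rwa [hab, map_one, Module.End.one_apply] at this
  · rintro ⟨c, rfl⟩
    show aeval f (r * c) w = 0
    rw [mul_comm, map_mul, Module.End.mul_apply, h, map_zero]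

theorem range_polyOrbit_invariant {W : Type*} [AddCommGroup W] [Module k W] (f : Module.End k W)
    (w : W) : LinearMap.range (polyOrbit f w) ∈ f.invtSubmodule := by
  rw [Module.End.mem_invtSubmodule_iff_forall_mem_of_mem]
  rintro _ ⟨q, rfl⟩
  exact ⟨X * q, polyOrbit_X_mul f w q⟩

theorem charpoly_isCompl {W : Type*} [AddCommGroup W] [Module k W] [FiniteDimensional k W]
    (f : Module.End k W) {A B : Submodule k W} (h : IsCompl A B) (hA : ∀ x ∈ A, f x ∈ A)
    (hB : ∀ x ∈ B, f x ∈ B) :
    f.charpoly = (f.restrict hA).charpoly * (f.restrict hB).charpoly := by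
  rw [← LinearMap.charpoly_prodMap, ← (Submodule.prodEquivOfIsCompl A B h).charpoly_conj
    ((f.restrict hA).prodMap (f.restrict hB))]
  congr 1
  refine LinearMap.ext fun x => ?_
  obtain ⟨⟨a, b⟩, rfl⟩ := (Submodule.prodEquivOfIsCompl A B h).surjective x
  rw [LinearEquiv.conj_apply_apply, LinearEquiv.symm_apply_apply]
  simp [LinearMap.restrict_apply]

theorem exists_conj_aux (n : ℕ) :
    ∀ {W₁ W₂ : Type*} [AddCommGroup W₁] [Module k W₁] [FiniteDimensional k W₁] [AddCommGroup W₂]
      [Module k W₂] [FiniteDimensional k W₂] (f₁ : Module.End k W₁) (f₂ : Module.End k W₂),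
      finrank k W₁ ≤ n → f₁.IsSemisimple → f₂.IsSemisimple → f₁.charpoly = f₂.charpoly →
      ∃ e : W₁ ≃ₗ[k] W₂, ∀ x, e (f₁ x) = f₂ (e x) := by
  induction n with
  | zero =>
    intro W₁ W₂ _ _ _ _ _ _ f₁ f₂ hn _ _ heq
    have h2 : finrank k W₂ = finrank k W₁ := by
      rw [← f₂.charpoly_natDegree, ← heq, f₁.charpoly_natDegree]
    haveI : Subsingleton W₁ := (Module.finrank_zero_iff (R := k)).1 (by omega)
    haveI : Subsingleton W₂ := (Module.finrank_zero_iff (R := k)).1 (by omega)
    exact ⟨0, fun x => Subsingleton.elim _ _⟩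
  | succ n ih =>
    intro W₁ W₂ _ _ _ _ _ _ f₁ f₂ hn hs₁ hs₂ heq
    by_cases hle : finrank k W₁ ≤ n
    · exact ih f₁ f₂ hle hs₁ hs₂ heq
    obtain ⟨r, hr, hdvd⟩ := Polynomial.exists_irreducible_of_natDegree_pos (f := f₁.charpoly)
      (by rw [f₁.charpoly_natDegree]; omega)
    obtain ⟨w₁, hw₁, h₁⟩ := exists_aeval_apply_eq_zero f₁ hr hdvd
    obtain ⟨w₂, hw₂, h₂⟩ := exists_aeval_apply_eq_zero f₂ hr (heq ▸ hdvd)
    have hker : LinearMap.ker (polyOrbit f₁ w₁) = LinearMap.ker (polyOrbit f₂ w₂) :=
      SetLike.ext fun q => by rw [ker_polyOrbit f₁ hw₁ hr h₁, ker_polyOrbit f₂ hw₂ hr h₂]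
    let eU : LinearMap.range (polyOrbit f₁ w₁) ≃ₗ[k] LinearMap.range (polyOrbit f₂ w₂) :=
      (polyOrbit f₁ w₁).quotKerEquivRange.symm.trans
        ((Submodule.quotEquivOfEq _ _ hker).trans (polyOrbit f₂ w₂).quotKerEquivRange)
    have heU : ∀ q, (eU ⟨polyOrbit f₁ w₁ q, q, rfl⟩ : W₂) = polyOrbit f₂ w₂ q := fun q => by
      rw [show (⟨polyOrbit f₁ w₁ q, q, rfl⟩ : LinearMap.range (polyOrbit f₁ w₁)) =
        (polyOrbit f₁ w₁).quotKerEquivRange (Submodule.Quotient.mk q) from rfl]
      simp [eU]
    obtain ⟨C₁, hC₁, hcompl₁⟩ :=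
      Module.End.isSemisimple_iff.1 hs₁ _ (range_polyOrbit_invariant f₁ w₁)
    obtain ⟨C₂, hC₂, hcompl₂⟩ :=
      Module.End.isSemisimple_iff.1 hs₂ _ (range_polyOrbit_invariant f₂ w₂)
    have hU₁ := (Module.End.mem_invtSubmodule_iff_forall_mem_of_mem (f := f₁)).1
      (range_polyOrbit_invariant f₁ w₁)
    have hU₂ := (Module.End.mem_invtSubmodule_iff_forall_mem_of_mem (f := f₂)).1
      (range_polyOrbit_invariant f₂ w₂)
    have hC₁' := (Module.End.mem_invtSubmodule_iff_forall_mem_of_mem (f := f₁)).1 hC₁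
    have hC₂' := (Module.End.mem_invtSubmodule_iff_forall_mem_of_mem (f := f₂)).1 hC₂
    have heU' : ∀ u, eU (f₁.restrict hU₁ u) = f₂.restrict hU₂ (eU u) := by
      rintro ⟨_, q, rfl⟩
      apply Subtype.ext
      rw [show f₁.restrict hU₁ ⟨polyOrbit f₁ w₁ q, q, rfl⟩ = ⟨polyOrbit f₁ w₁ (X * q), X * q, rfl⟩
        from Subtype.ext (polyOrbit_X_mul f₁ w₁ q).symm, heU]
      show _ = f₂ _
      rw [Submodule.subtype_apply, heU, polyOrbit_X_mul]
    have hUpoly : (f₁.restrict hU₁).charpoly = (f₂.restrict hU₂).charpoly := by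
      rw [← eU.charpoly_conj (f₁.restrict hU₁)]
      congr 1
      refine LinearMap.ext fun y => ?_
      rw [LinearEquiv.conj_apply_apply, heU', eU.apply_symm_apply]
    have hCpoly : (f₁.restrict hC₁').charpoly = (f₂.restrict hC₂').charpoly := by
      rw [charpoly_isCompl f₁ hcompl₁ hU₁ hC₁', charpoly_isCompl f₂ hcompl₂ hU₂ hC₂', hUpoly] at heq
      exact mul_left_cancel₀ (LinearMap.charpoly_monic _).ne_zero heq
    have hdim : finrank k C₁ ≤ n := by
      have hpos : 0 < finrank k (LinearMap.range (polyOrbit f₁ w₁)) := by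
        rw [Module.finrank_pos_iff]
        exact ⟨⟨⟨w₁, 1, by simp [polyOrbit]⟩, 0, fun h => hw₁ (congrArg Subtype.val h)⟩⟩
      have := Submodule.finrank_add_eq_of_isCompl hcompl₁
      omega
    obtain ⟨eC, heC⟩ := ih (f₁.restrict hC₁') (f₂.restrict hC₂') hdim
      (hs₁.restrict hC₁) (hs₂.restrict hC₂) hCpoly
    refine ⟨(Submodule.prodEquivOfIsCompl _ C₁ hcompl₁).symm.trans
      ((eU.prodCongr eC).trans (Submodule.prodEquivOfIsCompl _ C₂ hcompl₂)), fun x => ?_⟩
    obtain ⟨⟨u, c⟩, rfl⟩ := (Submodule.prodEquivOfIsCompl _ C₁ hcompl₁).surjective x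
    have e1 : f₁ (Submodule.prodEquivOfIsCompl _ C₁ hcompl₁ (u, c)) =
        Submodule.prodEquivOfIsCompl _ C₁ hcompl₁ (f₁.restrict hU₁ u, f₁.restrict hC₁' c) := by
      simp
    rw [e1]
    simp only [LinearEquiv.trans_apply, LinearEquiv.symm_apply_apply, LinearEquiv.prodCongr_apply,
      heU', heC]
    simp

/-- Semisimple endomorphisms with the same characteristic polynomial are conjugate. -/
theorem exists_conj_of_charpoly_eq {W₁ W₂ : Type*} [AddCommGroup W₁] [Module k W₁]
    [FiniteDimensional k W₁] [AddCommGroup W₂] [Module k W₂] [FiniteDimensional k W₂]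
    (f₁ : Module.End k W₁) (f₂ : Module.End k W₂) (h₁ : f₁.IsSemisimple) (h₂ : f₂.IsSemisimple)
    (h : f₁.charpoly = f₂.charpoly) : ∃ e : W₁ ≃ₗ[k] W₂, ∀ x, e (f₁ x) = f₂ (e x) :=
  exists_conj_aux _ f₁ f₂ le_rfl h₁ h₂ h

end conj

section intertwiners

variable {k : Type*} [Field k] {N W : Type*} [AddCommGroup N] [Module k N] [AddCommGroup W]
  [Module k W]

/-- Linear maps commuting with given endomorphisms. -/
def intertwiners (A : Module.End k N) (f : Module.End k W) : Submodule k (N →ₗ[k] W) where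
  carrier := {ψ | ∀ n, f (ψ n) = ψ (A n)}
  add_mem' := fun ha hb n => by simp [ha n, hb n]
  zero_mem' := fun n => by simp
  smul_mem' := fun c ψ hψ n => by simp [hψ n]

theorem mem_intertwiners {A : Module.End k N} {f : Module.End k W} {ψ : N →ₗ[k] W} :
    ψ ∈ intertwiners A f ↔ ∀ n, f (ψ n) = ψ (A n) := Iff.rfl

/-- Transport of intertwiners along a conjugation. -/
def intertwinersCongr {W' : Type*} [AddCommGroup W'] [Module k W'] (A : Module.End k N)
    {f : Module.End k W} {f' : Module.End k W'} (e : W ≃ₗ[k] W') (he : ∀ x, e (f x) = f' (e x)) :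
    intertwiners A f ≃ₗ[k] intertwiners A f' where
  toFun ψ := ⟨e.toLinearMap.comp ψ.1, fun n => (he _).symm.trans (congrArg e (ψ.2 n))⟩
  map_add' a b := Subtype.ext (LinearMap.ext fun n => map_add e _ _)
  map_smul' c a := Subtype.ext (LinearMap.ext fun n => map_smul e c _)
  invFun ψ := ⟨e.symm.toLinearMap.comp ψ.1, fun n => e.injective (by
    rw [he]; simpa using ψ.2 n)⟩
  left_inv ψ := Subtype.ext (LinearMap.ext fun n => e.symm_apply_apply _)
  right_inv ψ := Subtype.ext (LinearMap.ext fun n => e.apply_symm_apply _)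

/-- Intertwiners into a product. -/
def intertwinersProd {W' : Type*} [AddCommGroup W'] [Module k W'] (A : Module.End k N)
    (f : Module.End k W) (f' : Module.End k W') :
    intertwiners A (f.prodMap f') ≃ₗ[k] intertwiners A f × intertwiners A f' where
  toFun ψ := (⟨(LinearMap.fst k W W').comp ψ.1, fun n => congrArg Prod.fst (ψ.2 n)⟩,
    ⟨(LinearMap.snd k W W').comp ψ.1, fun n => congrArg Prod.snd (ψ.2 n)⟩)
  map_add' a b := rfl
  map_smul' c a := rfl
  invFun x := ⟨x.1.1.prod x.2.1, fun n => Prod.ext (x.1.2 n) (x.2.2 n)⟩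
  left_inv ψ := rfl
  right_inv x := rfl

end intertwiners

section modp

variable {p : ℕ} [Fact p.Prime]

theorem isSemisimple_of_pow_eq_one {W : Type*} [AddCommGroup W] [Module (ZMod p) W]
    {f : Module.End (ZMod p) W} {m : ℕ} (hm : m.Coprime p) (hf : f ^ m = 1) :
    f.IsSemisimple := by
  have hm0 : (m : ZMod p) ≠ 0 := fun h =>
    (Fact.out : p.Prime).one_lt.ne' (Nat.eq_one_of_dvd_coprimes hm
      ((ZMod.natCast_eq_zero_iff m p).1 h) dvd_rfl)
  refine Module.End.isSemisimple_of_squarefree_aeval_eq_zero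
    ((separable_X_pow_sub_C (1 : ZMod p) hm0 one_ne_zero).squarefree) ?_
  simp [hf]

variable {N : Type*} [AddCommGroup N] [Module (ZMod p) N] (A : Module.End (ZMod p) N)

/-- Intertwiners only depend on the polynomials. -/
theorem finrank_intertwiners_congr {W W' : Type*} [AddCommGroup W] [Module (ZMod p) W] [Finite W]
    [AddCommGroup W'] [Module (ZMod p) W'] [Finite W'] {f : Module.End (ZMod p) W}
    {f' : Module.End (ZMod p) W'} {m : ℕ} (hm : m.Coprime p) (hf : f ^ m = 1) (hf' : f' ^ m = 1)
    (h : endPoly f = endPoly f') :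
    finrank (ZMod p) (intertwiners A f) = finrank (ZMod p) (intertwiners A f') := by
  rw [endPoly_eq, endPoly_eq] at h
  obtain ⟨e, he⟩ := exists_conj_of_charpoly_eq f f' (isSemisimple_of_pow_eq_one hm hf)
    (isSemisimple_of_pow_eq_one hm hf') h
  exact (intertwinersCongr A e he).finrank_eq

end modp

end FermatLib.CFT

namespace FermatLib.CFT

section ratio

variable {p : ℕ} [Fact p.Prime]

theorem modPEnd_pow_eq_one {A : Type*} [AddCommGroup A] {f : A →+ A} {m : ℕ}
    (hf : ∀ a, (f : A → A)^[m] a = a) : modPEnd p f ^ m = 1 := by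
  refine LinearMap.ext fun x => ?_
  induction x using QuotientAddGroup.induction_on with
  | H a =>
    have key : ∀ (j : ℕ), (modPEnd p f ^ j) (QuotientAddGroup.mk a : modP p A) =
        (QuotientAddGroup.mk ((f : A → A)^[j] a) : modP p A) := by
      intro j
      induction j with
      | zero => rfl
      | succ j ih => rw [pow_succ', Module.End.mul_apply, ih, Function.iterate_succ_apply']; rfl
    rw [key, hf]
    rfl

theorem torPEnd_pow_eq_one {A : Type*} [AddCommGroup A] {f : A →+ A} {m : ℕ}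
    (hf : ∀ a, (f : A → A)^[m] a = a) : torPEnd p f ^ m = 1 := by
  refine LinearMap.ext fun x => Subtype.ext ?_
  have key : ∀ (j : ℕ), (((torPEnd p f ^ j) x : torP p A) : A) = (f : A → A)^[j] x := by
    intro j
    induction j with
    | zero => rfl
    | succ j ih =>
      rw [pow_succ', Module.End.mul_apply, Function.iterate_succ_apply', ← ih]
      rfl
  rw [key, hf]
  rfl

theorem prodMap_pow_eq_one {V W : Type*} [AddCommGroup V] [Module (ZMod p) V] [AddCommGroup W]
    [Module (ZMod p) W] {f : Module.End (ZMod p) V} {f' : Module.End (ZMod p) W} {m : ℕ}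
    (hf : f ^ m = 1) (hf' : f' ^ m = 1) :
    (f.prodMap f' : Module.End (ZMod p) (V × W)) ^ m = 1 := by
  rw [show (f.prodMap f' : Module.End (ZMod p) (V × W)) = LinearMap.prodMapRingHom _ _ _ (f, f')
    from rfl, ← map_pow, show ((f, f') : _ × _) ^ m = 1 from Prod.ext hf hf', map_one]

variable {N : Type*} [AddCommGroup N] [Module (ZMod p) N] (B : Module.End (ZMod p) N)

/-- Intertwiners into `A/p` and into `A[p]` differ by the ones into modules realising the ratio. -/
theorem finrank_intertwiners_eulerRatio [Finite N] {A : Type*} [AddCommGroup A] {f : A →+ A}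
    {P Q : (ZMod p)[X]} (h : EulerRatio p f P Q) {m : ℕ} (hm : m.Coprime p)
    (hf : ∀ a, (f : A → A)^[m] a = a) {WP WQ : Type*} [AddCommGroup WP] [Module (ZMod p) WP]
    [Finite WP] [AddCommGroup WQ] [Module (ZMod p) WQ] [Finite WQ] (fP : Module.End (ZMod p) WP)
    (fQ : Module.End (ZMod p) WQ) (hP : endPoly fP = P) (hQ : endPoly fQ = Q)
    (hfP : fP ^ m = 1) (hfQ : fQ ^ m = 1) :
    finrank (ZMod p) (intertwiners B (modPEnd p f)) + finrank (ZMod p) (intertwiners B fQ) =
      finrank (ZMod p) (intertwiners B (torPEnd p f)) + finrank (ZMod p) (intertwiners B fP) := by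
  have := h.finite_quot; have := h.finite_tor
  have e : endPoly ((modPEnd p f).prodMap fQ) = endPoly ((torPEnd p f).prodMap fP) := by
    rw [endPoly_eq, endPoly_eq, LinearMap.charpoly_prodMap, LinearMap.charpoly_prodMap,
      ← endPoly_eq, ← endPoly_eq, ← endPoly_eq, ← endPoly_eq, hP, hQ]
    exact h.eq
  have h' := finrank_intertwiners_congr B hm (prodMap_pow_eq_one (modPEnd_pow_eq_one hf) hfQ)
    (prodMap_pow_eq_one (torPEnd_pow_eq_one hf) hfP) e
  rwa [(intertwinersProd B _ _).finrank_eq, (intertwinersProd B _ _).finrank_eq,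
    Module.finrank_prod, Module.finrank_prod] at h'

/-- Intertwiners into the trivial line have the dimension of the fixed vectors. -/
theorem finrank_intertwiners_trivial [Finite N] :
    finrank (ZMod p) (intertwiners B (1 : Module.End (ZMod p) (ZMod p))) =
      finrank (ZMod p) (LinearMap.ker (B - 1)) := by
  have e : intertwiners B (1 : Module.End (ZMod p) (ZMod p)) =
      (LinearMap.range (B - 1)).dualAnnihilator := by
    ext ψ
    rw [mem_intertwiners, Submodule.mem_dualAnnihilator]
    constructor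
    · rintro h _ ⟨n, rfl⟩
      rw [LinearMap.sub_apply, map_sub, ← h n]
      simp
    · intro h n
      have := h _ ⟨n, rfl⟩
      rw [LinearMap.sub_apply, map_sub, sub_eq_zero] at this
      simpa using this.symm
  rw [e]
  have h1 : finrank (ZMod p) ↥(LinearMap.range (B - 1)) +
      finrank (ZMod p) ↥(LinearMap.range (B - 1)).dualAnnihilator = finrank (ZMod p) N :=
    Subspace.finrank_add_finrank_dualAnnihilator_eq _
  have h2 : finrank (ZMod p) ↥(LinearMap.range (B - 1)) +
      finrank (ZMod p) ↥(LinearMap.ker (B - 1)) = finrank (ZMod p) N :=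
    LinearMap.finrank_range_add_finrank_ker (B - 1)
  exact Nat.add_left_cancel (h1.trans h2.symm)

/-- A zero module has no intertwiners. -/
theorem finrank_intertwiners_subsingleton [Finite N] {W : Type*} [AddCommGroup W]
    [Module (ZMod p) W] [Subsingleton W] (f : Module.End (ZMod p) W) :
    finrank (ZMod p) (intertwiners B f) = 0 :=
  Module.finrank_zero_of_subsingleton

/-- For the ratio `(X - 1) / 1`: the difference is the dimension of the fixed vectors. -/
theorem finrank_intertwiners_of_ratio_X_sub_one [Finite N] {A : Type*} [AddCommGroup A]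
    {f : A →+ A} (h : EulerRatio p f (X - 1) 1) {m : ℕ} (hm : m.Coprime p)
    (hf : ∀ a, (f : A → A)^[m] a = a) :
    finrank (ZMod p) (intertwiners B (modPEnd p f)) =
      finrank (ZMod p) (intertwiners B (torPEnd p f)) + finrank (ZMod p) (LinearMap.ker (B - 1)) := by
  have h1 : endPoly (1 : Module.End (ZMod p) (ZMod p)) = X - 1 := by
    rw [endPoly_eq, LinearMap.charpoly_one, Module.finrank_self, pow_one]
  have h0 : endPoly (1 : Module.End (ZMod p) PUnit) = 1 := endPoly_subsingleton _
  have := finrank_intertwiners_eulerRatio B h hm hf (1 : Module.End (ZMod p) (ZMod p))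
    (1 : Module.End (ZMod p) PUnit) h1 h0 (one_pow _) (one_pow _)
  rwa [finrank_intertwiners_subsingleton B (1 : Module.End (ZMod p) PUnit), add_zero, finrank_intertwiners_trivial] at this

/-- Additive intertwining maps are counted by intertwiners. -/
theorem natCard_addHom_intertwining {W : Type*} [AddCommGroup W] [Module (ZMod p) W] [Finite W]
    [Finite N] (f : Module.End (ZMod p) W) :
    Nat.card {ψ : N →+ W // ∀ n, f (ψ n) = ψ (B n)} =
      p ^ finrank (ZMod p) (intertwiners B f) := by
  let e : intertwiners B f ≃ {ψ : N →+ W // ∀ n, f (ψ n) = ψ (B n)} :=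
    { toFun := fun ψ => ⟨ψ.1.toAddMonoidHom, ψ.2⟩
      invFun := fun ψ => ⟨ψ.1.toZModLinearMap p, ψ.2⟩
      left_inv := fun ψ => Subtype.ext (LinearMap.ext fun _ => rfl)
      right_inv := fun ψ => Subtype.ext (AddMonoidHom.ext fun _ => rfl) }
  haveI : Finite (N →ₗ[ZMod p] W) := Finite.of_injective _ DFunLike.coe_injective
  rw [← Nat.card_congr e, Module.natCard_eq_pow_finrank (K := ZMod p), Nat.card_zmod]

end ratio

end FermatLib.CFT
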