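import Fermat.Agent.CFT.GWTateCup

/-!
The local pairing at a prime given by the invariant of cup products, its characterisation and its
naturality in the module.

Main API: `tateRoot`, `tatePairing`, `tatePairing_spec`, `tatePairing_compat`,
`tatePairing_natural`.
-/

set_option autoImplicit false

open CategoryTheory groupCohomology ExtCitation NumberField

namespace FermatLib.CFT.GWTate

open GWKummer

local notation "Γℚ" => AlgebraicClosure ℚ ≃ₐ[ℚ] AlgebraicClosure ℚ
local notation "Qbar" => AlgebraicClosure ℚ

section root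

variable (p : ℕ) [Fact p.Prime]

theorem exists_tateRoot : ∃ ζ : AlgebraicClosure ℚ, IsPrimitiveRoot ζ p :=
  haveI : NeZero p := ⟨(Fact.out : p.Prime).ne_zero⟩
  HasEnoughRootsOfUnity.exists_primitiveRoot (AlgebraicClosure ℚ) p

/-- The root of unity of normalisation. -/
noncomputable def tateRoot : AlgebraicClosure ℚ := (exists_tateRoot p).choose

theorem tateRoot_spec : IsPrimitiveRoot (tateRoot p) p := (exists_tateRoot p).choose_spec

end root

variable {p : ℕ} [Fact p.Prime] (M : Rep (ZMod p) (AlgebraicClosure ℚ ≃ₐ[ℚ] AlgebraicClosure ℚ))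
  (q : Nat.Primes)

variable {M q}

/-- Cup products of level-constant cocycles have invariants. -/
theorem exists_isInv_cupAt {x : LocCocycles M q} {y : LocDualCocycles M q}
    (hx : IsLevelConstant₁ (primeLocalToGlobal q) x)
    (hy : IsLevelConstant₁ (primeLocalToGlobal q) y) :
    ∃ a, IsInv (tateRoot_spec p) q (cupAt x y) a := by
  obtain ⟨L, _, _, hxL, hyL⟩ := exists_common_level hx hy
  exact exists_isInv (isConstAt_cupAt_left hxL hyL) (isConstAt_cupAt_right hxL y)
    (cupAt_cocycle x y)

variable (M q)

/-- Continuous local classes of `M`. -/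
noncomputable abbrev LocClasses : Submodule (ZMod p) (H1 (Rep.res (primeLocalToGlobal q) M)) :=
  continuousH1 (primeLocalToGlobal q) (Rep.res (primeLocalToGlobal q) M)

/-- Continuous local classes of the dual twist of `M`. -/
noncomputable abbrev LocDualClasses :
    Submodule (ZMod p) (H1 (Rep.res (primeLocalToGlobal q) (M.dualTwist (cycloChar p)))) :=
  continuousH1 (primeLocalToGlobal q) (Rep.res (primeLocalToGlobal q) (M.dualTwist (cycloChar p)))

variable {M q}

/-- A level-constant representative. -/
noncomputable def classRep (x : LocClasses M q) : LocCocycles M q :=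
  ((mem_continuousH1_iff _ _ _).1 x.2).choose

theorem classRep_spec (x : LocClasses M q) :
    IsLevelConstant₁ (primeLocalToGlobal q) (classRep x) ∧ (H1π _).hom (classRep x) = x.1 :=
  ((mem_continuousH1_iff _ _ _).1 x.2).choose_spec

/-- A level-constant representative. -/
noncomputable def dualClassRep (y : LocDualClasses M q) : LocDualCocycles M q :=
  ((mem_continuousH1_iff _ _ _).1 y.2).choose

theorem dualClassRep_spec (y : LocDualClasses M q) :
    IsLevelConstant₁ (primeLocalToGlobal q) (dualClassRep y) ∧
      (H1π _).hom (dualClassRep y) = y.1 :=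
  ((mem_continuousH1_iff _ _ _).1 y.2).choose_spec

/-- The value of the pairing on continuous classes. -/
noncomputable def pairVal (x : LocClasses M q) (y : LocDualClasses M q) : ZMod p :=
  (exists_isInv_cupAt (classRep_spec x).1 (dualClassRep_spec y).1).choose

/-- The value does not depend on the representatives. -/
theorem isInv_pairVal (x : LocClasses M q) (y : LocDualClasses M q) {x' : LocCocycles M q}
    {y' : LocDualCocycles M q} (hx' : IsLevelConstant₁ (primeLocalToGlobal q) x')
    (_hy' : IsLevelConstant₁ (primeLocalToGlobal q) y')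
    (hxx : (H1π _).hom x' = x.1) (hyy : (H1π _).hom y' = y.1) :
    IsInv (tateRoot_spec p) q (cupAt x' y') (pairVal x y) := by
  obtain ⟨hx, hxc⟩ := classRep_spec x
  obtain ⟨hy, hyc⟩ := dualClassRep_spec y
  have h0 : IsInv (tateRoot_spec p) q (cupAt (classRep x) (dualClassRep y)) (pairVal x y) :=
    (exists_isInv_cupAt hx hy).choose_spec
  obtain ⟨β, hβ, he⟩ := exists_cupAt_shift_left hx hx' hy (hxx.trans hxc.symm)
  obtain ⟨β', hβ', he'⟩ :=
    exists_cupAt_shift_right (y := y') (y' := dualClassRep y) hx' (hyc.trans hyy.symm)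
  exact (h0.congr β hβ he).congr β' hβ' he'

theorem pairVal_add_left (x x' : LocClasses M q) (y : LocDualClasses M q) :
    pairVal (x + x') y = pairVal x y + pairVal x' y := by
  obtain ⟨hx, hxc⟩ := classRep_spec x
  obtain ⟨hx', hxc'⟩ := classRep_spec x'
  obtain ⟨hy, hyc⟩ := dualClassRep_spec y
  have h1 := isInv_pairVal (x + x') y (x' := classRep x + classRep x') (hx.add hx') hy
    (by rw [map_add, hxc, hxc']; rfl) hyc
  rw [cupAt_add_left] at h1
  exact h1.eq ((isInv_pairVal x y hx hy hxc hyc).add (isInv_pairVal x' y hx' hy hxc' hyc))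

theorem pairVal_add_right (x : LocClasses M q) (y y' : LocDualClasses M q) :
    pairVal x (y + y') = pairVal x y + pairVal x y' := by
  obtain ⟨hx, hxc⟩ := classRep_spec x
  obtain ⟨hy, hyc⟩ := dualClassRep_spec y
  obtain ⟨hy', hyc'⟩ := dualClassRep_spec y'
  have h1 := isInv_pairVal x (y + y') (y' := dualClassRep y + dualClassRep y') hx (hy.add hy') hxc
    (by rw [map_add, hyc, hyc']; rfl)
  rw [cupAt_add_right] at h1
  exact h1.eq ((isInv_pairVal x y hx hy hxc hyc).add (isInv_pairVal x y' hx hy' hxc hyc'))

variable (M q)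

/-- The pairing on continuous classes. -/
noncomputable def contPairing :
    LocClasses M q →ₗ[ZMod p] LocDualClasses M q →ₗ[ZMod p] ZMod p :=
  AddMonoidHom.toZModLinearMap p <| AddMonoidHom.mk'
    (fun x => AddMonoidHom.toZModLinearMap p (AddMonoidHom.mk' (pairVal x) (pairVal_add_right x)))
    fun x x' => LinearMap.ext fun y => pairVal_add_left x x' y

theorem contPairing_apply (x : LocClasses M q) (y : LocDualClasses M q) :
    contPairing M q x y = pairVal x y := rfl

theorem exists_classRetraction {H : Type} [Group H] (f : H →* Γℚ) (N : Rep (ZMod p) H) :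
    ∃ r : H1 N →ₗ[ZMod p] continuousH1 f N, r ∘ₗ (continuousH1 f N).subtype = LinearMap.id :=
  (continuousH1 f N).subtype.exists_leftInverse_of_injective (Submodule.ker_subtype _)

/-- The local pairing at `q`, on all classes through chosen retractions to the continuous ones. -/
noncomputable def tatePairing : LocalPairing M (primeLocalToGlobal q) :=
  (contPairing M q).compl₁₂
    (exists_classRetraction (primeLocalToGlobal q) (Rep.res (primeLocalToGlobal q) M)).choose
    (exists_classRetraction (primeLocalToGlobal q)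
      (Rep.res (primeLocalToGlobal q) (M.dualTwist (cycloChar p)))).choose

variable {M q}

/-- The pairing of two level-constant classes is the invariant of their cup product. -/
theorem tatePairing_spec {x : LocCocycles M q} {y : LocDualCocycles M q}
    (hx : IsLevelConstant₁ (primeLocalToGlobal q) x)
    (hy : IsLevelConstant₁ (primeLocalToGlobal q) y) :
    IsInv (tateRoot_spec p) q (cupAt x y)
      (tatePairing M q ((H1π _).hom x) ((H1π _).hom y)) := by
  have e1 := LinearMap.congr_fun
    (exists_classRetraction (primeLocalToGlobal q) (Rep.res (primeLocalToGlobal q) M)).choose_spec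
    (⟨_, H1π_mem_continuousH1 _ _ hx⟩ : LocClasses M q)
  have e2 := LinearMap.congr_fun
    (exists_classRetraction (primeLocalToGlobal q)
      (Rep.res (primeLocalToGlobal q) (M.dualTwist (cycloChar p)))).choose_spec
    (⟨_, H1π_mem_continuousH1 _ _ hy⟩ : LocDualClasses M q)
  simp only [LinearMap.comp_apply, Submodule.subtype_apply, LinearMap.id_apply] at e1 e2
  rw [tatePairing, LinearMap.compl₁₂_apply, e1, e2, contPairing_apply]
  exact isInv_pairVal _ _ hx hy rfl rfl

/-- The pairing is characterised by idele cocycles supported at `q`. -/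
theorem tatePairing_eq_of_isInv {x : LocCocycles M q} {y : LocDualCocycles M q}
    (hx : IsLevelConstant₁ (primeLocalToGlobal q) x)
    (hy : IsLevelConstant₁ (primeLocalToGlobal q) y) {a : ZMod p}
    (h : IsInv (tateRoot_spec p) q (cupAt x y) a) :
    tatePairing M q ((H1π _).hom x) ((H1π _).hom y) = a :=
  (tatePairing_spec hx hy).eq h

/-- The characterisation of the pairing in the form used by global duality. -/
theorem tatePairing_compat (L : IntermediateField ℚ (AlgebraicClosure ℚ)) [NumberField L]
    [IsGalois ℚ L] (f : (L ≃ₐ[ℚ] L) × (L ≃ₐ[ℚ] L) → Idele L)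
    (Z : classesKilled p (L ≃ₐ[ℚ] L) (IdeleClass L)) (hf : f ∈ Z2 (L ≃ₐ[ℚ] L) (Idele L))
    (hval : ∀ t, f t ∈ primeIdeles L q)
    (hZ : (Z : (L ≃ₐ[ℚ] L) × (L ≃ₐ[ℚ] L) → IdeleClass L) = classCochain L f)
    (x : LocCocycles M q) (y : LocDualCocycles M q) (b : primeLocalGaloisGroup q → QUnits q)
    (hx : IsLevelConstant₁ (primeLocalToGlobal q) x)
    (hy : IsLevelConstant₁ (primeLocalToGlobal q) y)
    (hb : IsLevelConstant₁ (primeLocalToGlobal q) b)
    (h : ∀ σ τ, localValue L q
        (f (galTo L (primeLocalToGlobal q σ), galTo L (primeLocalToGlobal q τ))) =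
      σ • b τ - b (σ * τ) + b σ +
        toQUnits q (rootHom (tateRoot_spec p) (cupVal M (primeLocalToGlobal q) x y σ τ))) :
    globalInv p L Z = tatePairing M q ((H1π _).hom x) ((H1π _).hom y) :=
  (tatePairing_eq_of_isInv hx hy
    (IsInvAt.isInv (L := L) ⟨f, Z, b, hf, hval, hZ, hb, h, rfl⟩)).symm

/-- Naturality of the pairing in the module. -/
theorem tatePairing_natural {N : Rep (ZMod p) (AlgebraicClosure ℚ ≃ₐ[ℚ] AlgebraicClosure ℚ)}
    (φ : M →ₗ[ZMod p] N) (hφ : ∀ g m, φ (M.ρ g m) = N.ρ g (φ m)) (c : LocCocycles M q)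
    (c1 : LocCocycles N q) (hc : ∀ g, c1 g = φ (c g)) (d : LocDualCocycles N q)
    (d1 : LocDualCocycles M q)
    (hd : ∀ g, (d1 g : Module.Dual (ZMod p) M) = φ.dualMap (d g : Module.Dual (ZMod p) N))
    (hcl : IsLevelConstant₁ (primeLocalToGlobal q) c)
    (hdl : IsLevelConstant₁ (primeLocalToGlobal q) d) :
    tatePairing N q ((H1π _).hom c1) ((H1π _).hom d) =
      tatePairing M q ((H1π _).hom c) ((H1π _).hom d1) := by
  have hc1 : IsLevelConstant₁ (primeLocalToGlobal q) c1 := by
    obtain ⟨F, hF, h⟩ := hcl
    exact ⟨F, hF, fun g s hs => by rw [hc, hc, h g s hs]⟩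
  have hd1 : IsLevelConstant₁ (primeLocalToGlobal q) d1 := by
    obtain ⟨F, hF, h⟩ := hdl
    exact ⟨F, hF, fun g s hs => ((hd _).trans
      (congrArg (fun η : Module.Dual (ZMod p) N => φ.dualMap η) (h g s hs))).trans (hd g).symm⟩
  refine tatePairing_eq_of_isInv hc1 hdl ?_
  have e : cupAt c1 d = cupAt c d1 := by
    funext σ τ
    rw [cupAt_def, cupAt_def, hc, ← hφ, hd, LinearMap.dualMap_apply]
  rw [e]
  exact tatePairing_spec hcl hd1

end FermatLib.CFT.GWTate
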