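import Fermat.Agent.CFT.LocalCores
import Fermat.Agent.CFT.GWTateDef
import Fermat.Agent.CFT.GWLocEulerKummer
import Fermat.Agent.CFT.DualityNondeg

/-!
Nondegeneracy of the local cup product at a prime: a nonzero continuous
class of `M` has, with some continuous class of the dual twist, a cup product of nonzero invariant.

The dual class comes from an equivariant map on relations found by Tate-Nakayama on the
decomposition group; the invariant is nonzero as corestriction to idele classes is injective.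
-/

set_option autoImplicit false
set_option maxSynthPendingDepth 3

open CategoryTheory groupCohomology ExtCitation NumberField

namespace FermatLib.CFT

namespace Duality

variable {p : ℕ} [Fact p.Prime] {G G₀ : Type*} [Group G] [Group G₀] (π : G →* G₀)
  {C : Type*} [AddCommGroup C] [DistribMulAction G C]
  {ι : Type*} [Fintype ι] [Fintype G₀] {V : Type*} [AddCommGroup V] [DistribMulAction G₀ V]
  (v : ι → V) [Finite G] (hC : IsPClassFormation p G C)
  (hv : Function.Surjective (presMap (G := G₀) v)) (hV : ∀ x : V, p • x = 0)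

include hC hV in
/-- A cocycle which is no coboundary has an equivariant map on relations separating its
connecting class. -/
theorem exists_hom_delta_not_satB2 (c : Z1 G (Infl π V))
    (hc : (c : G → Infl π V) ∉ B1 G (Infl π V)) :
    ∃ f : Infl π (presKer (G := G₀) v) →+ C, (∀ (g : G) x, f (g • x) = g • f x) ∧
      (fun t => f ((delta π v hv c).1 t)) ∉ satB2 G C p := by
  by_contra hcon
  simp only [not_exists, not_and, not_not] at hcon
  obtain ⟨m, hm, hB⟩ := tateNakayama_right hC (delta π v hv c).2 fun f hf => hcon f hf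
  obtain ⟨x₀, hx₀, hd₀⟩ := exists_lift_delta π v hv c
  have hS := isSES_infl π v hv
  obtain ⟨y, hy⟩ := hB
  have hz : m • x₀ - (fun g => inflSubtype π v (y g)) ∈ Z1 G (Infl π (Pres ι G₀)) := by
    refine AddMonoidHom.mem_ker.mpr (funext fun t => ?_)
    rw [map_sub, map_nsmul, Pi.sub_apply, Pi.smul_apply, ← hd₀, hS.d1_map_left, hy,
      Pi.smul_apply, map_nsmul, sub_self, Pi.zero_apply]
  have h1 : m • x₀ - (fun g => inflSubtype π v (y g)) ∈ B1 G (Infl π (Pres ι G₀)) := by
    obtain ⟨b, hb⟩ := mem_B1_iff.mp (h1Trivial_pres π (⊤ : Subgroup G) _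
      (cochainMap1_mem_Z1 (isCompat_subtype (A := Infl π (Pres ι G₀)) ⊤) hz))
    exact mem_B1_iff.mpr ⟨b, fun g => hb ⟨g, Subgroup.mem_top g⟩⟩
  have hmc : (m • c : Z1 G (Infl π V)).1 ∈ B1 G (Infl π V) := by
    have := cochainMap1_mem_B1 (f := MonoidHom.id G) (φ := inflPresMap π v)
      (fun g x => inflPresMap_smul π v g x) h1
    refine (iff_of_eq (congrArg (· ∈ B1 G (Infl π V)) ?_)).mp this
    funext g
    show inflPresMap π v (m • x₀ g - inflSubtype π v (y g)) = m • c.1 g
    rw [map_sub, map_nsmul, hx₀, hS.comp_eq_zero, sub_zero]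
  obtain ⟨a, b, hab⟩ := Nat.Coprime.isCoprime
    ((Fact.out : p.Prime).coprime_iff_not_dvd.mpr hm)
  have e : (c : G → Infl π V) = b • (m • c : Z1 G (Infl π V)).1 := by
    funext g
    have hp : (p : ℤ) • (c.1 g : Infl π V) = 0 := (natCast_zsmul _ _).trans (hV (c.1 g))
    show c.1 g = b • (m • c.1 g)
    rw [← natCast_zsmul, smul_smul]
    conv_lhs => rw [← one_smul ℤ (c.1 g), ← hab, add_smul, mul_smul, hp, smul_zero, zero_add]
  exact hc (e ▸ zsmul_mem hmc b)

end Duality

namespace GWLocPerf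

open GWKummer GWTate Duality

local notation "Γℚ" => AlgebraicClosure ℚ ≃ₐ[ℚ] AlgebraicClosure ℚ
local notation "Qbar" => AlgebraicClosure ℚ

variable {p : ℕ} [Fact p.Prime] {M : Rep (ZMod p) Γℚ} {S : Finset Nat.Primes} (D : Level M S)
  {ζ : AlgebraicClosure ℚ} (hζ : IsPrimitiveRoot ζ p) (q : Nat.Primes)

section level

variable (L : IntermediateField ℚ (AlgebraicClosure ℚ)) [NumberField L] [IsGalois ℚ L]

/-- The decomposition group of the bigger level seen at the level of `M`. -/
noncomputable def lvlRes (h : D.field ≤ L) : decompGroup (stdEmb L q) →* D.Gal :=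
  (galRes h).comp (decompGroup (stdEmb L q)).subtype

theorem lvlRes_locDecomp (h : D.field ≤ L) (τ : primeLocalGaloisGroup q) :
    lvlRes D q L h (locDecomp L q τ) = locRes D q τ :=
  galRes_galTo D.field h (primeLocalToGlobal q τ)

end level

section invariant

variable {L : IntermediateField ℚ (AlgebraicClosure ℚ)} [NumberField L] [IsGalois ℚ L]

include hζ in
/-- A local cocycle which does not die, equal to minus `ζ ^ cp` up to a coboundary, gives `cp` a
nonzero invariant. -/
theorem exists_isInv_ne_zero {cp : primeLocalGaloisGroup q → primeLocalGaloisGroup q → ZMod p}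
    {z : decompGroup (stdEmb L q) × decompGroup (stdEmb L q) → localPart (stdEmb L q)}
    (hzZ : z ∈ Z2 (decompGroup (stdEmb L q)) (localPart (stdEmb L q)))
    (hz : z ∉ satB2 (decompGroup (stdEmb L q)) (localPart (stdEmb L q)) p)
    {b : primeLocalGaloisGroup q → QUnits q} (hb : IsConstAt L q b)
    (key : ∀ σ τ, localPartVal (stdEmb L q) (z (locDecomp L q σ, locDecomp L q τ)) =
      -(σ • b τ - b (σ * τ) + b σ + locRoot hζ q (cp σ τ))) :
    ∃ a : ZMod p, a ≠ 0 ∧ IsInv hζ q cp a := by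
  obtain ⟨f₂, hf₂, hf₂v, hf₂z⟩ := (primeIdeles_coinduced L q).h2_surjective hzZ
  have hloc : ∀ σ τ, GWTate.locVal L q f₂ σ τ =
      localPartVal (stdEmb L q) (z (locDecomp L q σ, locDecomp L q τ)) := fun σ τ => by
    rw [← hf₂z]
    exact (restrictPlace_apply (stdEmb L q) _ (Emb.SamePlace.refl _)).symm
  have hneg : ∀ σ τ, GWTate.locVal L q (-f₂) σ τ =
      σ • b τ - b (σ * τ) + b σ + locRoot hζ q (cp σ τ) := fun σ τ => by
    rw [map_neg, Pi.neg_apply, Pi.neg_apply, hloc, key, neg_neg]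
  have hval : ∀ t, (-f₂) t ∈ primeIdeles L q := fun t => neg_mem (hf₂v t)
  have hZ2 : classCochain L (-f₂) ∈ Z2 (L ≃ₐ[ℚ] L) (IdeleClass L) :=
    cochainMap2_mem_Z2 (A := Idele L) (B := IdeleClass L) (by intro g a; rfl) (neg_mem hf₂)
  have hkill : p • classCochain L (-f₂) ∈ B2 (L ≃ₐ[ℚ] L) (IdeleClass L) := by
    rw [← map_nsmul]
    refine classCochain_mem_B2_of_locVal (AddSubgroup.nsmul_mem _ (neg_mem hf₂) p)
      (fun t => AddSubgroup.nsmul_mem _ (hval t) p) (b := fun σ => p • b σ)
      (hb.isLevelConstant.comp (p • ·)) fun σ τ => ?_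
    rw [map_nsmul, Pi.smul_apply, Pi.smul_apply, hneg, nsmul_add, nsmul_locRoot, add_zero,
      nsmul_add, nsmul_sub, smul_comm p σ]
  refine ⟨globalInv p L ⟨classCochain L (-f₂), mem_classesKilled.2 ⟨hZ2, hkill⟩⟩,
    fun h0 => hz ?_, IsInvAt.isInv (L := L) ⟨-f₂, _, b, neg_mem hf₂, hval, rfl,
      hb.isLevelConstant, hneg, rfl⟩⟩
  have hclass : classCochain L f₂ ∈ B2 (L ≃ₐ[ℚ] L) (IdeleClass L) := by
    have h1 : classCochain L (-f₂) ∈ B2 (L ≃ₐ[ℚ] L) (IdeleClass L) :=
      (globalInv_eq_zero_iff p L _).1 h0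
    rw [map_neg, neg_mem_iff] at h1
    exact h1
  refine mem_satB2_of_cores2_placeCochain (stdEmb L q) hzZ (B2_le_satB2 ?_)
  set f₃ := cores2 (decompGroup (stdEmb L q)) (placeCochain (stdEmb L q) z) with hf₃
  have hf₃Z : f₃ ∈ Z2 (L ≃ₐ[ℚ] L) (Idele L) :=
    cores2_mem_Z2 _ (cochainMap2_mem_Z2 (isCompat_placeIncl (stdEmb L q)) hzZ)
  obtain ⟨k, hk⟩ := restrictPlace_cores2 (stdEmb L q) hzZ
  obtain ⟨u, -, hu⟩ := (primeIdeles_coinduced L q).h2_injective (sub_mem hf₂ hf₃Z)
    (fun t => sub_mem (hf₂v t) (cores2_placeCochain_mem (stdEmb L q) z t))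
    (mem_B2_iff.2 ⟨-k, fun d d' => by
      rw [Pi.sub_apply, map_sub, hk, hf₂z, d1_apply]
      simp only [Pi.neg_apply, smul_neg]
      abel⟩)
  have hdiff : classCochain L (f₂ - f₃) ∈ B2 (L ≃ₐ[ℚ] L) (IdeleClass L) :=
    classCochain_mem_B2 ⟨u, hu⟩
  rw [map_sub] at hdiff
  have h3 := sub_mem hclass hdiff
  rwa [sub_sub_cancel] at h3

end invariant

section dual

variable {L : IntermediateField ℚ (AlgebraicClosure ℚ)} [NumberField L] [IsGalois ℚ L]
  (π : decompGroup (stdEmb L q) →* D.Gal)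
  (hπ : ∀ τ, π (locDecomp L q τ) = locRes D q τ)
  {ι : Type} [Fintype ι] (v : ι → D.Mod) (hv : Function.Surjective (presMap (G := D.Gal) v))

include hπ in
/-- The cocycle of the decomposition group given by a local cocycle. -/
theorem exists_decomp_cocycle (x : LocCocycles M q) (hxL : IsConstAt L q x)
    (hne : (H1π _).hom x ≠ 0) :
    ∃ c : Z1 (decompGroup (stdEmb L q)) (Infl π D.Mod),
      (∀ τ, c.1 (locDecomp L q τ) = toInfl π D.Mod (D.toMod (x τ))) ∧
      (c : decompGroup (stdEmb L q) → Infl π D.Mod) ∉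
        B1 (decompGroup (stdEmb L q)) (Infl π D.Mod) := by
  have hsurj := locDecomp_surjective L q
  let xd : decompGroup (stdEmb L q) → Infl π D.Mod := fun d =>
    toInfl π D.Mod (D.toMod (x (Function.surjInv hsurj d)))
  have hxd : ∀ τ, xd (locDecomp L q τ) = toInfl π D.Mod (D.toMod (x τ)) := fun τ =>
    congrArg (fun m => toInfl π D.Mod (D.toMod m))
      (hxL.eq (congrArg Subtype.val (Function.surjInv_eq hsurj (locDecomp L q τ))))
  have hxdZ : xd ∈ Z1 (decompGroup (stdEmb L q)) (Infl π D.Mod) := mem_Z1_iff.2 fun d d' => by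
    obtain ⟨σ, rfl⟩ := hsurj d
    obtain ⟨τ, rfl⟩ := hsurj d'
    rw [← map_mul, hxd, hxd, hxd, ← toInfl_smul, hπ, loc_cocycle x σ τ, map_add, map_add]
    exact congrArg (fun m => toInfl π D.Mod m + toInfl π D.Mod (D.toMod (x σ)))
      (D.res_smul _ _).symm
  refine ⟨⟨xd, hxdZ⟩, hxd, fun hB => ?_⟩
  obtain ⟨a, ha⟩ := mem_B1_iff.1 hB
  refine hne ((H1π_eq_zero_iff x).2 ⟨D.toMod.symm (ofInfl π D.Mod a), funext fun τ => ?_⟩)
  rw [d₀₁_hom_apply]
  apply D.toMod.injective
  refine (map_sub D.toMod _ _).trans ?_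
  have h2 := congrArg (ofInfl π D.Mod) ((hxd τ).symm.trans (ha (locDecomp L q τ)))
  rw [map_sub, ofInfl_smul, hπ] at h2
  refine Eq.trans ?_ h2.symm
  have h3 := D.res_smul (primeLocalToGlobal q τ) (D.toMod.symm (ofInfl π D.Mod a))
  rw [AddEquiv.apply_symm_apply] at h3 ⊢
  exact congrArg (· - _) h3.symm

include hπ in
/-- An equivariant map on relations gives maps into the values. -/
theorem exists_local_hom {f : Infl π (presKer (G := D.Gal) v) →+ localPart (stdEmb L q)}
    (hf : ∀ (g : decompGroup (stdEmb L q)) w, f (g • w) = g • f w) :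
    ∃ h : equivHom D.Gal (presKer (G := D.Gal) v) (primeIdeles D.field q),
      ∀ w, GWLocEuler.locVal D q h w =
        localPartVal (stdEmb L q) (f (toInfl π (presKer (G := D.Gal) v) w)) := by
  let h₀ : presKer (G := D.Gal) v →+ QUnits q :=
    (localPartVal (stdEmb L q)).comp (f.comp (toInfl π (presKer (G := D.Gal) v)).toAddMonoidHom)
  have hh : ∀ (τ : Gloc q) w, h₀ (locRes D q τ • w) = τ.onUnits (h₀ w) := fun τ w => by
    show localPartVal (stdEmb L q) (f (toInfl π _ (locRes D q τ • w))) = _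
    refine (congrArg (fun g : D.Gal => localPartVal (stdEmb L q)
      (f (toInfl π (presKer (G := D.Gal) v) (g • w)))) (hπ τ).symm).trans ?_
    rw [toInfl_smul, hf]
    exact localPartVal_locDecomp L q τ _
  let F : presKer (G := D.Gal) v →+ primeIdeles D.field q :=
    (localLift (stdEmb D.field q) (locRes D q) (stdEmb_postComp D q) h₀ hh).codRestrict _
      (localLift_mem _ _ _ h₀ hh)
  exact ⟨⟨F, fun g w => Subtype.ext (localLift_smul _ _ _ h₀ hh g w)⟩,
    fun w => localLift_fin_self (stdEmb D.field q) (locRes D q) (stdEmb_postComp D q) h₀ hh w⟩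

include hπ hv hζ in
/-- The dual class and the value of the connecting cocycle under the map. -/
theorem exists_dual_value (x : LocCocycles M q)
    (c : Z1 (decompGroup (stdEmb L q)) (Infl π D.Mod))
    (hc : ∀ τ, c.1 (locDecomp L q τ) = toInfl π D.Mod (D.toMod (x τ)))
    {f : Infl π (presKer (G := D.Gal) v) →+ localPart (stdEmb L q)}
    (hf : ∀ (g : decompGroup (stdEmb L q)) w, f (g • w) = g • f w) :
    ∃ (y : LocDualCocycles M q) (b : primeLocalGaloisGroup q → QUnits q),
      IsLevelConstant₁ (primeLocalToGlobal q) y ∧ IsConstAt L q b ∧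
      ∀ σ τ, localPartVal (stdEmb L q)
          (f ((delta π v hv c).1 (locDecomp L q σ, locDecomp L q τ))) =
        -(σ • b τ - b (σ * τ) + b σ + locRoot hζ q (cupAt x y σ τ)) := by
  obtain ⟨h, eh⟩ := exists_local_hom D q π hπ v hf
  obtain ⟨y, hy, hpair, -⟩ := GWLocEuler.locClass_spec D hζ q hv h
  obtain ⟨e, -, hdelta⟩ := hpair.comp_delta
  obtain ⟨x₀, hx₀, hd₀⟩ := exists_lift_delta π v hv c
  let xt : primeLocalGaloisGroup q → Pres ι D.Gal := fun σ =>
    ofInfl π _ (x₀ (locDecomp L q σ))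
  refine ⟨y, fun σ => -e (xt σ), hy, fun g s hs => ?_, fun σ τ => ?_⟩
  · have : locDecomp L q (g * s) = locDecomp L q g :=
      Subtype.ext (by rw [coe_locDecomp, coe_locDecomp, map_mul, hs, mul_one])
    show -e (ofInfl π _ (x₀ (locDecomp L q (g * s)))) = _
    rw [this]
  · have h1 := hdelta xt
      (fun t => ofInfl π _ ((delta π v hv c).1 (locDecomp L q t.1, locDecomp L q t.2)))
      (fun σ τ => by
        refine (congrArg (ofInfl π _) (hd₀ (locDecomp L q σ, locDecomp L q τ))).trans ?_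
        rw [d1_apply, map_add, map_sub, ofInfl_smul, hπ, ← map_mul]) σ τ
    rw [eh] at h1
    refine h1.trans ?_
    have hp : presMap v (xt τ) = D.toMod (x τ) := (hx₀ (locDecomp L q τ)).trans (hc τ)
    rw [hp, show locRes D q σ • D.toMod (x τ) = D.toMod (M.ρ (primeLocalToGlobal q σ) (x τ)) from
      D.res_smul _ _]
    show _ - toQUnits q (muMap D hζ (y σ) (D.toMod (M.ρ (primeLocalToGlobal q σ) (x τ)))) = _
    rw [muMap_toMod, cupAt_def, locRoot_apply]
    simp only [smul_neg, neg_add_rev, neg_neg, sub_neg_eq_add]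
    abel

end dual

include D hζ in
/-- A nonzero class has a dual class with cup product of nonzero invariant. -/
theorem exists_dual_cup_ne [FiniteDimensional (ZMod p) M] (x : LocCocycles M q)
    (hx : IsLevelConstant₁ (primeLocalToGlobal q) x) (hne : (H1π _).hom x ≠ 0) :
    ∃ y : LocDualCocycles M q, IsLevelConstant₁ (primeLocalToGlobal q) y ∧
      ∃ a : ZMod p, a ≠ 0 ∧ IsInv hζ q (cupAt x y) a := by
  classical
  obtain ⟨L, _, _, hle, hxL⟩ := exists_isConstAt (L := D.field) hx
  let _ : Fintype D.Mod := Fintype.ofFinite D.Mod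
  have hv : Function.Surjective (presMap (G := D.Gal) (id : D.Mod → D.Mod)) := fun m =>
    ⟨presSingle m 1, (presMap_presSingle (id : D.Mod → D.Mod) m 1).trans (one_smul _ _)⟩
  have hπ := lvlRes_locDecomp D q L hle
  obtain ⟨c, hc, hcB⟩ := exists_decomp_cocycle D q (lvlRes D q L hle) hπ x hxL hne
  obtain ⟨f, hf, hfB⟩ := exists_hom_delta_not_satB2 (p := p) (lvlRes D q L hle) (id : D.Mod → D.Mod)
    (localPart_isPClassFormation L (stdEmb L q)) hv D.nsmul_mod c hcB
  obtain ⟨y, b, hy, hb, key⟩ :=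
    exists_dual_value D hζ q (lvlRes D q L hle) hπ (id : D.Mod → D.Mod) hv x c hc hf
  exact ⟨y, hy, exists_isInv_ne_zero hζ q
    (cochainMap2_mem_Z2 (f := MonoidHom.id _) (φ := f) (fun g w => hf g w)
      (delta (lvlRes D q L hle) (id : D.Mod → D.Mod) hv c).2) hfB hb key⟩

end GWLocPerf

end FermatLib.CFT
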