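import Fermat.Agent.CFT.GWTateDef
import Fermat.Agent.CFT.GWInfAlg

/-!
The local Tate pairings and their naturality.
-/

set_option autoImplicit false

open CategoryTheory Module groupCohomology ExtCitation

namespace FermatLib.CFT

variable {p : ℕ} [Fact p.Prime] (M : Rep (ZMod p) (AlgebraicClosure ℚ ≃ₐ[ℚ] AlgebraicClosure ℚ))

/-- The local pairing at `q`. -/
noncomputable def tateFin (q : Nat.Primes) : LocalPairing M (primeLocalToGlobal q) :=
  GWTate.tatePairing M q

/-- The local pairing at infinity. -/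
noncomputable def tateInf : LocalPairing M archimedeanLoc :=
  GWInf.infCup M

variable {M} in
/-- The pairings at `q` are natural in the module. -/
theorem tateFin_natural {N : Rep (ZMod p) (AlgebraicClosure ℚ ≃ₐ[ℚ] AlgebraicClosure ℚ)}
    (φ : M →ₗ[ZMod p] N) (hφ : ∀ g m, φ (M.ρ g m) = N.ρ g (φ m)) (q : Nat.Primes)
    (c : cocycles₁ (Rep.res (primeLocalToGlobal q) M))
    (c1 : cocycles₁ (Rep.res (primeLocalToGlobal q) N)) (hc : ∀ g, c1 g = φ (c g))
    (d : cocycles₁ (Rep.res (primeLocalToGlobal q) (N.dualTwist (cycloChar p))))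
    (d1 : cocycles₁ (Rep.res (primeLocalToGlobal q) (M.dualTwist (cycloChar p))))
    (hd : ∀ g, (d1 g : Module.Dual (ZMod p) M) = φ.dualMap (d g : Module.Dual (ZMod p) N))
    (hcl : IsLevelConstant₁ (primeLocalToGlobal q) c)
    (hdl : IsLevelConstant₁ (primeLocalToGlobal q) d) :
    tateFin N q ((H1π _).hom c1) ((H1π _).hom d) =
      tateFin M q ((H1π _).hom c) ((H1π _).hom d1) :=
  GWTate.tatePairing_natural φ hφ c c1 hc d d1 hd hcl hdl

end FermatLib.CFT
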