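import Fermat.Agent.CFT.GWTateInv

/-!
Cup products of level-constant local cocycles at a prime as twisted two-cocycles.
-/

set_option autoImplicit false

open CategoryTheory groupCohomology ExtCitation NumberField

namespace FermatLib.CFT.GWTate

open GWKummer

local notation "Γℚ" => AlgebraicClosure ℚ ≃ₐ[ℚ] AlgebraicClosure ℚ
local notation "Qbar" => AlgebraicClosure ℚ

variable {p : ℕ} [Fact p.Prime] (M : Rep (ZMod p) (AlgebraicClosure ℚ ≃ₐ[ℚ] AlgebraicClosure ℚ))
  (q : Nat.Primes)

/-- Local one-cocycles of `M`. -/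
abbrev LocCocycles : Type := cocycles₁ (Rep.res (primeLocalToGlobal q) M)

/-- Local one-cocycles of the dual twist of `M`. -/
abbrev LocDualCocycles : Type :=
  cocycles₁ (Rep.res (primeLocalToGlobal q) (M.dualTwist (cycloChar p)))

variable {M q}

/-- The cup product of two local cocycles. -/
noncomputable def cupAt (x : LocCocycles M q) (y : LocDualCocycles M q)
    (σ τ : primeLocalGaloisGroup q) : ZMod p :=
  cupVal M (primeLocalToGlobal q) x y σ τ

theorem cupAt_def (x : LocCocycles M q) (y : LocDualCocycles M q)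
    (σ τ : primeLocalGaloisGroup q) :
    cupAt x y σ τ = (y σ : Module.Dual (ZMod p) M) (M.ρ (primeLocalToGlobal q σ) (x τ)) := rfl

theorem cupAt_add_left (x x' : LocCocycles M q) (y : LocDualCocycles M q) :
    cupAt (x + x') y = fun σ τ => cupAt x y σ τ + cupAt x' y σ τ := by
  funext σ τ
  show (y σ : Module.Dual (ZMod p) M) (M.ρ (primeLocalToGlobal q σ) (x τ + x' τ)) = _
  exact (congrArg _ (map_add _ _ _)).trans (map_add _ _ _)

theorem cupAt_add_right (x : LocCocycles M q) (y y' : LocDualCocycles M q) :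
    cupAt x (y + y') = fun σ τ => cupAt x y σ τ + cupAt x y' σ τ := rfl

theorem loc_cocycle (x : LocCocycles M q) (σ τ : primeLocalGaloisGroup q) :
    x (σ * τ) = M.ρ (primeLocalToGlobal q σ) (x τ) + x σ :=
  (mem_cocycles₁_iff (A := Rep.res (primeLocalToGlobal q) M) x.1).1 x.2 σ τ

theorem dual_cocycle_apply (y : LocDualCocycles M q) (σ τ : primeLocalGaloisGroup q) (v : M) :
    (y (σ * τ) : Module.Dual (ZMod p) M) v = locChi p q σ *
      (y τ : Module.Dual (ZMod p) M) (M.ρ (primeLocalToGlobal q σ)⁻¹ v) +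
      (y σ : Module.Dual (ZMod p) M) v := by
  have h := (mem_cocycles₁_iff
    (A := Rep.res (primeLocalToGlobal q) (M.dualTwist (cycloChar p))) y.1).1 y.2 σ τ
  exact (congrArg (fun η : Module.Dual (ZMod p) M => η v) h).trans rfl

theorem rho_mul_apply (g h : Γℚ) (v : M) : M.ρ (g * h) v = M.ρ g (M.ρ h v) := by
  rw [map_mul]
  rfl

theorem rho_inv_apply (g : Γℚ) (v : M) : M.ρ g⁻¹ (M.ρ g v) = v := by
  rw [← rho_mul_apply, inv_mul_cancel, map_one]
  rfl

theorem cupAt_cocycle (x : LocCocycles M q) (y : LocDualCocycles M q)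
    (σ τ ρ : primeLocalGaloisGroup q) :
    locChi p q σ * cupAt x y τ ρ + cupAt x y σ (τ * ρ) =
      cupAt x y (σ * τ) ρ + cupAt x y σ τ := by
  simp only [cupAt_def]
  rw [dual_cocycle_apply, loc_cocycle x τ ρ, (primeLocalToGlobal q).map_mul, rho_mul_apply,
    rho_inv_apply, map_add (M.ρ (primeLocalToGlobal q σ)), map_add (y σ : Module.Dual (ZMod p) M)]
  abel

section level

variable {L : IntermediateField ℚ (AlgebraicClosure ℚ)} [IsGalois ℚ L]

theorem rho_value {x : LocCocycles M q} (hx : IsConstAt L q x) {s : primeLocalGaloisGroup q}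
    (hs : locTo L q s = 1) (g : primeLocalGaloisGroup q) :
    M.ρ (primeLocalToGlobal q s) (x g) = x g := by
  have h := loc_cocycle x s g
  rw [hx.left hs g, hx.eq (σ := s) (τ := 1) (by rw [hs, map_one]), cocycles₁_map_one, add_zero] at h
  exact h.symm

theorem isConstAt_cupAt_right {x : LocCocycles M q} (hx : IsConstAt L q x)
    (y : LocDualCocycles M q) (σ : primeLocalGaloisGroup q) : IsConstAt L q (cupAt x y σ) :=
  fun g s hs => by simp only [cupAt_def]; rw [hx g s hs]

theorem isConstAt_cupAt_left {x : LocCocycles M q} (hx : IsConstAt L q x)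
    {y : LocDualCocycles M q} (hy : IsConstAt L q y) (τ : primeLocalGaloisGroup q) :
    IsConstAt L q fun σ => cupAt x y σ τ := fun g s hs => by
  simp only [cupAt_def]
  rw [hy g s hs, (primeLocalToGlobal q).map_mul, rho_mul_apply, rho_value hx hs]

end level

/-- A common level for two local cocycles. -/
theorem exists_common_level {x : LocCocycles M q} {y : LocDualCocycles M q}
    (hx : IsLevelConstant₁ (primeLocalToGlobal q) x)
    (hy : IsLevelConstant₁ (primeLocalToGlobal q) y) :
    ∃ L : IntermediateField ℚ (AlgebraicClosure ℚ), ∃ _ : NumberField L, ∃ _ : IsGalois ℚ L,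
      IsConstAt L q x ∧ IsConstAt L q y := by
  obtain ⟨F, hF, hxF⟩ := hx
  obtain ⟨F', hF', hyF'⟩ := hy
  haveI := hF
  haveI := hF'
  haveI : FiniteDimensional ℚ ↥(F ⊔ F') := IntermediateField.finiteDimensional_sup F F'
  obtain ⟨L, hL, hL', hle⟩ := exists_galois_above (F ⊔ F')
  exact ⟨L, hL, hL', isConstAt_of_le (le_sup_left.trans hle) hxF,
    isConstAt_of_le (le_sup_right.trans hle) hyF'⟩

/-- Cohomologous cocycles differ by a coboundary. -/
theorem exists_shift_of_eq {Γ : Type} [Group Γ] {N : Rep (ZMod p) Γ} (x x' : cocycles₁ N)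
    (h : (H1π N).hom x' = (H1π N).hom x) : ∃ a : N, ∀ g, x' g = x g + (N.ρ g a - a) := by
  have h0 : (H1π N).hom (x' - x) = 0 := by rw [map_sub, h, sub_self]
  obtain ⟨a, ha⟩ := (H1π_eq_zero_iff _).1 h0
  refine ⟨a, fun g => ?_⟩
  have hg : N.ρ g a - a = x' g - x g := congrFun ha g
  rw [hg, add_sub_cancel]

/-- Changing the first cocycle by a coboundary changes the cup product by a coboundary. -/
theorem exists_cupAt_shift_left {x x' : LocCocycles M q} {y : LocDualCocycles M q}
    (hx : IsLevelConstant₁ (primeLocalToGlobal q) x)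
    (hx' : IsLevelConstant₁ (primeLocalToGlobal q) x')
    (hy : IsLevelConstant₁ (primeLocalToGlobal q) y)
    (h : (H1π _).hom x' = (H1π _).hom x) :
    ∃ β : primeLocalGaloisGroup q → ZMod p, IsLevelConstant₁ (primeLocalToGlobal q) β ∧
      ∀ σ τ, cupAt x y σ τ = cupAt x' y σ τ + twD1 q β σ τ := by
  obtain ⟨a, ha⟩ := exists_shift_of_eq x x' h
  obtain ⟨L, _, _, hxL, hxL'⟩ : ∃ L : IntermediateField ℚ (AlgebraicClosure ℚ), ∃ _ : NumberField L,
      ∃ _ : IsGalois ℚ L, IsConstAt L q x ∧ IsConstAt L q x' := by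
    obtain ⟨F, hF, hxF⟩ := hx
    obtain ⟨F', hF', hxF'⟩ := hx'
    haveI := hF
    haveI := hF'
    haveI : FiniteDimensional ℚ ↥(F ⊔ F') := IntermediateField.finiteDimensional_sup F F'
    obtain ⟨L, hL, hL', hle⟩ := exists_galois_above (F ⊔ F')
    exact ⟨L, hL, hL', isConstAt_of_le (le_sup_left.trans hle) hxF,
      isConstAt_of_le (le_sup_right.trans hle) hxF'⟩
  obtain ⟨E, _, _, hLE, hyE⟩ := exists_isConstAt (L := L) hy
  have hfix : ∀ s, locTo E q s = 1 → M.ρ (primeLocalToGlobal q s) a = a := fun s hs => by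
    have e1 := ha s
    rw [(hxL.mono hLE).eq (σ := s) (τ := 1) (by rw [hs, map_one]),
      (hxL'.mono hLE).eq (σ := s) (τ := 1) (by rw [hs, map_one]), cocycles₁_map_one, cocycles₁_map_one,
      zero_add, eq_comm, sub_eq_zero] at e1
    exact e1
  refine ⟨fun σ => (y σ : Module.Dual (ZMod p) M) (M.ρ (primeLocalToGlobal q σ) a),
    IsConstAt.isLevelConstant (L := E) fun g s hs => ?_, fun σ τ => ?_⟩
  · show (y (g * s) : Module.Dual (ZMod p) M) (M.ρ (primeLocalToGlobal q (g * s)) a) = _
    rw [hyE g s hs, (primeLocalToGlobal q).map_mul, rho_mul_apply, hfix s hs]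
  · have hτ : x' τ = x τ + (M.ρ (primeLocalToGlobal q τ) a - a) := ha τ
    simp only [cupAt_def, twD1]
    rw [hτ, dual_cocycle_apply, (primeLocalToGlobal q).map_mul, rho_mul_apply, rho_inv_apply, map_add, map_sub,
      map_add, map_sub]
    abel

/-- Changing the second cocycle by a coboundary changes the cup product by a coboundary. -/
theorem exists_cupAt_shift_right {x : LocCocycles M q} {y y' : LocDualCocycles M q}
    (hx : IsLevelConstant₁ (primeLocalToGlobal q) x)
    (h : (H1π _).hom y' = (H1π _).hom y) :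
    ∃ β : primeLocalGaloisGroup q → ZMod p, IsLevelConstant₁ (primeLocalToGlobal q) β ∧
      ∀ σ τ, cupAt x y' σ τ = cupAt x y σ τ + twD1 q β σ τ := by
  obtain ⟨η, hη⟩ := exists_shift_of_eq y y' h
  refine ⟨fun σ => (η : Module.Dual (ZMod p) M) (x σ),
    hx.comp (fun v : M => (η : Module.Dual (ZMod p) M) v), fun σ τ => ?_⟩
  have hσ : ∀ v : M, (y' σ : Module.Dual (ZMod p) M) v = (y σ : Module.Dual (ZMod p) M) v +
      (locChi p q σ * (η : Module.Dual (ZMod p) M) (M.ρ (primeLocalToGlobal q σ)⁻¹ v) -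
        (η : Module.Dual (ZMod p) M) v) := fun v =>
    (congrArg (fun θ : Module.Dual (ZMod p) M => θ v) (hη σ)).trans rfl
  simp only [cupAt_def, twD1]
  rw [hσ, rho_inv_apply, loc_cocycle x σ τ, map_add (η : Module.Dual (ZMod p) M)]
  abel

end FermatLib.CFT.GWTate
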