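import Fermat.Agent.CFT.GWLocalDefs
import Fermat.Agent.CFT.CFInfInj

/-!
The pairing at infinity is given by the global invariant, and with it the compatibility of all the
local pairings.

Main API: `GWTate.tate_compat`.
-/

set_option autoImplicit false

open CategoryTheory groupCohomology ExtCitation NumberField

namespace FermatLib.CFT.GWTate

open GWKummer

local notation "Γℚ" => AlgebraicClosure ℚ ≃ₐ[ℚ] AlgebraicClosure ℚ
local notation "Qbar" => AlgebraicClosure ℚ

section shapiro

variable (L : IntermediateField ℚ (AlgebraicClosure ℚ)) [IsGalois ℚ L]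

/-- The decomposition group at infinity seen in the Galois group of a level. -/
noncomputable def infTo : ↥archimedeanDecomposition →* (L ≃ₐ[ℚ] L) := (galTo L).comp archimedeanLoc

theorem infTo_injective (h : infTo L archimedeanGen ≠ 1) : Function.Injective (infTo L) := by
  refine (injective_iff_map_eq_one _).2 fun s hs => ?_
  rcases GWInf.eq_one_or_gen s with rfl | rfl
  · rfl
  · exact absurd hs h

variable [NumberField L]

theorem conj_stdInf :
    (starRingEnd ℂ).comp (complexEmbedding.toRingHom.comp (algebraMap L Qbar)) =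
      (complexEmbedding.toRingHom.comp (algebraMap L Qbar)).comp
        ((infTo L archimedeanGen : L ≃ₐ[ℚ] L) : L →+* L) :=
  RingHom.ext fun x => (complexEmbedding_complexConjugation (x : Qbar)).symm.trans
    (congrArg complexEmbedding (coe_galTo L complexConjugation x).symm)

theorem infValue_smul (σ : ↥archimedeanDecomposition) (f : Idele L) :
    infValue L (infTo L σ • f) = σ • infValue L f := by
  rcases GWInf.eq_one_or_gen σ with rfl | rfl
  · rw [map_one, one_smul, one_smul]
  · rw [archimedeanGen_smul]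
    show f.inf ((complexEmbedding.toRingHom.comp (algebraMap L Qbar)).comp
      ((infTo L archimedeanGen : L ≃ₐ[ℚ] L) : L →+* L)) = _
    rw [← conj_stdInf]
    exact f.2.2.2 _

variable {L}

/-- An idele cocycle at infinity with value a local coboundary is a coboundary. -/
theorem mem_B2_of_infValue_eq_d1 (hL : infTo L archimedeanGen ≠ 1)
    {f : (L ≃ₐ[ℚ] L) × (L ≃ₐ[ℚ] L) → Idele L} (hf : f ∈ Z2 (L ≃ₐ[ℚ] L) (Idele L))
    (hval : ∀ t, f t ∈ infIdeles L) (b : ↥archimedeanDecomposition → CUnits)
    (hfb : ∀ σ τ, infValue L (f (infTo L σ, infTo L τ)) = σ • b τ - b (σ * τ) + b σ) :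
    f ∈ B2 (L ≃ₐ[ℚ] L) (Idele L) := by
  classical
  let e : ↥archimedeanDecomposition ≃* (infTo L).range :=
    MonoidHom.ofInjective (infTo_injective L hL)
  letI : DistribMulAction (infTo L).range CUnits :=
    DistribMulAction.compHom CUnits e.symm.toMonoidHom
  have hsmul : ∀ σ (x : CUnits), e σ • x = σ • x := fun σ x =>
    congrArg (fun z : ↥archimedeanDecomposition => z • x) (e.symm_apply_apply σ)
  have hco : IsCoinducedOn (infTo L).range (infIdeles L) (infValue L) := by
    refine ⟨fun g a ha r φ => ha r _, fun k a _ => ?_, fun F hF => ?_⟩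
    · obtain ⟨σ, rfl⟩ := e.surjective k
      rw [hsmul]
      exact infValue_smul L σ a
    set φ := complexEmbedding.toRingHom.comp (algebraMap L Qbar) with hφ
    have heq : ∀ ψ : L →+* ℂ, F (autOfInf φ ((starRingEnd ℂ).comp ψ)) =
        conjUnits (F (autOfInf φ ψ)) := by
      intro ψ
      have he : (starRingEnd ℂ).comp ψ =
          φ.comp ((infTo L archimedeanGen * autOfInf φ ψ : L ≃ₐ[ℚ] L) : L →+* L) := by
        conv_lhs => rw [← comp_autOfInf φ ψ, ← RingHom.comp_assoc, hφ, conj_stdInf]
        rfl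
      rw [he, autOfInf_comp, ← archimedeanGen_smul, ← hsmul]
      exact hF (e archimedeanGen) _
    refine ⟨singleInf (fun ψ => F (autOfInf φ ψ)) heq, ⟨fun r ψ => rfl, fun x => ?_⟩, ?_⟩
    · show F (autOfInf φ (φ.comp (x : L →+* L))) = F x
      rw [autOfInf_comp]
    · rintro a ⟨ha, hx⟩
      refine idele_ext (fun r ψ => congrArg QUnits.toField (ha r ψ)) fun ψ => congrArg CUnits.toField ?_
      show a.inf ψ = F (autOfInf φ ψ)
      rw [← hx (autOfInf φ ψ)]
      conv_lhs => rw [← comp_autOfInf φ ψ]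
      rfl
  obtain ⟨c, -, hc⟩ := hco.h2_injective hf hval (mem_B2_iff.2 ⟨fun k => b (e.symm k), fun k k' => by
    obtain ⟨σ, rfl⟩ := e.surjective k
    obtain ⟨τ, rfl⟩ := e.surjective k'
    rw [← map_mul, hsmul]
    simp only [e.symm_apply_apply]
    exact hfb σ τ⟩)
  exact ⟨c, hc⟩

end shapiro

section inflation

variable {L L' : IntermediateField ℚ (AlgebraicClosure ℚ)} [NumberField L] [NumberField L']
  [IsGalois ℚ L]

omit [IsGalois ℚ L] in
theorem ideleLe_mem_infIdeles (h : L ≤ L') {f : Idele L} (hf : f ∈ infIdeles L) :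
    ideleLe h f ∈ infIdeles L' := fun r _ => hf r _

variable [IsGalois ℚ L']

omit [NumberField L] [NumberField L'] in
theorem galRes_infTo (h : L ≤ L') (σ : ↥archimedeanDecomposition) :
    galRes h (infTo L' σ) = infTo L σ := galRes_galTo L h _

theorem infValue_ideleInfl (h : L ≤ L') (f : (L ≃ₐ[ℚ] L) × (L ≃ₐ[ℚ] L) → Idele L)
    (σ τ : ↥archimedeanDecomposition) :
    infValue L' (ideleInfl h f (infTo L' σ, infTo L' τ)) =
      infValue L (f (infTo L σ, infTo L τ)) := by
  rw [← galRes_infTo h σ, ← galRes_infTo h τ]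
  rfl

end inflation

section model

theorem exists_sqrt_neg_one : ∃ i : AlgebraicClosure ℚ, IsPrimitiveRoot i 4 :=
  HasEnoughRootsOfUnity.exists_primitiveRoot (AlgebraicClosure ℚ) 4

/-- A square root of `-1`. -/
noncomputable def imagUnit : AlgebraicClosure ℚ := exists_sqrt_neg_one.choose

theorem imagUnit_spec : IsPrimitiveRoot imagUnit 4 := exists_sqrt_neg_one.choose_spec

theorem imagUnit_mul_self : imagUnit * imagUnit = -1 := by
  rw [← sq]
  exact (imagUnit_spec.pow (by norm_num) (show 4 = 2 * 2 by norm_num)).eq_neg_one_of_two_right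

theorem conj_imagUnit : complexConjugation imagUnit = -imagUnit := by
  refine complexEmbedding.toRingHom.injective ?_
  show complexEmbedding (complexConjugation imagUnit) = complexEmbedding (-imagUnit)
  rw [complexEmbedding_complexConjugation, map_neg]
  have h : complexEmbedding imagUnit * complexEmbedding imagUnit = -1 := by
    rw [← map_mul, imagUnit_mul_self, map_neg, map_one]
  have hre := congrArg Complex.re h
  have him := congrArg Complex.im h
  simp only [Complex.mul_re, Complex.mul_im, Complex.neg_re, Complex.neg_im, Complex.one_re,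
    Complex.one_im, neg_zero] at hre him
  have h0 : (complexEmbedding imagUnit).re = 0 := by
    by_contra hne
    have : (complexEmbedding imagUnit).im = 0 := by
      rcases mul_eq_zero.1 (show (complexEmbedding imagUnit).re * (complexEmbedding imagUnit).im = 0
        by linarith) with h1 | h1
      · exact absurd h1 hne
      · exact h1
    rw [this] at hre
    nlinarith
  exact Complex.ext (by simp [h0]) (by simp)

/-- The field of fourth roots of unity. -/
noncomputable def gaussField : IntermediateField ℚ (AlgebraicClosure ℚ) :=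
  IntermediateField.adjoin ℚ {imagUnit}

theorem gaussField_isCyclotomic : IsCyclotomicExtension {4} ℚ gaussField :=
  haveI : Algebra.IsIntegral ℚ Qbar := (AlgebraicClosure.isAlgebraic ℚ).isIntegral
  imagUnit_spec.intermediateField_adjoin_isCyclotomicExtension ℚ

instance gaussField_finite : FiniteDimensional ℚ gaussField :=
  haveI := gaussField_isCyclotomic
  IsCyclotomicExtension.finiteDimensional {4} ℚ gaussField

instance gaussField_numberField : NumberField gaussField :=
  @NumberField.mk _ _ inferInstance gaussField_finite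

instance gaussField_isGalois : IsGalois ℚ gaussField :=
  haveI := gaussField_isCyclotomic
  IsCyclotomicExtension.isGalois {4} ℚ gaussField

theorem infTo_gen_ne_one {L : IntermediateField ℚ (AlgebraicClosure ℚ)} [IsGalois ℚ L]
    (h : gaussField ≤ L) : infTo L archimedeanGen ≠ 1 := by
  intro h1
  have := (IntermediateField.mem_fixingSubgroup_iff L _).1 ((galTo_eq_one_iff L _).1 h1) imagUnit
    (h (IntermediateField.mem_adjoin_simple_self ℚ imagUnit))
  rw [archimedeanLoc_archimedeanGen, conj_imagUnit] at this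
  have h0 : imagUnit = 0 := by linear_combination -(this : -imagUnit = imagUnit) / 2
  exact imagUnit_spec.ne_zero (by norm_num) h0

theorem gaussField_gal_cases (g : gaussField ≃ₐ[ℚ] gaussField) :
    g = 1 ∨ g = infTo gaussField archimedeanGen := by
  obtain ⟨σ, rfl⟩ := galTo_surjective gaussField g
  have key : ∀ s : Γℚ, s imagUnit = imagUnit → galTo gaussField s = 1 := fun s hs => by
    rw [galTo_eq_one_iff, IntermediateField.mem_fixingSubgroup_iff]
    exact fun x hx => (IntermediateField.forall_mem_adjoin_smul_eq_self_iff ℚ s).2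
      (fun y hy => by rw [Set.mem_singleton_iff.1 hy]; exact hs) x hx
  have h : σ imagUnit * σ imagUnit = imagUnit * imagUnit := by
    rw [← map_mul, imagUnit_mul_self, map_neg, map_one]
  rcases mul_self_eq_mul_self_iff.1 h with h | h
  · exact Or.inl (key σ h)
  · refine Or.inr ?_
    have h1 := key (complexConjugation * σ) (by
      show complexConjugation (σ imagUnit) = imagUnit
      rw [h, map_neg, conj_imagUnit, neg_neg])
    rw [map_mul] at h1
    show galTo gaussField σ = galTo gaussField complexConjugation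
    rw [eq_inv_of_mul_eq_one_right h1, ← map_inv, complexConjugation_inv]

theorem toField_toCUnits_rootHom_one {ζ : AlgebraicClosure ℚ} (hζ : IsPrimitiveRoot ζ 2) :
    haveI : Fact (Nat.Prime 2) := ⟨Nat.prime_two⟩
    CUnits.toField (toCUnits (rootHom hζ 1)) = -1 := by
  haveI : Fact (Nat.Prime 2) := ⟨Nat.prime_two⟩
  rw [toField_toCUnits, el_rootHom, ZMod.val_one, pow_one, hζ.eq_neg_one_of_two_right, map_neg,
    map_one]

open Classical in
/-- The nontrivial class at infinity of `ℚ(i)`, and that it is not trivial globally. -/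
theorem exists_model {ζ : AlgebraicClosure ℚ} (hζ : IsPrimitiveRoot ζ 2) :
    haveI : Fact (Nat.Prime 2) := ⟨Nat.prime_two⟩
    ∃ f : (gaussField ≃ₐ[ℚ] gaussField) × (gaussField ≃ₐ[ℚ] gaussField) → Idele gaussField,
      f ∈ Z2 (gaussField ≃ₐ[ℚ] gaussField) (Idele gaussField) ∧
      (∀ t, f t ∈ infIdeles gaussField) ∧
      (∀ σ τ : ↥archimedeanDecomposition,
        infValue gaussField (f (infTo gaussField σ, infTo gaussField τ)) =
          toCUnits (rootHom hζ (if σ ≠ 1 ∧ τ ≠ 1 then 1 else 0))) ∧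
      classCochain gaussField f ∉
        B2 (gaussField ≃ₐ[ℚ] gaussField) (IdeleClass gaussField) := by
  classical
  haveI : Fact (Nat.Prime 2) := ⟨Nat.prime_two⟩
  set φ := complexEmbedding.toRingHom.comp (algebraMap gaussField Qbar) with hφ
  set c := infTo gaussField archimedeanGen with hcdef
  have hc1 : c ≠ 1 := infTo_gen_ne_one le_rfl
  have hreal : conjUnits (toCUnits (rootHom hζ 1)) = toCUnits (rootHom hζ 1) :=
    CUnits.toField_injective (by
      rw [CUnits.toField_conjUnits, toField_toCUnits_rootHom_one hζ, map_neg, map_one])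
  set A := infPlaceIdele (⊤ : Subgroup (gaussField ≃ₐ[ℚ] gaussField)) φ
    (toCUnits (rootHom hζ 1)) (fun _ _ _ => hreal) (fun _ => hreal)
  obtain ⟨hA1, hA2, hA3, hA4⟩ := infPlaceIdele_spec (⊤ : Subgroup (gaussField ≃ₐ[ℚ] gaussField)) φ
    (toCUnits (rootHom hζ 1)) (fun _ _ _ => hreal) (fun _ => hreal)
  have hA : A ∈ infPart φ := ⟨hA3, fun ψ _ => by
    rcases gaussField_gal_cases (autOfInf φ ψ) with h | h
    · exact Or.inl (((comp_autOfInf φ ψ).symm).trans (by rw [h]; rfl))
    · exact Or.inr (((comp_autOfInf φ ψ).symm).trans (by rw [h, hφ, conj_stdInf]))⟩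
  have hfix : ∀ g : gaussField ≃ₐ[ℚ] gaussField, g • A = A := fun g => hA1 ⟨g, Subgroup.mem_top g⟩
  let f : (gaussField ≃ₐ[ℚ] gaussField) × (gaussField ≃ₐ[ℚ] gaussField) → Idele gaussField :=
    fun t => if t.1 ≠ 1 ∧ t.2 ≠ 1 then A else 0
  have hcc : c * c = 1 := by
    rw [hcdef, ← map_mul, GWInf.gen_mul_gen, map_one]
  have hZ : f ∈ Z2 (gaussField ≃ₐ[ℚ] gaussField) (Idele gaussField) := mem_Z2_iff.2 fun x y z => by
    rcases gaussField_gal_cases x with rfl | rfl <;> rcases gaussField_gal_cases y with rfl | rfl <;>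
      rcases gaussField_gal_cases z with rfl | rfl <;>
      simp [f, ← hcdef, hc1, hcc, hfix, smul_zero]
  refine ⟨f, hZ, fun t => ?_, fun σ τ => ?_, fun h => ?_⟩
  · dsimp only [f]
    split_ifs
    · exact fun r ψ => hA3 r ψ
    · exact zero_mem _
  · have h0 : infValue gaussField (0 : Idele gaussField) = toCUnits (rootHom hζ 0) := by
      rw [map_zero, map_zero, map_zero]
    rcases GWInf.eq_one_or_gen σ with rfl | rfl <;> rcases GWInf.eq_one_or_gen τ with rfl | rfl <;>
      simp only [f, map_one, ← hcdef, ne_eq, not_true_eq_false, false_and, and_false, if_false,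
        hc1, GWInf.gen_ne_one, not_false_eq_true, and_self, if_true, h0]
    exact hA2
  · have hcomp : φ.comp (c : gaussField →+* gaussField) = (starRingEnd ℂ).comp φ :=
      (conj_stdInf gaussField).symm
    refine Chi.cupChar_not_mem_B2 (φ := φ) hcomp hc1 (H := ⊤) (Subgroup.mem_top c)
      (fun g _ => gaussField_gal_cases g) hA (fun g => hfix g) ?_
      (f := fun t => f ((t.1 : gaussField ≃ₐ[ℚ] gaussField), (t.2 : gaussField ≃ₐ[ℚ] gaussField)))
      (fun x y => ?_) ?_
    · rw [hA2, toField_toCUnits_rootHom_one hζ]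
      norm_num
    · simp only [f, ne_eq, OneMemClass.coe_eq_one]
    · exact cochainMap2_mem_B2 (isCompat_subtype (⊤ : Subgroup (gaussField ≃ₐ[ℚ] gaussField))) h

open Classical in
/-- The model class at `ℚ(i)` with its nonzero invariant. -/
private theorem exists_killed_model {ζ : AlgebraicClosure ℚ} (hζ : IsPrimitiveRoot ζ 2) :
    haveI : Fact (Nat.Prime 2) := ⟨Nat.prime_two⟩
    ∃ f : (gaussField ≃ₐ[ℚ] gaussField) × (gaussField ≃ₐ[ℚ] gaussField) → Idele gaussField,
      f ∈ Z2 (gaussField ≃ₐ[ℚ] gaussField) (Idele gaussField) ∧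
      (∀ t, f t ∈ infIdeles gaussField) ∧
      (∀ σ τ : ↥archimedeanDecomposition,
        infValue gaussField (f (infTo gaussField σ, infTo gaussField τ)) =
          toCUnits (rootHom hζ (if σ ≠ 1 ∧ τ ≠ 1 then 1 else 0))) ∧
      ∃ Z : classesKilled 2 (gaussField ≃ₐ[ℚ] gaussField) (IdeleClass gaussField),
        (Z : (gaussField ≃ₐ[ℚ] gaussField) × (gaussField ≃ₐ[ℚ] gaussField) → IdeleClass gaussField) =
            classCochain gaussField f ∧
          globalInv 2 gaussField Z ≠ 0 := by
  classical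
  haveI : Fact (Nat.Prime 2) := ⟨Nat.prime_two⟩
  letI : AddMonoid ((gaussField ≃ₐ[ℚ] gaussField) × (gaussField ≃ₐ[ℚ] gaussField) → IdeleClass gaussField) :=
    Pi.addMonoid
  obtain ⟨f0, hf0, hval0, hv0, hnot⟩ := exists_model hζ
  have hk0 : 2 • classCochain gaussField f0 ∈
      B2 (gaussField ≃ₐ[ℚ] gaussField) (IdeleClass gaussField) := by
    rw [← map_nsmul]
    refine classCochain_mem_B2 (mem_B2_of_infValue_eq_d1 (infTo_gen_ne_one le_rfl)
      (AddSubgroup.nsmul_mem _ hf0 2) (fun t => AddSubgroup.nsmul_mem _ (hval0 t) 2) (fun _ => 0)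
      fun σ τ => ?_)
    rw [Pi.smul_apply, map_nsmul, hv0, smul_zero, sub_self, add_zero, ← map_nsmul, ← map_nsmul,
      nsmul_eq_mul, ZMod.natCast_self, zero_mul, map_zero, map_zero]
  let Z0 : classesKilled 2 (gaussField ≃ₐ[ℚ] gaussField) (IdeleClass gaussField) :=
    ⟨classCochain gaussField f0, mem_classesKilled.2
      ⟨cochainMap2_mem_Z2 (A := Idele gaussField) (B := IdeleClass gaussField)
        (by intro g a; rfl) hf0, hk0⟩⟩
  exact ⟨f0, hf0, hval0, hv0, Z0, rfl, fun e => hnot ((globalInv_eq_zero_iff 2 gaussField Z0).1 e)⟩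

end model

variable {p : ℕ} [Fact p.Prime] {M : Rep (ZMod p) (AlgebraicClosure ℚ ≃ₐ[ℚ] AlgebraicClosure ℚ)}

/-- Idele classes at infinity with local value a coboundary have invariant zero, and two with the
same local value have the same invariant. -/
theorem globalInv_eq_of_infValue {L : IntermediateField ℚ (AlgebraicClosure ℚ)} [NumberField L]
    [IsGalois ℚ L] (hL : infTo L archimedeanGen ≠ 1)
    {f f' : (L ≃ₐ[ℚ] L) × (L ≃ₐ[ℚ] L) → Idele L}
    (Z Z' : classesKilled p (L ≃ₐ[ℚ] L) (IdeleClass L))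
    (hf : f ∈ Z2 (L ≃ₐ[ℚ] L) (Idele L)) (hf' : f' ∈ Z2 (L ≃ₐ[ℚ] L) (Idele L))
    (hval : ∀ t, f t ∈ infIdeles L) (hval' : ∀ t, f' t ∈ infIdeles L)
    (hZ : (Z : (L ≃ₐ[ℚ] L) × (L ≃ₐ[ℚ] L) → IdeleClass L) = classCochain L f)
    (hZ' : (Z' : (L ≃ₐ[ℚ] L) × (L ≃ₐ[ℚ] L) → IdeleClass L) = classCochain L f')
    (b : ↥archimedeanDecomposition → CUnits)
    (h : ∀ σ τ, infValue L (f (infTo L σ, infTo L τ)) =
      σ • b τ - b (σ * τ) + b σ + infValue L (f' (infTo L σ, infTo L τ))) :
    globalInv p L Z = globalInv p L Z' := by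
  rw [← sub_eq_zero, ← map_sub, globalInv_eq_zero_iff, AddSubgroup.coe_sub, hZ, hZ']
  refine Eq.mp (congrArg (· ∈ B2 (L ≃ₐ[ℚ] L) (IdeleClass L)) (map_sub (classCochain L) f f')) ?_
  refine classCochain_mem_B2 (mem_B2_of_infValue_eq_d1 hL (sub_mem hf hf')
    (fun t => sub_mem (hval t) (hval' t)) b fun σ τ => ?_)
  refine (map_sub (infValue L) _ _).trans ?_
  rw [h, add_sub_cancel_right]

theorem infForm_eq_neg (x : cocycles₁ (Rep.res archimedeanLoc M))
    (y : cocycles₁ (Rep.res archimedeanLoc (M.dualTwist (cycloChar p)))) :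
    GWInf.infForm M x y = -GWInf.infForm M x y := by
  have h : GWInf.infForm M x y = GWInf.evalDual M y (GWInf.evalGen M x) :=
    (GWInf.infForm_apply M x y).trans (GWInf.evalDual_conjEnd M y _)
  conv_lhs => rw [GWInf.infForm_apply, GWInf.conjEnd_evalGen, map_neg]
  rw [h]

open Classical in
theorem cupVal_inf (x : cocycles₁ (Rep.res archimedeanLoc M))
    (y : cocycles₁ (Rep.res archimedeanLoc (M.dualTwist (cycloChar p))))
    (σ τ : ↥archimedeanDecomposition) :
    cupVal M archimedeanLoc x y σ τ =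
      if σ ≠ 1 ∧ τ ≠ 1 then GWInf.infForm M x y else 0 := by
  rcases GWInf.eq_one_or_gen σ with rfl | rfl
  · rw [if_neg (by simp), cupVal, cocycles₁_map_one]
    rfl
  rcases GWInf.eq_one_or_gen τ with rfl | rfl
  · rw [if_neg (by simp), cupVal, cocycles₁_map_one]
    exact (congrArg _ (map_zero _)).trans (map_zero _)
  · rw [if_pos ⟨GWInf.gen_ne_one, GWInf.gen_ne_one⟩]
    rfl

theorem eq_one_of_ne_zero_zmod_two : ∀ a : ZMod 2, a ≠ 0 → a = 1 := by decide

/-- The characterisation of the pairing at infinity at a level with a square root of `-1`. -/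
theorem infCup_compat_above {L : IntermediateField ℚ (AlgebraicClosure ℚ)} [NumberField L]
    [IsGalois ℚ L] (hle0 : gaussField ≤ L) {f : (L ≃ₐ[ℚ] L) × (L ≃ₐ[ℚ] L) → Idele L}
    (Z : classesKilled p (L ≃ₐ[ℚ] L) (IdeleClass L)) (hf : f ∈ Z2 (L ≃ₐ[ℚ] L) (Idele L))
    (hval : ∀ t, f t ∈ infIdeles L)
    (hZ : (Z : (L ≃ₐ[ℚ] L) × (L ≃ₐ[ℚ] L) → IdeleClass L) = classCochain L f)
    (x : cocycles₁ (Rep.res archimedeanLoc M))
    (y : cocycles₁ (Rep.res archimedeanLoc (M.dualTwist (cycloChar p))))
    (b : ↥archimedeanDecomposition → CUnits) {ζ : AlgebraicClosure ℚ} (hζ : IsPrimitiveRoot ζ p)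
    (h : ∀ σ τ, infValue L (f (infTo L σ, infTo L τ)) =
      σ • b τ - b (σ * τ) + b σ + toCUnits (rootHom hζ (cupVal M archimedeanLoc x y σ τ))) :
    globalInv p L Z = GWInf.infForm M x y := by
  classical
  have hc : infTo L archimedeanGen ≠ 1 := infTo_gen_ne_one hle0
  by_cases h0 : GWInf.infForm M x y = 0
  · have e : globalInv p L Z = globalInv p L 0 := by
      refine globalInv_eq_of_infValue hc Z 0 hf (zero_mem _) hval (fun _ => zero_mem _) hZ
        (map_zero (classCochain L)).symm b fun σ τ => ?_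
      rw [h, cupVal_inf, h0, ite_self, map_zero, map_zero, Pi.zero_apply, map_zero]
    exact e.trans ((map_zero (globalInv p L)).trans h0.symm)
  obtain rfl : p = 2 := by
    by_contra hp
    have h2 : (2 : ZMod p) ≠ 0 := fun e => hp <| by
      have hd : p ∣ 2 := (ZMod.natCast_eq_zero_iff 2 p).1 (by exact_mod_cast e)
      exact (Nat.prime_dvd_prime_iff_eq (Fact.out : p.Prime) Nat.prime_two).1 hd
    refine h0 ((mul_eq_zero.1 ?_).resolve_left h2)
    linear_combination infForm_eq_neg x y
  have hdec := eq_one_of_ne_zero_zmod_two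
  obtain ⟨f0, hf0, hval0, hv0, Z0, hZ0, hne⟩ := exists_killed_model hζ
  have h1 := hdec _ h0
  have e : globalInv 2 L Z = globalInv 2 L (killedInfl 2 gaussField hle0 Z0) := by
    refine globalInv_eq_of_infValue hc Z (killedInfl 2 gaussField hle0 Z0) hf
      (ideleInfl_mem_Z2 hle0 hf0) hval (fun t => ideleLe_mem_infIdeles hle0 (hval0 _)) hZ
      ((congrArg (classInfl hle0) hZ0).trans (classInfl_classCochain hle0 f0)) b fun σ τ => ?_
    rw [h, infValue_ideleInfl hle0, hv0, cupVal_inf, h1]
  exact (e.trans (globalInv_infl (p := 2) (F := gaussField) hle0 Z0)).trans ((hdec _ hne).trans h1.symm)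

/-- The characterisation of the pairing at infinity. -/
theorem infCup_compat (L : IntermediateField ℚ (AlgebraicClosure ℚ)) [NumberField L]
    [IsGalois ℚ L] (f : (L ≃ₐ[ℚ] L) × (L ≃ₐ[ℚ] L) → Idele L)
    (Z : classesKilled p (L ≃ₐ[ℚ] L) (IdeleClass L)) (hf : f ∈ Z2 (L ≃ₐ[ℚ] L) (Idele L))
    (hval : ∀ t, f t ∈ infIdeles L)
    (hZ : (Z : (L ≃ₐ[ℚ] L) × (L ≃ₐ[ℚ] L) → IdeleClass L) = classCochain L f)
    (x : cocycles₁ (Rep.res archimedeanLoc M))
    (y : cocycles₁ (Rep.res archimedeanLoc (M.dualTwist (cycloChar p))))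
    (b : ↥archimedeanDecomposition → CUnits) {ζ : AlgebraicClosure ℚ} (hζ : IsPrimitiveRoot ζ p)
    (h : ∀ σ τ, infValue L (f (galTo L (archimedeanLoc σ), galTo L (archimedeanLoc τ))) =
      σ • b τ - b (σ * τ) + b σ + toCUnits (rootHom hζ (cupVal M archimedeanLoc x y σ τ))) :
    globalInv p L Z = GWInf.infCup M ((H1π _).hom x) ((H1π _).hom y) := by
  rw [GWInf.infCup_H1π]
  obtain ⟨E, _, _, hle, hle0⟩ : ∃ E : IntermediateField ℚ (AlgebraicClosure ℚ),
      ∃ _ : NumberField E, ∃ _ : IsGalois ℚ E, L ≤ E ∧ gaussField ≤ E :=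
    ⟨L ⊔ gaussField, numberField_sup L gaussField, isGalois_sup L gaussField, le_sup_left,
      le_sup_right⟩
  rw [← globalInv_infl (p := p) (F := L) hle Z]
  refine infCup_compat_above hle0 (killedInfl p L hle Z) (f := ideleInfl hle f)
    (ideleInfl_mem_Z2 hle hf) (fun t => ideleLe_mem_infIdeles hle (hval _)) ?_ x y b hζ
    fun σ τ => ?_
  · change classInfl hle (Z : (L ≃ₐ[ℚ] L) × (L ≃ₐ[ℚ] L) → IdeleClass L) = _
    rw [hZ, classInfl_classCochain]
  · rw [infValue_ideleInfl hle]
    exact h σ τ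

variable (M)

/-- The local pairings are given by the global invariant. -/
theorem tate_compat : TateCompat M (tateRoot_spec p) (tateFin M) (tateInf M) where
  fin L _ _ _ f Z hf hval hZ x y b hx hy hb h :=
    tatePairing_compat L f Z hf hval hZ x y b hx hy hb h
  inf L _ _ f Z hf hval hZ x y b h := infCup_compat L f Z hf hval hZ x y b (tateRoot_spec p) h

end FermatLib.CFT.GWTate
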