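import Fermat.Agent.CFT.GWTateLocal

/-!
The invariant of local twisted two-cochains at a prime, defined through idele cocycles supported
there.

`IsInv hζ q c a` says that some idele cocycle supported at `q` has value `ζ ^ c` at the standard
embedding, up to a level-constant coboundary, and invariant `a`.
-/

set_option autoImplicit false

open CategoryTheory groupCohomology ExtCitation NumberField

namespace FermatLib.CFT.GWTate

open GWKummer

local notation "Γℚ" => AlgebraicClosure ℚ ≃ₐ[ℚ] AlgebraicClosure ℚ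
local notation "Qbar" => AlgebraicClosure ℚ

variable {p : ℕ} [Fact p.Prime] {ζ : AlgebraicClosure ℚ} (hζ : IsPrimitiveRoot ζ p) (q : Nat.Primes)

/-- `a ↦ ζ ^ a` at the standard place over `q`. -/
noncomputable def locRoot : ZMod p →+ QUnits q := (toQUnits q).comp (rootHom hζ)

theorem locRoot_apply (a : ZMod p) : locRoot hζ q a = toQUnits q (rootHom hζ a) := rfl

/-- The cyclotomic twist on the local group. -/
noncomputable def locChi (p : ℕ) [Fact p.Prime] (q : Nat.Primes) (σ : primeLocalGaloisGroup q) :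
    ZMod p :=
  ((cycloChar p (primeLocalToGlobal q σ) : (ZMod p)ˣ) : ZMod p)

theorem smul_locRoot (σ : primeLocalGaloisGroup q) (a : ZMod p) :
    σ • locRoot hζ q a = locRoot hζ q (locChi p q σ * a) := by
  rw [locRoot_apply, locRoot_apply, ← toQUnits_smul, smul_rootHom]
  rfl

theorem nsmul_locRoot (a : ZMod p) : p • locRoot hζ q a = 0 := by
  rw [← map_nsmul, nsmul_eq_mul, ZMod.natCast_self, zero_mul, map_zero]

/-- The coboundary of a twisted one-cochain. -/
noncomputable def twD1 (β : primeLocalGaloisGroup q → ZMod p)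
    (σ τ : primeLocalGaloisGroup q) : ZMod p :=
  locChi p q σ * β τ - β (σ * τ) + β σ

/-- `a` is the invariant of the cochain `c`, witnessed at the level `L`. -/
def IsInvAt (L : IntermediateField ℚ (AlgebraicClosure ℚ)) [NumberField L] [IsGalois ℚ L]
    (c : primeLocalGaloisGroup q → primeLocalGaloisGroup q → ZMod p) (a : ZMod p) : Prop :=
  ∃ (f : (L ≃ₐ[ℚ] L) × (L ≃ₐ[ℚ] L) → Idele L)
    (Z : classesKilled p (L ≃ₐ[ℚ] L) (IdeleClass L)) (b : primeLocalGaloisGroup q → QUnits q),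
    f ∈ Z2 (L ≃ₐ[ℚ] L) (Idele L) ∧ (∀ t, f t ∈ primeIdeles L q) ∧
    (Z : (L ≃ₐ[ℚ] L) × (L ≃ₐ[ℚ] L) → IdeleClass L) = classCochain L f ∧
    IsLevelConstant₁ (primeLocalToGlobal q) b ∧
    (∀ σ τ, locVal L q f σ τ = σ • b τ - b (σ * τ) + b σ + locRoot hζ q (c σ τ)) ∧
    globalInv p L Z = a

/-- `a` is the invariant of the cochain `c`. -/
def IsInv (c : primeLocalGaloisGroup q → primeLocalGaloisGroup q → ZMod p) (a : ZMod p) : Prop :=
  ∃ L : IntermediateField ℚ (AlgebraicClosure ℚ), ∃ _ : NumberField L, ∃ _ : IsGalois ℚ L,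
    IsInvAt hζ q L c a

variable {hζ q}
variable {c c' : primeLocalGaloisGroup q → primeLocalGaloisGroup q → ZMod p} {a a' : ZMod p}

theorem IsInvAt.isInv {L : IntermediateField ℚ (AlgebraicClosure ℚ)} [NumberField L]
    [IsGalois ℚ L] (h : IsInvAt hζ q L c a) : IsInv hζ q c a :=
  ⟨L, inferInstance, inferInstance, h⟩

theorem IsInvAt.mono {L L' : IntermediateField ℚ (AlgebraicClosure ℚ)} [NumberField L]
    [IsGalois ℚ L] [NumberField L'] [IsGalois ℚ L'] (h : IsInvAt hζ q L c a) (hle : L ≤ L') :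
    IsInvAt hζ q L' c a := by
  obtain ⟨f, Z, b, hf, hval, hZ, hb, hfb, ha⟩ := h
  refine ⟨ideleInfl hle f, killedInfl p L hle Z, b, ideleInfl_mem_Z2 hle hf,
    ideleInfl_mem_primeIdeles hle hval, ?_, hb, fun σ τ => ?_, ?_⟩
  · change classInfl hle (Z : (L ≃ₐ[ℚ] L) × (L ≃ₐ[ℚ] L) → IdeleClass L) = _
    rw [hZ, classInfl_classCochain]
  · rw [locVal_ideleInfl]
    exact hfb σ τ
  · rw [globalInv_infl]
    exact ha

theorem IsInvAt.eq {L : IntermediateField ℚ (AlgebraicClosure ℚ)} [NumberField L] [IsGalois ℚ L]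
    (h : IsInvAt hζ q L c a) (h' : IsInvAt hζ q L c a') : a = a' := by
  obtain ⟨f, Z, b, hf, hval, hZ, hb, hfb, rfl⟩ := h
  obtain ⟨f', Z', b', hf', hval', hZ', hb', hfb', rfl⟩ := h'
  rw [← sub_eq_zero, ← map_sub, globalInv_eq_zero_iff, AddSubgroup.coe_sub, hZ, hZ']
  refine Eq.mp (congrArg (· ∈ B2 (L ≃ₐ[ℚ] L) (IdeleClass L)) (map_sub (classCochain L) f f')) ?_
  refine classCochain_mem_B2_of_locVal (sub_mem hf hf') (fun t => sub_mem (hval t) (hval' t))
    (b := fun g => b g - b' g) ?_ fun σ τ => ?_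
  · obtain ⟨F, hF, hbF⟩ := hb
    obtain ⟨F', hF', hbF'⟩ := hb'
    haveI := hF
    haveI := hF'
    exact ⟨F ⊔ F', IntermediateField.finiteDimensional_sup F F', fun g s hs =>
      congrArg₂ (· - ·) (hbF g s (IntermediateField.fixingSubgroup_antitone le_sup_left hs))
        (hbF' g s (IntermediateField.fixingSubgroup_antitone le_sup_right hs))⟩
  · rw [map_sub, Pi.sub_apply, Pi.sub_apply, hfb, hfb', smul_sub]
    abel

theorem exists_common {L L' : IntermediateField ℚ (AlgebraicClosure ℚ)} [NumberField L]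
    [IsGalois ℚ L] [NumberField L'] [IsGalois ℚ L'] (h : IsInvAt hζ q L c a)
    (h' : IsInvAt hζ q L' c' a') :
    ∃ E : IntermediateField ℚ (AlgebraicClosure ℚ), ∃ _ : NumberField E, ∃ _ : IsGalois ℚ E,
      IsInvAt hζ q E c a ∧ IsInvAt hζ q E c' a' :=
  haveI := numberField_sup L L'
  haveI := isGalois_sup L L'
  ⟨L ⊔ L', inferInstance, inferInstance, h.mono le_sup_left, h'.mono le_sup_right⟩

theorem IsInv.eq (h : IsInv hζ q c a) (h' : IsInv hζ q c a') : a = a' := by
  obtain ⟨L, _, _, h⟩ := h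
  obtain ⟨L', _, _, h'⟩ := h'
  obtain ⟨E, _, _, hE, hE'⟩ := exists_common h h'
  exact hE.eq hE'

theorem IsInv.add (h : IsInv hζ q c a) (h' : IsInv hζ q c' a') :
    IsInv hζ q (fun σ τ => c σ τ + c' σ τ) (a + a') := by
  obtain ⟨L, _, _, h⟩ := h
  obtain ⟨L', _, _, h'⟩ := h'
  obtain ⟨E, _, _, hE, hE'⟩ := exists_common h h'
  obtain ⟨f, Z, b, hf, hval, hZ, hb, hfb, rfl⟩ := hE
  obtain ⟨f', Z', b', hf', hval', hZ', hb', hfb', rfl⟩ := hE'
  refine ⟨E, inferInstance, inferInstance, f + f', Z + Z', b + b', add_mem hf hf',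
    fun t => add_mem (hval t) (hval' t), ?_, hb.add hb', fun σ τ => ?_, map_add _ _ _⟩
  · rw [AddSubgroup.coe_add, hZ, hZ', map_add]
  · rw [map_add, Pi.add_apply, Pi.add_apply, hfb, hfb', map_add]
    simp only [Pi.add_apply, smul_add]
    abel

theorem IsInv.congr (h : IsInv hζ q c a) (β : primeLocalGaloisGroup q → ZMod p)
    (hβ : IsLevelConstant₁ (primeLocalToGlobal q) β)
    (he : ∀ σ τ, c σ τ = c' σ τ + twD1 q β σ τ) : IsInv hζ q c' a := by
  obtain ⟨L, _, _, f, Z, b, hf, hval, hZ, hb, hfb, ha⟩ := h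
  refine ⟨L, inferInstance, inferInstance, f, Z, b + fun g => locRoot hζ q (β g), hf, hval, hZ,
    hb.add (hβ.comp (locRoot hζ q)), fun σ τ => ?_, ha⟩
  rw [hfb, he, twD1, map_add, map_add, map_sub, ← smul_locRoot]
  simp only [Pi.add_apply, smul_add]
  abel

/-- A twisted cocycle depending only on a finite level has an invariant. -/
theorem exists_isInv {L : IntermediateField ℚ (AlgebraicClosure ℚ)} [NumberField L] [IsGalois ℚ L]
    (hl : ∀ τ, IsConstAt L q fun σ => c σ τ) (hr : ∀ σ, IsConstAt L q (c σ))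
    (hc : ∀ σ τ ρ, locChi p q σ * c τ ρ + c σ (τ * ρ) = c (σ * τ) ρ + c σ τ) :
    ∃ a, IsInv hζ q c a := by
  haveI : FiniteDimensional ℚ (IntermediateField.adjoin ℚ ({ζ} : Set (AlgebraicClosure ℚ))) :=
    IntermediateField.adjoin.finiteDimensional
      (hζ.isIntegral (Fact.out : p.Prime).pos).tower_top
  haveI : FiniteDimensional ℚ
      ↥(L ⊔ IntermediateField.adjoin ℚ ({ζ} : Set (AlgebraicClosure ℚ))) :=
    IntermediateField.finiteDimensional_sup _ _
  obtain ⟨E, hE, hE', hle⟩ :=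
    exists_galois_above (L ⊔ IntermediateField.adjoin ℚ ({ζ} : Set (AlgebraicClosure ℚ)))
  have hLE : L ≤ E := le_sup_left.trans hle
  have hζE : ζ ∈ E := hle (le_sup_right (a := L) (IntermediateField.mem_adjoin_simple_self ℚ ζ))
  have hfix : ∀ σ τ s, locTo E q s = 1 → s • locRoot hζ q (c σ τ) = locRoot hζ q (c σ τ) := by
    intro σ τ s hs
    rw [locRoot_apply, ← toQUnits_smul]
    refine congrArg _ (QbarU.el_injective ?_)
    rw [QbarU.el_smul, el_rootHom, map_pow,
      (IntermediateField.mem_fixingSubgroup_iff E _).1 ((locTo_eq_one_iff E q s).1 hs) ζ hζE]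
  obtain ⟨f, hf, hval, hfc⟩ := exists_locVal_eq (c := fun σ τ => locRoot hζ q (c σ τ))
    (fun τ g s hs => congrArg (locRoot hζ q) ((hl τ).mono hLE g s hs))
    (fun σ g s hs => congrArg (locRoot hζ q) ((hr σ).mono hLE g s hs)) hfix
    fun σ τ ρ => by rw [smul_locRoot, ← map_add, ← map_add, hc]
  have hp : p • classCochain E f ∈ B2 (E ≃ₐ[ℚ] E) (IdeleClass E) := by
    rw [← map_nsmul]
    refine classCochain_mem_B2_of_locVal (AddSubgroup.nsmul_mem _ hf p)
      (fun t => AddSubgroup.nsmul_mem _ (hval t) p) (b := fun _ => 0)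
      (isLevelConstant₁_const _ _) fun σ τ => ?_
    rw [map_nsmul, Pi.smul_apply, Pi.smul_apply, hfc, nsmul_locRoot, smul_zero, sub_self, add_zero]
  have hZ2 : classCochain E f ∈ Z2 (E ≃ₐ[ℚ] E) (IdeleClass E) :=
    cochainMap2_mem_Z2 (A := Idele E) (B := IdeleClass E) (by intro g a; rfl) hf
  exact ⟨_, E, hE, hE', f, ⟨classCochain E f, mem_classesKilled.2 ⟨hZ2, hp⟩⟩, fun _ => 0, hf, hval,
    rfl, isLevelConstant₁_const _ _, fun σ τ => by
      rw [hfc, smul_zero, sub_self, zero_add, zero_add], rfl⟩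

end FermatLib.CFT.GWTate
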