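import Fermat.Agent.CFT.GWUnrLocal
import Fermat.Agent.CFT.LocalUnits
import Fermat.Agent.CFT.LocalPlace
import Fermat.Agent.CFT.IdeleBridge
import Fermat.Agent.Mazur.GunitCyclo

/-!
The tame Kummer character at `q ≠ p`: every continuous `𝔽_p`-valued homomorphism on inertia is a
multiple of it.
-/

set_option autoImplicit false
set_option linter.unusedSectionVars false

open ExtCitation

local instance gwUnrTameQbarIsAlgebraic : Algebra.IsAlgebraic ℚ (AlgebraicClosure ℚ) :=
  AlgebraicClosure.isAlgebraic ℚ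

namespace FermatLib.CFT.GWUnr

local notation "Qbar" => AlgebraicClosure ℚ

variable {p : ℕ} [Fact p.Prime] {q : Nat.Primes}

theorem isInertial_one : Loc.IsInertial (1 : Gloc q) := fun x _ => by simp

theorem isInertial_mul {s t : Gloc q} (hs : Loc.IsInertial s) (ht : Loc.IsInertial t) :
    Loc.IsInertial (s * t) := fun x hx => by
  rw [AlgEquiv.mul_apply]
  exact Loc.norm_sub_lt_trans (hs _ (by rwa [Loc.norm_gloc])) (ht x hx)

theorem isInertial_inv {t : Gloc q} (ht : Loc.IsInertial t) : Loc.IsInertial t⁻¹ := fun x hx => by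
  have h := ht (t⁻¹ x) (by rwa [Loc.norm_gloc])
  rwa [AlgEquiv.aut_inv, AlgEquiv.apply_symm_apply, norm_sub_rev] at h

theorem isInertial_pow {t : Gloc q} (ht : Loc.IsInertial t) (n : ℕ) : Loc.IsInertial (t ^ n) := by
  induction n with
  | zero => exact isInertial_one
  | succ n ih => rw [pow_succ]; exact isInertial_mul ih ht

theorem isInertial_conj (g : Gloc q) {t : Gloc q} (ht : Loc.IsInertial t) :
    Loc.IsInertial (g * t * g⁻¹) := fun x hx => by
  have h := ht (g⁻¹ x) (by rwa [Loc.norm_gloc])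
  calc ‖(g * t * g⁻¹) x - x‖ = ‖g (t (g⁻¹ x) - g⁻¹ x)‖ := by
        rw [map_sub, AlgEquiv.aut_inv, AlgEquiv.apply_symm_apply]
        rfl
    _ = ‖t (g⁻¹ x) - g⁻¹ x‖ := Loc.norm_gloc g _
    _ < 1 := h

/-- Global inertia at the standard place is local inertia up to any finite level. -/
theorem exists_inertial_level (F : IntermediateField ℚ Qbar) [FiniteDimensional ℚ F]
    {g : primeLocalGaloisGroup q}
    (hg : primeLocalToGlobal q g ∈ (primeLocalPlace q).inertiaSubgroupIn ℚ) :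
    ∃ (t : Gloc q) (s : primeLocalGaloisGroup q), Loc.IsInertial t ∧
      primeLocalToGlobal q s ∈ F.fixingSubgroup ∧ g = locEquiv q t * s := by
  have : NumberField F := ⟨⟩
  set τ : Gloc q := (locEquiv q).symm g with hτ
  set φ : Emb F q := stdEmb F q
  have hres : ∀ y : completion φ, ‖y‖ ≤ 1 → ‖τ y - y‖ < 1 := fun y hy => by
    obtain ⟨x, hx⟩ := exists_norm_sub_lt φ y.2 zero_lt_one
    have hx1 : ‖φ x‖ ≤ 1 := by
      have e : φ x = (φ x - y) + (y : PadicAlgCl (q : ℕ)) := by ring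
      rw [e]
      exact (IsUltrametricDist.norm_add_le_max _ _).trans (max_le hx.le hy)
    refine Loc.norm_sub_lt_trans (b := τ (φ x)) ?_ (Loc.norm_sub_lt_trans ?_ hx)
    · rw [← map_sub, Loc.norm_gloc, norm_sub_rev]; exact hx
    · exact isInertial_norm hg hx1
  obtain ⟨t, ht, hagree⟩ := Loc.exists_inertial_agree (completion φ) hres
  refine ⟨t, (locEquiv q t)⁻¹ * g, ht, ?_, (mul_inv_cancel_left _ _).symm⟩
  rw [IntermediateField.mem_fixingSubgroup_iff]
  intro x hx
  apply (padicEmbedding (q : ℕ)).toRingHom.injective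
  show padicEmbedding (q : ℕ) _ = padicEmbedding (q : ℕ) x
  rw [show (locEquiv q t)⁻¹ * g = locEquiv q (t⁻¹ * τ) by
      rw [map_mul, map_inv, hτ, MulEquiv.apply_symm_apply], emb_locToGlobal, AlgEquiv.mul_apply]
  have h := hagree ⟨φ ⟨x, hx⟩, apply_mem_completion φ _⟩
  change t (padicEmbedding (q : ℕ) x) = τ (padicEmbedding (q : ℕ) x) at h
  rw [← h, AlgEquiv.aut_inv, AlgEquiv.symm_apply_apply]

variable (p q) in
theorem exists_kummer_data : ∃ ζ π : Qbar, IsPrimitiveRoot ζ p ∧ π ^ p = ((q : ℕ) : Qbar) := by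
  have : NeZero p := ⟨(Fact.out : p.Prime).ne_zero⟩
  obtain ⟨ζ, hζ⟩ := HasEnoughRootsOfUnity.exists_primitiveRoot Qbar p
  obtain ⟨π, hπ⟩ := IsAlgClosed.exists_pow_nat_eq ((q : ℕ) : Qbar) (Fact.out : p.Prime).pos
  exact ⟨ζ, π, hζ, hπ⟩

variable (p) in
/-- The chosen `p`-th root of unity. -/
noncomputable def kZeta (q : Nat.Primes) : Qbar := (exists_kummer_data p q).choose

variable (p) in
/-- The chosen `p`-th root of `q`. -/
noncomputable def kRoot (q : Nat.Primes) : Qbar := (exists_kummer_data p q).choose_spec.choose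

theorem isPrimitiveRoot_kZeta : IsPrimitiveRoot (kZeta p q) p :=
  (exists_kummer_data p q).choose_spec.choose_spec.1

theorem kRoot_pow : kRoot p q ^ p = ((q : ℕ) : Qbar) :=
  (exists_kummer_data p q).choose_spec.choose_spec.2

theorem kRoot_ne_zero : kRoot p q ≠ 0 := fun h => by
  have := kRoot_pow (p := p) (q := q)
  rw [h, zero_pow (Fact.out : p.Prime).ne_zero] at this
  exact q.2.ne_zero (Nat.cast_eq_zero.1 this.symm)

theorem kZeta_pow_natCast (n : ℕ) : kZeta p q ^ ((n : ZMod p)).val = kZeta p q ^ n := by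
  rw [ZMod.val_natCast]
  conv_rhs => rw [← Nat.mod_add_div n p, pow_add, pow_mul,
    isPrimitiveRoot_kZeta.pow_eq_one, one_pow, mul_one]

theorem kZeta_pow_add (a b : ZMod p) :
    kZeta p q ^ (a + b).val = kZeta p q ^ a.val * kZeta p q ^ b.val := by
  rw [← pow_add, ← kZeta_pow_natCast (a.val + b.val)]
  simp

theorem kZeta_pow_mul (a b : ZMod p) :
    kZeta p q ^ (a * b).val = (kZeta p q ^ a.val) ^ b.val := by
  rw [← pow_mul, ← kZeta_pow_natCast (a.val * b.val)]
  simp

theorem kZeta_pow_injective {a b : ZMod p} (h : kZeta p q ^ a.val = kZeta p q ^ b.val) : a = b :=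
  ZMod.val_injective p (isPrimitiveRoot_kZeta.pow_inj (ZMod.val_lt a) (ZMod.val_lt b) h)

variable (p) in
/-- The mod `p` cyclotomic character on the local group. -/
noncomputable def kChi (g : primeLocalGaloisGroup q) : ZMod p :=
  (cycloChar p (primeLocalToGlobal q g) : ZMod p)

theorem apply_kZeta (g : primeLocalGaloisGroup q) :
    primeLocalToGlobal q g (kZeta p q) = kZeta p q ^ (kChi p g).val :=
  Mazur.apply_eq_pow_cycloChar p _ isPrimitiveRoot_kZeta.pow_eq_one

theorem exists_kExp (g : primeLocalGaloisGroup q) :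
    ∃ a : ZMod p, primeLocalToGlobal q g (kRoot p q) = kRoot p q * kZeta p q ^ a.val := by
  have : NeZero p := ⟨(Fact.out : p.Prime).ne_zero⟩
  have h : (primeLocalToGlobal q g (kRoot p q) / kRoot p q) ^ p = 1 := by
    rw [div_pow, ← map_pow, kRoot_pow, map_natCast,
      div_self (Nat.cast_ne_zero.2 q.2.ne_zero)]
  obtain ⟨i, hi, e⟩ := isPrimitiveRoot_kZeta.eq_pow_of_pow_eq_one h
  refine ⟨(i : ZMod p), ?_⟩
  rw [ZMod.val_natCast_of_lt hi, e, mul_div_cancel₀ _ kRoot_ne_zero]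

variable (p) in
/-- The Kummer cocycle of `q`. -/
noncomputable def kExp (g : primeLocalGaloisGroup q) : ZMod p := (exists_kExp g).choose

theorem apply_kRoot (g : primeLocalGaloisGroup q) :
    primeLocalToGlobal q g (kRoot p q) = kRoot p q * kZeta p q ^ (kExp p g).val :=
  (exists_kExp g).choose_spec

theorem kExp_eq {g : primeLocalGaloisGroup q} {a : ZMod p}
    (h : primeLocalToGlobal q g (kRoot p q) = kRoot p q * kZeta p q ^ a.val) : kExp p g = a :=
  kZeta_pow_injective (mul_left_cancel₀ kRoot_ne_zero ((apply_kRoot g).symm.trans h))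

theorem kExp_mul (g h : primeLocalGaloisGroup q) :
    kExp p (g * h) = kExp p g + kChi p g * kExp p h := by
  refine kExp_eq ?_
  rw [map_mul, AlgEquiv.mul_apply, apply_kRoot h, map_mul, map_pow, apply_kRoot g, apply_kZeta,
    kZeta_pow_add, kZeta_pow_mul, mul_assoc]

theorem kExp_one : kExp p (1 : primeLocalGaloisGroup q) = 0 :=
  kExp_eq (by simp)

theorem kChi_mul (g h : primeLocalGaloisGroup q) : kChi p (g * h) = kChi p g * kChi p h := by
  simp [kChi]

theorem kChi_eq_one_of_fix {g : primeLocalGaloisGroup q}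
    (h : primeLocalToGlobal q g (kZeta p q) = kZeta p q) : kChi p g = 1 := by
  refine kZeta_pow_injective (q := q) ?_
  rw [← apply_kZeta, h, ZMod.val_one, pow_one]

variable (hq : (q : ℕ) ≠ p)

include hq in
theorem not_dvd_prime : ¬ (q : ℕ) ∣ p := fun h =>
  hq ((Nat.prime_dvd_prime_iff_eq q.2 Fact.out).1 h)

include hq in
theorem kChi_inertial {t : Gloc q} (ht : Loc.IsInertial t) : kChi p (locEquiv q t) = 1 := by
  refine kChi_eq_one_of_fix ?_
  apply (padicEmbedding (q : ℕ)).toRingHom.injective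
  show padicEmbedding (q : ℕ) _ = padicEmbedding (q : ℕ) _
  have h : padicEmbedding (q : ℕ) (kZeta p q) ^ p = 1 := by
    rw [← map_pow, isPrimitiveRoot_kZeta.pow_eq_one, map_one]
  rw [emb_locToGlobal]
  have := Loc.frobenius_rootOfUnity (τ := t) (N := 1) (fun x hx => by rw [pow_one]; exact ht x hx)
    (not_dvd_prime hq) h
  rwa [pow_one] at this

include hq in
theorem kExp_mul_inertial {t : Gloc q} (ht : Loc.IsInertial t) (h : primeLocalGaloisGroup q) :
    kExp p (locEquiv q t * h) = kExp p (locEquiv q t) + kExp p h := by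
  rw [kExp_mul, kChi_inertial hq ht, one_mul]

include hq in
theorem kExp_pow_inertial {t : Gloc q} (ht : Loc.IsInertial t) (n : ℕ) :
    kExp p (locEquiv q (t ^ n)) = n * kExp p (locEquiv q t) := by
  induction n with
  | zero => rw [pow_zero, map_one, kExp_one, Nat.cast_zero, zero_mul]
  | succ n ih =>
    rw [pow_succ', map_mul, kExp_mul_inertial hq ht, ih, Nat.cast_succ]
    ring

theorem kExp_conj (g : primeLocalGaloisGroup q) {t : primeLocalGaloisGroup q}
    (ht : kChi p t = 1) : kExp p (g * t * g⁻¹) = kChi p g * kExp p t := by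
  have h1 := kExp_mul (p := p) g⁻¹ g
  rw [inv_mul_cancel, kExp_one] at h1
  have h2 := kExp_mul (p := p) g g⁻¹
  rw [mul_inv_cancel, kExp_one] at h2
  rw [kExp_mul, kExp_mul, kChi_mul, ht, mul_one]
  linear_combination -h2

/-- Totally ramified part: the inertia field has ramification index one. -/
theorem ramIdx_inertiaField (E : LocalField q) [FiniteDimensional ℚ_[(q : ℕ)] E]
    [IsGalois ℚ_[(q : ℕ)] E] :
    Loc.ramIdx (Loc.fixedLF E (Loc.inertia E)) = 1 := by
  have h1 := Loc.card_inertia_inf E (Loc.inertia E)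
  have h2 := Loc.card_inertia_inf E ⊤
  rw [inf_idem] at h1
  rw [inf_top_eq] at h2
  have h3 : Loc.ramIdx (Loc.fixedLF E ⊤) = 1 := by
    have h := Loc.card_mul_finrank_fixedLF E ⊤
    rw [Subgroup.card_top, IsGalois.card_aut_eq_finrank,
      ← Loc.ramIdx_mul_resDeg (Loc.fixedLF E ⊤)] at h
    exact (mul_eq_one.1 (Nat.eq_of_mul_eq_mul_left Module.finrank_pos (by rw [h, mul_one]))).1
  rw [h3, mul_one] at h2
  exact Nat.eq_of_mul_eq_mul_left Nat.card_pos (h1.trans (h2.symm.trans (mul_one _).symm))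

theorem exists_zpow_q_of_fixed (E : LocalField q) [FiniteDimensional ℚ_[(q : ℕ)] E]
    [IsGalois ℚ_[(q : ℕ)] E] {x : E} (hx : x ≠ 0) (hfix : ∀ σ ∈ Loc.inertia E, σ x = x) :
    ∃ k : ℤ, ‖(x : PadicAlgCl (q : ℕ))‖ = (((q : ℕ) : ℝ)⁻¹) ^ k := by
  have hmem := (Loc.mem_fixedLF E (Loc.inertia E) (x := x)).2 hfix
  obtain ⟨k, hk⟩ := Loc.exists_zpow_eq_norm (Loc.fixedLF E (Loc.inertia E)) (x := ⟨_, hmem⟩)
    fun h => hx (Subtype.ext (congrArg (fun z : Loc.fixedLF E (Loc.inertia E) => (z : PadicAlgCl (q : ℕ))) h))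
  refine ⟨k, ?_⟩
  rw [Loc.inv_q_eq_pow_ramIdx (Loc.fixedLF E (Loc.inertia E)), ramIdx_inertiaField E, pow_one]
  exact hk

theorem norm_emb_kRoot :
    ‖padicEmbedding (q : ℕ) (kRoot p q)‖ ^ p = ((q : ℕ) : ℝ)⁻¹ := by
  rw [← norm_pow, ← map_pow, kRoot_pow, map_natCast, Loc.norm_natCast_q]

include hq in
/-- The Kummer character is onto on inertia. -/
theorem exists_inertial_kExp_one : ∃ t : Gloc q, Loc.IsInertial t ∧ kExp p (locEquiv q t) = 1 := by
  suffices h : ∃ t : Gloc q, Loc.IsInertial t ∧ kExp p (locEquiv q t) ≠ 0 by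
    obtain ⟨t, ht, hne⟩ := h
    refine ⟨t ^ ((kExp p (locEquiv q t))⁻¹).val, isInertial_pow ht _, ?_⟩
    rw [kExp_pow_inertial hq ht, ZMod.natCast_val, ZMod.cast_id, inv_mul_cancel₀ hne]
  by_contra hall
  push Not at hall
  set π' := padicEmbedding (q : ℕ) (kRoot p q) with hπ'
  let E₀ : LocalField q := IntermediateField.adjoin ℚ_[(q : ℕ)] ({π'} : Set (PadicAlgCl (q : ℕ)))
  have : FiniteDimensional ℚ_[(q : ℕ)] E₀ :=
    IntermediateField.adjoin.finiteDimensional (Algebra.IsIntegral.isIntegral π')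
  obtain ⟨E, _, _, hle⟩ := Loc.exists_normal_le E₀
  have : IsGalois ℚ_[(q : ℕ)] E := ⟨⟩
  have hπE : π' ∈ E := hle (IntermediateField.mem_adjoin_simple_self _ π')
  have hne : (⟨π', hπE⟩ : E) ≠ 0 := fun h => (map_ne_zero _).2 kRoot_ne_zero
    (congrArg Subtype.val h)
  obtain ⟨k, hk⟩ := exists_zpow_q_of_fixed E hne fun σ hσ => by
    obtain ⟨τ, hτ⟩ := AlgEquiv.restrictNormalHom_surjective (F := ℚ_[(q : ℕ)])
      (PadicAlgCl (q : ℕ)) σ
    have hcoe : ∀ x : E, (σ x : PadicAlgCl (q : ℕ)) = τ x := fun x => by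
      rw [← hτ]; exact AlgEquiv.restrictNormal_commutes τ E x
    obtain ⟨t, ht, hagree⟩ := Loc.exists_inertial_agree E (τ := τ) fun x hx => by
      rw [← hcoe]; exact hσ x hx
    apply Subtype.ext
    rw [hcoe, ← hagree]
    show t π' = π'
    rw [hπ', ← emb_locToGlobal, apply_kRoot, hall t ht, ZMod.val_zero, pow_zero, mul_one]
  have h1 := norm_emb_kRoot (p := p) (q := q)
  rw [show ‖padicEmbedding (q : ℕ) (kRoot p q)‖ = _ from hk, ← zpow_natCast, ← zpow_mul] at h1
  have hpos : (0 : ℝ) < ((q : ℕ) : ℝ)⁻¹ := inv_pos.2 (Nat.cast_pos.2 q.2.pos)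
  have hlt : ((q : ℕ) : ℝ)⁻¹ < 1 := inv_lt_one_of_one_lt₀ (by exact_mod_cast q.2.one_lt)
  have h2 : k * (p : ℤ) = 1 :=
    zpow_right_injective₀ hpos hlt.ne (h1.trans (zpow_one _).symm)
  have := Int.eq_one_of_mul_eq_one_left (by positivity) h2
  exact (Fact.out : p.Prime).ne_one (by exact_mod_cast this)

include hq in
/-- A continuous homomorphism on inertia kills the kernel of the Kummer character. -/
theorem inertial_hom_eq_zero (F : IntermediateField ℚ Qbar) [FiniteDimensional ℚ F]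
    (f : primeLocalGaloisGroup q → ZMod p)
    (hadd : ∀ (t u : Gloc q), Loc.IsInertial t → Loc.IsInertial u →
      f (locEquiv q (t * u)) = f (locEquiv q t) + f (locEquiv q u))
    (hlev : ∀ g s, primeLocalToGlobal q s ∈ F.fixingSubgroup → f (g * s) = f g)
    {t : Gloc q} (ht : Loc.IsInertial t) (he : kExp p (locEquiv q t) = 0) :
    f (locEquiv q t) = 0 := by
  classical
  set π' := padicEmbedding (q : ℕ) (kRoot p q) with hπ'
  set η := padicEmbedding (q : ℕ) (kZeta p q) with hη'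
  have hη : IsPrimitiveRoot η p :=
    isPrimitiveRoot_kZeta.map_of_injective (f := padicEmbedding (q : ℕ))
      (padicEmbedding (q : ℕ)).toRingHom.injective
  let b := Module.finBasis ℚ F
  let S : Set (PadicAlgCl (q : ℕ)) :=
    Set.range (fun i => padicEmbedding (q : ℕ) (b i : Qbar)) ∪ {π', η}
  have : Finite S := ((Set.finite_range _).union (Set.toFinite _)).to_subtype
  let E₀ : LocalField q := IntermediateField.adjoin ℚ_[(q : ℕ)] S
  have : FiniteDimensional ℚ_[(q : ℕ)] E₀ :=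
    IntermediateField.finiteDimensional_adjoin fun x _ => Algebra.IsIntegral.isIntegral x
  obtain ⟨E, _, _, hle⟩ := Loc.exists_normal_le E₀
  have : IsGalois ℚ_[(q : ℕ)] E := ⟨⟩
  have hSE : S ⊆ (E : Set (PadicAlgCl (q : ℕ))) := fun x hx =>
    hle (IntermediateField.subset_adjoin _ S hx)
  have hηE : η ∈ E := hSE (Or.inr (Or.inr rfl))
  have hπE : π' ∈ E := hSE (Or.inr (Or.inl rfl))
  have hfixF : ∀ s : Gloc q, (∀ x : E, s x = x) →
      primeLocalToGlobal q (locEquiv q s) ∈ F.fixingSubgroup := fun s hs => by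
    rw [IntermediateField.mem_fixingSubgroup_iff]
    intro x hx
    apply (padicEmbedding (q : ℕ)).toRingHom.injective
    show padicEmbedding (q : ℕ) _ = padicEmbedding (q : ℕ) x
    rw [emb_locToGlobal]
    refine hs ⟨_, ?_⟩
    rw [show x = ((⟨x, hx⟩ : F) : Qbar) from rfl, ← b.sum_repr ⟨x, hx⟩]
    simp only [AddSubmonoidClass.coe_finsetSum, SetLike.val_smul, map_sum]
    refine sum_mem fun i _ => ?_
    simp only [Algebra.smul_def, map_mul, eq_ratCast, map_ratCast]
    exact mul_mem (SubfieldClass.ratCast_mem _ _) (hSE (Or.inl ⟨i, rfl⟩))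
  have hlift : ∀ σ : (Loc.inertia E), ∃ u : Gloc q, Loc.IsInertial u ∧
      ∀ x : E, (σ.1 x : PadicAlgCl (q : ℕ)) = u x := fun σ => by
    obtain ⟨τ, hτ⟩ := AlgEquiv.restrictNormalHom_surjective (F := ℚ_[(q : ℕ)])
      (PadicAlgCl (q : ℕ)) σ.1
    have hcoe : ∀ x : E, (σ.1 x : PadicAlgCl (q : ℕ)) = τ x := fun x => by
      rw [← hτ]; exact AlgEquiv.restrictNormal_commutes τ E x
    obtain ⟨u, hu, hagree⟩ := Loc.exists_inertial_agree E (τ := τ) fun x hx => by
      rw [← hcoe]; exact σ.2 x hx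
    exact ⟨u, hu, fun x => (hcoe x).trans (hagree x).symm⟩
  choose lift hli hlx using hlift
  have hwd : ∀ (σ : Loc.inertia E) (u : Gloc q),
      (∀ x : E, (σ.1 x : PadicAlgCl (q : ℕ)) = u x) →
      f (locEquiv q (lift σ)) = f (locEquiv q u) := fun σ u hux => by
    have hs : ∀ x : E, (u⁻¹ * lift σ) x = x := fun x => by
      rw [AlgEquiv.mul_apply, ← hlx σ x, hux x, AlgEquiv.aut_inv, AlgEquiv.symm_apply_apply]
    rw [show locEquiv q (lift σ) = locEquiv q u * locEquiv q (u⁻¹ * lift σ) by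
      rw [← map_mul, mul_inv_cancel_left]]
    exact hlev _ _ (hfixF _ hs)
  let z : E := ⟨η, hηE⟩
  have hp0 : p ≠ 0 := (Fact.out : p.Prime).ne_zero
  have hz0 : z ≠ 0 := fun h => hη.ne_zero hp0 (congrArg Subtype.val h)
  have hzpow : ∀ n : ℕ, z ^ ((n : ZMod p)).val = z ^ n := fun n => Subtype.ext <| by
    simp only [SubmonoidClass.coe_pow, z]
    rw [ZMod.val_natCast]
    conv_rhs => rw [← Nat.mod_add_div n p, pow_add, pow_mul, hη.pow_eq_one, one_pow, mul_one]
  have hzfix : ∀ σ : Loc.inertia E, σ.1 z = z := fun σ => Subtype.ext <| by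
    rw [hlx σ z]
    have h := Loc.frobenius_rootOfUnity (τ := lift σ) (N := 1)
      (fun x hx => by rw [pow_one]; exact hli σ x hx) (not_dvd_prime hq) hη.pow_eq_one
    rwa [pow_one] at h
  let θ : Loc.inertia E → LocUnits E := fun σ =>
    LocUnits.mk0 (z ^ (f (locEquiv q (lift σ))).val) (pow_ne_zero _ hz0)
  have hθ : θ ∈ Z1 (Loc.inertia E) (LocUnits E) := by
    refine funext fun x => ?_
    show x.1 • θ x.2 - θ (x.1 * x.2) + θ x.1 = 0
    have hm : f (locEquiv q (lift (x.1 * x.2))) =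
        f (locEquiv q (lift x.1)) + f (locEquiv q (lift x.2)) := by
      rw [hwd (x.1 * x.2) (lift x.1 * lift x.2) fun y => by
        rw [AlgEquiv.mul_apply, ← hlx x.2 y, ← hlx x.1]; rfl]
      exact hadd _ _ (hli _) (hli _)
    rw [sub_add_eq_add_sub, sub_eq_zero]
    apply LocUnits.ext'
    show x.1.1 (z ^ (f (locEquiv q (lift x.2))).val) * z ^ (f (locEquiv q (lift x.1))).val =
      z ^ (f (locEquiv q (lift (x.1 * x.2)))).val
    rw [map_pow, hzfix x.1, ← pow_add, ← hzpow, hm]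
    congr 2
    simp [add_comm]
  obtain ⟨y, hy⟩ := Loc.locUnits_h1Trivial E (Loc.inertia E) θ hθ
  have hy' : ∀ σ : Loc.inertia E, σ.1 y.el = y.el * z ^ (f (locEquiv q (lift σ))).val := fun σ => by
    have h := congrArg LocUnits.el (congrFun hy σ)
    change (σ • y - y).el = z ^ (f (locEquiv q (lift σ))).val at h
    rw [sub_eq_add_neg, LocUnits.el_add, LocUnits.el_neg] at h
    rw [← h, ← mul_assoc, mul_comm y.el, mul_assoc, mul_inv_cancel₀ y.el_ne_zero, mul_one]
    rfl
  obtain ⟨k, hk⟩ := exists_zpow_q_of_fixed E (x := y.el ^ p) (pow_ne_zero _ y.el_ne_zero)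
    fun σ hσ => by
      rw [map_pow, hy' ⟨σ, hσ⟩, mul_pow, ← pow_mul, mul_comm _ p, pow_mul,
        show z ^ p = 1 from Subtype.ext hη.pow_eq_one, one_pow, mul_one]
  have hnorm : ‖(y.el : PadicAlgCl (q : ℕ))‖ = ‖π' ^ k‖ := by
    refine (pow_left_inj₀ (norm_nonneg _) (norm_nonneg _) hp0).1 ?_
    rw [← norm_pow, ← SubmonoidClass.coe_pow, hk, norm_zpow, ← zpow_natCast, ← zpow_mul,
      mul_comm, zpow_mul, zpow_natCast, norm_emb_kRoot]
  -- restrict `t`
  set σt : E ≃ₐ[ℚ_[(q : ℕ)]] E := AlgEquiv.restrictNormalHom E t with hσt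
  have hσx : ∀ x : E, (σt x : PadicAlgCl (q : ℕ)) = t x := fun x =>
    AlgEquiv.restrictNormal_commutes t E x
  have hσI : σt ∈ Loc.inertia E := fun x hx => by
    have h := ht (x : PadicAlgCl (q : ℕ)) hx
    rw [← hσx] at h
    exact h
  have hπfix : t π' = π' := by
    rw [hπ', ← emb_locToGlobal, apply_kRoot, he, ZMod.val_zero, pow_zero, mul_one]
  have hyp : t ((y.el : PadicAlgCl (q : ℕ)) ^ p) = (y.el : PadicAlgCl (q : ℕ)) ^ p := by
    have h : σt (y.el ^ p) = y.el ^ p := by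
      rw [map_pow, hy' ⟨σt, hσI⟩, mul_pow, ← pow_mul, mul_comm _ p, pow_mul,
        show z ^ p = 1 from Subtype.ext hη.pow_eq_one, one_pow, mul_one]
    have h2 := congrArg Subtype.val h
    rw [hσx] at h2
    simpa using h2
  have hyfix := Loc.fixed_of_inertial_of_pow ht (not_dvd_prime hq) hyp
    (show t (π' ^ k) = π' ^ k by rw [map_zpow₀, hπfix]) hnorm
  have h1 := congrArg Subtype.val (hy' ⟨σt, hσI⟩)
  rw [show ((⟨σt, hσI⟩ : Loc.inertia E).1 y.el : PadicAlgCl (q : ℕ)) = t y.el from hσx _, hyfix,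
    MulMemClass.coe_mul, SubmonoidClass.coe_pow] at h1
  have hy0 : (y.el : PadicAlgCl (q : ℕ)) ≠ 0 := fun h => y.el_ne_zero (Subtype.ext h)
  have h2 : η ^ (f (locEquiv q (lift ⟨σt, hσI⟩))).val = 1 :=
    (mul_eq_left₀ hy0).1 h1.symm
  have h3 : f (locEquiv q (lift ⟨σt, hσI⟩)) = 0 := by
    refine (ZMod.val_eq_zero _).1 (Nat.eq_zero_of_dvd_of_lt (hη.dvd_of_pow_eq_one _ h2)
      (ZMod.val_lt _))
  rw [← hwd ⟨σt, hσI⟩ t fun x => hσx x]
  exact h3

include hq in
/-- A continuous homomorphism on inertia is a multiple of the Kummer character. -/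
theorem inertial_hom_eq (F : IntermediateField ℚ Qbar) [FiniteDimensional ℚ F]
    (f : primeLocalGaloisGroup q → ZMod p)
    (hadd : ∀ (t u : Gloc q), Loc.IsInertial t → Loc.IsInertial u →
      f (locEquiv q (t * u)) = f (locEquiv q t) + f (locEquiv q u))
    (hlev : ∀ g s, primeLocalToGlobal q s ∈ F.fixingSubgroup → f (g * s) = f g)
    {t₀ : Gloc q} (ht₀ : Loc.IsInertial t₀) (he₀ : kExp p (locEquiv q t₀) = 1)
    {t : Gloc q} (ht : Loc.IsInertial t) :
    f (locEquiv q t) = kExp p (locEquiv q t) * f (locEquiv q t₀) := by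
  set n := (kExp p (locEquiv q t)).val with hn
  have hu : Loc.IsInertial (t₀ ^ n) := isInertial_pow ht₀ n
  have hu' : Loc.IsInertial ((t₀ ^ n)⁻¹ * t) := isInertial_mul (isInertial_inv hu) ht
  have he : kExp p (locEquiv q ((t₀ ^ n)⁻¹ * t)) = 0 := by
    have h := kExp_mul_inertial hq hu (locEquiv q ((t₀ ^ n)⁻¹ * t))
    rw [← map_mul, mul_inv_cancel_left, kExp_pow_inertial hq ht₀, he₀, mul_one, hn,
      ZMod.natCast_val, ZMod.cast_id] at h
    exact left_eq_add.mp h
  have h0 := inertial_hom_eq_zero hq F f hadd hlev hu' he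
  have h1 := hadd _ _ hu hu'
  rw [mul_inv_cancel_left, h0, add_zero] at h1
  rw [h1]
  have hpow : ∀ m : ℕ, f (locEquiv q (t₀ ^ m)) = m * f (locEquiv q t₀) := fun m => by
    induction m with
    | zero =>
      have h := hadd 1 1 isInertial_one isInertial_one
      rw [mul_one] at h
      rw [pow_zero, Nat.cast_zero, zero_mul]
      exact right_eq_add.mp h
    | succ m ih =>
      rw [pow_succ, hadd _ _ (isInertial_pow ht₀ m) ht₀, ih, Nat.cast_succ]
      ring
  rw [hpow, hn, ZMod.natCast_val, ZMod.cast_id]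

end FermatLib.CFT.GWUnr
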