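import Fermat.Agent.CFT.GWUnrDim
import Fermat.Agent.CFT.GWUnrTame

/-!
Local Euler characteristic at an unramified `q ≠ p`, and orthogonality of unramified classes for
any perfect pairing.
-/

set_option autoImplicit false
set_option linter.unusedSectionVars false

open CategoryTheory Module groupCohomology ExtCitation

local instance gwUnrEulerQbarIsAlgebraic : Algebra.IsAlgebraic ℚ (AlgebraicClosure ℚ) :=
  AlgebraicClosure.isAlgebraic ℚ

namespace FermatLib.CFT.GWUnr

local notation "Qbar" => AlgebraicClosure ℚ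
local notation "Γℚ" => (AlgebraicClosure ℚ ≃ₐ[ℚ] AlgebraicClosure ℚ)

variable {p : ℕ} [Fact p.Prime] (M : Rep (ZMod p) Γℚ) [FiniteDimensional (ZMod p) M]
  {q : Nat.Primes}
  (hsm : ∀ m : M, ∃ F : IntermediateField ℚ (AlgebraicClosure ℚ), FiniteDimensional ℚ F ∧
    ∀ s ∈ F.fixingSubgroup, M.ρ s m = m)
  (hq : (q : ℕ) ≠ p)
  (hur : ∀ g, primeLocalToGlobal q g ∈ (primeLocalPlace q).inertiaSubgroupIn ℚ →
    M.ρ (primeLocalToGlobal q g) = 1)

/-- The eigenspace of the cyclotomic character. -/
def kummerSpace (q : Nat.Primes) : Submodule (ZMod p) M where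
  carrier := {m | ∀ g : primeLocalGaloisGroup q, actAt M q g m = kChi p g • m}
  zero_mem' := fun g => by simp
  add_mem' := fun {a b} ha hb g => by rw [map_add, ha g, hb g, smul_add]
  smul_mem' := fun c a ha g => by rw [map_smul, ha g, smul_comm]

theorem kummer_mem_cocycles {m : M} (hm : m ∈ kummerSpace M q) :
    (fun g => kExp p g • m) ∈ cocycles₁ (Rep.res (primeLocalToGlobal q) M) := by
  refine (mem_cocycles₁_iff _).2 fun g h => ?_
  show kExp p (g * h) • m = actAt M q g (kExp p h • m) + kExp p g • m
  rw [map_smul, hm g, kExp_mul, add_smul, smul_smul, mul_comm (kExp p h)]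
  abel

/-- The Kummer classes. -/
noncomputable def kummerMap (q : Nat.Primes) :
    kummerSpace M q →ₗ[ZMod p] H1 (Rep.res (primeLocalToGlobal q) M) where
  toFun m := (H1π _).hom ⟨_, kummer_mem_cocycles M m.2⟩
  map_add' a b := by
    rw [← map_add]
    exact congrArg _ (Subtype.ext (funext fun g => smul_add _ _ _))
  map_smul' c a := by
    rw [RingHom.id_apply, ← map_smul]
    exact congrArg _ (Subtype.ext (funext fun g => smul_comm _ _ _))

theorem kummer_levelConstant (m : kummerSpace M q) :
    IsLevelConstant₁ (primeLocalToGlobal q) fun g => kExp p g • (m : M) := by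
  refine ⟨IntermediateField.adjoin ℚ ({kZeta p q, kRoot p q} : Set Qbar),
    IntermediateField.finiteDimensional_adjoin fun x _ => Algebra.IsIntegral.isIntegral x,
    fun g s hs => ?_⟩
  rw [IntermediateField.mem_fixingSubgroup_iff] at hs
  have h1 := hs _ (IntermediateField.subset_adjoin ℚ _ (Or.inl rfl))
  have h2 := hs _ (IntermediateField.subset_adjoin ℚ _ (Or.inr rfl))
  have he : kExp p s = 0 := kExp_eq (by rw [h2, ZMod.val_zero, pow_zero, mul_one])
  show kExp p (g * s) • (m : M) = kExp p g • (m : M)
  rw [kExp_mul, he, mul_zero, add_zero]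

include hsm hur in
theorem kummer_class_unramified {t₀ : Gloc q} (ht₀ : Loc.IsInertial t₀)
    (he₀ : kExp p (locEquiv q t₀) = 1) (m : kummerSpace M q)
    (h : kummerMap M q m ∈ unramifiedSub q M) : m = 0 := by
  obtain ⟨c, -, hc, he⟩ := h
  obtain ⟨a, ha⟩ := (H1π_eq_iff _ _).1 he
  have := congrFun ha (locEquiv q t₀)
  rw [d₀₁_hom_apply] at this
  change actAt M q (locEquiv q t₀) a - a = c (locEquiv q t₀) - kExp p (locEquiv q t₀) • (m : M)
    at this
  rw [hc _ (mem_inertia_of_isInertial ht₀), he₀, one_smul, actAt,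
    hur _ (mem_inertia_of_isInertial ht₀), Module.End.one_apply, sub_self, zero_sub] at this
  exact Subtype.ext (neg_eq_zero.1 this.symm)

include hsm hq hur in
/-- Every continuous class is unramified plus Kummer. -/
theorem exists_kummer_add {t₀ : Gloc q} (ht₀ : Loc.IsInertial t₀)
    (he₀ : kExp p (locEquiv q t₀) = 1) {x : H1 (Rep.res (primeLocalToGlobal q) M)}
    (hx : x ∈ continuousH1 (primeLocalToGlobal q) (Rep.res (primeLocalToGlobal q) M)) :
    ∃ m : kummerSpace M q, x - kummerMap M q m ∈ unramifiedSub q M := by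
  obtain ⟨c, hc, rfl⟩ := (mem_continuousH1_iff _ _ x).1 hx
  have hρ : ∀ t : Gloc q, Loc.IsInertial t → actAt M q (locEquiv q t) = 1 :=
    fun t ht => hur _ (mem_inertia_of_isInertial ht)
  have hadd : ∀ t : Gloc q, Loc.IsInertial t → ∀ h,
      c (locEquiv q t * h) = c (locEquiv q t) + c h := fun t ht h => by
    rw [cocycle_mul, hρ t ht, Module.End.one_apply, add_comm]
  obtain ⟨F, hF, hFc⟩ := hc
  obtain ⟨F', hF', hF'm⟩ := exists_level M hsm
  have := hF
  have := hF'
  -- on inertia the cocycle is a multiple of the Kummer character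
  have hlin : ∀ t : Gloc q, Loc.IsInertial t →
      c (locEquiv q t) = kExp p (locEquiv q t) • c (locEquiv q t₀) := fun t ht => by
    rw [← sub_eq_zero]
    refine (Module.forall_dual_apply_eq_zero_iff (ZMod p) _).1 fun l => ?_
    rw [map_sub, map_smul, smul_eq_mul, sub_eq_zero]
    refine inertial_hom_eq hq F (fun g => l (c g)) (fun a b ha _ => ?_) (fun g s hs => ?_) ht₀ he₀ ht
    · show l (c (locEquiv q (a * b))) = _
      rw [map_mul, hadd a ha, map_add]
    · show l (c (g * s)) = l (c g)
      rw [hFc g s hs]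
  set m := c (locEquiv q t₀)
  have hm : m ∈ kummerSpace M q := fun g => by
    set g' := (locEquiv q).symm g
    have hg : g = locEquiv q g' := ((locEquiv q).apply_symm_apply g).symm
    have hconj := isInertial_conj g' ht₀
    have h1 := hlin _ hconj
    rw [map_mul (locEquiv q), map_mul (locEquiv q), map_inv (locEquiv q), ← hg,
      kExp_conj g (kChi_inertial hq ht₀), he₀, mul_one] at h1
    rw [← h1]
    have h2 : g * locEquiv q t₀ * g⁻¹ * g = g * locEquiv q t₀ := by group
    have h3 := congrArg c h2
    have hρ2 := hρ _ hconj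
    rw [map_mul (locEquiv q), map_mul (locEquiv q), map_inv (locEquiv q), ← hg] at hρ2
    rw [cocycle_mul M q c (g * locEquiv q t₀ * g⁻¹) g, cocycle_mul M q c g (locEquiv q t₀), hρ2,
      Module.End.one_apply] at h3
    exact (add_left_cancel (h3.trans (add_comm _ _))).symm
  refine ⟨⟨m, hm⟩, (c - ⟨_, kummer_mem_cocycles M hm⟩), ?_, fun g hg => ?_, map_sub _ _ _⟩
  · have h2 := IsLevelConstant₁.add (r := primeLocalToGlobal q) ⟨F, hF, hFc⟩
      ((kummer_levelConstant M ⟨m, hm⟩).comp Neg.neg)
    rwa [show ((c - ⟨_, kummer_mem_cocycles M hm⟩ : cocycles₁ _) :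
        primeLocalGaloisGroup q → _) = (c : primeLocalGaloisGroup q → _) +
          Neg.neg ∘ fun g => kExp p g • m from funext fun g => sub_eq_add_neg _ _]
  · let Z : IntermediateField ℚ Qbar := IntermediateField.adjoin ℚ {kZeta p q, kRoot p q}
    have : FiniteDimensional ℚ Z :=
      IntermediateField.finiteDimensional_adjoin fun x _ => Algebra.IsIntegral.isIntegral x
    obtain ⟨t, s, ht, hs, rfl⟩ := exists_inertial_level (F ⊔ Z) hg
    have hcs : c s = 0 := by
      have := hFc 1 s (IntermediateField.fixingSubgroup_antitone le_sup_left hs)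
      rwa [one_mul, cocycles₁_map_one] at this
    have hes : kExp p s = 0 := by
      have h2 := (IntermediateField.mem_fixingSubgroup_iff Z _).1
        (IntermediateField.fixingSubgroup_antitone le_sup_right hs) (kRoot p q)
        (IntermediateField.subset_adjoin ℚ _ (Or.inr rfl))
      exact kExp_eq (by rw [h2, ZMod.val_zero, pow_zero, mul_one])
    show c (locEquiv q t * s) - kExp p (locEquiv q t * s) • m = 0
    rw [hadd t ht, hcs, add_zero, kExp_mul_inertial hq ht, hes, add_zero, hlin t ht, sub_self]

include hsm hq hur in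
/-- The dual twist is again smooth and unramified at `q`. -/
theorem dualTwist_props :
    (∀ f : M.dualTwist (cycloChar p), ∃ F : IntermediateField ℚ (AlgebraicClosure ℚ),
      FiniteDimensional ℚ F ∧ ∀ s ∈ F.fixingSubgroup, (M.dualTwist (cycloChar p)).ρ s f = f) ∧
    (∀ g, primeLocalToGlobal q g ∈ (primeLocalPlace q).inertiaSubgroupIn ℚ →
      (M.dualTwist (cycloChar p)).ρ (primeLocalToGlobal q g) = 1) := by
  have key : ∀ σ : Γℚ, M.ρ σ = 1 → σ (kZeta p q) = kZeta p q →
      (M.dualTwist (cycloChar p)).ρ σ = 1 := fun σ h1 h2 => by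
    have hc : (cycloChar p σ : ZMod p) = 1 := by
      refine kZeta_pow_injective (q := q) ?_
      rw [← Mazur.apply_eq_pow_cycloChar p σ isPrimitiveRoot_kZeta.pow_eq_one, h2, ZMod.val_one,
        pow_one]
    have hinv : M.ρ σ⁻¹ = 1 := by
      have := congrArg M.ρ (inv_mul_cancel σ)
      rwa [map_mul, h1, mul_one, map_one] at this
    refine LinearMap.ext fun f => ?_
    rw [Rep.dualTwist_ρ_apply, hc, one_smul, hinv]
    rfl
  obtain ⟨F', hF', hF'm⟩ := exists_level M hsm
  have := hF'
  have : FiniteDimensional ℚ (IntermediateField.adjoin ℚ ({kZeta p q} : Set Qbar)) :=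
    IntermediateField.adjoin.finiteDimensional (Algebra.IsIntegral.isIntegral _)
  refine ⟨fun f => ⟨F' ⊔ IntermediateField.adjoin ℚ ({kZeta p q} : Set Qbar), inferInstance,
    fun s hs => ?_⟩, fun g hg => ?_⟩
  · rw [key s (LinearMap.ext fun m => hF'm s
      (IntermediateField.fixingSubgroup_antitone le_sup_left hs) m)
      ((IntermediateField.mem_fixingSubgroup_iff _ _).1
        (IntermediateField.fixingSubgroup_antitone le_sup_right hs) _
        (IntermediateField.mem_adjoin_simple_self ℚ _))]
    rfl
  · refine key _ (hur g hg) ?_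
    obtain ⟨t, s, ht, hs, rfl⟩ :=
      exists_inertial_level (IntermediateField.adjoin ℚ ({kZeta p q} : Set Qbar)) hg
    rw [map_mul, AlgEquiv.mul_apply, (IntermediateField.mem_fixingSubgroup_iff _ _).1 hs _
      (IntermediateField.mem_adjoin_simple_self ℚ _), apply_kZeta, kChi_inertial hq ht,
      ZMod.val_one, pow_one]

include hsm hq hur in
theorem finrank_kummerSpace :
    finrank (ZMod p) (kummerSpace M q) = finrank (ZMod p)
      (Rep.res (primeLocalToGlobal q) (M.dualTwist (cycloChar p))).ρ.invariants := by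
  obtain ⟨g₀, hg₀⟩ := exists_localFrobenius (q := q)
  obtain ⟨F', hF', hF'm⟩ := exists_level M hsm
  have := hF'
  set A : M →ₗ[ZMod p] M := actAt M q (locEquiv q g₀)
  set χ₀ : ZMod p := kChi p (locEquiv q g₀)
  let T : M →ₗ[ZMod p] M := A - χ₀ • LinearMap.id
  have : FiniteDimensional ℚ (IntermediateField.adjoin ℚ ({kZeta p q} : Set Qbar)) :=
    IntermediateField.adjoin.finiteDimensional (Algebra.IsIntegral.isIntegral _)
  have hgen : ∀ g : primeLocalGaloisGroup q, ∃ k : ℕ, actAt M q g = A ^ k ∧ kChi p g = χ₀ ^ k := by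
    intro g
    obtain ⟨k, t, s, ht, hs, rfl⟩ :=
      exists_decomp hg₀ (F' ⊔ IntermediateField.adjoin ℚ ({kZeta p q} : Set Qbar)) g
    have hρs : actAt M q s = 1 := LinearMap.ext fun m =>
      hF'm _ (IntermediateField.fixingSubgroup_antitone le_sup_left hs) m
    have hχs : kChi p s = 1 := kChi_eq_one_of_fix ((IntermediateField.mem_fixingSubgroup_iff _ _).1
      (IntermediateField.fixingSubgroup_antitone le_sup_right hs) _
      (IntermediateField.mem_adjoin_simple_self ℚ _))
    refine ⟨k, ?_, ?_⟩
    · have h2 := actAt_frobenius_pow M hur (g₀ := g₀) k ht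
      simp only [actAt, map_mul] at h2 hρs ⊢
      rw [hρs, mul_one, h2]
    · rw [kChi_mul, hχs, mul_one, map_mul, kChi_mul, kChi_inertial hq ht, mul_one, map_pow]
      induction k with
      | zero => simp [kChi]
      | succ k ih => rw [pow_succ, pow_succ, kChi_mul, ih]
  have hX : kummerSpace M q = LinearMap.ker T := by
    ext m
    refine ⟨fun h => sub_eq_zero.2 (h (locEquiv q g₀)), fun h g => ?_⟩
    obtain ⟨k, hk, hk'⟩ := hgen g
    have hA : A m = χ₀ • m := sub_eq_zero.1 h
    rw [hk, hk']
    clear hk hk'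
    induction k with
    | zero => simp
    | succ k ih => rw [pow_succ, Module.End.mul_apply, hA, map_smul, ih, smul_smul, pow_succ']
  have hχ0 : χ₀ ≠ 0 := Units.ne_zero (cycloChar p (primeLocalToGlobal q (locEquiv q g₀)))
  have hI : (Rep.res (primeLocalToGlobal q) (M.dualTwist (cycloChar p))).ρ.invariants =
      (LinearMap.range T).dualAnnihilator := by
    ext f
    rw [Representation.mem_invariants, Submodule.mem_dualAnnihilator]
    constructor
    · rintro h _ ⟨m, rfl⟩
      have h1 := LinearMap.congr_fun (h (locEquiv q g₀)) (A m)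
      change (χ₀ • (f ∘ₗ M.ρ (primeLocalToGlobal q (locEquiv q g₀))⁻¹)) (A m) = f (A m) at h1
      rw [LinearMap.smul_apply, LinearMap.comp_apply, ← Module.End.mul_apply, ← map_mul,
        inv_mul_cancel, map_one, Module.End.one_apply] at h1
      show f (A m - χ₀ • m) = 0
      rw [map_sub, map_smul, h1, sub_self]
    · intro h g
      obtain ⟨k, hk, hk'⟩ := hgen g
      have hf : ∀ m, f (A m) = χ₀ * f m := fun m => by
        have h1 := h _ ⟨m, rfl⟩
        change f (A m - χ₀ • m) = 0 at h1
        rwa [map_sub, map_smul, sub_eq_zero, smul_eq_mul] at h1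
      have hfk : ∀ n m, f ((A ^ n) m) = χ₀ ^ n * f m := fun n => by
        induction n with
        | zero => intro m; simp
        | succ n ih => intro m; rw [pow_succ, Module.End.mul_apply, ih, hf]; ring
      refine LinearMap.ext fun m => ?_
      have h2 := hfk k (M.ρ (primeLocalToGlobal q g)⁻¹ m)
      rw [← hk, ← Module.End.mul_apply, actAt, ← map_mul, mul_inv_cancel, map_one,
        Module.End.one_apply] at h2
      show (kChi p g • (f ∘ₗ M.ρ (primeLocalToGlobal q g)⁻¹)) m = f m
      rw [hk', LinearMap.smul_apply, LinearMap.comp_apply, smul_eq_mul, h2]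
  rw [hI, hX]
  have h1 := LinearMap.finrank_range_add_finrank_ker T
  have h2 := Subspace.finrank_add_finrank_dualAnnihilator_eq (LinearMap.range T)
  refine (?_ : finrank (ZMod p) (LinearMap.ker T) =
    finrank (ZMod p) (LinearMap.range T).dualAnnihilator)
  omega

include hsm hq hur in
/-- Local Euler characteristic at an unramified `q ≠ p`. -/
theorem finrank_continuousH1_of_unramified :
    FiniteDimensional (ZMod p)
        (continuousH1 (primeLocalToGlobal q) (Rep.res (primeLocalToGlobal q) M)) ∧
      finrank (ZMod p) (continuousH1 (primeLocalToGlobal q) (Rep.res (primeLocalToGlobal q) M))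
        = finrank (ZMod p) (Rep.res (primeLocalToGlobal q) M).ρ.invariants
          + finrank (ZMod p)
              (Rep.res (primeLocalToGlobal q) (M.dualTwist (cycloChar p))).ρ.invariants := by
  obtain ⟨t₀, ht₀, he₀⟩ := exists_inertial_kExp_one hq
  set K := LinearMap.range (kummerMap M q)
  set U := unramifiedSub q M
  have hsup : continuousH1 (primeLocalToGlobal q) (Rep.res (primeLocalToGlobal q) M) = U ⊔ K := by
    refine le_antisymm (fun x hx => ?_) (sup_le (unramifiedSub_le_continuousH1 q M) ?_)
    · obtain ⟨m, hm⟩ := exists_kummer_add M hsm hq hur ht₀ he₀ hx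
      exact Submodule.mem_sup.2 ⟨_, hm, kummerMap M q m, ⟨m, rfl⟩, sub_add_cancel _ _⟩
    · rintro _ ⟨m, rfl⟩
      exact H1π_mem_continuousH1 _ _ (kummer_levelConstant M m)
  have hinj : Function.Injective (kummerMap M q) :=
    (injective_iff_map_eq_zero _).2 fun m hm =>
      kummer_class_unramified M hsm hur ht₀ he₀ m (by rw [hm]; exact zero_mem _)
  have hinf : U ⊓ K = ⊥ := by
    rw [eq_bot_iff]
    rintro _ ⟨hxU, m, rfl⟩
    rw [kummer_class_unramified M hsm hur ht₀ he₀ m hxU, map_zero]
    exact zero_mem _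
  obtain ⟨g₀, hg₀⟩ := exists_localFrobenius (q := q)
  have hU : FiniteDimensional (ZMod p) U := by
    choose cv hlev hI hval using exists_cocycle M hsm hur hg₀
    have hsurj : ∀ x ∈ U, ∃ v : M, (H1π (Rep.res (primeLocalToGlobal q) M)).hom (cv v) = x := by
      rintro _ ⟨c, hc, hcI, rfl⟩
      refine ⟨c (locEquiv q g₀), ?_⟩
      rw [← sub_eq_zero, ← map_sub]
      refine class_eq_zero M hsm hur hg₀ _ ?_ (fun g hg => ?_) 0 ?_
      · have h := (hlev (c (locEquiv q g₀))).add (hc.comp Neg.neg)
        rwa [show ((cv (c (locEquiv q g₀)) - c : cocycles₁ _) : primeLocalGaloisGroup q → _) =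
          ⇑(cv (c (locEquiv q g₀))) + Neg.neg ∘ (c : primeLocalGaloisGroup q → _) from
            funext fun g => sub_eq_add_neg _ _]
      · show cv _ g - c g = 0
        rw [hI _ g hg, hcI g hg, sub_zero]
      · show cv _ _ - c _ = _
        rw [hval]
        simp
    have : Finite M := Module.finite_of_finite (ZMod p)
    choose v hv using hsurj
    have : Finite U := Finite.of_injective (fun x : U => v x.1 x.2) fun x y h => by
      apply Subtype.ext
      rw [← hv x.1 x.2, ← hv y.1 y.2]
      exact congrArg (fun w => (H1π (Rep.res (primeLocalToGlobal q) M)).hom (cv w)) h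
    exact Module.Finite.of_finite
  have hK : FiniteDimensional (ZMod p) K := inferInstance
  refine ⟨by rw [hsup]; infer_instance, ?_⟩
  have h := Submodule.finrank_sup_add_finrank_inf_eq U K
  rw [hinf, finrank_bot, add_zero, finrank_unramifiedSub M hsm hur,
    LinearMap.finrank_range_of_inj hinj, finrank_kummerSpace M hsm hq hur] at h
  rw [hsup, h]

end FermatLib.CFT.GWUnr
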