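import Fermat.Agent.CFT.IdeleLocalField
import Fermat.Agent.CFT.IdeleBaseChange

/-!
Capitulation outside a finite set of primes: adjoin all
`p ^ k`-th roots of the conjugates of `x`; this is unramified outside `S` by Kummer theory.
-/

set_option autoImplicit false

open NumberField

namespace FermatLib.CFT

variable {q : Nat.Primes}

/-- A root of unity of order prime to `q` congruent to one is one. -/
theorem eq_one_of_pow_eq_one_of_norm_natCast {m : ℕ} (hm : ‖(m : PadicAlgCl (q : ℕ))‖ = 1)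
    {η : PadicAlgCl (q : ℕ)} (hη : η ^ m = 1) (hlt : ‖η - 1‖ < 1) : η = 1 := by
  by_contra hne
  have hm0 : m ≠ 0 := fun h => by simp [h] at hm
  have hη1 : ‖η‖ = 1 := by
    have h := congrArg norm hη
    rwa [norm_pow, norm_one, pow_eq_one_iff_of_nonneg (norm_nonneg _) hm0] at h
  have hsum : ∑ i ∈ Finset.range m, η ^ i = 0 := by
    have h := geom_sum_mul η m
    rw [hη, sub_self] at h
    exact (mul_eq_zero.1 h).resolve_right (sub_ne_zero.2 hne)
  have hle : ∀ i, ‖η ^ i - 1‖ ≤ ‖η - 1‖ := fun i => by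
    rw [← geom_sum_mul, norm_mul]
    refine mul_le_of_le_one_left (norm_nonneg _) ?_
    exact IsUltrametricDist.norm_sum_le_of_forall_le_of_nonneg zero_le_one fun j _ => by
      rw [norm_pow, hη1, one_pow]
  have h : ‖∑ i ∈ Finset.range m, (η ^ i - 1)‖ ≤ ‖η - 1‖ :=
    IsUltrametricDist.norm_sum_le_of_forall_le_of_nonneg (norm_nonneg _) fun i _ => hle i
  rw [Finset.sum_sub_distrib, hsum, Finset.sum_const, Finset.card_range, nsmul_one, zero_sub,
    norm_neg, hm] at h
  exact absurd (h.trans_lt hlt) (lt_irrefl 1)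

theorem norm_natCast_prime_pow {p : ℕ} (hp : p.Prime) (hne : p ≠ (q : ℕ)) (k : ℕ) :
    ‖((p ^ k : ℕ) : PadicAlgCl (q : ℕ))‖ = 1 := by
  rw [← map_natCast (algebraMap ℚ_[(q : ℕ)] (PadicAlgCl (q : ℕ))), PadicAlgCl.norm_extends,
    Padic.norm_natCast_eq_one_iff]
  exact Nat.Coprime.pow_right k ((Nat.coprime_primes q.2 hp).2 fun h => hne h.symm)

section Kummer

variable {K : Type} [Field K] [NumberField K] {M : Type} [Field M] [NumberField M] [Algebra K M]
  [IsScalarTower ℚ K M] [Normal ℚ K]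

/-- Inertia restricts to inertia. -/
theorem restrictNormal_mem_inertiaGroup (φ : Emb M q) {g : M ≃ₐ[ℚ] M} (hg : g ∈ inertiaGroup φ) :
    g.restrictNormal K ∈ inertiaGroup (Emb.preComp (φ.comp (algebraMap K M)) 1) := by
  obtain ⟨⟨τ, hτ⟩, hres⟩ := hg
  refine ⟨⟨τ, RingHom.ext fun z => ?_⟩, fun z hz => ?_⟩
  · exact (RingHom.congr_fun hτ (algebraMap K M z)).trans
      (congrArg φ (g.restrictNormal_commutes K z).symm)
  · change ‖φ (algebraMap K M (g.restrictNormal K z)) - φ (algebraMap K M z)‖ < 1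
    rw [g.restrictNormal_commutes]
    exact hres _ hz

omit [Normal ℚ K] [IsScalarTower ℚ K M] [NumberField K] in
/-- Inertia fixes the roots of elements which are locally powers up to units. -/
theorem inertia_fixes_root {m : ℕ} (hm : ‖(m : PadicAlgCl (q : ℕ))‖ = 1) (φ : Emb M q)
    {g : M ≃ₐ[ℚ] M} (hg : g ∈ inertiaGroup φ) (hK : ∀ z, g (algebraMap K M z) = algebraMap K M z)
    {z : M} {c d : K} (hd : d ≠ 0) (hz : z ^ m = algebraMap K M c)
    (hcd : ‖φ (algebraMap K M d)‖ ^ m = ‖φ (algebraMap K M c)‖) : g z = z := by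
  have hm0 : m ≠ 0 := fun h => by simp [h] at hm
  have hd' : algebraMap K M d ≠ 0 := (map_ne_zero _).2 hd
  set u := z / algebraMap K M d with hu
  have hnu : ‖φ u‖ = 1 := by
    have h : ‖φ u‖ ^ m = 1 := by
      rw [hu, map_div₀, norm_div, div_pow, hcd, ← norm_pow, ← map_pow, hz, div_self]
      rw [← hcd]
      exact pow_ne_zero _ (norm_ne_zero_iff.2 ((map_ne_zero φ).2 hd'))
    exact (pow_eq_one_iff_of_nonneg (norm_nonneg _) hm0).1 h
  have hu0 : φ u ≠ 0 := norm_ne_zero_iff.1 (by rw [hnu]; exact one_ne_zero)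
  have hfix : g (u ^ m) = u ^ m := by
    rw [hu, div_pow, hz, ← map_pow (algebraMap K M), ← map_div₀, hK]
  have hη : (φ (g u) / φ u) ^ m = 1 := by
    rw [div_pow, ← map_pow, ← map_pow, ← map_pow, hfix, div_self]
    rw [map_pow]
    exact pow_ne_zero _ hu0
  have hlt : ‖φ (g u) / φ u - 1‖ < 1 := by
    rw [div_sub_one hu0, norm_div, hnu, div_one]
    exact hg.2 u hnu.le
  have hgu : g u = u :=
    φ.injective ((div_eq_one_iff_eq hu0).1 (eq_one_of_pow_eq_one_of_norm_natCast hm hη hlt))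
  have hz' : z = u * algebraMap K M d := (div_mul_cancel₀ z hd').symm
  rw [hz', map_mul, hgu, hK]

end Kummer

/-- An idele whose `p ^ k`-th multiple is principal up to `S`-ideles becomes principal up to
`S`-ideles in an extension unramified outside `S`. -/
theorem exists_capitulation {p : ℕ} [Fact p.Prime]
    (L₀ : IntermediateField ℚ (AlgebraicClosure ℚ)) [NumberField L₀] [IsGalois ℚ L₀]
    (S : Finset Nat.Primes) (hpS : ⟨p, Fact.out⟩ ∈ S)
    (hL₀ : ∀ q ∉ S, IsUnramifiedAtRel (⊤ : Subgroup (L₀ ≃ₐ[ℚ] L₀)) q)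
    (f : Idele L₀) (x : LUnits L₀) (k : ℕ)
    (hfx : p ^ k • f - principalIdele L₀ x ∈ sIdeles L₀ (S : Set Nat.Primes)) :
    ∃ (L : IntermediateField ℚ (AlgebraicClosure ℚ)) (_ : NumberField L) (_ : IsGalois ℚ L)
      (hle : L₀ ≤ L),
      (∀ q ∉ S, IsUnramifiedAtRel (⊤ : Subgroup (L ≃ₐ[ℚ] L)) q) ∧
      ∃ y : LUnits L,
        @ideleBaseChange L₀ _ _ L _ _ (IntermediateField.inclusion hle).toRingHom.toAlgebra f -
          principalIdele L y ∈ sIdeles L (S : Set Nat.Primes) := by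
  classical
  have hp : p.Prime := Fact.out
  have hQ : Algebra.IsAlgebraic ℚ (AlgebraicClosure ℚ) := AlgebraicClosure.isAlgebraic ℚ
  have : IsAlgClosure ℚ (AlgebraicClosure ℚ) := ⟨inferInstance, hQ⟩
  have : Normal ℚ (AlgebraicClosure ℚ) := IsAlgClosure.normal _ _
  set m := p ^ k with hm
  have hm0 : 0 < m := pow_pos hp.pos k
  have hval : ∀ q ∉ S, ∀ ψ : Emb L₀ q, ‖(f.fin q ψ).toField‖ ^ m = ‖ψ (x.val : L₀)‖ := by
    intro q hq ψ
    have h := hfx q hq ψ
    rw [QUnits.mem_unitGroup_iff, AddSubgroupClass.coe_sub, Prod.fst_sub, Pi.sub_apply,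
      Pi.sub_apply, sub_eq_add_neg, QUnits.toField_add, QUnits.toField_neg, norm_mul, norm_inv,
      principalIdele_apply, toField_principalFamily, mul_inv_eq_one₀
        (norm_ne_zero_iff.2 ((map_ne_zero ψ).2 x.val.ne_zero))] at h
    refine Eq.trans ?_ h
    rw [← norm_pow]
    rfl
  set R : Set (AlgebraicClosure ℚ) :=
    {y | ∃ s : L₀ ≃ₐ[ℚ] L₀, y ^ m = ((s (x.val : L₀) : L₀) : AlgebraicClosure ℚ)} with hR
  have hRfin : R.Finite := by
    refine (Set.finite_iUnion fun s : L₀ ≃ₐ[ℚ] L₀ => (Polynomial.nthRoots m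
      ((s (x.val : L₀) : L₀) : AlgebraicClosure ℚ)).toFinset.finite_toSet).subset ?_
    rintro y ⟨s, hs⟩
    exact Set.mem_iUnion.2 ⟨s, Multiset.mem_toFinset.2 ((Polynomial.mem_nthRoots hm0).2 hs)⟩
  set L := IntermediateField.adjoin ℚ ((L₀ : Set (AlgebraicClosure ℚ)) ∪ R) with hL
  have hle : L₀ ≤ L := fun z hz => IntermediateField.subset_adjoin _ _ (Or.inl hz)
  have hfd : FiniteDimensional ℚ L := by
    have : Finite R := hRfin.to_subtype
    have : FiniteDimensional ℚ (IntermediateField.adjoin ℚ R) :=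
      IntermediateField.finiteDimensional_adjoin fun y _ =>
        (Algebra.IsAlgebraic.isAlgebraic y).isIntegral
    rw [hL, IntermediateField.adjoin_union, IntermediateField.adjoin_self]
    infer_instance
  have : NumberField L := ⟨⟩
  have : Normal ℚ L := by
    refine IntermediateField.normal_iff_forall_map_le.2 fun σ => ?_
    rw [hL, IntermediateField.adjoin_map, IntermediateField.adjoin_le_iff]
    rintro _ ⟨z, hz | ⟨s, hs⟩, rfl⟩
    · refine IntermediateField.subset_adjoin _ _ (Or.inl ?_)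
      rw [SetLike.mem_coe, show σ z = ((σ.restrictNormal L₀ ⟨z, hz⟩ : L₀) : AlgebraicClosure ℚ)
        from (σ.restrictNormal_commutes L₀ ⟨z, hz⟩).symm]
      exact SetLike.coe_mem _
    · refine IntermediateField.subset_adjoin _ _ (Or.inr ⟨s.trans (σ.restrictNormal' L₀), ?_⟩)
      rw [← map_pow, hs]
      exact (σ.restrictNormal_commutes L₀ (s (x.val : L₀))).symm
  have : IsGalois ℚ L := ⟨⟩
  let : Algebra L₀ L := (IntermediateField.inclusion hle).toRingHom.toAlgebra
  have : IsScalarTower ℚ L₀ L := IsScalarTower.of_algebraMap_eq' (Subsingleton.elim _ _)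
  refine ⟨L, inferInstance, inferInstance, hle, fun q hq φ g _ hg => ?_, ?_⟩
  · have hqp : p ≠ (q : ℕ) := fun h => hq (by
      rwa [show q = ⟨p, Fact.out⟩ from Subtype.ext h.symm])
    have hK : ∀ z, g (algebraMap L₀ L z) = algebraMap L₀ L z := fun z => by
      rw [← g.restrictNormal_commutes, show g.restrictNormal L₀ = 1 from
        hL₀ q hq _ _ trivial (restrictNormal_mem_inertiaGroup φ hg)]
      rfl
    suffices key : ∀ (z : AlgebraicClosure ℚ) (hz : z ∈ L), g ⟨z, hz⟩ = ⟨z, hz⟩ from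
      AlgEquiv.ext fun z => key z z.2
    intro z hz
    induction hz using IntermediateField.adjoin_induction with
    | mem z hz =>
      rcases hz with hz | ⟨s, hs⟩
      · exact hK ⟨z, hz⟩
      · set ψ : Emb L₀ q := Emb.preComp (φ.comp (algebraMap L₀ L)) s with hψ
        obtain ⟨d, -, hd0, hd⟩ := exists_norm_eq ⊥ ψ (fin_mem_localField_bot f ψ)
          (QUnits.toField_ne_zero _)
        refine inertia_fixes_root (norm_natCast_prime_pow hp hqp k) φ hg hK
          (c := s (x.val : L₀)) (d := s d) (by simpa using hd0) (Subtype.ext hs) ?_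
        exact (congrArg (· ^ m) hd).trans (hval q hq ψ)
    | algebraMap r => exact g.commutes r
    | add a b ha hb iha ihb =>
      exact (map_add g ⟨a, ha⟩ ⟨b, hb⟩).trans (congrArg₂ (· + ·) iha ihb)
    | inv a ha iha => exact (map_inv₀ g ⟨a, ha⟩).trans (congrArg (·⁻¹) iha)
    | mul a b ha hb iha ihb =>
      exact (map_mul g ⟨a, ha⟩ ⟨b, hb⟩).trans (congrArg₂ (· * ·) iha ihb)
  · obtain ⟨y, hy⟩ := IsAlgClosed.exists_pow_nat_eq ((x.val : L₀) : AlgebraicClosure ℚ) hm0
    have hy0 : y ≠ 0 := fun h => x.val.ne_zero (Subtype.ext (by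
      rw [← hy, h, zero_pow hm0.ne']; rfl))
    have hyL : y ∈ L := IntermediateField.subset_adjoin _ _ (Or.inr ⟨1, hy⟩)
    refine ⟨LUnits.of (Units.mk0 ⟨y, hyL⟩ fun h => hy0 (congrArg Subtype.val h)),
      fun q hq φ => ?_⟩
    rw [QUnits.mem_unitGroup_iff, AddSubgroupClass.coe_sub, Prod.fst_sub, Pi.sub_apply,
      Pi.sub_apply, sub_eq_add_neg, QUnits.toField_add, QUnits.toField_neg, norm_mul, norm_inv,
      principalIdele_apply, toField_principalFamily, mul_inv_eq_one₀]
    · refine (pow_left_inj₀ (norm_nonneg _) (norm_nonneg _) hm0.ne').1 ?_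
      refine (hval q hq (φ.comp (algebraMap L₀ L))).trans ?_
      rw [← norm_pow, ← map_pow]
      exact congrArg (fun z => ‖φ z‖) (Subtype.ext hy.symm)
    · exact norm_ne_zero_iff.2 ((map_ne_zero φ).2 fun h => hy0 (congrArg Subtype.val h))

end FermatLib.CFT
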