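import Fermat.Agent.CFT.IdelePlaces

/-!
Invariant ideles as ideles of the fixed field.
-/

set_option autoImplicit false

open NumberField

namespace FermatLib.CFT

variable {L : Type} [Field L] [NumberField L] {q : Nat.Primes}

/-- Restriction of an embedding to `L^H`. -/
noncomputable def Emb.restrictFixed (φ : Emb L q) (H : Subgroup (L ≃ₐ[ℚ] L)) :
    Emb (IntermediateField.fixedField H) q :=
  φ.comp (algebraMap (IntermediateField.fixedField H) L)

/-- Restriction of a complex embedding to `L^H`. -/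
noncomputable def restrictFixedInf (φ : L →+* ℂ) (H : Subgroup (L ≃ₐ[ℚ] L)) :
    IntermediateField.fixedField H →+* ℂ :=
  φ.comp (algebraMap (IntermediateField.fixedField H) L)

theorem Emb.exists_restrictFixed_eq (H : Subgroup (L ≃ₐ[ℚ] L))
    (ψ : Emb (IntermediateField.fixedField H) q) : ∃ φ : Emb L q, φ.restrictFixed H = ψ := by
  letI := ψ.toAlgebra
  let e : L →ₐ[IntermediateField.fixedField H] PadicAlgCl (q : ℕ) := IsAlgClosed.lift
  exact ⟨e.toRingHom, RingHom.ext fun x => e.commutes x⟩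

theorem exists_restrictFixedInf_eq (H : Subgroup (L ≃ₐ[ℚ] L))
    (ψ : IntermediateField.fixedField H →+* ℂ) : ∃ φ : L →+* ℂ, restrictFixedInf φ H = ψ := by
  letI := ψ.toAlgebra
  let e : L →ₐ[IntermediateField.fixedField H] ℂ := IsAlgClosed.lift
  exact ⟨e.toRingHom, RingHom.ext fun x => e.commutes x⟩

variable [IsGalois ℚ L]

theorem restrictFixedInf_eq_iff (H : Subgroup (L ≃ₐ[ℚ] L)) (φ ψ : L →+* ℂ) :
    restrictFixedInf φ H = restrictFixedInf ψ H ↔ ∃ g ∈ H, φ.comp (g : L →+* L) = ψ := by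
  constructor
  · intro h
    obtain ⟨g, rfl⟩ := exists_comp_eq_inf φ ψ
    refine ⟨g, ?_, rfl⟩
    rw [← IntermediateField.fixingSubgroup_fixedField H, IntermediateField.mem_fixingSubgroup_iff]
    exact fun x hx => φ.injective (RingHom.congr_fun h ⟨x, hx⟩).symm
  · rintro ⟨g, hg, rfl⟩
    exact RingHom.ext fun x => (congrArg φ ((IntermediateField.mem_fixedField_iff H _).1 x.2 g hg)).symm

theorem restrictFixed_eq_iff (H : Subgroup (L ≃ₐ[ℚ] L)) (φ ψ : Emb L q) :
    φ.restrictFixed H = ψ.restrictFixed H ↔ ∃ g ∈ H, φ.preComp g = ψ := by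
  constructor
  · exact fun h => exists_mem_preComp_eq H φ ψ fun x hx => RingHom.congr_fun h ⟨x, hx⟩
  · rintro ⟨g, hg, rfl⟩
    exact RingHom.ext fun x => (congrArg φ ((IntermediateField.mem_fixedField_iff H _).1 x.2 g hg)).symm

theorem fixed_fin_eq {H : Subgroup (L ≃ₐ[ℚ] L)} {f : Idele L} (hf : f ∈ fixedPts H (Idele L))
    {φ ψ : Emb L q} (h : φ.restrictFixed H = ψ.restrictFixed H) : f.fin q φ = f.fin q ψ := by
  obtain ⟨g, hg, rfl⟩ := (restrictFixed_eq_iff H φ ψ).1 h
  exact (congrArg (fun z : Idele L => z.fin q φ) ((mem_fixedPts_subgroup_iff H f).1 hf g hg)).symm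

theorem fixed_inf_eq {H : Subgroup (L ≃ₐ[ℚ] L)} {f : Idele L} (hf : f ∈ fixedPts H (Idele L))
    {φ ψ : L →+* ℂ} (h : restrictFixedInf φ H = restrictFixedInf ψ H) : f.inf φ = f.inf ψ := by
  obtain ⟨g, hg, rfl⟩ := (restrictFixedInf_eq_iff H φ ψ).1 h
  exact (congrArg (fun z : Idele L => z.inf φ) ((mem_fixedPts_subgroup_iff H f).1 hf g hg)).symm

/-- An invariant idele comes from an idele of the fixed field. -/
theorem exists_fixedField_idele (H : Subgroup (L ≃ₐ[ℚ] L)) {f : Idele L}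
    (hf : f ∈ fixedPts H (Idele L)) :
    ∃ g : Idele (IntermediateField.fixedField H),
      (∀ (q : Nat.Primes) (φ : Emb L q), f.fin q φ = g.fin q (φ.restrictFixed H)) ∧
        ∀ φ : L →+* ℂ, f.inf φ = g.inf (restrictFixedInf φ H) := by
  choose e he using fun (q : Nat.Primes) => Emb.exists_restrictFixed_eq (q := q) H
  choose e' he' using exists_restrictFixedInf_eq H
  refine ⟨⟨(fun q ψ => f.fin q (e q ψ), fun ψ => f.inf (e' ψ)), fun q τ ψ => ?_, ?_, fun ψ => ?_⟩,
    fun q φ => fixed_fin_eq hf (he q _).symm, fun φ => fixed_inf_eq hf (he' _).symm⟩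
  · change f.fin q (e q (ψ.postComp τ)) = τ.onUnits (f.fin q (e q ψ))
    rw [Idele.fin, ← f.2.1 q τ]
    refine fixed_fin_eq hf ((he q _).trans ?_)
    exact congrArg (Emb.postComp τ) (he q ψ).symm
  · exact f.2.2.1.subset fun q ⟨ψ, hψ⟩ => ⟨e q ψ, hψ⟩
  · change f.inf (e' _) = conjUnits (f.inf (e' ψ))
    rw [Idele.inf, ← f.2.2.2]
    refine fixed_inf_eq hf ((he' _).trans ?_)
    exact congrArg (RingHom.comp (starRingEnd ℂ)) (he' ψ).symm

end FermatLib.CFT
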