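import Fermat.Agent.CFT.IdeleBasic

/-!
Ideles supported at a single prime or at infinity.
-/

set_option autoImplicit false

open NumberField

namespace FermatLib.CFT

variable {L : Type} [Field L] [NumberField L] {q : Nat.Primes}

open Classical in
/-- The idele with values `v` at `q`, trivial elsewhere. -/
noncomputable def singlePrime (q : Nat.Primes) (v : Emb L q → QUnits q)
    (hv : ∀ (τ : Gloc q) (ψ : Emb L q), v (ψ.postComp τ) = τ.onUnits (v ψ)) : Idele L :=
  ⟨(Pi.single q v, 0), by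
    refine ⟨fun r τ ψ => ?_, ?_, fun ψ => (map_zero (conjUnits)).symm⟩
    · rcases eq_or_ne r q with rfl | hr
      · simp only [Pi.single_eq_same, hv]
      · simp only [Pi.single_eq_of_ne hr, Pi.zero_apply, map_zero]
    · refine (Set.finite_singleton q).subset fun r ⟨ψ, hψ⟩ => ?_
      by_contra hr
      exact hψ (by simp only [Pi.single_eq_of_ne (Set.mem_singleton_iff.not.1 hr), Pi.zero_apply]
                   exact zero_mem _)⟩

theorem singlePrime_apply (v : Emb L q → QUnits q)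
    (hv : ∀ (τ : Gloc q) (ψ : Emb L q), v (ψ.postComp τ) = τ.onUnits (v ψ)) (ψ : Emb L q) :
    (singlePrime q v hv).fin q ψ = v ψ := by
  simp only [Idele.fin, singlePrime, Pi.single_eq_same]

theorem singlePrime_apply_of_ne (v : Emb L q → QUnits q)
    (hv : ∀ (τ : Gloc q) (ψ : Emb L q), v (ψ.postComp τ) = τ.onUnits (v ψ)) {r : Nat.Primes}
    (hr : r ≠ q) (ψ : Emb L r) : (singlePrime q v hv).fin r ψ = 0 := by
  simp only [Idele.fin, singlePrime, Pi.single_eq_of_ne hr, Pi.zero_apply]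

theorem singlePrime_inf (v : Emb L q → QUnits q)
    (hv : ∀ (τ : Gloc q) (ψ : Emb L q), v (ψ.postComp τ) = τ.onUnits (v ψ)) (χ : L →+* ℂ) :
    (singlePrime q v hv).inf χ = 0 := rfl

theorem eq_singlePrime {f : Idele L} {v : Emb L q → QUnits q}
    (hv : ∀ (τ : Gloc q) (ψ : Emb L q), v (ψ.postComp τ) = τ.onUnits (v ψ))
    (h1 : ∀ ψ, f.fin q ψ = v ψ) (h2 : ∀ r, r ≠ q → ∀ ψ, f.fin r ψ = 0) (h3 : ∀ χ, f.inf χ = 0) :
    f = singlePrime q v hv := by
  refine idele_ext (fun r ψ => ?_) (fun χ => by rw [h3, singlePrime_inf])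
  rcases eq_or_ne r q with rfl | hr
  · rw [h1, singlePrime_apply]
  · rw [h2 r hr, singlePrime_apply_of_ne v hv hr]

/-- The idele with values `v` at infinity, trivial elsewhere. -/
noncomputable def singleInf (v : (L →+* ℂ) → CUnits)
    (hv : ∀ ψ, v ((starRingEnd ℂ).comp ψ) = conjUnits (v ψ)) : Idele L :=
  ⟨(fun _ _ => 0, v), fun _ τ _ => (map_zero τ.onUnits).symm,
    Set.finite_empty.subset (fun _ ⟨_, hψ⟩ => (hψ (zero_mem _)).elim), hv⟩

theorem singleInf_apply (v : (L →+* ℂ) → CUnits)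
    (hv : ∀ ψ, v ((starRingEnd ℂ).comp ψ) = conjUnits (v ψ)) (ψ : L →+* ℂ) :
    (singleInf v hv).inf ψ = v ψ := rfl

end FermatLib.CFT
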