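import Fermat.Agent.CFT.CohCores
import Fermat.Agent.CFT.DualityModule
import Fermat.Agent.CFT.ClassFormation
import Fermat.Agent.CFT.TateNakayama
import Fermat.Agent.CFT.IdelePlaces
import Fermat.Agent.CFT.CFChiNorm
import Fermat.Agent.CFT.PresDefs

/-!
Corestriction from a decomposition group: the ideles corestricted from
one place have that place's cocycle as component, and a local class dies, up to torsion prime to
`p`, when its corestriction dies in the classes.
-/

set_option autoImplicit false
set_option linter.unusedSectionVars false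

open NumberField

namespace FermatLib.CFT

section generic

variable {G : Type*} [Group G] {A B : Type*} [AddCommGroup A] [DistribMulAction G A]
  [AddCommGroup B] [DistribMulAction G B]

/-- Conjugation by an element of the group acts trivially on classes. -/
theorem smul_conj_sub_eq_d1 {z : G × G → A} (hz : z ∈ Z2 G A) (o x y : G) :
    o • z (o⁻¹ * x * o, o⁻¹ * y * o) - z (x, y) =
      d1 G A (fun w => z (o, o⁻¹ * w * o) - z (w, o)) (x, y) := by
  have h := mem_Z2_iff.1 hz
  have e1 := h o (o⁻¹ * x * o) (o⁻¹ * y * o)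
  have e2 := h x o (o⁻¹ * y * o)
  have e3 := h x y o
  have a1 : o⁻¹ * x * o * (o⁻¹ * y * o) = o⁻¹ * (x * y) * o := by group
  have a2 : o * (o⁻¹ * x * o) = x * o := by group
  have a3 : o * (o⁻¹ * y * o) = y * o := by group
  rw [a1, a2] at e1
  rw [a3] at e2
  rw [d1_apply, smul_sub]
  linear_combination (norm := abel) e1 - e2 + e3

variable [Finite G] (H : Subgroup G)

/-- Corestriction is natural in the coefficients. -/
theorem cores2_map (φ : A →+ B) (hφ : ∀ (g : G) a, φ (g • a) = g • φ a) (f : H × H → A) :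
    (fun t => φ (cores2 H f t)) = cores2 H (fun t => φ (f t)) := by
  have := Fintype.ofFinite (G ⧸ H)
  funext t
  obtain ⟨g, g'⟩ := t
  rw [cores2_apply, cores2_apply, map_sum]
  exact Finset.sum_congr rfl fun c _ => hφ _ _

variable {p : ℕ} [Fact p.Prime]

open Duality in
/-- In a class formation corestriction is injective up to torsion prime to `p`. -/
theorem mem_satB2_of_cores2 (hA : IsPClassFormation p G A) {z : H × H → A}
    (hz : z ∈ Z2 H A) (h : cores2 H z ∈ satB2 G A p) : z ∈ satB2 H A p := by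
  have := Fintype.ofFinite G
  have := Fintype.ofFinite H
  obtain ⟨u, hu⟩ := TN.exists_isFund hA
  set ur : H × H → A := fun t => (u : G × G → A) ((t.1 : G), (t.2 : G)) with hur
  have hu' := hu.restrict H
  let P : Sylow p H := default
  let Q : Sylow p G := default
  obtain ⟨k, hk, hkB⟩ := h
  obtain ⟨m, hm⟩ := hu'.gen (P : Subgroup H) P.isPGroup' _
    (cochainMap2_mem_Z2 (isCompat_subtype (A := A) (P : Subgroup H)) hz)
  have hz' : z - m • ur ∈ Z2 H A :=
    sub_mem hz (AddSubgroup.zsmul_mem _ (TN.res_mem_Z2 H u.2) m)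
  have hB : (P : Subgroup H).index • (z - m • ur) ∈ B2 H A :=
    index_smul_mem_B2 _ hz' (by rw [map_sub, map_zsmul]; exact hm)
  set i := (P : Subgroup H).index with hi
  have hI : (i : ℤ) • cores2 H z - ((i : ℤ) * m * H.index) • (u : G × G → A) ∈ B2 G A := by
    have h1 := cores2_mem_B2 H hB
    rw [map_nsmul, map_sub, map_zsmul] at h1
    have h2 := AddSubgroup.zsmul_mem _ (cores2_res H u.2) ((i : ℤ) * m)
    convert add_mem h1 h2 using 1
    rw [← natCast_zsmul (cores2 H z - m • cores2 H ur) i, smul_sub, smul_sub, smul_smul,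
      ← natCast_zsmul (u : G × G → A) H.index, smul_smul]
    abel
  have hu0 : ((k : ℤ) * ((i : ℤ) * m * H.index)) • (u : G × G → A) ∈ B2 G A := by
    have h1 := AddSubgroup.zsmul_mem _ hI (k : ℤ)
    rw [smul_sub, smul_comm (k : ℤ) (i : ℤ), smul_smul (k : ℤ), natCast_zsmul _ k] at h1
    have h2 := sub_mem (AddSubgroup.zsmul_mem _ hkB (i : ℤ)) h1
    rwa [sub_sub_cancel] at h2
  obtain ⟨s, hs⟩ := hu.dvd_of_smul_mem (Q : Subgroup G) Q.isPGroup' hu0
  have hG : (Nat.card (P : Subgroup H) : ℤ) * i * H.index =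
      (Nat.card (Q : Subgroup G) : ℤ) * (Q : Subgroup G).index := by
    exact_mod_cast
      show Nat.card (P : Subgroup H) * i * H.index =
        Nat.card (Q : Subgroup G) * (Q : Subgroup G).index by
      rw [hi, Subgroup.card_mul_index, Subgroup.card_mul_index, Subgroup.card_mul_index]
  have hdvd : (Nat.card (P : Subgroup H) : ℤ) ∣ m := by
    have hcop : IsCoprime (Nat.card (P : Subgroup H) : ℤ) ((k * (Q : Subgroup G).index : ℕ) : ℤ) := by
      obtain ⟨a, ha⟩ := IsPGroup.iff_card.1 P.isPGroup'
      rw [Int.isCoprime_iff_gcd_eq_one, Int.gcd_natCast_natCast, ha]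
      exact ((Fact.out : p.Prime).coprime_iff_not_dvd.2
        ((Fact.out : p.Prime).not_dvd_mul hk Q.not_dvd_index)).pow_left a
    refine hcop.dvd_of_dvd_mul_left ⟨s, ?_⟩
    have hne : (Nat.card (Q : Subgroup G) : ℤ) ≠ 0 := Nat.cast_ne_zero.2 Nat.card_pos.ne'
    refine mul_left_cancel₀ hne ?_
    push_cast
    linear_combination (-(k : ℤ) * m) * hG + (Nat.card (P : Subgroup H) : ℤ) * hs
  have hres : cochainMap2 (P : Subgroup H).subtype (AddMonoidHom.id A) z ∈
      B2 (P : Subgroup H) A := by
    have h1 := add_mem hm ((hu'.smul_mem_iff _ P.isPGroup' m).2 hdvd)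
    rwa [sub_add_cancel] at h1
  exact ⟨_, P.not_dvd_index, index_smul_mem_B2 _ hz hres⟩

end generic

open Duality

section place

variable {p : ℕ} [Fact p.Prime] {L : Type} [Field L] [NumberField L] [IsGalois ℚ L]
  {q : Nat.Primes} (φ : Emb L q)

/-- Cochains of the decomposition group in the local module as cochains in the ideles. -/
noncomputable def placeCochain :
    (decompGroup φ × decompGroup φ → localPart φ) →+
      (decompGroup φ × decompGroup φ → Idele L) :=
  cochainMap2 (MonoidHom.id _) (localPart φ).subtype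

theorem isCompat_placeIncl :
    IsCompat (MonoidHom.id (decompGroup φ)) ((localPart φ).subtype : localPart φ →+ Idele L) :=
  fun _ _ => rfl

/-- The ideles corestricted from one place are supported at its prime. -/
theorem cores2_placeCochain_mem (z : decompGroup φ × decompGroup φ → localPart φ)
    (t : (L ≃ₐ[ℚ] L) × (L ≃ₐ[ℚ] L)) :
    cores2 (decompGroup φ) (placeCochain φ z) t ∈ primeIdeles L q := by
  classical
  have := Fintype.ofFinite ((L ≃ₐ[ℚ] L) ⧸ decompGroup φ)
  obtain ⟨g, g'⟩ := t
  rw [cores2_apply]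
  refine sum_mem fun c _ => ⟨fun r hr ψ => ?_, funext fun χ => ?_⟩
  · exact localPart_apply_of_ne (z _).2 hr _
  · exact congrFun (z _).2.2 _

/-- The component of the corestriction at the base place is the given cocycle up to a
coboundary. -/
theorem restrictPlace_cores2 {z : decompGroup φ × decompGroup φ → localPart φ}
    (hz : z ∈ Z2 (decompGroup φ) (localPart φ)) :
    ∃ c : decompGroup φ → localPart φ, ∀ x y : decompGroup φ,
      restrictPlace φ (cores2 (decompGroup φ) (placeCochain φ z)
        ((x : L ≃ₐ[ℚ] L), (y : L ≃ₐ[ℚ] L))) =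
        z (x, y) + d1 (decompGroup φ) (localPart φ) c (x, y) := by
  classical
  have := Fintype.ofFinite ((L ≃ₐ[ℚ] L) ⧸ decompGroup φ)
  set c₀ : (L ≃ₐ[ℚ] L) ⧸ decompGroup φ := QuotientGroup.mk 1 with hc₀
  have ho : c₀.out ∈ decompGroup φ := by
    have := QuotientGroup.eq.1 (QuotientGroup.out_eq' c₀)
    simpa using (decompGroup φ).inv_mem this
  set o : decompGroup φ := ⟨c₀.out, ho⟩ with hodef
  refine ⟨fun w => z (o, o⁻¹ * w * o) - z (w, o), fun x y => ?_⟩
  rw [← smul_conj_sub_eq_d1 hz o x y, add_sub_cancel]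
  have hfix : ∀ w : decompGroup φ, (w : L ≃ₐ[ℚ] L) • c₀ = c₀ := fun w => by
    rw [hc₀, MulAction.Quotient.smul_mk, QuotientGroup.eq]
    simp
  have hcomp : ∀ w : decompGroup φ, coresComp (decompGroup φ) (w : L ≃ₐ[ℚ] L) c₀ = o⁻¹ * w * o := fun w => by
    refine Subtype.ext ?_
    simp only [coresComp, hfix, Subgroup.coe_mul, Subgroup.coe_inv, hodef, mul_assoc]
  apply localPartVal_injective φ
  show (restrictPlace φ _ : Idele L).fin q φ = ((o • z _ : localPart φ) : Idele L).fin q φ
  rw [restrictPlace_apply φ _ (Emb.SamePlace.refl φ), cores2_apply, Chi.sum_fin_apply,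
    Finset.sum_eq_single c₀]
  · rw [← Subgroup.coe_mul, hfix, hfix, hcomp, hcomp]
    rfl
  · intro c _ hne
    by_contra hnz
    obtain ⟨_, hs⟩ := (z _).2.1 q (φ.preComp _) hnz
    refine hne ?_
    have hmem : (((x : L ≃ₐ[ℚ] L) * y) • c).out ∈ decompGroup φ := hs
    have h1 : ((x : L ≃ₐ[ℚ] L) * y) • c = c₀ := by
      rw [← QuotientGroup.out_eq' (((x : L ≃ₐ[ℚ] L) * y) • c), hc₀, QuotientGroup.eq]
      simpa using hmem
    rw [← Subgroup.coe_mul, ← hfix (x * y)] at h1
    exact MulAction.injective _ h1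
  · exact fun h => absurd (Finset.mem_univ _) h

/-- A local class dies up to torsion prime to `p` when its corestriction does so in the classes. -/
theorem mem_satB2_of_cores2_placeCochain {z : decompGroup φ × decompGroup φ → localPart φ}
    (hz : z ∈ Z2 (decompGroup φ) (localPart φ))
    (h : (fun t => (QuotientAddGroup.mk (cores2 (decompGroup φ) (placeCochain φ z) t) :
      IdeleClass L)) ∈ satB2 (L ≃ₐ[ℚ] L) (IdeleClass L) p) :
    z ∈ satB2 (decompGroup φ) (localPart φ) p := by
  let mk' : Idele L →+ IdeleClass L := QuotientAddGroup.mk' (principalIdeles L)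
  have hmk : ∀ (g : L ≃ₐ[ℚ] L) a, mk' (g • a) = g • mk' a := fun g a => rfl
  set zc : decompGroup φ × decompGroup φ → IdeleClass L := fun t => mk' (z t) with hzc
  have hcC : IsCompat (A := localPart φ) (B := IdeleClass L) (MonoidHom.id (decompGroup φ))
      (mk'.comp (localPart φ).subtype) := fun _ _ => rfl
  have hzcZ : zc ∈ Z2 (decompGroup φ) (IdeleClass L) := cochainMap2_mem_Z2 hcC hz
  have hcor : cores2 (decompGroup φ) zc ∈ satB2 (L ≃ₐ[ℚ] L) (IdeleClass L) p := by
    have e := cores2_map (A := Idele L) (B := IdeleClass L) (decompGroup φ) mk' hmk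
      (placeCochain φ z)
    exact (congrArg (· ∈ satB2 (L ≃ₐ[ℚ] L) (IdeleClass L) p) e).mp h
  obtain ⟨k, hk, hkB⟩ := mem_satB2_of_cores2 _ (ideleClass_isPClassFormation L) hzcZ hcor
  let P : Sylow p (decompGroup φ) := default
  set H : Subgroup (L ≃ₐ[ℚ] L) := (P : Subgroup (decompGroup φ)).map (decompGroup φ).subtype
  have hHD : H ≤ decompGroup φ := Subgroup.map_subtype_le _
  let e : H →* decompGroup φ := Subgroup.inclusion hHD
  let f : H × H → Idele L := cochainMap2 e (localPart φ).subtype (k • z)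
  have hce : IsCompat e ((localPart φ).subtype : localPart φ →+ Idele L) := fun _ _ => rfl
  have hf : f ∈ Z2 H (Idele L) := cochainMap2_mem_Z2 hce (AddSubgroup.nsmul_mem _ hz k)
  have hfB : (fun t => (QuotientAddGroup.mk (f t) : IdeleClass L)) ∈ B2 H (IdeleClass L) := by
    have hce' : IsCompat (A := IdeleClass L) (B := IdeleClass L) e (AddMonoidHom.id _) :=
      fun _ _ => rfl
    have h1 := cochainMap2_mem_B2 hce' hkB
    have e1 : (fun t => (QuotientAddGroup.mk (f t) : IdeleClass L)) =
        cochainMap2 e (AddMonoidHom.id (IdeleClass L)) (k • zc) := by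
      funext t
      exact map_nsmul (mk'.comp (localPart φ).subtype) k (z (e t.1, e t.2))
    exact e1 ▸ h1
  obtain ⟨b, hb, hbf⟩ := localPart_h2_injective (p := p) L φ H hHD (P.isPGroup'.map _) hf (fun t => ((k • z) (e t.1, e t.2)).2) hfB
  let eP : (P : Subgroup (decompGroup φ)) →* H :=
    ((decompGroup φ).subtype.comp (P : Subgroup (decompGroup φ)).subtype).codRestrict H
      fun x => ⟨x, x.2, rfl⟩
  have hres : cochainMap2 (P : Subgroup (decompGroup φ)).subtype (AddMonoidHom.id _) (k • z) ∈
      B2 (P : Subgroup (decompGroup φ)) (localPart φ) := by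
    refine mem_B2_iff.2 ⟨fun x => ⟨b (eP x), hb _⟩, fun x y => Subtype.ext ?_⟩
    have h1 := congrFun hbf (eP x, eP y)
    rw [d1_apply, ← map_mul] at h1
    exact h1.symm
  refine ⟨(P : Subgroup (decompGroup φ)).index * k,
    (Fact.out : p.Prime).not_dvd_mul P.not_dvd_index hk, ?_⟩
  rw [mul_smul]
  exact index_smul_mem_B2 _ (AddSubgroup.nsmul_mem _ hz k) hres

end place

end FermatLib.CFT
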