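import Fermat.Agent.CFT.LocalUnitsApprox
import Fermat.Agent.CFT.FirstCyclic

/-!
An automorphism of finite order of a local field: Hilbert 90, and Herbrand quotient one of the
units, via a normal-basis lattice and successive approximation.
-/

set_option autoImplicit false
set_option linter.unusedSectionVars false

open scoped NNReal

namespace FermatLib.CFT.Loc

open Herbrand

variable {𝕜 L : Type*} [NontriviallyNormedField 𝕜] [NormedField L] [NormedAlgebra 𝕜 L]
  (σ : L ≃ₐ[𝕜] L)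

/-- An automorphism acting on units. -/
def unitsEnd : AddMonoid.End (Additive Lˣ) := MonoidHom.toAdditive (Units.map (σ : L →* L))

/-- The underlying element. -/
abbrev unitVal (x : Additive Lˣ) : L := ((Additive.toMul x : Lˣ) : L)

theorem unitVal_injective : Function.Injective (unitVal (L := L)) := fun _ _ h =>
  Additive.toMul.injective (Units.ext h)

theorem unitVal_unitsEnd (x : Additive Lˣ) : unitVal (unitsEnd σ x) = σ (unitVal x) := rfl

theorem unitVal_unitsEnd_pow (i : ℕ) (x : Additive Lˣ) :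
    unitVal ((unitsEnd σ ^ i) x) = (σ ^ i) (unitVal x) := by
  induction i with
  | zero => rfl
  | succ i ih =>
    rw [pow_succ', pow_succ', AlgEquiv.mul_apply, ← ih]
    rfl

theorem unitVal_endDiff (x : Additive Lˣ) :
    unitVal (endDiff (unitsEnd σ) x) = σ (unitVal x) / unitVal x := by
  rw [endDiff_apply, unitVal, toMul_sub, Units.val_div_eq_div_val]
  rfl

theorem unitVal_endNorm (d : ℕ) (x : Additive Lˣ) :
    unitVal (endNorm d (unitsEnd σ) x) = ∏ i ∈ Finset.range d, (σ ^ i) (unitVal x) := by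
  rw [endNorm_apply, unitVal, toMul_sum, Units.coe_prod]
  exact Finset.prod_congr rfl fun i _ => unitVal_unitsEnd_pow σ i x

theorem isOrderP_top {d : ℕ} (hd : σ ^ d = 1) :
    IsOrderP d (unitsEnd σ) (⊤ : AddSubgroup (Additive Lˣ)) where
  mem _ _ := trivial
  pow_eq x _ := unitVal_injective (by rw [unitVal_unitsEnd_pow, hd]; rfl)

/-- Hilbert 90 for a cyclic group. -/
theorem hOrd_units_h90 [FiniteDimensional 𝕜 L] :
    hOrd (endNorm (orderOf σ) (unitsEnd σ)) (endDiff (unitsEnd σ))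
      (⊤ : AddSubgroup (Additive Lˣ)) = 1 := by
  rw [hOrd_eq_one_iff]
  intro x _ hx
  set d := orderOf σ with hd
  have hd0 : 0 < d := orderOf_pos σ
  set a := unitVal x with ha
  have hN : ∏ i ∈ Finset.range d, (σ ^ i) a = 1 := by rw [← unitVal_endNorm, hx]; rfl
  let P : ℕ → L := fun i => ∏ j ∈ Finset.range i, (σ ^ j) a
  obtain ⟨t, ht⟩ : ∃ t, ∑ i ∈ Finset.range d, P i * (σ ^ i) t ≠ 0 := by
    by_contra hall
    push Not at hall
    have hinj : Function.Injective fun i : Fin d => ((σ ^ (i : ℕ) : L ≃ₐ[𝕜] L) : L →* L) := by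
      intro i j h
      have e : (σ ^ (i : ℕ) : L ≃ₐ[𝕜] L) = σ ^ (j : ℕ) :=
        AlgEquiv.ext fun z => DFunLike.congr_fun h z
      exact Fin.ext (pow_injOn_Iio_orderOf i.2 j.2 e)
    have hli := ((linearIndependent_monoidHom L L).comp _ hinj)
    rw [Fintype.linearIndependent_iff] at hli
    have h0 := hli (fun i => P i) (funext fun t => by
      rw [Finset.sum_apply]
      simpa [Finset.sum_range, smul_eq_mul] using hall t) ⟨0, hd0⟩
    simp [P] at h0
  set b := ∑ i ∈ Finset.range d, P i * (σ ^ i) t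
  have hb : a * σ b = b := by
    have e : ∀ i, a * σ (P i * (σ ^ i) t) = P (i + 1) * (σ ^ (i + 1)) t := fun i => by
      simp only [P, map_mul, map_prod, ← mul_assoc, Finset.prod_range_succ' _ i, pow_zero,
        AlgEquiv.one_apply, pow_succ', AlgEquiv.mul_apply]
      ring
    have h1 := Finset.sum_range_succ' (fun i => P i * (σ ^ i) t) d
    rw [Finset.sum_range_succ, show P d = 1 from hN, pow_orderOf_eq_one] at h1
    simp only [P, Finset.prod_range_zero, pow_zero, one_mul, AlgEquiv.one_apply,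
      add_left_inj] at h1
    rw [map_sum, Finset.mul_sum, Finset.sum_congr rfl fun i _ => e i]
    exact h1.symm
  refine ⟨Additive.ofMul (Units.mk0 b⁻¹ (inv_ne_zero ht)), trivial, unitVal_injective ?_⟩
  rw [unitVal_endDiff]
  have hb' : σ b ≠ 0 := (map_ne_zero σ).2 ht
  simp only [unitVal, toMul_ofMul, Units.val_mk0, map_inv₀]
  rw [inv_div_inv]
  exact (div_eq_iff hb').2 hb.symm

variable [IsUltrametricDist L]

/-- An open lattice of small elements, cohomologically trivial for `σ`. -/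
structure UnitLattice where
  M : AddSubgroup L
  d : ℕ
  c : L
  r : ℝ
  δ : ℝ
  d_eq : d = orderOf σ
  c_ne : c ≠ 0
  c_lt : ‖c‖ < 1
  map_c : σ c = c
  r_nonneg : 0 ≤ r
  r_lt : r < 1
  δ_pos : 0 < δ
  sq_le : r * r ≤ δ * ‖c‖
  norm_le : ∀ m ∈ M, ‖m‖ ≤ r
  mem_of_le : ∀ x : L, ‖x‖ ≤ δ → x ∈ M
  isClosed : IsClosed (M : Set L)
  map_mem : ∀ m ∈ M, σ m ∈ M
  mul_mem : ∀ m ∈ M, c * m ∈ M
  exists_trace : ∀ m ∈ M, σ m = m → ∃ m' ∈ M, ∑ i ∈ Finset.range d, (σ ^ i) m' = m
  exists_diff : ∀ m ∈ M, ∑ i ∈ Finset.range d, (σ ^ i) m = 0 → ∃ y ∈ M, σ y - y = m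

variable {σ}

theorem sum_range_shift {A : Type*} [AddCommGroup A] (f : ℕ → A) {d : ℕ}
    (k : ℕ) (hper : ∀ j, f (d + j) = f j) :
    ∑ i ∈ Finset.range d, f (k + i) = ∑ i ∈ Finset.range d, f i := by
  induction k with
  | zero => simp
  | succ k ih =>
    rw [← ih]
    have h1 := Finset.sum_range_succ' (fun i => f (k + i)) d
    rw [Finset.sum_range_succ, add_comm k d, hper k, add_zero] at h1
    rw [Finset.sum_congr rfl fun i _ => show f (k + 1 + i) = f (k + (i + 1)) by ring_nf]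
    exact (add_right_cancel h1).symm

variable (σ) in
theorem exists_unitLattice [FiniteDimensional 𝕜 L] [CompleteSpace 𝕜] :
    Nonempty (UnitLattice σ) := by
  classical
  set d := orderOf σ with hd
  have hd0 : 0 < d := orderOf_pos σ
  set F := IntermediateField.fixedField (Subgroup.zpowers σ) with hF
  let g : Fin d → (L ≃ₐ[F] L) := fun i => IntermediateField.fixingSubgroupEquiv F
    ⟨σ ^ (i : ℕ), (IntermediateField.le_iff_le _ _).1 le_rfl
      (Subgroup.npow_mem_zpowers σ i)⟩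
  have hg : ∀ i z, g i z = (σ ^ (i : ℕ)) z := fun _ _ => rfl
  obtain ⟨θ, hθ⟩ := exists_linearIndependent_algEquiv_apply F L
  have hli : LinearIndependent F fun i : Fin d => (σ ^ (i : ℕ)) θ :=
    hθ.comp g fun i j h => Fin.ext (pow_injOn_Iio_orderOf i.2 j.2
      (AlgEquiv.ext fun z => by rw [← hg, ← hg, h]))
  have : Nonempty (Fin d) := ⟨⟨0, hd0⟩⟩
  let b : Module.Basis (Fin d) F L := basisOfLinearIndependentOfCardEqFinrank hli (by
    rw [Fintype.card_fin, IntermediateField.finrank_fixedField_eq_card, Nat.card_zpowers])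
  have hb : ∀ i, b i = (σ ^ (i : ℕ)) θ := fun i => by simp [b]
  let coef : Fin d → L →ₗ[𝕜] L := fun i =>
    (F.val.toLinearMap).comp ((b.coord i).restrictScalars 𝕜)
  have hsum : ∀ x, x = ∑ i, coef i x * (σ ^ (i : ℕ)) θ := fun x => by
    conv_lhs => rw [← b.sum_repr x]
    exact Finset.sum_congr rfl fun i _ => by rw [hb]; rfl
  have hfix : ∀ i x, σ (coef i x) = coef i x := fun i x =>
    (IntermediateField.mem_fixedField_iff _ _).1 (b.coord i x).2 σ (Subgroup.mem_zpowers σ)
  have hmemF : ∀ a : L, σ a = a → a ∈ F := fun a ha =>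
    (IntermediateField.mem_fixedField_iff _ _).2 fun f hf => by
      have hle : Subgroup.zpowers σ ≤ MulAction.stabilizer (L ≃ₐ[𝕜] L) a :=
        Subgroup.zpowers_le.2 ha
      exact hle hf
  have huniq : ∀ (w : Fin d → L), (∀ i, σ (w i) = w i) → ∀ i,
      coef i (∑ j, w j * (σ ^ (j : ℕ)) θ) = w i := by
    intro w hw i
    have e : ∑ j, w j * (σ ^ (j : ℕ)) θ = ∑ j, (⟨w j, hmemF _ (hw j)⟩ : F) • b j :=
      Finset.sum_congr rfl fun j _ => by rw [hb]; rfl
    show ((b.repr _ i : F) : L) = w i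
    rw [e, Module.Basis.repr_sum_self]
  have hmod : ∀ k, (σ ^ (k % d)) θ = (σ ^ k) θ := fun k => by rw [hd, pow_mod_orderOf]
  have hcoef : ∀ (a : L), σ a = a → ∀ (k : ℕ) (i : Fin d),
      ‖coef i (a * (σ ^ k) θ)‖ ≤ ‖a‖ := by
    intro a ha k i
    have e : a * (σ ^ k) θ =
        ∑ j : Fin d, (if j = ⟨k % d, Nat.mod_lt _ hd0⟩ then a else 0) * (σ ^ (j : ℕ)) θ := by
      rw [Finset.sum_eq_single ⟨k % d, Nat.mod_lt _ hd0⟩ (fun j _ hj => by rw [if_neg hj, zero_mul])
        (fun h => absurd (Finset.mem_univ _) h), if_pos rfl, hmod]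
    rw [e, huniq _ fun j => by split_ifs <;> simp [ha]]
    split_ifs <;> simp
  have hpowfix : ∀ a : L, σ a = a → ∀ j : ℕ, (σ ^ j) a = a := fun a ha j => by
    induction j with
    | zero => rfl
    | succ j ih => rw [pow_succ', AlgEquiv.mul_apply, ih, ha]
  set T := ∑ j ∈ Finset.range d, (σ ^ j) θ with hT
  have hTσ : ∀ k : ℕ, ∑ j ∈ Finset.range d, (σ ^ (k + j)) θ = T := fun k =>
    sum_range_shift (fun j => (σ ^ j) θ) k
      (fun j => by simp [hd, pow_add, pow_orderOf_eq_one])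
  have hT0 : T ≠ 0 := fun h0 => by
    have h := huniq (fun _ => 1) (fun _ => map_one σ) ⟨0, hd0⟩
    rw [show (∑ j : Fin d, (1 : L) * (σ ^ (j : ℕ)) θ) = T by
      simp [hT, Finset.sum_range], h0, map_zero] at h
    exact one_ne_zero h.symm
  have hTfix : σ T = T := by
    conv_rhs => rw [← hTσ 1]
    rw [hT, map_sum]
    exact Finset.sum_congr rfl fun j _ => by rw [add_comm 1 j, pow_succ']; rfl
  -- constants
  have hcont : ∀ i, Continuous (coef i) := fun i => LinearMap.continuous_of_finiteDimensional _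
  obtain ⟨δ₁, hδ₁, hball⟩ : ∃ δ₁ > 0, ∀ x : L, ‖x‖ ≤ δ₁ → ∀ i, ‖coef i x‖ ≤ 1 := by
    have h0 : ∀ i, ∀ᶠ x in nhds (0 : L), ‖coef i x‖ < 1 := fun i =>
      ((hcont i).norm.tendsto 0).eventually (gt_mem_nhds (by simp))
    obtain ⟨ε, hε, h⟩ := Metric.eventually_nhds_iff.1 (Filter.eventually_all.2 h0)
    exact ⟨ε / 2, half_pos hε, fun x hx i =>
      (h (by rw [dist_zero_right]; linarith) i).le⟩
  set B := ‖θ‖ + ∑ j : Fin d, ‖(σ ^ (j : ℕ)) θ‖ + 1 with hB
  have hB0 : 0 < B := by positivity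
  obtain ⟨c₀, hc₀, hc₁⟩ := NormedField.exists_norm_lt_one 𝕜
  set c := algebraMap 𝕜 L c₀ with hc
  have hcn : ‖c‖ = ‖c₀‖ := norm_algebraMap' L c₀
  obtain ⟨e, he, heB, heδ⟩ : ∃ e : 𝕜, e ≠ 0 ∧ ‖e‖ * B < 1 ∧ ‖e‖ * (B * B) ≤ δ₁ * ‖c₀‖ := by
    obtain ⟨e, he, hlt⟩ := NormedField.exists_norm_lt 𝕜
      (show 0 < min B⁻¹ (δ₁ * ‖c₀‖ / (B * B)) from lt_min (inv_pos.2 hB0)
        (div_pos (mul_pos hδ₁ hc₀) (mul_pos hB0 hB0)))
    refine ⟨e, norm_pos_iff.1 he, ?_, (le_div_iff₀ (mul_pos hB0 hB0)).1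
      (hlt.le.trans (min_le_right _ _))⟩
    have := mul_lt_mul_of_pos_right (hlt.trans_le (min_le_left _ _)) hB0
    rwa [inv_mul_cancel₀ hB0.ne'] at this
  set ρ := ‖e‖ with hρ
  have hρ0 : 0 < ρ := norm_pos_iff.2 he
  let M : AddSubgroup L :=
    { carrier := {x | ∀ i, ‖coef i x‖ ≤ ρ}
      zero_mem' := fun i => by simp [hρ0.le]
      add_mem' := fun {x y} hx hy i => by
        rw [map_add]
        exact (IsUltrametricDist.norm_add_le_max _ _).trans (max_le (hx i) (hy i))
      neg_mem' := fun {x} hx i => by rw [map_neg, norm_neg]; exact hx i }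
  have hmemM : ∀ a : L, σ a = a → ‖a‖ ≤ ρ → ∀ k : ℕ, a * (σ ^ k) θ ∈ M := fun a ha han k i =>
    (hcoef a ha k i).trans han
  refine ⟨{ M := M, d := d, c := c, r := ρ * B, δ := ρ * δ₁, d_eq := hd
            c_ne := (map_ne_zero _).2 (norm_pos_iff.1 hc₀)
            c_lt := hcn.trans_lt hc₁, map_c := σ.commutes c₀
            r_nonneg := by positivity, r_lt := heB, δ_pos := mul_pos hρ0 hδ₁
            sq_le := ?_, norm_le := ?_, mem_of_le := ?_, isClosed := ?_, map_mem := ?_
            mul_mem := ?_, exists_trace := ?_, exists_diff := ?_ }⟩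
  · rw [hcn]
    calc ρ * B * (ρ * B) = ρ * (ρ * (B * B)) := by ring
      _ ≤ ρ * (δ₁ * ‖c₀‖) := mul_le_mul_of_nonneg_left heδ hρ0.le
      _ = ρ * δ₁ * ‖c₀‖ := by ring
  · intro m hm
    rw [hsum m]
    refine IsUltrametricDist.norm_sum_le_of_forall_le_of_nonneg (by positivity) fun i _ => ?_
    rw [norm_mul]
    refine mul_le_mul (hm i) ?_ (norm_nonneg _) hρ0.le
    have := Finset.single_le_sum (f := fun j : Fin d => ‖(σ ^ (j : ℕ)) θ‖)
      (fun j _ => norm_nonneg _) (Finset.mem_univ i)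
    have := norm_nonneg θ
    linarith
  · intro x hx i
    have h := hball (e⁻¹ • x) (by
      rw [norm_smul, norm_inv]
      exact (inv_mul_le_iff₀ hρ0).2 hx) i
    rw [map_smul, norm_smul, norm_inv] at h
    simpa using (inv_mul_le_iff₀ hρ0).1 h
  · show IsClosed {x | ∀ i, ‖coef i x‖ ≤ ρ}
    rw [Set.ofPred_forall]
    exact isClosed_iInter fun i => isClosed_le (hcont i).norm continuous_const
  · intro m hm
    rw [hsum m, map_sum]
    refine M.sum_mem fun i _ => ?_
    rw [map_mul, hfix, ← AlgEquiv.mul_apply, ← pow_succ']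
    exact hmemM _ (hfix i m) (hm i) _
  · intro m hm i
    rw [show c * m = c₀ • m from (Algebra.smul_def c₀ m).symm, map_smul, norm_smul]
    exact (mul_le_of_le_one_left (norm_nonneg _) hc₁.le).trans (hm i)
  · intro m hm hσm
    have hafix : σ (m / T) = m / T := by rw [map_div₀, hσm, hTfix]
    have e1 : m = ∑ j : Fin d, m / T * (σ ^ (j : ℕ)) θ := by
      rw [← Finset.mul_sum, ← Finset.sum_range (fun j => (σ ^ j) θ), ← hT, div_mul_cancel₀ m hT0]
    have e2 : coef ⟨0, hd0⟩ m = m / T := by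
      conv_lhs => rw [e1]
      exact huniq _ (fun _ => hafix) _
    refine ⟨m / T * θ, by simpa using hmemM _ hafix (e2 ▸ hm ⟨0, hd0⟩) 0, ?_⟩
    simp only [map_mul, hpowfix _ hafix, ← Finset.mul_sum, ← hT, div_mul_cancel₀ m hT0]
  · intro m hm h0
    have hz : ∑ i, coef i m = 0 := by
      have e1 : ∑ j ∈ Finset.range d, (σ ^ j) m = (∑ i, coef i m) * T := by
        conv_lhs => rw [hsum m]
        simp only [map_sum, map_mul, hpowfix _ (hfix _ m)]
        rw [Finset.sum_comm, Finset.sum_mul]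
        refine Finset.sum_congr rfl fun i _ => ?_
        rw [← Finset.mul_sum, ← hTσ i]
        congr 1
        exact Finset.sum_congr rfl fun j _ => by rw [← AlgEquiv.mul_apply, ← pow_add, add_comm]
      rw [h0] at e1
      exact (mul_eq_zero.1 e1.symm).resolve_right hT0
    refine ⟨∑ i, coef i m * ∑ j ∈ Finset.range i, (σ ^ j) θ, M.sum_mem fun i _ => ?_, ?_⟩
    · rw [Finset.mul_sum]
      exact M.sum_mem fun j _ => hmemM _ (hfix i m) (hm i) j
    · rw [map_sum, ← Finset.sum_sub_distrib]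
      conv_rhs => rw [hsum m]
      rw [← sub_eq_zero, ← Finset.sum_sub_distrib]
      have e2 : ∀ i : Fin d, σ (coef i m * ∑ j ∈ Finset.range i, (σ ^ j) θ) -
          coef i m * ∑ j ∈ Finset.range i, (σ ^ j) θ - coef i m * (σ ^ (i : ℕ)) θ =
          -(coef i m * θ) := fun i => by
        have h1 := Finset.sum_range_sub (fun j => (σ ^ j) θ) i
        rw [Finset.sum_sub_distrib] at h1
        simp only [map_mul, map_sum, hfix, ← AlgEquiv.mul_apply, ← pow_succ', pow_zero,
          AlgEquiv.one_apply] at h1 ⊢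
        rw [← mul_sub, h1]
        ring
      rw [Finset.sum_congr rfl fun i _ => e2 i, Finset.sum_neg_distrib, ← Finset.sum_mul, hz,
        zero_mul, neg_zero]

end FermatLib.CFT.Loc
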