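import Fermat.Agent.CFT.LocalPlace
import Fermat.Agent.CFT.LocalGalois

/-!
Unramified places of a Galois number field: value group and Frobenius.
-/

set_option autoImplicit false
set_option linter.unusedSectionVars false

namespace FermatLib.CFT

variable {L : Type} [Field L] [NumberField L] [IsGalois ℚ L] {q : Nat.Primes} (φ : Emb L q)

theorem ramIdx_resDeg_fixedLF_top :
    Loc.ramIdx (Loc.fixedLF (completion φ) ⊤) = 1 ∧
      Loc.resDeg (Loc.fixedLF (completion φ) ⊤) = 1 := by
  have h := Loc.card_mul_finrank_fixedLF (completion φ) ⊤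
  rw [Subgroup.card_top, IsGalois.card_aut_eq_finrank, ← Loc.ramIdx_mul_resDeg
    (Loc.fixedLF (completion φ) ⊤)] at h
  have h1 : Loc.ramIdx (Loc.fixedLF (completion φ) ⊤) *
      Loc.resDeg (Loc.fixedLF (completion φ) ⊤) = 1 :=
    Nat.eq_of_mul_eq_mul_left Module.finrank_pos (by rw [h, mul_one])
  exact mul_eq_one.1 h1

variable (hur : ∀ g ∈ inertiaGroup φ, g = 1)

include hur in
theorem inertia_completion_eq_bot : Loc.inertia (completion φ) = ⊥ := by
  rw [eq_bot_iff]
  intro σ hσ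
  obtain ⟨g, rfl⟩ := (decompEquiv φ).surjective σ
  have hg := hur g ((mem_inertiaGroup_iff φ g).2 hσ)
  rw [Subgroup.mem_bot, show g = 1 from Subtype.ext hg, map_one]

include hur in
theorem ramIdx_completion_eq_one : Loc.ramIdx (completion φ) = 1 := by
  have h := Loc.card_inertia_inf (completion φ) ⊤
  rw [inf_top_eq, inertia_completion_eq_bot φ hur, Subgroup.card_bot, one_mul,
    (ramIdx_resDeg_fixedLF_top φ).1] at h
  exact h.symm

include hur in
/-- At an unramified place the value group is that of `ℚ_q`. -/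
theorem exists_zpow_q_eq_norm {y : PadicAlgCl (q : ℕ)}
    (hy : ∀ τ : Gloc q, φ.postComp τ = φ → τ y = y) (hy0 : y ≠ 0) :
    ∃ k : ℤ, ‖y‖ = ((q : ℕ) : ℝ) ^ k := by
  have hmem : y ∈ completion φ := by
    rw [← InfiniteGalois.fixedField_fixingSubgroup (completion φ)]
    rintro ⟨τ, hτ⟩
    exact hy τ ((fixesField_completion_iff φ τ).1 ((Loc.fixesField_iff _ τ).2 hτ))
  obtain ⟨k, hk⟩ := Loc.exists_zpow_eq_norm (completion φ) (x := ⟨y, hmem⟩)
    fun h => hy0 (congrArg Subtype.val h)
  have hq := Loc.inv_q_eq_pow_ramIdx (completion φ)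
  rw [ramIdx_completion_eq_one φ hur, pow_one] at hq
  refine ⟨-k, ?_⟩
  rw [← hq, inv_zpow'] at hk
  exact hk

include hur in
/-- At an unramified place the decomposition group is generated by Frobenius. -/
theorem exists_frobenius_decompGroup : ∃ g : decompGroup φ,
    (∀ h : decompGroup φ, h ∈ Subgroup.zpowers g) ∧
    ∀ x : L, ‖φ x‖ ≤ 1 → ‖φ ((g : L ≃ₐ[ℚ] L) x) - φ x ^ (q : ℕ)‖ < 1 := by
  obtain ⟨σ, -, hσ, hgen⟩ := Loc.exists_frobenius_generator (completion φ) ⊤
  obtain ⟨g, rfl⟩ := (decompEquiv φ).surjective σ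
  refine ⟨g, fun h => ?_, fun x hx => ?_⟩
  · obtain ⟨j, hj⟩ := hgen (decompEquiv φ h) (Subgroup.mem_top _)
    rw [inertia_completion_eq_bot φ hur, Subgroup.mem_bot, inv_mul_eq_one, ← map_pow] at hj
    exact ⟨j, by rw [← (decompEquiv φ).injective hj]; simp⟩
  · have h := hσ (toCompletion φ x) hx
    rw [(ramIdx_resDeg_fixedLF_top φ).2, pow_one, decompEquiv_apply] at h
    exact h

end FermatLib.CFT
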