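import Fermat.Agent.CFT.OrdTangentCount
import Fermat.Agent.CFT.IdeleBridge
import Fermat.Agent.Galois.CyclotomicFrobenius
import Fermat.Agent.Galois.RepAdic
import Fermat.Agent.Mazur.GunitCyclo
import Fermat.Prelude.Def_GaloisRep_StrictOrdinary
import Mathlib.RingTheory.DualNumber

/-!
# The strictly ordinary local condition on tangent classes

The localisations at `p` of the classes of strictly ordinary lifts to the dual numbers, of
cyclotomic determinant, lie in one space of dimension at most `h⁰ + [k : 𝔽_p]`.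
-/

set_option autoImplicit false

noncomputable section

open CategoryTheory groupCohomology Module ExtCitation
open scoped Matrix

namespace FermatLib.CFT.OrdTangent

open FermatLib.MLT.Ad FermatLib.Galois

local notation "Γℚ" => (AlgebraicClosure ℚ ≃ₐ[ℚ] AlgebraicClosure ℚ)
local notation "loc" => primeLocalToGlobal

variable (p : ℕ) [hp : Fact p.Prime] {k : Type} [Field k] [Algebra (ZMod p) k]

lemma natCast_dualNumber_eq_zero : (p : DualNumber k) = 0 := by
  rw [← map_natCast (TrivSqZeroExt.inlHom k k), ← map_natCast (algebraMap (ZMod p) k) p,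
    ZMod.natCast_self, map_zero, map_zero]

lemma natCast_val_omega (σ : Γℚ) :
    (((cycloChar p σ : ZMod p)).val : k) = algebraMap (ZMod p) k (cycloChar p σ : ZMod p) := by
  have : NeZero p := ⟨hp.out.ne_zero⟩
  rw [← map_natCast (algebraMap (ZMod p) k), ZMod.natCast_zmod_val]

lemma map_snd_mul (A B : Matrix (Fin 2) (Fin 2) (DualNumber k)) :
    (A * B).map TrivSqZeroExt.snd =
      A.map TrivSqZeroExt.snd * B.map TrivSqZeroExt.fst +
        A.map TrivSqZeroExt.fst * B.map TrivSqZeroExt.snd := by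
  ext i j
  simp [Matrix.mul_apply, Fin.sum_univ_two, mul_comm]
  ring

variable (ρ : Γℚ →* Matrix (Fin 2) (Fin 2) k)

/-- An adapted basis in which inertia fixes the quotient. -/
structure IsOrdAdapted (P : (Matrix (Fin 2) (Fin 2) k)ˣ) : Prop extends IsLineAdapted p ρ P where
  unram : ∀ g, loc (pPrime p) g ∈ (padicPlace p).inertiaSubgroupIn ℚ →
    (P.1 * ρ (loc (pPrime p) g) * P⁻¹.1) 1 1 = 1

variable {p ρ}

lemma two_ne_zero_of_ne_two (hp2 : p ≠ 2) : (2 : k) ≠ 0 := by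
  intro h
  have h' : algebraMap (ZMod p) k ((2 : ℕ) : ZMod p) = 0 := by rw [map_natCast]; exact_mod_cast h
  rw [FaithfulSMul.algebraMap_eq_zero_iff, ZMod.natCast_eq_zero_iff] at h'
  exact hp2 ((Nat.prime_dvd_prime_iff_eq hp.out Nat.prime_two).mp h')

/-- The line is unique when `p` is odd. -/
theorem IsOrdAdapted.nilLine_le {P P' : (Matrix (Fin 2) (Fin 2) k)ˣ} (hP : IsOrdAdapted p ρ P)
    (hP' : IsOrdAdapted p ρ P') (hp2 : p ≠ 2) : nilLine p ρ P ≤ nilLine p ρ P' := by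
  obtain ⟨σ, hσ, hσω⟩ := exists_inertia_cycloChar_eq (p := p) (Galois.padicPlace_liesOverPrime p) (-1)
  obtain ⟨g, rfl⟩ : ∃ g, loc (pPrime p) g = σ := by
    have h := Galois.inertiaSubgroupIn_le_decompositionSubgroup hσ
    exact (decompositionSubgroup_padicPlace (pPrime p)).le h
  have hω : algebraMap (ZMod p) k (omegaAt p g) = -1 := by
    rw [omegaAt, hσω]; simp
  set T := P.1 * ρ (loc (pPrime p) g) * P⁻¹.1 with hT
  set T' := P'.1 * ρ (loc (pPrime p) g) * P'⁻¹.1 with hT'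
  have hT11 : T 1 1 = 1 := hP.unram g hσ
  have hT00 : T 0 0 = -1 := (hP.ratio g).trans (by rw [← hT, hT11, hω, mul_one])
  have hT10 : T 1 0 = 0 := hP.lower g
  have hT'11 : T' 1 1 = 1 := hP'.unram g hσ
  have hT'10 : T' 1 0 = 0 := hP'.lower g
  set Q := P'.1 * P⁻¹.1 with hQ
  set R := P.1 * P'⁻¹.1 with hR
  have hQR : Q * R = 1 := by
    rw [hQ, hR, mul_assoc, Units.inv_mul_cancel_left, Units.mul_inv]
  have hQT : Q * T = T' * Q := by
    rw [hQ, hT, hT']
    simp only [mul_assoc, Units.inv_mul_cancel_left]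
  have h2 : (2 : k) ≠ 0 := two_ne_zero_of_ne_two hp2
  have hQ10 : Q 1 0 = 0 := by
    have h := congrFun (congrFun hQT 1) 0
    simp only [Matrix.mul_apply, Fin.sum_univ_two, hT00, hT10, hT'10, hT'11] at h
    have h' : Q 1 0 * 2 = 0 := by linear_combination -h
    exact (mul_eq_zero.mp h').resolve_right h2
  have hR10 : R 1 0 = 0 := by
    have h := congrFun (congrFun hQR 1) 0
    have h' := congrFun (congrFun hQR 1) 1
    simp [Matrix.mul_apply, Fin.sum_univ_two, hQ10] at h h'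
    exact h.resolve_left (left_ne_zero_of_mul_eq_one h')
  rintro X hX
  obtain ⟨a, rfl⟩ := (mem_nilLine p ρ P).mp hX
  refine (mem_nilLine p ρ P').mpr ⟨(Q * !![0, a; 0, 0] * R) 0 1, ?_⟩
  apply Subtype.ext
  show P'⁻¹.1 * !![0, (Q * !![0, a; 0, 0] * R) 0 1; 0, -0] * P'.1 =
    P⁻¹.1 * !![0, a; 0, -0] * P.1
  have e : Q * !![0, a; 0, 0] * R = !![0, (Q * !![0, a; 0, 0] * R) 0 1; 0, -0] := by
    ext i j
    fin_cases i <;> fin_cases j <;> simp [Matrix.mul_apply, Fin.sum_univ_two, hQ10, hR10]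
  rw [← e, hQ, hR, neg_zero]
  simp only [mul_assoc, Units.inv_mul_cancel_left, Units.inv_mul, mul_one]

theorem IsOrdAdapted.nilLine_eq {P P' : (Matrix (Fin 2) (Fin 2) k)ˣ} (hP : IsOrdAdapted p ρ P)
    (hP' : IsOrdAdapted p ρ P') (hp2 : p ≠ 2) : nilLine p ρ P = nilLine p ρ P' :=
  le_antisymm (hP.nilLine_le hP' hp2) (hP'.nilLine_le hP hp2)

theorem IsOrdAdapted.nilCocycles_eq {P P' : (Matrix (Fin 2) (Fin 2) k)ˣ} (hP : IsOrdAdapted p ρ P)
    (hP' : IsOrdAdapted p ρ P') (hp2 : p ≠ 2) : nilCocycles p ρ P = nilCocycles p ρ P' := by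
  ext c
  show (_ ∧ ∀ g, c g ∈ nilLine p ρ P) ↔ (_ ∧ ∀ g, c g ∈ nilLine p ρ P')
  rw [hP.nilLine_eq hP' hp2]

/-- A lift to the dual numbers is constant on the cosets of an open subgroup. -/
theorem exists_level (ρA : GaloisRepAdic (DualNumber k)) :
    ∃ F : IntermediateField ℚ (AlgebraicClosure ℚ), FiniteDimensional ℚ F ∧
      ∀ s ∈ F.fixingSubgroup, ρA.ρ s = 1 := by
  obtain ⟨F, hF, h⟩ := ρA.isAdicContinuous 2
  refine ⟨F, hF, fun s hs => LinearMap.ext fun v => ?_⟩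
  have h0 : IsLocalRing.maximalIdeal (DualNumber k) ^ 2 = ⊥ := by
    rw [DualNumber.maximalIdeal_eq_span_singleton_eps, Ideal.span_singleton_pow, sq,
      DualNumber.eps_mul_eps, Ideal.span_singleton_eq_bot]
  have := h s ((IntermediateField.mem_fixingSubgroup_iff F s).mp hs) v
  rw [h0, Submodule.bot_smul, Submodule.mem_bot, sub_eq_zero] at this
  exact this

section lift

variable (ρA : GaloisRepAdic (DualNumber k)) (b : Basis (Fin 2) (DualNumber k) ρA.V)
  (hb : ∀ g, (repMatrix b ρA.ρ g).map TrivSqZeroExt.fst = ρ g)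

include hb

theorem exists_level_residual :
    ∃ F : IntermediateField ℚ (AlgebraicClosure ℚ), FiniteDimensional ℚ F ∧
      ∀ s ∈ F.fixingSubgroup, ρ s = 1 := by
  obtain ⟨F, hF, h⟩ := exists_level ρA
  refine ⟨F, hF, fun s hs => ?_⟩
  rw [← hb, repMatrix_apply, h s hs, LinearMap.toMatrix_one, Matrix.map_one _ rfl rfl]

variable (hp2 : p ≠ 2) (hdet : ρA.DetIsCyclotomic p) (hord : ρA.IsStrictOrdinaryAt p)

include hp2 hdet hord

omit hb in
/-- In the basis of the line the lift is triangular with constant diagonal. -/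
theorem exists_triangular :
    ∃ Q Q' : Matrix (Fin 2) (Fin 2) (DualNumber k), Q * Q' = 1 ∧ Q' * Q = 1 ∧
      ∀ g, ∃ T : Matrix (Fin 2) (Fin 2) (DualNumber k),
        repMatrix b ρA.ρ (loc (pPrime p) g) = Q' * T * Q ∧ T 1 0 = 0 ∧
        (T 0 0).snd = 0 ∧ (T 1 1).snd = 0 ∧
        (T 0 0).fst = algebraMap (ZMod p) k (omegaAt p g) * (T 1 1).fst ∧
        (loc (pPrime p) g ∈ (padicPlace p).inertiaSubgroupIn ℚ → (T 1 1).fst = 1) := by
  have : NeZero p := ⟨hp.out.ne_zero⟩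
  obtain ⟨L, ⟨b', rfl⟩, -, hI, hc⟩ := hord.2 _ (Galois.padicPlace_liesOverPrime p)
  refine ⟨b'.toMatrix b, b.toMatrix b', Basis.toMatrix_mul_toMatrix_flip _ _,
    Basis.toMatrix_mul_toMatrix_flip _ _, fun g => ?_⟩
  set σ := loc (pPrime p) g with hσdef
  have hσ : σ ∈ (padicPlace p).decompositionSubgroup ℚ := by
    exact (decompositionSubgroup_padicPlace (pPrime p)).ge ⟨g, rfl⟩
  obtain ⟨x, z, hx, hz, hn⟩ := hc σ hσ
  have hμ : ∀ μ : AlgebraicClosure ℚ, μ ^ p ^ 1 = 1 →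
      σ μ = μ ^ ((cycloChar p σ : ZMod p)).val := fun μ h =>
    Mazur.apply_eq_pow_cycloChar p σ (by rwa [pow_one] at h)
  have h0 : ∀ w : DualNumber k, w ∈ Ideal.span {((p ^ 1 : ℕ) : DualNumber k)} → w = 0 := fun w h => by
    simpa [natCast_dualNumber_eq_zero] using h
  have hxz := sub_eq_zero.mp (h0 _ (hn 1 _ hμ))
  have hd := sub_eq_zero.mp (h0 _ (hdet.2 1 σ _ hμ))
  obtain ⟨y, hy⟩ := Submodule.mem_span_singleton.mp (hz (b' 1))
  set T := repMatrix b' ρA.ρ σ with hT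
  have e0 : ρA.ρ σ (b' 0) = x • b' 0 := hx _ (Submodule.mem_span_singleton_self _)
  have e1 : ρA.ρ σ (b' 1) = y • b' 0 + z • b' 1 := by rw [hy]; abel
  have hT00 : T 0 0 = x := by simp [hT, repMatrix_apply, LinearMap.toMatrix_apply, e0]
  have hT10 : T 1 0 = 0 := by simp [hT, repMatrix_apply, LinearMap.toMatrix_apply, e0]
  have hT11 : T 1 1 = z := by simp [hT, repMatrix_apply, LinearMap.toMatrix_apply, e1]
  have hdT : T.det = x * z := by rw [Matrix.det_fin_two, hT00, hT10, hT11, mul_zero, sub_zero]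
  have hdT' : T.det = LinearMap.det (ρA.ρ σ) := LinearMap.det_toMatrix _ _
  set a : ZMod p := (cycloChar p σ : ZMod p) with ha
  have ha0 : algebraMap (ZMod p) k a ≠ 0 := by
    rw [ne_eq, FaithfulSMul.algebraMap_eq_zero_iff]
    exact (cycloChar p σ).ne_zero
  have hxfst : x.fst = algebraMap (ZMod p) k a * z.fst := by
    rw [hxz, TrivSqZeroExt.fst_mul, TrivSqZeroExt.fst_natCast, natCast_val_omega]
  have hxsnd : x.snd = algebraMap (ZMod p) k a * z.snd := by
    rw [hxz, DualNumber.snd_mul, TrivSqZeroExt.fst_natCast, TrivSqZeroExt.snd_natCast,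
      natCast_val_omega, zero_mul, add_zero]
  have hzz : x * z = ((a.val : ℕ) : DualNumber k) := by rw [← hdT, hdT', hd]
  have hz0 : z.fst ≠ 0 := fun h => ha0 <| by
    have := congrArg TrivSqZeroExt.fst hzz
    rw [TrivSqZeroExt.fst_mul, h, mul_zero, TrivSqZeroExt.fst_natCast, natCast_val_omega] at this
    exact this.symm
  have hzsnd : z.snd = 0 := by
    have := congrArg TrivSqZeroExt.snd hzz
    rw [DualNumber.snd_mul, TrivSqZeroExt.snd_natCast, hxfst, hxsnd] at this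
    have h2 : (2 * algebraMap (ZMod p) k a * z.fst) * z.snd = 0 := by linear_combination this
    refine (mul_eq_zero.mp h2).resolve_left (mul_ne_zero (mul_ne_zero ?_ ha0) hz0)
    exact two_ne_zero_of_ne_two hp2
  refine ⟨T, ?_, hT10, ?_, ?_, ?_, fun hin => ?_⟩
  · rw [repMatrix_apply, hT, repMatrix_apply,
      basis_toMatrix_mul_linearMap_toMatrix_mul_basis_toMatrix]
  · rw [hT00, hxsnd, hzsnd, mul_zero]
  · rw [hT11, hzsnd]
  · rw [hT00, hT11, hxfst]; rfl
  · obtain ⟨t, ht⟩ := Submodule.mem_span_singleton.mp (hI σ hin (b' 1))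
    have : ρA.ρ σ (b' 1) = t • b' 0 + b' 1 := by rw [ht]; abel
    have h11 : T 1 1 = 1 := by simp [hT, repMatrix_apply, LinearMap.toMatrix_apply, this]
    rw [h11, TrivSqZeroExt.fst_one]

/-- The residual representation has an adapted basis, in which the class of the lift is
nilpotent valued. -/
theorem exists_isOrdAdapted :
    ∃ P, IsOrdAdapted p ρ P ∧ ∀ c : cocycles₁ (adRep ρ p),
      (∀ g, (c g : traceZero k).1 = (repMatrix b ρA.ρ g).map TrivSqZeroExt.snd * ρ g⁻¹) →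
      (groupCohomology.map (loc (pPrime p)) (𝟙 (locAd p ρ)) 1).hom ((H1π (adRep ρ p)).hom c) ∈
        (nilCocycles p ρ P).map (H1π (locAd p ρ)).hom := by
  obtain ⟨Q, Q', hQQ, hQQ', hT⟩ := exists_triangular ρA b hp2 hdet hord
  choose T hTM hT10 hT00 hT11 hTr hTu using hT
  have hfst : ∀ A B : Matrix (Fin 2) (Fin 2) (DualNumber k),
      (A * B).map TrivSqZeroExt.fst = A.map TrivSqZeroExt.fst * B.map TrivSqZeroExt.fst :=
    fun A B => Matrix.map_mul (f := TrivSqZeroExt.fstHom k k k)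
  let P : (Matrix (Fin 2) (Fin 2) k)ˣ :=
    ⟨Q.map TrivSqZeroExt.fst, Q'.map TrivSqZeroExt.fst,
      by rw [← hfst, hQQ, Matrix.map_one _ rfl rfl],
      by rw [← hfst, hQQ', Matrix.map_one _ rfl rfl]⟩
  have hρT : ∀ g, ρ (loc (pPrime p) g) = P⁻¹.1 * (T g).map TrivSqZeroExt.fst * P.1 := fun g => by
    rw [← hb, hTM, hfst, hfst]; rfl
  have hconj : ∀ g, P.1 * ρ (loc (pPrime p) g) * P⁻¹.1 = (T g).map TrivSqZeroExt.fst := fun g => by
    rw [hρT]
    simp only [mul_assoc, Units.mul_inv_cancel_left, Units.mul_inv, mul_one]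
  refine ⟨P, { lower := fun g => ?_, ratio := fun g => ?_, unram := fun g hg => ?_ }, ?_⟩
  · rw [hconj, Matrix.map_apply, hT10, TrivSqZeroExt.fst_zero]
  · rw [hconj, Matrix.map_apply, Matrix.map_apply, hTr]
  · rw [hconj, Matrix.map_apply, hTu g hg]
  intro c hc
  rw [H1π_comp_map_apply]
  set c' := (mapCocycles₁ (loc (pPrime p)) (𝟙 (locAd p ρ))).hom c with hc'
  have hc'v : ∀ g, (c' g : traceZero k).1 =
      (repMatrix b ρA.ρ (loc (pPrime p) g)).map TrivSqZeroExt.snd * ρ (loc (pPrime p) g)⁻¹ :=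
    fun g => hc _
  let C1 : Matrix (Fin 2) (Fin 2) k := P⁻¹.1 * Q.map TrivSqZeroExt.snd
  have h2 : (2 : k) ≠ 0 := two_ne_zero_of_ne_two hp2
  let X : traceZero k := ⟨C1 - (C1.trace / 2) • 1, mem_traceZero.mpr (by
    rw [Matrix.trace_sub, Matrix.trace_smul, Matrix.trace_one, Fintype.card_fin, smul_eq_mul]
    push_cast
    field_simp
    ring)⟩
  set dX : cocycles₁ (locAd p ρ) :=
    ⟨(d₀₁ (locAd p ρ)).hom X, coboundaries₁_le_cocycles₁ _ ⟨_, rfl⟩⟩ with hdX
  have hdX0 : (H1π (locAd p ρ)).hom dX = 0 := (H1π_eq_zero_iff _).mpr ⟨X, rfl⟩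
  refine ⟨c' - dX, ⟨?_, fun g => ?_⟩, ?_⟩
  rotate_left 2
  · exact (LinearMap.map_sub (H1π (locAd p ρ)).hom c' dX).trans (by rw [hdX0]; exact sub_zero _)
  · obtain ⟨F, hF, hlev⟩ := exists_level ρA
    refine ⟨F, hF, fun g s hs => ?_⟩
    have hMs : repMatrix b ρA.ρ (loc (pPrime p) s) = 1 := by
      rw [repMatrix_apply, hlev _ hs, LinearMap.toMatrix_one]
    have hρs : ρ (loc (pPrime p) s) = 1 := by rw [← hb, hMs, Matrix.map_one _ rfl rfl]
    have hρs' : ρ (loc (pPrime p) s)⁻¹ = 1 := by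
      have := rho_inv_mul ρ (loc (pPrime p) s)
      rwa [hρs, mul_one] at this
    refine Subtype.ext ?_
    show (c' (g * s) : traceZero k).1 - ((locAd p ρ).ρ (g * s) X - X : traceZero k).1 =
      (c' g : traceZero k).1 - ((locAd p ρ).ρ g X - X : traceZero k).1
    rw [hc'v, hc'v, map_mul, map_mul, mul_inv_rev, map_mul, hMs, mul_one, hρs', one_mul]
    congr 1
    show ρ (loc (pPrime p) (g * s)) * X.1 * ρ (loc (pPrime p) (g * s))⁻¹ - X.1 =
      ρ (loc (pPrime p) g) * X.1 * ρ (loc (pPrime p) g)⁻¹ - X.1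
    rw [map_mul, map_mul, mul_inv_rev, map_mul, hρs, hρs', mul_one, one_mul]
  · set T' := P.1 * ρ (loc (pPrime p) g)⁻¹ * P⁻¹.1 with hT'
    have hT'10 : T' 1 0 = 0 := by
      rw [hT', ← map_inv (loc (pPrime p)) g, hconj, Matrix.map_apply, hT10, TrivSqZeroExt.fst_zero]
    refine (mem_nilLine p ρ P).mpr ⟨((T g).map TrivSqZeroExt.snd * T') 0 1, Subtype.ext ?_⟩
    have hN : (T g).map TrivSqZeroExt.snd * T' =
        !![0, ((T g).map TrivSqZeroExt.snd * T') 0 1; 0, -0] := by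
      ext i j
      fin_cases i <;> fin_cases j <;>
        simp [Matrix.mul_apply, Fin.sum_univ_two, hT'10, hT00, hT11, hT10]
    show P⁻¹.1 * !![0, ((T g).map TrivSqZeroExt.snd * T') 0 1; 0, -0] * P.1 =
      (c' g : traceZero k).1 - (ρ (loc (pPrime p) g) * (C1 - (C1.trace / 2) • 1) *
        ρ (loc (pPrime p) g)⁻¹ - (C1 - (C1.trace / 2) • 1))
    rw [← hN, hc'v, hTM, map_snd_mul, map_snd_mul, hfst, hT']
    have hR : Q'.map TrivSqZeroExt.snd * P.1 = -C1 := by
      have h := congrArg (fun A => A.map TrivSqZeroExt.snd) hQQ'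
      simp only [map_snd_mul] at h
      refine eq_neg_of_add_eq_zero_left (h.trans ?_)
      ext i j; fin_cases i <;> fin_cases j <;> simp
    set T₀ := (T g).map TrivSqZeroExt.fst with hT₀
    set R₁ := Q'.map TrivSqZeroExt.snd
    set S₁ := Q.map TrivSqZeroExt.snd with hS₁
    set U := (T g).map TrivSqZeroExt.snd
    set r := ρ (loc (pPrime p) g)⁻¹ with hr
    rw [show Q'.map TrivSqZeroExt.fst = P⁻¹.1 from rfl,
      show Q.map TrivSqZeroExt.fst = P.1 from rfl]
    have hr1 : P⁻¹.1 * T₀ * P.1 * r = 1 := by rw [← hρT g, hr, rho_mul_inv]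
    have e1 : R₁ * T₀ * P.1 * r = -C1 := by
      rw [show R₁ * T₀ * P.1 * r = R₁ * P.1 * (P⁻¹.1 * T₀ * P.1 * r) by
        simp only [mul_assoc, Units.mul_inv_cancel_left], hr1, mul_one, hR]
    have e2 : P⁻¹.1 * T₀ * S₁ * r = ρ (loc (pPrime p) g) * C1 * r := by
      rw [hρT g]
      show _ = P⁻¹.1 * T₀ * P.1 * (P⁻¹.1 * S₁) * r
      simp only [mul_assoc, Units.mul_inv_cancel_left]
    rw [add_mul (R₁ * T₀), add_mul _ _ r, add_mul (R₁ * T₀ * P.1), e1, e2, mul_sub, sub_mul, mul_smul_comm, mul_one, smul_mul_assoc,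
      hr, rho_mul_inv]
    simp only [mul_assoc, Units.inv_mul, mul_one]
    abel

end lift

variable (p ρ)

/-- The localisations at `p` of the classes of strictly ordinary lifts. -/
def ordClasses : Submodule (ZMod p) (H1 (locAd p ρ)) :=
  Submodule.span (ZMod p) {x | ∃ (ρA : GaloisRepAdic (DualNumber k))
    (b : Basis (Fin 2) (DualNumber k) ρA.V),
    (∀ g, (repMatrix b ρA.ρ g).map TrivSqZeroExt.fst = ρ g) ∧ ρA.DetIsCyclotomic p ∧
    ρA.IsStrictOrdinaryAt p ∧ ∃ c : cocycles₁ (adRep ρ p),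
      (∀ g, (c g : traceZero k).1 = (repMatrix b ρA.ρ g).map TrivSqZeroExt.snd * ρ g⁻¹) ∧
      (groupCohomology.map (loc (pPrime p)) (𝟙 (locAd p ρ)) 1).hom ((H1π (adRep ρ p)).hom c) = x}

variable {p ρ}

theorem mem_ordClasses (ρA : GaloisRepAdic (DualNumber k))
    (b : Basis (Fin 2) (DualNumber k) ρA.V)
    (hb : ∀ g, (repMatrix b ρA.ρ g).map TrivSqZeroExt.fst = ρ g) (hdet : ρA.DetIsCyclotomic p)
    (hord : ρA.IsStrictOrdinaryAt p) (c : cocycles₁ (adRep ρ p))
    (hc : ∀ g, (c g : traceZero k).1 = (repMatrix b ρA.ρ g).map TrivSqZeroExt.snd * ρ g⁻¹) :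
    (groupCohomology.map (loc (pPrime p)) (𝟙 (locAd p ρ)) 1).hom ((H1π (adRep ρ p)).hom c) ∈
      ordClasses p ρ :=
  Submodule.subset_span ⟨ρA, b, hb, hdet, hord, c, hc, rfl⟩

/-- **The strictly ordinary local condition.** -/
theorem ordClasses_bound [Finite k] (hp2 : p ≠ 2) :
    ordClasses p ρ ≤ continuousH1 (loc (pPrime p)) (locAd p ρ) ∧
      FiniteDimensional (ZMod p) (ordClasses p ρ) ∧
      finrank (ZMod p) (ordClasses p ρ) ≤
        finrank (ZMod p) (locAd p ρ).ρ.invariants + finrank (ZMod p) k := by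
  by_cases hne : ∃ (ρA : GaloisRepAdic (DualNumber k)) (b : Basis (Fin 2) (DualNumber k) ρA.V),
    (∀ g, (repMatrix b ρA.ρ g).map TrivSqZeroExt.fst = ρ g) ∧ ρA.DetIsCyclotomic p ∧
    ρA.IsStrictOrdinaryAt p
  · obtain ⟨ρA, b, hb, hdet, hord⟩ := hne
    obtain ⟨P, hP, -⟩ := exists_isOrdAdapted ρA b hb hp2 hdet hord
    have hle : ordClasses p ρ ≤ (nilCocycles p ρ P).map (H1π (locAd p ρ)).hom := by
      refine Submodule.span_le.mpr ?_
      rintro x ⟨ρA', b', hb', hdet', hord', c, hc, rfl⟩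
      obtain ⟨P', hP', hmem⟩ := exists_isOrdAdapted ρA' b' hb' hp2 hdet' hord'
      rw [hP.nilCocycles_eq hP' hp2]
      exact hmem c hc
    obtain ⟨hfin, -⟩ := hP.toIsLineAdapted.finrank_nilCocycles_le hp2
    refine ⟨hle.trans ?_, Submodule.finiteDimensional_of_le hle,
      (Submodule.finrank_mono hle).trans
        (hP.toIsLineAdapted.finrank_classes_le hp2 (exists_level_residual ρA b hb))⟩
    rintro _ ⟨z, hz, rfl⟩
    exact H1π_mem_continuousH1 _ _ hz.1
  · have h : ordClasses p ρ = ⊥ := by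
      rw [ordClasses, Submodule.span_eq_bot]
      rintro x ⟨ρA, b, hb, hdet, hord, -⟩
      exact absurd ⟨ρA, b, hb, hdet, hord⟩ hne
    rw [h]
    exact ⟨bot_le, inferInstance, by simp⟩

end FermatLib.CFT.OrdTangent
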