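import Fermat.Agent.CFT.S55Sha2Basic
import Fermat.Agent.CFT.GWGlobIdele

/-!
Descent of valuations (S55): an element whose valuations outside `S` are invariant
under the Galois group over a subfield has the divisor of an idele of the subfield.
-/

set_option autoImplicit false

open CategoryTheory groupCohomology ExtCitation NumberField

namespace FermatLib.CFT.S55

open FermatLib FermatLib.CFT.GWKummer

variable {F K : IntermediateField ℚ (AlgebraicClosure ℚ)} [NumberField F] [IsGalois ℚ F]
  [NumberField K] [IsGalois ℚ K]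

omit [IsGalois ℚ F] [NumberField F] in
theorem norm_eq_of_principal_mem {T : Set Nat.Primes} {x y : LUnits K}
    (h : principalIdele K (x - y) ∈ sIdeles K T) {q : Nat.Primes} (hq : q ∉ T) (ψ : Emb K q) :
    ‖ψ (x.val : K)‖ = ‖ψ (y.val : K)‖ := by
  have h1 := (QUnits.mem_unitGroup_iff _).1 (h q hq ψ)
  rw [map_sub] at h1
  have e : ((principalIdele K x - principalIdele K y).fin q ψ).toField =
      ψ (x.val : K) * (ψ (y.val : K))⁻¹ := by
    rw [show (principalIdele K x - principalIdele K y).fin q ψ =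
      (principalIdele K x).fin q ψ + -(principalIdele K y).fin q ψ from sub_eq_add_neg _ _,
      QUnits.toField_add, QUnits.toField_neg]
    rfl
  rw [e, norm_mul, norm_inv] at h1
  exact eq_of_mul_inv_eq_one h1

/-- Invariant valuations at unramified primes are those of an idele of the subfield. -/
theorem exists_idele_sub_principal_mem (h : F ≤ K) {S : Finset Nat.Primes}
    (hK : K.IsUnramifiedOutside S) (z : LUnits K)
    (hz : ∀ g ∈ (galRes h).ker,
      principalIdele K (g • z - z) ∈ sIdeles K (S : Set Nat.Primes)) :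
    ∃ f : Idele F, ideleLe h f - principalIdele K z ∈ sIdeles K (S : Set Nat.Primes) := by
  classical
  let res : ∀ q : Nat.Primes, Emb K q → Emb F q := fun q ψ =>
    ψ.comp (IntermediateField.inclusion h).toRingHom
  have hext : ∀ (q : Nat.Primes) (φ : Emb F q), ∃ ψ : Emb K q, res q ψ = φ := fun q φ =>
    @exists_emb_extension F _ _ K _ _ (algLe h) _ _ _ φ
  choose ext hext using hext
  -- valuations agree on the fibres
  have hfib : ∀ q : Nat.Primes, q ∉ S → ∀ ψ ψ' : Emb K q, res q ψ = res q ψ' →
      ‖ψ (z.val : K)‖ = ‖ψ' (z.val : K)‖ := by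
    intro q hq ψ ψ' e
    obtain ⟨g, rfl⟩ := Emb.exists_preComp_eq ψ ψ'
    have hg : g ∈ (galRes h).ker := (mem_galRes_ker_iff h g).2 fun x =>
      ψ.injective (RingHom.congr_fun e x).symm
    exact (norm_eq_of_principal_mem (hz g hg) hq ψ).symm
  have hk : ∀ (q : Nat.Primes) (φ : Emb F q), ∃ k : ℤ, q ∉ S →
      ‖ext q φ (z.val : K)‖ = ‖((q : ℕ) : PadicAlgCl (q : ℕ))‖ ^ k := fun q φ => by
    by_cases hq : q ∈ S
    · exact ⟨0, fun h' => absurd hq h'⟩
    · obtain ⟨k, hk⟩ := exists_zpow_norm_fin K hK hq (principalIdele K z) (ext q φ)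
      exact ⟨k, fun _ => hk⟩
  choose k hk using hk
  let w : ∀ q : Nat.Primes, Emb F q → QUnits q := fun q φ =>
    if q ∈ S then 0 else k q φ • primeVal q
  have hnorm : ∀ (q : Nat.Primes) (φ : Emb F q), q ∉ S →
      ‖(w q φ).toField‖ = ‖ext q φ (z.val : K)‖ := fun q φ hq => by
    simp only [w, if_neg hq]
    rw [toField_zsmul_primeVal, norm_zpow, hk q φ hq]
  have hequiv : ∀ (q : Nat.Primes) (τ : Gloc q) (φ : Emb F q),
      w q (φ.postComp τ) = τ.onUnits (w q φ) := fun q τ φ => by
    by_cases hq : q ∈ S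
    · simp only [w, if_pos hq, map_zero]
    · simp only [w, if_neg hq]
      rw [map_zsmul, primeVal_fixed]
      congr 1
      refine zpow_norm_q_inj (q := q) ?_
      rw [← hk q _ hq, ← hk q φ hq,
        hfib q hq (ext q (φ.postComp τ)) ((ext q φ).postComp τ) (by
          rw [hext]
          exact (congrArg (Emb.postComp τ) (hext q φ)).symm)]
      exact norm_gloc τ _
  let f : Idele F := ⟨(w, fun _ => 0), hequiv,
    (finite_setOf_norm_ne_one z.val.ne_zero).subset fun q ⟨φ, hφ⟩ => by
      refine ⟨ext q φ, fun h1 => hφ ?_⟩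
      by_cases hq : q ∈ S
      · simp only [w, if_pos hq]
        exact zero_mem _
      · rw [QUnits.mem_unitGroup_iff, hnorm q φ hq, h1],
    fun φ => (map_zero conjUnits).symm⟩
  refine ⟨f, fun q hq ψ => ?_⟩
  rw [QUnits.mem_unitGroup_iff]
  have e : ((ideleLe h f - principalIdele K z).fin q ψ).toField =
      (w q (res q ψ)).toField * (ψ (z.val : K))⁻¹ := by
    rw [show (ideleLe h f - principalIdele K z).fin q ψ =
      w q (res q ψ) + -(principalIdele K z).fin q ψ from sub_eq_add_neg _ _,
      QUnits.toField_add, QUnits.toField_neg]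
    rfl
  rw [e, norm_mul, norm_inv, hnorm q _ hq, hfib q hq _ ψ (hext q _),
    mul_inv_cancel₀ (norm_ne_zero_iff.2 ((map_ne_zero ψ).2 z.val.ne_zero))]

end FermatLib.CFT.S55
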