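import Fermat.Agent.CFT.S55Sha2Witness
import Fermat.Agent.CFT.S55Sha2Descent
import Fermat.Agent.CFT.GWGlobLocal
import Fermat.Agent.CFT.GWGlobLift

/-!
The kernels of the relation between lattice maps and classes (S55): the maps to be
divided out give the zero class, and conversely (Hilbert 90).
-/

set_option autoImplicit false

open CategoryTheory groupCohomology ExtCitation NumberField

namespace FermatLib.CFT.S55

open FermatLib FermatLib.CFT.GWKummer

local notation "Γℚ" => AlgebraicClosure ℚ ≃ₐ[ℚ] AlgebraicClosure ℚ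
local notation "Qbar" => AlgebraicClosure ℚ

variable {p : ℕ} [Fact p.Prime] {M : Rep (ZMod p) Γℚ} {S : Finset Nat.Primes}
  (D : Level (M.dualTwist (cycloChar p)) S)
  {ζ : AlgebraicClosure ℚ} (hζ : IsPrimitiveRoot ζ p)
  {ι : Type} [Fintype ι] (v : ι → D.Mod)

include hζ in
/-- A cochain on the free module killing the relation lattice is a cochain of `M`. -/
theorem exists_coeff_cochain [FiniteDimensional (ZMod p) M]
    (hv : Function.Surjective (presMap (G := D.Gal) v)) (e : Γℚ → Pres ι D.Gal →+ QbarU)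
    (he : ∀ σ (x : presKer (G := D.Gal) v), e σ (x : Pres ι D.Gal) = 0) :
    ∃ a : Γℚ → M, ∀ σ b, coeffMap D hζ (a σ) (presMap v b) = e σ b := by
  have hk : ∀ σ, (presMap (G := D.Gal) v).ker ≤ (e σ).ker := fun σ b hb => he σ ⟨b, hb⟩
  choose a ha using fun σ => exists_coeffMap_eq D hζ
    ((presMap (G := D.Gal) v).liftOfSurjective hv ⟨e σ, hk σ⟩)
  exact ⟨a, fun σ b => by
    rw [ha]
    exact AddMonoidHom.liftOfRightInverse_comp_apply _ _ _ ⟨e σ, hk σ⟩ b⟩

include hζ in
/-- If `c` is, on the free module, the coboundary of a cochain killing the relation lattice, then it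
is a coboundary. -/
theorem mem_levelCoboundariesS₂_of_cochain [FiniteDimensional (ZMod p) M]
    (hv : Function.Surjective (presMap (G := D.Gal) v)) {c : Γℚ × Γℚ → M}
    (e : Γℚ → Pres ι D.Gal →+ QbarU) (he : ∀ σ (x : presKer (G := D.Gal) v),
      e σ (x : Pres ι D.Gal) = 0)
    (hc : ∀ σ τ b, coeffMap D hζ (c (σ, τ)) (presMap v b) =
      σ • e τ ((D.res σ)⁻¹ • b) - e (σ * τ) b + e σ b)
    (hlev : IsLevelConstantS₁ S e) : c ∈ levelCoboundariesS₂ S M := by
  obtain ⟨a, ha⟩ := exists_coeff_cochain D hζ v hv e he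
  refine (mem_levelCoboundariesS₂_iff S M c).2 ⟨a, ?_, funext fun ⟨σ, τ⟩ =>
    coeffMap_injective D hζ (AddMonoidHom.ext fun x => ?_)⟩
  · obtain ⟨F, hF, hFe⟩ := hlev
    refine ⟨F, hF, fun σ s hs => coeffMap_injective D hζ (AddMonoidHom.ext fun x => ?_)⟩
    obtain ⟨b, rfl⟩ := hv x
    rw [ha, ha, hFe σ s hs]
  · obtain ⟨b, rfl⟩ := hv x
    rw [d₁₂_hom_apply, map_add, map_sub, AddMonoidHom.add_apply, AddMonoidHom.sub_apply,
      coeffMap_ρ, ← presMap_smul, ha, ha, ha, hc]

theorem smul_mem_sIdeles' {F : IntermediateField ℚ (AlgebraicClosure ℚ)} [NumberField F]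
    (T : Set Nat.Primes) (g : F ≃ₐ[ℚ] F) {f : Idele F} (hf : f ∈ sIdeles F T) :
    g • f ∈ sIdeles F T := fun q hq φ => hf q hq (φ.preComp g)

theorem exists_principal_eq_sub {F F' : IntermediateField ℚ (AlgebraicClosure ℚ)} [NumberField F]
    [NumberField F'] (hle : F ≤ F') {a : Idele F'} {b : Idele F}
    (e : (QuotientAddGroup.mk a : IdeleClass F') = classLe hle (QuotientAddGroup.mk b)) :
    ∃ z : LUnits F', principalIdele F' z = a - ideleLe hle b := by
  have h0 : a - ideleLe hle b ∈ principalIdeles F' :=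
    (QuotientAddGroup.eq_zero_iff _).1
      ((QuotientAddGroup.mk_sub _ a (ideleLe hle b)).trans (sub_eq_zero.2 e))
  rwa [principalIdeles_eq_range] at h0

theorem exists_hom_lift {X A B : Type*} [AddCommGroup X] [AddCommGroup A] [AddCommGroup B]
    (j : A →+ B) (hj : Function.Injective j) (φ : X →+ B) (h : ∀ x, ∃ a, j a = φ x) :
    ∃ η : X →+ A, ∀ x, j (η x) = φ x := by
  choose η hη using h
  exact ⟨AddMonoidHom.mk' η fun a b => hj (by rw [map_add, hη, hη, hη, map_add]), hη⟩

theorem coboundary_sub {G A : Type*} [Group G] [AddCommGroup A] [DistribMulAction G A] (g : G)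
    (a a' b b' : A) (h : g • b = b') : g • (a - b) - (a' - b') = g • a - a' := by
  rw [smul_sub, h]; abel

section zero

theorem nsmul_toField {q : Nat.Primes} (n : ℕ) (u : QUnits q) :
    (n • u).toField = u.toField ^ n := by
  induction n with
  | zero => rw [zero_nsmul, pow_zero]; rfl
  | succ n ih => rw [succ_nsmul, QUnits.toField_add, ih, pow_succ]

/-- The valuation of an element whose principal idele is an `S`-idele minus the `p`-th multiple of
an idele of a subfield and another `S`-idele of the subfield. -/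
theorem exists_zpow_norm_of_principal {F K : IntermediateField ℚ (AlgebraicClosure ℚ)}
    [NumberField F] [IsGalois ℚ F] [NumberField K] (hle : F ≤ K) (hF : F.IsUnramifiedOutside S)
    {a : Idele K} (ha : a ∈ sIdeles K (S : Set Nat.Primes)) {b l : Idele F}
    (hl : l ∈ sIdeles F (S : Set Nat.Primes)) {z : LUnits K}
    (hz : principalIdele K z = a - ideleLe hle (p • b + l)) {q : Nat.Primes} (hq : q ∉ S)
    (φ : Emb K q) :
    ∃ k : ℤ, ‖φ (z.val : K)‖ = ‖((q : ℕ) : PadicAlgCl (q : ℕ))‖ ^ ((p : ℤ) * k) := by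
  set φ₀ : Emb F q := φ.comp (IntermediateField.inclusion hle).toRingHom with hφ₀
  obtain ⟨k, hk⟩ := exists_zpow_norm_fin F hF hq b φ₀
  refine ⟨-k, ?_⟩
  have e : (principalIdele K z).fin q φ = a.fin q φ + -(p • b.fin q φ₀ + l.fin q φ₀) := by
    rw [hz, ← sub_eq_add_neg]
    rfl
  have e' := congrArg (fun u : QUnits q => ‖u.toField‖) e
  simp only [QUnits.toField_add, QUnits.toField_neg, nsmul_toField, norm_mul, norm_inv,
    norm_pow] at e'
  rw [(QUnits.mem_unitGroup_iff _).1 (ha q hq φ), (QUnits.mem_unitGroup_iff _).1 (hl q hq φ₀), hk,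
    one_mul, mul_one, ← zpow_natCast (_ ^ k) p, ← zpow_mul, ← zpow_neg] at e'
  rw [mul_neg, mul_comm]
  exact e'

variable {D hζ v} in
/-- A witness whose lattice cochain is the coboundary of a fixed map bounds. -/
theorem Witness.mem_levelCoboundaries [FiniteDimensional (ZMod p) M]
    (hv : Function.Surjective (presMap (G := D.Gal) v)) {h : latticeMaps D v}
    {c : Γℚ × Γℚ → M} (W : Witness D hζ v h c) (η' : Pres ι D.Gal →+ QbarU)
    (hX : ∀ σ (y : presKer (G := D.Gal) v), W.cochain σ (y : Pres ι D.Gal) =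
      σ • η' ((D.res σ)⁻¹ • (y : Pres ι D.Gal)) - η' y)
    (F' : IntermediateField ℚ (AlgebraicClosure ℚ)) (hF'ur : F'.IsUnramifiedOutside S)
    (hfix : ∀ (b : Pres ι D.Gal), ∀ s ∈ F'.fixingSubgroup, s • η' b = η' b) :
    c ∈ levelCoboundariesS₂ S M := by
  let dη : Γℚ → Pres ι D.Gal →+ QbarU := fun σ => AddMonoidHom.mk'
    (fun b => σ • η' ((D.res σ)⁻¹ • b) - η' b) fun a b => by
      rw [smul_add (D.res σ)⁻¹, map_add, map_add, smul_add]
      abel
  refine mem_levelCoboundariesS₂_of_cochain D hζ v hv (fun σ => W.cochain σ - dη σ)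
    (fun σ y => sub_eq_zero.2 (hX σ y)) (fun σ τ b => ?_) ?_
  · rw [W.coboundary σ τ b]
    simp only [AddMonoidHom.sub_apply, dη, AddMonoidHom.mk'_apply, map_mul, mul_inv_rev, mul_smul,
      smul_sub]
    abel
  · obtain ⟨Fe, hFe, hFe'⟩ := W.levelConstant
    refine ⟨Fe ⊔ F' ⊔ D.field, (hFe.sup hF'ur).sup D.unramified, fun σ s hs => ?_⟩
    have hsD : D.res s = 1 :=
      (D.res_eq_one_iff s).2 (IntermediateField.fixingSubgroup_antitone le_sup_right hs)
    refine AddMonoidHom.ext fun b => ?_
    simp only [AddMonoidHom.sub_apply, dη, AddMonoidHom.mk'_apply, map_mul, hsD, mul_one, mul_smul]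
    rw [hFe' σ s (IntermediateField.fixingSubgroup_antitone (le_sup_left.trans le_sup_left) hs),
      hfix _ s (IntermediateField.fixingSubgroup_antitone (le_sup_right.trans le_sup_left) hs)]

variable {D hζ v} in
/-- The lift of a map to be divided out differs from an equivariant one by principal ideles. -/
theorem Witness.exists_principal_part {c : Γℚ × Γℚ → M} {h : latticeMaps D v}
    (W : Witness D hζ v h c) {B : Pres ι D.Gal →+ Idele D.field}
    (hB : ∀ (g : D.Gal) b, B (g • b) = g • B b)
    (l : equivHom D.Gal (presKer (G := D.Gal) v) (Idele D.field))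
    (hh : ∀ y : presKer (G := D.Gal) v, (h : presKer (G := D.Gal) v →+ IdeleClass D.field) y =
      QuotientAddGroup.mk (B (y : Pres ι D.Gal) +
        (l : presKer (G := D.Gal) v →+ Idele D.field) y)) :
    ∃ η : presKer (G := D.Gal) v →+ LUnits W.field,
      (∀ y : presKer (G := D.Gal) v, principalIdele W.field (η y) = W.lift y - ideleLe W.le
        (B (y : Pres ι D.Gal) + (l : presKer (G := D.Gal) v →+ Idele D.field) y)) ∧
      ∀ σ (y : presKer (G := D.Gal) v), W.cochain σ (y : Pres ι D.Gal) =
        σ • unitsToQbar W.field (η ((D.res σ)⁻¹ • y)) - unitsToQbar W.field (η y) := by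
  set l' := (l : presKer (G := D.Gal) v →+ Idele D.field) with hl'
  let δ : presKer (G := D.Gal) v →+ Idele W.field :=
    W.lift - (ideleLe W.le).comp (B.comp (presKer (G := D.Gal) v).subtype + l')
  have hδ : ∀ y : presKer (G := D.Gal) v, ∃ z : LUnits W.field,
      principalIdele W.field z = δ y := fun y =>
    exists_principal_eq_sub W.le ((W.lift_class y).trans (congrArg (classLe W.le) (hh y)))
  obtain ⟨η, hη_⟩ := exists_hom_lift (principalIdele W.field) principalIdele_injective δ hδ
  have hη : ∀ y : presKer (G := D.Gal) v, principalIdele W.field (η y) =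
      W.lift y - ideleLe W.le (B y + l' y) := hη_
  refine ⟨η, hη, fun σ y => ?_⟩
  obtain ⟨z, hz, hz'⟩ := W.principal σ y
  have hBL : D.res σ • (B (((D.res σ)⁻¹ • y : presKer (G := D.Gal) v) : Pres ι D.Gal) +
      l' ((D.res σ)⁻¹ • y)) = B (y : Pres ι D.Gal) + l' y :=
    (smul_add _ _ _).trans (congrArg₂ (· + ·)
      ((hB _ _).symm.trans (congrArg B (smul_inv_smul (D.res σ) (y : Pres ι D.Gal))))
      ((l.2 _ _).symm.trans (congrArg l' (smul_inv_smul (D.res σ) y))))
  have hb : galTo W.field σ • ideleLe W.le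
      (B (((D.res σ)⁻¹ • y : presKer (G := D.Gal) v) : Pres ι D.Gal) + l' ((D.res σ)⁻¹ • y)) =
      ideleLe W.le (B (y : Pres ι D.Gal) + l' y) :=
    (ideleLe_galTo W.le σ _).symm.trans (congrArg (ideleLe W.le) hBL)
  have e : z = galTo W.field σ • η ((D.res σ)⁻¹ • y) - η y :=
    principalIdele_injective (hz'.trans ((coboundary_sub (galTo W.field σ) _ _ _ _ hb).symm.trans
      ((congrArg₂ (· - ·) (((congrArg (galTo W.field σ • ·) (hη ((D.res σ)⁻¹ • y)).symm)).trans
          (principalIdele_smul (galTo W.field σ) (η ((D.res σ)⁻¹ • y))).symm) (hη y).symm).trans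
        (map_sub (principalIdele W.field) _ _).symm)))
  exact hz.symm.trans ((congrArg (unitsToQbar W.field) e).trans
    ((map_sub (unitsToQbar W.field) _ _).trans (congrArg (· - unitsToQbar W.field (η y))
      (unitsToQbar_smul W.field σ (η ((D.res σ)⁻¹ • y))))))

include hζ in
/-- Maps to be divided out give the zero class. -/
theorem eq_zero_of_shaRel [FiniteDimensional (ZMod p) M] (hpS : pPrime p ∈ S)
    (hv : Function.Surjective (presMap (G := D.Gal) v)) {h : latticeMaps D v}
    {x : continuousH2S S M} (H : ShaRel D hζ v h x) (hh : h ∈ shaRelations D v) : x = 0 := by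
  classical
  obtain ⟨c, rfl, ⟨W⟩⟩ := H
  obtain ⟨b, ⟨β, hβ⟩, s, ⟨l, hlS, hl⟩, hbs⟩ := AddSubgroup.mem_sup.1 hh
  obtain ⟨B, hB, hBπ⟩ := exists_equivariant_lift (QuotientAddGroup.mk' (principalIdeles D.field))
    (fun _ _ => rfl) (QuotientAddGroup.mk'_surjective _) (β : Pres ι D.Gal →+ IdeleClass D.field)
    β.2
  have hh' : ∀ y : presKer (G := D.Gal) v, (h : presKer (G := D.Gal) v →+ IdeleClass D.field) y =
      QuotientAddGroup.mk (B (y : Pres ι D.Gal) +
        (l : presKer (G := D.Gal) v →+ Idele D.field) y) := fun y =>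
    (congrArg (fun t : latticeMaps D v => (t : presKer (G := D.Gal) v →+ IdeleClass D.field) y)
      hbs.symm).trans ((congrArg₂ (· + ·)
        ((congrArg (fun t : latticeMaps D v =>
            (t : presKer (G := D.Gal) v →+ IdeleClass D.field) y) hβ.symm).trans
          (hBπ (y : Pres ι D.Gal)).symm) (hl y).symm).trans
        (QuotientAddGroup.mk_add _ _ _).symm)
  obtain ⟨η, hη, hηc⟩ := W.exists_principal_part hB l hh'
  obtain ⟨η', hη'⟩ := exists_extend (presKer (G := D.Gal) v) ((unitsToQbar W.field).comp η)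
  let vals : Finset QbarU :=
    Finset.univ.image fun t : ι × D.Gal => η' (presSingle t.1 t.2)
  obtain ⟨F', hF'n, hF'g, -, hF'ur, hF'fix⟩ := exists_level_fixing_values W.field W.unramified vals
    fun z hz g q hq A hA σ hσ => by
      obtain ⟨⟨i, a⟩, -, rfl⟩ := Finset.mem_image.1 hz
      let y : presKer (G := D.Gal) v := ⟨p • presSingle i a, nsmul_mem_presKer D.nsmul_mod _⟩
      refine smul_eq_self_of_inertia W.field hpS W.unramified hq
        ((map_nsmul η' p (presSingle i a)).symm.trans (hη' y))
        (exists_zpow_norm_of_principal W.le D.unramified (b := B (presSingle i a)) (W.lift_mem y)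
          (hlS y) ?_ hq) g hA hσ
      exact (hη y).trans (congrArg (fun u => W.lift y - ideleLe W.le
        (u + (l : presKer (G := D.Gal) v →+ Idele D.field) y)) (map_nsmul B p (presSingle i a)))
  have hfix : ∀ (b : Pres ι D.Gal), ∀ s ∈ F'.fixingSubgroup, s • η' b = η' b := fun b s hs => by
    have e : (DistribSMul.toAddMonoidHom QbarU s).comp η' = η' := free_ext fun i a =>
      hF'fix _ (Finset.mem_image.2 ⟨(i, a), Finset.mem_univ _, rfl⟩) s hs
    exact DFunLike.congr_fun e b
  exact (continuousH2Sπ_eq_zero_iff S M c).2 (W.mem_levelCoboundaries hv η'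
    (fun σ y => (hηc σ y).trans (congrArg₂ (· - ·)
      (congrArg (σ • ·) (hη' ((D.res σ)⁻¹ • y)).symm) (hη' y).symm)) F' hF'ur hfix)

end zero

section relation

/-- Hilbert 90 for cocycles on the free module. -/
theorem exists_free_coboundary {e : Γℚ → Pres ι D.Gal →+ QbarU}
    (he : ∀ σ τ b, e (σ * τ) b = σ • e τ ((D.res σ)⁻¹ • b) + e σ b)
    (F : IntermediateField ℚ (AlgebraicClosure ℚ)) [NumberField F]
    (hF : ∀ σ s, s ∈ F.fixingSubgroup → e (σ * s) = e σ) :
    ∃ η : Pres ι D.Gal →+ QbarU, ∀ σ b, e σ b = σ • η ((D.res σ)⁻¹ • b) - η b := by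
  classical
  let act : Γℚ →* (Qbar ≃+* Qbar) := MonoidHom.mk' (fun σ => σ.toRingEquiv) fun _ _ => rfl
  have h90 : ∀ i : ι, ∃ β : QbarU, ∀ τ, D.res τ = 1 →
      e τ (presSingle i 1) = τ • β - β := fun i => by
    refine (exists_coboundary_of_embedding act (algebraMap F Qbar) D.res.ker
      (fun τ => Additive.toMul (e τ (presSingle i 1))) (fun σ hσ τ _ => ?_)
      fun σ _ τ _ h => ?_).elim fun β hβ => ?_
    · show QbarU.el (e (σ * τ) (presSingle i 1)) = _
      rw [he, MonoidHom.mem_ker.1 hσ, inv_one, one_smul, QbarU.el_add, mul_comm]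
      rfl
    · have hfix : σ⁻¹ * τ ∈ F.fixingSubgroup := by
        rw [IntermediateField.mem_fixingSubgroup_iff]
        intro y hy
        have hy' : σ y = τ y := h ⟨y, hy⟩
        rw [AlgEquiv.mul_apply, ← hy', AlgEquiv.aut_inv, AlgEquiv.symm_apply_apply]
      have h1 := hF σ _ hfix
      rw [mul_inv_cancel_left] at h1
      rw [h1]
    · refine ⟨QbarU.of β, fun τ hτ => ?_⟩
      rw [eq_sub_iff_add_eq]
      have h1 : QbarU.el (τ • QbarU.of β) = QbarU.el (e τ (presSingle i 1) + QbarU.of β) :=
        hβ τ hτ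
      exact (QbarU.el_injective h1).symm
  choose β hβ using h90
  let lg : D.Gal → Γℚ := Function.surjInv D.res_surjective
  have hlg : ∀ g, D.res (lg g) = g := Function.surjInv_eq D.res_surjective
  refine ⟨freeLift fun i g => lg g • β i - e (lg g) (presSingle i g), fun σ => ?_⟩
  let E : Pres ι D.Gal →+ QbarU := AddMonoidHom.mk'
    (fun b => σ • freeLift (fun i g => lg g • β i - e (lg g) (presSingle i g))
      ((D.res σ)⁻¹ • b) -
      freeLift (fun i g => lg g • β i - e (lg g) (presSingle i g)) b) fun a b => by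
      rw [smul_add (D.res σ)⁻¹, map_add, map_add, smul_add]
      abel
  have heq : e σ = E := free_ext fun i g => by
    show e σ (presSingle i g) = σ • freeLift _ ((D.res σ)⁻¹ • presSingle i g) - freeLift _ _
    rw [smul_presSingle, freeLift_presSingle, freeLift_presSingle]
    set g' := (D.res σ)⁻¹ * g with hg'
    have hk : D.res ((lg g)⁻¹ * (σ * lg g')) = 1 := by
      rw [map_mul, map_inv, map_mul, hlg, hlg, hg', mul_inv_cancel_left, inv_mul_cancel]
    have h1 := hβ i _ hk
    have h2 := he (lg g) ((lg g)⁻¹ * (σ * lg g')) (presSingle i g)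
    rw [mul_inv_cancel_left, he σ (lg g'), hlg, smul_presSingle, smul_presSingle, inv_mul_cancel,
      ← hg', h1, smul_sub, smul_smul (lg g), mul_inv_cancel_left] at h2
    have h3 : e σ (presSingle i g) = (σ * lg g') • β i - lg g • β i + e (lg g) (presSingle i g) -
        σ • e (lg g') (presSingle i g') := by
      rw [← h2]; abel
    rw [h3, smul_sub, smul_smul σ (lg g')]
    abel
  exact fun b => DFunLike.congr_fun heq b

/-- Ideles differing by a principal idele in a larger field have the same class. -/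
private theorem mk_eq_of_ideleLe_eq_sub {F F' K : IntermediateField ℚ Qbar} [NumberField F]
    [NumberField F'] [NumberField K] [IsGalois ℚ F] [IsGalois ℚ F'] [IsGalois ℚ K] (h₁ : F ≤ F')
    (h₂ : F' ≤ K) {a : Idele F} {b : Idele F'} {c : IdeleClass F} (u : LUnits K)
    (ha : ideleLe (h₁.trans h₂) a = ideleLe h₂ b - principalIdele K u)
    (hb : (QuotientAddGroup.mk b : IdeleClass F') = classLe h₁ c) :
    (QuotientAddGroup.mk a : IdeleClass F) = c := by
  refine classLe_injective (h₁.trans h₂) ?_
  rw [← mk_ideleLe, ha, QuotientAddGroup.mk_sub, mk_ideleLe, hb, classLe_comp h₁ h₂,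
    (QuotientAddGroup.eq_zero_iff (principalIdele K u)).2
      (by rw [principalIdeles_eq_range]; exact ⟨_, rfl⟩), sub_zero]

/-- An equivariant idele on the free module with the valuations of `u` outside `S`. -/
private theorem exists_equivariant_idele {K : IntermediateField ℚ Qbar} [NumberField K]
    [IsGalois ℚ K] (hDK : D.field ≤ K) (hKur : K.IsUnramifiedOutside S)
    (u : Pres ι D.Gal →+ LUnits K)
    (hunit : ∀ σ b, principalIdele K (galTo K σ • u ((D.res σ)⁻¹ • b) - u b) ∈
      sIdeles K (S : Set Nat.Primes)) :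
    ∃ B : Pres ι D.Gal →+ Idele D.field, (∀ (g : D.Gal) b, B (g • b) = g • B b) ∧
      ∀ b, ideleLe hDK (B b) - principalIdele K (u b) ∈ sIdeles K (S : Set Nat.Primes) := by
  classical
  have hfree : ∀ i : ι, ∃ f : Idele D.field,
      ideleLe hDK f - principalIdele K (u (presSingle i 1)) ∈ sIdeles K (S : Set Nat.Primes) :=
    fun i => exists_idele_sub_principal_mem hDK hKur _ fun g hg => by
      obtain ⟨σ, rfl⟩ := galTo_surjective K g
      have hσ : D.res σ = 1 := by
        rw [res_eq_galTo, ← galRes_galTo D.field hDK]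
        exact MonoidHom.mem_ker.1 hg
      have := hunit σ (presSingle i 1)
      rwa [hσ, inv_one, one_smul] at this
  choose fi hfi using hfree
  let B : Pres ι D.Gal →+ Idele D.field := freeLift fun i g => g • fi i
  have hBeq : ∀ (g : D.Gal) b, B (g • b) = g • B b := fun g b => by
    have e : B.comp (DistribSMul.toAddMonoidHom (Pres ι D.Gal) g) =
        (DistribSMul.toAddMonoidHom (Idele D.field) g).comp B := free_ext fun i g' => by
      show B (g • presSingle i g') = g • B (presSingle i g')
      simp only [B]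
      rw [smul_presSingle, freeLift_presSingle, freeLift_presSingle, mul_smul]
    exact DFunLike.congr_fun e b
  let Δ : Pres ι D.Gal →+ Idele K :=
    (ideleLe hDK).comp B - (principalIdele K).comp u
  have hΔ : ∀ b, Δ b ∈ sIdeles K (S : Set Nat.Primes) := fun b => by
    rw [← sum_presSingle b, map_sum]
    refine sum_mem fun i _ => ?_
    rw [map_sum]
    refine sum_mem fun g _ => ?_
    rw [map_zsmul]
    refine AddSubgroup.zsmul_mem _ ?_ _
    obtain ⟨σ, rfl⟩ := D.res_surjective g
    show ideleLe hDK (B (presSingle i (D.res σ))) - principalIdele K (u (presSingle i (D.res σ))) ∈ _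
    simp only [B]
    rw [freeLift_presSingle, res_eq_galTo, ideleLe_galTo, ← res_eq_galTo]
    have h1 := smul_mem_sIdeles' _ (galTo K σ) (hfi i)
    have h2 := hunit σ (presSingle i (D.res σ))
    rw [smul_presSingle, inv_mul_cancel, map_sub, principalIdele_smul] at h2
    have h3 := add_mem h1 h2
    rw [smul_sub, sub_add_sub_cancel] at h3
    exact h3
  exact ⟨B, hBeq, hΔ⟩

/-- The invariant lift of a witness corrected by principal ideles. -/
private theorem exists_invariant_lift {K : IntermediateField ℚ Qbar} [NumberField K]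
    [IsGalois ℚ K] (hDK : D.field ≤ K) {W' : presKer (G := D.Gal) v →+ Idele K}
    (u : Pres ι D.Gal →+ LUnits K)
    (hprin : ∀ σ (x : presKer (G := D.Gal) v),
      principalIdele K (galTo K σ • u ((D.res σ)⁻¹ • (x : Pres ι D.Gal)) - u x) =
        galTo K σ • W' ((D.res σ)⁻¹ • x) - W' x) :
    ∃ L : presKer (G := D.Gal) v →+ Idele D.field,
      (∀ x, ideleLe hDK (L x) = W' x - principalIdele K (u x)) ∧
        ∀ (g : D.Gal) x, L (g • x) = g • L x := by
  have hinv : ∀ (x : presKer (G := D.Gal) v), ∃ f : Idele D.field,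
      ideleLe hDK f = W' x - principalIdele K (u x) := fun x => by
    refine mem_range_ideleLe hDK fun g hg => ?_
    obtain ⟨σ, rfl⟩ := galTo_surjective K g
    have hσ : D.res σ = 1 := by
      rw [res_eq_galTo, ← galRes_galTo D.field hDK]
      exact MonoidHom.mem_ker.1 hg
    have h1 := hprin σ x
    rw [hσ, inv_one, one_smul, one_smul, map_sub, principalIdele_smul] at h1
    rw [smul_sub]
    linear_combination (norm := abel) -h1
  choose f hf using hinv
  let L : presKer (G := D.Gal) v →+ Idele D.field := AddMonoidHom.mk' f fun x y =>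
    ideleLe_injective hDK (by
      rw [map_add, hf, hf, hf]
      simp only [map_add, AddSubgroup.coe_add]
      abel)
  have hLeq : ∀ (g : D.Gal) (x : presKer (G := D.Gal) v), L (g • x) = g • L x := fun g x => by
    obtain ⟨σ, rfl⟩ := D.res_surjective g
    refine ideleLe_injective hDK ?_
    show ideleLe hDK (f _) = ideleLe hDK (galTo D.field σ • f x)
    rw [ideleLe_galTo, hf, hf]
    have h1 := hprin σ (D.res σ • x)
    rw [inv_smul_smul] at h1
    have h2 : (D.res σ)⁻¹ • ((D.res σ • x : presKer (G := D.Gal) v) : Pres ι D.Gal) = x :=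
      inv_smul_smul (D.res σ) (x : Pres ι D.Gal)
    rw [h2, map_sub, principalIdele_smul] at h1
    rw [smul_sub]
    linear_combination (norm := abel) h1
  exact ⟨L, hf, hLeq⟩

/-- A map differing from an integral one by a map on the free module is to be divided out. -/
private theorem mem_shaRelations_of_lift {h : latticeMaps D v}
    (L : presKer (G := D.Gal) v →+ Idele D.field) (hLeq : ∀ (g : D.Gal) x, L (g • x) = g • L x)
    (B : Pres ι D.Gal →+ Idele D.field) (hBeq : ∀ (g : D.Gal) b, B (g • b) = g • B b)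
    (hlS : ∀ x, L x + B (x : Pres ι D.Gal) ∈ sIdeles D.field (S : Set Nat.Primes))
    (hclass : ∀ x : presKer (G := D.Gal) v,
      (QuotientAddGroup.mk (L x) : IdeleClass D.field) =
        (h : presKer (G := D.Gal) v →+ IdeleClass D.field) x) : h ∈ shaRelations D v := by
  let β : equivHom D.Gal (Pres ι D.Gal) (IdeleClass D.field) :=
    ⟨(QuotientAddGroup.mk' (principalIdeles D.field)).comp B, fun g b => by
      show QuotientAddGroup.mk (B (g • b)) = _
      rw [hBeq]
      rfl⟩
  let l : equivHom D.Gal (presKer (G := D.Gal) v) (Idele D.field) :=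
    ⟨L + B.comp (presKer (G := D.Gal) v).subtype, fun g x => by
      show L (g • x) + B (g • (x : Pres ι D.Gal)) = g • (L x + B x)
      rw [smul_add, hLeq, hBeq]⟩
  let ls : latticeMaps D v :=
    ⟨(QuotientAddGroup.mk' (principalIdeles D.field)).comp
      (l : presKer (G := D.Gal) v →+ Idele D.field), fun g x => by
      show QuotientAddGroup.mk ((l : presKer (G := D.Gal) v →+ Idele D.field) (g • x)) = _
      rw [l.2]
      rfl⟩
  refine AddSubgroup.mem_sup.2 ⟨-presRestr D.Gal (IdeleClass D.field) v β,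
    neg_mem ⟨β, rfl⟩, ls, ⟨l, hlS, fun x => rfl⟩, Subtype.ext (AddMonoidHom.ext fun x => ?_)⟩
  show -(QuotientAddGroup.mk (B (x : Pres ι D.Gal)) : IdeleClass D.field) +
    QuotientAddGroup.mk (L x + B (x : Pres ι D.Gal)) = _
  rw [QuotientAddGroup.mk_add, hclass]
  exact (add_comm _ _).trans (add_neg_cancel_right _ _)

/-- The principal ideles of `u` have the valuations of units outside `S`. -/
private theorem principalIdele_sub_mem_sIdeles {K : IntermediateField ℚ Qbar} [NumberField K]
    [IsGalois ℚ K] {W' : presKer (G := D.Gal) v →+ Idele K}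
    (hW : ∀ x, W' x ∈ sIdeles K (S : Set Nat.Primes)) (u : Pres ι D.Gal →+ LUnits K)
    (hprin : ∀ σ (x : presKer (G := D.Gal) v),
      principalIdele K (galTo K σ • u ((D.res σ)⁻¹ • (x : Pres ι D.Gal)) - u x) =
        galTo K σ • W' ((D.res σ)⁻¹ • x) - W' x)
    (σ : Γℚ) (b : Pres ι D.Gal) :
    principalIdele K (galTo K σ • u ((D.res σ)⁻¹ • b) - u b) ∈
      sIdeles K (S : Set Nat.Primes) := by
  have h1 : p • principalIdele K (galTo K σ • u ((D.res σ)⁻¹ • b) - u b) ∈
      sIdeles K (S : Set Nat.Primes) := by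
    rw [← map_nsmul, nsmul_sub, smul_comm p (galTo K σ), ← map_nsmul u, ← map_nsmul u,
      smul_comm p (D.res σ)⁻¹]
    have := hprin σ ⟨p • b, nsmul_mem_presKer D.nsmul_mod b⟩
    rw [show ((⟨p • b, nsmul_mem_presKer D.nsmul_mod b⟩ : presKer (G := D.Gal) v) :
      Pres ι D.Gal) = p • b from rfl] at this
    rw [this]
    exact sub_mem (smul_mem_sIdeles' _ _ (hW _)) (hW _)
  intro q hq φ
  rw [QUnits.mem_unitGroup_iff]
  have h2 := (QUnits.mem_unitGroup_iff _).1 (h1 q hq φ)
  have e2 : ∀ (n : ℕ) (u : QUnits q), (n • u).toField = u.toField ^ n := fun n u => by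
    induction n with
    | zero => rw [zero_nsmul, pow_zero]; rfl
    | succ n ih => rw [succ_nsmul, QUnits.toField_add, ih, pow_succ]
  refine (pow_eq_one_iff_of_nonneg (norm_nonneg _) (Fact.out : p.Prime).ne_zero).1 ?_
  rw [← norm_pow, ← e2]
  exact h2

/-- A witness whose cochain is the coboundary of units of `K` is to be divided out. -/
private theorem mem_shaRelations_of_witness {h : latticeMaps D v} {c : Γℚ × Γℚ → M}
    (W : Witness D hζ v h c) {K : IntermediateField ℚ Qbar} [NumberField K] [IsGalois ℚ K]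
    (hWK : W.field ≤ K) (hKur : K.IsUnramifiedOutside S) (u : Pres ι D.Gal →+ LUnits K)
    (hu : ∀ σ (x : presKer (G := D.Gal) v),
      unitsToQbar K (galTo K σ • u ((D.res σ)⁻¹ • (x : Pres ι D.Gal)) - u x) = W.cochain σ x) :
    h ∈ shaRelations D v := by
  classical
  have hDK : D.field ≤ K := W.le.trans hWK
  have hprin : ∀ σ (x : presKer (G := D.Gal) v),
      principalIdele K (galTo K σ • u ((D.res σ)⁻¹ • (x : Pres ι D.Gal)) - u x) =
        galTo K σ • ideleLe hWK (W.lift ((D.res σ)⁻¹ • x)) - ideleLe hWK (W.lift x) := by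
    intro σ x
    obtain ⟨y, hy, hy'⟩ := W.principal σ x
    rw [← ideleLe_galTo, ← map_sub, ← hy', ideleLe_principal]
    refine congrArg (principalIdele K) (unitsToQbar_injective K ?_)
    exact (hu σ x).trans ((unitsToQbar_unitsLe hWK y).trans hy).symm
  -- the invariant lift
  obtain ⟨L, hf, hLeq⟩ := exists_invariant_lift D v hDK (W' := (ideleLe hWK).comp W.lift) u hprin
  -- valuations of `u` outside `S`
  have hunit := principalIdele_sub_mem_sIdeles D v (W' := (ideleLe hWK).comp W.lift)
    (fun x => (ideleLe_mem_iff hWK _ _).2 (W.lift_mem x)) u hprin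
  -- an idele with the same valuations on the free module
  obtain ⟨B, hBeq, hΔ⟩ := exists_equivariant_idele D hDK hKur u hunit
  -- conclusion
  have hlS : ∀ x, L x + B (x : Pres ι D.Gal) ∈ sIdeles D.field (S : Set Nat.Primes) := fun x => by
    rw [← ideleLe_mem_iff hDK, AddMonoidHom.map_add]
    show ideleLe hDK (L x) + ideleLe hDK (B x) ∈ _
    rw [hf]
    have := AddSubgroup.add_mem _ ((ideleLe_mem_iff hWK _ _).2 (W.lift_mem x)) (hΔ x)
    rwa [sub_add_eq_add_sub, add_sub_assoc]
  have hclass : ∀ x : presKer (G := D.Gal) v,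
      (QuotientAddGroup.mk (L x) : IdeleClass D.field) =
        (h : presKer (G := D.Gal) v →+ IdeleClass D.field) x := fun x => by
    exact mk_eq_of_ideleLe_eq_sub W.le hWK _ (hf x) (W.lift_class x)
  exact mem_shaRelations_of_lift D v L hLeq B hBeq hlS hclass

include hζ in
/-- A map with zero class is to be divided out. -/
theorem mem_shaRelations_of_shaRel [FiniteDimensional (ZMod p) M]
    (hv : Function.Surjective (presMap (G := D.Gal) v)) {h : latticeMaps D v}
    (H : ShaRel D hζ v h (0 : continuousH2S S M)) : h ∈ shaRelations D v := by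
  classical
  obtain ⟨c, hc0, ⟨W⟩⟩ := H
  obtain ⟨a, ⟨Fa, hFa, hFa'⟩, ha⟩ :=
    (mem_levelCoboundariesS₂_iff S M _).1 ((continuousH2Sπ_eq_zero_iff S M c).1 hc0)
  obtain ⟨Fe, hFe, hFe'⟩ := W.levelConstant
  haveI := hFa.1
  haveI := hFe.1
  haveI := numberField_of_finite Fa
  haveI := numberField_of_finite Fe
  haveI := numberField_sup' W.field Fe
  haveI := numberField_sup' (W.field ⊔ Fe) Fa
  obtain ⟨K, hK, hK', hle, hKur, -⟩ := exists_level_fixing_values (W.field ⊔ Fe ⊔ Fa)
    ((W.unramified.sup hFe).sup hFa) ∅ fun y hy => absurd hy (Finset.notMem_empty y)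
  have hWK : W.field ≤ K := (le_sup_left.trans le_sup_left).trans hle
  have hDK : D.field ≤ K := W.le.trans hWK
  let e : Γℚ → Pres ι D.Gal →+ QbarU := fun σ =>
    W.cochain σ - (coeffMap D hζ (a σ)).comp (presMap v)
  have hcoc : ∀ σ τ b, e (σ * τ) b = σ • e τ ((D.res σ)⁻¹ • b) + e σ b := by
    intro σ τ b
    have h1 := W.coboundary σ τ b
    rw [← congrFun ha (σ, τ), d₁₂_hom_apply, map_add, map_sub, AddMonoidHom.add_apply, AddMonoidHom.sub_apply,
      coeffMap_ρ, ← presMap_smul] at h1
    simp only [e, AddMonoidHom.sub_apply, AddMonoidHom.comp_apply, smul_sub]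
    linear_combination (norm := abel) h1
  have heK : ∀ σ s, s ∈ K.fixingSubgroup → e (σ * s) = e σ := fun σ s hs => by
    simp only [e]
    rw [hFe' σ s (IntermediateField.fixingSubgroup_antitone
        ((le_sup_right.trans le_sup_left).trans hle) hs),
      hFa' σ s (IntermediateField.fixingSubgroup_antitone (le_sup_right.trans hle) hs)]
  obtain ⟨η, hη⟩ := exists_free_coboundary D hcoc K heK
  -- `η` has values in `K`
  haveI := isGalois_qbar
  have hηK : ∀ b, (η b).el ∈ K := fun b => by
    suffices hfix : (η b).el ∈ IntermediateField.fixedField K.fixingSubgroup by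
      rwa [InfiniteGalois.fixedField_fixingSubgroup] at hfix
    rw [IntermediateField.mem_fixedField_iff]
    intro s hs
    have hsD : D.res s = 1 :=
      (D.res_eq_one_iff s).2 (IntermediateField.fixingSubgroup_antitone hDK hs)
    have h1 : e s b = 0 := by
      have h2 := hcoc 1 1 b
      rw [mul_one, map_one, inv_one, one_smul, one_smul, left_eq_add] at h2
      rw [← one_mul s, heK 1 s hs]
      exact h2
    rw [hη, hsD, inv_one, one_smul, sub_eq_zero] at h1
    exact congrArg QbarU.el h1
  let u : Pres ι D.Gal →+ LUnits K := AddMonoidHom.mk'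
    (fun b => LUnits.of (Units.mk0 ⟨(η b).el, hηK b⟩
      fun h => (η b).el_ne_zero (congrArg Subtype.val h)))
    fun b b' => unitsToQbar_injective K (QbarU.el_injective (by
      show (η (b + b')).el = _
      rw [map_add, map_add]
      rfl))
  have hu : ∀ b, unitsToQbar K (u b) = η b := fun b => QbarU.el_injective rfl
  -- values of `e` on the relation lattice
  have hker : ∀ x : presKer (G := D.Gal) v, presMap v (x : Pres ι D.Gal) = 0 := fun x => x.2
  have heX : ∀ σ (x : presKer (G := D.Gal) v), e σ (x : Pres ι D.Gal) = W.cochain σ x := fun σ x =>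
    ((congrArg (fun z => W.cochain σ x - z) ((congrArg (coeffMap D hζ (a σ)) (hker x)).trans
      (map_zero _)))).trans (sub_zero _)
  refine mem_shaRelations_of_witness D hζ v W hWK hKur u fun σ x => ?_
  exact (map_sub (unitsToQbar K) _ _).trans
    ((congrArg₂ (· - ·)
      ((unitsToQbar_smul K σ _).trans (congrArg (σ • ·) (hu ((D.res σ)⁻¹ • (x : Pres ι D.Gal)))))
      (hu (x : Pres ι D.Gal))).trans ((hη σ (x : Pres ι D.Gal)).symm.trans (heX σ x)))

end relation

end FermatLib.CFT.S55
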