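import Fermat.Agent.CFT.S55Sha2Witness
import Fermat.Agent.CFT.DualityPres
import Fermat.Agent.CFT.IdeleFieldUnits
import Fermat.Agent.CFT.IdeleCapitulation

/-!
Every lattice map corresponds to a class, up to maps to be divided out (S55):
capitulation gives a lift to `S`-ideles at a bigger level unramified outside `S`.
-/

set_option autoImplicit false

open CategoryTheory groupCohomology ExtCitation NumberField

namespace FermatLib.CFT.S55

open FermatLib FermatLib.CFT.GWKummer

local notation "Γℚ" => AlgebraicClosure ℚ ≃ₐ[ℚ] AlgebraicClosure ℚ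
local notation "Qbar" => AlgebraicClosure ℚ

variable {p : ℕ} [Fact p.Prime] {M : Rep (ZMod p) Γℚ} {S : Finset Nat.Primes}
  (D : Level (M.dualTwist (cycloChar p)) S)
  {ζ : AlgebraicClosure ℚ} (hζ : IsPrimitiveRoot ζ p)
  {ι : Type} [Fintype ι] (v : ι → D.Mod)

/-- Multiples by `p` extend to the free module. -/
theorem nsmul_mem_range_presRestr (a : latticeMaps D v) :
    p • a ∈ (presRestr D.Gal (IdeleClass D.field) v).range := by
  let A := (a : presKer (G := D.Gal) v →+ IdeleClass D.field)
  let F : Pres ι D.Gal →+ IdeleClass D.field := AddMonoidHom.mk'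
    (fun b => A ⟨p • b, nsmul_mem_presKer D.nsmul_mod b⟩) fun b b' => by
      rw [← map_add]
      exact congrArg A (Subtype.ext (nsmul_add b b' p))
  refine ⟨⟨F, fun g b => ?_⟩, Subtype.ext (AddMonoidHom.ext fun x => ?_)⟩
  · show A ⟨p • (g • b), _⟩ = g • A ⟨p • b, _⟩
    rw [← a.2]
    exact congrArg A (Subtype.ext (smul_comm p g b))
  · show A ⟨p • (x : Pres ι D.Gal), _⟩ = (p • A) x
    exact (congrArg A (Subtype.ext rfl : (⟨p • (x : Pres ι D.Gal), nsmul_mem_presKer D.nsmul_mod _⟩ :
      presKer (G := D.Gal) v) = p • x)).trans (map_nsmul A p x)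

section capitulation

variable (hpS : pPrime p ∈ S)

include hpS in
/-- A finite family of ideles whose `p`-power multiples are principal modulo `S`-ideles becomes
principal modulo `S`-ideles at one level unramified outside `S`. -/
theorem exists_capitulation_family {J : Type} (s : Finset J) (f : J → Idele D.field) (k : ℕ)
    (hf : ∀ j, ∃ x : LUnits D.field,
      p ^ k • f j - principalIdele D.field x ∈ sIdeles D.field (S : Set Nat.Primes)) :
    ∃ (F : IntermediateField ℚ (AlgebraicClosure ℚ)) (_ : NumberField F) (_ : IsGalois ℚ F)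
      (hle : D.field ≤ F), F.IsUnramifiedOutside S ∧ ∀ j ∈ s, ∃ y : LUnits F,
        ideleLe hle (f j) - principalIdele F y ∈ sIdeles F (S : Set Nat.Primes) := by
  classical
  induction s using Finset.induction_on with
  | empty => exact ⟨D.field, inferInstance, inferInstance, le_rfl, D.unramified,
      fun j hj => absurd hj (Finset.notMem_empty j)⟩
  | insert a s _ ih =>
    obtain ⟨F, hF, hF', hle, hFur, hFs⟩ := ih
    obtain ⟨x, hx⟩ := hf a
    obtain ⟨L, hL, hL', hleL, hLur, y, hy⟩ := exists_capitulation (p := p) D.field S hpS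
      ((isUnramifiedOutside_iff D.field S).1 D.unramified) (f a) x k hx
    haveI := numberField_sup' F L
    haveI := isGalois_sup' F L
    refine ⟨F ⊔ L, inferInstance, inferInstance, hle.trans le_sup_left,
      hFur.sup ((isUnramifiedOutside_iff L S).2 hLur), fun j hj => ?_⟩
    rcases Finset.mem_insert.1 hj with rfl | hj
    · have h2 : L ≤ F ⊔ L := le_sup_right
      refine ⟨unitsLe h2 y, ?_⟩
      rw [← ideleLe_principal h2, ← ideleLe_trans hleL h2, ← map_sub, ideleLe_mem_iff]
      exact hy
    · obtain ⟨z, hz⟩ := hFs j hj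
      have h1 : F ≤ F ⊔ L := le_sup_left
      refine ⟨unitsLe h1 z, ?_⟩
      rw [← ideleLe_principal h1, ← ideleLe_trans hle h1, ← map_sub, ideleLe_mem_iff]
      exact hz

include hpS in
/-- After multiplying by a number prime to `p`, a map lifts to `S`-ideles at a level unramified
outside `S`. -/
theorem exists_sLift (h : latticeMaps D v) :
    ∃ (h' : latticeMaps D v) (F : IntermediateField ℚ (AlgebraicClosure ℚ)) (_ : NumberField F)
      (_ : IsGalois ℚ F) (hle : D.field ≤ F) (lift : presKer (G := D.Gal) v →+ Idele F),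
      h - h' ∈ (presRestr D.Gal (IdeleClass D.field) v).range ∧ F.IsUnramifiedOutside S ∧
        (∀ x, lift x ∈ sIdeles F (S : Set Nat.Primes)) ∧
        ∀ x, (QuotientAddGroup.mk (lift x) : IdeleClass F) =
          classLe hle ((h' : presKer (G := D.Gal) v →+ IdeleClass D.field) x) := by
  classical
  haveI : NeZero p := ⟨(Fact.out : p.Prime).ne_zero⟩
  obtain ⟨n, hn, hnmem⟩ := exists_pos_nsmul_mem D.field
  obtain ⟨k, m₀, hm₀, rfl⟩ :=
    Nat.exists_eq_pow_mul_and_not_dvd hn.ne' p (Fact.out : p.Prime).one_lt.ne'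
  set t := ((m₀ : ZMod p)⁻¹).val with ht
  have hm : ((t * m₀ : ℕ) : ZMod p) = 1 := by
    rw [Nat.cast_mul, ht, ZMod.natCast_zmod_val, inv_mul_cancel₀]
    rwa [Ne, ZMod.natCast_eq_zero_iff]
  have h1 : 1 ≤ t * m₀ := Nat.one_le_iff_ne_zero.2 fun e => by
    rw [e, Nat.cast_zero] at hm
    exact zero_ne_one hm
  set h' : latticeMaps D v := (t * m₀) • h with hh'
  have hdiff : h - h' ∈ (presRestr D.Gal (IdeleClass D.field) v).range := by
    obtain ⟨d, hd⟩ := (ZMod.natCast_eq_zero_iff (t * m₀ - 1) p).1
      (by rw [Nat.cast_sub h1, hm, Nat.cast_one, sub_self])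
    rw [← neg_sub, neg_mem_iff, hh', show t * m₀ = p * d + 1 by omega, add_nsmul, one_nsmul,
      add_sub_cancel_right, mul_nsmul]
    exact AddSubgroup.nsmul_mem _ (nsmul_mem_range_presRestr D v h) d
  haveI : Module.Free ℤ (presKer (G := D.Gal) v) := Module.free_of_finite_type_torsion_free'
  let bX := Module.Free.chooseBasis ℤ (presKer (G := D.Gal) v)
  choose f hf using fun j => QuotientAddGroup.mk_surjective
    ((h : presKer (G := D.Gal) v →+ IdeleClass D.field) (bX j))
  obtain ⟨F, hF, hF', hle, hFur, hcap⟩ := exists_capitulation_family D hpS Finset.univ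
    (fun j => (t * m₀) • f j) k fun j => by
      obtain ⟨z, hz, w, hw, hzw⟩ := AddSubgroup.mem_sup.1 (hnmem (S : Set Nat.Primes) (f j))
      rw [principalIdeles_eq_range] at hz
      obtain ⟨x, rfl⟩ := hz
      refine ⟨t • x, ?_⟩
      have e : p ^ k • (t * m₀) • f j - principalIdele D.field (t • x) = t • w := by
        rw [← mul_nsmul', map_nsmul, show p ^ k * (t * m₀) = (p ^ k * m₀) * t by ring, mul_nsmul,
          ← hzw, nsmul_add, add_sub_cancel_left]
      rw [e]
      exact AddSubgroup.nsmul_mem _ hw t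
  choose y hy using fun j => hcap j (Finset.mem_univ j)
  let l : presKer (G := D.Gal) v →ₗ[ℤ] Idele F :=
    bX.constr ℤ fun j => ideleLe hle ((t * m₀) • f j) - principalIdele F (y j)
  refine ⟨h', F, hF, hF', hle, l.toAddMonoidHom, hdiff, hFur, fun x => ?_, fun x => ?_⟩
  · have : LinearMap.range l ≤ AddSubgroup.toIntSubmodule (sIdeles F (S : Set Nat.Primes)) := by
      rw [Module.Basis.constr_range, Submodule.span_le]
      rintro _ ⟨j, rfl⟩
      exact hy j
    exact this ⟨x, rfl⟩
  · let L₁ : presKer (G := D.Gal) v →ₗ[ℤ] IdeleClass F :=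
      ((QuotientAddGroup.mk' (principalIdeles F)).comp l.toAddMonoidHom).toIntLinearMap
    let L₂ : presKer (G := D.Gal) v →ₗ[ℤ] IdeleClass F :=
      ((classLe hle).comp (h' : presKer (G := D.Gal) v →+ IdeleClass D.field)).toIntLinearMap
    have e : L₁ = L₂ := bX.ext fun j => by
      show (QuotientAddGroup.mk (l (bX j)) : IdeleClass F) =
        classLe hle ((t * m₀) • (h : presKer (G := D.Gal) v →+ IdeleClass D.field) (bX j))
      rw [Module.Basis.constr_basis, QuotientAddGroup.mk_sub, mk_ideleLe, QuotientAddGroup.mk_nsmul,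
        hf j, (QuotientAddGroup.eq_zero_iff _).2 ?_, sub_zero]
      rw [principalIdeles_eq_range]
      exact ⟨y j, rfl⟩
    exact LinearMap.congr_fun e x

end capitulation

section cochain

variable {F : IntermediateField ℚ (AlgebraicClosure ℚ)} [NumberField F] [IsGalois ℚ F]

theorem smul_mem_sIdeles (T : Set Nat.Primes) (g : F ≃ₐ[ℚ] F) {f : Idele F}
    (hf : f ∈ sIdeles F T) : g • f ∈ sIdeles F T := fun q hq φ => hf q hq (φ.preComp g)

/-- The coboundary of a lift is principal. -/
theorem exists_principal_coboundary (h : latticeMaps D v) (hle : D.field ≤ F)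
    {lift : presKer (G := D.Gal) v →+ Idele F}
    (hclass : ∀ x, (QuotientAddGroup.mk (lift x) : IdeleClass F) =
      classLe hle ((h : presKer (G := D.Gal) v →+ IdeleClass D.field) x))
    (σ : Γℚ) (x : presKer (G := D.Gal) v) : ∃ y : LUnits F,
      principalIdele F y = galTo F σ • lift ((D.res σ)⁻¹ • x) - lift x := by
  have h0 : galTo F σ • lift ((D.res σ)⁻¹ • x) - lift x ∈ principalIdeles F := by
    refine (QuotientAddGroup.eq_zero_iff _).1 ?_
    rw [QuotientAddGroup.mk_sub, show (QuotientAddGroup.mk (galTo F σ • lift ((D.res σ)⁻¹ • x)) :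
      IdeleClass F) = galTo F σ • (QuotientAddGroup.mk (lift ((D.res σ)⁻¹ • x)) : IdeleClass F)
      from rfl, hclass, hclass, ← classLe_galTo, ← res_eq_galTo, ← h.2, smul_inv_smul, sub_self]
  rwa [principalIdeles_eq_range] at h0

include hζ in
/-- A lift to `S`-ideles gives a witness. -/
theorem exists_witness_of_lift [FiniteDimensional (ZMod p) M] (hpS : pPrime p ∈ S)
    (hv : Function.Surjective (presMap (G := D.Gal) v)) (h : latticeMaps D v)
    (hle : D.field ≤ F) (hF : F.IsUnramifiedOutside S)
    (lift : presKer (G := D.Gal) v →+ Idele F)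
    (hmem : ∀ x, lift x ∈ sIdeles F (S : Set Nat.Primes))
    (hclass : ∀ x, (QuotientAddGroup.mk (lift x) : IdeleClass F) =
      classLe hle ((h : presKer (G := D.Gal) v →+ IdeleClass D.field) x)) :
    ∃ c : ↥(levelCocyclesS₂ S M), Nonempty (Witness D hζ v h (c : Γℚ × Γℚ → M)) := by
  classical
  -- the coboundary, as a map for each automorphism of `F`
  have hy : ∀ (g : F ≃ₐ[ℚ] F) (x : presKer (G := D.Gal) v), ∃ y : LUnits F,
      principalIdele F y = g • lift ((galRes hle g)⁻¹ • x) - lift x := fun g x => by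
    obtain ⟨σ, rfl⟩ := galTo_surjective F g
    rw [galRes_galTo, ← res_eq_galTo]
    exact exists_principal_coboundary D v h hle hclass σ x
  choose y hy using hy
  let ε : (F ≃ₐ[ℚ] F) → presKer (G := D.Gal) v →+ LUnits F := fun g =>
    AddMonoidHom.mk' (y g) fun a b => principalIdele_injective (by
      rw [map_add, hy, hy, hy, smul_add (galRes hle g)⁻¹, map_add, map_add, smul_add]
      abel)
  choose E hE using fun g => exists_extend (presKer (G := D.Gal) v) ((unitsToQbar F).comp (ε g))
  have hyS : ∀ g x, y g x ∈ tUnits F (S : Set Nat.Primes) := fun g x => by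
    show principalIdele F (y g x) ∈ sIdeles F (S : Set Nat.Primes)
    rw [hy]
    exact sub_mem (smul_mem_sIdeles _ g (hmem _)) (hmem x)
  -- the values are roots of `S`-units
  let vals : Finset QbarU :=
    Finset.univ.image fun t : (F ≃ₐ[ℚ] F) × (ι × D.Gal) => E t.1 (presSingle t.2.1 t.2.2)
  obtain ⟨F', hF'n, hF'g, -, hF'ur, hF'fix⟩ := exists_level_fixing_values F hF vals
    fun z hz g q hq A hA σ hσ => by
      obtain ⟨⟨g', i, a⟩, -, rfl⟩ := Finset.mem_image.1 hz
      have hpy : p • E g' (presSingle i a) =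
          unitsToQbar F (y g' ⟨p • presSingle i a, nsmul_mem_presKer D.nsmul_mod _⟩) := by
        rw [← map_nsmul]
        exact hE g' ⟨_, _⟩
      refine smul_eq_self_of_inertia F hpS hF hq hpy (fun φ => ⟨0, ?_⟩) g hA hσ
      rw [mul_zero, zpow_zero]
      exact (mem_tUnits_iff _ _).1 (hyS g' _) q hq φ
  refine exists_witness_of_cochain D hζ (e := fun σ => E (galTo F σ)) hv h hle hF hmem hclass
    ⟨F, hF, fun g s hs => ?_⟩ (fun σ x => ⟨y (galTo F σ) x, (hE _ x).symm, ?_⟩) F' hF'ur
    fun σ b s hs => ?_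
  · show E (galTo F (g * s)) = E (galTo F g)
    rw [map_mul, (galTo_eq_one_iff F s).2 hs, mul_one]
  · rw [hy, galRes_galTo, ← res_eq_galTo]
  · have e : (DistribSMul.toAddMonoidHom QbarU s).comp (E (galTo F σ)) = E (galTo F σ) :=
      free_ext fun i a =>
        hF'fix _ (Finset.mem_image.2 ⟨(galTo F σ, i, a), Finset.mem_univ _, rfl⟩) s hs
    exact DFunLike.congr_fun e b

end cochain

include hζ in
/-- Every map corresponds to a class up to maps which extend to the free module. -/
theorem exists_shaRel_of_map [FiniteDimensional (ZMod p) M] (hpS : pPrime p ∈ S)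
    (hv : Function.Surjective (presMap (G := D.Gal) v)) (h : latticeMaps D v) :
    ∃ h' x, h - h' ∈ shaRelations D v ∧ ShaRel D hζ v h' x := by
  obtain ⟨h', F, hF, hF', hle, lift, hdiff, hFur, hmem, hclass⟩ := exists_sLift D v hpS h
  obtain ⟨c, hc⟩ := exists_witness_of_lift D hζ v hpS hv h' hle hFur lift hmem hclass
  exact ⟨h', continuousH2Sπ S M c, AddSubgroup.mem_sup_left hdiff, c, rfl, hc⟩

end FermatLib.CFT.S55
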