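import Fermat.Agent.CFT.S55Sha2Witness
import Fermat.Agent.CFT.GWLocEulerKummer
import Fermat.Agent.CFT.GWInfAlg

/-!
Classes with a witness are trivial at every place (S55).
-/

set_option autoImplicit false
set_option maxSynthPendingDepth 3

open CategoryTheory groupCohomology ExtCitation NumberField

namespace FermatLib.CFT.S55

open FermatLib FermatLib.CFT.GWKummer

local notation "Γℚ" => AlgebraicClosure ℚ ≃ₐ[ℚ] AlgebraicClosure ℚ
local notation "Qbar" => AlgebraicClosure ℚ

variable {p : ℕ} [Fact p.Prime] {M : Rep (ZMod p) Γℚ}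

/-- For odd `p` the 2-cocycles at infinity bound cochains. -/
theorem exists_cochain_at_infinity (hp2 : p ≠ 2)
    (c : ↥archimedeanDecomposition × ↥archimedeanDecomposition → M)
    (hc : c ∈ cocycles₂ (Rep.res archimedeanLoc M)) :
    ∃ a : ↥archimedeanDecomposition → M, IsLevelConstant₁ archimedeanLoc a ∧
      (d₁₂ (Rep.res archimedeanLoc M)).hom a = c := by
  have h2 : (2 : ZMod p) ≠ 0 := fun h => hp2 ((Nat.prime_dvd_prime_iff_eq Fact.out Nat.prime_two).1
    ((ZMod.natCast_eq_zero_iff 2 p).1 (by exact_mod_cast h)))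
  obtain ⟨F, hF, hF1⟩ := GWInf.exists_level_inf
  let b : ↥archimedeanDecomposition → M := fun σ => c (σ, 1) + c (σ, archimedeanGen)
  refine ⟨fun σ => (2 : ZMod p)⁻¹ • b σ, ⟨F, hF, fun g s hs => by rw [hF1 s hs, mul_one]⟩,
    funext fun t => ?_⟩
  obtain ⟨σ, τ⟩ := t
  have h := (mem_cocycles₂_iff (A := Rep.res archimedeanLoc M) c).1 hc
  have e1 : c (σ * τ, 1) + c (σ, τ) = (Rep.res archimedeanLoc M).ρ σ (c (τ, 1)) + c (σ, τ) := by
    have := h σ τ 1
    rwa [mul_one] at this
  have e2 := h σ τ archimedeanGen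
  have e3 : c (σ, τ) + c (σ, τ * archimedeanGen) = b σ := by
    rcases GWInf.eq_one_or_gen τ with rfl | rfl
    · rw [one_mul]
    · rw [GWInf.gen_mul_gen]; exact add_comm _ _
  have key : (Rep.res archimedeanLoc M).ρ σ (b τ) - b (σ * τ) + b σ = (2 : ZMod p) • c (σ, τ) := by
    rw [two_smul, ← e3]
    show (Rep.res archimedeanLoc M).ρ σ (c (τ, 1) + c (τ, archimedeanGen)) -
      (c (σ * τ, 1) + c (σ * τ, archimedeanGen)) + _ = _
    rw [map_add]
    linear_combination (norm := abel) -e1 - e2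
  rw [d₁₂_hom_apply]
  show (Rep.res archimedeanLoc M).ρ σ ((2 : ZMod p)⁻¹ • b τ) - (2 : ZMod p)⁻¹ • b (σ * τ) +
    (2 : ZMod p)⁻¹ • b σ = c (σ, τ)
  rw [map_smul, ← smul_sub, ← smul_add, key, inv_smul_smul₀ h2]

variable {S : Finset Nat.Primes} {D : Level (M.dualTwist (cycloChar p)) S}
  {ζ : AlgebraicClosure ℚ} {hζ : IsPrimitiveRoot ζ p}
  {ι : Type} [Fintype ι] {v : ι → D.Mod} {h : latticeMaps D v} {c : Γℚ × Γℚ → M}

/-- The field of a witness as a level. -/
noncomputable def Witness.level (W : Witness D hζ v h c) (hp2 : p ≠ 2) :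
    Level (M.dualTwist (cycloChar p)) S where
  field := W.field
  finite := W.unramified.1
  galois := W.galois
  unramified := W.unramified
  split σ hσ := D.split σ (IntermediateField.fixingSubgroup_antitone W.le hσ)
  cyclo σ hσ := D.cyclo σ (IntermediateField.fixingSubgroup_antitone W.le hσ)
  complex h2 := absurd h2 hp2

theorem localValue_principalIdele_unitsToQbar (F : IntermediateField ℚ (AlgebraicClosure ℚ))
    [NumberField F] (q : Nat.Primes) (y : LUnits F) :
    localValue F q (principalIdele F y) = toQUnits q (unitsToQbar F y) :=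
  QUnits.toField_injective rfl

/-- A witnessed cocycle is a continuous coboundary at every prime. -/
theorem Witness.exists_cochain_at_prime [FiniteDimensional (ZMod p) M]
    (W : Witness D hζ v h c) (hp2 : p ≠ 2) (hv : Function.Surjective (presMap (G := D.Gal) v))
    (q : Nat.Primes) :
    ∃ a : primeLocalGaloisGroup q → M, IsLevelConstant₁ (primeLocalToGlobal q) a ∧
      ∀ σ τ, M.ρ (primeLocalToGlobal q σ) (a τ) - a (σ * τ) + a σ =
        c (primeLocalToGlobal q σ, primeLocalToGlobal q τ) := by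
  classical
  set ρ := primeLocalToGlobal q with hρ
  set lam : presKer (G := D.Gal) v →+ QUnits q := (localValue W.field q).comp W.lift with hlamdef
  obtain ⟨η, hη⟩ := exists_extend (Ω := QUnits q) (presKer (G := D.Gal) v) lam
  have hsmul : ∀ (τ : primeLocalGaloisGroup q) (f : Idele W.field),
      localValue W.field q (galTo W.field (ρ τ) • f) = τ • localValue W.field q f := fun τ f =>
    GWKummer.localValue_smul (W.level hp2) q τ f
  let β : primeLocalGaloisGroup q → Pres ι D.Gal →+ QUnits q := fun τ => AddMonoidHom.mk'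
    (fun b => toQUnits q (W.cochain (ρ τ) b) - (τ • η ((D.res (ρ τ))⁻¹ • b) - η b)) fun a b => by
      rw [map_add, map_add, smul_add (D.res (ρ τ))⁻¹, map_add, map_add, smul_add]
      abel
  have hβ : ∀ τ, (presMap (G := D.Gal) v).ker ≤ (β τ).ker := fun τ b hb => by
    obtain ⟨y, hy, hy'⟩ := W.principal (ρ τ) ⟨b, hb⟩
    show toQUnits q (W.cochain (ρ τ) b) - (τ • η ((D.res (ρ τ))⁻¹ • b) - η b) = 0
    have e1 : η b = lam ⟨b, hb⟩ := hη ⟨b, hb⟩
    have e2 : η ((D.res (ρ τ))⁻¹ • b) = lam ((D.res (ρ τ))⁻¹ • ⟨b, hb⟩) :=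
      hη ((D.res (ρ τ))⁻¹ • (⟨b, hb⟩ : presKer (G := D.Gal) v))
    have e3 : toQUnits q (W.cochain (ρ τ) b) =
        localValue W.field q (galTo W.field (ρ τ) • W.lift ((D.res (ρ τ))⁻¹ • ⟨b, hb⟩) -
          W.lift ⟨b, hb⟩) := by
      rw [← hy', localValue_principalIdele_unitsToQbar, hy]
    rw [e1, e2, e3, map_sub, hsmul]
    exact sub_self _
  let φ : primeLocalGaloisGroup q → D.Mod →+ QUnits q := fun τ =>
    (presMap (G := D.Gal) v).liftOfSurjective hv ⟨β τ, hβ τ⟩
  have hφ : ∀ τ b, φ τ (presMap v b) =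
      toQUnits q (W.cochain (ρ τ) b) - (τ • η ((D.res (ρ τ))⁻¹ • b) - η b) := fun τ b =>
    AddMonoidHom.liftOfRightInverse_comp_apply _ _ _ ⟨β τ, hβ τ⟩ b
  have hex : ∀ τ, ∃ m : M, (toQUnits q).comp (coeffMap D hζ m) = φ τ := fun τ => by
    obtain ⟨f, hf⟩ := exists_toQUnits_muMap D hζ q (φ τ)
    obtain ⟨m, hm⟩ := exists_coeffMap_eq D hζ (muMap D hζ f)
    exact ⟨m, by rw [hm, hf]⟩
  choose a ha using hex
  have ha' : ∀ τ x, toQUnits q (coeffMap D hζ (a τ) x) = φ τ x := fun τ x =>
    DFunLike.congr_fun (ha τ) x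
  refine ⟨a, ?_, fun σ τ => coeffMap_injective D hζ (AddMonoidHom.ext fun x =>
    toQUnits_injective q ?_)⟩
  · obtain ⟨Fe, hFe, hFe'⟩ := W.levelConstant
    have hfix : ∀ k : ι × D.Gal, ∃ F : IntermediateField ℚ Qbar, FiniteDimensional ℚ F ∧
        ∀ τ : primeLocalGaloisGroup q, ρ τ ∈ F.fixingSubgroup →
          τ • η (presSingle k.1 k.2) = η (presSingle k.1 k.2) := fun k => by
      let x : presKer (G := D.Gal) v := ⟨p • presSingle k.1 k.2, nsmul_mem_presKer D.nsmul_mod _⟩
      have h1 : (p • η (presSingle k.1 k.2)).toField ∈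
          localField (⊥ : Subgroup (W.level hp2).Gal) (stdEmb (W.level hp2).field q) := by
        rw [← map_nsmul, hη x]
        exact fin_mem_localField_bot (W.lift x) _
      have h2 : (p • η (presSingle k.1 k.2)).toField = (η (presSingle k.1 k.2)).toField ^ p := by
        simp [QUnits.toField, toMul_nsmul]
      obtain ⟨F, hF, hFy⟩ := GWLocEuler.exists_fixing_field (W.level hp2) hζ q
        (QUnits.toField_ne_zero _) (h2 ▸ h1)
      exact ⟨F, hF, fun τ hτ => QUnits.toField_injective (hFy τ hτ)⟩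
    choose Fk hFk hFy using hfix
    have : ∀ k, FiniteDimensional ℚ (Fk k) := hFk
    haveI := hFe.1
    have : FiniteDimensional ℚ (⨆ k, Fk k : IntermediateField ℚ Qbar) :=
      IntermediateField.finiteDimensional_iSup_of_finite
    haveI := IntermediateField.finiteDimensional_sup D.field Fe
    refine ⟨D.field ⊔ Fe ⊔ ⨆ k, Fk k, IntermediateField.finiteDimensional_sup _ _,
      fun g s hs => coeffMap_injective D hζ (AddMonoidHom.ext fun x => toQUnits_injective q ?_)⟩
    have hres : D.res (ρ s) = 1 := (D.res_eq_one_iff _).2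
      (IntermediateField.fixingSubgroup_antitone (le_sup_left.trans le_sup_left) hs)
    have hs' : ∀ b, s • η b = η b := fun b => DFunLike.congr_fun (free_ext
      (F := (DistribSMul.toAddMonoidHom (QUnits q) s).comp η) (F' := η) fun i g =>
        hFy (i, g) s (IntermediateField.fixingSubgroup_antitone
          ((le_iSup Fk (i, g)).trans le_sup_right) hs)) b
    obtain ⟨b, rfl⟩ := hv x
    rw [ha', ha', hφ, hφ, map_mul ρ, hFe' _ _
      (IntermediateField.fixingSubgroup_antitone (le_sup_right.trans le_sup_left) hs),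
      map_mul D.res, hres, mul_one, mul_smul g s, hs']
  · obtain ⟨b, rfl⟩ := hv x
    rw [W.coboundary, map_add, map_sub, AddMonoidHom.add_apply, AddMonoidHom.sub_apply, coeffMap_ρ,
      map_add, map_sub, toQUnits_smul, ← presMap_smul, ha', ha', ha', hφ, hφ, hφ]
    rw [map_mul ρ, map_mul D.res, mul_inv_rev, mul_smul σ τ, mul_smul (D.res (ρ τ))⁻¹, map_add,
      map_sub, show ∀ y, toQUnits q (ρ σ • y) = σ • toQUnits q y from toQUnits_smul q σ,
      smul_sub, smul_sub]
    abel

variable (D hζ v)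

/-- A class with a witness is locally trivial everywhere. -/
theorem mem_sha₂_of_shaRel [FiniteDimensional (ZMod p) M] (hp2 : p ≠ 2)
    (hv : Function.Surjective (presMap (G := D.Gal) v)) {h : latticeMaps D v}
    {x : continuousH2S S M} (H : ShaRel D hζ v h x) : x ∈ sha₂ S M := by
  obtain ⟨c, rfl, ⟨W⟩⟩ := H
  refine LinearMap.mem_ker.2 (funext fun l => ?_)
  rw [locTotal₂S_apply, Pi.zero_apply]
  refine (continuousH2π_eq_zero_iff _ _ _).2 ((mem_levelCoboundaries₂_iff _ _ _).2 ?_)
  match l with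
  | Sum.inl _ =>
    refine exists_cochain_at_infinity hp2 _ ?_
    exact ((mem_levelCocycles₂_iff _ _ _).1 (Subtype.coe_prop _)).1
  | Sum.inr q =>
    obtain ⟨a, ha, ha'⟩ := W.exists_cochain_at_prime hp2 hv q.1
    exact ⟨a, ha, funext fun t => (d₁₂_hom_apply _ _ _).trans (ha' t.1 t.2)⟩

end FermatLib.CFT.S55
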