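import Fermat.Agent.CFT.S55Sha2Surj
import Fermat.Agent.CFT.S55Sha2Left
import Fermat.Agent.CFT.S55Sha2Local
import Fermat.Agent.CFT.S55Sha2Kernel

/-!
`sha₂ S M` is the group of equivariant maps of the relation lattice of the dual twist into idele
classes, modulo extendable maps and maps into `S`-ideles (S55).
-/

set_option autoImplicit false

open CategoryTheory groupCohomology ExtCitation NumberField

namespace FermatLib.CFT.S55

open FermatLib FermatLib.CFT.GWKummer

local notation "Γℚ" => AlgebraicClosure ℚ ≃ₐ[ℚ] AlgebraicClosure ℚ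

variable {p : ℕ} [Fact p.Prime] {M : Rep (ZMod p) Γℚ} {S : Finset Nat.Primes}
  (D : Level (M.dualTwist (cycloChar p)) S)
  {ι : Type} [Fintype ι] (v : ι → D.Mod)

/-- The second Tate-Shafarevich group against the relation lattice. -/
theorem nonempty_sha₂_equiv [FiniteDimensional (ZMod p) M] (hp2 : p ≠ 2) (hpS : pPrime p ∈ S)
    (hv : Function.Surjective (presMap (G := D.Gal) v)) :
    Nonempty ((latticeMaps D v ⧸ shaRelations D v) ≃+ ↥(sha₂ S M)) := by
  haveI : NeZero p := ⟨(Fact.out : p.Prime).ne_zero⟩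
  obtain ⟨ζ, hζ⟩ := HasEnoughRootsOfUnity.exists_primitiveRoot (AlgebraicClosure ℚ) p
  have hex := fun h : latticeMaps D v => exists_shaRel_of_map D hζ v hpS hv h
  choose h' x hmem hrel using hex
  have huniq : ∀ (h : latticeMaps D v) (k : latticeMaps D v) (y : continuousH2S S M),
      h - k ∈ shaRelations D v → ShaRel D hζ v k y → x h = y := fun h k y hk hy => by
    have hd : ShaRel D hζ v (h' h - k) (x h - y) :=
      (shaRelGroup D hζ v).sub_mem (x := (h' h, x h)) (y := (k, y)) (hrel h) hy
    refine sub_eq_zero.1 (eq_zero_of_shaRel D hζ v hpS hv hd ?_)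
    have hd' := sub_mem hk (hmem h)
    rwa [sub_sub_sub_cancel_left] at hd'
  let Φ : latticeMaps D v →+ ↥(sha₂ S M) := AddMonoidHom.mk'
    (fun h => ⟨x h, mem_sha₂_of_shaRel D hζ v hp2 hv (hrel h)⟩) fun a b => Subtype.ext
      (huniq (a + b) (h' a + h' b) (x a + x b)
        (by rw [add_sub_add_comm]; exact add_mem (hmem a) (hmem b))
        ((shaRelGroup D hζ v).add_mem (x := (h' a, x a)) (y := (h' b, x b)) (hrel a) (hrel b)))
  have hsurj : Function.Surjective Φ := fun y => by
    obtain ⟨h, hh⟩ := exists_shaRel_of_mem D hζ v hp2 hpS hv y.2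
    exact ⟨h, Subtype.ext (huniq h h y.1 (by rw [sub_self]; exact zero_mem _) hh)⟩
  have hker : shaRelations D v = Φ.ker := by
    ext h
    constructor
    · intro hh
      refine AddMonoidHom.mem_ker.2 (Subtype.ext ?_)
      exact huniq h 0 0 (by rwa [sub_zero]) ((shaRelGroup D hζ v).zero_mem)
    · intro hh
      have h0 : x h = 0 := congrArg Subtype.val (AddMonoidHom.mem_ker.1 hh)
      have hr : ShaRel D hζ v (h' h) 0 := h0 ▸ hrel h
      have h2 := add_mem (hmem h) (mem_shaRelations_of_shaRel D hζ v hv hr)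
      rwa [sub_add_cancel] at h2
  exact ⟨(QuotientAddGroup.quotientAddEquivOfEq hker).trans
    (QuotientAddGroup.quotientKerEquivOfSurjective Φ hsurj)⟩

end FermatLib.CFT.S55
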