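import Fermat.Agent.CFT.S55Sha1
import Fermat.Agent.CFT.S55Sha2

/-!
The pairing of `Ш¹(M')` with `Ш²(M)`: both are counted by the same group of maps.
-/

set_option autoImplicit false

open CategoryTheory Module groupCohomology ExtCitation

namespace FermatLib.CFT.S55

open FermatLib.CFT FermatLib.CFT.GWKummer

local notation "Γℚ" => AlgebraicClosure ℚ ≃ₐ[ℚ] AlgebraicClosure ℚ

variable {p : ℕ} [Fact p.Prime] {M : Rep (ZMod p) Γℚ} {S : Finset Nat.Primes}

/-- A level of `M` is a level of its dual twist. -/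
noncomputable def dualLevel (D : Level M S) : Level (M.dualTwist (cycloChar p)) S where
  field := D.field
  finite := D.finite
  galois := D.galois
  unramified := D.unramified
  split σ hσ := by
    refine LinearMap.ext fun f => ?_
    refine (Rep.dualTwist_ρ_apply M (cycloChar p) σ f).trans ?_
    rw [D.cyclo σ hσ, D.split σ⁻¹ (inv_mem hσ)]
    ext x
    simp
  cyclo := D.cyclo
  complex := D.complex

/-- Two finite vector spaces of the same order are paired perfectly. -/
theorem exists_nondegenerate_pairing {V W : Type*} [AddCommGroup V] [Module (ZMod p) V]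
    [AddCommGroup W] [Module (ZMod p) W] [Finite W] [Finite V] (h : Nat.card V = Nat.card W) :
    ∃ B : V →ₗ[ZMod p] W →ₗ[ZMod p] ZMod p,
      (∀ y, (∀ x, B y x = 0) → y = 0) ∧ (∀ x, (∀ y, B y x = 0) → x = 0) := by
  haveI : Module.Finite (ZMod p) V := Module.Finite.of_finite
  haveI : Module.Finite (ZMod p) W := Module.Finite.of_finite
  haveI : NeZero p := ⟨(Fact.out : p.Prime).ne_zero⟩
  have h1 : finrank (ZMod p) V = finrank (ZMod p) (Module.Dual (ZMod p) W) := by
    rw [Subspace.dual_finrank_eq]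
    rw [Module.natCard_eq_pow_finrank (K := ZMod p) (V := V),
      Module.natCard_eq_pow_finrank (K := ZMod p) (V := W), Nat.card_eq_fintype_card, ZMod.card] at h
    exact Nat.pow_right_injective (Fact.out : p.Prime).two_le h
  let e := LinearEquiv.ofFinrankEq V (Module.Dual (ZMod p) W) h1
  refine ⟨e.toLinearMap, fun y hy => e.injective ?_, fun x hx => ?_⟩
  · rw [map_zero]
    exact LinearMap.ext hy
  · refine (Module.forall_dual_apply_eq_zero_iff (ZMod p) x).1 fun φ => ?_
    obtain ⟨y, rfl⟩ := e.surjective φ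
    exact hx y

/-- Poitou-Tate duality of the Sha groups. -/
theorem exists_sha_pairing [FiniteDimensional (ZMod p) M] (hp2 : p ≠ 2) (hpS : pPrime p ∈ S)
    (hsm : ∀ m : M, ∃ F : IntermediateField ℚ (AlgebraicClosure ℚ), FiniteDimensional ℚ F ∧
      ∀ s ∈ F.fixingSubgroup, M.ρ s m = m)
    (hur : GWUnramifiedOutside M S) :
    ∃ B : sha₁ S (M.dualTwist (cycloChar p)) →ₗ[ZMod p] sha₂ S M →ₗ[ZMod p] ZMod p,
      (∀ y, (∀ x, B y x = 0) → y = 0) ∧ (∀ x, (∀ y, B y x = 0) → x = 0) := by
  obtain ⟨D₀⟩ := exists_level hsm hpS hur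
  let D := dualLevel D₀
  haveI : Finite D.Mod := finite_dualMod D
  haveI : Fintype D.Mod := Fintype.ofFinite _
  let v : D.Mod → D.Mod := id
  have hv : Function.Surjective (presMap (G := D.Gal) v) := fun x =>
    ⟨presSingle x 1, (presMap_presSingle v x 1).trans (one_smul _ _)⟩
  obtain ⟨hfin, h1⟩ := natCard_sha₁_eq D v hp2 hpS hv
  obtain ⟨e⟩ := nonempty_sha₂_equiv D v hp2 hpS hv
  haveI : Finite (sha₂ S M) := Finite.of_equiv _ e.toEquiv
  haveI : Finite (sha₁ S (M.dualTwist (cycloChar p))) := by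
    refine Nat.finite_of_card_ne_zero ?_
    rw [h1]
    exact Nat.card_pos.ne'
  exact exists_nondegenerate_pairing (h1.trans (Nat.card_congr e.toEquiv))

end FermatLib.CFT.S55
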