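import Fermat.Agent.CFT.S55OrthPlaces
import Fermat.Agent.CFT.DualBasic
import Fermat.Agent.CFT.GWGlobUnits

/-!
The orthogonal of the maps with values in ideles supported on `S` and at infinity is made of the
classes trivial at every place of `S`.
-/

set_option autoImplicit false

open NumberField

namespace FermatLib.CFT.S55Orth

open Duality

local notation "ℚbar" => AlgebraicClosure ℚ

section base

variable {F F' : IntermediateField ℚ ℚbar} [NumberField F] [NumberField F'] (h : F ≤ F')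

/-- Inclusion of ideles of subfields. -/
noncomputable def ideleLe : Idele F →+ Idele F' :=
  @ideleBaseChange F _ _ F' _ _ (algLe h)

theorem classLe_mk (f : Idele F) :
    classLe h (QuotientAddGroup.mk f) = (QuotientAddGroup.mk (ideleLe h f) : IdeleClass F') := rfl

theorem ideleLe_mem_sIdeles_iff (S : Set Nat.Primes) (f : Idele F) :
    ideleLe h f ∈ sIdeles F' S ↔ f ∈ sIdeles F S :=
  @ideleBaseChange_mem_sIdeles_iff F _ _ F' _ _ (algLe h) S f

variable [IsGalois ℚ F]

theorem ideleLe_smul (g : F' ≃ₐ[ℚ] F') (f : Idele F) :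
    ideleLe h (galRes h g • f) = g • ideleLe h f :=
  @ideleBaseChange_smul F _ _ F' _ _ (algLe h) g (galRes h g) (fun x => (galRes_spec h g x).symm) f

variable [IsGalois ℚ F']

omit [IsGalois ℚ F] [IsGalois ℚ F'] in
theorem ideleLe_injective : Function.Injective (ideleLe h) :=
  @ideleBaseChange_injective F _ _ F' _ _ (algLe h)

theorem mem_range_ideleLe {f : Idele F'} (hf : ∀ g ∈ (galRes h).ker, g • f = f) :
    f ∈ (ideleLe h).range :=
  @mem_range_ideleBaseChange F _ _ F' _ _ (algLe h) _ f fun g hg =>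
    hf g (MonoidHom.mem_ker.2 (AlgEquiv.ext fun x =>
      (IntermediateField.inclusion h).injective ((galRes_spec h g x).trans (hg x))))

end base

/-- Where the group has at most two elements and `p` is odd, twisted cocycles are coboundaries. -/
theorem infDecomp_coboundary {p : ℕ} [Fact p.Prime] (hp2 : p ≠ 2) {L : Type} [Field L]
    [NumberField L] [IsGalois ℚ L] {G : Type*} [Group G] {π : (L ≃ₐ[ℚ] L) →* G} {V : Type*}
    [AddCommGroup V] [DistribMulAction G V] (hV : ∀ x : V, p • x = 0) {w : (L ≃ₐ[ℚ] L) → V}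
    (hw : w ∈ piZ1 π V) (χ : L →+* ℂ) :
    ∃ a : V, ∀ g ∈ infDecompGroup χ, w g = π g • a - a := by
  have h1 : w 1 = 0 := by
    have := hw 1 1
    rw [mul_one, map_one, one_smul] at this
    exact left_eq_add.1 this
  by_cases hex : ∃ c ∈ infDecompGroup χ, c ≠ 1
  · obtain ⟨c, hc, hc1⟩ := hex
    have hconj : ∀ g ∈ infDecompGroup χ, g ≠ 1 →
        χ.comp (g : L →+* L) = (starRingEnd ℂ).comp χ := fun g hg hg1 =>
      hg.resolve_left fun e => hg1 (Chi.eq_one_of_comp_eq e)
    have huniq : ∀ g ∈ infDecompGroup χ, g = 1 ∨ g = c := fun g hg => by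
      by_cases hg1 : g = 1
      · exact Or.inl hg1
      · exact Or.inr (Chi.eq_of_comp_eq ((hconj g hg hg1).trans (hconj c hc hc1).symm))
    have hcc : c * c = 1 := (huniq _ (mul_mem hc hc)).resolve_right fun e => hc1 (mul_eq_left.1 e)
    have hneg : π c • w c = -w c := by
      have := hw c c
      rw [hcc, h1] at this
      exact eq_neg_of_add_eq_zero_left this.symm
    obtain ⟨k, hk⟩ : ∃ k, p = 2 * k + 1 := (Fact.out : p.Prime).odd_of_ne_two hp2
    refine ⟨k • w c, fun g hg => ?_⟩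
    rcases huniq g hg with rfl | rfl
    · rw [h1, map_one, one_smul, sub_self]
    · have hp : (2 * k + 1) • w g = 0 := hk ▸ hV _
      rw [add_smul, one_smul, mul_smul, two_smul] at hp
      rw [smul_comm (π g) k, hneg, neg_nsmul]
      linear_combination (norm := abel) hp
  · push Not at hex
    exact ⟨0, fun g hg => by rw [hex g hg, h1, map_one, one_smul, sub_self]⟩

/-- The idele minus its parts at `S` and at infinity. -/
noncomputable def restPart {L : Type} [Field L] [NumberField L] [IsGalois ℚ L]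
    (S : Finset Nat.Primes) : Idele L →+ Idele L :=
  AddMonoidHom.id (Idele L) - (∑ q ∈ S, (primePart q : Idele L →+ Idele L)) - infinitePart

section rest

variable {L : Type} [Field L] [NumberField L] [IsGalois ℚ L] (S : Finset Nat.Primes)

theorem restPart_apply (f : Idele L) :
    restPart S f = f - (∑ q ∈ S, primePart q f) - infinitePart f := by
  simp only [restPart, AddMonoidHom.sub_apply, AddMonoidHom.id_apply, AddMonoidHom.finsetSum_apply]

theorem restPart_mem {f : Idele L} (hf : f ∈ sIdeles L (S : Set Nat.Primes)) :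
    restPart S f ∈ unitIdelesOutside L (S : Set Nat.Primes) := by
  refine ⟨fun r ψ => ?_, funext fun χ => ?_⟩
  · let ev : Idele L →+ QUnits r := AddMonoidHom.mk' (fun a => a.fin r ψ) fun _ _ => rfl
    have hev : ev (restPart S f) = ev f - (∑ q ∈ S, ev (primePart q f)) - ev (infinitePart f) := by
      rw [restPart_apply, map_sub, map_sub, map_sum]
    simp only [ev, AddMonoidHom.mk'_apply, infinitePart_fin, sub_zero] at hev
    by_cases hr : r ∈ S
    · rw [Finset.sum_eq_single r (fun q _ hq => primePart_fin_of_ne hq.symm f ψ)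
        (fun h' => absurd hr h'), primePart_fin, sub_self] at hev
      refine ⟨?_, fun _ => hev⟩
      change (restPart S f).fin r ψ ∈ _
      rw [hev]
      exact zero_mem _
    · rw [Finset.sum_eq_zero (fun q hq => primePart_fin_of_ne (fun e => hr (by rwa [e])) f ψ),
        sub_zero] at hev
      refine ⟨?_, fun h' => absurd h' hr⟩
      change (restPart S f).fin r ψ ∈ _
      rw [hev]
      exact hf r hr ψ
  · let ev : Idele L →+ CUnits := AddMonoidHom.mk' (fun a => a.inf χ) fun _ _ => rfl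
    have hev : ev (restPart S f) = ev f - (∑ q ∈ S, ev (primePart q f)) - ev (infinitePart f) := by
      rw [restPart_apply, map_sub, map_sub, map_sum]
    simp only [ev, AddMonoidHom.mk'_apply, infinitePart_inf, primePart_inf, Finset.sum_const_zero,
      sub_zero, sub_self] at hev
    exact hev

omit [IsGalois ℚ L] in
theorem primePart_smul (q : Nat.Primes) (g : L ≃ₐ[ℚ] L) (f : Idele L) :
    primePart q (g • f) = g • primePart q f :=
  idele_ext (fun r ψ => congrArg QUnits.toField (by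
    rcases eq_or_ne r q with rfl | hr
    · rw [primePart_fin]
      show f.fin r (ψ.preComp g) = (primePart r f).fin r (ψ.preComp g)
      rw [primePart_fin]
    · rw [primePart_fin_of_ne hr]
      show (0 : QUnits r) = (primePart q f).fin r (ψ.preComp g)
      rw [primePart_fin_of_ne hr])) fun _ => rfl

omit [IsGalois ℚ L] in
theorem infinitePart_smul (g : L ≃ₐ[ℚ] L) (f : Idele L) :
    infinitePart (g • f) = g • infinitePart f :=
  idele_ext (fun _ _ => rfl) fun _ => rfl

theorem restPart_smul (g : L ≃ₐ[ℚ] L) (f : Idele L) : restPart S (g • f) = g • restPart S f := by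
  simp only [restPart_apply, primePart_smul, infinitePart_smul, smul_sub, Finset.smul_sum]

omit [IsGalois ℚ L] in
/-- The class of a part corestricted from a subgroup on which `ξ` bounds bounds. -/
theorem class_part_mem_B2 {X : Type*} [AddCommGroup X] [DistribMulAction (L ≃ₐ[ℚ] L) X]
    {ξ : (L ≃ₐ[ℚ] L) × (L ≃ₐ[ℚ] L) → X} (hξ : ξ ∈ Z2 (L ≃ₐ[ℚ] L) X) (T : X →+ Idele L)
    (hT : ∀ (g : L ≃ₐ[ℚ] L) x, T (g • x) = g • T x) (H : Subgroup (L ≃ₐ[ℚ] L))
    (r P : Idele L →+ Idele L) (hr : ∀ g ∈ H, ∀ f, r (g • f) = g • r f)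
    (hP : ∀ f, cores0Hom (A := Idele L) (X := Idele L) H r f = P f)
    (hB : (fun t : H × H => ξ ((t.1 : L ≃ₐ[ℚ] L), (t.2 : L ≃ₐ[ℚ] L))) ∈ B2 H X) :
    (fun t => (QuotientAddGroup.mk (P (T (ξ t))) : IdeleClass L)) ∈
      B2 (L ≃ₐ[ℚ] L) (IdeleClass L) := by
  let mk : Idele L →+ IdeleClass L := QuotientAddGroup.mk' (principalIdeles L)
  have hmk : ∀ (g : L ≃ₐ[ℚ] L) f, mk (g • f) = g • mk f := fun _ _ => rfl
  let f : X →+ IdeleClass L := (mk.comp r).comp T
  have hf : ∀ g ∈ H, ∀ x, f (g • x) = g • f x := fun g hg x => by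
    show mk (r (T (g • x))) = g • mk (r (T x))
    rw [hT, hr g hg, hmk]
  obtain ⟨b, hb⟩ := mem_B2_iff.1 hB
  have hB' : (fun t : H × H => f (ξ ((t.1 : L ≃ₐ[ℚ] L), (t.2 : L ≃ₐ[ℚ] L)))) ∈
      B2 H (IdeleClass L) := by
    refine mem_B2_iff.2 ⟨fun s => f (b s), fun s t => ?_⟩
    refine (congrArg f (hb s t)).trans ?_
    rw [map_add, map_sub, Subgroup.smul_def, hf _ s.2]
    rfl
  convert cores0Hom_comp_mem_B2 H hξ hf hB' using 1
  funext t
  rw [← hP]
  exact (cores0Hom_comp (A := Idele L) (B := IdeleClass L) (Y := Idele L) H mk hmk r T hT _).symm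

end rest

section level

variable {p : ℕ} [Fact p.Prime] {F F' : IntermediateField ℚ ℚbar} [NumberField F] [NumberField F']
  [IsGalois ℚ F] [IsGalois ℚ F'] (h : F ≤ F') {S : Finset Nat.Primes} {ι : Type*} [Fintype ι]
  {V : Type*} [AddCommGroup V] [DistribMulAction (F ≃ₐ[ℚ] F) V] {v : ι → V}
  {w : (F' ≃ₐ[ℚ] F') → V}
  {ξ : (F' ≃ₐ[ℚ] F') × (F' ≃ₐ[ℚ] F') → presKer (G := F ≃ₐ[ℚ] F) v}

/-- Maps with values in ideles supported on `S` and at infinity pair to zero with the classes
trivial at every place of `S`. -/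
theorem pairCocycle_mem_B2_of_locallyTrivial (hp2 : p ≠ 2)
    (hur : ∀ q ∉ S, IsUnramifiedAtRel (⊤ : Subgroup (F' ≃ₐ[ℚ] F')) q)
    (hv : Function.Surjective (presMap (G := F ≃ₐ[ℚ] F) v)) (hV : ∀ x : V, p • x = 0)
    (hw : w ∈ piZ1 (galRes h) V) (hξ : IsConnecting (galRes h) v w ξ)
    (hloc : ∀ q ∈ S, ∃ φ : Emb F' q, ∃ a : V, ∀ g ∈ decompGroup φ, w g = galRes h g • a - a)
    (hh : equivHom (F ≃ₐ[ℚ] F) (presKer (G := F ≃ₐ[ℚ] F) v) (Idele F))
    (hS : ∀ x, (hh : presKer (G := F ≃ₐ[ℚ] F) v →+ Idele F) x ∈ sIdeles F (S : Set Nat.Primes)) :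
    pairCocycle (C₀ := IdeleClass F) (C := IdeleClass F') (classLe h)
        ((QuotientAddGroup.mk' (principalIdeles F)).comp
        (hh : presKer (G := F ≃ₐ[ℚ] F) v →+ Idele F)) ξ ∈
      B2 (F' ≃ₐ[ℚ] F') (IdeleClass F') := by
  classical
  let π := galRes h
  let T : Infl π (presKer (G := F ≃ₐ[ℚ] F) v) →+ Idele F' :=
    ((ideleLe h).comp (hh : presKer (G := F ≃ₐ[ℚ] F) v →+ Idele F)).comp
      (ofInfl π _).toAddMonoidHom
  have hT : ∀ (g : F' ≃ₐ[ℚ] F') x, T (g • x) = g • T x := fun g x => by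
    show ideleLe h _ = g • ideleLe h _
    rw [← ideleLe_smul]
    exact congrArg (ideleLe h) (hh.2 (π g) (ofInfl π _ x))
  have hξ' := inflCochain_mem_Z2 hξ
  have key : ∀ (H : Subgroup (F' ≃ₐ[ℚ] F')) (r P : Idele F' →+ Idele F'),
      (∀ g ∈ H, ∀ f, r (g • f) = g • r f) →
      (∀ f, cores0Hom (A := Idele F') (X := Idele F') H r f = P f) →
      (∃ a : V, ∀ g ∈ H, w g = π g • a - a) →
      (fun t => (QuotientAddGroup.mk (P (T (inflCochain π ξ t))) : IdeleClass F')) ∈
        B2 (F' ≃ₐ[ℚ] F') (IdeleClass F') := fun H r P hr hP ha => by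
    obtain ⟨a, ha⟩ := ha
    exact class_part_mem_B2 hξ' T hT H r P hr hP (connecting_res_mem_B2 hξ hv H ha)
  have hRT : (fun t => (QuotientAddGroup.mk (restPart S (T (inflCochain π ξ t))) : IdeleClass F')) ∈
      B2 (F' ≃ₐ[ℚ] F') (IdeleClass F') := by
    refine GWKummer.unitIdeles_class_mem_B2 hur (f := fun t => restPart S (T (inflCochain π ξ t)))
      (mem_Z2_iff.2 fun a b c => ?_) fun t => restPart_mem S ?_
    · have := congrArg (fun x => restPart S (T x)) (mem_Z2_iff.1 hξ' a b c)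
      simp only [map_add, hT, restPart_smul] at this
      exact this
    · exact (ideleLe_mem_sIdeles_iff h _ _).2 (hS _)
  have hinf : (fun t => (QuotientAddGroup.mk (infinitePart (T (inflCochain π ξ t))) : IdeleClass F')) ∈
      B2 (F' ≃ₐ[ℚ] F') (IdeleClass F') := by
    obtain ⟨χ⟩ : Nonempty (F' →+* ℂ) := inferInstance
    exact key _ _ _ (restrictInf_smul χ) (cores0Hom_restrictInf χ)
      (infDecomp_coboundary hp2 hV hw χ)
  have hfin : (∑ q ∈ S, fun t =>
      (QuotientAddGroup.mk (primePart q (T (inflCochain π ξ t))) : IdeleClass F')) ∈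
      B2 (F' ≃ₐ[ℚ] F') (IdeleClass F') := by
    refine sum_mem fun q hq => ?_
    obtain ⟨φ, ha⟩ := hloc q hq
    exact key _ _ _ (restrictPlaceHom_smul φ) (cores0Hom_restrictPlace φ) ha
  convert add_mem (add_mem hRT hfin) hinf using 1
  funext t
  let mk : Idele F' →+ IdeleClass F' := QuotientAddGroup.mk' (principalIdeles F')
  refine (classLe_mk h _).trans ?_
  simp only [Pi.add_apply, Finset.sum_apply]
  show mk (T (inflCochain π ξ t)) = mk _ + (∑ q ∈ S, mk _) + mk _
  rw [← map_sum, ← map_add, ← map_add, restPart_apply]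
  refine congrArg mk ?_
  abel

/-- An equivariant map into ideles of the top field descends. -/
theorem exists_descend
    (T : Infl (galRes h) (presKer (G := F ≃ₐ[ℚ] F) v) →+ Idele F')
    (hT : ∀ (g : F' ≃ₐ[ℚ] F') x, T (g • x) = g • T x) :
    ∃ hh : equivHom (F ≃ₐ[ℚ] F) (presKer (G := F ≃ₐ[ℚ] F) v) (Idele F),
      ∀ x, ideleLe h ((hh : presKer (G := F ≃ₐ[ℚ] F) v →+ Idele F) x) =
        T (toInfl (galRes h) _ x) := by
  have hfix : ∀ x, T x ∈ (ideleLe h).range := fun x => mem_range_ideleLe h fun g hg => by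
    rw [← hT]
    refine congrArg T ((ofInfl (galRes h) _).injective ?_)
    rw [ofInfl_smul, MonoidHom.mem_ker.1 hg, one_smul]
  choose h₀ hh₀ using hfix
  have hadd : ∀ a b : presKer (G := F ≃ₐ[ℚ] F) v,
      h₀ (toInfl (galRes h) _ (a + b)) =
        h₀ (toInfl (galRes h) _ a) + h₀ (toInfl (galRes h) _ b) := fun a b =>
    ideleLe_injective h (by rw [map_add (ideleLe h), hh₀, hh₀, hh₀, map_add, map_add])
  refine ⟨⟨AddMonoidHom.mk' (fun x => h₀ (toInfl (galRes h) _ x)) hadd, fun g₀ x => ?_⟩,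
    fun x => hh₀ _⟩
  obtain ⟨g, rfl⟩ := galRes_surjective h g₀
  refine ideleLe_injective h ?_
  show ideleLe h (h₀ (toInfl (galRes h) _ (galRes h g • x))) =
    ideleLe h (galRes h g • h₀ (toInfl (galRes h) _ x))
  rw [ideleLe_smul, hh₀, hh₀, toInfl_smul, hT]

omit [NumberField F] [IsGalois ℚ F'] in
/-- A map corestricted from a place over `q ∈ S` has values supported on `S`. -/
theorem cores0Hom_mem_sIdeles {X : Type*} [AddCommGroup X] [DistribMulAction (F' ≃ₐ[ℚ] F') X]
    {q : Nat.Primes} (hq : q ∈ S) (φ : Emb F' q) (r : X →+ localPart φ) (x : X) :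
    cores0Hom (A := Idele F') (decompGroup φ) ((localPart φ).subtype.comp r) x ∈
      sIdeles F' (S : Set Nat.Primes) := by
  have := Fintype.ofFinite ((F' ≃ₐ[ℚ] F') ⧸ decompGroup φ)
  rw [cores0Hom_apply]
  refine sum_mem fun c _ q' hq' ψ => ?_
  have hne : q' ≠ q := fun e => hq' (by rw [e]; exact hq)
  show ((r _ : localPart φ) : Idele F').fin q' _ ∈ _
  rw [localPart_apply_of_ne (r _).2 hne]
  exact zero_mem _

/-- A class orthogonal to the maps with values in ideles supported on `S` is trivial at the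
places of `S`. -/
theorem coboundary_of_pairCocycle_mem_B2 (hV : ∀ x : V, p • x = 0)
    (hξ : IsConnecting (galRes h) v w ξ) {q : Nat.Primes} (hq : q ∈ S) (φ : Emb F' q)
    (hor : ∀ hh : equivHom (F ≃ₐ[ℚ] F) (presKer (G := F ≃ₐ[ℚ] F) v) (Idele F),
      (∀ x, (hh : presKer (G := F ≃ₐ[ℚ] F) v →+ Idele F) x ∈ sIdeles F (S : Set Nat.Primes)) →
      pairCocycle (C₀ := IdeleClass F) (C := IdeleClass F') (classLe h)
        ((QuotientAddGroup.mk' (principalIdeles F)).comp
          (hh : presKer (G := F ≃ₐ[ℚ] F) v →+ Idele F)) ξ ∈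
        B2 (F' ≃ₐ[ℚ] F') (IdeleClass F')) :
    ∃ a : V, ∀ g ∈ decompGroup φ, w g = galRes h g • a - a := by
  classical
  let π := galRes h
  refine coboundary_of_connecting_res hV hξ (decompGroup φ) ?_
  have hξ' := inflCochain_mem_Z2 hξ
  have hξD : (fun t : decompGroup φ × decompGroup φ =>
      inflCochain π ξ ((t.1 : F' ≃ₐ[ℚ] F'), (t.2 : F' ≃ₐ[ℚ] F'))) ∈
        Z2 (decompGroup φ) (Infl π (presKer (G := F ≃ₐ[ℚ] F) v)) :=
    cochainMap2_mem_Z2 (isCompat_subtype (decompGroup φ)) hξ'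
  suffices hzero : ∀ hD : Infl π (presKer (G := F ≃ₐ[ℚ] F) v) →+ localPart φ,
      (∀ (g : decompGroup φ) x, hD (g • x) = g • hD x) →
      (fun t : decompGroup φ × decompGroup φ =>
        hD (inflCochain π ξ ((t.1 : F' ≃ₐ[ℚ] F'), (t.2 : F' ≃ₐ[ℚ] F')))) ∈
          satB2 (decompGroup φ) (localPart φ) p by
    exact tateNakayama_right (localPart_isPClassFormation (p := p) F' φ) hξD hzero
  intro hD hDeq
  -- the induced map of the top level
  let r : Infl π (presKer (G := F ≃ₐ[ℚ] F) v) →+ Idele F' := (localPart φ).subtype.comp hD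
  have hr : ∀ g ∈ decompGroup φ, ∀ x, r (g • x) = g • r x := fun g hg x =>
    congrArg Subtype.val (hDeq ⟨g, hg⟩ x)
  let T : Infl π (presKer (G := F ≃ₐ[ℚ] F) v) →+ Idele F' :=
    cores0Hom (A := Idele F') (decompGroup φ) r
  obtain ⟨hh, hh₀⟩ := exists_descend h T (cores0Hom_smul _ hr)
  have hS : ∀ x, (hh : presKer (G := F ≃ₐ[ℚ] F) v →+ Idele F) x ∈
      sIdeles F (S : Set Nat.Primes) := fun x => by
    rw [← ideleLe_mem_sIdeles_iff h, hh₀]
    exact cores0Hom_mem_sIdeles hq φ hD _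
  let mk : Idele F' →+ IdeleClass F' := QuotientAddGroup.mk' (principalIdeles F')
  have hmk : ∀ (g : F' ≃ₐ[ℚ] F') f, mk (g • f) = g • mk f := fun _ _ => rfl
  have hB2 : (fun t => cores0Hom (decompGroup φ) (mk.comp r) (inflCochain π ξ t)) ∈
      B2 (F' ≃ₐ[ℚ] F') (IdeleClass F') := by
    convert hor hh hS using 1
    funext t
    refine (cores0Hom_comp (A := Idele F') (B := IdeleClass F') (decompGroup φ) mk hmk r
      (AddMonoidHom.id (Infl π (presKer (G := F ≃ₐ[ℚ] F) v))) (fun _ _ => rfl) _).trans ?_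
    refine Eq.trans ?_ (classLe_mk h _).symm
    exact congrArg mk (hh₀ (ξ t)).symm
  have hloc : (fun t : decompGroup φ × decompGroup φ =>
      mk.comp r (inflCochain π ξ ((t.1 : F' ≃ₐ[ℚ] F'), (t.2 : F' ≃ₐ[ℚ] F')))) ∈
        satB2 (decompGroup φ) (IdeleClass F') p :=
    comp_res_mem_satB2 (decompGroup φ) hξ'
      (fun g hg x => (congrArg mk (hr g hg x)).trans (hmk g _))
      (ideleClass_isPClassFormation F') hB2
  have hz : (fun t : decompGroup φ × decompGroup φ =>
      hD (inflCochain π ξ ((t.1 : F' ≃ₐ[ℚ] F'), (t.2 : F' ≃ₐ[ℚ] F')))) ∈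
        Z2 (decompGroup φ) (localPart φ) := mem_Z2_iff.2 fun a b c => by
    have := congrArg hD (mem_Z2_iff.1 hξD a b c)
    rw [map_add, map_add, hDeq] at this
    exact this
  apply localPart_mem_satB2 φ hz
  exact hloc

end level

end FermatLib.CFT.S55Orth
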