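import Fermat.Agent.CFT.DualAxioms
import Fermat.Agent.CFT.DualityPres
import Fermat.Agent.CFT.CohCores
import Fermat.Agent.CFT.TateNakayama

/-!
Corestriction from a decomposition group in a class formation, and restriction of connecting
cochains.
-/

set_option autoImplicit false

namespace FermatLib.CFT.S55Orth

open Duality

section cores

variable {p : ℕ} [Fact p.Prime] {G : Type*} [Group G] [Finite G] {A : Type*} [AddCommGroup A]
  [DistribMulAction G A] (H : Subgroup G)

/-- A class of a subgroup whose corestriction vanishes up to prime-to-`p` torsion vanishes up to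
prime-to-`p` torsion. -/
theorem mem_satB2_of_cores2 (hC : IsPClassFormation p G A) {z : H × H → A} (hz : z ∈ Z2 H A)
    (h : cores2 H z ∈ satB2 G A p) : z ∈ satB2 H A p := by
  classical
  have := Fintype.ofFinite G
  obtain ⟨u, hu⟩ := TN.exists_isFund hC
  let P : Sylow p H := default
  let Q : Sylow p G := default
  let e : (P : Subgroup H) ≃* (P : Subgroup H).map H.subtype :=
    (P : Subgroup H).equivMapOfInjective H.subtype Subtype.val_injective
  have hP' : IsPGroup p ((P : Subgroup H).map H.subtype) := P.isPGroup'.map _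
  let zP : ((P : Subgroup H).map H.subtype) × ((P : Subgroup H).map H.subtype) → A :=
    fun t => z ((e.symm t.1 : H), (e.symm t.2 : H))
  have hec : ∀ x, ((e.symm x : H) : G) = (x : G) := fun x => by
    conv_rhs => rw [← e.apply_symm_apply x]
    rfl
  have hzP : zP ∈ Z2 ((P : Subgroup H).map H.subtype) A := by
    refine mem_Z2_iff.2 fun a b c => ?_
    have := mem_Z2_iff.1 hz (e.symm a : H) (e.symm b : H) (e.symm c : H)
    simp only [Subgroup.smul_def, ← Subgroup.coe_mul, ← map_mul, hec] at this ⊢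
    exact this
  obtain ⟨m, hm⟩ := hu.gen _ hP' zP hzP
  let uH : H × H → A := fun t => (u : G × G → A) ((t.1 : G), (t.2 : G))
  have huH : uH ∈ Z2 H A := cochainMap2_mem_Z2 (isCompat_subtype H) u.2
  have hd : z - m • uH ∈ Z2 H A := sub_mem hz (zsmul_mem huH m)
  have hres : cochainMap2 (P : Subgroup H).subtype (AddMonoidHom.id A) (z - m • uH) ∈
      B2 (P : Subgroup H) A := by
    obtain ⟨b, hb⟩ := mem_B2_iff.1 hm
    refine mem_B2_iff.2 ⟨fun x => b (e x), fun x y => ?_⟩
    refine Eq.trans ?_ ((hb (e x) (e y)).trans ?_)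
    · show z ((x : H), (y : H)) - m • (u : G × G → A) (((x : H) : G), ((y : H) : G)) = _
      simp only [Pi.sub_apply, Pi.smul_apply, cochainMap2_apply, AddMonoidHom.id_apply, zP,
        MulEquiv.symm_apply_apply]
      rfl
    · show _ = x • b (e y) - b (e (x * y)) + b (e x)
      rw [map_mul]
      rfl
  set k := (P : Subgroup H).index
  have h1 : k • (z - m • uH) ∈ B2 H A := index_smul_mem_B2 _ hd hres
  have h2 := cores2_mem_B2 H h1
  rw [map_nsmul, map_sub, map_zsmul] at h2
  obtain ⟨n, hn, hnz⟩ := h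
  have h3 : ((n : ℤ) * (k * (m * (H.index : ℤ)))) • (u : G × G → A) ∈ B2 G A := by
    have a1 := nsmul_mem h2 n
    have a2 := nsmul_mem hnz k
    have a3 := nsmul_mem (nsmul_mem (zsmul_mem (cores2_res H u.2) m) k) n
    have : n • k • (m • (H.index • (u : G × G → A))) =
        k • n • cores2 H z - n • (k • (cores2 H z - m • cores2 H uH)) -
          n • k • (m • (cores2 H uH - H.index • (u : G × G → A))) := by
      simp only [smul_sub, smul_comm k n]
      abel
    have hmem : n • k • (m • (H.index • (u : G × G → A))) ∈ B2 G A := by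
      rw [this]
      exact sub_mem (sub_mem a2 a1) a3
    simpa only [← natCast_zsmul, smul_smul, mul_assoc] using hmem
  have h4 := hu.dvd_of_smul_mem (Q : Subgroup G) Q.isPGroup' h3
  obtain ⟨j, hj⟩ := IsPGroup.iff_card.1 P.isPGroup'
  obtain ⟨l, hl⟩ := IsPGroup.iff_card.1 Q.isPGroup'
  have hkp : ¬ p ∣ k := P.not_dvd_index
  have hcard : (p : ℤ) ^ j * k * H.index = (p : ℤ) ^ l * (Q : Subgroup G).index := by
    have e1 : Nat.card H * H.index = Nat.card G := H.card_mul_index
    rw [← (P : Subgroup H).card_mul_index, hj, ← (Q : Subgroup G).card_mul_index, hl] at e1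
    exact_mod_cast e1
  have h5 : (p : ℤ) ^ j ∣ m * (n * k * (Q : Subgroup G).index) := by
    obtain ⟨c, hc⟩ := h4
    rw [hl] at hc
    push_cast at hc
    refine ⟨c * k, ?_⟩
    have hpl : (p : ℤ) ^ l ≠ 0 := pow_ne_zero _ (Int.natCast_ne_zero.2 (Fact.out : p.Prime).ne_zero)
    apply mul_left_cancel₀ hpl
    linear_combination ((p : ℤ) ^ j * k) * hc - ((n : ℤ) * k * m) * hcard
  have hcop : IsCoprime ((p : ℤ) ^ j) ((n : ℤ) * k * (Q : Subgroup G).index) := by
    refine IsCoprime.pow_left ?_
    have hq : ¬ p ∣ (Q : Subgroup G).index := Q.not_dvd_index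
    have key : ∀ x : ℕ, ¬ p ∣ x → IsCoprime (p : ℤ) (x : ℤ) := fun x hx =>
      Nat.Coprime.isCoprime ((Fact.out : p.Prime).coprime_iff_not_dvd.2 hx)
    exact ((key n hn).mul_right (key k hkp)).mul_right (key _ hq)
  obtain ⟨c, hc⟩ := hcop.dvd_of_dvd_mul_right h5
  have hju : (p ^ j) • cochainMap2 (P : Subgroup H).subtype (AddMonoidHom.id A) uH ∈
      B2 (P : Subgroup H) A := by
    rw [← hj]
    exact card_smul_mem_B2 (cochainMap2_mem_Z2 (isCompat_subtype _) huH)
  have hzB : cochainMap2 (P : Subgroup H).subtype (AddMonoidHom.id A) z ∈ B2 (P : Subgroup H) A := by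
    have := add_mem hres (zsmul_mem hju c)
    convert this using 1
    rw [map_sub, map_zsmul, hc, ← natCast_zsmul, smul_smul, Nat.cast_pow, mul_comm c, sub_add_cancel]
  exact ⟨k, hkp, index_smul_mem_B2 _ hz hzB⟩

variable {X : Type*} [AddCommGroup X] [DistribMulAction G X] {ξ : G × G → X} (hξ : ξ ∈ Z2 G X)
  {f : X →+ A} (hf : ∀ h ∈ H, ∀ x, f (h • x) = h • f x)

omit [Finite G] in
include hξ hf in
theorem comp_res_mem_Z2 : (fun t : H × H => f (ξ ((t.1 : G), (t.2 : G)))) ∈ Z2 H A :=
  mem_Z2_iff.2 fun a b c => by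
    have := congrArg f (mem_Z2_iff.1 hξ (a : G) (b : G) (c : G))
    rw [map_add, map_add, hf _ a.2] at this
    exact this

include hξ hf in
/-- A local map killing the restricted class gives a global map killing the class. -/
theorem cores0Hom_comp_mem_B2
    (h : (fun t : H × H => f (ξ ((t.1 : G), (t.2 : G)))) ∈ B2 H A) :
    (fun t => cores0Hom H f (ξ t)) ∈ B2 G A := by
  have := sub_mem (cores2_mem_B2 H h) (cores2_comp_res H hf hξ)
  rwa [sub_sub_cancel] at this

include hξ hf in
/-- If the induced global map kills the class, the local map kills the restricted class. -/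
theorem comp_res_mem_satB2 (hC : IsPClassFormation p G A)
    (h : (fun t => cores0Hom H f (ξ t)) ∈ B2 G A) :
    (fun t : H × H => f (ξ ((t.1 : G), (t.2 : G)))) ∈ satB2 H A p := by
  refine mem_satB2_of_cores2 H hC (comp_res_mem_Z2 H hξ hf) (B2_le_satB2 ?_)
  have := add_mem (cores2_comp_res H hf hξ) h
  rwa [sub_add_cancel] at this

end cores

section connecting

variable {Γ G : Type*} [Group Γ] [Group G] [Fintype G] {ι : Type*} [Fintype ι] {V : Type*}
  [AddCommGroup V] [DistribMulAction G V] {π : Γ →* G} {v : ι → V} {w : Γ → V}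
  {ξ : Γ × Γ → presKer (G := G) v}

/-- A connecting cochain with values in the inflated lattice. -/
def inflCochain (π : Γ →* G) (ξ : Γ × Γ → presKer (G := G) v) :
    Γ × Γ → Infl π (presKer (G := G) v) :=
  fun t => toInfl π _ (ξ t)

theorem inflCochain_mem_Z2 (hξ : IsConnecting π v w ξ) :
    inflCochain π ξ ∈ Z2 Γ (Infl π (presKer (G := G) v)) :=
  mem_Z2_iff.2 fun a b c => hξ.cocycle a b c

/-- Where `w` is a coboundary the connecting class vanishes. -/
theorem connecting_res_mem_B2 (hξ : IsConnecting π v w ξ)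
    (hv : Function.Surjective (presMap (G := G) v)) (H : Subgroup Γ) {a : V}
    (ha : ∀ g ∈ H, w g = π g • a - a) :
    (fun t : H × H => inflCochain π ξ ((t.1 : Γ), (t.2 : Γ))) ∈
      B2 H (Infl π (presKer (G := G) v)) := by
  obtain ⟨w', hw', hξ'⟩ := hξ
  obtain ⟨b, rfl⟩ := hv a
  let x : H → presKer (G := G) v := fun s => ⟨w' s - (π (s : Γ) • b - b), by
    show presMap v _ = 0
    rw [map_sub, map_sub, presMap_smul, hw', ha _ s.2, sub_self]⟩
  refine mem_B2_iff.2 ⟨fun s => toInfl π _ (x s), fun s t => congrArg (toInfl π _) (Subtype.ext ?_)⟩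
  show (ξ ((s : Γ), (t : Γ)) : Pres ι G) = π (s : Γ) • (w' t - (π (t : Γ) • b - b)) -
    (w' ((s * t : H) : Γ) - (π ((s * t : H) : Γ) • b - b)) + (w' s - (π (s : Γ) • b - b))
  rw [hξ', Subgroup.coe_mul, map_mul, mul_smul, smul_sub, smul_sub]
  abel

/-- Where the connecting class vanishes up to prime-to-`p` torsion `w` is a coboundary. -/
theorem coboundary_of_connecting_res [Finite Γ] {p : ℕ} [Fact p.Prime] (hV : ∀ x : V, p • x = 0)
    (hξ : IsConnecting π v w ξ) (H : Subgroup Γ)
    (h : (fun t : H × H => inflCochain π ξ ((t.1 : Γ), (t.2 : Γ))) ∈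
      satB2 H (Infl π (presKer (G := G) v)) p) :
    ∃ a : V, ∀ g ∈ H, w g = π g • a - a := by
  obtain ⟨m, hm, hB⟩ := h
  obtain ⟨x, hx⟩ := mem_B2_iff.1 hB
  obtain ⟨w', hw', hξ'⟩ := hξ
  let x₀ : H → presKer (G := G) v := fun s => ofInfl π (presKer (G := G) v) (x s)
  let f : H → Infl π (Pres ι G) :=
    fun s => toInfl π _ (m • w' s - (x₀ s : Pres ι G))
  have hf : f ∈ Z1 H (Infl π (Pres ι G)) := by
    refine mem_Z1_iff.2 fun s t => congrArg (toInfl π _) ?_
    have e : m • (ξ ((s : Γ), (t : Γ)) : Pres ι G) =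
        π (s : Γ) • (x₀ t : Pres ι G) - (x₀ (s * t) : Pres ι G) + (x₀ s : Pres ι G) :=
      congrArg (fun z : Infl π (presKer (G := G) v) => ((ofInfl π _ z : presKer (G := G) v) :
        Pres ι G)) (hx s t)
    rw [hξ', smul_add, smul_sub, smul_comm m (π (s : Γ))] at e
    show m • w' ((s * t : H) : Γ) - _ = π (s : Γ) • (m • w' t - _) + (m • w' s - _)
    rw [Subgroup.coe_mul, smul_sub]
    linear_combination (norm := abel) -e
  obtain ⟨y, hy⟩ := mem_B1_iff.1 (h1Trivial_pres π H f hf)
  have hm' : ∀ g ∈ H, m • w g = π g • presMap v (ofInfl π _ y) - presMap v (ofInfl π _ y) := by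
    intro g hg
    have e : m • w' g - (x₀ ⟨g, hg⟩ : Pres ι G) =
        π g • ofInfl π _ y - ofInfl π _ y := congrArg (ofInfl π _) (hy ⟨g, hg⟩)
    have := congrArg (presMap v) e
    rwa [map_sub, map_sub, presMap_smul, map_nsmul, hw',
      show presMap v (x₀ ⟨g, hg⟩ : Pres ι G) = 0 from (x₀ ⟨g, hg⟩).2,
      sub_zero] at this
  obtain ⟨a, b, hab⟩ := Nat.isCoprime_iff_coprime.2
    ((Fact.out : p.Prime).coprime_iff_not_dvd.2 hm).symm
  refine ⟨a • presMap v (ofInfl π _ y), fun g hg => ?_⟩
  rw [smul_comm (π g) a, ← smul_sub, ← hm' g hg]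
  conv_lhs => rw [← one_smul ℤ (w g), ← hab, add_smul, mul_smul, mul_smul, natCast_zsmul,
    natCast_zsmul, hV, smul_zero, add_zero]

end connecting

end FermatLib.CFT.S55Orth
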