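import Fermat.Agent.CFT.S55OrthCores
import Fermat.Agent.CFT.ClassFormation
import Fermat.Agent.CFT.IdeleDecomp

/-!
Ideles as corestrictions from the decomposition groups, and local classes up to prime-to-`p`
torsion.
-/

set_option autoImplicit false

open NumberField

namespace FermatLib.CFT.S55Orth

open Duality

/-- Corestriction commutes with equivariant maps on both sides. -/
theorem cores0Hom_comp {G : Type*} [Group G] [Finite G] (H : Subgroup G) {X Y A B : Type*}
    [AddCommGroup X] [AddCommGroup Y] [AddCommGroup A] [AddCommGroup B] [DistribMulAction G X]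
    [DistribMulAction G Y] [DistribMulAction G A] [DistribMulAction G B] (φ : A →+ B)
    (hφ : ∀ (g : G) a, φ (g • a) = g • φ a) (f : Y →+ A) (T : X →+ Y)
    (hT : ∀ (g : G) x, T (g • x) = g • T x) (x : X) :
    cores0Hom H ((φ.comp f).comp T) x = φ (cores0Hom H f (T x)) := by
  classical
  have := Fintype.ofFinite (G ⧸ H)
  rw [cores0Hom_apply, cores0Hom_apply, map_sum]
  exact Finset.sum_congr rfl fun c _ => by
    rw [AddMonoidHom.comp_apply, AddMonoidHom.comp_apply, hT, hφ]

variable {L : Type} [Field L] [NumberField L] [IsGalois ℚ L] {q : Nat.Primes}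

/-- The part of an idele at `q`. -/
noncomputable def primePart (q : Nat.Primes) : Idele L →+ Idele L :=
  AddMonoidHom.mk' (fun f => singlePrime q (f.fin q) fun τ ψ => f.2.1 q τ ψ) fun a b => by
    refine idele_ext (fun r ψ => congrArg QUnits.toField ?_) fun χ => ?_
    · rcases eq_or_ne r q with rfl | hr
      · show (singlePrime r _ _).fin r ψ =
          (singlePrime r _ _).fin r ψ + (singlePrime r _ _).fin r ψ
        rw [singlePrime_apply, singlePrime_apply, singlePrime_apply]
        rfl
      · show (singlePrime q _ _).fin r ψ =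
          (singlePrime q _ _).fin r ψ + (singlePrime q _ _).fin r ψ
        rw [singlePrime_apply_of_ne _ _ hr, singlePrime_apply_of_ne _ _ hr,
          singlePrime_apply_of_ne _ _ hr, add_zero]
    · exact congrArg CUnits.toField (zero_add (0 : CUnits)).symm

omit [IsGalois ℚ L] in
theorem primePart_fin (q : Nat.Primes) (f : Idele L) (ψ : Emb L q) :
    (primePart q f).fin q ψ = f.fin q ψ :=
  singlePrime_apply (f.fin q) (fun τ φ => f.2.1 q τ φ) ψ

omit [IsGalois ℚ L] in
theorem primePart_fin_of_ne {r : Nat.Primes} (hr : r ≠ q) (f : Idele L) (ψ : Emb L r) :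
    (primePart q f).fin r ψ = 0 :=
  singlePrime_apply_of_ne (f.fin q) (fun τ φ => f.2.1 q τ φ) hr ψ

omit [IsGalois ℚ L] in
theorem primePart_inf (q : Nat.Primes) (f : Idele L) (χ : L →+* ℂ) :
    (primePart q f).inf χ = 0 := rfl

/-- The part of an idele at infinity. -/
noncomputable def infinitePart : Idele L →+ Idele L :=
  AddMonoidHom.mk' (fun f => singleInf f.inf f.2.2.2) fun _ _ =>
    idele_ext (fun r _ => congrArg QUnits.toField (zero_add (0 : QUnits r)).symm) fun _ => rfl

omit [IsGalois ℚ L] in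
theorem infinitePart_fin (f : Idele L) {r : Nat.Primes} (ψ : Emb L r) :
    (infinitePart f).fin r ψ = 0 := rfl

omit [IsGalois ℚ L] in
theorem infinitePart_inf (f : Idele L) (χ : L →+* ℂ) : (infinitePart f).inf χ = f.inf χ := rfl

/-- Restriction to the place of `φ`, as an idele. -/
noncomputable def restrictPlaceHom (φ : Emb L q) : Idele L →+ Idele L :=
  (localPart φ).subtype.comp (restrictPlace φ)

omit [IsGalois ℚ L] in
theorem restrictPlaceHom_smul (φ : Emb L q) :
    ∀ h ∈ decompGroup φ, ∀ f, restrictPlaceHom φ (h • f) = h • restrictPlaceHom φ f :=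
  fun h hh f => congrArg Subtype.val (restrictPlace_smul φ ⟨h, hh⟩ f)

/-- The part at `q` is corestricted from one place. -/
theorem cores0Hom_restrictPlace (φ : Emb L q) (f : Idele L) :
    cores0Hom (A := Idele L) (X := Idele L) (decompGroup φ) (restrictPlaceHom φ) f =
      primePart q f := by
  classical
  have := Fintype.ofFinite ((L ≃ₐ[ℚ] L) ⧸ decompGroup φ)
  rw [cores0Hom_apply]
  refine idele_ext (fun r ψ => congrArg QUnits.toField ?_) fun χ => congrArg CUnits.toField ?_
  · let ev : Idele L →+ QUnits r := AddMonoidHom.mk' (fun a => a.fin r ψ) fun _ _ => rfl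
    show ev (∑ c : (L ≃ₐ[ℚ] L) ⧸ decompGroup φ, c.out • restrictPlaceHom φ (c.out⁻¹ • f)) = _
    rw [map_sum]
    rcases eq_or_ne r q with rfl | hr
    · obtain ⟨g, rfl⟩ := Emb.exists_preComp_eq φ ψ
      have hiff : ∀ c : (L ≃ₐ[ℚ] L) ⧸ decompGroup φ,
          g * c.out ∈ decompGroup φ ↔ c = QuotientGroup.mk g⁻¹ := fun c => by
        rw [eq_comm]
        conv_rhs => rw [← QuotientGroup.out_eq' c, QuotientGroup.eq, inv_inv]
      rw [Finset.sum_eq_single (QuotientGroup.mk g⁻¹ : (L ≃ₐ[ℚ] L) ⧸ decompGroup φ)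
        (fun c _ hc => ?_) fun hc => absurd (Finset.mem_univ _) hc]
      · rw [primePart_fin]
        show (restrictPlace φ _ : Idele L).fin r ((φ.preComp g).preComp _) = _
        rw [← preComp_mul, restrictPlace_apply φ _ ((hiff _).2 rfl)]
        show f.fin r ((φ.preComp (g * _)).preComp _) = _
        rw [← preComp_mul, mul_inv_cancel_right]
      · show (restrictPlace φ _ : Idele L).fin r ((φ.preComp g).preComp c.out) = 0
        rw [← preComp_mul]
        exact localPart_apply_eq_zero (restrictPlace φ _).2 fun hs => hc ((hiff c).1 hs)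
    · rw [primePart_fin_of_ne hr]
      exact Finset.sum_eq_zero fun c _ => localPart_apply_of_ne (restrictPlace φ _).2 hr _
  · let ev : Idele L →+ CUnits := AddMonoidHom.mk' (fun a => a.inf χ) fun _ _ => rfl
    show ev (∑ c : (L ≃ₐ[ℚ] L) ⧸ decompGroup φ, c.out • restrictPlaceHom φ (c.out⁻¹ • f)) = _
    rw [map_sum, primePart_inf]
    exact Finset.sum_eq_zero fun c _ =>
      congrFun (restrictPlace φ (c.out⁻¹ • f)).2.2 (χ.comp (c.out : L →+* L))

open Classical in
/-- Restriction to the archimedean place of `χ`. -/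
noncomputable def restrictInf (χ : L →+* ℂ) : Idele L →+ Idele L :=
  AddMonoidHom.mk' (fun f => singleInf
    (fun ψ => if ψ = χ ∨ ψ = (starRingEnd ℂ).comp χ then f.inf ψ else 0) fun ψ => by
      have hiff : ((starRingEnd ℂ).comp ψ = χ ∨ (starRingEnd ℂ).comp ψ = (starRingEnd ℂ).comp χ) ↔
          (ψ = χ ∨ ψ = (starRingEnd ℂ).comp χ) := by
        constructor <;> rintro (h | h)
        · exact Or.inr (by rw [← h, starRingEnd_comp_comp])
        · exact Or.inl (by rw [← starRingEnd_comp_comp ψ, h, starRingEnd_comp_comp])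
        · exact Or.inr (by rw [h])
        · exact Or.inl (by rw [h, starRingEnd_comp_comp])
      by_cases h : ψ = χ ∨ ψ = (starRingEnd ℂ).comp χ
      · rw [if_pos h, if_pos (hiff.2 h)]
        exact f.2.2.2 ψ
      · rw [if_neg h, if_neg (hiff.not.2 h), map_zero])
    fun a b => idele_ext (fun r _ => congrArg QUnits.toField (zero_add (0 : QUnits r)).symm)
      fun ψ => congrArg CUnits.toField (by
        show _ = (singleInf _ _).inf ψ + (singleInf _ _).inf ψ
        rw [singleInf_apply, singleInf_apply, singleInf_apply]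
        split_ifs
        · rfl
        · rw [add_zero])

open Classical in
theorem restrictInf_inf (χ : L →+* ℂ) (f : Idele L) (ψ : L →+* ℂ) :
    (restrictInf χ f).inf ψ = if ψ = χ ∨ ψ = (starRingEnd ℂ).comp χ then f.inf ψ else 0 := rfl

omit [IsGalois ℚ L] in
theorem comp_mem_orbit {χ ψ : L →+* ℂ} {g : L ≃ₐ[ℚ] L} (hg : g ∈ infDecompGroup χ)
    (h : ψ = χ ∨ ψ = (starRingEnd ℂ).comp χ) :
    ψ.comp (g : L →+* L) = χ ∨ ψ.comp (g : L →+* L) = (starRingEnd ℂ).comp χ := by
  rcases h with rfl | rfl <;> rcases hg with e | e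
  · exact Or.inl e
  · exact Or.inr e
  · exact Or.inr (by rw [RingHom.comp_assoc, e])
  · exact Or.inl (by
      rw [RingHom.comp_assoc, e]
      exact RingHom.ext fun x => Complex.conj_conj _)

theorem restrictInf_smul (χ : L →+* ℂ) :
    ∀ h ∈ infDecompGroup χ, ∀ f, restrictInf χ (h • f) = h • restrictInf χ f := fun h hh f => by
  classical
  refine idele_ext (fun r ψ => rfl) fun ψ => congrArg CUnits.toField ?_
  show (restrictInf χ (h • f)).inf ψ = (restrictInf χ f).inf (ψ.comp (h : L →+* L))
  rw [restrictInf_inf, restrictInf_inf]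
  have hiff : (ψ = χ ∨ ψ = (starRingEnd ℂ).comp χ) ↔
      (ψ.comp (h : L →+* L) = χ ∨ ψ.comp (h : L →+* L) = (starRingEnd ℂ).comp χ) := by
    refine ⟨comp_mem_orbit hh, fun e => ?_⟩
    have := comp_mem_orbit ((infDecompGroup χ).inv_mem hh) e
    rwa [show (ψ.comp (h : L →+* L)).comp ((h⁻¹ : L ≃ₐ[ℚ] L) : L →+* L) = ψ from
      RingHom.ext fun x => congrArg ψ (h.apply_symm_apply x)] at this
  by_cases e : ψ = χ ∨ ψ = (starRingEnd ℂ).comp χ
  · rw [if_pos e, if_pos (hiff.1 e)]
    rfl
  · rw [if_neg e, if_neg (hiff.not.1 e)]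

/-- The part at infinity is corestricted from one place. -/
theorem cores0Hom_restrictInf (χ : L →+* ℂ) (f : Idele L) :
    cores0Hom (A := Idele L) (X := Idele L) (infDecompGroup χ) (restrictInf χ) f =
      infinitePart f := by
  classical
  have := Fintype.ofFinite ((L ≃ₐ[ℚ] L) ⧸ infDecompGroup χ)
  rw [cores0Hom_apply]
  refine idele_ext (fun r ψ => congrArg QUnits.toField ?_) fun ψ => congrArg CUnits.toField ?_
  · let ev : Idele L →+ QUnits r := AddMonoidHom.mk' (fun a => a.fin r ψ) fun _ _ => rfl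
    show ev (∑ c : (L ≃ₐ[ℚ] L) ⧸ infDecompGroup χ, c.out • restrictInf χ (c.out⁻¹ • f)) = _
    rw [map_sum]
    exact Finset.sum_eq_zero fun c _ => rfl
  · let ev : Idele L →+ CUnits := AddMonoidHom.mk' (fun a => a.inf ψ) fun _ _ => rfl
    show ev (∑ c : (L ≃ₐ[ℚ] L) ⧸ infDecompGroup χ, c.out • restrictInf χ (c.out⁻¹ • f)) = _
    rw [map_sum]
    obtain ⟨g, rfl⟩ := exists_comp_eq_inf χ ψ
    have hiff : ∀ c : (L ≃ₐ[ℚ] L) ⧸ infDecompGroup χ,
        g * c.out ∈ infDecompGroup χ ↔ c = QuotientGroup.mk g⁻¹ := fun c => by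
      rw [eq_comm]
      conv_rhs => rw [← QuotientGroup.out_eq' c, QuotientGroup.eq, inv_inv]
    have hterm : ∀ c : (L ≃ₐ[ℚ] L) ⧸ infDecompGroup χ,
        ev (c.out • restrictInf χ (c.out⁻¹ • f)) =
          if g * c.out ∈ infDecompGroup χ then f.inf (χ.comp (g : L →+* L)) else 0 := fun c => by
      show (restrictInf χ _).inf ((χ.comp (g : L →+* L)).comp (c.out : L →+* L)) = _
      rw [restrictInf_inf]
      have hc : (χ.comp (g : L →+* L)).comp (c.out : L →+* L) =
          χ.comp ((g * c.out : L ≃ₐ[ℚ] L) : L →+* L) := rfl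
      have hmem : ((χ.comp (g : L →+* L)).comp (c.out : L →+* L) = χ ∨
          (χ.comp (g : L →+* L)).comp (c.out : L →+* L) = (starRingEnd ℂ).comp χ) ↔
          g * c.out ∈ infDecompGroup χ := by rw [hc]; exact Iff.rfl
      by_cases hm : g * c.out ∈ infDecompGroup χ
      · rw [if_pos hm, if_pos (hmem.2 hm)]
        show f.inf (((χ.comp (g : L →+* L)).comp (c.out : L →+* L)).comp
          ((c.out⁻¹ : L ≃ₐ[ℚ] L) : L →+* L)) = _
        exact congrArg _ (RingHom.ext fun x =>
          congrArg (fun y => χ (g y)) (c.out.apply_symm_apply x))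
      · rw [if_neg hm, if_neg fun e => hm (hmem.1 e)]
    simp only [hterm, hiff, Finset.sum_ite_eq', Finset.mem_univ, if_true, infinitePart_inf]

variable {p : ℕ} [Fact p.Prime]

/-- A local class vanishing globally up to prime-to-`p` torsion vanishes up to prime-to-`p`
torsion. -/
theorem localPart_mem_satB2 (φ : Emb L q) {z : decompGroup φ × decompGroup φ → localPart φ}
    (hz : z ∈ Z2 (decompGroup φ) (localPart φ))
    (h : (fun t => (QuotientAddGroup.mk (z t : Idele L) : IdeleClass L)) ∈
      satB2 (decompGroup φ) (IdeleClass L) p) :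
    z ∈ satB2 (decompGroup φ) (localPart φ) p := by
  classical
  let P : Sylow p (decompGroup φ) := default
  let e : (P : Subgroup (decompGroup φ)) ≃*
      (P : Subgroup (decompGroup φ)).map (decompGroup φ).subtype :=
    (P : Subgroup (decompGroup φ)).equivMapOfInjective _ Subtype.val_injective
  let H := (P : Subgroup (decompGroup φ)).map (decompGroup φ).subtype
  have hHp : IsPGroup p H := P.isPGroup'.map _
  have hHD : H ≤ decompGroup φ := by
    rintro _ ⟨x, -, rfl⟩
    exact x.2
  have hec : ∀ x : H, (((e.symm x : decompGroup φ)) : L ≃ₐ[ℚ] L) = (x : L ≃ₐ[ℚ] L) := fun x => by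
    conv_rhs => rw [← e.apply_symm_apply x]
    rfl
  let f : H × H → Idele L := fun t => (z ((e.symm t.1 : decompGroup φ), (e.symm t.2 : decompGroup φ)))
  have hf : f ∈ Z2 H (Idele L) := by
    refine mem_Z2_iff.2 fun a b c => ?_
    have := congrArg (fun x : localPart φ => (x : Idele L))
      (mem_Z2_iff.1 hz (e.symm a : decompGroup φ) (e.symm b : decompGroup φ) (e.symm c : decompGroup φ))
    simp only [← Subgroup.coe_mul, ← map_mul] at this
    change ((e.symm a : decompGroup φ) : L ≃ₐ[ℚ] L) • _ + _ = _ at this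
    rw [hec a] at this
    exact this
  have hfc : (fun t => (QuotientAddGroup.mk (f t) : IdeleClass L)) ∈ B2 H (IdeleClass L) := by
    obtain ⟨k, hk⟩ := IsPGroup.iff_card.1 hHp
    have hZ : (fun t => (QuotientAddGroup.mk (f t) : IdeleClass L)) ∈ Z2 H (IdeleClass L) :=
      mem_Z2_iff.2 fun a b c => congrArg (QuotientAddGroup.mk : Idele L → IdeleClass L)
        (mem_Z2_iff.1 hf a b c)
    refine mem_B2_of_satB2 (p := p) (k := k) (hk ▸ card_smul_mem_B2 hZ) ?_
    obtain ⟨m, hm, hB⟩ := h
    obtain ⟨b, hb⟩ := mem_B2_iff.1 hB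
    refine ⟨m, hm, mem_B2_iff.2 ⟨fun x => b (e.symm x : decompGroup φ), fun x y => ?_⟩⟩
    refine (hb (e.symm x : decompGroup φ) (e.symm y : decompGroup φ)).trans ?_
    show ((e.symm x : decompGroup φ) : L ≃ₐ[ℚ] L) • b _ - _ + _ =
      x • b (e.symm y : decompGroup φ) - b (e.symm (x * y) : decompGroup φ) + _
    rw [map_mul]
    rw [hec x]
    rfl
  obtain ⟨b, hbval, hb⟩ :=
    localPart_h2_injective (p := p) L φ H hHD hHp hf (fun t => (z _).2) hfc
  refine ⟨(P : Subgroup (decompGroup φ)).index, P.not_dvd_index,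
    index_smul_mem_B2 _ hz (mem_B2_iff.2 ⟨fun x => ⟨b (e x), hbval _⟩, fun x y => Subtype.ext ?_⟩)⟩
  have := congrFun hb (e x, e y)
  rw [d1_apply] at this
  simp only [f, MulEquiv.symm_apply_apply, ← map_mul] at this
  exact this.symm

end FermatLib.CFT.S55Orth
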