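import Fermat.Agent.CFT.S55Sha2Defs
import Fermat.Agent.CFT.DualInstance
import Fermat.Agent.CFT.DualityOrth
import Fermat.Agent.CFT.DualityNondeg

/-!
The duality pairing on maps of the relation lattice into idele classes, without lifting from classes
modulo units: it only needs the duality axioms at the level.
-/

set_option autoImplicit false

open NumberField

namespace FermatLib.CFT.S55

open FermatLib.CFT

variable {p : ℕ} [Fact p.Prime] {Γ G : Type*} [Group Γ] [Finite Γ] [Group G] [Fintype G]
  {C C₀ : Type*} [AddCommGroup C] [AddCommGroup C₀] [DistribMulAction Γ C]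
  [DistribMulAction G C₀] {π : Γ →* G} {bc : C₀ →+ C} {U₀ : AddSubgroup C₀}
  {ι : Type*} [Fintype ι] {V : Type*} [AddCommGroup V] [DistribMulAction G V] {v : ι → V}
  (hL : IsDualLevel p π bc U₀) (hpV : ∀ x : V, p • x = 0)
  (hv : Function.Surjective (presMap (G := G) v)) (inv : classesKilled p Γ C →+ ZMod p)

/-- The value of the pairing on a map and a cocycle. -/
noncomputable def pairVal (h : equivHom G (presKer (G := G) v) C₀) (w : piZ1 π V) : ZMod p :=
  inv ⟨pairCocycle bc (h : presKer (G := G) v →+ C₀)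
      (Classical.choose (exists_isConnecting π hv w.2)),
    pairCocycle_mem_killed hL hpV h.2 (Classical.choose_spec (exists_isConnecting π hv w.2))⟩

variable (hinv : ∀ f : classesKilled p Γ C, inv f = 0 ↔ (f : Γ × Γ → C) ∈ B2 Γ C)

include hinv in
omit [Finite Γ] in
/-- The value may be computed with any connecting cochain. -/
theorem pairVal_eq (h : equivHom G (presKer (G := G) v) C₀) (w : piZ1 π V)
    {ξ : Γ × Γ → presKer (G := G) v} (hξ : IsConnecting π v (w : Γ → V) ξ) :
    pairVal hL hpV hv inv h w = inv ⟨pairCocycle bc (h : presKer (G := G) v →+ C₀) ξ,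
      pairCocycle_mem_killed hL hpV h.2 hξ⟩ := by
  rw [pairVal, ← sub_eq_zero, ← map_sub, hinv]
  have hξ₀ := Classical.choose_spec (exists_isConnecting π hv w.2)
  obtain ⟨a, ha, ha'⟩ := hξ
  have hneg : IsConnecting π v (-(w : Γ → V)) (-ξ) :=
    ⟨-a, fun s => by simp [ha], fun s t => by
      rw [Pi.neg_apply, AddSubgroup.coe_neg, ha']
      simp only [Pi.neg_apply, smul_neg]
      abel⟩
  have hsum := isConnecting_add hξ₀ hneg
  rw [add_neg_cancel] at hsum
  convert pairCocycle_coboundary_mem_B2 hL h.2 hv (zero_mem _) hsum using 1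
  funext t
  simp [pairCocycle, sub_eq_add_neg]

include hinv in
omit [Finite Γ] in
theorem pairVal_eq_zero_iff (h : equivHom G (presKer (G := G) v) C₀) (w : piZ1 π V)
    {ξ : Γ × Γ → presKer (G := G) v} (hξ : IsConnecting π v (w : Γ → V) ξ) :
    pairVal hL hpV hv inv h w = 0 ↔
      pairCocycle bc (h : presKer (G := G) v →+ C₀) ξ ∈ B2 Γ C := by
  rw [pairVal_eq hL hpV hv inv hinv h w hξ, hinv]

omit [Finite Γ] in
theorem pairVal_add_left (h h' : equivHom G (presKer (G := G) v) C₀) (w : piZ1 π V) :
    pairVal hL hpV hv inv (h + h') w = pairVal hL hpV hv inv h w + pairVal hL hpV hv inv h' w := by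
  rw [pairVal, pairVal, pairVal, ← map_add]
  refine congrArg inv (Subtype.ext (funext fun t => ?_))
  simp [pairCocycle]

include hinv in
omit [Finite Γ] in
theorem pairVal_add_right (h : equivHom G (presKer (G := G) v) C₀) (w w' : piZ1 π V) :
    pairVal hL hpV hv inv h (w + w') =
      pairVal hL hpV hv inv h w + pairVal hL hpV hv inv h w' := by
  obtain ⟨ξ, hξ⟩ := exists_isConnecting π hv w.2
  obtain ⟨ξ', hξ'⟩ := exists_isConnecting π hv w'.2
  have hs : IsConnecting π v ((w + w' : piZ1 π V) : Γ → V) (ξ + ξ') := isConnecting_add hξ hξ'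
  rw [pairVal_eq hL hpV hv inv hinv h _ hs, pairVal_eq hL hpV hv inv hinv h _ hξ,
    pairVal_eq hL hpV hv inv hinv h _ hξ', ← map_add]
  refine congrArg inv (Subtype.ext (funext fun t => ?_))
  simp [pairCocycle]

/-- The pairing of maps with classes. -/
noncomputable def pairHom :
    equivHom G (presKer (G := G) v) C₀ →+ (piH1 π V →+ ZMod p) :=
  AddMonoidHom.mk' (fun h => QuotientAddGroup.lift _
      (AddMonoidHom.mk' (pairVal hL hpV hv inv h) (pairVal_add_right hL hpV hv inv hinv h))
      fun w hw => (hinv _).2 (pairCocycle_coboundary_mem_B2 hL h.2 hv hw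
        (Classical.choose_spec (exists_isConnecting π hv w.2))))
    fun h h' => AddMonoidHom.ext fun c => by
      induction c using QuotientAddGroup.induction_on with
      | H w => exact pairVal_add_left hL hpV hv inv h h' w

/-- A class pairing to zero with all maps is zero. -/
theorem pairHom_right (c : piH1 π V) (hc : ∀ h, pairHom hL hpV hv inv hinv h c = 0) : c = 0 := by
  induction c using QuotientAddGroup.induction_on with
  | H w =>
    obtain ⟨ξ, hξ⟩ := exists_isConnecting π hv w.2
    refine (QuotientAddGroup.eq_zero_iff _).2 (hL.mem_piB1_of_pairing hpV hξ fun h hh => ?_)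
    exact (pairVal_eq_zero_iff hL hpV hv inv hinv ⟨h, hh⟩ w hξ).1 (hc ⟨h, hh⟩)

/-- A map pairing to zero with all classes extends to the presentation up to units. -/
theorem pairHom_left (h : equivHom G (presKer (G := G) v) C₀)
    (hh : ∀ c, pairHom hL hpV hv inv hinv h c = 0) :
    h ∈ (presRestr G C₀ v).range ⊔ Duality.valuesIn v U₀ := by
  obtain ⟨F, hF, hFU⟩ := hL.exists_extension hpV h.2 fun w ξ hw hξ =>
    (pairVal_eq_zero_iff hL hpV hv inv hinv h ⟨w, hw⟩ hξ).1 (hh (QuotientAddGroup.mk ⟨w, hw⟩))
  refine AddSubgroup.mem_sup.2 ⟨presRestr G C₀ v ⟨F, hF⟩, ⟨_, rfl⟩,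
    h - presRestr G C₀ v ⟨F, hF⟩, fun x => hFU x, ?_⟩
  exact add_sub_cancel _ _

/-- A subgroup of maps containing the trivial ones has as index the number of classes orthogonal
to it. -/
theorem finite_and_natCard_quotient [Finite V]
    (Y : AddSubgroup (equivHom G (presKer (G := G) v) C₀))
    (hY : (presRestr G C₀ v).range ⊔ Duality.valuesIn v U₀ ≤ Y) :
    Finite (equivHom G (presKer (G := G) v) C₀ ⧸ Y) ∧
      Nat.card (equivHom G (presKer (G := G) v) C₀ ⧸ Y) =
        Nat.card (Duality.pairingOrth (pairHom hL hpV hv inv hinv) Y) :=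
  Duality.finite_and_card_quotient_eq_card_orth (pairHom hL hpV hv inv hinv)
    (pairHom_right hL hpV hv inv hinv) Y fun a ha => hY (pairHom_left hL hpV hv inv hinv a ha)

end FermatLib.CFT.S55
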