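import Fermat.Agent.CFT.S55Sha1Loc
import Fermat.Agent.CFT.S55LocalOrth

/-!
`Ш¹` of the dual twist is counted by the maps of the relation lattice into idele classes modulo
relations: the classes orthogonal to the relations are those trivial at `S` and infinity.
-/

set_option autoImplicit false

open CategoryTheory Module groupCohomology ExtCitation NumberField

namespace FermatLib.CFT.S55

open FermatLib.CFT FermatLib.CFT.GWKummer

local notation "Γℚ" => AlgebraicClosure ℚ ≃ₐ[ℚ] AlgebraicClosure ℚ

variable {p : ℕ} [Fact p.Prime] {M : Rep (ZMod p) Γℚ} {S : Finset Nat.Primes}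
  (D : Level (M.dualTwist (cycloChar p)) S) {ι : Type} [Fintype ι] (v : ι → D.Mod)

/-- The class map of an equivariant map into ideles, as a map of the relation lattice. -/
noncomputable def classLattice
    (l : equivHom D.Gal (presKer (G := D.Gal) v) (Idele D.field)) : latticeMaps D v :=
  ⟨(QuotientAddGroup.mk' (principalIdeles D.field)).comp
      (l : presKer (G := D.Gal) v →+ Idele D.field),
    fun g x => congrArg (QuotientAddGroup.mk' (principalIdeles D.field)) (l.2 g x)⟩

omit [Fintype ι] in
theorem coe_classLattice [Fintype ι]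
    (l : equivHom D.Gal (presKer (G := D.Gal) v) (Idele D.field)) :
    (classLattice D v l : presKer (G := D.Gal) v →+ IdeleClass D.field) =
      (QuotientAddGroup.mk' (principalIdeles D.field)).comp
        (l : presKer (G := D.Gal) v →+ Idele D.field) := rfl

theorem classLattice_mem_shaRelations
    (l : equivHom D.Gal (presKer (G := D.Gal) v) (Idele D.field))
    (hl : ∀ x, (l : presKer (G := D.Gal) v →+ Idele D.field) x ∈
      sIdeles D.field (S : Set Nat.Primes)) : classLattice D v l ∈ shaRelations D v :=
  AddSubgroup.mem_sup_right ⟨l, hl, fun _ => rfl⟩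

variable {F' : IntermediateField ℚ (AlgebraicClosure ℚ)} [NumberField F'] [IsGalois ℚ F']
  {h : D.field ≤ F'}
  {ξ : (F' ≃ₐ[ℚ] F') × (F' ≃ₐ[ℚ] F') → presKer (G := D.Gal) v}

/-- A class is orthogonal to the relations when it is trivial on the decomposition groups at `S`. -/
theorem orth_shaRelations_iff (hp2 : p ≠ 2) (hE : IsExponentLevel p S D.field F' h)
    (hv : Function.Surjective (presMap (G := D.Gal) v)) (c : piZ1 (galRes h) D.Mod)
    (hξ : IsConnecting (galRes h) v (c : (F' ≃ₐ[ℚ] F') → D.Mod) ξ) :
    (QuotientAddGroup.mk c : piH1 (galRes h) D.Mod) ∈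
        Duality.pairingOrth (levelPair D v hE le_rfl hE.unramified hv) (shaRelations D v) ↔
      ∀ q ∈ S, ∃ a : D.Mod, ∀ s ∈ decompGroup (stdEmb F' q),
        (c : (F' ≃ₐ[ℚ] F') → D.Mod) s = galRes h s • a - a := by
  constructor
  · intro horth q hq
    refine S55Orth.coboundary_of_pairCocycle_mem_B2 (S := S) h D.nsmul_mod hξ hq (stdEmb F' q)
      fun hh hS => ?_
    have h0 := (levelPair_eq_zero_iff D v hE le_rfl hE.unramified hv (classLattice D v hh) c hξ).1
      (horth _ (classLattice_mem_shaRelations D v hh hS))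
    rw [coe_classLattice] at h0
    exact h0
  · intro hloc a ha
    obtain ⟨r, hr, s, ⟨l, hl, hls⟩, rfl⟩ := AddSubgroup.mem_sup.1 ha
    have hr' : r ∈ trivialMaps D v := AddSubgroup.mem_sup_left hr
    rw [map_add, AddMonoidHom.add_apply,
      levelPair_eq_zero_of_mem D v hE le_rfl hE.unramified hv hr', zero_add]
    have hs : s = classLattice D v l :=
      Subtype.ext (AddMonoidHom.ext fun x => (hls x).symm)
    refine (levelPair_eq_zero_iff D v hE le_rfl hE.unramified hv s c hξ).2 ?_
    rw [hs, coe_classLattice]
    exact S55Orth.pairCocycle_mem_B2_of_locallyTrivial h hp2 hE.unramified hv D.nsmul_mod c.2 hξ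
      (fun q hq => ⟨stdEmb F' q, hloc q hq⟩) l hl

variable [FiniteDimensional (ZMod p) M]

/-- The classes of the dual twist unramified outside `S` and trivial at `S` and infinity are as
many as the maps of the relation lattice modulo relations, and these are finitely many. -/
theorem natCard_sha₁_eq (hp2 : p ≠ 2) (hpS : pPrime p ∈ S)
    (hv : Function.Surjective (presMap (G := D.Gal) v)) :
    Finite (latticeMaps D v ⧸ shaRelations D v) ∧
      Nat.card (sha₁ S (M.dualTwist (cycloChar p))) =
        Nat.card (latticeMaps D v ⧸ shaRelations D v) := by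
  obtain ⟨F', hnf, hgal, h, hE⟩ := exists_isExponentLevel_level D hpS
  obtain ⟨hfin, hcard⟩ := natCard_quotient_shaRelations D v hE hv
  refine ⟨hfin, ?_⟩
  rw [hcard]
  have hK : ∀ x : piH1 (galRes h) D.Mod,
      levelClass D.toMod (toMod_ρ D) h x ∈ sha₁ S (M.dualTwist (cycloChar p)) ↔
      x ∈ Duality.pairingOrth (levelPair D v hE le_rfl hE.unramified hv) (shaRelations D v) := by
    intro x
    induction x using QuotientAddGroup.induction_on with
    | H c =>
      obtain ⟨ξ, hξ⟩ := exists_isConnecting (galRes h) hv c.2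
      rw [orth_shaRelations_iff D v hp2 hE hv c hξ, ← levelClass_mem_ker_iff D hp2 c]
      exact ⟨fun hx => hx.2, fun hx =>
        ⟨levelClass_mem_continuousH1S _ _ h ((isUnramifiedOutside_iff F' S).2 hE.unramified) _, hx⟩⟩
  refine (Nat.card_congr (Equiv.ofBijective
    (fun x : Duality.pairingOrth (levelPair D v hE le_rfl hE.unramified hv) (shaRelations D v) =>
      (⟨levelClass D.toMod (toMod_ρ D) h x.1, (hK x.1).2 x.2⟩ :
        sha₁ S (M.dualTwist (cycloChar p)))) ⟨?_, ?_⟩)).symm
  · exact fun a b hab =>
      Subtype.ext (levelClass_injective _ _ h (congrArg Subtype.val hab :))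
  · rintro ⟨y, hy⟩
    have hy' : y ∈ (levelClass D.toMod (toMod_ρ D) h).range := by
      rw [← continuousH1S_eq_range_level D v hE hv]
      exact hy.1
    obtain ⟨x, rfl⟩ := hy'
    exact ⟨⟨x, (hK x).1 hy⟩, rfl⟩

end FermatLib.CFT.S55
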