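import Fermat.Agent.CFT.S55Pairing
import Fermat.Agent.CFT.DualGlobal
import Fermat.Agent.CFT.DualClasses

/-!
The classes of the dual twist unramified outside `S` as first cohomology of the class field of
exponent `p`, and their count by maps of the relation lattice.
-/

set_option autoImplicit false

open CategoryTheory Module groupCohomology ExtCitation NumberField

namespace FermatLib.CFT.S55

open FermatLib.CFT FermatLib.CFT.GWKummer

local notation "Γℚ" => AlgebraicClosure ℚ ≃ₐ[ℚ] AlgebraicClosure ℚ
local notation "Qbar" => AlgebraicClosure ℚ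

variable {p : ℕ} [Fact p.Prime] {M : Rep (ZMod p) Γℚ} {S : Finset Nat.Primes}
  [FiniteDimensional (ZMod p) M]
  (D : Level (M.dualTwist (cycloChar p)) S) {ι : Type} [Fintype ι] (v : ι → D.Mod)

instance finite_dualMod : Finite D.Mod :=
  haveI : FiniteDimensional (ZMod p) (M.dualTwist (cycloChar p)) :=
    inferInstanceAs (FiniteDimensional (ZMod p) (Module.Dual (ZMod p) M))
  inferInstance

omit [FiniteDimensional (ZMod p) M] [Fintype ι] in
theorem toMod_ρ (s : Γℚ) (x : (M.dualTwist (cycloChar p))) :
    D.toMod ((M.dualTwist (cycloChar p)).ρ s x) = resLevel D.field s • D.toMod x :=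
  (D.res_smul s x).symm

/-- The maps which pair to zero with all classes: extendable ones and those with unit values. -/
noncomputable def trivialMaps : AddSubgroup (latticeMaps D v) :=
  (presRestr D.Gal (IdeleClass D.field) v).range ⊔
    Duality.valuesIn v (unitClassesOutside D.field (S : Set Nat.Primes))

omit [FiniteDimensional (ZMod p) M] in
/-- Trivial maps are relations. -/
theorem trivialMaps_le_shaRelations : trivialMaps D v ≤ shaRelations D v := by
  refine sup_le le_sup_left fun a ha => ?_
  refine le_sup_right (a := (presRestr D.Gal (IdeleClass D.field) v).range) ?_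
  choose u hu hua using fun x => AddSubgroup.mem_map.1 (ha x)
  have huniq : ∀ {s t : Idele D.field}, s ∈ unitIdelesOutside D.field (S : Set Nat.Primes) →
      t ∈ unitIdelesOutside D.field (S : Set Nat.Primes) →
      (QuotientAddGroup.mk s : IdeleClass D.field) = QuotientAddGroup.mk t → s = t :=
    fun {s t} hs ht he => sub_eq_zero.1 (eq_zero_of_mem_principal_of_inf
      ((QuotientAddGroup.eq_zero_iff _).1 (by rw [QuotientAddGroup.mk_sub, he, sub_self]))
      (sub_mem hs ht).2)
  have hu' : ∀ x, (QuotientAddGroup.mk (u x) : IdeleClass D.field) =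
      (a : presKer (G := D.Gal) v →+ IdeleClass D.field) x := hua
  refine ⟨⟨AddMonoidHom.mk' u fun x y => huniq (hu _) (add_mem (hu x) (hu y)) (by
    rw [QuotientAddGroup.mk_add, hu', hu', hu', map_add]), fun g x => huniq (hu _)
      (unitIdelesOutside_smul_mem D.field _ g (hu x)) (by
    show (QuotientAddGroup.mk (u (g • x)) : IdeleClass D.field) =
      g • (QuotientAddGroup.mk (u x) : IdeleClass D.field)
    rw [hu', hu', a.2])⟩, fun x q _ φ => ((hu x).1 q φ).1, hu'⟩

variable {F' F'' : IntermediateField ℚ (AlgebraicClosure ℚ)} [NumberField F'] [NumberField F'']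
  [IsGalois ℚ F'] [IsGalois ℚ F''] {h : D.field ≤ F'}
  (hE : IsExponentLevel p S D.field F' h) (h' : F' ≤ F'')
  (hur : ∀ q ∉ S, IsUnramifiedAtRel (⊤ : Subgroup (F'' ≃ₐ[ℚ] F'')) q)
  (hv : Function.Surjective (presMap (G := D.Gal) v))

/-- The pairing at a field over the class field. -/
noncomputable def levelPair :
    latticeMaps D v →+ (piH1 (galRes (h.trans h')) D.Mod →+ ZMod p) :=
  pairHom (hE.isDualLevel h' hur) D.nsmul_mod hv (globalInv p F'')
    (globalInv_eq_zero_iff p F'')

omit [FiniteDimensional (ZMod p) M] in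
theorem levelPair_eq_zero_iff (a : latticeMaps D v)
    (w : piZ1 (galRes (h.trans h')) D.Mod)
    {ξ : (F'' ≃ₐ[ℚ] F'') × (F'' ≃ₐ[ℚ] F'') → presKer (G := D.Gal) v}
    (hξ : IsConnecting (galRes (h.trans h')) v (w : (F'' ≃ₐ[ℚ] F'') → D.Mod) ξ) :
    levelPair D v hE h' hur hv a (QuotientAddGroup.mk w) = 0 ↔
      pairCocycle (classLe (h.trans h')) (a : presKer (G := D.Gal) v →+ IdeleClass D.field) ξ ∈
        B2 (F'' ≃ₐ[ℚ] F'') (IdeleClass F'') :=
  pairVal_eq_zero_iff (hE.isDualLevel h' hur) D.nsmul_mod hv _ (globalInv_eq_zero_iff p F'') a w hξ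

omit [FiniteDimensional (ZMod p) M] in
/-- Trivial maps pair to zero. -/
theorem levelPair_eq_zero_of_mem {a : latticeMaps D v} (ha : a ∈ trivialMaps D v)
    (c : piH1 (galRes (h.trans h')) D.Mod) : levelPair D v hE h' hur hv a c = 0 := by
  obtain ⟨_, ⟨F, rfl⟩, u, hu, rfl⟩ := AddSubgroup.mem_sup.1 ha
  induction c using QuotientAddGroup.induction_on with
  | H w =>
    obtain ⟨ξ, hξ⟩ := exists_isConnecting (galRes (h.trans h')) hv w.2
    rw [map_add, AddMonoidHom.add_apply,
      (levelPair_eq_zero_iff D v hE h' hur hv _ w hξ).2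
        (pairCocycle_restrict_mem_B2 (hE.isDualLevel h' hur) F.2 hξ),
      (levelPair_eq_zero_iff D v hE h' hur hv _ w hξ).2
        (pairCocycle_units_mem_B2 (hE.isDualLevel h' hur) D.nsmul_mod u.2 hu hξ), add_zero]

include hE h' hur hv in
/-- All fields over the class field have as many classes as there are maps modulo trivial ones. -/
theorem natCard_piH1_level :
    Finite (piH1 (galRes (h.trans h')) D.Mod) ∧
      Nat.card (piH1 (galRes (h.trans h')) D.Mod) =
        Nat.card (latticeMaps D v ⧸ trivialMaps D v) := by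
  refine ⟨inferInstance, ?_⟩
  have h1 := (finite_and_natCard_quotient (hE.isDualLevel h' hur) D.nsmul_mod hv (globalInv p F'')
    (globalInv_eq_zero_iff p F'') (trivialMaps D v) le_rfl).2
  have htop : Duality.pairingOrth (levelPair D v hE h' hur hv) (trivialMaps D v) = ⊤ :=
    eq_top_iff.2 fun c _ a ha => levelPair_eq_zero_of_mem D v hE h' hur hv ha c
  rw [h1]
  show _ = Nat.card (Duality.pairingOrth (levelPair D v hE h' hur hv) (trivialMaps D v))
  rw [htop]
  exact (Nat.card_congr AddSubgroup.topEquiv.toEquiv).symm

include hE hv in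
/-- At the class field, every class unramified outside `S` is seen. -/
theorem continuousH1S_eq_range_level :
    (continuousH1S S (M.dualTwist (cycloChar p))).toAddSubgroup =
      (levelClass D.toMod (toMod_ρ D) h).range := by
  haveI : Finite (piH1 (galRes h) D.Mod) :=
    (natCard_piH1_level D v hE le_rfl hE.unramified hv).1
  refine (continuousH1S_eq_range_levelClass D.toMod (toMod_ρ D) h
    ((isUnramifiedOutside_iff F' S).2 hE.unramified) fun F hF hle hFur => ?_).1
  haveI := hFur.1
  haveI : NumberField F := ⟨⟩
  obtain ⟨h1, h2⟩ := natCard_piH1_level D v hE hle ((isUnramifiedOutside_iff F S).1 hFur) hv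
  exact ⟨h1, h2.trans (natCard_piH1_level D v hE le_rfl hE.unramified hv).2.symm⟩

include hE hv in
/-- The maps modulo relations are finite and as many as the classes at the class field orthogonal
to the relations. -/
theorem natCard_quotient_shaRelations :
    Finite (latticeMaps D v ⧸ shaRelations D v) ∧
      Nat.card (latticeMaps D v ⧸ shaRelations D v) =
        Nat.card (Duality.pairingOrth (levelPair D v hE le_rfl hE.unramified hv)
          (shaRelations D v)) :=
  finite_and_natCard_quotient (hE.isDualLevel le_rfl hE.unramified) D.nsmul_mod hv (globalInv p F')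
    (globalInv_eq_zero_iff p F') (shaRelations D v) (trivialMaps_le_shaRelations D v)

end FermatLib.CFT.S55
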