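import Fermat.Agent.CFT.S55Sha1Levels
import Fermat.Agent.CFT.GWInfAlg
import Fermat.Agent.CFT.IdeleBridge

/-!
An inflated class is trivial at `S` and at infinity when it is trivial on the decomposition groups
at `S` of the level.
-/

set_option autoImplicit false

open CategoryTheory Module groupCohomology ExtCitation NumberField

namespace FermatLib.CFT.S55

open FermatLib.CFT FermatLib.CFT.GWKummer

local notation "Γℚ" => AlgebraicClosure ℚ ≃ₐ[ℚ] AlgebraicClosure ℚ
local notation "Qbar" => AlgebraicClosure ℚ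

variable {p : ℕ} [Fact p.Prime] {M : Rep (ZMod p) Γℚ} {S : Finset Nat.Primes}
  (D : Level (M.dualTwist (cycloChar p)) S)
  {F' : IntermediateField ℚ (AlgebraicClosure ℚ)} [IsGalois ℚ F'] {h : D.field ≤ F'}

theorem two_ne_zero_zmod (hp2 : p ≠ 2) : (2 : ZMod p) ≠ 0 := by
  intro h0
  have h1 : ((2 : ℕ) : ZMod p) = 0 := by rw [Nat.cast_ofNat]; exact h0
  exact hp2 ((Nat.prime_dvd_prime_iff_eq Fact.out Nat.prime_two).1
    ((ZMod.natCast_eq_zero_iff 2 p).1 h1))

/-- Crossed homomorphisms on the decomposition group at infinity are coboundaries for odd `p`. -/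
theorem exists_coboundary_archimedean (hp2 : p ≠ 2) {N : Rep (ZMod p) Γℚ} (f : cocycles₁ N) :
    ∃ a : N, ∀ τ : ↥archimedeanDecomposition, N.ρ (τ : Γℚ) a - a = (f : Γℚ → N) (τ : Γℚ) := by
  have hc := (mem_cocycles₁_iff (f : Γℚ → N)).1 f.2
  have h1 : (f : Γℚ → N) 1 = 0 := cocycles₁_map_one f
  set x : N := (f : Γℚ → N) complexConjugation with hx
  have hgen : N.ρ complexConjugation x = -x := by
    have := hc complexConjugation complexConjugation
    rw [complexConjugation_mul_self, h1] at this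
    exact eq_neg_of_add_eq_zero_left this.symm
  refine ⟨(-(2 : ZMod p)⁻¹) • x, fun τ => ?_⟩
  rcases GWInf.eq_one_or_gen τ with rfl | rfl
  · show N.ρ 1 _ - _ = (f : Γℚ → N) 1
    rw [h1, map_one]
    exact sub_self _
  · show N.ρ complexConjugation _ - _ = x
    rw [map_smul, hgen, smul_neg, ← neg_smul, neg_neg, ← sub_smul, sub_neg_eq_add]
    have h2 : (2 : ZMod p)⁻¹ + (2 : ZMod p)⁻¹ = 1 := by
      rw [← two_mul, mul_inv_cancel₀ (two_ne_zero_zmod hp2)]
    rw [h2, one_smul]

/-- An inflated class is trivial at `S` and at infinity when it is trivial on the decomposition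
groups at `S`. -/
theorem levelClass_mem_ker_iff [NumberField F'] (hp2 : p ≠ 2) (c : piZ1 (galRes h) D.Mod) :
    levelClass D.toMod (toMod_ρ D) h (QuotientAddGroup.mk c) ∈
        LinearMap.ker (locTotal (extArithLoc S) (M.dualTwist (cycloChar p))) ↔
      ∀ q ∈ S, ∃ a : D.Mod, ∀ s ∈ decompGroup (stdEmb F' q),
        (c : (F' ≃ₐ[ℚ] F') → D.Mod) s = galRes h s • a - a := by
  have key : ∀ loc, (groupCohomology.locRes (extArithLoc S) (M.dualTwist (cycloChar p)) loc).hom
        (levelClass D.toMod (toMod_ρ D) h (QuotientAddGroup.mk c)) = 0 ↔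
      ∃ a : (M.dualTwist (cycloChar p)), ∀ τ,
        (M.dualTwist (cycloChar p)).ρ (extArithLoc S loc τ) a - a =
          D.toMod.symm ((c : (F' ≃ₐ[ℚ] F') → D.Mod) (resLevel F' (extArithLoc S loc τ))) := by
    intro loc
    rw [levelClass_mk, show (groupCohomology.locRes (extArithLoc S) (M.dualTwist (cycloChar p))
      loc).hom ((H1π _).hom (levelCocycle D.toMod (toMod_ρ D) h c)) = _ from
        H1π_comp_map_apply (extArithLoc S loc) (𝟙 _) _, ← map_zero (H1π _).hom, H1π_eq_iff]
    refine exists_congr fun a => ?_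
    rw [funext_iff]
    refine forall_congr' fun τ => ?_
    rw [d₀₁_hom_apply]
    exact Eq.congr rfl (sub_zero _)
  rw [LinearMap.mem_ker, funext_iff]
  refine ⟨fun H q hq => ?_, fun H loc => (key loc).2 ?_⟩
  · obtain ⟨a, ha⟩ := (key (Sum.inr ⟨q, hq⟩)).1 (H (Sum.inr ⟨q, hq⟩))
    refine ⟨D.toMod a, fun s hs => ?_⟩
    obtain ⟨τ, hτ⟩ := (mem_decompGroup_stdEmb_iff F' s).1 hs
    have hs' : resLevel F' (primeLocalToGlobal q τ) = s :=
      AlgEquiv.ext fun x => Subtype.ext ((coe_resLevel F' _ x).trans (hτ x).symm)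
    have h1 : (M.dualTwist (cycloChar p)).ρ (primeLocalToGlobal q τ) a - a =
        D.toMod.symm ((c : (F' ≃ₐ[ℚ] F') → D.Mod) (resLevel F' (primeLocalToGlobal q τ))) := ha τ
    rw [hs'] at h1
    rw [← D.toMod.apply_symm_apply ((c : (F' ≃ₐ[ℚ] F') → D.Mod) s), ← h1, map_sub, toMod_ρ,
      ← galRes_resLevel h, hs']
  · rcases loc with u | ⟨q, hq⟩
    · obtain ⟨a, ha⟩ := exists_coboundary_archimedean hp2 (levelCocycle D.toMod (toMod_ρ D) h c)
      exact ⟨a, fun τ => ha τ⟩
    · obtain ⟨a, ha⟩ := H q hq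
      refine ⟨D.toMod.symm a, fun τ => ?_⟩
      have hmem : resLevel F' (primeLocalToGlobal q τ) ∈ decompGroup (stdEmb F' q) :=
        (mem_decompGroup_stdEmb_iff F' _).2 ⟨τ, fun x => coe_resLevel F' _ x⟩
      refine D.toMod.injective ?_
      show D.toMod ((M.dualTwist (cycloChar p)).ρ (primeLocalToGlobal q τ) (D.toMod.symm a) -
        D.toMod.symm a) = D.toMod (D.toMod.symm _)
      rw [map_sub, toMod_ρ, ← galRes_resLevel h, AddEquiv.apply_symm_apply,
        AddEquiv.apply_symm_apply]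
      exact (ha _ hmem).symm

end FermatLib.CFT.S55
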