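import Fermat.Agent.CFT.S55Sha2Defs
import Fermat.Agent.CFT.IdeleLocalField
import Fermat.Agent.CFT.GWGlobKummer

/-!
Generic lemmas for the Sha2 half of S55: change of level for ideles, integral
valuations of ideles at unramified primes, roots of elements with valuations divisible by `p`.
-/

set_option autoImplicit false

open CategoryTheory groupCohomology ExtCitation NumberField
open scoped Pointwise

namespace FermatLib.CFT.S55

open FermatLib FermatLib.CFT.GWKummer

local notation "Γℚ" => AlgebraicClosure ℚ ≃ₐ[ℚ] AlgebraicClosure ℚ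
local notation "Qbar" => AlgebraicClosure ℚ

section change

variable {F F' F'' : IntermediateField ℚ (AlgebraicClosure ℚ)} [NumberField F] [NumberField F']
  [NumberField F'']

/-- Inclusion of multiplicative groups of subfields. -/
noncomputable def unitsLe (h : F ≤ F') : LUnits F →+ LUnits F' :=
  @lunitsBaseChange F _ F' _ (algLe h)

theorem unitsToQbar_unitsLe (h : F ≤ F') (x : LUnits F) :
    unitsToQbar F' (unitsLe h x) = unitsToQbar F x := QbarU.el_injective rfl

theorem ideleLe_principal (h : F ≤ F') (x : LUnits F) :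
    ideleLe h (principalIdele F x) = principalIdele F' (unitsLe h x) :=
  @ideleBaseChange_principalIdele F _ _ F' _ _ (algLe h) x

theorem ideleLe_mem_iff (h : F ≤ F') (T : Set Nat.Primes) (f : Idele F) :
    ideleLe h f ∈ sIdeles F' T ↔ f ∈ sIdeles F T :=
  @ideleBaseChange_mem_sIdeles_iff F _ _ F' _ _ (algLe h) T f

theorem ideleLe_injective (h : F ≤ F') : Function.Injective (ideleLe h) :=
  @ideleBaseChange_injective F _ _ F' _ _ (algLe h)

theorem ideleLe_trans (h : F ≤ F') (h' : F' ≤ F'') (f : Idele F) :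
    ideleLe h' (ideleLe h f) = ideleLe (h.trans h') f := rfl

variable [IsGalois ℚ F]

theorem ideleLe_galRes (h : F ≤ F') (g : F' ≃ₐ[ℚ] F') (f : Idele F) :
    ideleLe h (galRes h g • f) = g • ideleLe h f :=
  @ideleBaseChange_smul F _ _ F' _ _ (algLe h) g (galRes h g)
    (fun x => (galRes_spec h g x).symm) f

variable [IsGalois ℚ F']

theorem ideleLe_galTo (h : F ≤ F') (σ : Γℚ) (f : Idele F) :
    ideleLe h (galTo F σ • f) = galTo F' σ • ideleLe h f := by
  rw [← galRes_galTo F h σ, ideleLe_galRes]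

theorem classLe_galTo (h : F ≤ F') (σ : Γℚ) (c : IdeleClass F) :
    classLe h (galTo F σ • c) = galTo F' σ • classLe h c :=
  QuotientAddGroup.induction_on c fun f =>
    congrArg (QuotientAddGroup.mk (s := principalIdeles F')) (ideleLe_galTo h σ f)

/-- Invariant ideles come from the subfield. -/
theorem mem_range_ideleLe (h : F ≤ F') {f : Idele F'}
    (hf : ∀ g ∈ (galRes h).ker, g • f = f) : f ∈ (ideleLe h).range :=
  @mem_range_ideleBaseChange F _ _ F' _ _ (algLe h) _ f fun g hg =>
    hf g ((mem_galRes_ker_iff h g).2 hg)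

end change

section sup

variable (F F' : IntermediateField ℚ (AlgebraicClosure ℚ))

theorem numberField_of_finite [FiniteDimensional ℚ F] : NumberField F :=
  @NumberField.mk _ _ inferInstance inferInstance

theorem numberField_sup' [NumberField F] [NumberField F'] : NumberField ↥(F ⊔ F') :=
  @NumberField.mk _ _ inferInstance (IntermediateField.finiteDimensional_sup F F')

theorem isGalois_sup' [NumberField F] [NumberField F'] [IsGalois ℚ F] [IsGalois ℚ F'] :
    IsGalois ℚ ↥(F ⊔ F') :=
  haveI := numberField_sup' F F'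
  @IsGalois.mk _ _ _ _ _ inferInstance (@IntermediateField.normal_sup ℚ Qbar _ _ _
    F F' ‹IsGalois ℚ F›.to_normal ‹IsGalois ℚ F'›.to_normal)

end sup

section galois

theorem isGalois_qbar : IsGalois ℚ (AlgebraicClosure ℚ) :=
  haveI : IsAlgClosure ℚ (AlgebraicClosure ℚ) := ⟨inferInstance, AlgebraicClosure.isAlgebraic ℚ⟩
  IsAlgClosure.isGalois ℚ (AlgebraicClosure ℚ)

/-- A finite set fixed by all inertia outside `S`, with its conjugates, lies in a level unramified
outside `S`. -/
theorem exists_level_fixing_values {S : Finset Nat.Primes}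
    (F : IntermediateField ℚ (AlgebraicClosure ℚ)) [NumberField F] (hF : F.IsUnramifiedOutside S)
    (vals : Finset QbarU)
    (hvals : ∀ y ∈ vals, ∀ (g : Γℚ) (q : Nat.Primes), q ∉ S →
      ∀ A : ValuationSubring Qbar, A.LiesOverPrime (q : ℕ) →
        ∀ σ ∈ A.inertiaSubgroupIn ℚ, σ • (g • y) = g • y) :
    ∃ (F' : IntermediateField ℚ (AlgebraicClosure ℚ)) (_ : NumberField F') (_ : IsGalois ℚ F'),
      F ≤ F' ∧ F'.IsUnramifiedOutside S ∧
        ∀ y ∈ vals, ∀ σ ∈ F'.fixingSubgroup, σ • y = y := by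
  classical
  haveI := isGalois_qbar
  let E : IntermediateField ℚ Qbar :=
    F ⊔ IntermediateField.adjoin ℚ (vals.image QbarU.el : Set Qbar)
  haveI : FiniteDimensional ℚ (IntermediateField.adjoin ℚ (vals.image QbarU.el : Set Qbar)) :=
    IntermediateField.finiteDimensional_adjoin fun x _ =>
      ((AlgebraicClosure.isAlgebraic ℚ).isAlgebraic x).isIntegral
  haveI : FiniteDimensional ℚ E := IntermediateField.finiteDimensional_sup _ _
  let F' := IntermediateField.normalClosure ℚ E Qbar
  have hg : IsGalois ℚ F' := by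
    have h0 : IsGalois ℚ (IntermediateField.normalClosure ℚ E Qbar) :=
      IsGalois.normalClosure ℚ E Qbar
    exact @IsGalois.mk _ _ _ _ _ inferInstance (by convert h0.to_normal using 2)
  have hle : E ≤ F' := IntermediateField.le_normalClosure E
  refine ⟨F', @NumberField.mk _ _ inferInstance inferInstance, hg, le_sup_left.trans hle,
    ⟨inferInstance, fun q hq A hA σ hσ => ?_⟩, fun y hy σ hσ => ?_⟩
  · have e : F' = ⨆ g : Qbar ≃ₐ[ℚ] Qbar, E.map (g : Qbar →ₐ[ℚ] Qbar) := by
      show IntermediateField.normalClosure ℚ E Qbar = _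
      convert IntermediateField.normalClosure_def'' E
      exact Subsingleton.elim _ _
    rw [← Subgroup.zpowers_le, ← IntermediateField.le_iff_le, e, iSup_le_iff]
    intro g
    rw [IntermediateField.le_iff_le, Subgroup.zpowers_le, IntermediateField.mem_fixingSubgroup_iff]
    rintro z ⟨w, hw, rfl⟩
    have hτ : g⁻¹ * σ * g ∈ E.fixingSubgroup := by
      rw [IntermediateField.fixingSubgroup_sup]
      refine ⟨hF.2 q hq (g⁻¹ • A) ?_ ?_, ?_⟩
      · exact (Galois.liesOverPrime_smul_iff).2 hA
      · rw [Galois.mem_inertiaSubgroupIn_smul, inv_inv]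
        simpa [mul_assoc] using hσ
      · show _ ∈ (IntermediateField.adjoin ℚ (vals.image QbarU.el : Set Qbar)).fixingSubgroup
        rw [← Subgroup.zpowers_le, ← IntermediateField.le_iff_le,
          IntermediateField.adjoin_le_iff]
        intro w hw
        obtain ⟨y, hy, rfl⟩ := Finset.mem_image.1 (Finset.mem_coe.1 hw)
        rw [SetLike.mem_coe, IntermediateField.mem_fixedField_iff]
        have h1 : (g⁻¹ * σ * g) • y = y := by
          rw [mul_smul, mul_smul, hvals y hy g q hq A hA σ hσ, inv_smul_smul]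
        rintro _ ⟨n, rfl⟩
        exact congrArg QbarU.el (show ((g⁻¹ * σ * g) ^ n) • y = y from
          Subgroup.zpow_mem (MulAction.stabilizer Γℚ y) h1 n)
    have h2 := (IntermediateField.mem_fixingSubgroup_iff E _).1 hτ w hw
    show σ (g w) = g w
    calc σ (g w) = g ((g⁻¹ * σ * g) w) := by simp [AlgEquiv.mul_apply, AlgEquiv.aut_inv]
      _ = g w := by rw [h2]
  · refine QbarU.el_injective ((IntermediateField.mem_fixingSubgroup_iff F' σ).1 hσ _ ?_)
    exact hle (le_sup_right (a := F) (IntermediateField.subset_adjoin _ _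
      (Finset.mem_coe.2 (Finset.mem_image.2 ⟨y, hy, rfl⟩))))

end galois

section valuation

variable (F : IntermediateField ℚ (AlgebraicClosure ℚ)) [NumberField F] [IsGalois ℚ F]
  {S : Finset Nat.Primes}

/-- At a prime unramified in `F` the values of ideles of `F` have integral valuation. -/
theorem exists_zpow_norm_fin (hF : F.IsUnramifiedOutside S) {q : Nat.Primes} (hq : q ∉ S)
    (f : Idele F) (φ : Emb F q) :
    ∃ k : ℤ, ‖(f.fin q φ).toField‖ = ‖((q : ℕ) : PadicAlgCl (q : ℕ))‖ ^ k := by
  obtain ⟨z, -, hz0, hz⟩ := exists_norm_eq ⊥ φ (fin_mem_localField_bot f φ)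
    (QUnits.toField_ne_zero _)
  obtain ⟨g, rfl⟩ := Emb.exists_preComp_eq (stdEmb F q) φ
  rw [← hz]
  refine exists_zpow_norm_of_inertia_fixed (q := q) (x := ((g z : F) : Qbar)) ?_ fun σ hσ => ?_
  · exact fun h => hz0 ((map_eq_zero g).1 (Subtype.ext h))
  · exact (IntermediateField.mem_fixingSubgroup_iff F σ).1
      (hF.2 q hq _ (padicPlace_liesOverPrime q) hσ) _ (g z).2

variable {p : ℕ} [Fact p.Prime] (hpS : pPrime p ∈ S)

include hpS in
theorem not_dvd_of_notMem {q : Nat.Primes} (hq : q ∉ S) : ¬ (q : ℕ) ∣ p := fun h => hq (by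
  rwa [show q = pPrime p from Subtype.ext ((Nat.prime_dvd_prime_iff_eq q.2 Fact.out).1 h)])

include hpS in
/-- A `p`-th root of an element of `F` with valuations divisible by `p` at `q` is fixed by all
inertia over `q`, and so are its conjugates. -/
theorem smul_eq_self_of_inertia (hF : F.IsUnramifiedOutside S) {q : Nat.Primes} (hq : q ∉ S)
    {y : QbarU} {x : LUnits F} (hy : p • y = unitsToQbar F x)
    (hval : ∀ φ : Emb F q, ∃ k : ℤ,
      ‖φ (x.val : F)‖ = ‖((q : ℕ) : PadicAlgCl (q : ℕ))‖ ^ ((p : ℤ) * k))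
    (g : Γℚ) {A : ValuationSubring Qbar} (hA : A.LiesOverPrime (q : ℕ))
    {σ : Γℚ} (hσ : σ ∈ A.inertiaSubgroupIn ℚ) : σ • (g • y) = g • y := by
  obtain ⟨h, t, ht, rfl⟩ := exists_conj_inertia q hA hσ
  rw [mul_smul, mul_smul, ← mul_smul h⁻¹ g y, ← eq_inv_smul_iff, ← mul_smul h⁻¹ g y]
  set g' := h⁻¹ * g
  set z := g' • y with hz
  have hpz : p • z = unitsToQbar F (galTo F g' • x) := by
    rw [hz, smul_comm, hy, unitsToQbar_smul]
  obtain ⟨k, hk⟩ := hval ((stdEmb F q).preComp (galTo F g'))
  have hk' : ‖padicEmbedding (q : ℕ) z.el‖ ^ p =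
      ‖((q : ℕ) : PadicAlgCl (q : ℕ))‖ ^ ((p : ℤ) * k) := by
    rw [← hk, ← norm_pow, ← map_pow, ← QbarU.el_nsmul, hpz]
    rfl
  have hp0 : p ≠ 0 := (Fact.out : p.Prime).ne_zero
  have hk'' : ‖padicEmbedding (q : ℕ) z.el‖ = ‖((q : ℕ) : PadicAlgCl (q : ℕ))‖ ^ k := by
    refine (pow_left_inj₀ (norm_nonneg _) (zpow_nonneg (norm_nonneg _) _) hp0).1 ?_
    rw [hk', ← zpow_natCast (_ ^ k) p, ← zpow_mul, mul_comm]
  have hq0 : ((q : ℕ) : Qbar) ≠ 0 := Nat.cast_ne_zero.2 q.2.ne_zero
  set w : Qbar := z.el / ((q : ℕ) : Qbar) ^ k with hw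
  have hσq : primeLocalToGlobal q t (((q : ℕ) : Qbar) ^ k) = ((q : ℕ) : Qbar) ^ k := by
    rw [map_zpow₀, map_natCast]
  have hwn : ‖padicEmbedding (q : ℕ) w‖ = 1 := by
    rw [hw, map_div₀, map_zpow₀, map_natCast, norm_div, norm_zpow, hk'',
      div_self (zpow_ne_zero _ norm_q_pos.ne')]
  have hfix : primeLocalToGlobal q t • (p • z) = p • z := by
    rw [hpz]
    exact QbarU.el_injective ((IntermediateField.mem_fixingSubgroup_iff F _).1
      (hF.2 q hq _ (padicPlace_liesOverPrime q) ht) _
        ((galTo F g' • x).val : F).2)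
  have h5 := eq_one_of_inertial (not_dvd_of_notMem hpS hq) ht hwn (by
    have e : primeLocalToGlobal q t (z.el ^ p) = z.el ^ p := by
      rw [← QbarU.el_nsmul]
      exact (QbarU.el_smul _ _).symm.trans (congrArg QbarU.el hfix)
    rw [hw, map_div₀, hσq, div_div_div_cancel_right₀ (zpow_ne_zero _ hq0), div_pow, ← map_pow, e,
      div_self (pow_ne_zero _ z.el_ne_zero)])
  refine QbarU.el_injective ?_
  rw [QbarU.el_smul]
  rw [hw, map_div₀, hσq, div_left_inj' (zpow_ne_zero _ hq0)] at h5
  exact h5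

end valuation

end FermatLib.CFT.S55
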