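import Fermat.Agent.CFT.GWGlobCompat
import Fermat.Agent.CFT.DualLevel
import Fermat.Agent.CFT.PresDefs

/-!
The second Tate-Shafarevich group of `M` against equivariant maps of the relation lattice of
`M' = M.dualTwist χ` into idele classes (S55): the subgroup of maps
to be divided out and the relation between maps and classes.
-/

set_option autoImplicit false

open CategoryTheory groupCohomology ExtCitation NumberField

namespace FermatLib.CFT.S55

open FermatLib FermatLib.CFT.GWKummer

local notation "Γℚ" => AlgebraicClosure ℚ ≃ₐ[ℚ] AlgebraicClosure ℚ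
local notation "Qbar" => AlgebraicClosure ℚ

section field

variable (F : IntermediateField ℚ (AlgebraicClosure ℚ))

/-- The multiplicative group of a subfield inside `ℚ̄ˣ`. -/
noncomputable def unitsToQbar : LUnits F →+ QbarU where
  toFun x := QbarU.of (Units.map (algebraMap F Qbar : F →* Qbar) x.val)
  map_zero' := QbarU.el_injective rfl
  map_add' _ _ := QbarU.el_injective rfl

@[simp] theorem el_unitsToQbar (x : LUnits F) :
    (unitsToQbar F x).el = ((x.val : F) : Qbar) := rfl

theorem unitsToQbar_smul [NumberField F] [IsGalois ℚ F] (σ : Γℚ) (x : LUnits F) :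
    unitsToQbar F (galTo F σ • x) = σ • unitsToQbar F x :=
  QbarU.el_injective (coe_galTo F σ x.val)

theorem unitsToQbar_injective [NumberField F] : Function.Injective (unitsToQbar F) := fun _ _ h =>
  LUnits.ext_val (Subtype.ext (congrArg QbarU.el h))

variable {F} {F' : IntermediateField ℚ (AlgebraicClosure ℚ)} [NumberField F] [NumberField F']

/-- Inclusion of ideles of subfields of `ℚ̄`. -/
noncomputable def ideleLe (h : F ≤ F') : Idele F →+ Idele F' :=
  @ideleBaseChange F _ _ F' _ _ (algLe h)

theorem mk_ideleLe (h : F ≤ F') (f : Idele F) :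
    (QuotientAddGroup.mk (ideleLe h f) : IdeleClass F') = classLe h (QuotientAddGroup.mk f) := rfl

end field

variable {p : ℕ} [Fact p.Prime] {M : Rep (ZMod p) Γℚ} {S : Finset Nat.Primes}
  (D : Level (M.dualTwist (cycloChar p)) S)
  {ζ : AlgebraicClosure ℚ} (hζ : IsPrimitiveRoot ζ p)

/-- An element of `M` as a homomorphism from the dual twist into the roots of unity. -/
noncomputable def coeffMap : M →+ (D.Mod →+ QbarU) where
  toFun m := AddMonoidHom.mk'
    (fun x => rootHom hζ ((D.toMod.symm x : Module.Dual (ZMod p) M) m))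
    fun x y => map_add (rootHom hζ) _ _
  map_zero' := AddMonoidHom.ext fun x => by
    show rootHom hζ ((D.toMod.symm x : Module.Dual (ZMod p) M) 0) = 0
    rw [map_zero, map_zero]
  map_add' m n := AddMonoidHom.ext fun x => by
    show rootHom hζ ((D.toMod.symm x : Module.Dual (ZMod p) M) (m + n)) = _
    rw [map_add, map_add]
    rfl

theorem coeffMap_toMod (m : M) (f : M.dualTwist (cycloChar p)) :
    coeffMap D hζ m (D.toMod f) = rootHom hζ ((f : Module.Dual (ZMod p) M) m) := rfl

theorem coeffMap_ρ (σ : Γℚ) (m : M) (x : D.Mod) :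
    coeffMap D hζ (M.ρ σ m) x = σ • coeffMap D hζ m ((D.res σ)⁻¹ • x) := by
  obtain ⟨f, rfl⟩ := D.toMod.surjective x
  rw [← map_inv, D.res_smul, coeffMap_toMod, coeffMap_toMod, smul_rootHom,
    Rep.dualTwist_ρ_apply]
  refine congrArg (rootHom hζ) ?_
  show (f : Module.Dual (ZMod p) M) (M.ρ σ m) =
    (cycloChar p σ : ZMod p) * (((cycloChar p σ⁻¹ : ZMod p)) *
      (f : Module.Dual (ZMod p) M) (M.ρ σ⁻¹⁻¹ m))
  rw [inv_inv, ← mul_assoc, ← Units.val_mul, ← map_mul, mul_inv_cancel, map_one, Units.val_one,
    one_mul]

theorem coeffMap_injective : Function.Injective (coeffMap D hζ) := fun m n h => by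
  refine sub_eq_zero.1 ((Module.forall_dual_apply_eq_zero_iff (ZMod p) (m - n)).1 fun f => ?_)
  rw [map_sub, sub_eq_zero]
  exact rootHom_injective hζ (DFunLike.congr_fun h (D.toMod f))

theorem exists_coeffMap_eq [FiniteDimensional (ZMod p) M] (φ : D.Mod →+ QbarU) :
    ∃ m : M, coeffMap D hζ m = φ := by
  choose a ha using fun f : M.dualTwist (cycloChar p) =>
    exists_rootHom_eq hζ (x := φ (D.toMod f)) (by rw [← map_nsmul, D.nsmul_mod, map_zero])
  let A : Module.Dual (ZMod p) (Module.Dual (ZMod p) M) :=
    (AddMonoidHom.mk' (fun f : Module.Dual (ZMod p) M => a f) fun f g => rootHom_injective hζ (by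
      rw [map_add, ha, ha, ha]; exact map_add (φ.comp D.toMod.toAddMonoidHom) f g)).toZModLinearMap p
  refine ⟨(Module.evalEquiv (ZMod p) M).symm A, AddMonoidHom.ext fun x => ?_⟩
  obtain ⟨f, rfl⟩ := D.toMod.surjective x
  rw [coeffMap_toMod, Module.apply_evalEquiv_symm_apply]
  exact ha f

variable {ι : Type} [Fintype ι] (v : ι → D.Mod)

/-- Equivariant maps of the relation lattice into idele classes of the level. -/
noncomputable abbrev latticeMaps :=
  equivHom D.Gal (presKer (G := D.Gal) v) (IdeleClass D.field)

/-- Maps which are classes of equivariant maps into `S`-ideles. -/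
noncomputable def sIdeleMaps : AddSubgroup (latticeMaps D v) where
  carrier := {a | ∃ l : equivHom D.Gal (presKer (G := D.Gal) v) (Idele D.field),
    (∀ x, (l : presKer (G := D.Gal) v →+ Idele D.field) x ∈
      sIdeles D.field (S : Set Nat.Primes)) ∧
    ∀ x, (QuotientAddGroup.mk ((l : presKer (G := D.Gal) v →+ Idele D.field) x) :
      IdeleClass D.field) = (a : presKer (G := D.Gal) v →+ IdeleClass D.field) x}
  zero_mem' := ⟨0, fun _ => zero_mem _, fun _ => rfl⟩
  add_mem' := fun {a b} ⟨l, hl, ha⟩ ⟨l', hl', hb⟩ =>
    ⟨l + l', fun x => add_mem (hl x) (hl' x), fun x => by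
      show (QuotientAddGroup.mk ((l : presKer (G := D.Gal) v →+ Idele D.field) x +
        (l' : presKer (G := D.Gal) v →+ Idele D.field) x) : IdeleClass D.field) = _
      rw [QuotientAddGroup.mk_add, ha, hb]
      rfl⟩
  neg_mem' := fun {a} ⟨l, hl, ha⟩ => ⟨-l, fun x => neg_mem (hl x), fun x => by
    show (QuotientAddGroup.mk (-(l : presKer (G := D.Gal) v →+ Idele D.field) x) :
      IdeleClass D.field) = _
    rw [QuotientAddGroup.mk_neg, ha]
    rfl⟩

/-- The maps to be divided out: extendable to the free module, or classes of `S`-idele maps. -/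
noncomputable def shaRelations : AddSubgroup (latticeMaps D v) :=
  (presRestr D.Gal (IdeleClass D.field) v).range ⊔ sIdeleMaps D v

/-- The data attaching the 2-cochain `c` to the map `h`: a lift of `h` to `S`-ideles at a level
`field`, and a 1-cochain `cochain` on the free module whose restriction to the relation lattice
has the coboundary of the lift as principal idele, and whose coboundary is `c`. -/
structure Witness (h : latticeMaps D v) (c : Γℚ × Γℚ → M) where
  /-- The bigger level. -/
  field : IntermediateField ℚ (AlgebraicClosure ℚ)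
  numberField : NumberField field
  galois : IsGalois ℚ field
  le : D.field ≤ field
  unramified : field.IsUnramifiedOutside S
  /-- The lift to ideles. -/
  lift : presKer (G := D.Gal) v →+ Idele field
  lift_mem : ∀ x, lift x ∈ sIdeles field (S : Set Nat.Primes)
  lift_class : ∀ x, (QuotientAddGroup.mk (lift x) : IdeleClass field) =
    classLe le ((h : presKer (G := D.Gal) v →+ IdeleClass D.field) x)
  /-- The cochain on the free module. -/
  cochain : Γℚ → Pres ι D.Gal →+ QbarU
  levelConstant : IsLevelConstantS₁ S cochain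
  principal : ∀ (σ : Γℚ) (x : presKer (G := D.Gal) v), ∃ y : LUnits field,
    unitsToQbar field y = cochain σ (x : Pres ι D.Gal) ∧
      principalIdele field y = galTo field σ • lift ((D.res σ)⁻¹ • x) - lift x
  coboundary : ∀ (σ τ : Γℚ) (b : Pres ι D.Gal), coeffMap D hζ (c (σ, τ)) (presMap v b) =
    σ • cochain τ ((D.res σ)⁻¹ • b) - cochain (σ * τ) b + cochain σ b

attribute [instance] Witness.numberField Witness.galois

/-- `h` and the class `x` correspond. -/
def ShaRel (h : latticeMaps D v) (x : continuousH2S S M) : Prop :=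
  ∃ c : ↥(levelCocyclesS₂ S M), continuousH2Sπ S M c = x ∧
    Nonempty (Witness D hζ v h (c : Γℚ × Γℚ → M))

end FermatLib.CFT.S55
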