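import Fermat.Agent.CFT.S55Sha2Defs
import Fermat.Agent.CFT.GWTateLocal
import Fermat.Agent.CFT.IdeleCapitulation
import Fermat.Agent.CFT.IdeleFieldUnits
import Fermat.Agent.CFT.IdeleBridge

/-!
Classes of idele cochains on a free module, and capitulation of finitely many ideles in one level
(S55).
-/

set_option autoImplicit false
set_option linter.style.haveILetI false
set_option linter.unusedSectionVars false

open CategoryTheory groupCohomology ExtCitation NumberField

namespace FermatLib.CFT.S55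

open FermatLib FermatLib.CFT.GWKummer

variable {F₀ F : IntermediateField ℚ (AlgebraicClosure ℚ)} [NumberField F] [IsGalois ℚ F]
  [NumberField F₀] [IsGalois ℚ F₀] (hle : F₀ ≤ F) {ι : Type} [Fintype ι]

/-- A 1-cocycle with values in maps of a free module into idele classes is a coboundary. -/
theorem exists_classPrimitive
    (cc : (F ≃ₐ[ℚ] F) → Pres ι (F₀ ≃ₐ[ℚ] F₀) →+ IdeleClass F)
    (hcc : ∀ g g' b, g • cc g' ((galRes hle g)⁻¹ • b) - cc (g * g') b + cc g b = 0) :
    ∃ b0 : Pres ι (F₀ ≃ₐ[ℚ] F₀) →+ IdeleClass F,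
      ∀ g b, cc g b = g • b0 ((galRes hle g)⁻¹ • b) - b0 b := by
  classical
  letI : AddCancelCommMonoid (IdeleClass F) := AddCommGroup.toAddCancelCommMonoid
  haveI : IsRightCancelAdd (IdeleClass F) :=
    ⟨fun a b c h => by simpa using congrArg (fun x => x + -a) h⟩
  have hmul : ∀ g g' b, cc (g * g') b = g • cc g' ((galRes hle g)⁻¹ • b) + cc g b := fun g g' b => by
    linear_combination (norm := abel) -(hcc g g' b)
  have hbeta : ∀ i, ∃ β : IdeleClass F, ∀ n : (galRes hle).ker,
      n • β - β = cc (n : F ≃ₐ[ℚ] F) (presSingle i 1) := fun i => by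
    obtain ⟨β, hβ⟩ := ideleClass_h1Trivial (galRes hle).ker
      (fun n => cc (n : F ≃ₐ[ℚ] F) (presSingle i 1)) (AddMonoidHom.mem_ker.2 (funext fun z => by
        show (z.1 : F ≃ₐ[ℚ] F) • cc (z.2 : F ≃ₐ[ℚ] F) (presSingle i 1) -
          cc ((z.1 : F ≃ₐ[ℚ] F) * (z.2 : F ≃ₐ[ℚ] F)) (presSingle i 1) +
          cc (z.1 : F ≃ₐ[ℚ] F) (presSingle i 1) = 0
        have h := hcc z.1 z.2 (presSingle i 1)
        rwa [MonoidHom.mem_ker.1 z.1.2, inv_one, one_smul] at h))
    exact ⟨β, fun n => congrFun hβ n⟩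
  choose β hβ using hbeta
  let s := Function.surjInv (galRes_surjective hle)
  have hs : ∀ γ, galRes hle (s γ) = γ := Function.surjInv_eq (galRes_surjective hle)
  let val : ι → (F₀ ≃ₐ[ℚ] F₀) → IdeleClass F := fun i γ => s γ • β i - cc (s γ) (presSingle i γ)
  refine ⟨freeLift val, fun g b => ?_⟩
  let rhs : Pres ι (F₀ ≃ₐ[ℚ] F₀) →+ IdeleClass F :=
    (DistribSMul.toAddMonoidHom _ g).comp ((freeLift val).comp
      (DistribSMul.toAddMonoidHom _ (galRes hle g)⁻¹)) - freeLift val
  have heq : cc g = rhs := by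
    refine free_ext (Ω := IdeleClass F) fun i γ => ?_
    show cc g (presSingle i γ) =
      g • freeLift val ((galRes hle g)⁻¹ • presSingle i γ) - freeLift val (presSingle i γ)
    rw [smul_presSingle, freeLift_presSingle, freeLift_presSingle]
    set s' := s ((galRes hle g)⁻¹ * γ) with hs'
    have hn : (s γ)⁻¹ * (g * s') ∈ (galRes hle).ker := by
      rw [MonoidHom.mem_ker, map_mul, map_inv, map_mul, hs, hs', hs, mul_inv_cancel_left,
        inv_mul_cancel]
    have h1 := hmul g s' (presSingle i γ)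
    rw [smul_presSingle] at h1
    have h2 := hmul (s γ) ((s γ)⁻¹ * (g * s')) (presSingle i γ)
    rw [mul_inv_cancel_left, hs, smul_presSingle, inv_mul_cancel] at h2
    have h3 : ((s γ)⁻¹ * (g * s')) • β i - β i = cc ((s γ)⁻¹ * (g * s')) (presSingle i 1) :=
      hβ i ⟨_, hn⟩
    show cc g (presSingle i γ) = g • (s' • β i - cc s' (presSingle i ((galRes hle g)⁻¹ * γ))) -
      (s γ • β i - cc (s γ) (presSingle i γ))
    rw [← h3, smul_sub, smul_smul, mul_inv_cancel_left] at h2
    rw [smul_sub, smul_smul]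
    linear_combination (norm := abel) h2 - h1
  exact DFunLike.congr_fun heq b

theorem ideleLe_comp {E E' E'' : IntermediateField ℚ (AlgebraicClosure ℚ)} [NumberField E]
    [NumberField E'] [NumberField E''] (h : E ≤ E') (h' : E' ≤ E'') (f : Idele E) :
    ideleLe h' (ideleLe h f) = ideleLe (h.trans h') f := rfl

theorem ideleLe_principalIdele {E E' : IntermediateField ℚ (AlgebraicClosure ℚ)} [NumberField E]
    [NumberField E'] (h : E ≤ E') (x : LUnits E) :
    ideleLe h (principalIdele E x) = principalIdele E' (@lunitsBaseChange E _ E' _ (algLe h) x) :=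
  @ideleBaseChange_principalIdele E _ _ E' _ _ (algLe h) x

theorem ideleLe_mem_sIdeles_iff {E E' : IntermediateField ℚ (AlgebraicClosure ℚ)} [NumberField E]
    [NumberField E'] (h : E ≤ E') (T : Set Nat.Primes) (f : Idele E) :
    ideleLe h f ∈ sIdeles E' T ↔ f ∈ sIdeles E T :=
  @ideleBaseChange_mem_sIdeles_iff E _ _ E' _ _ (algLe h) T f

theorem unitsToQbar_lunitsBaseChange {E E' : IntermediateField ℚ (AlgebraicClosure ℚ)}
    (h : E ≤ E') (x : LUnits E) :
    unitsToQbar E' (@lunitsBaseChange E _ E' _ (algLe h) x) = unitsToQbar E x :=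
  QbarU.el_injective rfl

/-- Finitely many ideles whose `p ^ k`-th multiples are principal up to `S`-ideles become
principal up to `S`-ideles in one level unramified outside `S`. -/
theorem exists_capitulation_finset {p : ℕ} [Fact p.Prime] {S : Finset Nat.Primes}
    (hpS : pPrime p ∈ S) (hF : F.IsUnramifiedOutside S) (k : ℕ) (T : Finset (Idele F))
    (hT : ∀ f ∈ T, ∃ x, p ^ k • f - principalIdele F x ∈ sIdeles F (S : Set Nat.Primes)) :
    ∃ (L : IntermediateField ℚ (AlgebraicClosure ℚ)) (_ : NumberField L) (_ : IsGalois ℚ L)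
      (h : F ≤ L), L.IsUnramifiedOutside S ∧
      ∀ f ∈ T, ∃ y, ideleLe h f - principalIdele L y ∈ sIdeles L (S : Set Nat.Primes) := by
  classical
  induction T using Finset.induction_on with
  | empty => exact ⟨F, inferInstance, inferInstance, le_rfl, hF, fun f hf => by simp at hf⟩
  | @insert f T _ ih =>
    obtain ⟨L, hNL, hGL, h, hL, hLT⟩ := ih fun g hg => hT g (Finset.mem_insert_of_mem hg)
    obtain ⟨x, hx⟩ := hT f (Finset.mem_insert_self f T)
    obtain ⟨L', hNL', hGL', h', hL', y, hy⟩ :=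
      exists_capitulation F S hpS ((isUnramifiedOutside_iff F S).1 hF) f x k hx
    haveI := hNL
    haveI := hGL
    haveI := hNL'
    haveI := hGL'
    haveI : NumberField ↥(L ⊔ L') := GWTate.numberField_sup L L'
    haveI : IsGalois ℚ ↥(L ⊔ L') := GWTate.isGalois_sup L L'
    refine ⟨L ⊔ L', inferInstance, inferInstance, h.trans le_sup_left,
      hL.sup ((isUnramifiedOutside_iff L' S).2 hL'), fun g hg => ?_⟩
    rcases Finset.mem_insert.1 hg with rfl | hg
    · refine ⟨@lunitsBaseChange L' _ ↥(L ⊔ L') _ (algLe le_sup_right) y, ?_⟩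
      rw [← ideleLe_principalIdele le_sup_right, ← ideleLe_comp h' le_sup_right, ← map_sub,
        ideleLe_mem_sIdeles_iff]
      exact hy
    · obtain ⟨z, hz⟩ := hLT g hg
      refine ⟨@lunitsBaseChange L _ ↥(L ⊔ L') _ (algLe le_sup_left) z, ?_⟩
      rw [← ideleLe_principalIdele le_sup_left, ← ideleLe_comp h le_sup_left, ← map_sub,
        ideleLe_mem_sIdeles_iff]
      exact hz

/-- Multiples by an integer congruent to one fix the elements killed by `p`. -/
theorem nsmul_eq_self_of_nsmul_eq_zero {A : Type*} [AddCommGroup A] {p m : ℕ}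
    (hm : m % p = 1) {x : A} (hx : p • x = 0) : m • x = x := by
  rw [← Nat.div_add_mod m p, hm, add_nsmul, one_nsmul, mul_nsmul, hx, nsmul_zero, zero_add]

/-- A multiple prime to `p` of every idele has a `p`-power multiple principal up to `S`-ideles. -/
theorem exists_multiple {p : ℕ} [Fact p.Prime] (S : Set Nat.Primes) :
    ∃ k m : ℕ, m % p = 1 ∧ ∀ f : Idele F, ∃ x, p ^ k • (m • f) - principalIdele F x ∈ sIdeles F S := by
  obtain ⟨n, hn, hn'⟩ := exists_pos_nsmul_mem F
  have hp : p.Prime := Fact.out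
  obtain ⟨k, m, hm, rfl⟩ := Nat.exists_eq_pow_mul_and_not_dvd hn.ne' p hp.ne_one
  haveI : NeZero p := ⟨hp.ne_zero⟩
  haveI : Fact (1 < p) := ⟨hp.one_lt⟩
  refine ⟨k, m * ((m : ZMod p)⁻¹).val, ?_, fun f => ?_⟩
  · have hm0 : (m : ZMod p) ≠ 0 := fun h => hm ((ZMod.natCast_eq_zero_iff _ _).1 h)
    have h1 : ((m * ((m : ZMod p)⁻¹).val : ℕ) : ZMod p) = 1 := by
      rw [Nat.cast_mul, ZMod.natCast_zmod_val, mul_inv_cancel₀ hm0]
    rw [← ZMod.val_natCast, h1, ZMod.val_one]
  · obtain ⟨a, ha, b, hb, hab⟩ := AddSubgroup.mem_sup.1 (hn' S f)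
    rw [principalIdeles_eq_range] at ha
    obtain ⟨x, rfl⟩ := ha
    refine ⟨((m : ZMod p)⁻¹).val • x, ?_⟩
    rw [map_nsmul, ← mul_nsmul', ← mul_assoc, mul_comm (p ^ k * m), mul_nsmul', ← hab,
      nsmul_add, add_sub_cancel_left]
    exact nsmul_mem hb _

end FermatLib.CFT.S55
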