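import Fermat.Agent.CFT.S55Sha2SurjCoeff

/-!
A class of `sha₂` as a normalised cocycle of a Galois level, with primitives at the primes of `S`
(S55).
-/

set_option autoImplicit false
set_option linter.style.haveILetI false
set_option linter.unusedSectionVars false

open CategoryTheory groupCohomology ExtCitation NumberField

namespace FermatLib.CFT.S55

open FermatLib FermatLib.CFT.GWKummer FermatLib.CFT.GWTate

local notation "Γℚ" => AlgebraicClosure ℚ ≃ₐ[ℚ] AlgebraicClosure ℚ
local notation "Qbar" => AlgebraicClosure ℚ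

variable {p : ℕ} [Fact p.Prime] {M : Rep.{0} (ZMod p) Γℚ} {S : Finset Nat.Primes}
  (D : Level (M.dualTwist (cycloChar p)) S)
  {ζ : AlgebraicClosure ℚ} (hζ : IsPrimitiveRoot ζ p)

include D hζ in
theorem rho_eq_self_of_mem_fixingSubgroup {σ : Γℚ} (hσ : σ ∈ D.field.fixingSubgroup) (m : M) :
    M.ρ σ m = m := by
  refine coeffMap_injective D hζ (AddMonoidHom.ext fun x => ?_)
  rw [coeffMap_ρ, (D.res_eq_one_iff σ).2 hσ, inv_one, one_smul]
  obtain ⟨f, rfl⟩ := D.toMod.surjective x
  rw [coeffMap_toMod, smul_rootHom, D.cyclo σ hσ, Units.val_one, one_mul]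

include D hζ in
/-- Every class is the class of a normalised cocycle of a Galois level unramified outside `S`. -/
theorem exists_levelCocycle (c0 : ↥(levelCocyclesS₂ S M)) :
    ∃ (F : IntermediateField ℚ (AlgebraicClosure ℚ)) (_ : NumberField F) (_ : IsGalois ℚ F)
      (_ : D.field ≤ F) (_ : F.IsUnramifiedOutside S) (c : LevelCocycle (M := M) F)
      (c2 : ↥(levelCocyclesS₂ S M)),
      continuousH2Sπ S M c2 = continuousH2Sπ S M c0 ∧
      ∀ σ τ, (c2 : Γℚ × Γℚ → M) (σ, τ) = c.toFun (galTo F σ) (galTo F τ) := by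
  obtain ⟨hcoc, F0, hF0, hF0c⟩ := (mem_levelCocyclesS₂_iff S M _).1 c0.2
  obtain ⟨F, hNF, hGal, hle, hur⟩ := exists_galois_unramified (F0 ⊔ D.field) (hF0.sup D.unramified)
  let f : Γℚ × Γℚ → M := fun z => (c0 : Γℚ × Γℚ → M) z
  let m : M := f (1, 1)
  let f' : Γℚ × Γℚ → M := f - (d₁₂ M).hom (fun _ => m)
  have hf' : ∀ σ τ, f' (σ, τ) = f (σ, τ) - M.ρ σ m := fun σ τ => by
    show f (σ, τ) - (M.ρ σ m - m + m) = _
    rw [sub_add_cancel]
  have hcoc' : f' ∈ cocycles₂ M :=
    sub_mem hcoc (coboundaries₂_le_cocycles₂ M (LinearMap.mem_range_self _ _))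
  have hconst : ∀ g g' s s', s ∈ F.fixingSubgroup → s' ∈ F.fixingSubgroup →
      f' (g * s, g' * s') = f' (g, g') := fun g g' s s' hs hs' => by
    have h1 := IntermediateField.fixingSubgroup_antitone (le_sup_left.trans hle) hs
    have h2 := IntermediateField.fixingSubgroup_antitone (le_sup_left.trans hle) hs'
    have h3 := IntermediateField.fixingSubgroup_antitone (le_sup_right.trans hle) hs
    rw [hf', hf', show f (g * s, g' * s') = f (g, g') from hF0c g g' s s' h1 h2, map_mul,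
      Module.End.mul_apply, rho_eq_self_of_mem_fixingSubgroup D hζ h3]
  have h1l : ∀ τ, f' (1, τ) = 0 := fun τ => by
    rw [hf', map_one, Module.End.one_apply, sub_eq_zero]
    exact cocycles₂_map_one_fst ⟨f, hcoc⟩ τ
  have h1r : ∀ σ, f' (σ, 1) = 0 := fun σ => by
    rw [hf', sub_eq_zero]
    exact cocycles₂_map_one_snd ⟨f, hcoc⟩ σ
  let sec := Function.surjInv (galTo_surjective F)
  have hsec : ∀ σ τ, f' (sec (galTo F σ), sec (galTo F τ)) = f' (σ, τ) := fun σ τ => by
    have h : ∀ σ, σ⁻¹ * sec (galTo F σ) ∈ F.fixingSubgroup := fun σ => by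
      rw [← galTo_eq_one_iff, map_mul, Function.surjInv_eq (galTo_surjective F), map_inv,
        inv_mul_cancel]
    have := hconst σ τ _ _ (h σ) (h τ)
    rwa [mul_inv_cancel_left, mul_inv_cancel_left] at this
  refine ⟨F, hNF, hGal, le_sup_right.trans hle, hur,
    { toFun := fun g h => f' (sec g, sec h)
      one_left := fun g => ?_
      one_right := fun g => ?_
      cocycle := fun σ τ υ => ?_ },
    ⟨f', (mem_levelCocyclesS₂_iff S M f').2 ⟨hcoc', F, hur, hconst⟩⟩,
    ?_, fun σ τ => (hsec σ τ).symm⟩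
  · obtain ⟨τ, rfl⟩ := galTo_surjective F g
    rw [← map_one (galTo F), hsec]
    exact h1l τ
  · obtain ⟨τ, rfl⟩ := galTo_surjective F g
    rw [← map_one (galTo F), hsec]
    exact h1r τ
  · rw [← map_mul, ← map_mul, hsec, hsec, hsec, hsec]
    have h := (mem_cocycles₂_iff f').1 hcoc' σ τ υ
    linear_combination (norm := abel) -h
  · rw [← sub_eq_zero, ← map_sub, continuousH2Sπ_eq_zero_iff, mem_levelCoboundariesS₂_iff]
    refine ⟨fun _ => -m, isLevelConstantS₁_const S _, ?_⟩
    show (d₁₂ M).hom (-fun _ => m) = f - (d₁₂ M).hom (fun _ => m) - f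
    rw [map_neg, sub_sub_cancel_left]

/-- A class of `sha₂` has level constant primitives at the primes of `S`. -/
theorem exists_primitive_prime {c : ↥(levelCocyclesS₂ S M)}
    (hc : continuousH2Sπ S M c ∈ sha₂ S M) (q : Nat.Primes) (hq : q ∈ S) :
    ∃ η : primeLocalGaloisGroup q → M, IsLevelConstant₁ (primeLocalToGlobal q) η ∧
      ∀ σ τ, M.ρ (primeLocalToGlobal q σ) (η τ) - η (σ * τ) + η σ =
        (c : Γℚ × Γℚ → M) (primeLocalToGlobal q σ, primeLocalToGlobal q τ) := by
  have h := congrFun (LinearMap.mem_ker.1 hc) (Sum.inr ⟨q, hq⟩)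
  obtain ⟨η, hη, hd⟩ := (mem_levelCoboundaries₂_iff _ _ _).1 ((continuousH2π_eq_zero_iff _ _ _).1 h)
  exact ⟨η, hη, fun σ τ => congrFun hd (σ, τ)⟩

end FermatLib.CFT.S55
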