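import Fermat.Agent.CFT.CohDefs

/-!
Values at one place of the idele cochains attached to a locally trivial class (S55).

`fv` is a `2`-cochain of `G` with values in maps `P →+ Ω` into the values at the base point, being
a cocycle along the decomposition group; `y` bounds it there and `e` trivialises `y` on the
automorphisms trivial on the level. Out of these a function `C` of `G` is built from which the
families of values are read off.
-/

set_option autoImplicit false

namespace FermatLib.CFT.S55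

variable {G G₀ Γ : Type*} [Group G] [Group G₀] [Group Γ] (π : G →* G₀) (ρ : Γ →* G)
  {P : Type*} [AddCommGroup P] [DistribMulAction G₀ P]
  {Ω : Type*} [AddCommGroup Ω] [DistribMulAction Γ Ω]

/-- A function whose associated families of values are equivariant, on all of `P` after adding
`fv`, and on the part `X` killed by the primitive. -/
structure IsPlaceFun (fv : G → G → P →+ Ω) (X : AddSubgroup P) (C : G → P →+ Ω) : Prop where
  sub_equivariant : ∀ (σ : Γ) (h g : G) (b : P),
    fv (ρ σ * h) g (π (ρ σ) • b) + C (ρ σ * h * g) (π (ρ σ) • b) - C (ρ σ * h) (π (ρ σ) • b) =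
      σ • (fv h g b + C (h * g) b - C h b)
  equivariant : ∀ (σ : Γ) (h : G), ∀ x ∈ X, C (ρ σ * h) (π (ρ σ) • x) = σ • C h x

/-- A primitive along the decomposition group, trivialised on the kernel, gives a place
function. -/
theorem exists_placeFun (fv : G → G → P →+ Ω) (X : AddSubgroup P)
    (hXst : ∀ (g : G₀), ∀ x ∈ X, g • x ∈ X)
    (hfX : ∀ g h, ∀ x ∈ X, fv g h x = 0)
    (hfcoc : ∀ (σ : Γ) (k r : G) (b : P),
      σ • fv k r b - fv (ρ σ * k) r (π (ρ σ) • b) + fv (ρ σ) (k * r) (π (ρ σ) • b)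
        - fv (ρ σ) k (π (ρ σ) • b) = 0)
    (hf1' : ∀ g, fv g 1 = 0)
    (y : Γ → P →+ Ω) (hyX : ∀ σ, ∀ x ∈ X, y σ x = 0)
    (hy : ∀ (σ τ : Γ) (b : P),
      σ • y τ b - y (σ * τ) (π (ρ σ) • b) + y σ (π (ρ σ) • b) = fv (ρ σ) (ρ τ) (π (ρ σ) • b))
    (e : P →+ Ω) (he : ∀ κ : Γ, ρ κ = 1 → ∀ b, κ • e b - e b = y κ b) :
    ∃ C : G → P →+ Ω, IsPlaceFun π ρ fv X C ∧
      ∀ U : AddSubgroup Ω, (∀ σ : Γ, ∀ b, σ • e b ∈ U) → (∀ σ b, y σ b ∈ U) →
        (∀ g h b, fv g h b ∈ U) → ∀ k b, C k b ∈ U := by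
  classical
  let D : Subgroup G := ρ.range
  let r : G → G := fun k => (Quotient.mk (QuotientGroup.rightRel D) k).out
  have hr : ∀ k, k * (r k)⁻¹ ∈ D := fun k => by
    have := Quotient.mk_out (s := QuotientGroup.rightRel D) k
    exact QuotientGroup.rightRel_apply.mp this
  have hrs : ∀ (σ : Γ) (k : G), r (ρ σ * k) = r k := fun σ k => by
    refine congrArg Quotient.out (Quotient.sound ?_)
    refine QuotientGroup.rightRel_apply.mpr ?_
    rw [mul_inv_rev, mul_inv_cancel_left]
    exact inv_mem ⟨σ, rfl⟩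
  choose t ht using hr
  -- the value attached to a decomposition element and a representative
  let val : Γ → G → P → Ω := fun σ s b =>
    y σ b - σ • e ((π (ρ σ))⁻¹ • b) - fv (ρ σ) s b
  have hval : ∀ σ σ' : Γ, ρ σ = ρ σ' → ∀ s b, val σ s b = val σ' s b := by
    intro σ σ' h s b
    obtain ⟨κ, rfl⟩ : ∃ κ, σ' = σ * κ := ⟨σ⁻¹ * σ', by rw [mul_inv_cancel_left]⟩
    have hκ : ρ κ = 1 := by
      rw [map_mul] at h
      exact left_eq_mul.mp h
    have h1 := hy σ κ ((π (ρ σ))⁻¹ • b)
    rw [smul_inv_smul, hκ, hf1', AddMonoidHom.zero_apply] at h1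
    have h2 := he κ hκ ((π (ρ σ))⁻¹ • b)
    simp only [val, map_mul, hκ, mul_one, mul_smul]
    rw [← sub_eq_zero]
    rw [← h2, smul_sub] at h1
    linear_combination (norm := abel) h1
  let C : G → P →+ Ω := fun k => AddMonoidHom.mk' (val (t k) (r k)) fun a b => by
    simp only [val, map_add, smul_add]
    abel
  have hk : ∀ k, ρ (t k) * r k = k := fun k => by rw [ht k]; group
  have hC : ∀ (σ : Γ) (k : G) (b : P),
      C (ρ σ * k) (π (ρ σ) • b) =
        σ • C k b + y σ (π (ρ σ) • b) - fv (ρ σ) k (π (ρ σ) • b) := by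
    intro σ k b
    have e1 : ρ (t (ρ σ * k)) = ρ (σ * t k) := by rw [map_mul, ht, ht, hrs]; group
    show val (t (ρ σ * k)) (r (ρ σ * k)) _ = _
    rw [hval _ _ e1, hrs]
    show _ = σ • val (t k) (r k) b + _ - _
    have h1 := hy σ (t k) b
    have h2 := hfcoc σ (ρ (t k)) (r k) b
    rw [hk] at h2
    simp only [val, map_mul, mul_inv_rev, mul_smul, inv_smul_smul, smul_sub]
    linear_combination (norm := abel) -h1 + h2
  refine ⟨C, ⟨fun σ h g b => ?_, fun σ h x hx => ?_⟩, fun U hUe hUy hUf k b => ?_⟩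
  · have h2 := hfcoc σ h g b
    rw [mul_assoc, hC, hC, smul_sub, smul_add]
    linear_combination (norm := abel) -h2
  · rw [hC, hyX σ _ (hXst _ x hx), hfX _ _ _ (hXst _ x hx), add_zero, sub_zero]
  · exact sub_mem (sub_mem (hUy _ _) (hUe _ _)) (hUf _ _ _)

end FermatLib.CFT.S55
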