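import Fermat.Agent.CFT.GWTateLocal
import Fermat.Agent.CFT.S55Sha2SurjPlace

/-!
Idele cochains from place functions (S55).
-/

set_option autoImplicit false

open CategoryTheory groupCohomology ExtCitation NumberField

namespace FermatLib.CFT.S55

open FermatLib FermatLib.CFT.GWKummer

local notation "Γℚ" => AlgebraicClosure ℚ ≃ₐ[ℚ] AlgebraicClosure ℚ
local notation "Qbar" => AlgebraicClosure ℚ

variable (F : IntermediateField ℚ (AlgebraicClosure ℚ)) [NumberField F]

/-- The value of an element at the standard embedding. -/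
noncomputable def finAt (q : Nat.Primes) : LUnits F →+ QUnits q :=
  (localValue F q).comp (principalIdele F)

/-- The value of an element at the standard complex embedding. -/
noncomputable def infAt : LUnits F →+ CUnits :=
  (infValue F).comp (principalIdele F)

/-- The base complex embedding. -/
noncomputable def embInf : F →+* ℂ :=
  complexEmbedding.toRingHom.comp (algebraMap F Qbar)

variable [IsGalois ℚ F]

/-- The decomposition group at infinity in the group of the level. -/
noncomputable def infGal : ↥archimedeanDecomposition →* (F ≃ₐ[ℚ] F) :=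
  (galTo F).comp archimedeanLoc

theorem embInf_archimedean (τ : ↥archimedeanDecomposition) (x : F) :
    embInf F (infGal F τ x) = archimedeanAct τ (embInf F x) :=
  (congrArg complexEmbedding (coe_galTo F (archimedeanLoc τ) x)).trans
    (complexEmbedding_archimedean τ (x : Qbar))

theorem conj_embInf :
    (starRingEnd ℂ).comp (embInf F) =
      (embInf F).comp ((infGal F archimedeanGen : F ≃ₐ[ℚ] F) : F →+* F) :=
  RingHom.ext fun x => by
    show starRingEnd ℂ (complexEmbedding (x : Qbar)) = _
    refine ((embInf_archimedean F archimedeanGen x).trans ?_).symm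
    have h := complexEmbedding_archimedean archimedeanGen (x : Qbar)
    rw [archimedeanLoc_archimedeanGen, complexEmbedding_complexConjugation] at h
    exact h.symm

theorem finAt_mem_unitGroup_of_nsmul {n : ℕ} (hn : n ≠ 0) (q : Nat.Primes) {x : LUnits F}
    (hx : n • x = 0) : finAt F q x ∈ QUnits.unitGroup q := by
  have h : n • finAt F q x = 0 := by rw [← map_nsmul, hx, map_zero]
  rw [QUnits.mem_unitGroup_iff]
  have h2 : (finAt F q x).toField ^ n = 1 := congrArg QUnits.toField h
  have h3 := congrArg norm h2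
  rw [norm_pow, norm_one] at h3
  exact (pow_eq_one_iff_of_nonneg (norm_nonneg _) hn).1 h3

variable {G₀ : Type*} [Group G₀] (π : (F ≃ₐ[ℚ] F) →* G₀)
  {P : Type*} [AddCommGroup P] [DistribMulAction G₀ P]

/-- The values at `φ₀ ∘ g` of the cochain attached to a place function. -/
def cochainValue {G Ω : Type*} [Group G] [AddCommGroup Ω] (pi : G →* G₀)
    (fv : G → G → P →+ Ω) (C : G → P →+ Ω) (g h : G) (b : P) : Ω :=
  fv h g (pi h • b) + C (h * g) (pi h • b) - C h (pi h • b)

theorem cochainValue_mul {G Γ Ω : Type*} [Group G] [Group Γ] [AddCommGroup Ω]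
    [DistribMulAction Γ Ω] {pi : G →* G₀} {ρ : Γ →* G} {fv : G → G → P →+ Ω} {X : AddSubgroup P}
    {C : G → P →+ Ω} (hC : IsPlaceFun pi ρ fv X C) (σ : Γ) (g h : G) (b : P) :
    cochainValue pi fv C g (ρ σ * h) b = σ • cochainValue pi fv C g h b := by
  simp only [cochainValue, map_mul, mul_smul]
  exact hC.sub_equivariant σ h g (pi h • b)

/-- The coboundary of the values of a cochain is the value of the cocycle. -/
private theorem cochainValue_coboundary {G M Ω : Type*} [Group G] [AddCommGroup M]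
    [DistribMulAction G M] [AddCommGroup Ω] (pi : G →* G₀) (ev : M →+ Ω) (fm : G → G → P →+ M)
    (C : G → P →+ Ω)
    (hcoc : ∀ (g h k : G) (b : P),
      g • fm h k b - fm (g * h) k (pi g • b) + fm g (h * k) (pi g • b) - fm g h (pi g • b) = 0)
    (h g g' : G) (b : P) :
    cochainValue pi (fun g h => ev.comp (fm g h)) C g' (h * g) ((pi g)⁻¹ • b) -
        cochainValue pi (fun g h => ev.comp (fm g h)) C (g * g') h b +
        cochainValue pi (fun g h => ev.comp (fm g h)) C g h b = ev (h • fm g g' b) := by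
  have h2 := congrArg ev (hcoc h g g' b)
  rw [map_sub, map_add, map_sub, map_zero] at h2
  simp only [cochainValue, map_mul, mul_smul, smul_inv_smul, AddMonoidHom.comp_apply, mul_assoc]
  linear_combination (norm := abel) -h2

/-- Idele cochains with coboundary `fF`, whose restriction to `X` is the coboundary of `u`. -/
theorem exists_ideleCochain {S : Set Nat.Primes} (fF : (F ≃ₐ[ℚ] F) → (F ≃ₐ[ℚ] F) → P →+ LUnits F)
    (X : AddSubgroup P) (hXst : ∀ (g : G₀), ∀ x ∈ X, g • x ∈ X)
    (hfX : ∀ g h, ∀ x ∈ X, fF g h x = 0)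
    (hcoc : ∀ (g h k : F ≃ₐ[ℚ] F) (b : P),
      g • fF h k b - fF (g * h) k (π g • b) + fF g (h * k) (π g • b) - fF g h (π g • b) = 0)
    {n : ℕ} (hn : n ≠ 0) (htor : ∀ g h b, n • fF g h b = 0)
    (Cq : ∀ q : Nat.Primes, (F ≃ₐ[ℚ] F) → P →+ QUnits q)
    (hCq : ∀ q, IsPlaceFun π (GWTate.locTo F q) (fun g h => (finAt F q).comp (fF g h)) X (Cq q))
    (hS : ∀ q, q ∉ S → ∀ k b, Cq q k b ∈ QUnits.unitGroup q)
    (hfinite : S.Finite)
    (Ci : (F ≃ₐ[ℚ] F) → P →+ CUnits)
    (hCi : IsPlaceFun π (infGal F) (fun g h => (infAt F).comp (fF g h)) X Ci) :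
    ∃ (a : (F ≃ₐ[ℚ] F) → P →+ Idele F) (u : X →+ Idele F),
      (∀ x, u x ∈ sIdeles F S) ∧
      (∀ g g' b, g • a g' ((π g)⁻¹ • b) - a (g * g') b + a g b =
        principalIdele F (fF g g' b)) ∧
      ∀ g (x : X), a g (x : P) =
        g • u ⟨(π g)⁻¹ • (x : P), hXst _ _ x.2⟩ - u x := by
  let φ : ∀ q, Emb F q := fun q => stdEmb F q
  let χ : F →+* ℂ := embInf F
  let vq : ∀ q, (F ≃ₐ[ℚ] F) → (F ≃ₐ[ℚ] F) → P → QUnits q := fun q g h b =>
    cochainValue π (fun g h => (finAt F q).comp (fF g h)) (Cq q) g h b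
  let vi : (F ≃ₐ[ℚ] F) → (F ≃ₐ[ℚ] F) → P → CUnits := fun g h b =>
    cochainValue π (fun g h => (infAt F).comp (fF g h)) Ci g h b
  have hpost : ∀ q (τ : Gloc q) (ψ : Emb F q), autOf (φ q) (ψ.postComp τ) =
      GWTate.locTo F q τ * autOf (φ q) ψ := by
    intro q τ ψ
    refine (φ q).preComp_injective ?_
    rw [preComp_autOf, preComp_mul, ← GWTate.stdEmb_postComp_locTo F q τ, ← postComp_preComp,
      preComp_autOf]
  have hconj : ∀ ψ : F →+* ℂ, autOfInf χ ((starRingEnd ℂ).comp ψ) =
      infGal F archimedeanGen * autOfInf χ ψ := by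
    intro ψ
    refine (Eq.trans ?_ (autOfInf_comp χ _))
    refine congrArg (autOfInf χ) ?_
    rw [comp_algEquiv_mul, ← conj_embInf F, RingHom.comp_assoc, comp_autOfInf]
  have hunit : ∀ q, q ∉ S → ∀ g h b, vq q g h b ∈ QUnits.unitGroup q := fun q hq g h b =>
    sub_mem (add_mem (finAt_mem_unitGroup_of_nsmul F hn q (htor _ _ _)) (hS q hq _ _)) (hS q hq _ _)
  let aF : (F ≃ₐ[ℚ] F) → P → Idele F := fun g b =>
    ⟨(fun q ψ => vq q g (autOf (φ q) ψ) b, fun ψ => vi g (autOfInf χ ψ) b),
      fun q τ ψ => by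
        show vq q g (autOf (φ q) (ψ.postComp τ)) b = _
        rw [hpost]
        exact cochainValue_mul (hCq q) τ g _ b,
      hfinite.subset fun q ⟨ψ, hψ⟩ => by_contra fun hq => hψ (hunit q hq _ _ _),
      fun ψ => by
        show vi g (autOfInf χ ((starRingEnd ℂ).comp ψ)) b = _
        rw [hconj, ← archimedeanGen_smul]
        exact cochainValue_mul hCi archimedeanGen g _ b⟩
  let uF : X → Idele F := fun x =>
    ⟨(fun q ψ => Cq q (autOf (φ q) ψ) (π (autOf (φ q) ψ) • (x : P)),
      fun ψ => Ci (autOfInf χ ψ) (π (autOfInf χ ψ) • (x : P))),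
      fun q τ ψ => by
        show Cq q (autOf (φ q) (ψ.postComp τ)) _ = _
        rw [hpost, map_mul, mul_smul]
        exact (hCq q).equivariant τ _ _ (hXst _ _ x.2),
      hfinite.subset fun q ⟨ψ, hψ⟩ => by_contra fun hq => hψ (hS q hq _ _),
      fun ψ => by
        show Ci (autOfInf χ ((starRingEnd ℂ).comp ψ)) _ = _
        rw [hconj, map_mul, mul_smul, ← archimedeanGen_smul]
        exact hCi.equivariant archimedeanGen _ _ (hXst _ _ x.2)⟩
  refine ⟨fun g => AddMonoidHom.mk' (aF g) fun b b' => ?_,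
    AddMonoidHom.mk' uF fun x x' => ?_, fun x q hq ψ => hS q hq _ _, fun g g' b => ?_,
    fun g x => ?_⟩
  · refine Subtype.ext (Prod.ext (funext fun q => funext fun ψ => ?_) (funext fun ψ => ?_))
    · show vq q g _ (b + b') = vq q g _ b + vq q g _ b'
      simp only [vq, cochainValue, smul_add, map_add]
      abel
    · show vi g _ (b + b') = vi g _ b + vi g _ b'
      simp only [vi, cochainValue, smul_add, map_add]
      abel
  · refine Subtype.ext (Prod.ext (funext fun q => funext fun ψ => ?_) (funext fun ψ => ?_))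
    · show Cq q _ (π (autOf (φ q) ψ) • ((x : P) + (x' : P))) = Cq q _ _ + Cq q _ _
      rw [smul_add, map_add]
    · show Ci _ (π (autOfInf χ ψ) • ((x : P) + (x' : P))) = Ci _ _ + Ci _ _
      rw [smul_add, map_add]
  · refine Subtype.ext (Prod.ext (funext fun q => funext fun ψ => ?_) (funext fun ψ => ?_))
    · show vq q g' (autOf (φ q) (ψ.preComp g)) ((π g)⁻¹ • b)
          - vq q (g * g') (autOf (φ q) ψ) b + vq q g (autOf (φ q) ψ) b
        = (principalIdele F (fF g g' b)).fin q ψ
      obtain ⟨h, rfl⟩ : ∃ h, (φ q).preComp h = ψ := ⟨_, preComp_autOf _ _⟩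
      rw [← preComp_mul, autOf_preComp, autOf_preComp]
      have e : (principalIdele F (fF g g' b)).fin q ((φ q).preComp h) =
          finAt F q (h • fF g g' b) := by
        show _ = localValue F q (principalIdele F (h • fF g g' b))
        rw [principalIdele_smul]
        rfl
      exact (cochainValue_coboundary π (finAt F q) fF _ hcoc h g g' b).trans e.symm
    · show vi g' (autOfInf χ (ψ.comp (g : F →+* F))) ((π g)⁻¹ • b)
          - vi (g * g') (autOfInf χ ψ) b
          + vi g (autOfInf χ ψ) b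
        = (principalIdele F (fF g g' b)).inf ψ
      obtain ⟨h, rfl⟩ : ∃ h : F ≃ₐ[ℚ] F, χ.comp (h : F →+* F) = ψ := ⟨_, comp_autOfInf _ _⟩
      rw [← comp_algEquiv_mul, autOfInf_comp, autOfInf_comp]
      have e : (principalIdele F (fF g g' b)).inf (χ.comp (h : F →+* F)) =
          infAt F (h • fF g g' b) := by
        show _ = infValue F (principalIdele F (h • fF g g' b))
        rw [principalIdele_smul]
        rfl
      exact (cochainValue_coboundary π (infAt F) fF _ hcoc h g g' b).trans e.symm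
  · refine Subtype.ext (Prod.ext (funext fun q => funext fun ψ => ?_) (funext fun ψ => ?_))
    · show vq q g (autOf (φ q) ψ) (x : P) =
        Cq q (autOf (φ q) (ψ.preComp g))
            (π (autOf (φ q) (ψ.preComp g)) • (π g)⁻¹ • (x : P)) -
          Cq q (autOf (φ q) ψ) (π (autOf (φ q) ψ) • (x : P))
      obtain ⟨h, rfl⟩ : ∃ h, (φ q).preComp h = ψ := ⟨_, preComp_autOf _ _⟩
      rw [← preComp_mul, autOf_preComp, autOf_preComp, map_mul, mul_smul, smul_inv_smul]
      simp only [vq, cochainValue, AddMonoidHom.comp_apply, hfX _ _ _ (hXst _ _ x.2), map_zero,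
        zero_add]
    · show vi g (autOfInf χ ψ) (x : P) =
        Ci (autOfInf χ (ψ.comp (g : F →+* F)))
            (π (autOfInf χ (ψ.comp (g : F →+* F))) • (π g)⁻¹ • (x : P)) -
          Ci (autOfInf χ ψ) (π (autOfInf χ ψ) • (x : P))
      obtain ⟨h, rfl⟩ : ∃ h : F ≃ₐ[ℚ] F, χ.comp (h : F →+* F) = ψ := ⟨_, comp_autOfInf _ _⟩
      rw [← comp_algEquiv_mul, autOfInf_comp, autOfInf_comp, map_mul, mul_smul, smul_inv_smul]
      simp only [vi, cochainValue, AddMonoidHom.comp_apply, hfX _ _ _ (hXst _ _ x.2), map_zero,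
        zero_add]

end FermatLib.CFT.S55
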