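import Fermat.Agent.CFT.S55Sha2SurjCoeff
import Fermat.Agent.CFT.S55Sha2SurjPlace
import Fermat.Agent.CFT.S55Sha2SurjFamily
import Fermat.Agent.CFT.LocalUnramified
import Fermat.Agent.CFT.IdeleCapitulation

/-!
Place functions of a locally trivial class at primes of `S`, at unramified primes and at infinity
(S55).
-/

set_option autoImplicit false
set_option linter.style.haveILetI false
set_option linter.unusedSectionVars false

open CategoryTheory groupCohomology ExtCitation NumberField

namespace FermatLib.CFT.S55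

open FermatLib FermatLib.CFT.GWKummer FermatLib.CFT.GWTate

local notation "Γℚ" => AlgebraicClosure ℚ ≃ₐ[ℚ] AlgebraicClosure ℚ
local notation "Qbar" => AlgebraicClosure ℚ

variable {p : ℕ} [Fact p.Prime] {M : Rep (ZMod p) Γℚ} {S : Finset Nat.Primes}
  (D : Level (M.dualTwist (cycloChar p)) S)
  {ζ : AlgebraicClosure ℚ} (hζ : IsPrimitiveRoot ζ p)
  {F : IntermediateField ℚ (AlgebraicClosure ℚ)} [NumberField F] [IsGalois ℚ F] (hle : D.field ≤ F)
  {ι : Type} [Fintype ι] (v : ι → D.Mod) (c : LevelCocycle (M := M) F)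

/-- A local primitive and roots for it on the generators give a place function. -/
theorem exists_placeFun_of_primitive {Γ : Type} [Group Γ] {Ω : Type} [AddCommGroup Ω]
    [DistribMulAction Γ Ω] (loc : Γ →* Γℚ) (φ : QbarU →+ Ω)
    (hφ : ∀ σ x, φ (loc σ • x) = σ • φ x) (vat : LUnits F →+ Ω)
    (hvat : ∀ x, vat x = φ (unitsToQbar F x)) (η : Γ → M)
    (hη : ∀ σ τ, M.ρ (loc σ) (η τ) - η (σ * τ) + η σ =
      c.toFun (galTo F (loc σ)) (galTo F (loc τ)))
    (β : ι → D.Gal → Ω)
    (hβ : ∀ κ, galTo F (loc κ) = 1 → ∀ i γ,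
      κ • β i γ - β i γ = φ (coeffMap D hζ (η κ) (γ • v i))) :
    ∃ C, IsPlaceFun (galRes hle) ((galTo F).comp loc)
        (fun g h => vat.comp (freeCochain D hζ hle v c g h)) (relSub D v) C ∧
      ∀ U : AddSubgroup Ω, (∀ (σ : Γ) i γ, σ • β i γ ∈ U) → (∀ x : Ω, p • x = 0 → x ∈ U) →
        ∀ k b, C k b ∈ U := by
  have hπ : ∀ σ, galRes hle (((galTo F).comp loc) σ) = D.res (loc σ) := fun σ =>
    galRes_galTo_eq D hle (loc σ)
  have hfv : ∀ g h b, vat (freeCochain D hζ hle v c g h b) =
      φ (coeffMap D hζ (c.toFun g h) (presMap v b)) := fun g h b => by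
    rw [hvat, unitsToQbar_freeCochain]
  have hvs : ∀ σ x, vat (galTo F (loc σ) • x) = σ • vat x := fun σ x => by
    rw [hvat, unitsToQbar_smul, hφ, ← hvat]
  let e : Pres ι D.Gal →+ Ω := freeLift β
  let y : Γ → Pres ι D.Gal →+ Ω := fun σ => (φ.comp (coeffMap D hζ (η σ))).comp (presMap v)
  obtain ⟨C, hC, hU⟩ := exists_placeFun (galRes hle) ((galTo F).comp loc)
    (fun g h => vat.comp (freeCochain D hζ hle v c g h)) (relSub D v)
    (fun g x hx => smul_mem_relSub D v g hx)
    (fun g h x hx => by rw [AddMonoidHom.comp_apply, freeCochain_relSub D hζ hle v c g h hx, map_zero])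
    (fun σ k r b => by
      have h1 := congrArg vat (freeCochain_cocycle D hζ hle v c (((galTo F).comp loc) σ) k r b)
      simp only [map_sub, map_add, map_zero, MonoidHom.comp_apply, hvs] at h1
      exact h1)
    (fun g => AddMonoidHom.ext fun b => by
      rw [AddMonoidHom.comp_apply, hfv, c.one_right, map_zero]
      exact map_zero φ)
    y (fun σ x hx => by
      show φ (coeffMap D hζ (η σ) (presMap v x)) = 0
      rw [show presMap v x = 0 from hx, map_zero, map_zero])
    (fun σ τ b => by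
      show σ • φ (coeffMap D hζ (η τ) (presMap v b)) -
          φ (coeffMap D hζ (η (σ * τ)) (presMap v (galRes hle (((galTo F).comp loc) σ) • b))) +
          φ (coeffMap D hζ (η σ) (presMap v (galRes hle (((galTo F).comp loc) σ) • b))) =
        vat (freeCochain D hζ hle v c (((galTo F).comp loc) σ) (((galTo F).comp loc) τ)
          (galRes hle (((galTo F).comp loc) σ) • b))
      rw [hfv, hπ, presMap_smul, MonoidHom.comp_apply, MonoidHom.comp_apply, ← hη, map_add,
        map_sub, AddMonoidHom.add_apply, AddMonoidHom.sub_apply, coeffMap_ρ, inv_smul_smul,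
        map_add, map_sub, hφ])
    e (fun κ hκ b => by
      have h2 : ((DistribSMul.toAddMonoidHom Ω κ).comp e - e) = y κ := free_ext fun i γ => by
        show κ • freeLift β (presSingle i γ) - freeLift β (presSingle i γ) =
          φ (coeffMap D hζ (η κ) (presMap v (presSingle i γ)))
        rw [freeLift_presSingle, presMap_presSingle]
        exact hβ κ hκ i γ
      exact DFunLike.congr_fun h2 b)
  refine ⟨C, hC, fun U h1 h2 => hU U (fun σ b => ?_) (fun σ b => h2 _ ?_) fun g h b => h2 _ ?_⟩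
  · show σ • (∑ i, ∑ γ, b i γ • β i γ) ∈ U
    simp only [Finset.smul_sum, smul_comm σ]
    exact sum_mem fun i _ => sum_mem fun γ _ => zsmul_mem (h1 σ i γ) _
  · show p • φ (coeffMap D hζ (η σ) (presMap v b)) = 0
    rw [← map_nsmul, ← map_nsmul, D.nsmul_mod, map_zero, map_zero]
  · show p • vat (freeCochain D hζ hle v c g h b) = 0
    rw [← map_nsmul, nsmul_freeCochain, map_zero]

/-- Hilbert 90 at a prime: roots for a level constant primitive on the automorphisms trivial on
the level. -/
theorem exists_localRoot (q : Nat.Primes) (η : primeLocalGaloisGroup q → M)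
    (hη : ∀ σ τ, M.ρ (primeLocalToGlobal q σ) (η τ) - η (σ * τ) + η σ =
      c.toFun (locTo F q σ) (locTo F q τ))
    (E : IntermediateField ℚ (AlgebraicClosure ℚ)) [FiniteDimensional ℚ E]
    (hE : ∀ g s, primeLocalToGlobal q s ∈ E.fixingSubgroup → η (g * s) = η g)
    (x : D.Mod) (hle : D.field ≤ F) :
    ∃ β : QUnits q, ∀ κ, locTo F q κ = 1 →
      κ • β - β = toQUnits q (coeffMap D hζ (η κ) x) := by
  haveI : NumberField E := ⟨⟩
  let act : primeLocalGaloisGroup q →* (PadicAlgCl (q : ℕ) ≃+* PadicAlgCl (q : ℕ)) :=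
    MonoidHom.mk' (fun τ => AlgEquiv.toRingEquiv
      (show PadicAlgCl (q : ℕ) ≃ₐ[ℚ_[(q : ℕ)]] PadicAlgCl (q : ℕ) from τ)) fun _ _ => rfl
  refine (exists_coboundary_of_embedding act
    ((padicEmbedding (q : ℕ)).toRingHom.comp (algebraMap E Qbar))
    (locTo F q).ker (fun τ => Additive.toMul (toQUnits q (coeffMap D hζ (η τ) x)))
    (fun σ hσ τ hτ => ?_) (fun σ _ τ _ h => ?_)).elim fun β hβ => ?_
  · have hσ' : D.res (primeLocalToGlobal q σ) = 1 := by
      rw [← galRes_galTo_eq D hle, ← locTo_apply, MonoidHom.mem_ker.1 hσ, map_one]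
    have h1 := hη σ τ
    rw [MonoidHom.mem_ker.1 hσ, c.one_left, add_comm, ← add_sub_assoc, sub_eq_zero] at h1
    have h2 : toQUnits q (coeffMap D hζ (η (σ * τ)) x) =
        toQUnits q (coeffMap D hζ (η σ) x) + σ • toQUnits q (coeffMap D hζ (η τ) x) := by
      rw [← h1, map_add, AddMonoidHom.add_apply, coeffMap_ρ, hσ', inv_one, one_smul, map_add,
        toQUnits_smul]
    exact congrArg QUnits.toField h2
  · have hfix : primeLocalToGlobal q (σ⁻¹ * τ) ∈ E.fixingSubgroup := by
      rw [IntermediateField.mem_fixingSubgroup_iff]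
      intro y hy
      refine (padicEmbedding (q : ℕ)).toRingHom.injective ?_
      refine (padicEmbedding_localGaloisToGlobal (q : ℕ) (σ⁻¹ * τ) y).trans ?_
      show act (σ⁻¹ * τ) (padicEmbedding (q : ℕ) y) = _
      rw [map_mul, RingAut.mul_apply,
        show act τ (padicEmbedding (q : ℕ) y) = act σ (padicEmbedding (q : ℕ) y) from
          (h ⟨y, hy⟩).symm,
        ← RingAut.mul_apply, ← map_mul, inv_mul_cancel, map_one]
      rfl
    have := hE σ (σ⁻¹ * τ) hfix
    rw [mul_inv_cancel_left] at this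
    rw [this]
  · refine ⟨Additive.ofMul β, fun κ hκ => ?_⟩
    have h1 : QUnits.toField (κ • (Additive.ofMul β : QUnits q)) =
        QUnits.toField (toQUnits q (coeffMap D hζ (η κ) x) + Additive.ofMul β) :=
      hβ κ (MonoidHom.mem_ker.2 hκ)
    rw [QUnits.toField_injective h1, add_sub_cancel_right]

/-- The place function at a prime with a level constant primitive. -/
theorem exists_placeFun_prime (q : Nat.Primes) (η : primeLocalGaloisGroup q → M)
    (hη : ∀ σ τ, M.ρ (primeLocalToGlobal q σ) (η τ) - η (σ * τ) + η σ =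
      c.toFun (locTo F q σ) (locTo F q τ))
    (hlev : IsLevelConstant₁ (primeLocalToGlobal q) η) :
    ∃ C, IsPlaceFun (galRes hle) (locTo F q)
      (fun g h => (finAt F q).comp (freeCochain D hζ hle v c g h)) (relSub D v) C := by
  obtain ⟨E, hE, hconst⟩ := hlev
  haveI := hE
  choose β hβ using fun (t : ι × D.Gal) =>
    exists_localRoot D hζ c q η hη E hconst (t.2 • v t.1) hle
  obtain ⟨C, hC, -⟩ := exists_placeFun_of_primitive D hζ hle v c (primeLocalToGlobal q)
    (toQUnits q) (toQUnits_smul q) (finAt F q) (fun x => QUnits.toField_injective rfl) η hη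
    (fun i γ => β (i, γ)) fun κ hκ i γ => hβ (i, γ) κ hκ
  exact ⟨C, hC⟩

/-- An extension by roots of unity in which Frobenius has order divisible by `N`. -/
theorem exists_unramified_level (q : Nat.Primes)
    (hF : IsUnramifiedAtRel (⊤ : Subgroup (F ≃ₐ[ℚ] F)) q) (N : ℕ) (hN : 0 < N) :
    ∃ E : IntermediateField ℚ (AlgebraicClosure ℚ), ∃ _ : NumberField E, ∃ _ : IsGalois ℚ E,
      F ≤ E ∧ IsUnramifiedAtRel (⊤ : Subgroup (E ≃ₐ[ℚ] E)) q ∧
      ∀ g : decompGroup (stdEmb E q),
        (∀ x : E, ‖stdEmb E q x‖ ≤ 1 →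
          ‖stdEmb E q ((g : E ≃ₐ[ℚ] E) x) - stdEmb E q x ^ (q : ℕ)‖ < 1) → N ∣ orderOf g := by
  haveI : IsAlgClosure ℚ Qbar := ⟨inferInstance, AlgebraicClosure.isAlgebraic ℚ⟩
  haveI : IsGalois ℚ Qbar := IsAlgClosure.isGalois ℚ Qbar
  haveI : Normal ℚ Qbar := IsGalois.to_normal
  haveI : Normal ℚ F := IsGalois.to_normal
  set m := (q : ℕ) ^ N - 1 with hm
  have hm0 : m ≠ 0 := by
    have := Nat.one_lt_pow hN.ne' q.2.one_lt
    omega
  haveI : NeZero m := ⟨hm0⟩
  have hmq : ‖(m : PadicAlgCl (q : ℕ))‖ = 1 := by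
    rw [← map_natCast (algebraMap ℚ_[(q : ℕ)] (PadicAlgCl (q : ℕ))), PadicAlgCl.norm_extends,
      Padic.norm_natCast_eq_one_iff]
    rcases Nat.coprime_or_dvd_of_prime q.2 m with h | h
    · exact h
    · exfalso
      have h1 : (q : ℕ) ∣ (q : ℕ) ^ N := dvd_pow_self _ hN.ne'
      have h2 : (q : ℕ) ∣ 1 := by
        have := Nat.dvd_sub h1 h
        rwa [hm, Nat.sub_sub_self (Nat.one_le_pow _ _ q.2.pos)] at this
      exact q.2.not_dvd_one h2
  obtain ⟨ξ, hξ⟩ := HasEnoughRootsOfUnity.exists_primitiveRoot Qbar m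
  let R : Set Qbar := {z | z ^ m = 1}
  have hRfin : R.Finite := ((Polynomial.nthRoots m (1 : Qbar)).toFinset.finite_toSet).subset
    fun z hz => Multiset.mem_toFinset.2 ((Polynomial.mem_nthRoots (Nat.pos_of_ne_zero hm0)).2 hz)
  let E : IntermediateField ℚ Qbar := IntermediateField.adjoin ℚ ((F : Set Qbar) ∪ R)
  have hle : F ≤ E := fun z hz => IntermediateField.subset_adjoin _ _ (Or.inl hz)
  have hfd : FiniteDimensional ℚ E := by
    haveI : Finite R := hRfin.to_subtype
    haveI : FiniteDimensional ℚ (IntermediateField.adjoin ℚ R) :=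
      IntermediateField.finiteDimensional_adjoin fun y _ =>
        (Algebra.IsAlgebraic.isAlgebraic y).isIntegral
    show FiniteDimensional ℚ (IntermediateField.adjoin ℚ ((F : Set Qbar) ∪ R) : IntermediateField ℚ Qbar)
    rw [IntermediateField.adjoin_union, IntermediateField.adjoin_self]
    infer_instance
  haveI : NumberField E := ⟨⟩
  haveI : Normal ℚ E := by
    refine IntermediateField.normal_iff_forall_map_le.2 fun σ => ?_
    show (IntermediateField.adjoin ℚ ((F : Set Qbar) ∪ R)).map _ ≤ _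
    rw [IntermediateField.adjoin_map, IntermediateField.adjoin_le_iff]
    rintro _ ⟨z, hz | hz, rfl⟩
    · refine IntermediateField.subset_adjoin _ _ (Or.inl ?_)
      rw [SetLike.mem_coe, show σ z = ((σ.restrictNormal F ⟨z, hz⟩ : F) : Qbar)
        from (σ.restrictNormal_commutes F ⟨z, hz⟩).symm]
      exact SetLike.coe_mem _
    · exact IntermediateField.subset_adjoin _ _ (Or.inr (show (σ z) ^ m = 1 by
        rw [← map_pow, show z ^ m = 1 from hz, map_one]))
  haveI : IsGalois ℚ E := ⟨⟩
  letI : Algebra F E := (IntermediateField.inclusion hle).toRingHom.toAlgebra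
  haveI : IsScalarTower ℚ F E := IsScalarTower.of_algebraMap_eq' (Subsingleton.elim _ _)
  refine ⟨E, inferInstance, inferInstance, hle, fun φ g _ hg => ?_, fun g hg => ?_⟩
  · have hK : ∀ z, g (algebraMap F E z) = algebraMap F E z := fun z => by
      rw [← g.restrictNormal_commutes, show g.restrictNormal F = 1 from
        hF _ _ trivial (restrictNormal_mem_inertiaGroup φ hg)]
      rfl
    suffices key : ∀ (z : Qbar) (hz : z ∈ E), g ⟨z, hz⟩ = ⟨z, hz⟩ from
      AlgEquiv.ext fun z => key z z.2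
    intro z hz
    induction hz using IntermediateField.adjoin_induction with
    | mem z hz =>
      rcases hz with hz | hz
      · exact hK ⟨z, hz⟩
      · refine inertia_fixes_root hmq φ hg hK (c := (1 : F)) (d := 1) one_ne_zero
          (Subtype.ext (by simpa using (show z ^ m = 1 from hz))) (by simp)
    | algebraMap r => exact g.commutes r
    | add x y hx hy h1 h2 =>
      rw [show (⟨x + y, add_mem hx hy⟩ : E) = ⟨x, hx⟩ + ⟨y, hy⟩ from rfl, map_add, h1, h2]
    | inv x hx h1 =>
      rw [show (⟨x⁻¹, inv_mem hx⟩ : E) = ⟨x, hx⟩⁻¹ from rfl, map_inv₀, h1]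
    | mul x y hx hy h1 h2 =>
      rw [show (⟨x * y, mul_mem hx hy⟩ : E) = ⟨x, hx⟩ * ⟨y, hy⟩ from rfl, map_mul, h1, h2]
  · let ξE : E := ⟨ξ, IntermediateField.subset_adjoin _ _ (Or.inr hξ.pow_eq_one)⟩
    have hξE : IsPrimitiveRoot (stdEmb E q ξE) m :=
      hξ.map_of_injective (f := (padicEmbedding (q : ℕ)).toRingHom)
        (padicEmbedding (q : ℕ)).toRingHom.injective
    have hgξ : (g : E ≃ₐ[ℚ] E) ξE = ξE ^ (q : ℕ) := by
      refine (stdEmb E q).injective ?_
      rw [map_pow]
      have hne : (stdEmb E q) ξE ^ (q : ℕ) ≠ 0 := pow_ne_zero _ (hξE.ne_zero hm0)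
      have hnorm : ‖(stdEmb E q) ξE‖ = 1 := by
        have h := congrArg norm hξE.pow_eq_one
        rwa [norm_pow, norm_one, pow_eq_one_iff_of_nonneg (norm_nonneg _) hm0] at h
      refine (div_eq_one_iff_eq hne).1
        (eq_one_of_pow_eq_one_of_norm_natCast (m := m) hmq ?_ ?_)
      · rw [div_pow, ← map_pow (stdEmb E q), ← map_pow,
          show ξE ^ m = 1 from Subtype.ext (by simpa using hξ.pow_eq_one), map_one, map_one,
          ← pow_mul, mul_comm, pow_mul, hξE.pow_eq_one, one_pow, div_one]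
      · rw [div_sub_one hne, norm_div, norm_pow, hnorm, one_pow, div_one]
        exact hg ξE hnorm.le
    have hpow : ∀ j : ℕ, ((g : E ≃ₐ[ℚ] E) ^ j) ξE = ξE ^ ((q : ℕ) ^ j) := by
      intro j
      induction j with
      | zero => simp
      | succ j ih => rw [pow_succ', AlgEquiv.mul_apply, ih, map_pow, hgξ, ← pow_mul, pow_succ']
    obtain ⟨L, hL⟩ : ∃ L, orderOf g = L := ⟨_, rfl⟩
    have h1 := hpow L
    rw [← SubgroupClass.coe_pow, ← hL, pow_orderOf_eq_one, OneMemClass.coe_one, AlgEquiv.one_apply,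
      hL] at h1
    have h2 : (stdEmb E q) ξE ^ ((q : ℕ) ^ (L % N)) = (stdEmb E q) ξE := by
      have h3 : ∀ a r, (stdEmb E q) ξE ^ ((q : ℕ) ^ (N * a + r)) = (stdEmb E q) ξE ^ ((q : ℕ) ^ r) := by
        intro a r
        induction a with
        | zero => simp
        | succ a ih =>
          rw [show N * (a + 1) + r = N + (N * a + r) by ring, pow_add, pow_mul,
            show (q : ℕ) ^ N = m + 1 by have := Nat.one_le_pow N _ q.2.pos; omega,
            pow_succ, hξE.pow_eq_one, one_mul, ih]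
      rw [← h3 (L / N) (L % N), Nat.div_add_mod, ← map_pow, ← h1]
    have hlt : (q : ℕ) ^ (L % N) < (q : ℕ) ^ N := Nat.pow_lt_pow_right q.2.one_lt (Nat.mod_lt _ hN)
    rw [hL]
    by_contra hdiv
    have hr : 0 < L % N := Nat.pos_of_ne_zero fun h => hdiv (Nat.dvd_of_mod_eq_zero h)
    have hge : 1 < (q : ℕ) ^ (L % N) := Nat.one_lt_pow hr.ne' q.2.one_lt
    have h4 : (stdEmb E q) ξE ^ ((q : ℕ) ^ (L % N) - 1) = 1 := by
      refine mul_right_cancel₀ (hξE.ne_zero hm0) ?_
      rw [← pow_succ, Nat.sub_add_cancel hge.le, h2, one_mul]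
    have h5 := Nat.le_of_dvd (by omega) (hξE.dvd_of_pow_eq_one _ h4)
    omega

/-- The place function at a prime where the level is unramified, with unit values. -/
theorem exists_placeFun_unramified (q : Nat.Primes)
    (hF : IsUnramifiedAtRel (⊤ : Subgroup (F ≃ₐ[ℚ] F)) q) :
    ∃ C, IsPlaceFun (galRes hle) (locTo F q)
        (fun g h => (finAt F q).comp (freeCochain D hζ hle v c g h)) (relSub D v) C ∧
      ∀ k b, C k b ∈ QUnits.unitGroup q := by
  classical
  set K := Nat.card (F ≃ₐ[ℚ] F) with hK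
  have hK0 : 0 < K := Nat.card_pos
  obtain ⟨E, hE, hE', hFE, hur, hdvd⟩ :=
    exists_unramified_level q hF (p * K) (Nat.mul_pos (Fact.out : p.Prime).pos hK0)
  have hur' : ∀ g ∈ inertiaGroup (stdEmb E q), g = 1 := fun g hg => hur _ g trivial hg
  obtain ⟨g', hgen, hfrob⟩ := exists_frobenius_decompGroup (stdEmb E q) hur'
  obtain ⟨a, ha⟩ := hdvd g' hfrob
  have hex : ∀ σ, ∃ j : ℕ, (g' : E ≃ₐ[ℚ] E) ^ j = locTo E q σ := fun σ => by
    obtain ⟨j, hj⟩ := (mem_powers_iff_mem_zpowers (x := g')).2 (hgen (locDecomp E q σ))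
    exact ⟨j, congrArg Subtype.val hj⟩
  choose idx hidx using hex
  let g : F ≃ₐ[ℚ] F := galRes hFE (g' : E ≃ₐ[ℚ] E)
  have hgidx : ∀ σ, g ^ idx σ = locTo F q σ := fun σ => by
    rw [← map_pow, hidx, galRes_locTo]
  let s : ℕ → M := fun i => c.toFun (g ^ i) g
  have hs : ∀ i, s (i + K) = s i := fun i => by
    show c.toFun (g ^ (i + K)) g = _
    rw [pow_add, hK, pow_card_eq_one', mul_one]
  let T : ℕ → M := fun n => ∑ i ∈ Finset.range n, s i
  have hT : ∀ i j, (g' : E ≃ₐ[ℚ] E) ^ i = (g' : E ≃ₐ[ℚ] E) ^ j → T i = T j := by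
    intro i j hij
    have hmod : i ≡ j [MOD orderOf g'] := pow_eq_pow_iff_modEq.1 (Subtype.ext (by simpa using hij))
    have hred : ∀ n, T n = T (n % orderOf g') := fun n => by
      conv_lhs => rw [← Nat.div_add_mod n (orderOf g')]
      show ∑ i ∈ Finset.range _, s i = _
      rw [show orderOf g' * (n / orderOf g') = K * (p * a * (n / orderOf g')) by rw [ha]; ring,
        sum_range_mul_periodic hs, mul_assoc, mul_nsmul', ← Nat.cast_smul_eq_nsmul (ZMod p) p,
        ZMod.natCast_self, zero_smul, zero_add]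
    rw [hred i, hred j, hmod]
  let η : primeLocalGaloisGroup q → M := fun σ => -T (idx σ)
  have hη : ∀ σ τ, M.ρ (primeLocalToGlobal q σ) (η τ) - η (σ * τ) + η σ =
      c.toFun (locTo F q σ) (locTo F q τ) := by
    intro σ τ
    have e1 : T (idx (σ * τ)) = T (idx σ + idx τ) := hT _ _ (by rw [pow_add, hidx, hidx, hidx, map_mul])
    have e2 : ∀ l, M.ρ (primeLocalToGlobal q σ) (s l) =
        s (idx σ + l) - (c.toFun (g ^ idx σ) (g ^ (l + 1)) - c.toFun (g ^ idx σ) (g ^ l)) := by
      intro l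
      obtain ⟨α, hα⟩ := galTo_surjective F (g ^ l)
      obtain ⟨α', hα'⟩ := galTo_surjective F g
      have h := c.cocycle (primeLocalToGlobal q σ) α α'
      rw [hα, hα', ← locTo_apply, ← hgidx, ← pow_add, ← pow_succ] at h
      show M.ρ (primeLocalToGlobal q σ) (c.toFun (g ^ l) g) = c.toFun (g ^ (idx σ + l)) g - _
      rw [← sub_eq_zero]
      linear_combination (norm := abel) h
    have e3 : M.ρ (primeLocalToGlobal q σ) (T (idx τ)) =
        T (idx σ + idx τ) - T (idx σ) - c.toFun (g ^ idx σ) (g ^ idx τ) := by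
      show M.ρ _ (∑ i ∈ Finset.range _, s i) = _
      rw [map_sum, Finset.sum_congr rfl fun l _ => e2 l, Finset.sum_sub_distrib,
        Finset.sum_range_sub (fun l => c.toFun (g ^ idx σ) (g ^ l)), pow_zero, c.one_right,
        sub_zero]
      show _ = (∑ i ∈ Finset.range (idx σ + idx τ), s i) - _ - _
      rw [Finset.sum_range_add, add_sub_cancel_left]
    show M.ρ _ (-T (idx τ)) - -T (idx (σ * τ)) + -T (idx σ) = _
    rw [map_neg, e1, e3, ← hgidx, ← hgidx]
    abel
  have hker : ∀ σ, locTo E q σ = 1 → η σ = 0 := fun σ hσ => by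
    show -T (idx σ) = 0
    rw [hT (idx σ) 0 (by rw [hidx, hσ, pow_zero])]
    simp [T]
  have hconst : ∀ σ s', primeLocalToGlobal q s' ∈ E.fixingSubgroup → η (σ * s') = η σ := by
    intro σ s' hs'
    show -T _ = -T _
    rw [hT (idx (σ * s')) (idx σ) (by
      rw [hidx, hidx, map_mul, (locTo_eq_one_iff E q s').2 hs', mul_one])]
  have hroot : ∀ x : D.Mod, ∃ β : QUnits q, β ∈ QUnits.unitGroup q ∧
      ∀ κ, locTo F q κ = 1 → κ • β - β = toQUnits q (coeffMap D hζ (η κ) x) := by
    intro x
    obtain ⟨β, hβ⟩ := exists_localRoot D hζ c q η hη E hconst x hle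
    have hfix : ∀ τ : Gloc q, (stdEmb E q).postComp τ = stdEmb E q → τ β.toField = β.toField := by
      intro τ₀ hτ
      let τ : primeLocalGaloisGroup q := τ₀
      have h1 : locTo E q τ = 1 := (stdEmb E q).preComp_injective
        ((stdEmb_postComp_locTo E q τ).symm.trans hτ)
      have h2 : locTo F q τ = 1 := by rw [← galRes_locTo hFE, h1, map_one]
      have h3 := hβ τ h2
      rw [hker τ h1, map_zero, AddMonoidHom.zero_apply, map_zero, sub_eq_zero] at h3
      exact congrArg QUnits.toField h3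
    obtain ⟨k, hk⟩ := exists_zpow_q_eq_norm (stdEmb E q) hur' hfix (QUnits.toField_ne_zero β)
    refine ⟨β + k • primeVal q, ?_, fun κ hκ => ?_⟩
    · rw [QUnits.mem_unitGroup_iff, QUnits.toField_add, toField_zsmul_primeVal, norm_mul, hk,
        norm_zpow, ← mul_zpow]
      have hq : ‖((q : ℕ) : PadicAlgCl (q : ℕ))‖ = ((q : ℕ) : ℝ)⁻¹ := by
        rw [← map_natCast (algebraMap ℚ_[(q : ℕ)] (PadicAlgCl (q : ℕ))), PadicAlgCl.norm_extends,
          Padic.norm_p]
      rw [hq, mul_inv_cancel₀ (Nat.cast_ne_zero.2 q.2.ne_zero), one_zpow]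
    · rw [← hβ κ hκ, smul_add, smul_comm κ k, show κ • primeVal q = primeVal q from primeVal_fixed q κ]
      abel
  choose β hβu hβ using hroot
  obtain ⟨C, hC, hU⟩ := exists_placeFun_of_primitive D hζ hle v c (primeLocalToGlobal q)
    (toQUnits q) (toQUnits_smul q) (finAt F q) (fun x => QUnits.toField_injective rfl) η hη
    (fun i γ => β (γ • v i)) fun κ hκ i γ => hβ _ κ hκ
  refine ⟨C, hC, hU (QUnits.unitGroup q) (fun σ i γ => ?_) fun x hx => ?_⟩
  · rw [QUnits.mem_unitGroup_iff]
    exact ((congrArg norm (QUnits.toField_onUnits (show Gloc q from σ) _)).trans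
      (Loc.norm_gloc _ _)).trans ((QUnits.mem_unitGroup_iff _).1 (hβu _))
  · rw [QUnits.mem_unitGroup_iff]
    have h : x.toField ^ p = 1 := congrArg QUnits.toField hx
    have h2 := congrArg norm h
    rwa [norm_pow, norm_one, pow_eq_one_iff_of_nonneg (norm_nonneg _) (Fact.out : p.Prime).ne_zero] at h2

include hζ hle in
theorem infGal_gen_ne_one (hp2 : p ≠ 2) : infGal F archimedeanGen ≠ 1 := by
  obtain ⟨ζ₀, hζ₀, -⟩ := D.isPrimitiveRoot hζ
  intro h
  let ζF : F := ⟨(ζ₀ : Qbar), hle ζ₀.2⟩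
  have h1 := embInf_archimedean F archimedeanGen ζF
  rw [h, AlgEquiv.one_apply] at h1
  have hprim : IsPrimitiveRoot (embInf F ζF) p := by
    have := (IsPrimitiveRoot.coe_submonoidClass_iff.2 hζ₀).map_of_injective
      (f := complexEmbedding.toRingHom) complexEmbedding.toRingHom.injective
    exact this
  set z := embInf F ζF with hz
  have h2 : starRingEnd ℂ z = z := by
    have h3 : archimedeanAct archimedeanGen z = starRingEnd ℂ z := by
      have := archimedeanGen_smul (Additive.ofMul (Units.mk0 z (hprim.ne_zero (Fact.out : p.Prime).ne_zero)))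
      exact congrArg CUnits.toField this
    rw [← h3]; exact h1.symm
  obtain ⟨r, hr⟩ := Complex.conj_eq_iff_real.1 h2
  have hnorm : |r| = 1 := by
    have h := congrArg norm hprim.pow_eq_one
    rw [norm_pow, norm_one, pow_eq_one_iff_of_nonneg (norm_nonneg _) (Fact.out : p.Prime).ne_zero,
      hr, Complex.norm_real] at h
    exact h
  have hodd : Odd p := (Fact.out : p.Prime).odd_of_ne_two hp2
  rcases (abs_eq (zero_le_one (α := ℝ))).1 hnorm with h' | h'
  · exact hprim.ne_one (Fact.out : p.Prime).one_lt (by rw [hr, h', Complex.ofReal_one])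
  · have := hprim.pow_eq_one
    rw [hr, h', Complex.ofReal_neg, Complex.ofReal_one, hodd.neg_one_pow] at this
    norm_num at this

/-- The place function at infinity. -/
theorem exists_placeFun_inf (hp2 : p ≠ 2) :
    ∃ C, IsPlaceFun (galRes hle) (infGal F)
      (fun g h => (infAt F).comp (freeCochain D hζ hle v c g h)) (relSub D v) C := by
  classical
  let Γ := ↥archimedeanDecomposition
  have hΓ : ∀ σ : Γ, σ = 1 ∨ σ = archimedeanGen := fun σ =>
    (mem_archimedeanDecomposition σ.2).imp Subtype.ext Subtype.ext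
  have hne : (1 : Γ) ≠ archimedeanGen := fun h =>
    infGal_gen_ne_one D hζ hle hp2 (by rw [← h, map_one])
  have hmul : archimedeanGen * archimedeanGen = (1 : Γ) := Subtype.ext complexConjugation_mul_self
  have hinj : ∀ κ : Γ, infGal F κ = 1 → κ = 1 := fun κ hκ =>
    (hΓ κ).resolve_right fun h => infGal_gen_ne_one D hζ hle hp2 (h ▸ hκ)
  let sumOver : (Γ → M) → M := fun f => f 1 + f archimedeanGen
  have hshift : ∀ (f : Γ → M) τ, sumOver (fun d => f (τ * d)) = sumOver f := by
    intro f τ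
    rcases hΓ τ with rfl | rfl
    · simp [sumOver]
    · simp only [sumOver, mul_one, hmul]
      exact add_comm _ _
  haveI : NeZero p := ⟨(Fact.out : p.Prime).ne_zero⟩
  have h2 : (2 : ZMod p) ≠ 0 := by
    intro h
    have h' : ((2 : ℕ) : ZMod p) = 0 := by exact_mod_cast h
    rw [ZMod.natCast_eq_zero_iff] at h'
    exact hp2 ((Nat.prime_dvd_prime_iff_eq Fact.out Nat.prime_two).1 h')
  let η : Γ → M := fun σ => (2 : ZMod p)⁻¹ • sumOver fun d => c.toFun (infGal F σ) (infGal F d)
  have hη : ∀ σ τ, M.ρ (archimedeanLoc σ) (η τ) - η (σ * τ) + η σ =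
      c.toFun (infGal F σ) (infGal F τ) := by
    intro σ τ
    have e : ∀ d, M.ρ (archimedeanLoc σ) (c.toFun (infGal F τ) (infGal F d)) -
        c.toFun (infGal F (σ * τ)) (infGal F d) =
        c.toFun (infGal F σ) (infGal F τ) - c.toFun (infGal F σ) (infGal F (τ * d)) := fun d => by
      have h := c.cocycle (archimedeanLoc σ) (archimedeanLoc τ) (archimedeanLoc d)
      rw [map_mul, map_mul]
      linear_combination (norm := skip) h
      show _ = _
      simp only [infGal, MonoidHom.comp_apply]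
      abel
    simp only [η]
    rw [map_smul, ← smul_sub, ← smul_add,
      ← hshift (fun d => c.toFun (infGal F σ) (infGal F d)) τ,
      inv_smul_eq_iff₀ h2]
    simp only [sumOver, map_add]
    rw [two_smul]
    linear_combination (norm := abel) e 1 + e archimedeanGen
  obtain ⟨C, hC, -⟩ := exists_placeFun_of_primitive D hζ hle v c archimedeanLoc
    toCUnits toCUnits_smul (infAt F) (fun x => CUnits.toField_injective rfl) η hη
    (fun _ _ => 0) fun κ hκ i γ => by
      obtain rfl := hinj κ hκ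
      have h1 : η 1 = 0 := by
        show (2 : ZMod p)⁻¹ • (c.toFun _ _ + c.toFun _ _) = 0
        rw [map_one, c.one_left, c.one_left, add_zero, smul_zero]
      rw [h1, map_zero, AddMonoidHom.zero_apply, map_zero, smul_zero, sub_zero]
  exact ⟨C, hC⟩

end FermatLib.CFT.S55
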