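import Fermat.Agent.CFT.S55Sha2Defs
import Fermat.Agent.CFT.S55Sha2SurjLevel
import Fermat.Agent.CFT.S55Sha2SurjLocal
import Fermat.Agent.CFT.S55Sha2SurjClass

/-!
Every locally trivial class corresponds to a map (S55).
-/

set_option autoImplicit false
set_option linter.style.haveILetI false

open CategoryTheory groupCohomology ExtCitation NumberField

namespace FermatLib.CFT.S55

open FermatLib FermatLib.CFT.GWKummer FermatLib.CFT.GWTate

local notation "Γℚ" => AlgebraicClosure ℚ ≃ₐ[ℚ] AlgebraicClosure ℚ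

variable {p : ℕ} [Fact p.Prime] {M : Rep (ZMod p) Γℚ} {S : Finset Nat.Primes}
  (D : Level (M.dualTwist (cycloChar p)) S)
  {ζ : AlgebraicClosure ℚ} (hζ : IsPrimitiveRoot ζ p)
  {ι : Type} [Fintype ι] (v : ι → D.Mod)

section level

variable {F : IntermediateField ℚ (AlgebraicClosure ℚ)} [NumberField F] [IsGalois ℚ F]
  (hle : D.field ≤ F) (c : LevelCocycle (M := M) F)

theorem exists_ideleCochain_level (hp2 : p ≠ 2) (hur : F.IsUnramifiedOutside S)
    (hloc : ∀ q ∈ S, ∃ η : primeLocalGaloisGroup q → M, IsLevelConstant₁ (primeLocalToGlobal q) η ∧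
      ∀ σ τ, M.ρ (primeLocalToGlobal q σ) (η τ) - η (σ * τ) + η σ =
        c.toFun (locTo F q σ) (locTo F q τ)) :
    ∃ (a : (F ≃ₐ[ℚ] F) → Pres ι D.Gal →+ Idele F) (u : presKer (G := D.Gal) v →+ Idele F),
      (∀ x, u x ∈ sIdeles F (S : Set Nat.Primes)) ∧
      (∀ g g' b, g • a g' ((galRes hle g)⁻¹ • b) - a (g * g') b + a g b =
        principalIdele F (freeCochain D hζ hle v c g g' b)) ∧
      ∀ g (x : presKer (G := D.Gal) v),
        a g (x : Pres ι D.Gal) = g • u ((galRes hle g)⁻¹ • x) - u x := by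
  classical
  have hunr := (isUnramifiedOutside_iff F S).1 hur
  have hC : ∀ q : Nat.Primes, ∃ C,
      IsPlaceFun (galRes hle) (locTo F q)
        (fun g h => (finAt F q).comp (freeCochain D hζ hle v c g h)) (relSub D v) C ∧
      (q ∉ S → ∀ k b, C k b ∈ QUnits.unitGroup q) := by
    intro q
    by_cases hq : q ∈ S
    · obtain ⟨η, hlev, hη⟩ := hloc q hq
      obtain ⟨C, hC⟩ := exists_placeFun_prime D hζ hle v c q η hη hlev
      exact ⟨C, hC, fun h => absurd hq h⟩
    · obtain ⟨C, hC, hu⟩ := exists_placeFun_unramified D hζ hle v c q (hunr q hq)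
      exact ⟨C, hC, fun _ => hu⟩
  choose Cq hCq hS using hC
  obtain ⟨Ci, hCi⟩ := exists_placeFun_inf D hζ hle v c hp2
  obtain ⟨a, u, hu, ha, hau⟩ := exists_ideleCochain F (galRes hle) (S := (S : Set Nat.Primes))
    (freeCochain D hζ hle v c) (relSub D v) (fun g x hx => smul_mem_relSub D v g hx)
    (fun g h x hx => freeCochain_relSub D hζ hle v c g h hx) (freeCochain_cocycle D hζ hle v c)
    (Fact.out : p.Prime).ne_zero (nsmul_freeCochain D hζ hle v c) Cq hCq
    (fun q hq => hS q hq) S.finite_toSet Ci hCi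
  exact ⟨a, u, hu, ha, fun g x => hau g x⟩

variable {L : IntermediateField ℚ (AlgebraicClosure ℚ)} [NumberField L] [IsGalois ℚ L]
  (hFL : F ≤ L)

/-- The witness from an idele cochain of the level with capitulated class primitive. -/
theorem exists_witness (hL : L.IsUnramifiedOutside S) (m : ℕ) (hm : m % p = 1)
    (a : (F ≃ₐ[ℚ] F) → Pres ι D.Gal →+ Idele F) (u : presKer (G := D.Gal) v →+ Idele F)
    (hu : ∀ x, u x ∈ sIdeles F (S : Set Nat.Primes))
    (ha : ∀ g g' b, g • a g' ((galRes hle g)⁻¹ • b) - a (g * g') b + a g b =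
      principalIdele F (freeCochain D hζ hle v c g g' b))
    (hau : ∀ g (x : presKer (G := D.Gal) v),
      a g (x : Pres ι D.Gal) = g • u ((galRes hle g)⁻¹ • x) - u x)
    (b0 : Pres ι D.Gal →+ IdeleClass F)
    (hb0 : ∀ g b, (QuotientAddGroup.mk (a g b) : IdeleClass F) =
      g • b0 ((galRes hle g)⁻¹ • b) - b0 b)
    (b' : Pres ι D.Gal →+ Idele L) (hb' : ∀ b, b' b ∈ sIdeles L (S : Set Nat.Primes))
    (hb'0 : ∀ b, (QuotientAddGroup.mk (b' b) : IdeleClass L) = classLe hFL (m • b0 b))
    (c2 : Γℚ × Γℚ → M) (hc2 : ∀ σ τ, c2 (σ, τ) = c.toFun (galTo F σ) (galTo F τ)) :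
    ∃ h, Nonempty (Witness D hζ v h c2) := by
  have hDL : D.field ≤ L := hle.trans hFL
  have hres : ∀ σ, galRes hle (galTo F σ) = D.res σ := galRes_galTo_eq D hle
  have hcl : ∀ σ z, classLe hFL (galTo F σ • z) = galTo L σ • classLe hFL z := fun σ z => by
    rw [← classLe_compat hFL (galTo L σ) z, galRes_galTo]
  have hid : ∀ σ f, ideleLe hFL (galTo F σ • f) = galTo L σ • ideleLe hFL f := fun σ f =>
    @ideleBaseChange_smul F _ _ L _ _ (algLe hFL) (galTo L σ) (galTo F σ)
      (fun x => (galRes_galTo F hFL σ ▸ galRes_spec hFL (galTo L σ) x).symm) f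
  let W : Γℚ → Pres ι D.Gal → Idele L := fun σ b =>
    m • ideleLe hFL (a (galTo F σ) b) - (galTo L σ • b' ((D.res σ)⁻¹ • b) - b' b)
  have hW : ∀ σ b, ∃ y, principalIdele L y = W σ b := fun σ b => by
    have h : W σ b ∈ principalIdeles L := by
      rw [← QuotientAddGroup.eq_zero_iff]
      show (QuotientAddGroup.mk (m • ideleLe hFL (a (galTo F σ) b) -
        (galTo L σ • b' ((D.res σ)⁻¹ • b) - b' b)) : IdeleClass L) = 0
      rw [QuotientAddGroup.mk_sub, QuotientAddGroup.mk_nsmul, QuotientAddGroup.mk_sub, mk_ideleLe,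
        hb0, hres, map_sub, hcl,
        show (QuotientAddGroup.mk (galTo L σ • b' ((D.res σ)⁻¹ • b)) : IdeleClass L) =
          galTo L σ • QuotientAddGroup.mk (b' ((D.res σ)⁻¹ • b)) from rfl,
        hb'0, hb'0, map_nsmul, map_nsmul, smul_comm (galTo L σ) m, nsmul_sub, sub_self]
    rwa [principalIdeles_eq_range] at h
  choose y hy using hW
  let ψ : Γℚ → Pres ι D.Gal →+ LUnits L := fun σ => AddMonoidHom.mk' (y σ) fun b b₁ =>
    principalIdele_injective (by
      rw [map_add, hy, hy, hy]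
      simp only [W, map_add, smul_add, nsmul_add]
      abel)
  have hψ : ∀ σ b, principalIdele L (ψ σ b) = W σ b := hy
  let lift : presKer (G := D.Gal) v →+ Idele L :=
    AddMonoidHom.mk' (fun x => m • ideleLe hFL (u x) - b' (x : Pres ι D.Gal)) fun x x₁ => by
      rw [map_add, map_add, AddSubgroup.coe_add, map_add, nsmul_add]
      abel
  have hprin : ∀ σ (x : presKer (G := D.Gal) v),
      principalIdele L (ψ σ (x : Pres ι D.Gal)) = galTo L σ • lift ((D.res σ)⁻¹ • x) - lift x := by
    intro σ x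
    rw [hψ]
    show m • ideleLe hFL (a (galTo F σ) (x : Pres ι D.Gal)) - _ =
      galTo L σ • (m • ideleLe hFL (u ((D.res σ)⁻¹ • x)) - b' ((D.res σ)⁻¹ • (x : Pres ι D.Gal))) -
        (m • ideleLe hFL (u x) - b' (x : Pres ι D.Gal))
    rw [hau, hres, map_sub, hid, nsmul_sub, smul_sub (galTo L σ), smul_comm (galTo L σ) m]
    abel
  have hclass : ∀ σ (x : presKer (G := D.Gal) v),
      galTo L σ • (QuotientAddGroup.mk (lift ((D.res σ)⁻¹ • x)) : IdeleClass L) =
        QuotientAddGroup.mk (lift x) := fun σ x => by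
    rw [← sub_eq_zero]
    show (QuotientAddGroup.mk (galTo L σ • lift ((D.res σ)⁻¹ • x) - lift x) : IdeleClass L) = 0
    rw [← hprin, QuotientAddGroup.eq_zero_iff, principalIdeles_eq_range]
    exact ⟨_, rfl⟩
  have hrange : ∀ x, ∃ z, classLe hDL z = (QuotientAddGroup.mk (lift x) : IdeleClass L) := fun x =>
    mem_range_classLe hDL fun g hg => by
      obtain ⟨σ, rfl⟩ := galTo_surjective L g
      have h1 : D.res σ = 1 := by
        rw [← galRes_galTo_eq D hDL σ]
        exact hg
      have h2 := hclass σ x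
      rwa [h1, inv_one, one_smul] at h2
  choose z hz using hrange
  let h0 : presKer (G := D.Gal) v →+ IdeleClass D.field := AddMonoidHom.mk' z fun x x₁ =>
    classLe_injective hDL (by rw [map_add, hz, hz, hz, map_add, QuotientAddGroup.mk_add])
  have heq : h0 ∈ equivHom D.Gal (presKer (G := D.Gal) v) (IdeleClass D.field) := fun γ x => by
    obtain ⟨σ, rfl⟩ := D.res_surjective γ
    show z (D.res σ • x) = D.res σ • z x
    refine classLe_injective hDL ?_
    rw [hz, ← galRes_galTo_eq D hDL σ, classLe_compat hDL, hz, galRes_galTo_eq D hDL σ,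
      ← hclass σ (D.res σ • x), inv_smul_smul]
  refine ⟨⟨h0, heq⟩, ⟨{
    field := L
    numberField := inferInstance
    galois := inferInstance
    le := hDL
    unramified := hL
    lift := lift
    lift_mem := fun x =>
      sub_mem (nsmul_mem ((ideleLe_mem_sIdeles_iff hFL _ _).2 (hu x)) m) (hb' _)
    lift_class := fun x => (hz x).symm
    cochain := fun σ => (unitsToQbar L).comp (ψ σ)
    levelConstant := ⟨L, hL, fun σ s hs => AddMonoidHom.ext fun b => ?_⟩
    principal := fun σ x => ⟨ψ σ (x : Pres ι D.Gal), rfl, hprin σ x⟩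
    coboundary := fun σ τ b => ?_ }⟩⟩
  · refine congrArg (unitsToQbar L) (principalIdele_injective ?_)
    have h1 : galTo L (σ * s) = galTo L σ := by
      rw [map_mul, (galTo_eq_one_iff L s).2 hs, mul_one]
    rw [hψ, hψ]
    simp only [W, ← galRes_galTo_eq D hDL, ← galRes_galTo F hFL, h1]
  · show _ = σ • unitsToQbar L (ψ τ ((D.res σ)⁻¹ • b)) - unitsToQbar L (ψ (σ * τ) b) +
      unitsToQbar L (ψ σ b)
    rw [← unitsToQbar_smul, ← map_sub, ← map_add, hc2, ← unitsToQbar_freeCochain D hζ hle v c,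
      ← unitsToQbar_lunitsBaseChange hFL]
    refine congrArg (unitsToQbar L) (principalIdele_injective ?_)
    rw [map_add, map_sub, principalIdele_smul, hψ, hψ, hψ, ← ideleLe_principalIdele hFL]
    have hfix := nsmul_eq_self_of_nsmul_eq_zero hm
      (nsmul_freeCochain D hζ hle v c (galTo F σ) (galTo F τ) b)
    conv_lhs => rw [← hfix]
    rw [map_nsmul, map_nsmul, ← ha, hres, ← map_mul (galTo F)]
    simp only [W, map_add, map_sub, hid, map_mul, mul_inv_rev, mul_smul, nsmul_add, nsmul_sub,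
      smul_sub (galTo L σ), smul_comm (galTo L σ) m]
    abel

end level

/-- Surjectivity: a class of `sha₂` has a witness. -/
theorem exists_shaRel_of_mem [FiniteDimensional (ZMod p) M] (hp2 : p ≠ 2) (hpS : pPrime p ∈ S)
    (hv : Function.Surjective (presMap (G := D.Gal) v))
    {x : continuousH2S S M} (hx : x ∈ sha₂ S M) : ∃ h, ShaRel D hζ v h x := by
  classical
  have _ := hv
  obtain ⟨c0, rfl⟩ := Submodule.Quotient.mk_surjective _ x
  obtain ⟨F, hNF, hGF, hle, hur, c, c2, hcl, hc2⟩ := exists_levelCocycle D hζ c0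
  haveI := hNF
  haveI := hGF
  have hloc : ∀ q ∈ S, ∃ η : primeLocalGaloisGroup q → M,
      IsLevelConstant₁ (primeLocalToGlobal q) η ∧
      ∀ σ τ, M.ρ (primeLocalToGlobal q σ) (η τ) - η (σ * τ) + η σ =
        c.toFun (locTo F q σ) (locTo F q τ) := fun q hq => by
    obtain ⟨η, h1, h2⟩ := exists_primitive_prime (c := c2) (by rw [hcl]; exact hx) q hq
    exact ⟨η, h1, fun σ τ => (h2 σ τ).trans (hc2 _ _)⟩
  obtain ⟨a, u, hu, ha, hau⟩ := exists_ideleCochain_level D hζ v hle c hp2 hur hloc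
  let cc : (F ≃ₐ[ℚ] F) → Pres ι D.Gal →+ IdeleClass F := fun g =>
    (QuotientAddGroup.mk' (principalIdeles F)).comp (a g)
  obtain ⟨b0, hb0⟩ := exists_classPrimitive hle cc fun g g' b => by
    show (QuotientAddGroup.mk (g • a g' ((galRes hle g)⁻¹ • b) - a (g * g') b + a g b) :
      IdeleClass F) = 0
    rw [ha, QuotientAddGroup.eq_zero_iff, principalIdeles_eq_range]
    exact ⟨_, rfl⟩
  choose f hf using fun t : ι × D.Gal =>
    QuotientAddGroup.mk_surjective (b0 (presSingle t.1 t.2))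
  obtain ⟨k, m, hm, hk⟩ := exists_multiple (F := F) (p := p) (S : Set Nat.Primes)
  obtain ⟨L, hNL, hGL, hFL, hL, hcap⟩ := exists_capitulation_finset hpS hur k
    (Finset.univ.image fun t => m • f t) fun g hg => by
      obtain ⟨t, -, rfl⟩ := Finset.mem_image.1 hg
      exact hk _
  haveI := hNL
  haveI := hGL
  choose y hy using fun t => hcap (m • f t) (Finset.mem_image_of_mem _ (Finset.mem_univ t))
  let b' : Pres ι D.Gal →+ Idele L :=
    freeLift fun i γ => ideleLe hFL (m • f (i, γ)) - principalIdele L (y (i, γ))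
  have hb'0 : (QuotientAddGroup.mk' (principalIdeles L)).comp b' =
      (classLe hFL).comp ((nsmulAddMonoidHom (α := IdeleClass F) m).comp b0) := by
    refine free_ext (Ω := IdeleClass L) fun i γ => ?_
    show (QuotientAddGroup.mk (b' (presSingle i γ)) : IdeleClass L) =
      classLe hFL (m • b0 (presSingle i γ))
    rw [freeLift_presSingle, QuotientAddGroup.mk_sub, mk_ideleLe, QuotientAddGroup.mk_nsmul,
      hf (i, γ), sub_eq_self, QuotientAddGroup.eq_zero_iff, principalIdeles_eq_range]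
    exact ⟨_, rfl⟩
  obtain ⟨h, hW⟩ := exists_witness D hζ v hle c hFL hL m hm a u hu ha hau b0 hb0 b'
    (fun b => sum_mem fun i _ => sum_mem fun γ _ => zsmul_mem (hy (i, γ)) _)
    (fun b => DFunLike.congr_fun hb'0 b) c2 hc2
  exact ⟨h, c2, hcl, hW⟩

end FermatLib.CFT.S55
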