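import Fermat.Agent.CFT.S55Sha2Defs
import Fermat.Agent.CFT.GWTateLocal

/-!
A locally trivial class at a finite level: coefficients in the field, Galois levels unramified
outside `S` and sums along powers of an element (S55).
-/

set_option autoImplicit false
set_option linter.style.haveILetI false
set_option linter.unusedSectionVars false

open CategoryTheory groupCohomology ExtCitation NumberField
open scoped Pointwise

namespace FermatLib.CFT.S55

open FermatLib FermatLib.CFT.GWKummer

local notation "Γℚ" => AlgebraicClosure ℚ ≃ₐ[ℚ] AlgebraicClosure ℚ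
local notation "Qbar" => AlgebraicClosure ℚ

/-- A field unramified outside `S` lies in a Galois one. -/
theorem exists_galois_unramified {S : Finset Nat.Primes} (F : IntermediateField ℚ (AlgebraicClosure ℚ))
    (hF : F.IsUnramifiedOutside S) :
    ∃ L : IntermediateField ℚ (AlgebraicClosure ℚ),
      ∃ _ : NumberField L, ∃ _ : IsGalois ℚ L, F ≤ L ∧ L.IsUnramifiedOutside S := by
  haveI := hF.1
  haveI : IsAlgClosure ℚ Qbar := ⟨inferInstance, AlgebraicClosure.isAlgebraic ℚ⟩
  haveI : IsGalois ℚ Qbar := IsAlgClosure.isGalois ℚ Qbar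
  haveI : Normal ℚ Qbar := IsGalois.to_normal
  let N := IntermediateField.normalClosure ℚ F Qbar
  have hN : IsGalois ℚ N := IsGalois.normalClosure ℚ F Qbar
  refine ⟨N, @NumberField.mk _ _ inferInstance inferInstance,
    @IsGalois.mk _ _ _ _ _ inferInstance (by convert hN.to_normal using 2),
    IntermediateField.le_normalClosure F, inferInstance, fun q hq A hA σ hσ => ?_⟩
  rw [IntermediateField.mem_fixingSubgroup_iff]
  have hle : N ≤ IntermediateField.fixedField (Subgroup.zpowers σ) := by
    show IntermediateField.normalClosure ℚ F Qbar ≤ _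
    rw [normalClosure_def]
    refine iSup_le fun f => ?_
    rintro _ ⟨y, rfl⟩
    obtain ⟨γ, hγ⟩ : ∃ γ : Γℚ, ∀ y : F, γ y = f y :=
      ⟨AlgEquiv.ofBijective (f.liftNormal Qbar) (Algebra.IsAlgebraic.algHom_bijective _),
        fun y => f.liftNormal_commutes Qbar y⟩
    rw [IntermediateField.mem_fixedField_iff]
    intro τ hτ
    obtain ⟨k, rfl⟩ := Subgroup.mem_zpowers_iff.1 hτ
    have h1 : γ⁻¹ * σ ^ k * γ ∈ (γ⁻¹ • A).inertiaSubgroupIn ℚ := by
      have := FermatLib.Galois.inertia_conj_mem γ⁻¹ (zpow_mem hσ k)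
      rwa [inv_inv] at this
    have h2 := (IntermediateField.mem_fixingSubgroup_iff F _).1
      (hF.2 q hq _ (FermatLib.Galois.liesOverPrime_smul_iff.2 hA) h1) y y.2
    show (σ ^ k) (f y) = f y
    rw [← hγ y]
    have h3 := congrArg γ h2
    rwa [← AlgEquiv.mul_apply, mul_assoc, mul_inv_cancel_left, AlgEquiv.mul_apply] at h3
  intro x hx
  exact (IntermediateField.mem_fixedField_iff (Subgroup.zpowers σ) x).1 (hle hx) σ
    (Subgroup.mem_zpowers σ)

theorem sum_range_mul_periodic {A : Type*} [AddCommMonoid A] {K : ℕ} {f : ℕ → A}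
    (hf : ∀ i, f (i + K) = f i) (a n : ℕ) :
    ∑ i ∈ Finset.range (K * a + n), f i =
      a • (∑ i ∈ Finset.range K, f i) + ∑ i ∈ Finset.range n, f i := by
  have hper : ∀ a i, f (i + K * a) = f i := by
    intro a
    induction a with
    | zero => simp
    | succ a ih => intro i; rw [mul_add, mul_one, ← add_assoc, hf, ih]
  induction a with
  | zero => simp
  | succ a ih =>
    rw [show K * (a + 1) + n = K + (K * a + n) by ring, Finset.sum_range_add, succ_nsmul',
      add_assoc, ← ih]
    congr 1
    exact Finset.sum_congr rfl fun i _ => by rw [add_comm, hf]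

variable {p : ℕ} [Fact p.Prime] {M : Rep (ZMod p) Γℚ} {S : Finset Nat.Primes}
  (D : Level (M.dualTwist (cycloChar p)) S)
  {ζ : AlgebraicClosure ℚ} (hζ : IsPrimitiveRoot ζ p)
  {F : IntermediateField ℚ (AlgebraicClosure ℚ)} [NumberField F] (hle : D.field ≤ F)

/-- A cocycle of a level, normalised. -/
structure LevelCocycle (F : IntermediateField ℚ (AlgebraicClosure ℚ)) [IsGalois ℚ F] where
  /-- The values. -/
  toFun : (F ≃ₐ[ℚ] F) → (F ≃ₐ[ℚ] F) → M
  one_left : ∀ g, toFun 1 g = 0
  one_right : ∀ g, toFun g 1 = 0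
  cocycle : ∀ σ τ υ : Γℚ, M.ρ σ (toFun (galTo F τ) (galTo F υ)) -
    toFun (galTo F σ * galTo F τ) (galTo F υ) + toFun (galTo F σ) (galTo F τ * galTo F υ) -
    toFun (galTo F σ) (galTo F τ) = 0

include hle in
theorem exists_unitsToQbar_coeff (m : M) (x : D.Mod) :
    ∃ y : LUnits F, unitsToQbar F y = coeffMap D hζ m x := by
  obtain ⟨ζ₀, hζ₀, hζ₀'⟩ := D.isPrimitiveRoot hζ
  have hmem : (coeffMap D hζ m x).el ∈ F := by
    obtain ⟨f, rfl⟩ := D.toMod.surjective x
    rw [coeffMap_toMod, el_rootHom, ← hζ₀']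
    exact pow_mem (hle ζ₀.2) _
  refine ⟨LUnits.of (Units.mk0 ⟨_, hmem⟩ fun h => (coeffMap D hζ m x).el_ne_zero
    (congrArg Subtype.val h)), QbarU.el_injective rfl⟩

/-- The coefficients with values in the units of the level. -/
noncomputable def coeffF (m : M) : D.Mod →+ LUnits F :=
  AddMonoidHom.mk' (fun x => (exists_unitsToQbar_coeff D hζ hle m x).choose) fun a b =>
    unitsToQbar_injective F ((exists_unitsToQbar_coeff D hζ hle m (a + b)).choose_spec.trans
      ((map_add (coeffMap D hζ m) a b).trans (((map_add (unitsToQbar F) _ _).trans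
        (congrArg₂ (· + ·) (exists_unitsToQbar_coeff D hζ hle m a).choose_spec
          (exists_unitsToQbar_coeff D hζ hle m b).choose_spec)).symm)))

theorem unitsToQbar_coeffF (m : M) (x : D.Mod) :
    unitsToQbar F (coeffF D hζ hle m x) = coeffMap D hζ m x :=
  (exists_unitsToQbar_coeff D hζ hle m x).choose_spec

theorem nsmul_coeffF (m : M) (x : D.Mod) : p • coeffF D hζ hle m x = 0 := by
  rw [← map_nsmul, D.nsmul_mod, map_zero]

variable [IsGalois ℚ F] {ι : Type} [Fintype ι] (v : ι → D.Mod)

/-- The cochain with values in maps of the free module into the units of the level. -/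
noncomputable def freeCochain (c : LevelCocycle (M := M) F) (g h : F ≃ₐ[ℚ] F) :
    Pres ι D.Gal →+ LUnits F :=
  (coeffF D hζ hle (c.toFun g h)).comp (presMap v)

/-- The relations inside the free module, as a subgroup. -/
noncomputable abbrev relSub : AddSubgroup (Pres ι D.Gal) := presKer (G := D.Gal) v

theorem smul_mem_relSub (g : D.Gal) {x : Pres ι D.Gal} (hx : x ∈ relSub D v) :
    g • x ∈ relSub D v :=
  (g • (⟨x, hx⟩ : presKer (G := D.Gal) v)).2

theorem freeCochain_relSub (c : LevelCocycle (M := M) F) (g h : F ≃ₐ[ℚ] F) {x : Pres ι D.Gal}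
    (hx : x ∈ relSub D v) : freeCochain D hζ hle v c g h x = 0 := by
  rw [freeCochain, AddMonoidHom.comp_apply, show presMap v x = 0 from hx, map_zero]

theorem nsmul_freeCochain (c : LevelCocycle (M := M) F) (g h : F ≃ₐ[ℚ] F) (b : Pres ι D.Gal) :
    p • freeCochain D hζ hle v c g h b = 0 := nsmul_coeffF D hζ hle _ _

theorem unitsToQbar_freeCochain (c : LevelCocycle (M := M) F) (g h : F ≃ₐ[ℚ] F)
    (b : Pres ι D.Gal) :
    unitsToQbar F (freeCochain D hζ hle v c g h b) = coeffMap D hζ (c.toFun g h) (presMap v b) :=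
  unitsToQbar_coeffF D hζ hle _ _

theorem galRes_galTo_eq (σ : Γℚ) : galRes hle (galTo F σ) = D.res σ := galRes_galTo D.field hle σ

theorem freeCochain_cocycle (c : LevelCocycle (M := M) F) (g h k : F ≃ₐ[ℚ] F)
    (b : Pres ι D.Gal) :
    g • freeCochain D hζ hle v c h k b - freeCochain D hζ hle v c (g * h) k (galRes hle g • b) +
      freeCochain D hζ hle v c g (h * k) (galRes hle g • b) -
      freeCochain D hζ hle v c g h (galRes hle g • b) = 0 := by
  obtain ⟨σ, rfl⟩ := galTo_surjective F g
  obtain ⟨τ, rfl⟩ := galTo_surjective F h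
  obtain ⟨υ, rfl⟩ := galTo_surjective F k
  refine unitsToQbar_injective F ?_
  simp only [map_sub, map_add, map_zero, unitsToQbar_smul, unitsToQbar_freeCochain,
    galRes_galTo_eq, presMap_smul]
  have h1 := congrArg (fun m => coeffMap D hζ m (D.res σ • presMap v b)) (c.cocycle σ τ υ)
  simp only [map_sub, map_add, map_zero, AddMonoidHom.sub_apply, AddMonoidHom.add_apply,
    AddMonoidHom.zero_apply, coeffMap_ρ, inv_smul_smul] at h1
  exact h1

end FermatLib.CFT.S55
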