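import Fermat.Agent.CFT.S55Sha2Basic

/-!
Witnesses of the relation between lattice maps and classes (S55): the class of a
cochain, change of level, and additivity of the relation.
-/

set_option autoImplicit false

open CategoryTheory groupCohomology ExtCitation NumberField

namespace FermatLib.CFT.S55

open FermatLib FermatLib.CFT.GWKummer

local notation "Γℚ" => AlgebraicClosure ℚ ≃ₐ[ℚ] AlgebraicClosure ℚ
local notation "Qbar" => AlgebraicClosure ℚ

variable {p : ℕ} [Fact p.Prime] {M : Rep (ZMod p) Γℚ} {S : Finset Nat.Primes}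
  (D : Level (M.dualTwist (cycloChar p)) S)
  {ζ : AlgebraicClosure ℚ} (hζ : IsPrimitiveRoot ζ p)
  {ι : Type} [Fintype ι] (v : ι → D.Mod)

/-- Restriction to the level through a bigger one. -/
theorem res_eq_galTo (σ : Γℚ) : D.res σ = galTo D.field σ := rfl

section cochain

variable {F : IntermediateField ℚ (AlgebraicClosure ℚ)} [NumberField F] [IsGalois ℚ F]
  {v}
  {lift : presKer (G := D.Gal) v →+ Idele F} {e : Γℚ → Pres ι D.Gal →+ QbarU}

/-- The coboundary of a cochain with principal restriction vanishes on the relation lattice. -/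
theorem coboundary_eq_zero_of_principal
    (hprin : ∀ (σ : Γℚ) (x : presKer (G := D.Gal) v), ∃ y : LUnits F,
      unitsToQbar F y = e σ (x : Pres ι D.Gal) ∧
        principalIdele F y = galTo F σ • lift ((D.res σ)⁻¹ • x) - lift x)
    (σ τ : Γℚ) (x : presKer (G := D.Gal) v) :
    σ • e τ ((D.res σ)⁻¹ • (x : Pres ι D.Gal)) - e (σ * τ) x + e σ x = 0 := by
  obtain ⟨y₁, h₁, k₁⟩ := hprin τ ((D.res σ)⁻¹ • x)
  obtain ⟨y₂, h₂, k₂⟩ := hprin (σ * τ) x
  obtain ⟨y₃, h₃, k₃⟩ := hprin σ x
  have e0 : galTo F σ • y₁ - y₂ + y₃ = 0 := by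
    refine principalIdele_injective ?_
    rw [map_zero, map_add, map_sub, principalIdele_smul, k₁, k₂, k₃, map_mul, map_mul,
      mul_inv_rev, mul_smul, mul_smul, smul_sub]
    abel
  have := congrArg (unitsToQbar F) e0
  rw [map_zero, map_add, map_sub, unitsToQbar_smul, h₁, h₂, h₃] at this
  exact this

include hζ in
/-- The class of a cochain with principal restriction and values at a level unramified outside
`S`. -/
theorem exists_witness_of_cochain [FiniteDimensional (ZMod p) M]
    (hv : Function.Surjective (presMap (G := D.Gal) v)) (h : latticeMaps D v)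
    (hle : D.field ≤ F) (hF : F.IsUnramifiedOutside S)
    (hmem : ∀ x, lift x ∈ sIdeles F (S : Set Nat.Primes))
    (hclass : ∀ x, (QuotientAddGroup.mk (lift x) : IdeleClass F) =
      classLe hle ((h : presKer (G := D.Gal) v →+ IdeleClass D.field) x))
    (hlev : IsLevelConstantS₁ S e)
    (hprin : ∀ (σ : Γℚ) (x : presKer (G := D.Gal) v), ∃ y : LUnits F,
      unitsToQbar F y = e σ (x : Pres ι D.Gal) ∧
        principalIdele F y = galTo F σ • lift ((D.res σ)⁻¹ • x) - lift x)
    (F' : IntermediateField ℚ (AlgebraicClosure ℚ)) [NumberField F'] [IsGalois ℚ F']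
    (hF' : F'.IsUnramifiedOutside S)
    (hval : ∀ σ b, ∀ s ∈ F'.fixingSubgroup, s • e σ b = e σ b) :
    ∃ c : ↥(levelCocyclesS₂ S M), Nonempty (Witness D hζ v h (c : Γℚ × Γℚ → M)) := by
  classical
  let T : Γℚ → Γℚ → Pres ι D.Gal →+ QbarU := fun σ τ => AddMonoidHom.mk'
    (fun b => σ • e τ ((D.res σ)⁻¹ • b) - e (σ * τ) b + e σ b) fun a b => by
      rw [smul_add (D.res σ)⁻¹, map_add, map_add, map_add, smul_add]
      abel
  have hT : ∀ σ τ, (presMap (G := D.Gal) v).ker ≤ (T σ τ).ker := fun σ τ b hb =>
    coboundary_eq_zero_of_principal D hprin σ τ ⟨b, hb⟩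
  let φ : Γℚ → Γℚ → D.Mod →+ QbarU := fun σ τ =>
    (presMap (G := D.Gal) v).liftOfSurjective hv ⟨T σ τ, hT σ τ⟩
  have hφ : ∀ σ τ b, φ σ τ (presMap v b) = σ • e τ ((D.res σ)⁻¹ • b) - e (σ * τ) b + e σ b :=
    fun σ τ b => AddMonoidHom.liftOfRightInverse_comp_apply _ _ _ ⟨T σ τ, hT σ τ⟩ b
  choose c hc using fun t : Γℚ × Γℚ => exists_coeffMap_eq D hζ (φ t.1 t.2)
  have hcoc : c ∈ cocycles₂ M := by
    refine (mem_cocycles₂_iff c).2 fun g g' j => coeffMap_injective D hζ ?_
    refine AddMonoidHom.ext fun x => ?_
    obtain ⟨b, rfl⟩ := hv x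
    rw [map_add, map_add, AddMonoidHom.add_apply, AddMonoidHom.add_apply, coeffMap_ρ,
      ← presMap_smul, hc, hc, hc, hc, hφ, hφ, hφ, hφ, map_mul, mul_inv_rev, mul_smul, mul_smul,
      mul_assoc, smul_add, smul_sub]
    abel
  obtain ⟨Fe, hFe, hFe'⟩ := hlev
  haveI := hFe.1
  have hc₂ : IsLevelConstantS₂ S c := by
    -- a Galois level below which everything is constant
    haveI := numberField_of_finite Fe
    haveI := numberField_sup' Fe F'
    obtain ⟨K, hK, hK', hle', hKur, -⟩ :=
      exists_level_fixing_values (Fe ⊔ F') (hFe.sup hF') ∅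
        (fun y hy => absurd hy (Finset.notMem_empty y))
    refine ⟨D.field ⊔ K, D.unramified.sup hKur, fun g g' s s' hs hs' => coeffMap_injective D hζ ?_⟩
    refine AddMonoidHom.ext fun x => ?_
    obtain ⟨b, rfl⟩ := hv x
    rw [hc, hc, hφ, hφ]
    have hsD : D.res s = 1 :=
      (D.res_eq_one_iff s).2 (IntermediateField.fixingSubgroup_antitone le_sup_left hs)
    have hsK := IntermediateField.fixingSubgroup_antitone
      (show K ≤ D.field ⊔ K from le_sup_right) hs
    have hsK' := IntermediateField.fixingSubgroup_antitone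
      (show K ≤ D.field ⊔ K from le_sup_right) hs'
    have hcon : g'⁻¹ * s * g' * s' ∈ K.fixingSubgroup := by
      rw [← galTo_eq_one_iff] at hsK hsK' ⊢
      rw [map_mul, map_mul, map_mul, hsK, hsK', mul_one, mul_one, ← map_mul, inv_mul_cancel,
        map_one]
    have hKe : K.fixingSubgroup ≤ Fe.fixingSubgroup :=
      IntermediateField.fixingSubgroup_antitone (le_sup_left.trans hle')
    have hKv : K.fixingSubgroup ≤ F'.fixingSubgroup :=
      IntermediateField.fixingSubgroup_antitone (le_sup_right.trans hle')
    rw [show g * s * (g' * s') = g * g' * (g'⁻¹ * s * g' * s') by group,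
      hFe' _ _ (hKe hcon), hFe' _ _ (hKe hsK), hFe' _ _ (hKe hsK'), map_mul, hsD, mul_one,
      mul_smul g s, hval _ _ s (hKv hsK)]
  refine ⟨⟨c, hcoc, hc₂⟩, ⟨{
    field := F
    numberField := inferInstance
    galois := inferInstance
    le := hle
    unramified := hF
    lift := lift
    lift_mem := hmem
    lift_class := hclass
    cochain := e
    levelConstant := ⟨Fe, hFe, hFe'⟩
    principal := hprin
    coboundary := fun σ τ b => by rw [hc, hφ] }⟩⟩

end cochain

variable {D hζ v}

/-- A witness at a bigger level. -/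
noncomputable def Witness.mono {h : latticeMaps D v} {c : Γℚ × Γℚ → M}
    (W : Witness D hζ v h c) (F' : IntermediateField ℚ (AlgebraicClosure ℚ)) [NumberField F']
    [IsGalois ℚ F'] (hle : W.field ≤ F') (hF' : F'.IsUnramifiedOutside S) :
    Witness D hζ v h c where
  field := F'
  numberField := inferInstance
  galois := inferInstance
  le := W.le.trans hle
  unramified := hF'
  lift := (ideleLe hle).comp W.lift
  lift_mem x := (ideleLe_mem_iff hle _ _).2 (W.lift_mem x)
  lift_class x := by
    rw [← classLe_comp W.le hle, ← W.lift_class]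
    rfl
  cochain := W.cochain
  levelConstant := W.levelConstant
  principal σ x := by
    obtain ⟨y, hy, hy'⟩ := W.principal σ x
    refine ⟨unitsLe hle y, (unitsToQbar_unitsLe hle y).trans hy, ?_⟩
    rw [← ideleLe_principal, hy', map_sub, ideleLe_galTo]
    rfl
  coboundary := W.coboundary

theorem nonempty_witness_add {h h' : latticeMaps D v} {c c' : Γℚ × Γℚ → M}
    (W : Witness D hζ v h c) (W' : Witness D hζ v h' c') :
    Nonempty (Witness D hζ v (h + h') (c + c')) := by
  haveI := numberField_sup' W.field W'.field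
  haveI := isGalois_sup' W.field W'.field
  have hu := W.unramified.sup W'.unramified
  have h1 : W.field ≤ W.field ⊔ W'.field := le_sup_left
  have h2 : W'.field ≤ W.field ⊔ W'.field := le_sup_right
  exact ⟨{
    field := W.field ⊔ W'.field
    numberField := inferInstance
    galois := inferInstance
    le := W.le.trans h1
    unramified := hu
    lift := (ideleLe h1).comp W.lift + (ideleLe h2).comp W'.lift
    lift_mem := fun x => add_mem ((ideleLe_mem_iff h1 _ _).2 (W.lift_mem x))
      ((ideleLe_mem_iff h2 _ _).2 (W'.lift_mem x))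
    lift_class := fun x => by
      rw [AddMonoidHom.add_apply, AddMonoidHom.comp_apply, AddMonoidHom.comp_apply,
        QuotientAddGroup.mk_add, mk_ideleLe, mk_ideleLe, W.lift_class, W'.lift_class,
        classLe_comp W.le h1, classLe_comp W'.le h2]
      exact (map_add (classLe (W.le.trans h1)) _ _).symm
    cochain := W.cochain + W'.cochain
    levelConstant := W.levelConstant.add W'.levelConstant
    principal := fun σ x => by
      obtain ⟨y, hy, hy'⟩ := W.principal σ x
      obtain ⟨z, hz, hz'⟩ := W'.principal σ x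
      refine ⟨unitsLe h1 y + unitsLe h2 z, (map_add _ _ _).trans (congrArg₂ (· + ·)
        ((unitsToQbar_unitsLe h1 y).trans hy) ((unitsToQbar_unitsLe h2 z).trans hz)), ?_⟩
      refine (map_add _ _ _).trans ((congrArg₂ (· + ·)
        ((ideleLe_principal h1 y).symm.trans (congrArg (ideleLe h1) hy'))
        ((ideleLe_principal h2 z).symm.trans (congrArg (ideleLe h2) hz'))).trans ?_)
      rw [map_sub, map_sub, ideleLe_galTo, ideleLe_galTo]
      simp only [AddMonoidHom.add_apply, AddMonoidHom.comp_apply, smul_add]
      abel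
    coboundary := fun σ τ b => by
      simp only [Pi.add_apply, map_add, AddMonoidHom.add_apply, W.coboundary, W'.coboundary,
        smul_add]
      abel }⟩

theorem nonempty_witness_neg {h : latticeMaps D v} {c : Γℚ × Γℚ → M}
    (W : Witness D hζ v h c) : Nonempty (Witness D hζ v (-h) (-c)) :=
  ⟨{ field := W.field
     numberField := W.numberField
     galois := W.galois
     le := W.le
     unramified := W.unramified
     lift := -W.lift
     lift_mem := fun x => neg_mem (W.lift_mem x)
     lift_class := fun x => by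
       rw [AddMonoidHom.neg_apply, QuotientAddGroup.mk_neg, W.lift_class]
       exact (map_neg (classLe W.le) _).symm
     cochain := -W.cochain
     levelConstant := W.levelConstant.comp Neg.neg
     principal := fun σ x => by
       obtain ⟨y, hy, hy'⟩ := W.principal σ x
       refine ⟨-y, (map_neg _ _).trans (congrArg Neg.neg hy), ?_⟩
       refine (map_neg _ _).trans ((congrArg Neg.neg hy').trans ?_)
       rw [AddMonoidHom.neg_apply, AddMonoidHom.neg_apply, smul_neg]
       abel
     coboundary := fun σ τ b => by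
       simp only [Pi.neg_apply, map_neg, AddMonoidHom.neg_apply, W.coboundary, smul_neg]
       abel }⟩

variable (D hζ v)

theorem nonempty_witness_zero : Nonempty (Witness D hζ v 0 0) :=
  ⟨{ field := D.field
     numberField := inferInstance
     galois := inferInstance
     le := le_rfl
     unramified := D.unramified
     lift := 0
     lift_mem := fun _ => zero_mem _
     lift_class := fun _ => (map_zero (classLe (F := D.field) (F' := D.field) le_rfl)).symm
     cochain := 0
     levelConstant := isLevelConstantS₁_const S 0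
     principal := fun σ x => ⟨0, map_zero _, by
       rw [map_zero, AddMonoidHom.zero_apply, AddMonoidHom.zero_apply, smul_zero, sub_zero]⟩
     coboundary := fun σ τ b => by simp }⟩

/-- The relation as a subgroup. -/
noncomputable def shaRelGroup : AddSubgroup (latticeMaps D v × continuousH2S S M) where
  carrier := {t | ShaRel D hζ v t.1 t.2}
  zero_mem' := ⟨0, map_zero _, nonempty_witness_zero D hζ v⟩
  add_mem' := fun {s t} hs ht => by
    obtain ⟨c, hc, ⟨W⟩⟩ := hs
    obtain ⟨c', hc', ⟨W'⟩⟩ := ht
    exact ⟨c + c', (map_add _ _ _).trans (congrArg₂ (· + ·) hc hc'), nonempty_witness_add W W'⟩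
  neg_mem' := fun {s} hs => by
    obtain ⟨c, hc, ⟨W⟩⟩ := hs
    exact ⟨-c, (map_neg _ _).trans (congrArg Neg.neg hc), nonempty_witness_neg W⟩

end FermatLib.CFT.S55
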