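import Fermat.Agent.CFT.SecondIdeles
import Fermat.Agent.CFT.SecondLocalCount

/-!
The product over places of the local indices of `p`-th powers.
-/

set_option autoImplicit false
set_option linter.unusedSectionVars false

open NumberField

namespace FermatLib.CFT

variable {K : Type} [Field K] [NumberField K] {q : Nat.Primes} {p : ℕ} [Fact p.Prime]

theorem natCard_orbit_eq_finrank (φ : Emb K q) :
    Nat.card {ψ : Emb K q // Quotient.mk (Emb.placeSetoid K q) ψ = Quotient.mk _ φ} =
      Module.finrank ℚ_[(q : ℕ)] (completion φ) := by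
  rw [← AlgHom.card ℚ_[(q : ℕ)] (completion φ) (PadicAlgCl (q : ℕ)), ← Nat.card_eq_fintype_card]
  have lift : ∀ σ : completion φ →ₐ[ℚ_[(q : ℕ)]] PadicAlgCl (q : ℕ),
      ∃ τ : Gloc q, ∀ x : completion φ, τ x = σ x := fun σ => by
    obtain ⟨s, hs⟩ : ∃ s : PadicAlgCl (q : ℕ) →ₐ[ℚ_[(q : ℕ)]] PadicAlgCl (q : ℕ),
        ∀ x : completion φ, s x = σ x :=
      ⟨σ.liftNormal (PadicAlgCl (q : ℕ)), fun x => σ.liftNormal_commutes (PadicAlgCl (q : ℕ)) x⟩
    exact ⟨AlgEquiv.ofBijective s (Algebra.IsAlgebraic.algHom_bijective s), hs⟩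
  choose τ hτ using lift
  refine (Nat.card_congr (Equiv.ofBijective (fun σ => (⟨φ.postComp (τ σ),
    Quotient.sound (Emb.SamePlace.symm' ⟨τ σ, rfl⟩)⟩ :
      {ψ : Emb K q // Quotient.mk (Emb.placeSetoid K q) ψ = Quotient.mk _ φ})) ⟨?_, ?_⟩)).symm
  · intro σ σ' h
    refine IntermediateField.algHom_ext_of_eq_adjoin ℚ_[(q : ℕ)] (S := completion φ)
      (s := Set.range φ) rfl fun x hx => ?_
    obtain ⟨y, rfl⟩ := hx
    rw [← hτ σ, ← hτ σ']
    exact RingHom.congr_fun (congrArg Subtype.val h) y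
  · rintro ⟨ψ, hψ⟩
    obtain ⟨t, rfl⟩ := Emb.SamePlace.symm' (Quotient.exact hψ)
    refine ⟨(t.toAlgHom).comp (completion φ).val, Subtype.ext (RingHom.ext fun x => ?_)⟩
    exact hτ _ ⟨φ x, φ.apply_mem_completion x⟩

/-- A representative of a place. -/
noncomputable def FinPlace.rep (v : FinPlace K) : Emb K v.1 := v.exists_rep.choose

theorem FinPlace.place_rep (v : FinPlace K) : v.rep.place = v := v.exists_rep.choose_spec

theorem sum_finrank_completion (q : Nat.Primes) (T : Finset (FinPlace K))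
    (hT : ∀ φ : Emb K q, φ.place ∈ T) :
    ∑ v ∈ T.filter (fun v => v.1 = q), Module.finrank ℚ_[(v.1 : ℕ)] (completion v.rep) =
      Module.finrank ℚ K := by
  classical
  let c := Quotient (Emb.placeSetoid K q)
  have : Fintype c := Fintype.ofFinite c
  have hfil : T.filter (fun v => v.1 = q) =
      Finset.univ.image (fun x : c => (⟨q, x⟩ : FinPlace K)) := by
    ext ⟨r, x⟩
    simp only [Finset.mem_filter, Finset.mem_image, Finset.mem_univ, true_and]
    constructor
    · rintro ⟨-, rfl⟩
      exact ⟨x, rfl⟩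
    · rintro ⟨y, hy⟩
      obtain ⟨φ, rfl⟩ := Quotient.exists_rep y
      exact ⟨hy ▸ hT φ, (Sigma.mk.inj hy).1.symm⟩
  rw [hfil, Finset.sum_image (fun x _ y _ h => eq_of_heq (Sigma.mk.inj h).2)]
  have hfib : ∀ x : c, Module.finrank ℚ_[(q : ℕ)]
      (completion (FinPlace.rep (⟨q, x⟩ : FinPlace K))) =
      Nat.card {ψ : Emb K q // Quotient.mk (Emb.placeSetoid K q) ψ = x} := fun x => by
    have hx : Quotient.mk (Emb.placeSetoid K q) (FinPlace.rep (⟨q, x⟩ : FinPlace K)) = x :=
      eq_of_heq (Sigma.mk.inj (FinPlace.place_rep (⟨q, x⟩ : FinPlace K))).2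
    have h := natCard_orbit_eq_finrank (FinPlace.rep (⟨q, x⟩ : FinPlace K))
    simp only [hx] at h
    exact h.symm
  simp only [hfib]
  rw [← Nat.card_sigma, Nat.card_congr (Equiv.sigmaFiberEquiv _), Nat.card_eq_fintype_card,
    NumberField.Embeddings.card]

/-- The index of the `p`-th powers at an archimedean place. -/
theorem relIndex_infPowUnits (ψ : K →+* ℂ)
    (hreal : (starRingEnd ℂ).comp ψ = ψ → p = 2) [Decidable ((starRingEnd ℂ).comp ψ = ψ)] :
    0 < (infPowUnits ψ p).relIndex (infLocalUnits ψ) ∧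
      (infPowUnits ψ p).relIndex (infLocalUnits ψ) ≤
        if (starRingEnd ℂ).comp ψ = ψ then p else 1 := by
  have hp : p.Prime := Fact.out
  by_cases hψ : (starRingEnd ℂ).comp ψ = ψ
  swap
  · have hle : infLocalUnits ψ ≤ infPowUnits ψ p := fun z _ => by
      obtain ⟨y, hy⟩ := IsAlgClosed.exists_pow_nat_eq (CUnits.toField z) hp.pos
      have hy0 : y ≠ 0 := fun h => CUnits.toField_ne_zero z (by rw [← hy, h, zero_pow hp.ne_zero])
      refine ⟨Additive.ofMul (Units.mk0 y hy0), fun h => absurd h hψ, CUnits.toField_injective ?_⟩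
      simpa [CUnits.toField] using hy
    rw [AddSubgroup.relIndex_eq_one.2 hle, if_neg hψ]
    exact ⟨one_pos, le_rfl⟩
  rw [if_pos hψ]
  obtain rfl := hreal hψ
  let neg : CUnits := Additive.ofMul (Units.mk0 (-1 : ℂ) (by norm_num))
  have hneg : neg ∈ infLocalUnits ψ := fun _ => CUnits.toField_injective (by
    show starRingEnd ℂ (-1) = -1
    simp)
  let Q := infLocalUnits ψ ⧸ (infPowUnits ψ 2).addSubgroupOf (infLocalUnits ψ)
  let f : Fin 2 → Q := fun i => QuotientAddGroup.mk ((i : ℕ) • ⟨neg, hneg⟩)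
  have hsurj : Function.Surjective f := by
    intro x
    obtain ⟨⟨z, hz⟩, rfl⟩ := QuotientAddGroup.mk_surjective x
    have hre : CUnits.toField z = ((CUnits.toField z).re : ℂ) := by
      have h := congrArg CUnits.toField (hz hψ)
      rw [CUnits.toField_conjUnits] at h
      exact (Complex.conj_eq_iff_re.1 h).symm
    set r := (CUnits.toField z).re with hr
    have hr0 : r ≠ 0 := fun h => CUnits.toField_ne_zero z (by rw [hre, h, Complex.ofReal_zero])
    have hsq : ∀ s : ℝ, 0 < s → ∀ u : CUnits, CUnits.toField u = (s : ℂ) →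
        u ∈ infPowUnits ψ 2 := by
      intro s hs u hu
      refine ⟨Additive.ofMul (Units.mk0 ((Real.sqrt s : ℝ) : ℂ)
        (Complex.ofReal_ne_zero.2 (Real.sqrt_pos.2 hs).ne')), fun _ => CUnits.toField_injective ?_,
        CUnits.toField_injective ?_⟩
      · show starRingEnd ℂ ((Real.sqrt s : ℝ) : ℂ) = _
        exact Complex.conj_ofReal _
      · rw [hu]
        simp only [nsmulAddMonoidHom_apply, two_nsmul, CUnits.toField_add]
        show ((Real.sqrt s : ℝ) : ℂ) * ((Real.sqrt s : ℝ) : ℂ) = (s : ℂ)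
        rw [← Complex.ofReal_mul, Real.mul_self_sqrt hs.le]
    rcases lt_or_gt_of_ne hr0 with h | h
    · refine ⟨1, (QuotientAddGroup.eq).2 ?_⟩
      rw [AddSubgroup.mem_addSubgroupOf]
      refine hsq (-r) (by linarith) _ ?_
      simp only [Fin.val_one, one_nsmul, AddSubgroup.coe_add, AddSubgroup.coe_neg,
        CUnits.toField_add, hre]
      simp [neg, CUnits.toField]
    · refine ⟨0, (QuotientAddGroup.eq).2 ?_⟩
      rw [AddSubgroup.mem_addSubgroupOf]
      refine hsq r h _ ?_
      simpa using hre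
  have : Finite Q := Finite.of_surjective f hsurj
  refine ⟨?_, ?_⟩
  · exact Nat.card_pos
  · exact le_of_le_of_eq (Nat.card_le_card_of_surjective f hsurj) (Nat.card_fin 2)

/-- The product of all local indices at `T` and at infinity. -/
theorem prod_relIndex_powUnits_le (T : Finset (FinPlace K))
    (hTp : ∀ (q : Nat.Primes) (φ : Emb K q), (q : ℕ) = p → φ.place ∈ T)
    (hreal : ∀ ψ : K →+* ℂ, (starRingEnd ℂ).comp ψ = ψ → p = 2) :
    (∏ v ∈ T, (v.rep.powUnits p).relIndex v.rep.localUnits) *
      (∏ w : InfinitePlace K, (infPowUnits w.embedding p).relIndex (infLocalUnits w.embedding)) ≤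
      p ^ (2 * (Fintype.card (InfinitePlace K) + T.card)) := by
  classical
  let pp : Nat.Primes := ⟨p, Fact.out⟩
  have h1 : ∏ v ∈ T, (v.rep.powUnits p).relIndex v.rep.localUnits ≤
      p ^ (2 * T.card + Module.finrank ℚ K) := by
    refine (Finset.prod_le_prod' (g := fun v : FinPlace K =>
      p ^ (2 + if v.1 = pp then Module.finrank ℚ_[(v.1 : ℕ)] (completion v.rep) else 0))
      fun v _ => ?_).trans ?_
    · refine (v.rep.relIndex_powUnits (p := p)).2.trans_eq ?_
      by_cases h : v.1 = pp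
      · have h' : p = (v.1 : ℕ) := congrArg Subtype.val h.symm
        rw [if_pos h', if_pos h]
        generalize Module.finrank ℚ_[(v.1 : ℕ)] (completion v.rep) = d
        rw [← h', ← pow_two, ← pow_add]
      · rw [if_neg h, if_neg (fun h' : p = (v.1 : ℕ) => h (Subtype.ext h'.symm))]
        ring
    · refine le_of_eq ?_
      rw [Finset.prod_pow_eq_pow_sum, Finset.sum_add_distrib, Finset.sum_const, smul_eq_mul,
        ← Finset.sum_filter, sum_finrank_completion pp T (fun φ => hTp pp φ rfl)]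
      ring
  have h2 : ∏ w : InfinitePlace K,
      (infPowUnits w.embedding p).relIndex (infLocalUnits w.embedding) ≤
      p ^ InfinitePlace.nrRealPlaces K := by
    refine (Finset.prod_le_prod' (g := fun w : InfinitePlace K =>
      p ^ (if w.IsReal then 1 else 0)) fun w _ => ?_).trans (le_of_eq ?_)
    · refine (relIndex_infPowUnits w.embedding (hreal _)).2.trans_eq ?_
      have hiff : (starRingEnd ℂ).comp w.embedding = w.embedding ↔ w.IsReal := by
        rw [InfinitePlace.isReal_iff]
        exact Iff.rfl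
      by_cases h : w.IsReal
      · rw [if_pos (hiff.2 h), if_pos h, pow_one]
      · rw [if_neg (mt hiff.1 h), if_neg h, pow_zero]
    · rw [Finset.prod_pow_eq_pow_sum, Finset.sum_boole]
      congr 1
      rw [Nat.cast_id, InfinitePlace.nrRealPlaces, Fintype.card_subtype]
  refine (Nat.mul_le_mul h1 h2).trans (le_of_eq ?_)
  rw [← pow_add]
  congr 1
  have e1 := InfinitePlace.card_add_two_mul_card_eq_rank K
  have e2 := InfinitePlace.card_eq_nrRealPlaces_add_nrComplexPlaces K
  omega

end FermatLib.CFT
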