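import Fermat.Agent.CFT.SecondGood
import Fermat.Agent.CFT.SecondCount

/-!
The algebraic core of the second inequality and of the existence theorem for exponent `p`:
a dual system of auxiliary places generates the classes modulo `p`-th powers and `U_T`.
-/

set_option autoImplicit false
set_option linter.unusedSectionVars false

open NumberField

namespace FermatLib.CFT

variable {K : Type} [Field K] [NumberField K] {p : ℕ} [Fact p.Prime]

/-- The global hypotheses on a finite set of places `T`. -/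
structure IsKummerSetting (p : ℕ) (T : Finset (FinPlace K)) : Prop where
  above : ∀ (q : Nat.Primes) (φ : Emb K q), (q : ℕ) = p → φ.place ∈ T
  real : ∀ ψ : K →+* ℂ, (starRingEnd ℂ).comp ψ = ψ → p = 2
  generate : ∀ c : IdeleClass K, ∃ j ∈ placeIdeles K (T : Set (FinPlace K)),
    ∃ d : IdeleClass K, c = QuotientAddGroup.mk j + p • d
  card : ∀ T' : Finset (FinPlace K), T ⊆ T' →
    ((placeUnits K (T' : Set (FinPlace K))).map (nsmulAddMonoidHom p)).relIndex
      (placeUnits K (T' : Set (FinPlace K))) = p ^ (Fintype.card (InfinitePlace K) + T'.card)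
  normGroup : ∀ a : LUnits K, ¬ IsGlobalPow p a → ∃ N, IsKummerNormGroup p a N

/-- A set of auxiliary places with dual elements. -/
structure IsDualSystem (p : ℕ) (T P : Finset (FinPlace K)) : Prop where
  disjoint : ∀ v ∈ P, v ∉ T
  sep : ∀ x ∈ placeUnits K (T : Set (FinPlace K)), (∀ v ∈ P, IsPowAt p v x) → IsGlobalPow p x
  dual : ∀ v ∈ P, ∃ a ∈ placeUnits K (T : Set (FinPlace K)),
    ¬ IsPowAt p v a ∧ ∀ w ∈ P, w ≠ v → IsPowAt p w a

variable {T P : Finset (FinPlace K)}

/-- Bezout inside a subgroup. -/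
theorem mem_of_zsmul_mem_of_not_dvd {A : Type*} [AddCommGroup A] (N : AddSubgroup A) {x : A}
    {n : ℤ} (hp : p • x ∈ N) (hn : n • x ∈ N) (hdvd : ¬ (p : ℤ) ∣ n) : x ∈ N := by
  obtain ⟨s, t, hst⟩ :=
    (Nat.prime_iff_prime_int.1 (Fact.out : p.Prime)).coprime_iff_not_dvd.2 hdvd
  rw [← natCast_zsmul] at hp
  rw [← one_zsmul x, ← hst, add_smul, mul_smul, mul_smul]
  exact add_mem (zsmul_mem hp s) (zsmul_mem hn t)

/-- Termwise membership of a difference of sums. -/
theorem sum_sub_sum_mem {A ι : Type*} [AddCommGroup A] (N : AddSubgroup A) (s : Finset ι)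
    (f g : ι → A) (h : ∀ v ∈ s, f v - g v ∈ N) : ∑ v ∈ s, f v - ∑ v ∈ s, g v ∈ N := by
  rw [← Finset.sum_sub_distrib]; exact sum_mem h

/-- Congruent multiples of an element of exponent `p` modulo a subgroup. -/
theorem sub_mem_of_congr {A : Type*} [AddCommGroup A] (N : AddSubgroup A) {b c g : A}
    {m m' k : ℤ} (hk : m - m' = (p : ℤ) * k) (hb : b - m • g ∈ N) (hc : c - m' • g ∈ N)
    (hg : p • g ∈ N) : b - c ∈ N := by
  rw [← natCast_zsmul] at hg
  have e : b - c = (b - m • g) - (c - m' • g) + k • ((p : ℤ) • g) := by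
    rw [← mul_smul, mul_comm k, ← hk, sub_smul]
    abel
  rw [e]
  exact add_mem (sub_mem hb hc) (zsmul_mem hg k)

/-- Multiples by `p` inside a sum. -/
theorem add_sum_dvd {A ι : Type*} [AddCommGroup A] [Fintype ι] {n m : ι → ℤ}
    (h : ∀ v, n v = (p : ℤ) * m v) (d u : A) (x : ι → A) :
    p • d + u + ∑ v, n v • x v = p • (d + ∑ v, m v • x v) + u := by
  have : ∑ v, n v • x v = p • ∑ v, m v • x v := by
    rw [Finset.smul_sum]
    exact Finset.sum_congr rfl fun v _ => by rw [h v, mul_smul, natCast_zsmul]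
  rw [this, smul_add]
  abel

/-- The finite local target. -/
abbrev KummerFinTarget (p : ℕ) (T : Finset (FinPlace K)) : Type :=
  ∀ v : T, v.1.rep.localUnits ⧸ (v.1.rep.powUnits p).addSubgroupOf v.1.rep.localUnits

/-- The archimedean local target. -/
abbrev KummerInfTarget (K : Type) [Field K] [NumberField K] (p : ℕ) : Type :=
  ∀ w : InfinitePlace K, infLocalUnits w.embedding ⧸
    (infPowUnits w.embedding p).addSubgroupOf (infLocalUnits w.embedding)

theorem mem_map_nsmul_of_isGlobalPow {U : Set (FinPlace K)} {x : LUnits K}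
    (hx : x ∈ placeUnits K U) (h : IsGlobalPow p x) :
    x ∈ (placeUnits K U).map (nsmulAddMonoidHom p) := by
  obtain ⟨y, rfl⟩ := h
  exact ⟨y, mem_placeUnits_of_nsmul (Fact.out : p.Prime).ne_zero hx, rfl⟩

theorem IsKummerSetting.prime_ne {hT : IsKummerSetting p T} {q : Nat.Primes} {φ : Emb K q}
    (h : φ.place ∉ T) : (q : ℕ) ≠ p := fun hq => h (hT.above q φ hq)

theorem isPowAt_rep_iff (v : FinPlace K) (x : LUnits K) :
    IsPowAt p v x ↔ principalFamily K x v.1 v.rep ∈ v.rep.powUnits p :=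
  ⟨fun h => h _ v.place_rep,
    fun h _ hφ => (principalIdele K x).mem_powUnits_of_place_eq (v.place_rep.trans hφ.symm) h⟩

theorem isPowAt_add {v : FinPlace K} {x y : LUnits K} (hx : IsPowAt p v x)
    (hy : IsPowAt p v y) : IsPowAt p v (x + y) := fun φ hφ => by
  show (principalIdele K (x + y)).fin v.1 φ ∈ _
  rw [map_add]
  exact add_mem (hx φ hφ) (hy φ hφ)

theorem isPowAt_nsmul {v : FinPlace K} {x : LUnits K} (n : ℕ) (hx : IsPowAt p v x) :
    IsPowAt p v (n • x) := fun φ hφ => by
  show (principalIdele K (n • x)).fin v.1 φ ∈ _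
  rw [map_nsmul]
  exact AddSubgroup.nsmul_mem _ (hx φ hφ) n

/-- Elements of `E_T` prescribe any unit classes at the auxiliary places. -/
theorem IsDualSystem.exists_adjust (hT : IsKummerSetting p T) (hP : IsDualSystem p T P)
    (j : Idele K) (hj : ∀ (q : Nat.Primes) (φ : Emb K q), φ.place ∈ P →
      j.fin q φ ∈ QUnits.unitGroup q) :
    ∃ e ∈ placeUnits K (T : Set (FinPlace K)), ∀ (q : Nat.Primes) (φ : Emb K q),
      φ.place ∈ P → (j - principalIdele K e).fin q φ ∈ φ.powUnits p := by
  classical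
  choose a ha hna hoth using hP.dual
  have key : ∀ v : P, ∃ n : ℕ,
      (j - n • principalIdele K (a v.1 v.2)).fin v.1.1 v.1.rep ∈ v.1.rep.powUnits p := by
    rintro ⟨v, hv⟩
    have hvT : v.rep.place ∉ (T : Set (FinPlace K)) := by
      rw [v.place_rep]; exact hP.disjoint v hv
    obtain ⟨n, hn⟩ := v.rep.exists_nsmul_sub_mem_powUnits (p := p) (hT.prime_ne hvT)
      ((principalIdele K (a v hv)).fin_mem_localUnits _ _) (ha v hv v.1 v.rep hvT)
      (fun h => hna v hv ((isPowAt_rep_iff _ _).2 h))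
      (j.fin_mem_localUnits _ v.rep) (hj v.1 v.rep (by rw [v.place_rep]; exact hv))
    refine ⟨n, ?_⟩
    simpa [Idele.fin] using hn
  choose n hn using key
  refine ⟨∑ v : P, n v • a v.1 v.2, sum_mem fun v _ => AddSubgroup.nsmul_mem _ (ha v.1 v.2) _,
    fun q φ hφ => ?_⟩
  set v : P := ⟨φ.place, hφ⟩ with hv
  have hrep : v.1.rep.place = φ.place := v.1.place_rep
  refine (j - principalIdele K (∑ v : P, n v • a v.1 v.2)).mem_powUnits_of_place_eq
    (φ := (v.1.rep : Emb K q)) hrep ?_
  have e : j - principalIdele K (∑ w : P, n w • a w.1 w.2) =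
      (j - n v • principalIdele K (a v.1 v.2)) -
        principalIdele K (∑ w ∈ (Finset.univ : Finset P).erase v, n w • a w.1 w.2) := by
    rw [← Finset.add_sum_erase _ _ (Finset.mem_univ v), map_add, map_nsmul]
    abel
  rw [e]
  refine sub_mem (hn v) ?_
  have hrest : IsPowAt p v.1
      (∑ w ∈ (Finset.univ : Finset P).erase v, n w • a w.1 w.2) := by
    refine Finset.sum_induction _ (IsPowAt p v.1) (fun x y => isPowAt_add)
      (fun ψ _ => ?_) fun w hw => isPowAt_nsmul _
        (hoth w.1 w.2 v.1 v.2 fun h => Finset.ne_of_mem_erase hw (Subtype.ext h.symm))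
    show (principalIdele K 0).fin _ ψ ∈ _
    rw [map_zero]
    exact zero_mem _
  exact hrest v.1.rep v.1.place_rep

/-- An element of `E_{T ∪ P}` which is a power at `T` and at infinity is a power. -/
theorem IsDualSystem.isGlobalPow_of_forall (hT : IsKummerSetting p T) (hP : IsDualSystem p T P)
    {x : LUnits K} (hx : x ∈ placeUnits K ((T : Set (FinPlace K)) ∪ P))
    (hfin : ∀ v ∈ T, IsPowAt p v x)
    (hinf : ∀ ψ : K →+* ℂ, principalFamilyInf K x ψ ∈ infPowUnits ψ p) : IsGlobalPow p x := by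
  by_contra hnx
  obtain ⟨N, hN⟩ := hT.normGroup x hnx
  refine hN.ne_top (eq_top_iff.2 fun c _ => ?_)
  obtain ⟨j, hj, d, rfl⟩ := hT.generate c
  refine add_mem ?_ (hN.nsmul_mem d)
  obtain ⟨e, he, hpow⟩ := hP.exists_adjust hT j (fun q φ hφ => hj q φ (hP.disjoint _ hφ))
  have : (QuotientAddGroup.mk j : IdeleClass K) = QuotientAddGroup.mk (j - principalIdele K e) := by
    rw [QuotientAddGroup.mk_sub, mk_principalIdele, sub_zero]
  rw [this]
  refine hN.good _ ⟨fun q φ => ?_, fun ψ => Or.inl (hinf ψ)⟩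
  by_cases hφT : φ.place ∈ T
  · exact localKummerGood_of_isPow φ _ ((isPowAt_place_iff φ x).1 (hfin _ hφT))
  by_cases hφP : φ.place ∈ P
  · exact localKummerGood_of_pow φ _ (hpow q φ hφP)
  · exact localKummerGood_of_units (hT.prime_ne hφT) φ
      (hx q φ (by simp [hφT, hφP])) (Idele.fin_mem_localUnits _ q φ)
      (sub_mem (hj q φ hφT) (he q φ hφT))

/-- The number of auxiliary places. -/
theorem IsDualSystem.card_eq (hT : IsKummerSetting p T) (hP : IsDualSystem p T P) :
    P.card = Fintype.card (InfinitePlace K) + T.card := by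
  classical
  have hp : p.Prime := Fact.out
  set E := placeUnits K (T : Set (FinPlace K)) with hE
  choose a ha hna hoth using hP.dual
  let Q := E ⧸ (E.map (nsmulAddMonoidHom p)).addSubgroupOf E
  let f : (P → ZMod p) → Q := fun n =>
    QuotientAddGroup.mk ⟨∑ v : P, (n v).val • a v.1 v.2,
      sum_mem fun v _ => AddSubgroup.nsmul_mem _ (ha v.1 v.2) _⟩
  have hdet : ∀ (m : P → ℤ), (∑ v : P, m v • a v.1 v.2) ∈ E.map (nsmulAddMonoidHom p) →
      ∀ v, (p : ℤ) ∣ m v := by
    rintro m ⟨y, -, hy⟩ v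
    by_contra hdvd
    refine hna v.1 v.2 fun φ hφ => ?_
    let F : LUnits K →+ QUnits v.1.1 :=
      { toFun := fun x => (principalIdele K x).fin v.1.1 φ
        map_zero' := by simp [Idele.fin]
        map_add' := fun x y => by simp [Idele.fin] }
    have h1 : F (∑ w : P, m w • a w.1 w.2) ∈ φ.powUnits p := by
      rw [← hy]
      exact ⟨F y, (principalIdele K y).fin_mem_localUnits _ φ, (map_nsmul F p y).symm⟩
    rw [map_sum, ← Finset.add_sum_erase _ _ (Finset.mem_univ v)] at h1
    have h2 : ∑ w ∈ (Finset.univ : Finset P).erase v, F (m w • a w.1 w.2) ∈ φ.powUnits p := by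
      refine sum_mem fun w hw => ?_
      rw [map_zsmul]
      exact zsmul_mem (hoth w.1 w.2 v.1 v.2
        (fun h => Finset.ne_of_mem_erase hw (Subtype.ext h.symm)) φ hφ) _
    have h3 : m v • F (a v.1 v.2) ∈ φ.powUnits p := by
      rw [← map_zsmul]; exact (add_mem_cancel_right h2).1 h1
    have h4 : (p : ℤ) • F (a v.1 v.2) ∈ φ.powUnits p := by
      rw [natCast_zsmul]
      exact ⟨F (a v.1 v.2), (principalIdele K _).fin_mem_localUnits _ φ, rfl⟩
    have h4' : p • F (a v.1 v.2) ∈ φ.powUnits p := by rw [← natCast_zsmul]; exact h4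
    exact mem_of_zsmul_mem_of_not_dvd (A := QUnits v.1.1) _ h4' h3 hdvd
  have hinj : Function.Injective f := by
    intro m m' h
    funext v
    have h' := (QuotientAddGroup.eq).1 h
    rw [AddSubgroup.mem_addSubgroupOf, AddSubgroup.coe_add, AddSubgroup.coe_neg] at h'
    simp only [neg_add_eq_sub] at h'
    have h'' : (∑ w : P, (((m' w).val : ℤ) - ((m w).val : ℤ)) • a w.1 w.2) ∈
        E.map (nsmulAddMonoidHom p) := by
      rw [Finset.sum_congr rfl (fun w _ => sub_smul (((m' w).val : ℤ)) ((m w).val : ℤ) (a w.1 w.2)),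
        Finset.sum_sub_distrib]
      simpa only [natCast_zsmul] using h'
    have := (ZMod.intCast_zmod_eq_zero_iff_dvd _ p).2 (hdet _ h'' v)
    push_cast at this
    rw [ZMod.natCast_zmod_val, ZMod.natCast_zmod_val, sub_eq_zero] at this
    exact this.symm
  have hsurj : Function.Surjective f := by
    intro c
    obtain ⟨⟨e, he⟩, rfl⟩ := QuotientAddGroup.mk_surjective c
    have key : ∀ v : P, ∃ n : ℕ, principalFamily K e v.1.1 v.1.rep -
        n • principalFamily K (a v.1 v.2) v.1.1 v.1.rep ∈ v.1.rep.powUnits p := by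
      rintro ⟨v, hv⟩
      have hvT : v.rep.place ∉ (T : Set (FinPlace K)) := by
        rw [v.place_rep]; exact hP.disjoint v hv
      exact v.rep.exists_nsmul_sub_mem_powUnits (p := p) (hT.prime_ne hvT)
        ((principalIdele K _).fin_mem_localUnits _ _) (ha v hv v.1 v.rep hvT)
        (fun h => hna v hv ((isPowAt_rep_iff _ _).2 h))
        ((principalIdele K e).fin_mem_localUnits _ v.rep) (he v.1 v.rep hvT)
    choose n hn using key
    have hmem : e - (∑ v : P, n v • a v.1 v.2) ∈ E :=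
      sub_mem he (sum_mem fun v _ => AddSubgroup.nsmul_mem _ (ha v.1 v.2) _)
    have hpow : IsGlobalPow p (e - ∑ v : P, n v • a v.1 v.2) := by
      refine hP.sep _ hmem fun v hv => ?_
      rw [isPowAt_rep_iff]
      let F : LUnits K →+ QUnits v.1 :=
        { toFun := fun x => (principalIdele K x).fin v.1 v.rep
          map_zero' := by simp [Idele.fin]
          map_add' := fun x y => by simp [Idele.fin] }
      show F _ ∈ _
      rw [map_sub, map_sum, ← Finset.add_sum_erase _ _ (Finset.mem_univ (⟨v, hv⟩ : P)), sub_add_eq_sub_sub]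
      refine sub_mem (by rw [map_nsmul]; exact hn ⟨v, hv⟩) (sum_mem fun w hw => ?_)
      rw [map_nsmul]
      exact AddSubgroup.nsmul_mem _ (hoth w.1 w.2 v hv
        (fun h => Finset.ne_of_mem_erase hw (Subtype.ext h.symm)) v.rep v.place_rep) _
    obtain ⟨y, hy⟩ := hpow
    have hy' : y ∈ E := mem_placeUnits_of_nsmul hp.ne_zero (hy ▸ hmem)
    refine ⟨fun v => (n v : ZMod p), (QuotientAddGroup.eq).2 ?_⟩
    rw [AddSubgroup.mem_addSubgroupOf, AddSubgroup.coe_add, AddSubgroup.coe_neg]
    simp only [neg_add_eq_sub]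
    refine ⟨y + ∑ v : P, (n v / p) • a v.1 v.2,
      add_mem hy' (sum_mem fun v _ => AddSubgroup.nsmul_mem _ (ha v.1 v.2) _), ?_⟩
    have hsplit : ∀ v : P, n v • a v.1 v.2 =
        (n v : ZMod p).val • a v.1 v.2 + p • (n v / p) • a v.1 v.2 := fun v => by
      rw [← mul_nsmul', ← add_nsmul, ZMod.val_natCast, Nat.mod_add_div]
    simp only [nsmulAddMonoidHom_apply, smul_add, hy, Finset.smul_sum]
    rw [eq_sub_iff_add_eq]
    calc _ = e - ∑ v : P, n v • a v.1 v.2 +
          ∑ v : P, ((n v : ZMod p).val • a v.1 v.2 + p • (n v / p) • a v.1 v.2) := by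
          rw [Finset.sum_add_distrib]; abel
      _ = e := by rw [← Finset.sum_congr rfl fun v _ => hsplit v, sub_add_cancel]
  have h := Nat.card_congr (Equiv.ofBijective f ⟨hinj, hsurj⟩)
  rw [show Nat.card Q = (E.map (nsmulAddMonoidHom p)).relIndex E from rfl, hT.card T subset_rfl,
    Nat.card_pi] at h
  simp only [Nat.card_zmod, Finset.prod_const, Finset.card_univ, Fintype.card_coe] at h
  exact Nat.pow_right_injective hp.two_le h

/-- The local-global surjectivity at `T` and at infinity. -/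
theorem IsDualSystem.exists_sub_pow (hT : IsKummerSetting p T) (hP : IsDualSystem p T P)
    (j : Idele K) : ∃ e ∈ placeUnits K ((T : Set (FinPlace K)) ∪ P),
      (∀ (q : Nat.Primes) (φ : Emb K q), φ.place ∈ T →
        (j - principalIdele K e).fin q φ ∈ φ.powUnits p) ∧
      ∀ ψ : K →+* ℂ, (j - principalIdele K e).inf ψ ∈ infPowUnits ψ p := by
  classical
  have hp : p.Prime := Fact.out
  set E := placeUnits K ((T : Set (FinPlace K)) ∪ P) with hE
  have : ∀ v : T, Finite (v.1.rep.localUnits ⧸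
      (v.1.rep.powUnits p).addSubgroupOf v.1.rep.localUnits) := fun v =>
    (Nat.card_pos_iff.1 (v.1.rep.relIndex_powUnits (p := p)).1).2
  have : ∀ w : InfinitePlace K, Finite (infLocalUnits w.embedding ⧸
      (infPowUnits w.embedding p).addSubgroupOf (infLocalUnits w.embedding)) := fun w =>
    (Nat.card_pos_iff.1 (relIndex_infPowUnits (p := p) w.embedding (hT.real _)).1).2
  let Φ : Idele K →+ (KummerFinTarget p T) × (KummerInfTarget K p) :=
    { toFun := fun f => (fun v => QuotientAddGroup.mk ⟨f.fin v.1.1 v.1.rep, f.fin_mem_localUnits _ _⟩,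
        fun w => QuotientAddGroup.mk ⟨f.inf w.embedding, f.inf_mem_infLocalUnits _⟩)
      map_zero' := rfl
      map_add' := fun f g => rfl }
  let Ψ : E →+ (KummerFinTarget p T) × (KummerInfTarget K p) := Φ.comp ((principalIdele K).comp E.subtype)
  have hinfpow : ∀ (f : Idele K), (∀ w : InfinitePlace K,
      f.inf w.embedding ∈ infPowUnits w.embedding p) → ∀ ψ, f.inf ψ ∈ infPowUnits ψ p := by
    intro f hf ψ
    have hcc : (starRingEnd ℂ).comp ((starRingEnd ℂ).comp (InfinitePlace.mk ψ).embedding) =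
        (InfinitePlace.mk ψ).embedding := RingHom.ext fun x => Complex.conj_conj _
    rcases InfinitePlace.mk_eq_iff.1 (InfinitePlace.mk_embedding (InfinitePlace.mk ψ)) with e | e
    · have := hf (InfinitePlace.mk ψ); rwa [e] at this
    · change (starRingEnd ℂ).comp (InfinitePlace.mk ψ).embedding = ψ at e
      obtain ⟨w, hw, hwe⟩ := hf (InfinitePlace.mk ψ)
      refine ⟨conjUnits w, by rw [← e]; exact conjUnits_mem_infLocalUnits hw, ?_⟩
      have := f.2.2.2 (InfinitePlace.mk ψ).embedding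
      rw [e] at this
      rw [nsmulAddMonoidHom_apply] at hwe ⊢
      rw [← map_nsmul, hwe]
      exact this.symm
  have hker : Ψ.ker = ((E.map (nsmulAddMonoidHom p)).addSubgroupOf E) := by
    ext ⟨x, hx⟩
    rw [AddMonoidHom.mem_ker, AddSubgroup.mem_addSubgroupOf]
    constructor
    · intro h
      refine mem_map_nsmul_of_isGlobalPow hx (hP.isGlobalPow_of_forall hT hx (fun v hv => ?_)
        (hinfpow (principalIdele K x) fun w => ?_))
      · have := (QuotientAddGroup.eq_zero_iff _).1 (congrFun (congrArg Prod.fst h) ⟨v, hv⟩)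
        rw [isPowAt_rep_iff]
        exact this
      · exact (QuotientAddGroup.eq_zero_iff (N := (infPowUnits w.embedding p).addSubgroupOf _) _).1
          (congrFun (congrArg Prod.snd h) w)
    · rintro ⟨y, -, rfl⟩
      refine Prod.ext (funext fun v => (QuotientAddGroup.eq_zero_iff _).2 ?_)
        (funext fun w => (QuotientAddGroup.eq_zero_iff _).2 ?_)
      · exact ⟨_, (principalIdele K y).fin_mem_localUnits _ _,
          by simp [map_nsmul, Idele.fin]⟩
      · exact ⟨_, (principalIdele K y).inf_mem_infLocalUnits _,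
          by simp [map_nsmul, Idele.inf]⟩
  have hdisj : Disjoint T P := Finset.disjoint_right.2 hP.disjoint
  have hcardE : Nat.card (AddMonoidHom.range (G := E) (N := KummerFinTarget p T × KummerInfTarget K p) Ψ) = p ^ (2 * (Fintype.card (InfinitePlace K) + T.card)) := by
    rw [← Nat.card_congr (QuotientAddGroup.quotientKerEquivRange (G := E) (H := KummerFinTarget p T × KummerInfTarget K p) Ψ).toEquiv, hker]
    show (E.map _).relIndex E = _
    rw [hE, ← Finset.coe_union, hT.card (T ∪ P) Finset.subset_union_left,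
      Finset.card_union_of_disjoint hdisj, hP.card_eq hT]
    congr 1
    omega
  have hQ : Nat.card ((KummerFinTarget p T) × (KummerInfTarget K p)) ≤ p ^ (2 * (Fintype.card (InfinitePlace K) + T.card)) := by
    rw [Nat.card_prod, Nat.card_pi, Nat.card_pi]
    refine le_of_eq_of_le ?_ (prod_relIndex_powUnits_le T hT.above hT.real)
    rw [← Finset.prod_coe_sort T]
    rfl
  have : Finite ((KummerFinTarget p T) × (KummerInfTarget K p)) := inferInstance
  have htop : AddMonoidHom.range (G := E) (N := KummerFinTarget p T × KummerInfTarget K p) Ψ = ⊤ := AddSubgroup.eq_top_of_le_card _ (hcardE ▸ hQ)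
  obtain ⟨⟨e, he⟩, hΨ⟩ := AddMonoidHom.mem_range.1 (htop ▸ AddSubgroup.mem_top (Φ j))
  have h0 : Φ (j - principalIdele K e) = 0 := by
    rw [map_sub]
    exact sub_eq_zero.2 hΨ.symm
  refine ⟨e, he, fun q φ hφ => ?_, hinfpow _ fun w => ?_⟩
  · have := (QuotientAddGroup.eq_zero_iff _).1 (congrFun (congrArg Prod.fst h0) ⟨φ.place, hφ⟩)
    exact (j - principalIdele K e).mem_powUnits_of_place_eq φ.place.place_rep this
  · exact (QuotientAddGroup.eq_zero_iff (N := (infPowUnits w.embedding p).addSubgroupOf _) _).1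
      (congrFun (congrArg Prod.snd h0) w)

/-- Classes are generated modulo `p` and `U_T` by uniformisers at the auxiliary places. -/
theorem IsDualSystem.exists_decomp (hT : IsKummerSetting p T) (hP : IsDualSystem p T P) :
    ∃ π : P → Idele K,
      (∀ (v : P) (r : Nat.Primes) (ψ : Emb K r), ψ.place ≠ v.1 → (π v).fin r ψ = 0) ∧
      (∀ (v : P) χ, (π v).inf χ = 0) ∧
      ∀ c : IdeleClass K, ∃ d : IdeleClass K, ∃ u ∈ placeUnitsOutside K (T : Set (FinPlace K)),
        ∃ n : P → ℤ,
        c = p • d + QuotientAddGroup.mk u + ∑ v, n v • QuotientAddGroup.mk (π v) := by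
  classical
  have hπ : ∀ v : P, ∃ j : Idele K,
      (∀ z ∈ v.1.rep.localUnits, ∃ n : ℤ, z - n • j.fin v.1.1 v.1.rep ∈ QUnits.unitGroup v.1.1) ∧
      (∀ (r : Nat.Primes) (ψ : Emb K r), ψ.place ≠ v.1 → j.fin r ψ = 0) ∧
      ∀ χ, j.inf χ = 0 := fun v => by
    obtain ⟨ϖ, hϖ, hgen⟩ := v.1.rep.exists_local_uniformizer
    obtain ⟨j, hjv, hj0, hjinf⟩ := exists_singleIdele v.1.rep hϖ
    rw [v.1.place_rep] at hj0
    exact ⟨j, by rw [hjv]; exact hgen, hj0, hjinf⟩
  choose π hπgen hπ0 hπinf using hπ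
  refine ⟨π, hπ0, hπinf, fun c => ?_⟩
  obtain ⟨j, hj, d, rfl⟩ := hT.generate c
  obtain ⟨e, he, hpT, hpinf⟩ := hP.exists_sub_pow hT j
  set j' := j - principalIdele K e with hj'
  obtain ⟨w, hw, hw'⟩ := exists_equivariant_units (K := K)
    (P := fun q φ u => (φ.place ∈ T → p • u = j'.fin q φ) ∧ (φ.place ∉ T → u = 0))
    (fun q τ φ u h => by
      refine ⟨fun hm => ?_, fun hm => ?_⟩
      · rw [φ.place_postComp] at hm
        rw [← map_nsmul, h.1 hm]
        exact (j'.2.1 q τ φ).symm
      · rw [φ.place_postComp] at hm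
        rw [h.2 hm, map_zero])
    (fun q φ => by
      by_cases h : φ.place ∈ T
      · obtain ⟨u, hu, hup⟩ := hpT q φ h
        exact ⟨u, hu, fun _ => hup, fun h' => absurd h h'⟩
      · exact ⟨0, zero_mem _, fun h' => absurd h' h, fun _ => rfl⟩)
  obtain ⟨wi, hwi, hwi'⟩ := exists_equivariant_inf (K := K)
    (P := fun ψ u => p • u = j'.inf ψ)
    (fun ψ u h => by rw [← map_nsmul, h]; exact (j'.2.2.2 ψ).symm)
    (fun ψ => by
      obtain ⟨u, hu, hup⟩ := hpinf ψ
      exact ⟨u, hu, hup⟩)
  have hfinite : {q : Nat.Primes | ∃ φ : Emb K q, w q φ ∉ QUnits.unitGroup q}.Finite := by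
    refine (T.image Sigma.fst).finite_toSet.subset fun q ⟨φ, hφ⟩ => ?_
    rw [Finset.coe_image]
    refine ⟨φ.place, ?_, rfl⟩
    by_contra h
    exact hφ (by rw [(hw' q φ).2.2 h]; exact zero_mem _)
  let W : Idele K := ⟨(w, wi), hw, hfinite, hwi⟩
  have key : ∀ v : P, ∃ n : ℤ,
      (j' - n • π v).fin v.1.1 v.1.rep ∈ QUnits.unitGroup v.1.1 := fun v => by
    obtain ⟨n, hn⟩ := hπgen v _ (j'.fin_mem_localUnits _ v.1.rep)
    exact ⟨n, hn⟩
  choose n hn using key
  refine ⟨d + QuotientAddGroup.mk W, j' - p • W - ∑ v, n v • π v, ⟨fun q φ => ?_, fun ψ => ?_⟩,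
    n, ?_⟩
  · let F : Idele K →+ QUnits q :=
      { toFun := fun f => f.fin q φ, map_zero' := rfl, map_add' := fun _ _ => rfl }
    show F (j' - p • W - ∑ v, n v • π v) ∈ QUnits.unitGroup q ∧
      (φ.place ∈ (T : Set (FinPlace K)) → F (j' - p • W - ∑ v, n v • π v) = 0)
    rw [map_sub, map_sub, map_nsmul, map_sum]
    have hW : F W = w q φ := rfl
    have hterm : ∀ v : P, v.1 ≠ φ.place → F (n v • π v) = 0 := fun v h => by
      rw [map_zsmul]
      show n v • (π v).fin q φ = 0
      rw [hπ0 v q φ (Ne.symm h), smul_zero]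
    by_cases hφT : φ.place ∈ T
    · rw [hW, (hw' q φ).2.1 hφT,
        Finset.sum_eq_zero fun v _ => hterm v fun h => hP.disjoint v.1 v.2 (h ▸ hφT)]
      have : F j' - j'.fin q φ - 0 = 0 := by simp [F]
      exact ⟨by rw [this]; exact zero_mem _, fun _ => this⟩
    refine ⟨?_, fun h => absurd h hφT⟩
    rw [hW, (hw' q φ).2.2 hφT, smul_zero, sub_zero]
    by_cases hφP : φ.place ∈ P
    · rw [Finset.sum_eq_single (⟨φ.place, hφP⟩ : P)
        (fun v _ hv => hterm v fun h => hv (Subtype.ext h))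
        (fun h => absurd (Finset.mem_univ _) h), ← map_sub]
      exact (j' - n _ • π _).mem_unitGroup_of_place_eq φ.place.place_rep (hn ⟨φ.place, hφP⟩)
    · rw [Finset.sum_eq_zero fun v _ => hterm v fun h => hφP (h ▸ v.2), sub_zero]
      exact sub_mem (hj q φ hφT) (he q φ (by simp [hφT, hφP]))
  · let F : Idele K →+ CUnits :=
      { toFun := fun f => f.inf ψ, map_zero' := rfl, map_add' := fun _ _ => rfl }
    show F (j' - p • W - ∑ v, n v • π v) = 0
    rw [map_sub, map_sub, map_nsmul, map_sum,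
      Finset.sum_eq_zero fun v _ => by
        rw [map_zsmul]
        show n v • (π v).inf ψ = 0
        rw [hπinf v ψ, smul_zero]]
    show j'.inf ψ - p • wi ψ - 0 = 0
    rw [(hwi' ψ).2, sub_self, sub_zero]
  · have hje : (QuotientAddGroup.mk j : IdeleClass K) = QuotientAddGroup.mk j' := by
      rw [hj', QuotientAddGroup.mk_sub, mk_principalIdele, sub_zero]
    simp only [hje, QuotientAddGroup.mk_sub, QuotientAddGroup.mk_nsmul, nsmul_add,
      QuotientAddGroup.mk_sum, QuotientAddGroup.mk_zsmul]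
    abel

variable {N : AddSubgroup (IdeleClass K)}

/-- The second inequality in Kummer form. -/
theorem IsDualSystem.card_le (hT : IsKummerSetting p T) (hP : IsDualSystem p T P) {a : LUnits K}
    (ha : a ∈ placeUnits K (T : Set (FinPlace K))) (hN : IsKummerNormGroup p a N)
    {v₀ : FinPlace K} (hpow : ∀ v ∈ P, v ≠ v₀ → IsPowAt p v a) (s : Finset (IdeleClass K))
    (hs : ∀ b ∈ s, ∀ c ∈ s, b - c ∈ N → b = c) : s.card ≤ p := by
  classical
  obtain ⟨π, hπ0, hπinf, hdec⟩ := hP.exists_decomp hT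
  have hmain : ∃ g : IdeleClass K, ∀ c, ∃ m : ℤ, c - m • g ∈ N := by
    refine ⟨∑ v, if v.1 = v₀ then QuotientAddGroup.mk (π v) else 0, fun c => ?_⟩
    obtain ⟨d, u, hu, n, rfl⟩ := hdec c
    refine ⟨if h : v₀ ∈ P then n ⟨v₀, h⟩ else 0, ?_⟩
    rw [add_sub_assoc, Finset.smul_sum]

    refine add_mem (add_mem (hN.nsmul_mem d) (hN.placeUnitsOutside_le hT.above ha hu)) ?_
    refine sum_sub_sum_mem (A := IdeleClass K) N _ _ _ fun v _ => ?_
    by_cases h : v.1 = v₀
    · obtain rfl := h
      rw [if_pos rfl, dif_pos v.2, sub_self]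
      exact zero_mem _
    · rw [if_neg h, smul_zero, sub_zero]
      exact zsmul_mem (hN.single_mem (hpow v.1 v.2 h) (hπ0 v) (hπinf v)) _
  obtain ⟨g, hg⟩ := hmain
  choose m hm using hg
  have hp : p.Prime := Fact.out
  refine le_of_le_of_eq (Finset.card_le_card_of_injOn (fun c => (m c : ZMod p))
    (fun c _ => Finset.mem_coe.2 (Finset.mem_univ _)) ?_) (Finset.card_univ.trans (ZMod.card p))
  intro b hb c hc h
  refine hs b hb c hc ?_
  obtain ⟨k, hk⟩ := (ZMod.intCast_eq_intCast_iff_dvd_sub (m c) (m b) p).1 h.symm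
  exact sub_mem_of_congr (A := IdeleClass K) N hk (hm b) (hm c) (hN.nsmul_mem g)

/-- A class in all the norm groups of the dual elements is a power up to `U_T`. -/
theorem IsDualSystem.exists_of_forall_mem (hT : IsKummerSetting p T) (hP : IsDualSystem p T P)
    (a : P → LUnits K) (ha : ∀ v, a v ∈ placeUnits K (T : Set (FinPlace K)))
    (hoth : ∀ v w : P, w ≠ v → IsPowAt p w.1 (a v))
    (Ns : P → AddSubgroup (IdeleClass K)) (hN : ∀ v, IsKummerNormGroup p (a v) (Ns v))
    {c : IdeleClass K} (hc : ∀ v, c ∈ Ns v) :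
    ∃ d : IdeleClass K, ∃ u ∈ placeUnitsOutside K (T : Set (FinPlace K)),
      c = p • d + QuotientAddGroup.mk u := by
  classical
  have hp : p.Prime := Fact.out
  obtain ⟨π, hπ0, hπinf, hdec⟩ := hP.exists_decomp hT
  have hnot : ∀ v, (QuotientAddGroup.mk (π v) : IdeleClass K) ∉ Ns v := by
    intro v hv
    refine (hN v).ne_top (eq_top_iff.2 fun x _ => ?_)
    obtain ⟨d, u, hu, n, rfl⟩ := hdec x
    refine add_mem (add_mem ((hN v).nsmul_mem d)
      ((hN v).placeUnitsOutside_le hT.above (ha v) hu)) (sum_mem fun w _ => zsmul_mem ?_ _)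
    by_cases h : w = v
    · rw [h]; exact hv
    · exact (hN v).single_mem (hoth v w h) (hπ0 w) (hπinf w)
  obtain ⟨d, u, hu, n, rfl⟩ := hdec c
  have hdvd : ∀ v, (p : ℤ) ∣ n v := by
    intro v
    have h1 := hc v
    rw [← Finset.add_sum_erase _ _ (Finset.mem_univ v)] at h1
    have h2 : ∑ w ∈ (Finset.univ : Finset P).erase v,
        n w • (QuotientAddGroup.mk (π w) : IdeleClass K) ∈ Ns v :=
      sum_mem fun w hw => zsmul_mem
        ((hN v).single_mem (hoth v w (Finset.ne_of_mem_erase hw)) (hπ0 w) (hπinf w)) _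
    have h3 : n v • (QuotientAddGroup.mk (π v) : IdeleClass K) ∈ Ns v := by
      have := (add_mem_cancel_left (add_mem ((hN v).nsmul_mem d)
        ((hN v).placeUnitsOutside_le hT.above (ha v) hu))).1 h1
      exact (add_mem_cancel_right h2).1 this
    by_contra hnd
    exact hnot v (mem_of_zsmul_mem_of_not_dvd (A := IdeleClass K) (Ns v) ((hN v).nsmul_mem _) h3 hnd)
  choose m hm using hdvd
  exact ⟨d + ∑ v, m v • (QuotientAddGroup.mk (π v) : IdeleClass K), u, hu,
    add_sum_dvd (A := IdeleClass K) hm d _ _⟩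

end FermatLib.CFT
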