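import Fermat.Agent.CFT.SecondExistenceSets

/-!
The field generated by `p`-th roots of elements with `p`-divisible valuations.
-/

set_option autoImplicit false
set_option linter.unusedSectionVars false

open NumberField

namespace FermatLib.CFT

local instance secondQbarIsAlgebraic : Algebra.IsAlgebraic ℚ (AlgebraicClosure ℚ) :=
  AlgebraicClosure.isAlgebraic ℚ

local instance secondQbarNormal : Normal ℚ (AlgebraicClosure ℚ) := by
  have : IsAlgClosure ℚ (AlgebraicClosure ℚ) := ⟨inferInstance, inferInstance⟩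
  exact IsAlgClosure.normal ℚ _

variable {p : ℕ} [Fact p.Prime] {L₀ : IntermediateField ℚ (AlgebraicClosure ℚ)}
  [NumberField L₀] [IsGalois ℚ L₀]

/-- The roots of all conjugates of a family. -/
def conjugateRoots (p : ℕ) {ι : Type} (a : ι → LUnits L₀) : Set (AlgebraicClosure ℚ) :=
  {y | ∃ (i : ι) (σ : AlgebraicClosure ℚ ≃ₐ[ℚ] AlgebraicClosure ℚ),
    y ^ p = σ (((a i).val : L₀) : AlgebraicClosure ℚ)}

theorem conjugateRoots_finite {ι : Type} [Finite ι] (a : ι → LUnits L₀) :
    (conjugateRoots p a).Finite := by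
  have := Fintype.ofFinite ι
  have hsub : conjugateRoots p a ⊆ ⋃ i : ι,
      {y : AlgebraicClosure ℚ | Polynomial.IsRoot
        ((((minpoly ℚ (((a i).val : L₀) : AlgebraicClosure ℚ)).map
          (algebraMap ℚ (AlgebraicClosure ℚ))).comp (Polynomial.X ^ p))) y} := by
    rintro y ⟨i, σ, hy⟩
    refine Set.mem_iUnion.2 ⟨i, ?_⟩
    simp only [Set.mem_ofPred_eq, Polynomial.IsRoot, Polynomial.eval_comp, Polynomial.eval_pow,
      Polynomial.eval_X, hy, Polynomial.eval_map_algebraMap]
    rw [Polynomial.aeval_algHom_apply, minpoly.aeval, map_zero]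
  refine (Set.finite_iUnion fun i => Polynomial.finite_setOfPred_isRoot ?_).subset hsub
  intro h0
  rw [Polynomial.comp_eq_zero_iff] at h0
  rcases h0 with h0 | ⟨-, h0⟩
  · exact minpoly.ne_zero (Algebra.IsAlgebraic.isAlgebraic _).isIntegral
      ((Polynomial.map_eq_zero _).1 h0)
  · have := congrArg Polynomial.natDegree h0
    rw [Polynomial.natDegree_X_pow, Polynomial.natDegree_C] at this
    exact (Fact.out : p.Prime).ne_zero this

variable (L₀) in
/-- `L₀` with the roots of all conjugates. -/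
noncomputable def rootField (p : ℕ) {ι : Type} (a : ι → LUnits L₀) :
    IntermediateField ℚ (AlgebraicClosure ℚ) :=
  IntermediateField.adjoin ℚ ((L₀ : Set (AlgebraicClosure ℚ)) ∪ conjugateRoots p a)

theorem le_rootField {ι : Type} (a : ι → LUnits L₀) : L₀ ≤ rootField L₀ p a :=
  fun _ hx => IntermediateField.subset_adjoin _ _ (Or.inl hx)

theorem map_mem_base (σ : AlgebraicClosure ℚ ≃ₐ[ℚ] AlgebraicClosure ℚ) {x : AlgebraicClosure ℚ}
    (hx : x ∈ L₀) : σ x ∈ L₀ := by
  have hn : Normal ℚ L₀ := inferInstance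
  have h := (IntermediateField.normal_iff_forall_map_le' (K := L₀)).1 hn σ
  exact h ⟨x, hx, rfl⟩

theorem rootField_numberField {ι : Type} [Finite ι] (a : ι → LUnits L₀) :
    NumberField (rootField L₀ p a) := by
  have : FiniteDimensional ℚ L₀ := inferInstance
  have : Finite (conjugateRoots p a) := (conjugateRoots_finite a).to_subtype
  have : FiniteDimensional ℚ (IntermediateField.adjoin ℚ (conjugateRoots p a)) :=
    IntermediateField.finiteDimensional_adjoin fun x _ =>
      (Algebra.IsAlgebraic.isAlgebraic x).isIntegral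
  have : FiniteDimensional ℚ (rootField L₀ p a) := by
    rw [rootField, IntermediateField.adjoin_union, IntermediateField.adjoin_self]
    exact IntermediateField.finiteDimensional_sup _ _
  exact ⟨⟩

theorem rootField_isGalois {ι : Type} (a : ι → LUnits L₀) : IsGalois ℚ (rootField L₀ p a) := by
  have hmap : ∀ σ : AlgebraicClosure ℚ ≃ₐ[ℚ] AlgebraicClosure ℚ,
      (rootField L₀ p a).map (σ : AlgebraicClosure ℚ →ₐ[ℚ] AlgebraicClosure ℚ) ≤
        rootField L₀ p a := by
    intro σ
    rw [IntermediateField.map_le_iff_le_comap, rootField, IntermediateField.adjoin_le_iff]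
    rintro x (hx | ⟨i, τ, hx⟩)
    · exact IntermediateField.subset_adjoin _ _ (Or.inl (map_mem_base σ hx))
    · refine IntermediateField.subset_adjoin _ _ (Or.inr ⟨i, σ * τ, ?_⟩)
      show (σ x) ^ p = σ (τ _)
      rw [← map_pow, hx]
  have : Normal ℚ (rootField L₀ p a) := (IntermediateField.normal_iff_forall_map_le').2 hmap
  exact ⟨⟩

/-- Induction on generators: an automorphism fixing `L₀` and the roots is trivial. -/
theorem rootField_ext {ι : Type} (a : ι → LUnits L₀)
    {g h : rootField L₀ p a ≃ₐ[ℚ] rootField L₀ p a}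
    (h0 : ∀ x : L₀, g (IntermediateField.inclusion (le_rootField a) x) =
      h (IntermediateField.inclusion (le_rootField a) x))
    (hy : ∀ y : rootField L₀ p a, (y : AlgebraicClosure ℚ) ∈ conjugateRoots p a → g y = h y) :
    g = h := by
  have e : g.toAlgHom = h.toAlgHom :=
    IntermediateField.algHom_ext_of_eq_adjoin ℚ (S := rootField L₀ p a)
      (s := (L₀ : Set (AlgebraicClosure ℚ)) ∪ conjugateRoots p a) rfl fun x hx => by
      rcases hx with hx' | hx'
      · exact h0 ⟨x, hx'⟩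
      · exact hy _ hx'
  exact AlgEquiv.ext fun x => DFunLike.congr_fun e x

theorem pow_mem_base {ι : Type} (a : ι → LUnits L₀) {y : AlgebraicClosure ℚ}
    (hy : y ∈ conjugateRoots p a) : ∃ (i : ι) (σ : L₀ ≃ₐ[ℚ] L₀) (x : LUnits L₀),
      x = σ • a i ∧ y ^ p = ((x.val : L₀) : AlgebraicClosure ℚ) := by
  obtain ⟨i, σ, hσ⟩ := hy
  refine ⟨i, AlgEquiv.restrictNormalHom L₀ σ, _, rfl, ?_⟩
  rw [hσ, LUnits.val_smul]
  exact (AlgEquiv.restrictNormal_commutes σ L₀ ((a i).val : L₀)).symm

theorem HasPowValuations.smul {S : Finset Nat.Primes} {x : LUnits L₀}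
    (h : HasPowValuations p S x) (σ : L₀ ≃ₐ[ℚ] L₀) : HasPowValuations p S (σ • x) := by
  intro q hq φ
  obtain ⟨z, hz⟩ := h q hq (φ.preComp σ)
  exact ⟨σ • z, hz⟩

/-- Inertia outside `S` fixing `L₀` fixes the roots. -/
theorem fix_root_of_inertia {L : Type} [Field L] [NumberField L] [Algebra L₀ L] {ζ : L₀}
    (hζ : IsPrimitiveRoot ζ p) {q : Nat.Primes} (hqp : (q : ℕ) ≠ p) (φ : Emb L q)
    {g : L ≃ₐ[ℚ] L} (hg : g ∈ inertiaGroup φ)
    (hg0 : ∀ x : L₀, g (algebraMap L₀ L x) = algebraMap L₀ L x) {x : LUnits L₀} {y : L}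
    (hy : y ^ p = algebraMap L₀ L x.val) {z : LUnits L₀}
    (hz : ‖φ.comp (algebraMap L₀ L) (x.val : L₀)‖ = ‖φ.comp (algebraMap L₀ L) (z.val : L₀)‖ ^ p) :
    g y = y := by
  have hp : p.Prime := Fact.out
  have : NeZero p := ⟨hp.ne_zero⟩
  have hz0 : algebraMap L₀ L z.val ≠ 0 := (map_ne_zero _).2 z.val.ne_zero
  set u := y / algebraMap L₀ L z.val with hu
  have hu1 : ‖φ u‖ = 1 := by
    rw [← pow_eq_one_iff_of_nonneg (norm_nonneg _) hp.ne_zero, ← norm_pow, ← map_pow, hu, div_pow,
      hy, map_div₀, norm_div, map_pow, norm_pow]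
    rw [RingHom.comp_apply, RingHom.comp_apply] at hz
    rw [hz, div_self]
    exact pow_ne_zero _ (norm_ne_zero_iff.2 ((map_ne_zero φ).2 hz0))
  have hy0 : y ≠ 0 := exists_ne_zero_root hy
  obtain ⟨j, -, hj⟩ := (hζ.map_of_injective (algebraMap L₀ L).injective).eq_pow_of_pow_eq_one
    (ξ := g y / y) (by
      rw [div_pow, ← map_pow g, hy, hg0, div_self]
      exact (map_ne_zero _).2 x.val.ne_zero)
  rw [eq_div_iff hy0] at hj
  have hgu : g u = algebraMap L₀ L ζ ^ j * u := by
    rw [hu, map_div₀, hg0, ← hj, mul_div_assoc]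
  have hlt := hg.2 u hu1.le
  rw [hgu, map_mul, ← sub_one_mul, norm_mul, hu1, mul_one] at hlt
  have h1 : φ (algebraMap L₀ L ζ ^ j) = 1 :=
    eq_one_of_pow_eq_one_of_norm_sub_lt hqp (p := p) (by
      rw [← map_pow, ← pow_mul, mul_comm, pow_mul, ← map_pow, hζ.pow_eq_one, map_one, one_pow,
        map_one]) hlt
  have h2 : algebraMap L₀ L ζ ^ j = 1 := φ.injective (by rw [h1, map_one])
  rw [← hj, h2, one_mul]

end FermatLib.CFT
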