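import Fermat.Agent.CFT.SecondSetting

/-!
A minimal set of places whose units have all their `p`-th roots unramified outside `S`.
-/

set_option autoImplicit false
set_option linter.unusedSectionVars false

open NumberField

namespace FermatLib.CFT

variable {K : Type} [Field K] [NumberField K] {p : ℕ} [Fact p.Prime]

/-- At every place outside `S` the valuation of `x` is divisible by `p`. -/
def HasPowValuations (p : ℕ) (S : Finset Nat.Primes) (x : LUnits K) : Prop :=
  ∀ q : Nat.Primes, q ∉ S → ∀ φ : Emb K q, ∃ z : LUnits K, ‖φ (x.val : K)‖ = ‖φ (z.val : K)‖ ^ p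

theorem norm_toField_zsmul {q : Nat.Primes} (z : QUnits q) (n : ℤ) :
    ‖(n • z).toField‖ = ‖z.toField‖ ^ n := by
  rw [← norm_zpow]
  congr 1
  show (((Additive.toMul z) ^ n : (PadicAlgCl (q : ℕ))ˣ) : PadicAlgCl (q : ℕ)) = _
  rw [Units.val_zpow_eq_zpow_val]
  rfl

/-- An identity between integral combinations. -/
theorem combine_zsmul {A : Type*} [AddCommGroup A] (x e π : A) {m n k l : ℤ}
    (h : k * n + (p : ℤ) * l = m) :
    x - k • e - p • (l • π) = (x - m • π) - k • (e - n • π) := by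
  rw [← h, smul_sub, ← mul_smul, ← natCast_zsmul (l • π) p, ← mul_smul, add_smul]
  abel

/-- A minimal generating set of places containing those over `S`. -/
theorem exists_minimal_places (hμ : ∃ ζ : K, IsPrimitiveRoot ζ p) (S : Finset Nat.Primes)
    (hpS : ⟨p, Fact.out⟩ ∈ S) :
    ∃ T : Finset (FinPlace K), IsKummerSetting p T ∧ placesOver K S ⊆ T ∧
      ∀ e ∈ placeUnits K (T : Set (FinPlace K)), HasPowValuations p S e := by
  classical
  let good : Finset (FinPlace K) → Prop := fun T =>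
    placesOver K S ⊆ T ∧ ∀ c : IdeleClass K, ∃ j ∈ placeIdeles K (T : Set (FinPlace K)),
      ∃ d : IdeleClass K, c = QuotientAddGroup.mk j + p • d
  obtain ⟨S₀, hS₀⟩ := exists_generate_placesOver (K := K)
  have hgood₀ : good (placesOver K (S₀ ∪ S)) := by
    refine ⟨fun v hv => (mem_placesOver v).2 (Finset.mem_union_right _ ((mem_placesOver v).1 hv)),
      fun c => ?_⟩
    obtain ⟨j, hj, hje⟩ := hS₀ _ Finset.subset_union_left c
    exact ⟨j, hj, 0, by rw [hje, nsmul_zero]; exact (add_zero c).symm⟩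
  obtain ⟨T, hT, hmin⟩ := Finset.exists_min_image
    ((placesOver K (S₀ ∪ S)).powerset.filter good) Finset.card
    ⟨_, Finset.mem_filter.2 ⟨Finset.mem_powerset.2 subset_rfl, hgood₀⟩⟩
  rw [Finset.mem_filter, Finset.mem_powerset] at hT
  obtain ⟨hTsub, hST, hgen⟩ := hT
  have habove : ∀ (q : Nat.Primes) (φ : Emb K q), (q : ℕ) = p → φ.place ∈ T := fun q φ hq =>
    hST ((mem_placesOver φ.place).2 (by
      rwa [show φ.place.1 = (⟨p, Fact.out⟩ : Nat.Primes) from Subtype.ext hq]))
  refine ⟨T, isKummerSetting_of_generate hμ T habove hgen, hST, fun e he q hq φ => ?_⟩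
  by_cases hφT : φ.place ∈ T
  swap
  · refine ⟨0, ?_⟩
    have h1 := (QUnits.mem_unitGroup_iff _).1 (he q φ hφT)
    rw [toField_principalFamily] at h1
    rw [h1, LUnits.val_zero, map_one, norm_one, one_pow]
  obtain ⟨π, hπ, hπgen⟩ := φ.exists_local_uniformizer
  obtain ⟨jπ, hjπ, hjπ0, -⟩ := exists_singleIdele φ hπ
  obtain ⟨n, hn⟩ := hπgen _ ((principalIdele K e).fin_mem_localUnits q φ)
  by_cases hdvd : (p : ℤ) ∣ n
  · obtain ⟨m, rfl⟩ := hdvd
    obtain ⟨z, hz⟩ := exists_idele_size (m • jπ) φ.prime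
    refine ⟨z, ?_⟩
    have hz' := hz q φ rfl
    have hm : (m • jπ).fin q φ = m • π := by rw [← hjπ]; rfl
    rw [hm, norm_toField_zsmul] at hz'
    rw [← hz', ← zpow_natCast, ← zpow_mul, mul_comm, ← norm_toField_zsmul]
    have h1 := (QUnits.mem_unitGroup_iff _).1 hn
    have h2 := congrArg QUnits.toField (sub_add_cancel
      ((principalIdele K e).fin q φ) (((p : ℤ) * m) • π))
    rw [QUnits.toField_add] at h2
    have h3 := congrArg norm h2
    rw [norm_mul, h1, one_mul] at h3
    rw [h3]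
    rfl
  exfalso
  have hv : φ.place ∉ placesOver K S := fun h => hq ((mem_placesOver φ.place).1 h)
  refine (Finset.card_erase_lt_of_mem hφT).not_ge (hmin _ (Finset.mem_filter.2
    ⟨Finset.mem_powerset.2 ((Finset.erase_subset _ _).trans hTsub),
      ⟨fun v hv' => Finset.mem_erase.2 ⟨fun h => hv (h ▸ hv'), hST hv'⟩, fun c => ?_⟩⟩))
  obtain ⟨j, hj, d, rfl⟩ := hgen c
  obtain ⟨m, hm⟩ := hπgen _ (j.fin_mem_localUnits q φ)
  obtain ⟨s, t, hst⟩ :=
    (Nat.prime_iff_prime_int.1 (Fact.out : p.Prime)).coprime_iff_not_dvd.2 hdvd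
  refine ⟨j - (m * t) • principalIdele K e - p • ((m * s) • jπ), fun r ψ hψ => ?_,
    d + QuotientAddGroup.mk ((m * s) • jπ), ?_⟩
  · let F : Idele K →+ QUnits r :=
      { toFun := fun f => f.fin r ψ, map_zero' := rfl, map_add' := fun _ _ => rfl }
    show F (j - (m * t) • principalIdele K e - p • ((m * s) • jπ)) ∈ _
    rw [map_sub, map_sub, map_zsmul, map_nsmul, map_zsmul]
    by_cases hv' : ψ.place = φ.place
    · obtain rfl : r = q := (Sigma.mk.inj hv').1
      obtain ⟨τ, rfl⟩ := exists_postComp_of_place_eq hv'.symm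
      have hτ : ∀ f : Idele K, F f = τ.onUnits (f.fin r φ) := fun f => f.2.1 r τ φ
      rw [hτ, hτ, hτ, ← map_zsmul, ← map_zsmul, ← map_nsmul, ← map_sub, ← map_sub, hjπ]
      refine τ.onUnits_mem_unitGroup ?_
      have e1 := combine_zsmul (A := QUnits r) (p := p) (j.fin r φ) ((principalIdele K e).fin r φ) π
        (m := m) (n := n) (k := m * t) (l := m * s) (by linear_combination m * hst)
      rw [e1]
      exact sub_mem hm (zsmul_mem hn _)
    · have hψT : ψ.place ∉ T := fun h => hψ (Finset.mem_coe.2 (Finset.mem_erase.2 ⟨hv', h⟩))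
      refine sub_mem (sub_mem (hj r ψ hψT) (zsmul_mem (he r ψ hψT) _)) ?_
      show p • (m * s) • jπ.fin r ψ ∈ _
      rw [hjπ0 r ψ hv', smul_zero, smul_zero]
      exact zero_mem _
  · simp only [QuotientAddGroup.mk_sub, QuotientAddGroup.mk_zsmul, QuotientAddGroup.mk_nsmul,
      mk_principalIdele, nsmul_add]
    rw [zsmul_zero]
    abel

end FermatLib.CFT
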