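import Fermat.Agent.CFT.SecondIdeles
import Fermat.Agent.CFT.SecondLocalCount

/-!
Local norm criteria for Kummer extensions and the groups of norm classes they generate.
-/

set_option autoImplicit false
set_option linter.unusedSectionVars false

open NumberField

namespace FermatLib.CFT

variable {K : Type} [Field K] [NumberField K] {q : Nat.Primes} {p : ℕ} [Fact p.Prime]

/-- `a` is a `p`-th power, or `z` is visibly a norm from adjoining a `p`-th root of `a`. -/
def LocalKummerGood (p : ℕ) (φ : Emb K q) (a : PadicAlgCl (q : ℕ)) (z : QUnits q) : Prop :=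
  (∃ y ∈ completion φ, y ^ p = a) ∨
    ∃ w ∈ completion φ, ∃ x ∈ completion φ, ∃ n : ℕ, z.toField = w ^ p * (x ^ p - a) ^ n

/-- The archimedean criterion. -/
def InfKummerGood (p : ℕ) (ψ : K →+* ℂ) (a z : CUnits) : Prop :=
  a ∈ infPowUnits ψ p ∨ z ∈ infPowUnits ψ p

/-- An idele which is everywhere a norm from adjoining a `p`-th root of `a`. -/
structure IsKummerGood (p : ℕ) (a : LUnits K) (j : Idele K) : Prop where
  fin : ∀ (q : Nat.Primes) (φ : Emb K q), LocalKummerGood p φ (φ a.val) (j.fin q φ)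
  inf : ∀ ψ : K →+* ℂ, InfKummerGood p ψ (principalFamilyInf K a ψ) (j.inf ψ)

/-- A proper subgroup of classes containing all good ideles for `a`. -/
structure IsKummerNormGroup (p : ℕ) (a : LUnits K) (N : AddSubgroup (IdeleClass K)) : Prop where
  good : ∀ j, IsKummerGood p a j → (QuotientAddGroup.mk j : IdeleClass K) ∈ N
  ne_top : N ≠ ⊤

/-- `x` is a `p`-th power of an element of `K`. -/
def IsGlobalPow (p : ℕ) (x : LUnits K) : Prop := ∃ y : LUnits K, p • y = x

theorem localKummerGood_of_pow (φ : Emb K q) (a : PadicAlgCl (q : ℕ)) {z : QUnits q}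
    (hz : z ∈ φ.powUnits p) : LocalKummerGood p φ a z := by
  obtain ⟨y, hy, hyp⟩ := (φ.mem_powUnits_iff_elem z).1 hz
  exact Or.inr ⟨y, hy, 0, zero_mem (completion φ), 0, by rw [pow_zero, mul_one, hyp]⟩

theorem localKummerGood_of_isPow (φ : Emb K q) {x : LUnits K} (z : QUnits q)
    (h : principalFamily K x q φ ∈ φ.powUnits p) : LocalKummerGood p φ (φ x.val) z :=
  Or.inl ((φ.mem_powUnits_iff_elem _).1 h)

theorem localKummerGood_zero (φ : Emb K q) (a : PadicAlgCl (q : ℕ)) :
    LocalKummerGood p φ a (0 : QUnits q) :=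
  localKummerGood_of_pow φ a (zero_mem _)

/-- At a prime different from `p` where `a` and `z` are units, `z` is a norm, with integral
witnesses. -/
theorem exists_integral_witness (hqp : (q : ℕ) ≠ p) (φ : Emb K q) {a : LUnits K}
    (ha : principalFamily K a q φ ∈ QUnits.unitGroup q)
    (hna : principalFamily K a q φ ∉ φ.powUnits p) {z : QUnits q} (hz : z ∈ φ.localUnits)
    (hzu : z ∈ QUnits.unitGroup q) :
    ∃ w ∈ completion φ, ∃ x ∈ completion φ, ∃ n : ℕ, ‖w‖ = 1 ∧ ‖x‖ ≤ 1 ∧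
      ‖x ^ p - φ a.val‖ = 1 ∧ z.toField = w ^ p * (x ^ p - φ a.val) ^ n := by
  have ha1 : ‖φ (a.val : K)‖ = 1 := by
    rw [← toField_principalFamily a φ, ← QUnits.mem_unitGroup_iff]; exact ha
  have hna' : ¬ ∃ y ∈ completion φ, y ^ p = φ (a.val : K) := by
    rw [← toField_principalFamily a φ, ← φ.mem_powUnits_iff_elem]; exact hna
  obtain ⟨x, hx, hx1, hxa, hxn⟩ := φ.exists_sub_notPow (p := p) hqp (a := φ a.val)
    (φ.apply_mem_completion _) ha1 hna' 
  have hb0 : x ^ p - φ a.val ≠ 0 := norm_ne_zero_iff.1 (by rw [hxa]; exact one_ne_zero)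
  let b := QUnits.mk _ hb0
  have hb : b ∈ φ.localUnits :=
    (completion φ).sub_mem (pow_mem hx p) (φ.apply_mem_completion _)
  have hbu : b ∈ QUnits.unitGroup q := by
    rw [QUnits.mem_unitGroup_iff, QUnits.toField_mk]; exact hxa
  have hbn : b ∉ φ.powUnits p := by
    rw [φ.mem_powUnits_iff_elem, QUnits.toField_mk]; exact hxn
  obtain ⟨n, hn⟩ := φ.exists_nsmul_sub_mem_powUnits hqp hb hbu hbn hz hzu
  obtain ⟨w, hw, hwp⟩ := (φ.mem_powUnits_iff_elem _).1 hn
  have e : z.toField = w ^ p * (x ^ p - φ a.val) ^ n := by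
    rw [hwp, ← QUnits.toField_mk _ hb0, ← QUnits.toField_nsmul, ← QUnits.toField_add,
      sub_add_cancel]
  refine ⟨w, hw, x, hx, n, ?_, hx1, hxa, e⟩
  have h1 := (QUnits.mem_unitGroup_iff _).1 hzu
  rw [e, norm_mul, norm_pow, norm_pow, hxa, one_pow, mul_one] at h1
  exact (pow_eq_one_iff_of_nonneg (norm_nonneg _) (Fact.out : p.Prime).ne_zero).1 h1

theorem localKummerGood_of_units (hqp : (q : ℕ) ≠ p) (φ : Emb K q) {a : LUnits K}
    (ha : principalFamily K a q φ ∈ QUnits.unitGroup q) {z : QUnits q} (hz : z ∈ φ.localUnits)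
    (hzu : z ∈ QUnits.unitGroup q) : LocalKummerGood p φ (φ a.val) z := by
  by_cases h : principalFamily K a q φ ∈ φ.powUnits p
  · exact localKummerGood_of_isPow φ z h
  · obtain ⟨w, hw, x, hx, n, -, -, -, e⟩ := exists_integral_witness hqp φ ha h hz hzu
    exact Or.inr ⟨w, hw, x, hx, n, e⟩

theorem infKummerGood_zero (ψ : K →+* ℂ) (a : CUnits) : InfKummerGood p ψ a 0 :=
  Or.inr (zero_mem _)

variable {a : LUnits K} {N : AddSubgroup (IdeleClass K)}

theorem IsKummerNormGroup.nsmul_mem (h : IsKummerNormGroup p a N) (c : IdeleClass K) :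
    p • c ∈ N := by
  obtain ⟨j, rfl⟩ := QuotientAddGroup.mk_surjective c
  rw [← QuotientAddGroup.mk_nsmul]
  exact h.good _ ⟨fun q φ => localKummerGood_of_pow φ _ ⟨_, j.fin_mem_localUnits q φ, rfl⟩,
    fun ψ => Or.inr ⟨_, j.inf_mem_infLocalUnits ψ, rfl⟩⟩

theorem IsKummerNormGroup.placeUnitsOutside_le (h : IsKummerNormGroup p a N)
    {T : Set (FinPlace K)}
    (hTp : ∀ (q : Nat.Primes) (φ : Emb K q), (q : ℕ) = p → φ.place ∈ T)
    (ha : a ∈ placeUnits K T) {j : Idele K} (hj : j ∈ placeUnitsOutside K T) :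
    (QuotientAddGroup.mk j : IdeleClass K) ∈ N := by
  refine h.good _ ⟨fun q φ => ?_, fun ψ => by rw [hj.2 ψ]; exact infKummerGood_zero ψ _⟩
  by_cases hT : φ.place ∈ T
  · rw [(hj.1 q φ).2 hT]
    exact localKummerGood_zero φ _
  · exact localKummerGood_of_units (fun hq => hT (hTp q φ hq)) φ (ha q φ hT)
      (j.fin_mem_localUnits q φ) (hj.1 q φ).1

theorem IsKummerNormGroup.single_mem (h : IsKummerNormGroup p a N) {v : FinPlace K}
    (hv : IsPowAt p v a) {j : Idele K}
    (hj : ∀ (r : Nat.Primes) (ψ : Emb K r), ψ.place ≠ v → j.fin r ψ = 0)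
    (hjinf : ∀ χ, j.inf χ = 0) : (QuotientAddGroup.mk j : IdeleClass K) ∈ N := by
  refine h.good _ ⟨fun q φ => ?_, fun ψ => by rw [hjinf ψ]; exact infKummerGood_zero ψ _⟩
  by_cases hp : φ.place = v
  · exact localKummerGood_of_isPow φ _ ((isPowAt_place_iff φ a).1 (hp ▸ hv))
  · rw [hj q φ hp]
    exact localKummerGood_zero φ _

end FermatLib.CFT
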