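import Fermat.Agent.CFT.SecondLocal

/-!
Units and ideles relative to a set of places of a number field, ideles at one place, equivariant
choices at infinity.
-/

set_option autoImplicit false
set_option linter.unusedSectionVars false

open NumberField

namespace FermatLib.CFT

variable {K : Type} [Field K] [NumberField K] {q : Nat.Primes} {p : ℕ} [Fact p.Prime]

theorem exists_postComp_of_place_eq {φ ψ : Emb K q} (h : φ.place = ψ.place) :
    ∃ τ : Gloc q, φ.postComp τ = ψ := (φ.place_eq_iff ψ).1 h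

theorem Idele.mem_powUnits_of_place_eq (f : Idele K) {φ ψ : Emb K q} (h : φ.place = ψ.place)
    (hφ : f.fin q φ ∈ φ.powUnits p) : f.fin q ψ ∈ ψ.powUnits p := by
  obtain ⟨τ, rfl⟩ := exists_postComp_of_place_eq h
  show f.1.1 q _ ∈ _
  rw [f.2.1 q τ φ]
  exact φ.onUnits_mem_powUnits τ hφ

theorem Idele.mem_unitGroup_of_place_eq (f : Idele K) {φ ψ : Emb K q} (h : φ.place = ψ.place)
    (hφ : f.fin q φ ∈ QUnits.unitGroup q) : f.fin q ψ ∈ QUnits.unitGroup q := by
  obtain ⟨τ, rfl⟩ := exists_postComp_of_place_eq h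
  show f.1.1 q _ ∈ _
  rw [f.2.1 q τ φ]
  exact τ.onUnits_mem_unitGroup hφ

/-- `x` is a `p`-th power in the completion at `v`. -/
def IsPowAt (p : ℕ) (v : FinPlace K) (x : LUnits K) : Prop :=
  ∀ φ : Emb K v.1, φ.place = v → principalFamily K x v.1 φ ∈ φ.powUnits p

theorem isPowAt_place_iff (φ : Emb K q) (x : LUnits K) :
    IsPowAt p φ.place x ↔ principalFamily K x q φ ∈ φ.powUnits p :=
  ⟨fun h => h φ rfl, fun h _ hψ => (principalIdele K x).mem_powUnits_of_place_eq hψ.symm h⟩

variable (K)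

/-- Elements that are units at every place outside `T`. -/
noncomputable def placeUnits (T : Set (FinPlace K)) : AddSubgroup (LUnits K) where
  carrier := {x | ∀ (q : Nat.Primes) (φ : Emb K q), φ.place ∉ T →
    principalFamily K x q φ ∈ QUnits.unitGroup q}
  zero_mem' := fun q φ _ => by
    show (principalIdele K 0).fin q φ ∈ _
    simp [Idele.fin, zero_mem]
  add_mem' := fun {a b} ha hb q φ hφ => by
    show (principalIdele K (a + b)).fin q φ ∈ _
    rw [map_add]
    exact add_mem (ha q φ hφ) (hb q φ hφ)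
  neg_mem' := fun {a} ha q φ hφ => by
    show (principalIdele K (-a)).fin q φ ∈ _
    rw [map_neg]
    exact neg_mem (ha q φ hφ)

/-- Ideles that are units at every place outside `T`. -/
noncomputable def placeIdeles (T : Set (FinPlace K)) : AddSubgroup (Idele K) where
  carrier := {f | ∀ (q : Nat.Primes) (φ : Emb K q), φ.place ∉ T → f.fin q φ ∈ QUnits.unitGroup q}
  zero_mem' := fun q φ _ => zero_mem _
  add_mem' := fun ha hb q φ hφ => add_mem (ha q φ hφ) (hb q φ hφ)
  neg_mem' := fun ha q φ hφ => neg_mem (ha q φ hφ)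

/-- Ideles trivial on `T` and at infinity, units elsewhere. -/
noncomputable def placeUnitsOutside (T : Set (FinPlace K)) : AddSubgroup (Idele K) where
  carrier := {f | (∀ (q : Nat.Primes) (φ : Emb K q), f.fin q φ ∈ QUnits.unitGroup q ∧
    (φ.place ∈ T → f.fin q φ = 0)) ∧ ∀ ψ, f.inf ψ = 0}
  zero_mem' := ⟨fun q φ => ⟨zero_mem _, fun _ => rfl⟩, fun _ => rfl⟩
  add_mem' := fun {a b} ha hb => ⟨fun q φ => ⟨add_mem (ha.1 q φ).1 (hb.1 q φ).1, fun h => by
    show a.fin q φ + b.fin q φ = 0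
    rw [(ha.1 q φ).2 h, (hb.1 q φ).2 h, add_zero]⟩, fun ψ => by
    show a.inf ψ + b.inf ψ = 0
    rw [ha.2 ψ, hb.2 ψ, add_zero]⟩
  neg_mem' := fun {a} ha => ⟨fun q φ => ⟨neg_mem (ha.1 q φ).1, fun h => by
    show -(a.fin q φ) = 0
    rw [(ha.1 q φ).2 h, neg_zero]⟩, fun ψ => by
    show -(a.inf ψ) = 0
    rw [ha.2 ψ, neg_zero]⟩

variable {K}

theorem mem_placeUnits_of_nsmul {T : Set (FinPlace K)} {n : ℕ} (hn : n ≠ 0) {x : LUnits K}
    (h : n • x ∈ placeUnits K T) : x ∈ placeUnits K T := by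
  intro q φ hφ
  have h' := h q φ hφ
  change (principalIdele K (n • x)).fin q φ ∈ _ at h'
  rw [map_nsmul] at h'
  show (principalIdele K x).fin q φ ∈ _
  rw [QUnits.mem_unitGroup_iff] at h' ⊢
  rw [← pow_eq_one_iff_of_nonneg (norm_nonneg _) hn, ← norm_pow, ← QUnits.toField_nsmul]
  exact h'

theorem mk_principalIdele (x : LUnits K) :
    (QuotientAddGroup.mk (principalIdele K x) : IdeleClass K) = 0 := by
  rw [QuotientAddGroup.eq_zero_iff, principalIdeles_eq_range]
  exact ⟨x, rfl⟩

/-- An idele with a given value at one place and trivial elsewhere. -/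
theorem exists_singleIdele (φ : Emb K q) {z : QUnits q} (hz : z ∈ φ.localUnits) :
    ∃ j : Idele K, j.fin q φ = z ∧
      (∀ (r : Nat.Primes) (ψ : Emb K r), ψ.place ≠ φ.place → j.fin r ψ = 0) ∧
      ∀ χ, j.inf χ = 0 := by
  classical
  obtain ⟨w, hw, hw'⟩ := exists_equivariant_units (K := K)
    (P := fun r ψ u => (ψ.place ≠ φ.place → u = 0) ∧
      ∀ (h : r = q) (σ : Gloc q), φ.postComp σ = h ▸ ψ → h ▸ u = σ.onUnits z)
    (fun r τ ψ u h => ⟨fun hne => by
      rw [h.1 (fun he => hne ((ψ.place_postComp τ).trans he)), map_zero],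
      fun hr σ hσ => by
        subst hr
        have h2 : φ.postComp (τ⁻¹ * σ) = ψ := by
          change φ.postComp σ = ψ.postComp τ at hσ
          rw [Emb.postComp_mul, hσ, ← Emb.postComp_mul, inv_mul_cancel]; rfl
        have h3 : u = (τ⁻¹ * σ).onUnits z := h.2 rfl (τ⁻¹ * σ) h2
        show τ.onUnits u = σ.onUnits z
        rw [h3]
        refine QUnits.toField_injective ?_
        simp⟩)
    (fun r ψ => by
      by_cases h : ψ.place = φ.place
      · obtain rfl : r = q := (Sigma.mk.inj h).1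
        obtain ⟨σ, rfl⟩ := exists_postComp_of_place_eq h.symm
        refine ⟨σ.onUnits z, φ.onUnits_mem_localUnits σ hz, fun hne => absurd h hne,
          fun hr σ' hσ' => ?_⟩
        change φ.postComp σ' = φ.postComp σ at hσ'
        change σ.onUnits z = σ'.onUnits z
        refine QUnits.toField_injective ?_
        have h2 : φ.postComp (σ'⁻¹ * σ) = φ := by
          rw [Emb.postComp_mul, ← hσ', ← Emb.postComp_mul, inv_mul_cancel]; rfl
        have := (φ.postComp_eq_self_iff _).1 h2 _ hz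
        simp only [AlgEquiv.mul_apply, AlgEquiv.aut_inv, AlgEquiv.symm_apply_eq] at this
        simpa using this
      · refine ⟨0, zero_mem _, fun _ => rfl, fun hr σ hσ => ?_⟩
        subst hr
        change φ.postComp σ = ψ at hσ
        exact absurd (by rw [← hσ]; exact φ.place_postComp σ) h)
  refine ⟨⟨(w, fun _ => 0), hw, (Set.finite_singleton q).subset fun r ⟨ψ, hψ⟩ => ?_,
    fun χ => (map_zero conjUnits).symm⟩, ?_, fun r ψ h => (hw' r ψ).2.1 h, fun χ => rfl⟩
  · by_contra hr
    refine hψ ?_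
    show w r ψ ∈ _
    rw [(hw' r ψ).2.1 (fun h => hr (Sigma.mk.inj h).1)]
    exact zero_mem _
  · exact ((hw' q φ).2.2 rfl 1 rfl).trans (QUnits.toField_injective rfl)

/-- The allowed values at an archimedean embedding. -/
noncomputable def infLocalUnits (ψ : K →+* ℂ) : AddSubgroup CUnits where
  carrier := {z | (starRingEnd ℂ).comp ψ = ψ → conjUnits z = z}
  zero_mem' := fun _ => map_zero _
  add_mem' := fun {a b} ha hb h => by rw [map_add, ha h, hb h]
  neg_mem' := fun {a} ha h => by rw [map_neg, ha h]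

theorem Idele.inf_mem_infLocalUnits (f : Idele K) (ψ : K →+* ℂ) :
    f.inf ψ ∈ infLocalUnits ψ := fun h => by
  have := f.2.2.2 ψ
  rw [h] at this
  exact this.symm

/-- The `p`-th powers at an archimedean embedding. -/
noncomputable def infPowUnits (ψ : K →+* ℂ) (p : ℕ) : AddSubgroup CUnits :=
  (infLocalUnits ψ).map (nsmulAddMonoidHom p)

theorem conjUnits_conjUnits (z : CUnits) : conjUnits (conjUnits z) = z :=
  CUnits.toField_injective (by simp)

theorem conjUnits_mem_infLocalUnits {ψ : K →+* ℂ} {z : CUnits} (hz : z ∈ infLocalUnits ψ) :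
    conjUnits z ∈ infLocalUnits ((starRingEnd ℂ).comp ψ) := fun h => by
  have hψ : (starRingEnd ℂ).comp ψ = ψ := by
    rw [← h]
    exact RingHom.ext fun x => (Complex.conj_conj _).symm.trans (by simp)
  rw [hz hψ, hz hψ]

/-- Choices at infinity compatible with complex conjugation. -/
theorem exists_equivariant_inf {P : (K →+* ℂ) → CUnits → Prop}
    (hP : ∀ ψ z, P ψ z → P ((starRingEnd ℂ).comp ψ) (conjUnits z))
    (h : ∀ ψ, ∃ z ∈ infLocalUnits ψ, P ψ z) :
    ∃ w : (K →+* ℂ) → CUnits, (∀ ψ, w ((starRingEnd ℂ).comp ψ) = conjUnits (w ψ)) ∧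
      ∀ ψ, w ψ ∈ infLocalUnits ψ ∧ P ψ (w ψ) := by
  classical
  choose z hz hPz using h
  let r : (K →+* ℂ) → (K →+* ℂ) := fun ψ => (InfinitePlace.mk ψ).embedding
  have hcc : ∀ ψ : K →+* ℂ, (starRingEnd ℂ).comp ((starRingEnd ℂ).comp ψ) = ψ :=
    fun ψ => RingHom.ext fun x => Complex.conj_conj _
  have hr : ∀ ψ, r ψ = ψ ∨ r ψ = (starRingEnd ℂ).comp ψ := fun ψ => by
    rcases InfinitePlace.mk_eq_iff.1 (InfinitePlace.mk_embedding (InfinitePlace.mk ψ)) with e | e
    · exact Or.inl e
    · refine Or.inr ?_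
      change (starRingEnd ℂ).comp (r ψ) = ψ at e
      conv_rhs => rw [← e]
      exact (hcc _).symm
  have hrc : ∀ ψ, r ((starRingEnd ℂ).comp ψ) = r ψ := fun ψ =>
    congrArg InfinitePlace.embedding (InfinitePlace.mk_eq_iff.2 (Or.inr (hcc ψ)))
  refine ⟨fun ψ => if r ψ = ψ then z (r ψ) else conjUnits (z (r ψ)), fun ψ => ?_, fun ψ => ?_⟩
  · simp only [hrc ψ]
    by_cases h1 : r ψ = (starRingEnd ℂ).comp ψ
    · by_cases h2 : r ψ = ψ
      · rw [if_pos h1, if_pos h2]
        exact (hz (r ψ) (by rw [h2, ← h1, h2])).symm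
      · rw [if_pos h1, if_neg h2, conjUnits_conjUnits]
    · rw [if_neg h1, if_pos ((hr ψ).resolve_right h1)]
  · simp only
    by_cases h2 : r ψ = ψ
    · rw [if_pos h2, h2]
      exact ⟨hz ψ, hPz ψ⟩
    · have h1 := (hr ψ).resolve_left h2
      rw [if_neg h2]
      have e1 := conjUnits_mem_infLocalUnits (hz (r ψ))
      have e2 := hP _ _ (hPz (r ψ))
      rw [h1, hcc ψ] at e1 e2
      rw [h1]
      exact ⟨e1, e2⟩

end FermatLib.CFT
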