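import Fermat.Agent.CFT.IdeleBaseChange
import Fermat.Agent.CFT.CFRelNorm
import Fermat.Agent.CFT.FirstMain

/-!
Reduction of the second inequality to a base containing the `p`-th roots of unity.
-/

set_option autoImplicit false
set_option linter.unusedSectionVars false

open NumberField

namespace FermatLib.CFT

theorem mem_of_coprime_nsmul_mem {A : Type*} [AddCommGroup A] {K : AddSubgroup A} {x : A} {m n : ℕ}
    (hmn : Nat.Coprime m n) (hm : m • x ∈ K) (hn : n • x ∈ K) : x ∈ K := by
  obtain ⟨u, v, huv⟩ := Nat.Coprime.isCoprime hmn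
  have h := K.add_mem (K.zsmul_mem hm u) (K.zsmul_mem hn v)
  rwa [← natCast_zsmul x m, ← natCast_zsmul x n, smul_smul, smul_smul, ← add_smul, huv,
    one_smul] at h

/-- The norm index bound of a cyclic step of degree `p`. -/
def NormIndexLe (p : ℕ) (L : Type) [Field L] [NumberField L]
    (H' H : Subgroup (L ≃ₐ[ℚ] L)) : Prop :=
  ∀ s : Finset (IdeleClass L), (∀ b ∈ s, b ∈ fixedPts H (IdeleClass L)) →
    (∀ b ∈ s, ∀ c ∈ s, b - c ∈ relNormSet (IdeleClass L) H' H → b = c) → s.card ≤ p

/-- A finite Galois extension of `ℚ` containing `L` and a primitive `p`-th root of unity. -/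
theorem exists_galois_extension_with_root (L : Type) [Field L] [NumberField L] (p : ℕ)
    [Fact p.Prime] :
    ∃ (M : Type) (_ : Field M) (_ : NumberField M) (_ : IsGalois ℚ M) (_ : Algebra L M),
      ∃ ζ : M, IsPrimitiveRoot ζ p := by
  obtain ⟨φ⟩ : Nonempty (L →ₐ[ℚ] AlgebraicClosure ℚ) := ⟨IsAlgClosed.lift⟩
  have : Algebra.IsAlgebraic ℚ (AlgebraicClosure ℚ) := AlgebraicClosure.isAlgebraic ℚ
  have : IsAlgClosure ℚ (AlgebraicClosure ℚ) := ⟨inferInstance, inferInstance⟩
  have : Normal ℚ (AlgebraicClosure ℚ) := IsAlgClosure.normal ℚ _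
  have : IsGalois ℚ (AlgebraicClosure ℚ) := ⟨⟩
  have : NeZero (p : AlgebraicClosure ℚ) := ⟨Nat.cast_ne_zero.2 (Fact.out : p.Prime).ne_zero⟩
  obtain ⟨ζ, hζ⟩ := HasEnoughRootsOfUnity.exists_primitiveRoot (AlgebraicClosure ℚ) p
  let F : IntermediateField ℚ (AlgebraicClosure ℚ) :=
    φ.fieldRange ⊔ IntermediateField.adjoin ℚ {ζ}
  have : FiniteDimensional ℚ φ.fieldRange := φ.toLinearMap.finiteDimensional_range
  have : FiniteDimensional ℚ (IntermediateField.adjoin ℚ ({ζ} : Set (AlgebraicClosure ℚ))) :=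
    IntermediateField.adjoin.finiteDimensional (Algebra.IsAlgebraic.isAlgebraic ζ).isIntegral
  have : FiniteDimensional ℚ F := IntermediateField.finiteDimensional_sup _ _
  let M := IntermediateField.normalClosure ℚ F (AlgebraicClosure ℚ)
  have hFM : F ≤ M := IntermediateField.le_normalClosure F
  have hfd : FiniteDimensional ℚ M := normalClosure.is_finiteDimensional ℚ F (AlgebraicClosure ℚ)
  have hnf : NumberField M := ⟨⟩
  have hgal : IsGalois ℚ M := IsGalois.normalClosure ℚ F (AlgebraicClosure ℚ)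
  let f : L →+* M := φ.toRingHom.codRestrict M.toSubfield
    fun x => hFM (le_sup_left (a := φ.fieldRange) ⟨x, rfl⟩)
  let z : M := ⟨ζ, hFM (le_sup_right (a := φ.fieldRange)
    (IntermediateField.mem_adjoin_simple_self ℚ ζ))⟩
  have hz : IsPrimitiveRoot z p :=
    IsPrimitiveRoot.of_map_of_injective (f := M.val) (by exact hζ) M.val.injective
  exact ⟨M, inferInstance, hnf, by exact hgal, f.toAlgebra, z, hz⟩

section Transfer

variable {p : ℕ} [Fact p.Prime] {L : Type} [Field L] [NumberField L] [IsGalois ℚ L]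
  {M : Type} [Field M] [NumberField M] [IsGalois ℚ M] [Algebra L M]

/-- Restriction of automorphisms. -/
noncomputable def restrictAut (L : Type) [Field L] [NumberField L] [IsGalois ℚ L]
    (M : Type) [Field M] [NumberField M] [Algebra L M] : (M ≃ₐ[ℚ] M) →* (L ≃ₐ[ℚ] L) :=
  haveI : IsScalarTower ℚ L M := IsScalarTower.of_algebraMap_eq' (Subsingleton.elim _ _)
  AlgEquiv.restrictNormalHom L

theorem restrictAut_commutes (g : M ≃ₐ[ℚ] M) (x : L) :
    g (algebraMap L M x) = algebraMap L M (restrictAut L M g x) :=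
  haveI : IsScalarTower ℚ L M := IsScalarTower.of_algebraMap_eq' (Subsingleton.elim _ _)
  (AlgEquiv.restrictNormal_commutes g L x).symm

theorem restrictAut_surjective : Function.Surjective (restrictAut L M) :=
  haveI : IsScalarTower ℚ L M := IsScalarTower.of_algebraMap_eq' (Subsingleton.elim _ _)
  AlgEquiv.restrictNormalHom_surjective M

theorem restrictAut_smul (g : M ≃ₐ[ℚ] M) (c : IdeleClass L) :
    classBaseChange L M (restrictAut L M g • c) = g • classBaseChange L M c :=
  classBaseChange_smul g (restrictAut L M g) (restrictAut_commutes g) c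

theorem map_mem_fixedPts (K : Subgroup (L ≃ₐ[ℚ] L)) {c : IdeleClass L}
    (hc : c ∈ fixedPts K (IdeleClass L)) :
    classBaseChange L M c ∈ fixedPts (K.comap (restrictAut L M)) (IdeleClass M) :=
  (mem_fixedPts_iff_forall _ _ _).2 fun g hg => by
    rw [← restrictAut_smul, (mem_fixedPts_iff_forall _ _ _).1 hc _ hg]

theorem exists_of_mem_fixedPts (K : Subgroup (L ≃ₐ[ℚ] L)) {c : IdeleClass M}
    (hc : c ∈ fixedPts (K.comap (restrictAut L M)) (IdeleClass M)) :
    ∃ w ∈ fixedPts K (IdeleClass L), classBaseChange L M w = c := by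
  have hc' := (mem_fixedPts_iff_forall _ _ _).1 hc
  obtain ⟨f, hf, hfc⟩ := exists_fixed_idele_of_fixed_class' (restrictAut L M).ker (c := c)
    ((mem_fixedPts_iff_forall _ _ _).2 fun g hg => hc' g (by
      rw [Subgroup.mem_comap, MonoidHom.mem_ker.1 hg]
      exact one_mem K))
  obtain ⟨f', rfl⟩ := mem_range_ideleBaseChange (L := L) (f := f) fun g hg =>
    (mem_fixedPts_iff_forall _ _ _).1 hf g (MonoidHom.mem_ker.2 (AlgEquiv.ext fun x =>
      (algebraMap L M).injective ((restrictAut_commutes g x).symm.trans (hg x))))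
  refine ⟨QuotientAddGroup.mk f', (mem_fixedPts_iff_forall _ _ _).2 fun h hh => ?_, hfc⟩
  obtain ⟨g, rfl⟩ := restrictAut_surjective (L := L) (M := M) h
  apply classBaseChange_injective (L := L) (L' := M)
  rw [restrictAut_smul]
  rw [show classBaseChange L M (QuotientAddGroup.mk f') = c from hfc, hc' g hh]

theorem relNorm_comap {G G' A B : Type*} [Group G] [Group G'] [AddCommGroup A]
    [DistribMulAction G A] [AddCommGroup B] [DistribMulAction G' B] [Finite G] (res : G' →* G)
    (hres : Function.Surjective res) (φ : A →+ B) (hφ : ∀ g a, φ (res g • a) = g • φ a)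
    (H' H : Subgroup G) {w : A} (hw : φ w ∈ fixedPts (H'.comap res) B) :
    φ (relNorm A H' H w) = relNorm B (H'.comap res) (H.comap res) (φ w) := by
  choose lift hlift using hres
  let f : H ⧸ H'.subgroupOf H → (H.comap res : Subgroup G') := fun c =>
    ⟨lift ((c.out : H) : G), by rw [Subgroup.mem_comap, hlift]; exact (c.out : H).2⟩
  rw [RelNorm.eq_finsum_of_bijective hw f, relNorm, map_finsum φ (Set.toFinite _)]
  · exact finsum_congr fun c => by
      show _ = lift ((c.out : H) : G) • φ w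
      rw [← hφ, hlift]
  · constructor
    · intro c d h
      have h' := QuotientGroup.eq.1 h
      rw [Subgroup.mem_subgroupOf, Subgroup.coe_mul, Subgroup.coe_inv, Subgroup.mem_comap,
        map_mul, map_inv, hlift, hlift] at h'
      rw [← QuotientGroup.out_eq' c, ← QuotientGroup.out_eq' d, QuotientGroup.eq,
        Subgroup.mem_subgroupOf]
      simpa using h'
    · intro c
      induction c using QuotientGroup.induction_on with
      | H g =>
        refine ⟨QuotientGroup.mk ⟨res g.1, g.2⟩, QuotientGroup.eq.2 ?_⟩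
        rw [Subgroup.mem_subgroupOf, Subgroup.coe_mul, Subgroup.coe_inv, Subgroup.mem_comap,
          map_mul, map_inv, hlift]
        obtain ⟨h', e⟩ := QuotientGroup.mk_out_eq_mul (H'.subgroupOf H)
          (⟨res g.1, g.2⟩ : H)
        rw [e]
        have := Subgroup.mem_subgroupOf.1 h'.2
        simpa using H'.inv_mem this

theorem map_relNorm (H' H : Subgroup (L ≃ₐ[ℚ] L)) {w : IdeleClass L}
    (hw : w ∈ fixedPts H' (IdeleClass L)) :
    classBaseChange L M (relNorm (IdeleClass L) H' H w) =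
      relNorm (IdeleClass M) (H'.comap (restrictAut L M)) (H.comap (restrictAut L M))
        (classBaseChange L M w) :=
  relNorm_comap (A := IdeleClass L) (B := IdeleClass M) (restrictAut L M)
    (restrictAut_surjective (L := L) (M := M)) (classBaseChange L M)
    (fun g c => restrictAut_smul (L := L) (M := M) g c) H' H (map_mem_fixedPts (M := M) H' hw)

/-- The transfer to an extension with a primitive root. -/
theorem normIndexLe_transfer {ζ : M} (hζ : IsPrimitiveRoot ζ p)
    (hμcase : ∀ (J' J : Subgroup (M ≃ₐ[ℚ] M)), J' ≤ J → (J'.subgroupOf J).Normal →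
      J'.relIndex J = p → (∃ z : M, IsPrimitiveRoot z p ∧ ∀ h ∈ J, h z = z) →
      NormIndexLe p M J' J)
    (H' H : Subgroup (L ≃ₐ[ℚ] L)) (hle : H' ≤ H) (hn : (H'.subgroupOf H).Normal)
    (hidx : H'.relIndex H = p) : NormIndexLe p L H' H := by
  classical
  have hp : p.Prime := Fact.out
  set res := restrictAut L M
  set H₂ : Subgroup (M ≃ₐ[ℚ] M) := H.comap res with hH₂
  set H₂' : Subgroup (M ≃ₐ[ℚ] M) := H'.comap res with hH₂'
  set Z : Subgroup (M ≃ₐ[ℚ] M) := (hζ.autToPow ℚ).ker with hZ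
  set J := H₂ ⊓ Z with hJ
  set J' := H₂' ⊓ J with hJ'
  have hd : J.relIndex H₂ ∣ p - 1 := by
    rw [hJ, Subgroup.inf_relIndex_left, hZ, Subgroup.relIndex_ker]
    refine (Subgroup.card_subgroup_dvd_card _).trans ?_
    rw [Nat.card_eq_fintype_card, ZMod.card_units]
  have hidx₂ : H₂'.relIndex H₂ = p := by
    rw [hH₂', hH₂, Subgroup.relIndex_comap,
      Subgroup.map_comap_eq_self_of_surjective restrictAut_surjective, hidx]
  have hle₂ : H₂' ≤ H₂ := Subgroup.comap_mono hle
  have hn₂ : (H₂'.subgroupOf H₂).Normal := ⟨fun a ha b => by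
    have := hn.conj_mem ⟨res a.1, a.2⟩ (Subgroup.mem_subgroupOf.2 ha) ⟨res b.1, b.2⟩
    rw [Subgroup.mem_subgroupOf] at this ⊢
    simpa [hH₂', map_mul, map_inv] using this⟩
  have hJidx : H₂'.relIndex J = p := by
    have h1 : H₂'.relIndex J ∣ p := by
      rw [← hidx₂, ← Subgroup.relIndex_subgroupOf (inf_le_left : J ≤ H₂)]
      exact Subgroup.relIndex_dvd_index_of_normal _ _
    refine ((Nat.dvd_prime hp).1 h1).resolve_left fun h => ?_
    have h2 : p ∣ J.relIndex H₂ := hidx₂ ▸ Subgroup.relIndex_dvd_of_le_left _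
      (Subgroup.relIndex_eq_one.1 h)
    have h3 := Nat.le_of_dvd (Nat.sub_pos_of_lt hp.one_lt) (h2.trans hd)
    have := hp.one_lt
    omega
  have hJ'idx : J'.relIndex J = p := by rw [hJ', Subgroup.inf_relIndex_right, hJidx]
  have hJn : (J'.subgroupOf J).Normal := ⟨fun a ha b => by
    rw [Subgroup.mem_subgroupOf] at ha ⊢
    refine ⟨?_, (b * a * b⁻¹).2⟩
    have := hn₂.conj_mem ⟨a.1, a.2.1⟩ (Subgroup.mem_subgroupOf.2 ha.1) ⟨b.1, b.2.1⟩
    rw [Subgroup.mem_subgroupOf] at this
    exact this⟩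
  have hfixζ : ∀ g ∈ J, g ζ = ζ := by
    intro g hg
    have h := hζ.autToPow_spec ℚ g
    rw [show hζ.autToPow ℚ g = 1 from hg.2] at h
    rw [← h]
    have : Fact (1 < p) := ⟨hp.one_lt⟩
    rw [Units.val_one, ZMod.val_one, pow_one]
  intro s hs hsep
  set ι := classBaseChange L M
  have hinj : Function.Injective ι := classBaseChange_injective
  rw [← Finset.card_image_of_injective s hinj]
  refine hμcase J' J inf_le_right hJn hJ'idx ⟨ζ, hζ, hfixζ⟩ _ (fun b hb => ?_) fun b hb c hc' hbc => ?_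
  · obtain ⟨x, hx, rfl⟩ := Finset.mem_image.1 hb
    exact (mem_fixedPts_iff_forall _ _ _).2 fun g hg =>
      (mem_fixedPts_iff_forall _ _ _).1 (map_mem_fixedPts H (hs x hx)) g hg.1
  obtain ⟨b, hb', rfl⟩ := Finset.mem_image.1 hb
  obtain ⟨c, hc'', rfl⟩ := Finset.mem_image.1 hc'
  rw [hsep b hb' c hc'' ?_]
  obtain ⟨y, hy, hyn⟩ := hbc
  replace hyn := hyn.trans (map_sub ι b c).symm
  set x := b - c
  have hx : x ∈ fixedPts H (IdeleClass L) := AddSubgroup.sub_mem _ (hs b hb') (hs c hc'')
  have hxd : J.relIndex H₂ • ι x =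
      relNorm (IdeleClass M) H₂' H₂ (relNorm (IdeleClass M) J' H₂' y) := by
    rw [RelNorm.trans' (inf_le_left : J' ≤ H₂') hle₂ hy,
      ← RelNorm.trans' (inf_le_right : J' ≤ J) inf_le_left hy, hyn]
    exact (RelNorm.eq_of_mem_fixedPts (map_mem_fixedPts (M := M) H hx)).symm
  obtain ⟨w, hw, hwe⟩ := exists_of_mem_fixedPts (L := L) H' (RelNorm.mem_fixedPts (H := H₂') hy)
  rw [← hwe, ← map_relNorm H' H hw, ← map_nsmul] at hxd
  have hdx : J.relIndex H₂ • x ∈ relNormSet (IdeleClass L) H' H := ⟨w, hw, (hinj hxd).symm⟩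
  have hpx : p • x ∈ relNormSet (IdeleClass L) H' H :=
    ⟨x, (mem_fixedPts_iff_forall _ _ _).2 fun h hh => (mem_fixedPts_iff_forall _ _ _).1 hx h (hle hh),
      by rw [RelNorm.eq_of_mem_fixedPts hx, hidx]⟩
  have hcop : Nat.Coprime p (J.relIndex H₂) := by
    refine hp.coprime_iff_not_dvd.2 fun h => ?_
    have h3 := Nat.le_of_dvd (Nat.sub_pos_of_lt hp.one_lt) (h.trans hd)
    have := hp.one_lt
    omega
  obtain ⟨g, hg, hg'⟩ := exists_generator_of_relIndex hidx
  have hc := exists_cyclicPair p hle hidx hg hg'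
  rw [relNormSet_eq hc] at hdx hpx ⊢
  exact mem_of_coprime_nsmul_mem hcop hpx hdx

end Transfer

/-- It suffices to bound the norm index when `L^H` contains the `p`-th roots of unity. -/
theorem normIndexLe_of_rootsOfUnity {p : ℕ} [Fact p.Prime]
    (hμcase : ∀ (L : Type) [Field L] [NumberField L] [IsGalois ℚ L]
      (H' H : Subgroup (L ≃ₐ[ℚ] L)), H' ≤ H → (H'.subgroupOf H).Normal → H'.relIndex H = p →
      (∃ ζ : L, IsPrimitiveRoot ζ p ∧ ∀ h ∈ H, h ζ = ζ) → NormIndexLe p L H' H)
    (L : Type) [Field L] [NumberField L] [IsGalois ℚ L] (H' H : Subgroup (L ≃ₐ[ℚ] L))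
    (hle : H' ≤ H) (hn : (H'.subgroupOf H).Normal) (hidx : H'.relIndex H = p) :
    NormIndexLe p L H' H := by
  obtain ⟨M, _, _, _, _, ζ, hζ⟩ := exists_galois_extension_with_root L p
  exact normIndexLe_transfer hζ (hμcase M) H' H hle hn hidx

end FermatLib.CFT
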