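import Fermat.Agent.CFT.SecondSetting
import Fermat.Agent.CFT.SecondTransfer

/-!
The second inequality for cyclic steps of prime degree.
-/

set_option autoImplicit false
set_option linter.unusedSectionVars false

open NumberField

namespace FermatLib.CFT

variable {p : ℕ} [Fact p.Prime] {L : Type} [Field L] [NumberField L] [IsGalois ℚ L]

/-- Lagrange resolvent: a Kummer generator of a cyclic step over a base with roots of unity. -/
theorem exists_kummer_generator {H' H : Subgroup (L ≃ₐ[ℚ] L)} (hle : H' ≤ H)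
    [hn : (H'.subgroupOf H).Normal] (hidx : H'.relIndex H = p) {ζ : L} (hζ : IsPrimitiveRoot ζ p)
    (hfix : ∀ h ∈ H, h ζ = ζ) :
    ∃ b : L, b ≠ 0 ∧ (∀ h ∈ H, h (b ^ p) = b ^ p) ∧ (∀ h ∈ H, h b = b ↔ h ∈ H') := by
  classical
  have hp : p.Prime := Fact.out
  obtain ⟨g, hg, hg'⟩ := exists_generator_of_relIndex (p := p) hidx
  let gq : H ⧸ H'.subgroupOf H := QuotientGroup.mk ⟨g, hg⟩
  have hcard : Nat.card (H ⧸ H'.subgroupOf H) = p := hidx
  have : Finite (H ⧸ H'.subgroupOf H) := Nat.finite_of_card_ne_zero (by rw [hcard]; exact hp.ne_zero)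
  have hord : orderOf gq = p := by
    refine ((Nat.dvd_prime hp).1 (hcard ▸ orderOf_dvd_natCard gq)).resolve_left fun h1 => hg' ?_
    rw [orderOf_eq_one_iff] at h1
    exact Subgroup.mem_subgroupOf.1 ((QuotientGroup.eq_one_iff _).1 h1)
  have hmem : ∀ i : ℕ, g ^ i ∈ H' ↔ p ∣ i := fun i => by
    rw [← hord, orderOf_dvd_iff_pow_eq_one,
      show gq ^ i = QuotientGroup.mk (⟨g, hg⟩ ^ i : H) from (QuotientGroup.mk_pow _ _ _).symm,
      QuotientGroup.eq_one_iff, Subgroup.mem_subgroupOf]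
    simp
  have hdecomp : ∀ h ∈ H, ∃ i < p, ∃ k ∈ H', h = g ^ i * k := by
    intro h hh
    have hgen : Subgroup.zpowers gq = ⊤ :=
      Subgroup.eq_top_of_card_eq _ (by rw [Nat.card_zpowers, hord, hcard])
    have h1 : (QuotientGroup.mk ⟨h, hh⟩ : H ⧸ H'.subgroupOf H) ∈ Subgroup.zpowers gq :=
      hgen ▸ Subgroup.mem_top _
    rw [← mem_powers_iff_mem_zpowers, Submonoid.mem_powers_iff] at h1
    obtain ⟨i, hi⟩ := h1
    rw [← pow_mod_orderOf, hord,
      show gq ^ (i % p) = QuotientGroup.mk (⟨g, hg⟩ ^ (i % p) : H) from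
        (QuotientGroup.mk_pow _ _ _).symm] at hi
    refine ⟨i % p, Nat.mod_lt _ hp.pos, _, Subgroup.mem_subgroupOf.1 (QuotientGroup.eq.1 hi), ?_⟩
    simp
  -- independence of the conjugates on the fixed field
  let F := IntermediateField.fixedField H'
  have hpne : ∀ i j : Fin p, ((g ^ (i : ℕ) : L ≃ₐ[ℚ] L) : L →* L).comp (F.val : F →* L) =
      ((g ^ (j : ℕ) : L ≃ₐ[ℚ] L) : L →* L).comp (F.val : F →* L) → (i : ℕ) ≤ j → i = j := by
    intro i j he hij
    have hdvd : p ∣ (j : ℕ) - i := by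
      rw [← hmem, ← IntermediateField.fixingSubgroup_fixedField H',
        IntermediateField.mem_fixingSubgroup_iff]
      intro x hx
      have := DFunLike.congr_fun he ⟨x, hx⟩
      refine (g ^ (i : ℕ)).injective ?_
      rw [← AlgEquiv.mul_apply, ← pow_add, Nat.add_sub_cancel' hij]
      exact this.symm
    have : (j : ℕ) - i = 0 := Nat.eq_zero_of_dvd_of_lt hdvd (by omega)
    exact Fin.ext (by omega)
  let χ : Fin p → (F →* L) := fun i =>
    ((g ^ (i : ℕ) : L ≃ₐ[ℚ] L) : L →* L).comp (F.val : F →* L)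
  have hinj : Function.Injective χ := fun i j he => by
    rcases le_total (i : ℕ) j with h | h
    · exact hpne i j he h
    · exact (hpne j i he.symm h).symm
  obtain ⟨x, hx⟩ : ∃ x : F, ∑ i : Fin p, (ζ⁻¹) ^ (i : ℕ) * (g ^ (i : ℕ)) (x : L) ≠ 0 := by
    by_contra! hall
    have hli := (linearIndependent_monoidHom F L).comp χ hinj
    have h0 := Fintype.linearIndependent_iff.1 hli (fun i => (ζ⁻¹) ^ (i : ℕ)) (funext fun x => by
      simpa [χ] using hall x) ⟨0, hp.pos⟩
    simp at h0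
  set b := ∑ i : Fin p, (ζ⁻¹) ^ (i : ℕ) * (g ^ (i : ℕ)) (x : L) with hb
  let t : ℕ → L := fun i => (ζ⁻¹) ^ i * (g ^ i) (x : L)
  have hxfix : ∀ k ∈ H', k (x : L) = x := (IntermediateField.mem_fixedField_iff _ _).1 x.2
  have hgi : ∀ i : ℕ, (g ^ i) ζ = ζ := fun i => hfix _ (pow_mem hg i)
  have hgb : g b = ζ * b := by
    have ht : ∀ i, g (t i) = ζ * t (i + 1) := fun i => by
      simp only [t]
      rw [map_mul, map_pow, map_inv₀, hfix g hg, ← AlgEquiv.mul_apply, ← pow_succ',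
        pow_succ' ζ⁻¹, ← mul_assoc, ← mul_assoc, mul_inv_cancel₀ (hζ.ne_zero hp.ne_zero), one_mul]
    have hb' : b = ∑ i ∈ Finset.range p, t i := by rw [hb, ← Fin.sum_univ_eq_sum_range]
    have htp : t p = t 0 := by
      simp only [t]
      rw [inv_pow, hζ.pow_eq_one, inv_one, hxfix _ ((hmem p).2 dvd_rfl)]
      simp
    have hshift : ∑ i ∈ Finset.range p, t (i + 1) = ∑ i ∈ Finset.range p, t i := by
      have h1 := Finset.sum_range_succ' t p
      have h2 := Finset.sum_range_succ t p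
      rw [h2, htp] at h1
      exact (add_right_cancel h1).symm
    rw [hb', map_sum, Finset.sum_congr rfl fun i _ => ht i, ← Finset.mul_sum, hshift]
  have hgpow : ∀ i : ℕ, (g ^ i) b = ζ ^ i * b := by
    intro i
    induction i with
    | zero => simp
    | succ n ih =>
      rw [pow_succ', AlgEquiv.mul_apply, ih, map_mul, map_pow, hfix g hg, hgb, ← mul_assoc,
        pow_succ]
  have hkb : ∀ k ∈ H', k b = b := by
    intro k hk
    rw [hb, map_sum]
    refine Finset.sum_congr rfl fun i _ => ?_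
    rw [map_mul, map_pow, map_inv₀, hfix k (hle hk)]
    congr 1
    have hconj : (g ^ (i : ℕ))⁻¹ * k * g ^ (i : ℕ) ∈ H' := by
      have := hn.conj_mem ⟨k, hle hk⟩ (Subgroup.mem_subgroupOf.2 hk)
        (⟨g, hg⟩ ^ (i : ℕ))⁻¹
      rw [Subgroup.mem_subgroupOf] at this
      simpa using this
    have := hxfix _ hconj
    rw [AlgEquiv.mul_apply, AlgEquiv.mul_apply, AlgEquiv.aut_inv, AlgEquiv.symm_apply_eq] at this
    exact this
  refine ⟨b, hx, fun h hh => ?_, fun h hh => ⟨fun hfb => ?_, hkb h⟩⟩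
  · obtain ⟨i, -, k, hk, rfl⟩ := hdecomp h hh
    rw [map_pow, AlgEquiv.mul_apply, hkb k hk, hgpow, mul_pow, ← pow_mul, mul_comm i p, pow_mul,
      hζ.pow_eq_one, one_pow, one_mul]
  · obtain ⟨i, hi, k, hk, rfl⟩ := hdecomp h hh
    rw [AlgEquiv.mul_apply, hkb k hk, hgpow] at hfb
    have hz : ζ ^ i = 1 := mul_right_cancel₀ hx (hfb.trans (one_mul b).symm)
    have hdvd := (hζ.pow_eq_one_iff_dvd i).1 hz
    rw [Nat.eq_zero_of_dvd_of_lt hdvd hi, pow_zero, one_mul]
    exact hk

/-- The second inequality when the base contains the roots of unity. -/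
theorem normIndexLe_kummer (H' H : Subgroup (L ≃ₐ[ℚ] L)) (hle : H' ≤ H)
    (hn : (H'.subgroupOf H).Normal) (hidx : H'.relIndex H = p)
    (hμ : ∃ ζ : L, IsPrimitiveRoot ζ p ∧ ∀ h ∈ H, h ζ = ζ) : NormIndexLe p L H' H := by
  classical
  obtain ⟨ζ, hζ, hfix⟩ := hμ
  obtain ⟨b, hb0, hbp, hbH⟩ := exists_kummer_generator hle hidx hζ hfix
  let K := IntermediateField.fixedField H
  have hζK : ζ ∈ K := (IntermediateField.mem_fixedField_iff H ζ).2 hfix
  have haK : b ^ p ∈ K := (IntermediateField.mem_fixedField_iff H _).2 hbp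
  have hζ' : IsPrimitiveRoot (⟨ζ, hζK⟩ : K) p :=
    IsPrimitiveRoot.of_map_of_injective (f := algebraMap K L) hζ (algebraMap K L).injective
  let a : LUnits K := LUnits.of (Units.mk0 (⟨b ^ p, haK⟩ : K)
    fun h => pow_ne_zero p hb0 (congrArg Subtype.val h))
  have hfixing : ∀ g : L ≃ₐ[ℚ] L, g ∈ H ↔ ∀ x : K, g (algebraMap K L x) = algebraMap K L x := by
    intro g
    rw [← IntermediateField.fixingSubgroup_fixedField H,
      IntermediateField.mem_fixingSubgroup_iff]
    exact ⟨fun h x => h x x.2, fun h x hx => h ⟨x, hx⟩⟩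
  obtain ⟨g₀, hg₀, hg₀'⟩ := exists_generator_of_relIndex (p := p) hidx
  have hmoved : g₀ b ≠ b := fun h => hg₀' ((hbH g₀ hg₀).1 h)
  have hstep : IsKummerStep p H' H (⟨ζ, hζK⟩ : K) a b :=
    { fixing := hfixing
      root := hζ'
      pow_eq := rfl
      mem_iff := fun g => ⟨fun hg => ⟨hle hg, (hbH g (hle hg)).2 hg⟩,
        fun ⟨hg, hgb⟩ => (hbH g hg).1 hgb⟩
      moved := ⟨g₀, hg₀, hmoved⟩ }
  have hna : ¬ IsGlobalPow p a := by
    rintro ⟨y, hy⟩
    have hy' : ((y.val : K) : L) ^ p = b ^ p := by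
      have := congrArg (fun z : LUnits K => ((z.val : K) : L)) hy
      exact this
    have : NeZero p := ⟨(Fact.out : p.Prime).ne_zero⟩
    obtain ⟨i, -, hi⟩ := hζ.eq_pow_of_pow_eq_one (ξ := b / ((y.val : K) : L))
      (by rw [div_pow, hy', div_self (pow_ne_zero _ hb0)])
    have hy0 : ((y.val : K) : L) ≠ 0 := fun h => y.val.ne_zero (Subtype.ext h)
    rw [eq_div_iff hy0] at hi
    refine hmoved ?_
    rw [← hi, map_mul, map_pow, hfix g₀ hg₀]
    congr 1
    exact (hfixing g₀).1 hg₀ (y.val : K)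
  obtain ⟨S₀, hS₀⟩ := exists_generate_placesOver (K := K)
  let S : Finset Nat.Primes := S₀ ∪ {(⟨p, Fact.out⟩ : Nat.Primes)} ∪
    (finite_setOf_norm_ne_one (L := K) a.val.ne_zero).toFinset
  let T := placesOver K S
  have hTp : ∀ (q : Nat.Primes) (φ : Emb K q), (q : ℕ) = p → φ.place ∈ T := fun q φ hq =>
    (mem_placesOver φ.place).2 (Finset.mem_union_left _ (Finset.mem_union_right _
      (Finset.mem_singleton.2 (Subtype.ext hq))))
  have hμK : ∃ z : K, IsPrimitiveRoot z p := ⟨_, hζ'⟩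
  have hT : IsKummerSetting p T := isKummerSetting_of_generate hμK T hTp fun c => by
    obtain ⟨j, hj, hje⟩ := hS₀ S (Finset.subset_union_left.trans Finset.subset_union_left) c
    exact ⟨j, hj, 0, by rw [hje, nsmul_zero]; exact (add_zero c).symm⟩
  have ha : a ∈ placeUnits K (T : Set (FinPlace K)) := fun q φ hφ => by
    rw [QUnits.mem_unitGroup_iff, toField_principalFamily]
    by_contra hne
    exact hφ ((mem_placesOver φ.place).2 (Finset.mem_union_right _
      ((Set.Finite.mem_toFinset _).2 ⟨φ, hne⟩)))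
  obtain ⟨P, v₀, hP, hpow⟩ :=
    exists_dualSystem_of_unit hμK T hTp (relIndex_placeUnits_ne_zero hμK T) ha hna
  intro s hs hsep
  have hpre : ∀ c : s, ∃ d : IdeleClass K, classBaseChange K L d = (c : IdeleClass L) :=
    fun c => exists_classBaseChange_eq hfixing (hs c c.2)
  choose d hd using hpre
  have hinj : Function.Injective d := fun c c' h => Subtype.ext (by rw [← hd c, ← hd c', h])
  have hcard : (Finset.univ.image d).card = s.card := by
    rw [Finset.card_image_of_injective _ hinj, Finset.card_univ, Fintype.card_coe]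
  rw [← hcard]
  refine hP.card_le hT ha hstep.isKummerNormGroup hpow _ ?_
  intro x hx y hy hxy
  obtain ⟨c, -, rfl⟩ := Finset.mem_image.1 hx
  obtain ⟨c', -, rfl⟩ := Finset.mem_image.1 hy
  rw [mem_normClasses_iff, map_sub, hd, hd] at hxy
  rw [Subtype.ext (hsep _ c.2 _ c'.2 hxy)]

variable (L) in
/-- The second inequality. -/
theorem ideleClass_norm_index_le (H' H : Subgroup (L ≃ₐ[ℚ] L)) (hle : H' ≤ H)
    [hn : (H'.subgroupOf H).Normal] (hidx : H'.relIndex H = p) :
    ∀ s : Finset (IdeleClass L), (∀ b ∈ s, b ∈ fixedPts H (IdeleClass L)) →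
      (∀ b ∈ s, ∀ c ∈ s, b - c ∈ relNormSet (IdeleClass L) H' H → b = c) → s.card ≤ p :=
  normIndexLe_of_rootsOfUnity
    (fun L' _ _ _ K' K hle' hn' hidx' hμ => normIndexLe_kummer K' K hle' hn' hidx' hμ)
    L H' H hle hn hidx

end FermatLib.CFT
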