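import Fermat.Agent.CFT.SecondGood
import Fermat.Agent.CFT.IdeleBaseChange
import Fermat.Agent.CFT.CFRelNorm

/-!
Good ideles are norms from the Kummer extension.
-/

set_option autoImplicit false
set_option linter.unusedSectionVars false

open NumberField

namespace FermatLib.CFT

variable {p : ℕ} [Fact p.Prime]

/-- The values on the left of the goodness criterion at a place with explicit root. -/
def HasLocalRoot {K : Type} [Field K] [NumberField K] {q : Nat.Primes} (p : ℕ) (φ : Emb K q)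
    (a : LUnits K) : Prop :=
  ∃ y ∈ completion φ, y ^ p = φ a.val

theorem hasLocalRoot_postComp {K : Type} [Field K] [NumberField K] {q : Nat.Primes}
    (φ : Emb K q) (a : LUnits K) (τ : Gloc q) :
    HasLocalRoot p (φ.postComp τ) a ↔ HasLocalRoot p φ a := by
  constructor
  · rintro ⟨y, hy, hyp⟩
    have h := (φ.postComp τ).apply_mem_completion_postComp τ⁻¹ hy
    rw [← Emb.postComp_mul, inv_mul_cancel] at h
    refine ⟨τ⁻¹ y, h, ?_⟩
    rw [← map_pow, hyp]
    exact τ.symm_apply_apply (φ a.val)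
  · rintro ⟨y, hy, hyp⟩
    exact ⟨τ y, φ.apply_mem_completion_postComp τ hy, by rw [← map_pow, hyp]; rfl⟩

/-- Witnesses that `z` is a norm at `φ`, integral when everything is a unit. -/
def IsWitness {K : Type} [Field K] [NumberField K] {q : Nat.Primes} (p : ℕ) (φ : Emb K q)
    (a : LUnits K) (z : QUnits q) (x w : PadicAlgCl (q : ℕ)) (n : ℕ) : Prop :=
  x ∈ completion φ ∧ w ∈ completion φ ∧ z.toField = w ^ p * (x ^ p - φ a.val) ^ n ∧
    ((q : ℕ) ≠ p → ‖φ (a.val : K)‖ = 1 → ‖z.toField‖ = 1 →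
      ‖w‖ = 1 ∧ ‖x‖ ≤ 1 ∧ ‖x ^ p - φ a.val‖ = 1)

theorem IsWitness.postComp {K : Type} [Field K] [NumberField K] {q : Nat.Primes}
    {φ : Emb K q} {a : LUnits K} {z : QUnits q} {x w : PadicAlgCl (q : ℕ)} {n : ℕ}
    (h : IsWitness p φ a z x w n) (τ : Gloc q) :
    IsWitness p (φ.postComp τ) a (τ.onUnits z) (τ x) (τ w) n := by
  obtain ⟨hx, hw, he, hu⟩ := h
  refine ⟨φ.apply_mem_completion_postComp τ hx, φ.apply_mem_completion_postComp τ hw, ?_, ?_⟩
  · rw [QUnits.toField_onUnits, he, map_mul, map_pow, map_pow, map_sub, map_pow]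
    rfl
  · intro hq ha hz
    rw [Emb.postComp_apply, Loc.norm_gloc] at ha
    rw [QUnits.toField_onUnits, Loc.norm_gloc] at hz
    obtain ⟨h1, h2, h3⟩ := hu hq ha hz
    refine ⟨by rwa [Loc.norm_gloc], by rwa [Loc.norm_gloc], ?_⟩
    rw [Emb.postComp_apply, ← map_pow, ← map_sub, Loc.norm_gloc]
    exact h3

theorem exists_isWitness {K : Type} [Field K] [NumberField K] {q : Nat.Primes} (φ : Emb K q)
    (a : LUnits K) (hnr : ¬ HasLocalRoot p φ a) {z : QUnits q} (hz : z ∈ φ.localUnits)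
    (hgood : LocalKummerGood p φ (φ a.val) z) : ∃ x w n, IsWitness p φ a z x w n := by
  by_cases hu : (q : ℕ) ≠ p ∧ ‖φ (a.val : K)‖ = 1 ∧ ‖z.toField‖ = 1
  · obtain ⟨hq, hau, hzu⟩ := hu
    have hna : principalFamily K a q φ ∉ φ.powUnits p := fun h =>
      hnr ((φ.mem_powUnits_iff_elem _).1 h)
    have ha : principalFamily K a q φ ∈ QUnits.unitGroup q := by
      rw [QUnits.mem_unitGroup_iff, toField_principalFamily]; exact hau
    obtain ⟨w, hw, x, hx, n, h1, h2, h3, he⟩ :=
      exists_integral_witness hq φ ha hna hz ((QUnits.mem_unitGroup_iff z).2 hzu)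
    exact ⟨x, w, n, hx, hw, he, fun _ _ _ => ⟨h1, h2, h3⟩⟩
  · obtain ⟨w, hw, x, hx, n, he⟩ := hgood.resolve_left hnr
    exact ⟨x, w, n, hx, hw, he, fun h1 h2 h3 => absurd ⟨h1, h2, h3⟩ hu⟩

variable {K : Type} [Field K] [NumberField K]
  {L : Type} [Field L] [NumberField L] [Algebra K L]

/-- The product of `x - ζ^i y` over `i < p`. -/
theorem prod_sub_pow_mul {F : Type*} [Field F] {ζ : F} (hζ : IsPrimitiveRoot ζ p) (x y : F) :
    ∏ i : Fin p, (x - ζ ^ (i : ℕ) * y) = x ^ p - y ^ p := by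
  rw [Fin.prod_univ_eq_prod_range (fun i => x - ζ ^ i * y)]
  have h := congrArg (Polynomial.eval x)
    (X_pow_sub_C_eq_prod hζ (Fact.out : p.Prime).pos (α := y) (a := y ^ p) rfl)
  simpa [Polynomial.eval_prod] using h.symm

/-- Exactly one of the conjugates hits a given root. -/
theorem existsUnique_pow_mul_eq {F : Type*} [Field F] {ζ y R : F} (hζ : IsPrimitiveRoot ζ p)
    (hy : y ≠ 0) (h : R ^ p = y ^ p) : ∃! i : Fin p, ζ ^ (i : ℕ) * y = R := by
  have : NeZero p := ⟨(Fact.out : p.Prime).ne_zero⟩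
  obtain ⟨i, hi, he⟩ := hζ.eq_pow_of_pow_eq_one (ξ := R / y)
    (by rw [div_pow, h, div_self (pow_ne_zero _ hy)])
  refine ⟨⟨i, hi⟩, (eq_div_iff hy).1 he, fun j hj => Fin.ext ?_⟩
  have : ζ ^ (j : ℕ) = ζ ^ i := by rw [he, eq_div_iff hy]; exact hj
  exact hζ.pow_inj j.2 hi this

/-- The hypotheses describing a Kummer step `H' ⊆ H` inside `L` over `K = L^H`. -/
structure IsKummerStep (p : ℕ) (H' H : Subgroup (L ≃ₐ[ℚ] L)) (ζ : K) (a : LUnits K) (b : L) :
    Prop where
  fixing : ∀ g : L ≃ₐ[ℚ] L, g ∈ H ↔ ∀ x : K, g (algebraMap K L x) = algebraMap K L x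
  root : IsPrimitiveRoot ζ p
  pow_eq : b ^ p = algebraMap K L a.val
  mem_iff : ∀ g : L ≃ₐ[ℚ] L, g ∈ H' ↔ g ∈ H ∧ g b = b
  moved : ∃ g ∈ H, g b ≠ b

variable {H' H : Subgroup (L ≃ₐ[ℚ] L)} {ζ : K} {a : LUnits K} {b : L}

theorem IsKummerStep.le (h : IsKummerStep p H' H ζ a b) : H' ≤ H :=
  fun g hg => ((h.mem_iff g).1 hg).1

theorem IsKummerStep.ne_zero (h : IsKummerStep p H' H ζ a b) : b ≠ 0 := by
  intro hb
  obtain ⟨g, -, hg⟩ := h.moved
  exact hg (by rw [hb, map_zero])

theorem IsKummerStep.exists_conj (h : IsKummerStep p H' H ζ a b) {g : L ≃ₐ[ℚ] L} (hg : g ∈ H) :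
    ∃ j < p, g b = algebraMap K L ζ ^ j * b := by
  have : NeZero p := ⟨(Fact.out : p.Prime).ne_zero⟩
  obtain ⟨j, hj, he⟩ := (h.root.map_of_injective (algebraMap K L).injective).eq_pow_of_pow_eq_one
    (ξ := g b / b) (by
      rw [div_pow, ← map_pow g, h.pow_eq, (h.fixing g).1 hg, div_self]
      exact fun e => a.val.ne_zero ((map_eq_zero (algebraMap K L)).1 e))
  exact ⟨j, hj, ((eq_div_iff h.ne_zero).1 he).symm⟩

theorem IsKummerStep.pow_apply (h : IsKummerStep p H' H ζ a b) {g : L ≃ₐ[ℚ] L} (hg : g ∈ H)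
    {j : ℕ} (hgb : g b = algebraMap K L ζ ^ j * b) (i : ℕ) :
    (g ^ i) b = algebraMap K L ζ ^ (i * j) * b := by
  induction i with
  | zero => simp
  | succ n ih =>
    rw [pow_succ', AlgEquiv.mul_apply, ih, map_mul, map_pow, (h.fixing g).1 hg, hgb, ← mul_assoc,
      ← pow_add]
    ring_nf

/-- A generator acting on the root by `ζ`. -/
theorem IsKummerStep.exists_gen (h : IsKummerStep p H' H ζ a b) :
    ∃ g ∈ H, ∀ i : ℕ, (g ^ i) b = algebraMap K L ζ ^ i * b := by
  have hp : p.Prime := Fact.out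
  obtain ⟨g₀, hg₀, hne⟩ := h.moved
  obtain ⟨j, hj, hgb⟩ := h.exists_conj hg₀
  have hj0 : j ≠ 0 := fun e => hne (by rw [hgb, e, pow_zero, one_mul])
  obtain ⟨k, hk⟩ := (Nat.exists_mul_mod_eq_gcd (n := j) (k := p) (by
    rw [(Nat.coprime_of_lt_prime hj0 hj hp).symm.gcd_eq_one]; exact hp.one_lt))
  rw [(Nat.coprime_of_lt_prime hj0 hj hp).symm.gcd_eq_one] at hk
  refine ⟨g₀ ^ k, pow_mem hg₀ k, fun i => ?_⟩
  rw [← pow_mul, h.pow_apply hg₀ hgb]
  have hζ := (h.root.map_of_injective (algebraMap K L).injective).pow_eq_one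
  congr 1
  rw [show k * i * j = i * (j * k) by ring, pow_mul', ← Nat.mod_add_div (j * k) p, hk.2, pow_add,
    pow_mul, hζ, one_pow, mul_one, pow_one]

theorem IsKummerStep.bijective (h : IsKummerStep p H' H ζ a b) {g : L ≃ₐ[ℚ] L} (hg : g ∈ H)
    (hgb : ∀ i : ℕ, (g ^ i) b = algebraMap K L ζ ^ i * b) :
    Function.Bijective (fun i : Fin p =>
      (QuotientGroup.mk (⟨g, hg⟩ ^ (i : ℕ)) : H ⧸ H'.subgroupOf H)) := by
  have hζ := h.root.map_of_injective (algebraMap K L).injective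
  constructor
  · intro i j hij
    have h1 := ((h.mem_iff _).1 (Subgroup.mem_subgroupOf.1 (QuotientGroup.eq.1 hij))).2
    simp only [Subgroup.coe_mul, Subgroup.coe_inv, SubmonoidClass.coe_pow, AlgEquiv.mul_apply,
      AlgEquiv.aut_inv, AlgEquiv.symm_apply_eq, hgb] at h1
    exact Fin.ext (hζ.pow_inj i.2 j.2 (mul_right_cancel₀ h.ne_zero h1.symm))
  · intro c
    obtain ⟨x, rfl⟩ := QuotientGroup.mk_surjective c
    obtain ⟨j, hj, hxb⟩ := h.exists_conj x.2
    refine ⟨⟨j, hj⟩, QuotientGroup.eq.2 (Subgroup.mem_subgroupOf.2 ((h.mem_iff _).2 ⟨?_, ?_⟩))⟩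
    · exact mul_mem (inv_mem (pow_mem hg j)) x.2
    · simp only [Subgroup.coe_mul, Subgroup.coe_inv, SubmonoidClass.coe_pow, AlgEquiv.mul_apply,
        AlgEquiv.aut_inv, AlgEquiv.symm_apply_eq, hgb, hxb]

/-- Good ideles are norms from `L^{H'}`. -/
theorem IsKummerStep.exists_norm (h : IsKummerStep p H' H ζ a b) {j : Idele K}
    (hj : IsKummerGood p a j) :
    ∃ f ∈ fixedPts H' (Idele L), relNorm (Idele L) H' H f = ideleBaseChange K L j := by
  classical
  have hp : p.Prime := Fact.out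
  have hb := h.ne_zero
  have hζ := h.root
  -- roots, witnesses, exponents
  obtain ⟨R, hR, hR'⟩ := exists_equivariant_elem (K := K)
    (P := fun q φ y => HasLocalRoot p φ a → y ^ p = φ a.val)
    (fun q τ φ y hy hr => by
      rw [← map_pow, hy ((hasLocalRoot_postComp φ a τ).1 hr)]; rfl)
    (fun q φ => by
      by_cases hr : HasLocalRoot p φ a
      · obtain ⟨y, hy, hyp⟩ := hr
        exact ⟨y, hy, fun _ => hyp⟩
      · exact ⟨0, zero_mem (completion φ), fun hr' => absurd hr' hr⟩)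
  obtain ⟨X, hX, hX'⟩ := exists_equivariant_elem (K := K)
    (P := fun q φ x => ¬ HasLocalRoot p φ a → ∃ w n, IsWitness p φ a (j.fin q φ) x w n)
    (fun q τ φ x hx hr => by
      obtain ⟨w, n, hw⟩ := hx (fun hr' => hr ((hasLocalRoot_postComp φ a τ).2 hr'))
      refine ⟨τ w, n, ?_⟩
      rw [show j.fin q (φ.postComp τ) = τ.onUnits (j.fin q φ) from j.2.1 q τ φ]
      exact hw.postComp τ)
    (fun q φ => by
      by_cases hr : HasLocalRoot p φ a
      · exact ⟨0, zero_mem (completion φ), fun hr' => absurd hr hr'⟩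
      · obtain ⟨x, w, n, hw⟩ :=
          exists_isWitness φ a hr (j.fin_mem_localUnits q φ) (hj.fin q φ)
        exact ⟨x, hw.1, fun _ => ⟨w, n, hw⟩⟩)
  obtain ⟨Nc, hNc, hNc'⟩ := exists_equivariant_elem (K := K)
    (P := fun q φ z => ∃ n : ℕ, z = (n : PadicAlgCl (q : ℕ)) ∧
      (¬ HasLocalRoot p φ a → ∃ w, IsWitness p φ a (j.fin q φ) (X q φ) w n))
    (fun q τ φ z => by
      rintro ⟨n, rfl, hn⟩
      refine ⟨n, map_natCast _ n, fun hr => ?_⟩
      obtain ⟨w, hw⟩ := hn (fun hr' => hr ((hasLocalRoot_postComp φ a τ).2 hr'))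
      rw [hX q τ φ]
      rw [show j.fin q (φ.postComp τ) = τ.onUnits (j.fin q φ) from j.2.1 q τ φ]
      exact ⟨τ w, hw.postComp τ⟩)
    (fun q φ => by
      by_cases hr : HasLocalRoot p φ a
      · exact ⟨((0 : ℕ) : PadicAlgCl (q : ℕ)), natCast_mem (completion φ) 0, 0, rfl,
          fun hr' => absurd hr hr'⟩
      · obtain ⟨w, n, hw⟩ := (hX' q φ).2 hr
        exact ⟨(n : PadicAlgCl (q : ℕ)), natCast_mem (completion φ) n, n, rfl, fun _ => ⟨w, hw⟩⟩)
  choose n hn hn' using fun q φ => (hNc' q φ).2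
  have hneq : ∀ q (τ : Gloc q) φ, n q (φ.postComp τ) = n q φ := fun q τ φ =>
    Nat.cast_injective (R := PadicAlgCl (q : ℕ)) (by rw [← hn, hNc, hn, map_natCast])
  obtain ⟨W, hW, hW'⟩ := exists_equivariant_units (K := K)
    (P := fun q φ u => ¬ HasLocalRoot p φ a →
      IsWitness p φ a (j.fin q φ) (X q φ) u.toField (n q φ))
    (fun q τ φ u hu hr => by
      rw [hX q τ φ, hneq q τ φ, QUnits.toField_onUnits]
      rw [show j.fin q (φ.postComp τ) = τ.onUnits (j.fin q φ) from j.2.1 q τ φ]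
      exact (hu (fun hr' => hr ((hasLocalRoot_postComp φ a τ).2 hr'))).postComp τ)
    (fun q φ => by
      by_cases hr : HasLocalRoot p φ a
      · exact ⟨0, zero_mem _, fun hr' => absurd hr hr'⟩
      · obtain ⟨w, hw⟩ := hn' q φ hr
        have hw0 : w ≠ 0 := fun e => (j.fin q φ).toField_ne_zero (by
          rw [hw.2.2.1, e, zero_pow hp.ne_zero, zero_mul])
        exact ⟨QUnits.mk w hw0, hw.2.1, fun _ => hw⟩)
  have hXb : ∀ (q : Nat.Primes) (ψ : Emb L q), ¬ HasLocalRoot p (ψ.comp (algebraMap K L)) a →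
      X q (ψ.comp (algebraMap K L)) - ψ b ≠ 0 := fun q ψ hr e => by
    refine hr ⟨_, (hX' q (ψ.comp (algebraMap K L))).1, ?_⟩
    rw [sub_eq_zero.1 e, ← map_pow, h.pow_eq]
    rfl
  -- archimedean choices
  obtain ⟨Ri, hRi, hRi'⟩ := exists_equivariant_inf (K := K)
    (P := fun ψ u => principalFamilyInf K a ψ ∈ infPowUnits ψ p → p • u = principalFamilyInf K a ψ)
    (fun ψ u hu hr => by
      have hc : conjUnits (principalFamilyInf K a ψ) =
          principalFamilyInf K a ((starRingEnd ℂ).comp ψ) := ((principalIdele K a).2.2.2 ψ).symm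
      rw [← map_nsmul, ← hc]
      refine congrArg conjUnits (hu ?_)
      obtain ⟨w, hw, hwe⟩ := hr
      refine ⟨conjUnits w, ?_, ?_⟩
      · have h1 := conjUnits_mem_infLocalUnits hw
        rwa [show (starRingEnd ℂ).comp ((starRingEnd ℂ).comp ψ) = ψ from
          RingHom.ext fun x => Complex.conj_conj _] at h1
      · rw [nsmulAddMonoidHom_apply] at hwe ⊢
        rw [← map_nsmul, hwe, ← hc, conjUnits_conjUnits])
    (fun ψ => by
      by_cases hr : principalFamilyInf K a ψ ∈ infPowUnits ψ p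
      · obtain ⟨u, hu, he⟩ := hr
        exact ⟨u, hu, fun _ => he⟩
      · exact ⟨0, zero_mem _, fun hr' => absurd hr' hr⟩)
  obtain ⟨Wi, hWi, hWi'⟩ := exists_equivariant_inf (K := K)
    (P := fun ψ u => j.inf ψ ∈ infPowUnits ψ p → p • u = j.inf ψ)
    (fun ψ u hu hr => by
      have hc : conjUnits (j.inf ψ) = j.inf ((starRingEnd ℂ).comp ψ) := (j.2.2.2 ψ).symm
      rw [← map_nsmul, ← hc]
      refine congrArg conjUnits (hu ?_)
      obtain ⟨w, hw, hwe⟩ := hr
      refine ⟨conjUnits w, ?_, ?_⟩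
      · have h1 := conjUnits_mem_infLocalUnits hw
        rwa [show (starRingEnd ℂ).comp ((starRingEnd ℂ).comp ψ) = ψ from
          RingHom.ext fun x => Complex.conj_conj _] at h1
      · rw [nsmulAddMonoidHom_apply] at hwe ⊢
        rw [← map_nsmul, hwe, ← hc, conjUnits_conjUnits])
    (fun ψ => by
      by_cases hr : j.inf ψ ∈ infPowUnits ψ p
      · obtain ⟨u, hu, he⟩ := hr
        exact ⟨u, hu, fun _ => he⟩
      · exact ⟨0, zero_mem _, fun hr' => absurd hr' hr⟩)
  have hinfiff : ∀ ψ : K →+* ℂ,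
      principalFamilyInf K a ((starRingEnd ℂ).comp ψ) ∈ infPowUnits ((starRingEnd ℂ).comp ψ) p ↔
        principalFamilyInf K a ψ ∈ infPowUnits ψ p := by
    have key : ∀ ψ : K →+* ℂ, principalFamilyInf K a ψ ∈ infPowUnits ψ p →
        principalFamilyInf K a ((starRingEnd ℂ).comp ψ) ∈
          infPowUnits ((starRingEnd ℂ).comp ψ) p := fun ψ => by
      rintro ⟨w, hw, hwe⟩
      refine ⟨conjUnits w, conjUnits_mem_infLocalUnits hw, ?_⟩
      rw [nsmulAddMonoidHom_apply] at hwe ⊢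
      rw [← map_nsmul, hwe]
      exact ((principalIdele K a).2.2.2 ψ).symm
    intro ψ
    refine ⟨fun hh => ?_, key ψ⟩
    have := key _ hh
    rwa [show (starRingEnd ℂ).comp ((starRingEnd ℂ).comp ψ) = ψ from
      RingHom.ext fun x => Complex.conj_conj _] at this
  -- the idele
  let vf : ∀ q : Nat.Primes, Emb L q → QUnits q := fun q ψ =>
    if hr : HasLocalRoot p (ψ.comp (algebraMap K L)) a then
      (if ψ b = R q (ψ.comp (algebraMap K L)) then j.fin q (ψ.comp (algebraMap K L)) else 0)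
    else W q (ψ.comp (algebraMap K L)) + n q (ψ.comp (algebraMap K L)) •
      QUnits.mk (X q (ψ.comp (algebraMap K L)) - ψ b) (hXb q ψ hr)
  let vi : (L →+* ℂ) → CUnits := fun ψ =>
    if principalFamilyInf K a (ψ.comp (algebraMap K L)) ∈ infPowUnits (ψ.comp (algebraMap K L)) p
    then (if ψ b = CUnits.toField (Ri (ψ.comp (algebraMap K L))) then
      j.inf (ψ.comp (algebraMap K L)) else 0)
    else Wi (ψ.comp (algebraMap K L))
  have hveq : ∀ q (τ : Gloc q) (ψ : Emb L q), vf q (ψ.postComp τ) = τ.onUnits (vf q ψ) := by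
    intro q τ ψ
    have hcomp : (ψ.postComp τ).comp (algebraMap K L) = Emb.postComp τ (ψ.comp (algebraMap K L) : Emb K q) := rfl
    simp only [vf]
    by_cases hr : HasLocalRoot p (ψ.comp (algebraMap K L)) a
    · rw [dif_pos hr, dif_pos (by rw [hcomp]; exact (hasLocalRoot_postComp _ a τ).2 hr)]
      rw [hcomp, hR]
      by_cases he : ψ b = R q (ψ.comp (algebraMap K L))
      · rw [if_pos he, if_pos (by rw [Emb.postComp_apply, he])]
        exact j.2.1 q τ _
      · rw [if_neg he, if_neg (fun (e : (ψ.postComp τ) b = τ (R q (ψ.comp (algebraMap K L)))) => he (τ.injective e)),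
          map_zero]
    · rw [dif_neg hr, dif_neg (by rw [hcomp]; exact fun e => hr ((hasLocalRoot_postComp _ a τ).1 e))]
      refine QUnits.toField_injective ?_
      rw [map_add, map_nsmul]
      simp only [QUnits.toField_add, QUnits.toField_nsmul, QUnits.toField_onUnits,
        QUnits.toField_mk, hcomp, hW, hX, hneq, map_sub]
      rfl
  have hfinite : {q : Nat.Primes | ∃ ψ : Emb L q, vf q ψ ∉ QUnits.unitGroup q}.Finite := by
    refine ((Set.finite_singleton (⟨p, hp⟩ : Nat.Primes)).union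
      (j.2.2.1.union (finite_setOf_norm_ne_one (L := K) a.val.ne_zero))).subset ?_
    intro q hq
    obtain ⟨ψ, hψ⟩ := hq
    by_contra hcon
    have hqp : q ≠ (⟨p, hp⟩ : Nat.Primes) := fun e => hcon (Or.inl e)
    have hju : ∀ φ : Emb K q, j.fin q φ ∈ QUnits.unitGroup q := fun φ =>
      not_not.1 fun e => hcon (Or.inr (Or.inl ⟨φ, e⟩))
    have hau : ∀ φ : Emb K q, ‖φ (a.val : K)‖ = 1 := fun φ =>
      not_not.1 fun e => hcon (Or.inr (Or.inr ⟨φ, e⟩))
    set φ := ψ.comp (algebraMap K L) with hφ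
    have hjφ := hju φ
    have haφ := hau φ
    refine hψ ?_
    simp only [vf]
    by_cases hr : HasLocalRoot p φ a
    · rw [dif_pos hr]
      split
      · exact hjφ
      · exact zero_mem _
    · rw [dif_neg hr]
      obtain ⟨hx, hw, he, hu⟩ := (hW' q φ).2 hr
      obtain ⟨hw1, hx1, hxa⟩ := hu (fun e => hqp (Subtype.ext e)) haφ
        ((QUnits.mem_unitGroup_iff _).1 hjφ)
      refine add_mem ((QUnits.mem_unitGroup_iff _).2 hw1) (AddSubgroup.nsmul_mem _ ?_ _)
      refine (QUnits.mem_unitGroup_iff (q := q) _).2 ?_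
      show ‖X q φ - ψ b‖ = 1
      have hζψ := hζ.map_of_injective (f := φ) φ.injective
      have hb1 : ‖ψ b‖ = 1 := by
        rw [← pow_eq_one_iff_of_nonneg (norm_nonneg _) hp.ne_zero, ← norm_pow, ← map_pow, h.pow_eq]
        exact haφ
      have hle : ∀ i : Fin p, ‖X q φ - φ ζ ^ (i : ℕ) * ψ b‖ ≤ 1 := fun i => by
        rw [sub_eq_add_neg]
        refine (IsUltrametricDist.norm_add_le_max _ _).trans (max_le hx1 ?_)
        rw [norm_neg, norm_mul, norm_pow, hb1, mul_one]
        refine le_of_eq ?_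
        rw [(pow_eq_one_iff_of_nonneg (norm_nonneg _) hp.ne_zero).1
          (by rw [← norm_pow, hζψ.pow_eq_one, norm_one]), one_pow]
      have hprod : ∏ i : Fin p, ‖X q φ - φ ζ ^ (i : ℕ) * ψ b‖ = 1 := by
        rw [← norm_prod, prod_sub_pow_mul hζψ, ← map_pow ψ, h.pow_eq]
        exact hxa
      rw [← Finset.mul_prod_erase _ _ (Finset.mem_univ (⟨0, hp.pos⟩ : Fin p))] at hprod
      have h0 := hle ⟨0, hp.pos⟩
      have hrest : ∏ i ∈ Finset.univ.erase (⟨0, hp.pos⟩ : Fin p),
          ‖X q φ - φ ζ ^ (i : ℕ) * ψ b‖ ≤ 1 :=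
        Finset.prod_le_one (fun i _ => norm_nonneg _) (fun i _ => hle i)
      have hge : 1 ≤ ‖X q φ - φ ζ ^ ((⟨0, hp.pos⟩ : Fin p) : ℕ) * ψ b‖ := by
        refine le_trans hprod.ge ?_
        exact mul_le_of_le_one_right (norm_nonneg _) hrest
      simpa using le_antisymm h0 hge
  have hviq : ∀ ψ : L →+* ℂ, vi ((starRingEnd ℂ).comp ψ) = conjUnits (vi ψ) := by
    intro ψ
    have hcomp : ((starRingEnd ℂ).comp ψ).comp (algebraMap K L) =
        (starRingEnd ℂ).comp (ψ.comp (algebraMap K L)) := rfl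
    simp only [vi, hcomp, hinfiff]
    by_cases hr : principalFamilyInf K a (ψ.comp (algebraMap K L)) ∈
        infPowUnits (ψ.comp (algebraMap K L)) p
    · rw [if_pos hr, if_pos hr, hRi]
      by_cases he : ψ b = CUnits.toField (Ri (ψ.comp (algebraMap K L)))
      · rw [if_pos he, if_pos (by rw [CUnits.toField_conjUnits, ← he]; rfl)]
        exact j.2.2.2 _
      · rw [if_neg he, if_neg, map_zero]
        rw [CUnits.toField_conjUnits]
        exact fun e => he ((starRingEnd ℂ).injective e)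
    · rw [if_neg hr, if_neg hr]
      exact hWi _
  let f : Idele L := ⟨(vf, vi), hveq, hfinite, hviq⟩
  have hf : f ∈ fixedPts H' (Idele L) := by
    rintro ⟨g, hg⟩
    obtain ⟨hgH, hgb⟩ := (h.mem_iff g).1 hg
    show g • f = f
    refine idele_ext (fun q ψ => ?_) (fun ψ => ?_)
    · have h1 : (ψ.preComp g).comp (algebraMap K L) = ψ.comp (algebraMap K L) :=
        RingHom.ext fun x => congrArg ψ ((h.fixing g).1 hgH x)
      have h2 : ψ.preComp g b = ψ b := congrArg ψ hgb
      show (vf q (ψ.preComp g)).toField = (vf q ψ).toField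
      simp only [vf]
      by_cases hr : HasLocalRoot p (ψ.comp (algebraMap K L)) a
      · rw [dif_pos (by rw [h1]; exact hr), dif_pos hr, h1, h2]
      · rw [dif_neg (by rw [h1]; exact hr), dif_neg hr]
        simp only [QUnits.toField_add, QUnits.toField_nsmul, QUnits.toField_mk, h1, h2]
    · have h1 : (ψ.comp (g : L →+* L)).comp (algebraMap K L) = ψ.comp (algebraMap K L) :=
        RingHom.ext fun x => congrArg ψ ((h.fixing g).1 hgH x)
      have h2 : ψ.comp (g : L →+* L) b = ψ b := congrArg ψ hgb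
      show CUnits.toField (vi (ψ.comp (g : L →+* L))) = CUnits.toField (vi ψ)
      simp only [vi, h1, h2]
  obtain ⟨g, hg, hgb⟩ := h.exists_gen
  refine ⟨f, hf, ?_⟩
  rw [RelNorm.eq_finsum_of_bijective hf _ (h.bijective hg hgb), finsum_eq_sum_of_fintype]
  have hcoe : ∀ i : Fin p, ((((⟨g, hg⟩ : H) ^ (i : ℕ) : H)) : L ≃ₐ[ℚ] L) = g ^ (i : ℕ) :=
    fun i => by simp
  simp only [hcoe]
  refine idele_ext (fun q ψ => ?_) (fun ψ => ?_)
  · let F : Idele L →+ QUnits q :=
      { toFun := fun x => x.fin q ψ, map_zero' := rfl, map_add' := fun _ _ => rfl }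
    refine congrArg QUnits.toField (?_ : F _ = j.fin q (ψ.comp (algebraMap K L)))
    rw [map_sum]
    set φ := ψ.comp (algebraMap K L) with hφ
    have hζψ := hζ.map_of_injective (f := φ) φ.injective
    have h1 : ∀ i : ℕ, (ψ.preComp (g ^ i)).comp (algebraMap K L) = φ := fun i =>
      RingHom.ext fun x => congrArg ψ ((h.fixing _).1 (pow_mem hg i) x)
    have h2 : ∀ i : ℕ, ψ.preComp (g ^ i) b = φ ζ ^ i * ψ b := fun i => by
      show ψ ((g ^ i) b) = _
      rw [hgb, map_mul, map_pow]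
      rfl
    by_cases hr : HasLocalRoot p φ a
    · have hterm : ∀ i : Fin p, F (g ^ (i : ℕ) • f) =
          if φ ζ ^ (i : ℕ) * ψ b = R q φ then j.fin q φ else 0 := fun i => by
        show vf q (ψ.preComp (g ^ (i : ℕ))) = _
        simp only [vf]
        rw [dif_pos (by rw [h1]; exact hr), h1, h2]
      rw [Finset.sum_congr rfl fun i _ => hterm i]
      obtain ⟨i₀, hi₀, huniq⟩ := existsUnique_pow_mul_eq hζψ
        ((map_ne_zero ψ).2 hb) (R := R q φ) (by rw [(hR' q φ).2 hr, ← map_pow, h.pow_eq]; rfl)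
      rw [Finset.sum_eq_single i₀ (fun i _ hi => if_neg fun e => hi (huniq i e))
        (fun e => absurd (Finset.mem_univ _) e), if_pos hi₀]
    · have hne : ∀ i : Fin p, X q φ - φ ζ ^ (i : ℕ) * ψ b ≠ 0 := fun i => by
        rw [← h2 i]
        have := hXb q (ψ.preComp (g ^ (i : ℕ))) (by rw [h1]; exact hr)
        rwa [h1] at this
      refine QUnits.toField_injective ?_
      have hterm : ∀ i : Fin p, (F (g ^ (i : ℕ) • f)).toField =
          (W q φ).toField * (X q φ - φ ζ ^ (i : ℕ) * ψ b) ^ n q φ := fun i => by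
        show (vf q (ψ.preComp (g ^ (i : ℕ)))).toField = _
        simp only [vf]
        rw [dif_neg (by rw [h1]; exact hr)]
        simp only [QUnits.toField_add, QUnits.toField_nsmul, QUnits.toField_mk, h1, h2]
      have htf : ∀ (s : Finset (Fin p)) (u : Fin p → QUnits q),
          (∑ i ∈ s, u i).toField = ∏ i ∈ s, (u i).toField := fun s u => by
        simp [QUnits.toField, toMul_sum, Units.coe_prod]
      rw [htf, Finset.prod_congr rfl fun i _ => hterm i, Finset.prod_mul_distrib,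
        Finset.prod_const, Finset.prod_pow, prod_sub_pow_mul hζψ, Finset.card_univ,
        Fintype.card_fin, ((hW' q φ).2 hr).2.2.1, ← map_pow ψ, h.pow_eq]
      rfl
  · let F : Idele L →+ CUnits :=
      { toFun := fun x => x.inf ψ, map_zero' := rfl, map_add' := fun _ _ => rfl }
    refine congrArg CUnits.toField (?_ : F _ = j.inf (ψ.comp (algebraMap K L)))
    rw [map_sum]
    set φ := ψ.comp (algebraMap K L) with hφ
    have hζψ := hζ.map_of_injective (f := φ) φ.injective
    have h1 : ∀ i : ℕ, (ψ.comp ((g ^ i : L ≃ₐ[ℚ] L) : L →+* L)).comp (algebraMap K L) = φ :=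
      fun i => RingHom.ext fun x => congrArg ψ ((h.fixing _).1 (pow_mem hg i) x)
    have h2 : ∀ i : ℕ, ψ.comp ((g ^ i : L ≃ₐ[ℚ] L) : L →+* L) b = φ ζ ^ i * ψ b := fun i => by
      show ψ ((g ^ i) b) = _
      rw [hgb, map_mul, map_pow]
      rfl
    by_cases hr : principalFamilyInf K a φ ∈ infPowUnits φ p
    · have hterm : ∀ i : Fin p, F (g ^ (i : ℕ) • f) =
          if φ ζ ^ (i : ℕ) * ψ b = CUnits.toField (Ri φ) then j.inf φ else 0 := fun i => by
        show vi (ψ.comp ((g ^ (i : ℕ) : L ≃ₐ[ℚ] L) : L →+* L)) = _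
        simp only [vi, h1, h2, if_pos hr]
      rw [Finset.sum_congr rfl fun i _ => hterm i]
      obtain ⟨i₀, hi₀, huniq⟩ := existsUnique_pow_mul_eq hζψ
        ((map_ne_zero ψ).2 hb) (R := CUnits.toField (Ri φ)) (by
          have := congrArg CUnits.toField ((hRi' φ).2 hr)
          rw [toField_principalFamilyInf] at this
          rw [← map_pow ψ, h.pow_eq]
          refine Eq.trans ?_ this
          simp [CUnits.toField])
      rw [Finset.sum_eq_single i₀ (fun i _ hi => if_neg fun e => hi (huniq i e))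
        (fun e => absurd (Finset.mem_univ _) e), if_pos hi₀]
    · have hterm : ∀ i : Fin p, F (g ^ (i : ℕ) • f) = Wi φ := fun i => by
        show vi (ψ.comp ((g ^ (i : ℕ) : L ≃ₐ[ℚ] L) : L →+* L)) = _
        simp only [vi, h1, if_neg hr]
      rw [Finset.sum_congr rfl fun i _ => hterm i, Finset.sum_const, Finset.card_univ,
        Fintype.card_fin]
      exact (hWi' φ).2 ((hj.inf φ).resolve_left hr)

end FermatLib.CFT
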