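import Fermat.Agent.CFT.SecondPlace

/-!
Local facts for the second inequality: `p`-th powers and units in the completions.
-/

set_option autoImplicit false
set_option linter.unusedSectionVars false

open NumberField IntermediateField

namespace FermatLib.CFT

variable {K : Type} [Field K] [NumberField K] {q : Nat.Primes} {p : ℕ} [Fact p.Prime]

theorem QUnits.toField_nsmul (n : ℕ) (x : QUnits q) : (n • x).toField = x.toField ^ n := by
  simp [QUnits.toField]

/-- Make an element of `QUnits q`. -/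
noncomputable def QUnits.mk (z : PadicAlgCl (q : ℕ)) (hz : z ≠ 0) : QUnits q :=
  Additive.ofMul (Units.mk0 z hz)

@[simp] theorem QUnits.toField_mk (z : PadicAlgCl (q : ℕ)) (hz : z ≠ 0) :
    (QUnits.mk z hz).toField = z := rfl

theorem Gloc.onUnits_mem_unitGroup (τ : Gloc q) {z : QUnits q} (hz : z ∈ QUnits.unitGroup q) :
    τ.onUnits z ∈ QUnits.unitGroup q := by
  rw [QUnits.mem_unitGroup_iff] at hz ⊢
  exact (Loc.norm_gloc τ z.toField).trans hz

/-- The `p`-th powers in the completion. -/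
noncomputable def Emb.powUnits (φ : Emb K q) (p : ℕ) : AddSubgroup (QUnits q) :=
  φ.localUnits.map (nsmulAddMonoidHom p)

theorem Emb.mem_powUnits (φ : Emb K q) (z : QUnits q) :
    z ∈ φ.powUnits p ↔ ∃ w ∈ φ.localUnits, p • w = z := Iff.rfl

theorem Emb.mem_powUnits_iff_elem (φ : Emb K q) (z : QUnits q) :
    z ∈ φ.powUnits p ↔ ∃ y ∈ (completion φ), y ^ p = z.toField := by
  rw [φ.mem_powUnits]
  constructor
  · rintro ⟨w, hw, rfl⟩
    exact ⟨w.toField, hw, (QUnits.toField_nsmul p w).symm⟩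
  · rintro ⟨y, hy, he⟩
    have hy0 : y ≠ 0 := fun h => z.toField_ne_zero (by
      rw [← he, h, zero_pow (Fact.out : p.Prime).ne_zero])
    exact ⟨QUnits.mk y hy0, hy, QUnits.toField_injective (by rw [QUnits.toField_nsmul]; exact he)⟩

theorem Emb.onUnits_mem_powUnits (φ : Emb K q) (τ : Gloc q) {z : QUnits q}
    (hz : z ∈ φ.powUnits p) : τ.onUnits z ∈ (φ.postComp τ).powUnits p := by
  obtain ⟨w, hw, rfl⟩ := hz
  exact ⟨τ.onUnits w, φ.onUnits_mem_localUnits τ hw, by simp [map_nsmul]⟩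

/-- A root of unity congruent to `1` of order prime to `q` is `1`. -/
theorem eq_one_of_pow_eq_one_of_norm_sub_lt (hqp : (q : ℕ) ≠ p) {ξ : PadicAlgCl (q : ℕ)}
    (hξ : ξ ^ p = 1) (hlt : ‖ξ - 1‖ < 1) : ξ = 1 := by
  by_contra hne
  have hnorm : ‖ξ‖ = 1 := by
    have := congrArg norm hξ
    rwa [norm_pow, norm_one, pow_eq_one_iff_of_nonneg (norm_nonneg _) (Fact.out : p.Prime).ne_zero]
      at this
  have hsum : (∑ i ∈ Finset.range p, ξ ^ i) = 0 := by
    have := geom_sum_mul ξ p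
    rw [hξ, sub_self] at this
    exact (mul_eq_zero.1 this).resolve_right (sub_ne_zero.2 hne)
  have hp1 : ‖((p : ℕ) : PadicAlgCl (q : ℕ))‖ = 1 := by
    rw [← map_natCast (algebraMap ℚ_[(q : ℕ)] (PadicAlgCl (q : ℕ))), norm_algebraMap']
    exact Padic.norm_natCast_eq_one_iff.2 ((Nat.coprime_primes q.2 Fact.out).2 hqp)
  have hlt' : ‖∑ i ∈ Finset.range p, (ξ ^ i - 1)‖ < 1 := by
    obtain ⟨i, -, hi⟩ := IsUltrametricDist.exists_norm_finsetSum_le
      (Finset.range p) (fun i => ξ ^ i - 1)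
    refine lt_of_le_of_lt hi ?_
    have h : ‖∑ j ∈ Finset.range i, ξ ^ j‖ ≤ 1 :=
      IsUltrametricDist.norm_sum_le_of_forall_le_of_nonneg zero_le_one fun j _ => by
        rw [norm_pow, hnorm, one_pow]
    rw [← geom_sum_mul, norm_mul]
    exact lt_of_le_of_lt (mul_le_of_le_one_left (norm_nonneg _) h) hlt
  rw [Finset.sum_sub_distrib, hsum, Finset.sum_const, Finset.card_range, nsmul_one, zero_sub,
    norm_neg, hp1] at hlt'
  exact lt_irrefl _ hlt'

/-- Principal units are `p`-th powers in the completion, for `q ≠ p`. -/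
theorem Emb.exists_pow_eq_of_norm_sub_one_lt (hqp : (q : ℕ) ≠ p) (φ : Emb K q)
    {u : PadicAlgCl (q : ℕ)} (hu : u ∈ (completion φ)) (hlt : ‖u - 1‖ < 1) :
    ∃ w ∈ (completion φ), w ^ p = u ∧ ‖w - 1‖ < 1 := by
  classical
  obtain ⟨w, hwp, hw⟩ : ∃ w : PadicAlgCl (q : ℕ), w ^ p = u ∧ ‖w - 1‖ < 1 := by
    let f : Polynomial (PadicAlgCl (q : ℕ)) := Polynomial.X ^ p - Polynomial.C u
    have hsplit : f.Splits := IsAlgClosed.splits f
    have hmonic : f.Monic := Polynomial.monic_X_pow_sub_C u (Fact.out : p.Prime).ne_zero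
    have heval : f.eval 1 = 1 - u := by simp [f]
    rw [hsplit.eq_prod_roots_of_monic hmonic, Polynomial.eval_multiset_prod,
      Multiset.map_map] at heval
    by_contra hcon
    push Not at hcon
    have hge : 1 ≤ ‖((f.roots.map ((fun g : Polynomial (PadicAlgCl (q : ℕ)) => g.eval 1) ∘
        fun a => Polynomial.X - Polynomial.C a))).prod‖ := by
      refine Multiset.prod_induction (fun x : PadicAlgCl (q : ℕ) => 1 ≤ ‖x‖) _
        (fun a b ha hb => by rw [norm_mul]; nlinarith) (by simp) ?_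
      intro x hx
      simp only [Multiset.mem_map, Function.comp_apply, Polynomial.eval_sub, Polynomial.eval_X,
        Polynomial.eval_C] at hx
      obtain ⟨w, hw, rfl⟩ := hx
      rw [norm_sub_rev]
      refine hcon w ?_
      have h0 := (Polynomial.mem_roots hmonic.ne_zero).1 hw
      simpa [f, Polynomial.IsRoot, sub_eq_zero] using h0
    rw [heval, norm_sub_rev] at hge
    exact absurd hlt (not_lt.2 hge)
  refine ⟨w, φ.mem_completion_of_fixed fun τ hτ => ?_, hwp, hw⟩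
  have hfix : τ u = u := (φ.postComp_eq_self_iff τ).1 hτ u hu
  have hw1 : ‖w‖ = 1 := by
    have := IsUltrametricDist.norm_add_eq_max_of_norm_ne_norm (x := w - 1) (y := 1)
      (by rw [norm_one]; exact hw.ne)
    rwa [sub_add_cancel, norm_one, max_eq_right hw.le] at this
  have hw0 : w ≠ 0 := norm_ne_zero_iff.1 (by rw [hw1]; exact one_ne_zero)
  have h1 : (τ w / w) ^ p = 1 := by
    rw [div_pow, ← map_pow, hwp, hfix, div_self]
    rw [← hwp]
    exact pow_ne_zero _ hw0
  have h2 : ‖τ w / w - 1‖ < 1 := by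
    rw [div_sub_one hw0, norm_div, hw1, div_one]
    have e : τ w - w = τ (w - 1) + (1 - w) := by rw [map_sub, map_one]; ring
    rw [e]
    refine lt_of_le_of_lt (IsUltrametricDist.norm_add_le_max _ _) (max_lt ?_ ?_)
    · rwa [Loc.norm_gloc]
    · rwa [norm_sub_rev]
  exact (div_eq_one_iff_eq hw0).1 (eq_one_of_pow_eq_one_of_norm_sub_lt hqp h1 h2)

/-- Near a `p`-th power of a unit is a `p`-th power. -/
theorem Emb.exists_pow_eq_of_norm_sub_lt (hqp : (q : ℕ) ≠ p) (φ : Emb K q)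
    {y w : PadicAlgCl (q : ℕ)} (hy : y ∈ (completion φ)) (hw : w ∈ (completion φ)) (hw1 : ‖w‖ = 1)
    (h : ‖y - w ^ p‖ < 1) : ∃ v ∈ (completion φ), v ^ p = y := by
  have hw0 : w ≠ 0 := norm_ne_zero_iff.1 (by rw [hw1]; exact one_ne_zero)
  have hwp : w ^ p ≠ 0 := pow_ne_zero _ hw0
  obtain ⟨v, hv, hvp, -⟩ := φ.exists_pow_eq_of_norm_sub_one_lt hqp
    (u := y / w ^ p) (div_mem hy (pow_mem hw p)) (by
      rw [div_sub_one hwp, norm_div, norm_pow, hw1, one_pow, div_one]; exact h)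
  exact ⟨v * w, mul_mem hv hw, by rw [mul_pow, hvp, div_mul_cancel₀ _ hwp]⟩

/-- A unit which is not a `p`-th power differs from a `p`-th power by a nonpower unit. -/
theorem Emb.exists_sub_notPow (hqp : (q : ℕ) ≠ p) (φ : Emb K q) {a : PadicAlgCl (q : ℕ)}
    (ha : a ∈ (completion φ)) (ha1 : ‖a‖ = 1) (hnp : ¬ ∃ y ∈ (completion φ), y ^ p = a) :
    ∃ x ∈ (completion φ), ‖x‖ ≤ 1 ∧ ‖x ^ p - a‖ = 1 ∧
      ¬ ∃ y ∈ (completion φ), y ^ p = x ^ p - a := by
  by_contra hcon
  push Not at hcon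
  have hp0 : p ≠ 0 := (Fact.out : p.Prime).ne_zero
  have hstep : ∀ k : ℕ, ∃ w ∈ (completion φ), ‖w‖ ≤ 1 ∧ ‖-((k : PadicAlgCl (q : ℕ)) * a) - w ^ p‖ < 1 := by
    intro k
    induction k with
    | zero => exact ⟨0, zero_mem (completion φ), by simp, by simp [zero_pow hp0]⟩
    | succ k ih =>
      obtain ⟨w, hw, hw1, hlt⟩ := ih
      have e : -(((k + 1 : ℕ) : PadicAlgCl (q : ℕ)) * a) =
          (-((k : PadicAlgCl (q : ℕ)) * a) - w ^ p) + (w ^ p - a) := by push_cast; ring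
      by_cases h1 : ‖w ^ p - a‖ = 1
      · obtain ⟨y, hy, hyp⟩ := hcon w hw hw1 h1
        refine ⟨y, hy, ?_, by rwa [e, hyp, add_sub_cancel_right]⟩
        exact le_of_eq ((pow_eq_one_iff_of_nonneg (norm_nonneg _) hp0).1
          (by rw [← norm_pow, hyp, h1]))
      · refine ⟨0, zero_mem (completion φ), by simp, ?_⟩
        rw [zero_pow hp0, sub_zero, e]
        refine lt_of_le_of_lt (IsUltrametricDist.norm_add_le_max _ _) (max_lt hlt ?_)
        refine lt_of_le_of_ne ?_ h1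
        rw [sub_eq_add_neg]
        refine (IsUltrametricDist.norm_add_le_max _ _).trans (max_le ?_ ?_)
        · rw [norm_pow]; exact pow_le_one₀ (norm_nonneg _) hw1
        · rw [norm_neg, ha1]
  obtain ⟨w, hw, hw1, hlt⟩ := hstep ((q : ℕ) - 1)
  have hq : ‖((q : ℕ) : PadicAlgCl (q : ℕ))‖ < 1 := by
    rw [← map_natCast (algebraMap ℚ_[(q : ℕ)] (PadicAlgCl (q : ℕ))), norm_algebraMap',
      Padic.norm_p]
    exact inv_lt_one_of_one_lt₀ (by exact_mod_cast q.2.one_lt)
  have hlt' : ‖a - w ^ p‖ < 1 := by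
    have e : a - w ^ p = (-((((q : ℕ) - 1 : ℕ) : PadicAlgCl (q : ℕ)) * a) - w ^ p) +
        ((q : ℕ) : PadicAlgCl (q : ℕ)) * a := by
      rw [Nat.cast_sub q.2.one_le]; push_cast; ring
    rw [e]
    refine lt_of_le_of_lt (IsUltrametricDist.norm_add_le_max _ _) (max_lt hlt ?_)
    rwa [norm_mul, ha1, mul_one]
  have hwn : ‖w‖ = 1 := by
    refine (pow_eq_one_iff_of_nonneg (norm_nonneg _) hp0).1 ?_
    have := IsUltrametricDist.norm_add_eq_max_of_norm_ne_norm (x := -(a - w ^ p)) (y := a)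
      (by rw [norm_neg, ha1]; exact hlt'.ne)
    rw [← norm_pow, show w ^ p = -(a - w ^ p) + a by ring, this, norm_neg, ha1, max_eq_right hlt'.le]
  exact hnp (φ.exists_pow_eq_of_norm_sub_lt hqp ha hw hwn hlt')

end FermatLib.CFT
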