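import Fermat.Agent.CFT.SecondKummer
import Fermat.Agent.CFT.FirstMain

/-!
Norm class groups of Kummer extensions; existence of Galois fields containing given roots.
-/

set_option autoImplicit false
set_option linter.unusedSectionVars false

open NumberField

namespace FermatLib.CFT

variable {p : ℕ} [Fact p.Prime]

section

variable {K : Type} [Field K] [NumberField K]
  {L : Type} [Field L] [NumberField L] [Algebra K L]
  {H' H : Subgroup (L ≃ₐ[ℚ] L)} {ζ : K} {a : LUnits K} {b : L}

theorem IsKummerStep.normal (h : IsKummerStep p H' H ζ a b) : (H'.subgroupOf H).Normal := by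
  refine ⟨fun x hx g => ?_⟩
  rw [Subgroup.mem_subgroupOf] at hx ⊢
  obtain ⟨-, hxb⟩ := (h.mem_iff _).1 hx
  refine (h.mem_iff _).2 ⟨(g * x * g⁻¹).2, ?_⟩
  obtain ⟨j, -, hgb⟩ := h.exists_conj (g⁻¹).2
  simp only [Subgroup.coe_mul, Subgroup.coe_inv, AlgEquiv.mul_apply] at hgb ⊢
  rw [hgb, map_mul, map_pow, (h.fixing _).1 x.2, hxb, ← hgb]
  exact (g : L ≃ₐ[ℚ] L).apply_symm_apply b

theorem IsKummerStep.relIndex_eq (h : IsKummerStep p H' H ζ a b) : H'.relIndex H = p := by
  obtain ⟨g, hg, hgb⟩ := h.exists_gen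
  show Nat.card (H ⧸ H'.subgroupOf H) = p
  rw [← Nat.card_congr (Equiv.ofBijective _ (h.bijective hg hgb)), Nat.card_fin]

variable [IsGalois ℚ L]

/-- Every class fixed by `Gal(L/K)` comes from `K`. -/
theorem exists_classBaseChange_eq (hfix : ∀ g : L ≃ₐ[ℚ] L, g ∈ H ↔
      ∀ x : K, g (algebraMap K L x) = algebraMap K L x)
    {c : IdeleClass L} (hc : c ∈ fixedPts H (IdeleClass L)) :
    ∃ d : IdeleClass K, classBaseChange K L d = c := by
  obtain ⟨f, hf, rfl⟩ := exists_fixed_idele_of_fixed_class L H hc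
  obtain ⟨j, rfl⟩ := mem_range_ideleBaseChange (L := K) (f := f)
    (fun g hg => hf ⟨g, (hfix g).2 hg⟩)
  exact ⟨QuotientAddGroup.mk j, classBaseChange_mk j⟩

variable (L) in
/-- The classes of `K` that are relative norms in `L`. -/
noncomputable def normClasses (H' H : Subgroup (L ≃ₐ[ℚ] L)) : AddSubgroup (IdeleClass K) where
  carrier := {c | classBaseChange K L c ∈ relNormSet (IdeleClass L) H' H}
  zero_mem' := ⟨0, zero_mem _, by rw [map_zero, RelNorm.zero']⟩
  add_mem' := by
    rintro x y ⟨u, hu, hue⟩ ⟨v, hv, hve⟩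
    exact ⟨u + v, add_mem hu hv, by rw [map_add, RelNorm.add', hue, hve]⟩
  neg_mem' := by
    rintro x ⟨u, hu, hue⟩
    refine ⟨-u, neg_mem hu, ?_⟩
    rw [map_neg, ← hue, eq_neg_iff_add_eq_zero, ← RelNorm.add', neg_add_cancel, RelNorm.zero']

theorem mem_normClasses_iff {c : IdeleClass K} :
    c ∈ normClasses L H' H ↔ classBaseChange K L c ∈ relNormSet (IdeleClass L) H' H := Iff.rfl

theorem IsKummerStep.isKummerNormGroup (h : IsKummerStep p H' H ζ a b) :
    IsKummerNormGroup p a (normClasses (K := K) L H' H) where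
  good j hj := by
    obtain ⟨f, hf, he⟩ := h.exists_norm hj
    refine mem_normClasses_iff.2 ⟨QuotientAddGroup.mk f, ?_, ?_⟩
    · intro g
      exact congrArg (QuotientAddGroup.mk (s := principalIdeles L)) (hf g)
    · rw [classBaseChange_mk, ← he]
      exact (RelNorm.map' (B := IdeleClass L) (QuotientAddGroup.mk' (principalIdeles L))
        (fun (g : L ≃ₐ[ℚ] L) (x : Idele L) => rfl) H' H f).symm
  ne_top htop := by
    have := h.normal
    obtain ⟨c, hc, hnc⟩ := ideleClass_exists_not_norm L H' H h.le h.relIndex_eq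
    obtain ⟨d, rfl⟩ := exists_classBaseChange_eq h.fixing hc
    exact hnc (mem_normClasses_iff.1 (htop ▸ AddSubgroup.mem_top d))

end

variable {K : Type} [Field K] [NumberField K]

/-- A finite Galois extension of `ℚ` containing `K` and given roots. -/
theorem exists_galois_with_roots (s : Finset K) :
    ∃ (L : Type) (_ : Field L) (_ : NumberField L) (_ : IsGalois ℚ L) (_ : Algebra K L),
      ∀ x ∈ s, ∃ y : L, y ^ p = algebraMap K L x := by
  classical
  let Ω := AlgebraicClosure K
  choose r hr using fun x : K =>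
    IsAlgClosed.exists_pow_nat_eq (algebraMap K Ω x) (Fact.out : p.Prime).pos
  have : Algebra.IsAlgebraic ℚ Ω := Algebra.IsAlgebraic.trans ℚ K Ω
  have : Normal ℚ Ω := by
    have : IsAlgClosure ℚ Ω := ⟨inferInstance, inferInstance⟩
    exact IsAlgClosure.normal ℚ Ω
  let e : K →ₐ[ℚ] Ω := IsScalarTower.toAlgHom ℚ K Ω
  let M : IntermediateField ℚ Ω := e.fieldRange ⊔ IntermediateField.adjoin ℚ (r '' (s : Set K))
  have : FiniteDimensional ℚ e.fieldRange :=
    LinearEquiv.finiteDimensional (AlgEquiv.ofInjectiveField e).toLinearEquiv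
  have : Finite (r '' (s : Set K)) := (s.finite_toSet.image r).to_subtype
  have : FiniteDimensional ℚ (IntermediateField.adjoin ℚ (r '' (s : Set K))) :=
    IntermediateField.finiteDimensional_adjoin fun x _ =>
      (Algebra.IsAlgebraic.isAlgebraic x).isIntegral
  have : FiniteDimensional ℚ M := IntermediateField.finiteDimensional_sup _ _
  let N : IntermediateField ℚ Ω := IntermediateField.normalClosure ℚ M Ω
  have hMN : M ≤ N := M.le_normalClosure
  have : Normal ℚ N := normalClosure.normal ℚ M Ω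
  have : FiniteDimensional ℚ N := normalClosure.is_finiteDimensional ℚ M Ω
  let f : K →+* N :=
    (e : K →+* Ω).codRestrict N fun x => hMN (le_sup_left (a := e.fieldRange) ⟨x, rfl⟩)
  refine ⟨N, inferInstance, ⟨⟩, ⟨⟩, f.toAlgebra, fun x hx => ⟨⟨r x, hMN ?_⟩, ?_⟩⟩
  · exact le_sup_right (b := IntermediateField.adjoin ℚ (r '' (s : Set K)))
      (IntermediateField.subset_adjoin _ _ ⟨x, hx, rfl⟩)
  · exact Subtype.ext (hr x)

theorem exists_ne_zero_root {L : Type} [Field L] [Algebra K L] {a : LUnits K} {y : L}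
    (h : y ^ p = algebraMap K L a.val) : y ≠ 0 := fun e => a.val.ne_zero
  ((map_eq_zero (algebraMap K L)).1 (by rw [← h, e, zero_pow (Fact.out : p.Prime).ne_zero]))

/-- The fixer of `K` in `L`. -/
def fixerSubgroup (K L : Type) [Field K] [Field L] [Algebra ℚ L] [Algebra K L] :
    Subgroup (L ≃ₐ[ℚ] L) where
  carrier := {g | ∀ x : K, g (algebraMap K L x) = algebraMap K L x}
  one_mem' := fun _ => rfl
  mul_mem' := fun {g h} hg hh x => by rw [AlgEquiv.mul_apply, hh x, hg x]
  inv_mem' := fun {g} hg x => by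
    rw [AlgEquiv.aut_inv, AlgEquiv.symm_apply_eq, hg x]

/-- The stabiliser of an element. -/
def elementFixer {L : Type} [Field L] [Algebra ℚ L] (b : L) : Subgroup (L ≃ₐ[ℚ] L) where
  carrier := {g | g b = b}
  one_mem' := rfl
  mul_mem' := fun {g h} hg hh => by
    show (g * h) b = b
    rw [AlgEquiv.mul_apply, show h b = b from hh, show g b = b from hg]
  inv_mem' := fun {g} hg => by
    show g⁻¹ b = b
    rw [AlgEquiv.aut_inv, AlgEquiv.symm_apply_eq, show g b = b from hg]

theorem mem_range_of_fixed {L : Type} [Field L] [NumberField L] [IsGalois ℚ L] [Algebra K L]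
    {y : L} (h : ∀ g ∈ fixerSubgroup K L, g y = y) : y ∈ (algebraMap K L).range := by
  have : IsScalarTower ℚ K L := IsScalarTower.of_algebraMap_eq' (Subsingleton.elim _ _)
  let F : IntermediateField ℚ L := (IsScalarTower.toAlgHom ℚ K L).fieldRange
  have hF : y ∈ IntermediateField.fixedField F.fixingSubgroup := by
    rw [IntermediateField.mem_fixedField_iff]
    exact fun g hg => h g fun x =>
      (IntermediateField.mem_fixingSubgroup_iff F g).1 hg _ ⟨x, rfl⟩
  rw [IsGalois.fixedField_fixingSubgroup] at hF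
  obtain ⟨x, hx⟩ := hF
  exact ⟨x, hx⟩

theorem exists_moved {L : Type} [Field L] [NumberField L] [IsGalois ℚ L] [Algebra K L]
    {a : LUnits K} {b : L} (hb : b ^ p = algebraMap K L a.val) (ha : ¬ IsGlobalPow p a) :
    ∃ g ∈ fixerSubgroup K L, g b ≠ b := by
  by_contra! hall
  obtain ⟨x, hx⟩ := mem_range_of_fixed (K := K) hall
  have hx0 : x ≠ 0 := fun e => exists_ne_zero_root hb (by rw [← hx, e, map_zero])
  refine ha ⟨LUnits.of (Units.mk0 x hx0), LUnits.ext_val ((algebraMap K L).injective ?_)⟩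
  rw [← hb, ← hx, ← map_pow]
  congr 1

theorem isKummerStep_elementFixer {L : Type} [Field L] [NumberField L] [IsGalois ℚ L]
    [Algebra K L] {ζ : K} (hζ : IsPrimitiveRoot ζ p) {a : LUnits K} {b : L}
    (hb : b ^ p = algebraMap K L a.val) (hm : ∃ g ∈ fixerSubgroup K L, g b ≠ b) :
    IsKummerStep p (fixerSubgroup K L ⊓ elementFixer b) (fixerSubgroup K L) ζ a b :=
  ⟨fun _ => Iff.rfl, hζ, hb, fun _ => Subgroup.mem_inf, hm⟩

/-- Every element that is not a `p`-th power has a norm group. -/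
theorem exists_kummerNormGroup (hμ : ∃ ζ : K, IsPrimitiveRoot ζ p) (a : LUnits K)
    (ha : ¬ IsGlobalPow p a) : ∃ N, IsKummerNormGroup p a N := by
  obtain ⟨ζ, hζ⟩ := hμ
  obtain ⟨L, _, _, _, _, hL⟩ := exists_galois_with_roots (p := p) {(a.val : K)}
  obtain ⟨b, hb⟩ := hL _ (Finset.mem_singleton_self _)
  exact ⟨_, (isKummerStep_elementFixer hζ hb (exists_moved hb ha)).isKummerNormGroup⟩

/-- A real embedding forces `p = 2` in the presence of `p`-th roots of unity. -/
theorem eq_two_of_real (hμ : ∃ ζ : K, IsPrimitiveRoot ζ p) (ψ : K →+* ℂ)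
    (hψ : (starRingEnd ℂ).comp ψ = ψ) : p = 2 := by
  obtain ⟨ζ, hζ⟩ := hμ
  have h1 := hζ.map_of_injective (f := ψ) ψ.injective
  have hre : starRingEnd ℂ (ψ ζ) = ψ ζ := RingHom.congr_fun hψ ζ
  obtain ⟨r, hr⟩ := Complex.conj_eq_iff_real.1 hre
  have hr1 : r ^ p = 1 := by
    have := h1.pow_eq_one
    rw [hr, ← Complex.ofReal_pow, ← Complex.ofReal_one] at this
    exact Complex.ofReal_injective this
  have hne : r ≠ 1 := fun e => h1.ne_one (Fact.out : p.Prime).one_lt (by rw [hr, e, Complex.ofReal_one])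
  rcases (Fact.out : p.Prime).eq_two_or_odd' with h | h
  · exact h
  · exact absurd ((h.pow_inj).1 (hr1.trans (one_pow p).symm)) hne

end FermatLib.CFT
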