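import Fermat.Agent.CFT.IdeleBasic
import Fermat.Agent.CFT.LocalDefs

/-!
Places of an arbitrary number field as local orbits of embeddings, completions inside
`PadicAlgCl q`, and equivariant choices.
-/

set_option autoImplicit false

open NumberField IntermediateField

namespace FermatLib.CFT

variable {K : Type} [Field K] [NumberField K] {q : Nat.Primes}

theorem Emb.postComp_apply (τ : Gloc q) (φ : Emb K q) (x : K) : φ.postComp τ x = τ (φ x) := rfl

theorem Emb.postComp_mul (τ σ : Gloc q) (φ : Emb K q) :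
    φ.postComp (τ * σ) = (φ.postComp σ).postComp τ := rfl

theorem Emb.SamePlace.symm' {a b : Emb K q} (h : a.SamePlace b) : b.SamePlace a := by
  obtain ⟨τ, rfl⟩ := h
  exact ⟨τ⁻¹, RingHom.ext fun x => τ.symm_apply_apply (a x)⟩

theorem Emb.apply_mem_completion (φ : Emb K q) (x : K) : φ x ∈ (completion φ) :=
  subset_adjoin _ _ ⟨x, rfl⟩

theorem Emb.completion_le_iff (φ : Emb K q)
    (E : IntermediateField ℚ_[(q : ℕ)] (PadicAlgCl (q : ℕ))) :
    (completion φ) ≤ E ↔ ∀ x, φ x ∈ E :=
  adjoin_le_iff.trans Set.range_subset_iff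

/-- A local automorphism fixes an embedding iff it fixes the completion. -/
theorem Emb.postComp_eq_self_iff (τ : Gloc q) (φ : Emb K q) :
    φ.postComp τ = φ ↔ ∀ z ∈ (completion φ), τ z = z := by
  refine ⟨fun h z hz => ?_, fun h => RingHom.ext fun x => h _ (φ.apply_mem_completion x)⟩
  have hle : (completion φ) ≤ IntermediateField.fixedField (Subgroup.zpowers τ) := by
    refine (φ.completion_le_iff _).2 fun x => ?_
    refine (mem_fixedField_iff _ _).2 fun f hf => ?_
    have : Subgroup.zpowers τ ≤ MulAction.stabilizer (Gloc q) (φ x) :=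
      Subgroup.zpowers_le.2 (RingHom.congr_fun h x)
    exact this hf
  exact (mem_fixedField_iff _ _).1 (hle hz) τ (Subgroup.mem_zpowers τ)

theorem Emb.mem_completion_of_fixed (φ : Emb K q) {z : PadicAlgCl (q : ℕ)}
    (h : ∀ τ : Gloc q, φ.postComp τ = φ → τ z = z) : z ∈ (completion φ) := by
  rw [← InfiniteGalois.fixedField_fixingSubgroup (completion φ), mem_fixedField_iff]
  exact fun τ hτ => h τ ((φ.postComp_eq_self_iff τ).2 fun y hy =>
    (IntermediateField.mem_fixingSubgroup_iff _ _).1 hτ y hy)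

theorem Emb.apply_mem_completion_postComp (τ : Gloc q) (φ : Emb K q) {z : PadicAlgCl (q : ℕ)}
    (hz : z ∈ (completion φ)) : τ z ∈ (completion (φ.postComp τ)) := by
  refine (φ.postComp τ).mem_completion_of_fixed fun σ hσ => ?_
  have h1 : φ.postComp (τ⁻¹ * σ * τ) = φ := by
    rw [Emb.postComp_mul, Emb.postComp_mul, hσ, ← Emb.postComp_mul, inv_mul_cancel]; rfl
  have := (φ.postComp_eq_self_iff _).1 h1 z hz
  simp only [AlgEquiv.mul_apply, AlgEquiv.aut_inv] at this
  exact τ.symm_apply_eq.1 this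

instance Emb.completion_finiteDimensional (φ : Emb K q) :
    FiniteDimensional ℚ_[(q : ℕ)] (completion φ) := by
  let b := Module.finBasis ℚ K
  have hle : (completion φ) =
      IntermediateField.adjoin ℚ_[(q : ℕ)] (Set.range (fun i => φ (b i))) := by
    refine le_antisymm ((φ.completion_le_iff _).2 fun x => ?_)
      (adjoin_le_iff.2 (Set.range_subset_iff.2 fun i => φ.apply_mem_completion _))
    rw [← b.sum_repr x, map_sum]
    refine sum_mem fun i _ => ?_
    rw [Algebra.smul_def, map_mul]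
    refine mul_mem ?_ (subset_adjoin _ _ ⟨i, rfl⟩)
    rw [show φ (algebraMap ℚ K (b.repr x i)) = ((b.repr x i : ℚ) : PadicAlgCl (q : ℕ)) by simp]
    exact SubfieldClass.ratCast_mem _ _
  rw [hle]
  exact finiteDimensional_adjoin fun x _ => (Algebra.IsAlgebraic.isAlgebraic x).isIntegral

/-- The nonzero elements of the completion, inside `QUnits q`. -/
noncomputable def Emb.localUnits (φ : Emb K q) : AddSubgroup (QUnits q) where
  carrier := {z | z.toField ∈ (completion φ)}
  zero_mem' := one_mem (completion φ)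
  add_mem' := fun {a b} ha hb => by simpa using mul_mem ha hb
  neg_mem' := fun {a} ha => by simpa using inv_mem (s := (completion φ)) ha

theorem Idele.fin_mem_localUnits (f : Idele K) (q : Nat.Primes) (φ : Emb K q) :
    f.fin q φ ∈ φ.localUnits := by
  refine φ.mem_completion_of_fixed fun τ hτ => ?_
  have h := f.2.1 q τ φ
  rw [hτ] at h
  exact (congrArg (fun z : QUnits q => z.toField) h).symm

theorem Emb.onUnits_mem_localUnits (τ : Gloc q) (φ : Emb K q) {z : QUnits q}
    (hz : z ∈ φ.localUnits) : τ.onUnits z ∈ (φ.postComp τ).localUnits :=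
  φ.apply_mem_completion_postComp τ hz

variable (K) in
/-- Embeddings up to local automorphisms. -/
def Emb.placeSetoid (q : Nat.Primes) : Setoid (Emb K q) :=
  ⟨Emb.SamePlace, ⟨Emb.SamePlace.refl, Emb.SamePlace.symm', Emb.SamePlace.trans⟩⟩

variable (K) in
/-- The finite places of `K`. -/
abbrev FinPlace : Type := Σ q : Nat.Primes, Quotient (Emb.placeSetoid K q)

/-- The place of an embedding. -/
def Emb.place (φ : Emb K q) : FinPlace K := ⟨q, Quotient.mk (Emb.placeSetoid K q) φ⟩

theorem Emb.place_postComp (τ : Gloc q) (φ : Emb K q) : (φ.postComp τ).place = φ.place :=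
  Sigma.ext rfl (heq_of_eq (Quotient.sound (Emb.SamePlace.symm' ⟨τ, rfl⟩)))

theorem Emb.place_eq_iff (φ ψ : Emb K q) : φ.place = ψ.place ↔ φ.SamePlace ψ := by
  refine ⟨fun h => Quotient.exact (eq_of_heq (Sigma.mk.inj h).2), fun h => ?_⟩
  exact Sigma.ext rfl (heq_of_eq (Quotient.sound h))

theorem FinPlace.exists_rep (v : FinPlace K) : ∃ φ : Emb K v.1, φ.place = v := by
  obtain ⟨φ, hφ⟩ := Quotient.exists_rep v.2
  exact ⟨φ, Sigma.ext rfl (heq_of_eq hφ)⟩

instance FinPlace.finite_fibre (q : Nat.Primes) : Finite (Quotient (Emb.placeSetoid K q)) :=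
  Quotient.finite _

theorem FinPlace.finite_preimage {T : Set Nat.Primes} (hT : T.Finite) :
    {v : FinPlace K | v.1 ∈ T}.Finite := by
  have : {v : FinPlace K | v.1 ∈ T} =
      ⋃ q ∈ T, Set.range (fun c : Quotient (Emb.placeSetoid K q) => (⟨q, c⟩ : FinPlace K)) := by
    ext ⟨q, c⟩
    simp only [Set.mem_ofPred_eq, Set.mem_iUnion, Set.mem_range]
    exact ⟨fun h => ⟨q, h, c, rfl⟩, fun ⟨q', h, c', e⟩ => (Sigma.mk.inj e).1 ▸ h⟩
  rw [this]
  exact hT.biUnion fun q _ => Set.finite_range _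

/-- A choice of local values equivariant under local automorphisms. -/
theorem exists_equivariant_elem {P : ∀ q : Nat.Primes, Emb K q → PadicAlgCl (q : ℕ) → Prop}
    (hP : ∀ q (τ : Gloc q) φ z, P q φ z → P q (φ.postComp τ) (τ z))
    (h : ∀ q (φ : Emb K q), ∃ z ∈ (completion φ), P q φ z) :
    ∃ w : ∀ q : Nat.Primes, Emb K q → PadicAlgCl (q : ℕ),
      (∀ q (τ : Gloc q) φ, w q (φ.postComp τ) = τ (w q φ)) ∧
        ∀ q φ, w q φ ∈ (completion φ) ∧ P q φ (w q φ) := by
  classical
  choose z hz hPz using h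
  let r : ∀ q, Emb K q → Emb K q := fun q φ => (Quotient.mk (Emb.placeSetoid K q) φ).out
  have hr : ∀ q φ, ∃ τ : Gloc q, (r q φ).postComp τ = φ := fun q φ =>
    @Quotient.mk_out _ (Emb.placeSetoid K q) φ
  choose τ hτ using hr
  refine ⟨fun q φ => τ q φ (z q (r q φ)), fun q σ φ => ?_, fun q φ => ?_⟩
  · have hrr : r q (φ.postComp σ) = r q φ :=
      congrArg Quotient.out (Quotient.sound (Emb.SamePlace.symm' ⟨σ, rfl⟩))
    have h2 : (r q φ).postComp (τ q (φ.postComp σ)) = (r q φ).postComp (σ * τ q φ) := by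
      have h1 := hτ q (φ.postComp σ)
      rw [hrr] at h1
      rw [h1, Emb.postComp_mul, hτ q φ]
    have hfix : (r q φ).postComp ((τ q (φ.postComp σ))⁻¹ * (σ * τ q φ)) = r q φ := by
      rw [Emb.postComp_mul, ← h2, ← Emb.postComp_mul, inv_mul_cancel]; rfl
    have := ((r q φ).postComp_eq_self_iff _).1 hfix _ (hz q (r q φ))
    simp only [AlgEquiv.mul_apply, AlgEquiv.aut_inv, AlgEquiv.symm_apply_eq] at this
    simp only [hrr]
    exact this.symm
  · refine ⟨?_, ?_⟩
    · have hm := (r q φ).apply_mem_completion_postComp (τ q φ) (hz q (r q φ))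
      rw [hτ q φ] at hm
      exact hm
    · have := hP q (τ q φ) _ _ (hPz q (r q φ))
      rwa [hτ q φ] at this

/-- Unit version of `exists_equivariant_elem`. -/
theorem exists_equivariant_units {P : ∀ q : Nat.Primes, Emb K q → QUnits q → Prop}
    (hP : ∀ q (τ : Gloc q) φ z, P q φ z → P q (φ.postComp τ) (τ.onUnits z))
    (h : ∀ q (φ : Emb K q), ∃ z ∈ φ.localUnits, P q φ z) :
    ∃ w : ∀ q : Nat.Primes, Emb K q → QUnits q,
      (∀ q (τ : Gloc q) φ, w q (φ.postComp τ) = τ.onUnits (w q φ)) ∧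
        ∀ q φ, w q φ ∈ φ.localUnits ∧ P q φ (w q φ) := by
  obtain ⟨w, hw, hw'⟩ := exists_equivariant_elem
    (P := fun q φ z => ∃ u : QUnits q, u.toField = z ∧ u ∈ φ.localUnits ∧ P q φ u)
    (fun q τ φ z => by
      rintro ⟨u, rfl, hu, hPu⟩
      exact ⟨τ.onUnits u, rfl, φ.onUnits_mem_localUnits τ hu, hP q τ φ u hPu⟩)
    (fun q φ => by
      obtain ⟨u, hu, hPu⟩ := h q φ
      exact ⟨_, hu, u, rfl, hu, hPu⟩)
  choose u hu hu' hPu using fun q φ => (hw' q φ).2
  refine ⟨u, fun q τ φ => ?_, fun q φ => ⟨hu' q φ, hPu q φ⟩⟩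
  refine QUnits.toField_injective ?_
  rw [hu, hw, QUnits.toField_onUnits, hu]

end FermatLib.CFT
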