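import Fermat.Agent.CFT.SecondIdeles
import Fermat.Agent.CFT.IdeleFieldUnits
import Fermat.Agent.CFT.FirstCyclic

/-!
The units at a finite set of places modulo `p`-th powers.
-/

set_option autoImplicit false
set_option linter.unusedSectionVars false

open NumberField IsDedekindDomain

namespace FermatLib.CFT

variable {K : Type} [Field K] [NumberField K] {p : ℕ} [Fact p.Prime]

/-- The prime ideal of a place. -/
noncomputable def FinPlace.toPrime (v : FinPlace K) : HeightOneSpectrum (𝓞 K) :=
  Quotient.lift (Emb.prime (q := v.1)) (fun φ ψ h => (samePlace_iff_prime_eq φ ψ).1 h) v.2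

theorem FinPlace.toPrime_place {q : Nat.Primes} (φ : Emb K q) :
    FinPlace.toPrime φ.place = φ.prime := rfl

theorem FinPlace.toPrime_injective : Function.Injective (FinPlace.toPrime (K := K)) := by
  rintro ⟨r, b⟩ ⟨q, c⟩ h
  obtain ⟨φ, rfl⟩ := Quotient.exists_rep b
  obtain ⟨ψ, rfl⟩ := Quotient.exists_rep c
  have h' : φ.prime = ψ.prime := h
  obtain rfl := φ.primeNumber_eq ψ h'
  exact (φ.place_eq_iff ψ).2 ((samePlace_iff_prime_eq φ ψ).2 h')

theorem placeUnits_eq_primeUnits (T : Set (FinPlace K)) :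
    placeUnits K T = primeUnits K (FinPlace.toPrime '' T) := by
  ext x
  have hiff : ∀ (q : Nat.Primes) (φ : Emb K q),
      principalFamily K x q φ ∈ QUnits.unitGroup q ↔ ‖φ x.val‖ = 1 := fun q φ => by
    rw [QUnits.mem_unitGroup_iff, toField_principalFamily]
  constructor
  · intro h q φ hφ
    exact (hiff q φ).1 (h q φ fun h' => hφ ⟨φ.place, h', rfl⟩)
  · intro h q φ hφ
    refine (hiff q φ).2 (h q φ ?_)
    rintro ⟨v, hv, e⟩
    exact hφ (FinPlace.toPrime_injective (e.trans (FinPlace.toPrime_place φ).symm) ▸ hv)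

/-- `E / pE` for a finitely generated group: `p ^ rank` times the `p`-torsion. -/
theorem relIndex_map_nsmul_eq {A : Type*} [AddCommGroup A] (X : AddSubgroup A)
    [Module.Finite ℤ X] :
    (X.map (nsmulAddMonoidHom p)).relIndex X =
      Nat.card ↥(X ⊓ (nsmulAddMonoidHom p : A →+ A).ker) * p ^ Module.finrank ℤ X := by
  have hord : Herbrand.IsOrderP p (1 : AddMonoid.End A) X :=
    ⟨fun x hx => hx, fun x _ => by rw [one_pow]; rfl⟩
  have hD : Herbrand.endDiff (1 : AddMonoid.End A) = 0 := AddMonoidHom.ext fun x => sub_self x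
  have hN : Herbrand.endNorm p (1 : AddMonoid.End A) = nsmulAddMonoidHom p :=
    AddMonoidHom.ext fun x => Herbrand.endNorm_eq_nsmul (sub_self x)
  have h0 : (0 : A →+ A).ker = ⊤ := by ext x; simp
  obtain ⟨-, -, h⟩ := Herbrand.hOrd_lattice hord
  rw [show X ⊓ (Herbrand.endDiff (1 : AddMonoid.End A)).ker = X by rw [hD, h0, inf_top_eq]] at h
  simp only [Herbrand.hOrd, hD, hN, h0, inf_top_eq] at h
  rw [show X.map (0 : A →+ A) = ⊥ from (AddSubgroup.map_eq_bot_iff X).2 (by simp [h0]),
    AddSubgroup.relIndex_bot_left] at h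
  have hp : p.Prime := Fact.out
  apply Nat.pow_left_injective (Nat.sub_ne_zero_of_lt hp.one_lt)
  apply mul_right_cancel₀ (pow_ne_zero (Module.finrank ℤ X) hp.ne_zero)
  show _ ^ (p - 1) * _ = _ ^ (p - 1) * _
  rw [h, mul_pow, mul_assoc, ← pow_mul, ← pow_add]
  congr 2
  obtain ⟨k, hk⟩ := Nat.exists_eq_succ_of_ne_zero hp.ne_zero
  rw [hk, Nat.succ_sub_one, Nat.succ_eq_add_one]
  ring

/-- `E_T / E_T^p` has order `p^(r + #T)` when `K` contains the `p`-th roots of unity. -/
theorem relIndex_placeUnits_pow (hμ : ∃ ζ : K, IsPrimitiveRoot ζ p) (T : Finset (FinPlace K)) :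
    ((placeUnits K (T : Set (FinPlace K))).map (nsmulAddMonoidHom p)).relIndex
      (placeUnits K (T : Set (FinPlace K))) =
      p ^ (Fintype.card (InfinitePlace K) + T.card) := by
  classical
  obtain ⟨ζ, hζ⟩ := hμ
  have hp : p.Prime := Fact.out
  set s := T.image (FinPlace.toPrime (K := K)) with hs
  have hset : placeUnits K (T : Set (FinPlace K)) =
      primeUnits K (s : Set (HeightOneSpectrum (𝓞 K))) := by
    rw [placeUnits_eq_primeUnits, hs, Finset.coe_image]
  rw [hset]
  have := primeUnits_finite K s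
  have hcard : s.card = T.card := Finset.card_image_of_injective _ FinPlace.toPrime_injective
  have htors : Nat.card ↥(primeUnits K (s : Set (HeightOneSpectrum (𝓞 K))) ⊓
      (nsmulAddMonoidHom p : LUnits K →+ LUnits K).ker) = p := by
    have : NeZero p := ⟨hp.ne_zero⟩
    have hmem : ∀ u : rootsOfUnity p K,
        LUnits.of u.1 ∈ primeUnits K (s : Set (HeightOneSpectrum (𝓞 K))) ⊓
          (nsmulAddMonoidHom p : LUnits K →+ LUnits K).ker := fun u => by
      refine ⟨?_, congrArg LUnits.of u.2⟩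
      rw [← hset]
      refine mem_placeUnits_of_nsmul hp.ne_zero ?_
      rw [show p • LUnits.of u.1 = (0 : LUnits K) from congrArg LUnits.of u.2]
      exact zero_mem _
    let e : ↥(primeUnits K (s : Set (HeightOneSpectrum (𝓞 K))) ⊓
        (nsmulAddMonoidHom p : LUnits K →+ LUnits K).ker) ≃ rootsOfUnity p K :=
      { toFun := fun x => ⟨LUnits.val x.1, congrArg LUnits.val (x.2.2 : p • x.1 = 0)⟩
        invFun := fun u => ⟨LUnits.of u.1, hmem u⟩
        left_inv := fun _ => rfl
        right_inv := fun _ => rfl }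
    rw [Nat.card_congr e]
    exact hζ.card_rootsOfUnity
  rw [relIndex_map_nsmul_eq, htors, ← pow_succ', primeUnits_finrank, hcard]

end FermatLib.CFT
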