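import Fermat.Agent.CFT.SecondNormGroup
import Fermat.Agent.CFT.SecondCore

/-!
Auxiliary places separating Kummer classes.
-/

set_option autoImplicit false
set_option linter.unusedSectionVars false

open NumberField

namespace FermatLib.CFT

variable {K : Type} [Field K] [NumberField K] {p : ℕ} [Fact p.Prime]

theorem LUnits.val_nsmul' {F : Type} [Field F] (n : ℕ) (x : LUnits F) :
    ((n • x).val : F) = (x.val : F) ^ n := rfl

theorem LUnits.val_sub' {F : Type} [Field F] (x y : LUnits F) :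
    ((x - y).val : F) = (x.val : F) / (y.val : F) := by
  show ((x.val / y.val : Fˣ) : F) = _
  exact Units.val_div_eq_div_val _ _

theorem isGlobalPow_of_eq {x : LUnits K} {y : K} (hy : y ^ p = x.val) : IsGlobalPow p x := by
  have hy0 : y ≠ 0 := fun e => x.val.ne_zero (by rw [← hy, e, zero_pow (Fact.out : p.Prime).ne_zero])
  refine ⟨LUnits.of (Units.mk0 y hy0), LUnits.ext_val ?_⟩
  rw [LUnits.val_nsmul']
  exact hy

variable {L : Type} [Field L] [NumberField L] [IsGalois ℚ L] [Algebra K L]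

/-- A Kummer element independent of another is moved by the stabiliser of the other root. -/
theorem exists_moved_of_independent {ζ : K} (hζ : IsPrimitiveRoot ζ p) {a e : LUnits K}
    {ba be : L} (hba : ba ^ p = algebraMap K L a.val) (hbe : be ^ p = algebraMap K L e.val)
    (he : ∀ n : ℕ, ¬ IsGlobalPow p (e - n • a)) :
    ∃ g ∈ fixerSubgroup K L ⊓ elementFixer ba, g be ≠ be := by
  by_contra hcon
  push Not at hcon
  have he0 : ¬ IsGlobalPow p e := by simpa using he 0
  by_cases hA : ∀ g ∈ fixerSubgroup K L, g ba = ba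
  · obtain ⟨g, hg, hne⟩ := exists_moved hbe he0
    exact hne (hcon g (Subgroup.mem_inf.2 ⟨hg, hA g hg⟩))
  push Not at hA
  have hs := isKummerStep_elementFixer (L := L) hζ hba hA
  obtain ⟨g, hg, hgb⟩ := hs.exists_gen
  have hse := isKummerStep_elementFixer (L := L) hζ hbe (exists_moved hbe he0)
  obtain ⟨j, -, hj⟩ := hse.exists_conj hg
  have hba0 : ba ^ j ≠ 0 := pow_ne_zero _ (exists_ne_zero_root hba)
  have hall : ∀ h ∈ fixerSubgroup K L, h (be / ba ^ j) = be / ba ^ j := by
    intro h hh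
    obtain ⟨i, hi⟩ := (hs.bijective hg hgb).2 (QuotientGroup.mk ⟨h, hh⟩)
    have hmem := Subgroup.mem_subgroupOf.1 (QuotientGroup.eq.1 hi)
    simp only [Subgroup.coe_mul, Subgroup.coe_inv, SubmonoidClass.coe_pow] at hmem
    set k := (g ^ (i : ℕ))⁻¹ * h with hk
    have hkfix : k (be / ba ^ j) = be / ba ^ j := by
      rw [map_div₀, map_pow, hcon k hmem, show k ba = ba from (Subgroup.mem_inf.1 hmem).2]
    have hgfix : ∀ n : ℕ, (g ^ n) (be / ba ^ j) = be / ba ^ j := by
      intro n
      induction n with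
      | zero => rfl
      | succ n ih =>
        rw [pow_succ, AlgEquiv.mul_apply]
        have h1 : g ba = algebraMap K L ζ * ba := by
          have := hgb 1; rwa [pow_one, pow_one] at this
        have h2 : g (be / ba ^ j) = be / ba ^ j := by
          rw [map_div₀, map_pow, h1, hj, mul_pow, mul_div_mul_left]
          exact pow_ne_zero _ ((hζ.map_of_injective (algebraMap K L).injective).ne_zero
            (Fact.out : p.Prime).ne_zero)
        rw [h2, ih]
    have : h = g ^ (i : ℕ) * k := by rw [hk, mul_inv_cancel_left]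
    rw [this, AlgEquiv.mul_apply, hkfix, hgfix]
  obtain ⟨y, hy⟩ := mem_range_of_fixed (K := K) hall
  refine he j (isGlobalPow_of_eq (y := y) ((algebraMap K L).injective ?_))
  rw [map_pow, hy, LUnits.val_sub', LUnits.val_nsmul', map_div₀, map_pow, div_pow, ← pow_mul,
    mul_comm, pow_mul, hba, hbe]

/-- A place where `a` is a `p`-th power and `e` is not. -/
theorem exists_place_sep (hμ : ∃ ζ : K, IsPrimitiveRoot ζ p) (a e : LUnits K)
    (he : ∀ n : ℕ, ¬ IsGlobalPow p (e - n • a)) (T₀ : Finset Nat.Primes) :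
    ∃ (q : Nat.Primes) (φ : Emb K q), q ∉ T₀ ∧ IsPowAt p φ.place a ∧ ¬ IsPowAt p φ.place e := by
  classical
  obtain ⟨ζ, hζ⟩ := hμ
  obtain ⟨L, _, _, _, _, hL⟩ :=
    exists_galois_with_roots (p := p) ({(a.val : K), (e.val : K)} : Finset K)
  obtain ⟨ba, hba⟩ := hL (a.val : K) (by simp)
  obtain ⟨be, hbe⟩ := hL (e.val : K) (by simp)
  obtain ⟨g₀, hg₀, hne₀⟩ := exists_moved_of_independent (L := L) hζ hba hbe he
  set Ha := fixerSubgroup K L ⊓ elementFixer ba with hHa
  let K' := IntermediateField.fixedField Ha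
  have hmemK : ∀ x : K, algebraMap K L x ∈ K' := fun x => by
    rw [IntermediateField.mem_fixedField_iff]
    exact fun g hg => (Subgroup.mem_inf.1 hg).1 x
  let ι : K →+* K' := (algebraMap K L).codRestrict K' hmemK
  let e' : LUnits K' := LUnits.of (Units.map (ι : K →* K') e.val)
  have hstep : IsKummerStep p (Ha ⊓ elementFixer be) Ha (ι ζ) e' be :=
    { fixing := fun g => by
        rw [← IntermediateField.fixingSubgroup_fixedField Ha,
          IntermediateField.mem_fixingSubgroup_iff]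
        exact ⟨fun h x => h x x.2, fun h x hx => h ⟨x, hx⟩⟩
      root := hζ.map_of_injective ι.injective
      pow_eq := hbe
      mem_iff := fun _ => Subgroup.mem_inf
      moved := ⟨g₀, hg₀, hne₀⟩ }
  have := hstep.normal
  let bad : Finset Nat.Primes := T₀ ∪ {(⟨p, Fact.out⟩ : Nat.Primes)} ∪
    (finite_setOf_norm_ne_one (L := K) a.val.ne_zero).toFinset ∪
    (finite_setOf_norm_ne_one (L := K) e.val.ne_zero).toFinset
  obtain ⟨q, hq, ψ, g, hg, hgn⟩ := exists_place_not_split L _ Ha hstep.le hstep.relIndex_eq bad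
  obtain ⟨⟨τ, hτ⟩, hgHa⟩ := Subgroup.mem_inf.1 hg
  simp only [bad, Finset.mem_union, Set.Finite.mem_toFinset,
    Set.mem_ofPred_eq, not_or, not_exists, not_not] at hq
  obtain ⟨⟨⟨hq0, hqp⟩, hau⟩, heu⟩ := hq
  let φ : Emb K q := ψ.comp (algebraMap K L)
  have hqp' : (q : ℕ) ≠ p := fun h => hqp (Finset.mem_singleton.2 (Subtype.ext h))
  have hτφ : φ.postComp τ = φ := RingHom.ext fun x => by
    have h := RingHom.congr_fun hτ (algebraMap K L x)
    exact h.trans (congrArg ψ ((Subgroup.mem_inf.1 hgHa).1 x))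
  have hfixF := (φ.postComp_eq_self_iff τ).1 hτφ
  have hτba : τ (ψ ba) = ψ ba := by
    have h := RingHom.congr_fun hτ ba
    exact h.trans (congrArg ψ (Subgroup.mem_inf.1 hgHa).2)
  have hτbe : τ (ψ be) ≠ ψ be := fun h => by
    refine hgn (Subgroup.mem_inf.2 ⟨hgHa, ψ.injective ?_⟩)
    exact (RingHom.congr_fun hτ be).symm.trans h
  have hroot : ∀ y : PadicAlgCl (q : ℕ), τ y = y → y ^ p = φ (e.val : K) → False := by
    intro y hy hyp
    have : NeZero p := ⟨(Fact.out : p.Prime).ne_zero⟩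
    have hy0 : y ≠ 0 := fun h => e.val.ne_zero ((map_eq_zero φ).1
      (by rw [← hyp, h, zero_pow (Fact.out : p.Prime).ne_zero]))
    obtain ⟨i, -, hi⟩ := (hζ.map_of_injective (f := φ) φ.injective).eq_pow_of_pow_eq_one
      (ξ := ψ be / y) (by
        rw [div_pow, ← map_pow ψ, hbe, hyp]
        exact div_self ((map_ne_zero φ).2 e.val.ne_zero))
    rw [eq_div_iff hy0] at hi
    refine hτbe ?_
    rw [← hi, map_mul, map_pow, hy, hfixF _ (φ.apply_mem_completion ζ)]
  have hne : ¬ IsPowAt p φ.place e := by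
    rw [isPowAt_place_iff, φ.mem_powUnits_iff_elem, toField_principalFamily]
    rintro ⟨y, hy, hyp⟩
    exact hroot y (hfixF y hy) hyp
  refine ⟨q, φ, hq0, ?_, hne⟩
  rw [isPowAt_place_iff]
  by_contra hna
  have hunit : ∀ x : LUnits K, ‖φ (x.val : K)‖ = 1 →
      principalFamily K x q φ ∈ QUnits.unitGroup q := fun x hx => by
    rw [QUnits.mem_unitGroup_iff, toField_principalFamily]; exact hx
  obtain ⟨n, hn⟩ := φ.exists_nsmul_sub_mem_powUnits hqp'
    ((principalIdele K a).fin_mem_localUnits q φ) (hunit a (hau φ)) hna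
    ((principalIdele K e).fin_mem_localUnits q φ) (hunit e (heu φ))
  obtain ⟨y, hy, hyp⟩ := (φ.mem_powUnits_iff_elem _).1 hn
  refine hroot (y * ψ ba ^ n) (by rw [map_mul, map_pow, hfixF y hy, hτba]) ?_
  rw [mul_pow, hyp, ← pow_mul, mul_comm n p, pow_mul, ← map_pow ψ, hba]
  have hsum := congrArg QUnits.toField (sub_add_cancel
    ((principalIdele K e).fin q φ) (n • (principalIdele K a).fin q φ))
  rw [QUnits.toField_add, QUnits.toField_nsmul] at hsum
  exact hsum

/-- Places separating `E_T / ⟨a⟩ E_T^p`, minimal. -/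
theorem exists_separating_places (hμ : ∃ ζ : K, IsPrimitiveRoot ζ p) (a : LUnits K)
    (T : Finset (FinPlace K))
    (hfin : ((placeUnits K (T : Set (FinPlace K))).map (nsmulAddMonoidHom p)).relIndex
      (placeUnits K (T : Set (FinPlace K))) ≠ 0) :
    ∃ P : Finset (FinPlace K), (∀ v ∈ P, v ∉ T ∧ IsPowAt p v a) ∧
      (∀ x ∈ placeUnits K (T : Set (FinPlace K)), (∀ v ∈ P, IsPowAt p v x) →
        ∃ n : ℕ, IsGlobalPow p (x - n • a)) ∧
      ∀ v ∈ P, ∃ x ∈ placeUnits K (T : Set (FinPlace K)),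
        ¬ IsPowAt p v x ∧ ∀ w ∈ P, w ≠ v → IsPowAt p w x := by
  classical
  set E := placeUnits K (T : Set (FinPlace K))
  let Q := E ⧸ (E.map (nsmulAddMonoidHom p)).addSubgroupOf E
  have : Finite Q := Nat.finite_of_card_ne_zero hfin
  have : Fintype Q := Fintype.ofFinite Q
  have hchoice : ∀ c : Q, ∃ v : Option (FinPlace K),
      ((∀ n : ℕ, ¬ IsGlobalPow p ((c.out : LUnits K) - n • a)) →
        ∃ w ∈ v, w ∉ T ∧ IsPowAt p w a ∧ ¬ IsPowAt p w (c.out : LUnits K)) := fun c => by
    by_cases h : ∀ n : ℕ, ¬ IsGlobalPow p ((c.out : LUnits K) - n • a)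
    · obtain ⟨q, φ, hq, ha, hc⟩ := exists_place_sep hμ a _ h (T.image Sigma.fst)
      exact ⟨some φ.place, fun _ => ⟨_, rfl,
        fun hT => hq (Finset.mem_image.2 ⟨_, hT, rfl⟩), ha, hc⟩⟩
    · exact ⟨none, fun h' => absurd h' h⟩
  choose f hf using hchoice
  let P₀ : Finset (FinPlace K) :=
    (Finset.univ.biUnion fun c : Q => (f c).toFinset).filter fun v => v ∉ T ∧ IsPowAt p v a
  let good : Finset (FinPlace K) → Prop := fun P =>
    ∀ x ∈ E, (∀ v ∈ P, IsPowAt p v x) → ∃ n : ℕ, IsGlobalPow p (x - n • a)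
  have hpowmul : ∀ (v : FinPlace K) (y : LUnits K), IsPowAt p v (p • y) := fun v y φ _ => by
    show (principalIdele K (p • y)).fin v.1 φ ∈ _
    rw [map_nsmul]
    exact ⟨_, (principalIdele K y).fin_mem_localUnits _ φ, rfl⟩
  have hgood₀ : good P₀ := by
    intro x hx hpow
    set c : Q := QuotientAddGroup.mk ⟨x, hx⟩ with hc
    obtain ⟨y, hyE, hy⟩ := AddSubgroup.mem_addSubgroupOf.1
      (QuotientAddGroup.eq.1 (show (QuotientAddGroup.mk c.out : Q) = QuotientAddGroup.mk ⟨x, hx⟩
        from QuotientAddGroup.out_eq' c))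
    simp only [AddSubgroup.coe_add, AddSubgroup.coe_neg, nsmulAddMonoidHom_apply] at hy
    have hout : (c.out : LUnits K) = x + p • (-y) := by rw [smul_neg, hy]; abel
    by_contra hno
    obtain ⟨w, hw, hwT, hwa, hwc⟩ := hf c fun n ⟨z, hz⟩ => hno ⟨n, z + y, by
      rw [smul_add, hz, hout, smul_neg]; abel⟩
    refine hwc ?_
    rw [hout]
    refine isPowAt_add (hpow w (Finset.mem_filter.2 ⟨Finset.mem_biUnion.2
      ⟨c, Finset.mem_univ _, Option.mem_toFinset.2 hw⟩, hwT, hwa⟩)) (hpowmul w (-y))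
  obtain ⟨P, hP, hmin⟩ := Finset.exists_min_image (P₀.powerset.filter good) Finset.card
    ⟨P₀, Finset.mem_filter.2 ⟨Finset.mem_powerset.2 subset_rfl, hgood₀⟩⟩
  rw [Finset.mem_filter, Finset.mem_powerset] at hP
  refine ⟨P, fun v hv => (Finset.mem_filter.1 (hP.1 hv)).2, hP.2, fun v hv => ?_⟩
  have hnot : ¬ good (P.erase v) := fun h => (Finset.card_erase_lt_of_mem hv).not_ge
    (hmin _ (Finset.mem_filter.2 ⟨Finset.mem_powerset.2
      ((Finset.erase_subset v P).trans hP.1), h⟩))
  simp only [good, not_forall] at hnot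
  obtain ⟨x, hx, hpow, hno⟩ := hnot
  refine ⟨x, hx, fun hv' => hno (hP.2 x hx fun w hw => ?_),
    fun w hw hne => hpow w (Finset.mem_erase.2 ⟨hne, hw⟩)⟩
  rcases eq_or_ne w v with rfl | hne
  · exact hv'
  · exact hpow w (Finset.mem_erase.2 ⟨hne, hw⟩)

/-- A dual system for `T`. -/
theorem exists_dualSystem (hμ : ∃ ζ : K, IsPrimitiveRoot ζ p) (T : Finset (FinPlace K))
    (hfin : ((placeUnits K (T : Set (FinPlace K))).map (nsmulAddMonoidHom p)).relIndex
      (placeUnits K (T : Set (FinPlace K))) ≠ 0) :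
    ∃ P, IsDualSystem p T P := by
  obtain ⟨P, hP, hsep, hdual⟩ := exists_separating_places hμ (0 : LUnits K) T hfin
  refine ⟨P, fun v hv => (hP v hv).1, fun x hx hpow => ?_, hdual⟩
  obtain ⟨n, hn⟩ := hsep x hx hpow
  rwa [nsmul_zero, sub_zero] at hn

/-- A dual system in which a given unit is a power at all but one place. -/
theorem exists_dualSystem_of_unit (hμ : ∃ ζ : K, IsPrimitiveRoot ζ p) (T : Finset (FinPlace K))
    (hT : ∀ (q : Nat.Primes) (φ : Emb K q), (q : ℕ) = p → φ.place ∈ T)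
    (hfin : ((placeUnits K (T : Set (FinPlace K))).map (nsmulAddMonoidHom p)).relIndex
      (placeUnits K (T : Set (FinPlace K))) ≠ 0)
    {a : LUnits K} (ha : a ∈ placeUnits K (T : Set (FinPlace K))) (hna : ¬ IsGlobalPow p a) :
    ∃ P v₀, IsDualSystem p T P ∧ ∀ v ∈ P, v ≠ v₀ → IsPowAt p v a := by
  classical
  obtain ⟨P, hP, hsep, hdual⟩ := exists_separating_places hμ a T hfin
  obtain ⟨q, φ, hq, -, hv₀⟩ := exists_place_sep hμ (0 : LUnits K) a
    (fun n => by rwa [nsmul_zero, sub_zero]) (T.image Sigma.fst)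
  have hφT : φ.place ∉ T := fun h => hq (Finset.mem_image.2 ⟨_, h, rfl⟩)
  refine ⟨insert φ.place P, φ.place, ⟨fun v hv => ?_, fun x hx hpow => ?_, fun v hv => ?_⟩,
    fun v hv hne => (hP v ((Finset.mem_insert.1 hv).resolve_left hne)).2⟩
  · rcases Finset.mem_insert.1 hv with rfl | hv
    · exact hφT
    · exact (hP v hv).1
  · obtain ⟨n, y, hy⟩ := hsep x hx fun v hv => hpow v (Finset.mem_insert_of_mem hv)
    by_cases hdvd : (p : ℤ) ∣ (n : ℤ)
    · obtain ⟨m, rfl⟩ := Int.natCast_dvd_natCast.1 hdvd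
      exact ⟨y + m • a, by rw [smul_add, hy, ← mul_nsmul', sub_add_cancel]⟩
    exfalso
    refine hv₀ ((isPowAt_place_iff φ a).2 ?_)
    let F : LUnits K →+ QUnits q :=
      { toFun := fun z => (principalIdele K z).fin q φ
        map_zero' := by simp [Idele.fin]
        map_add' := fun z w => by simp [Idele.fin] }
    refine mem_of_zsmul_mem_of_not_dvd (A := QUnits q) (φ.powUnits p) (x := F a)
      ⟨F a, (principalIdele K a).fin_mem_localUnits q φ, rfl⟩ ?_ hdvd
    rw [natCast_zsmul, ← map_nsmul, show n • a = x - p • y by rw [hy]; abel, map_sub]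
    exact sub_mem ((isPowAt_place_iff φ x).1 (hpow _ (Finset.mem_insert_self _ _)))
      ⟨F y, (principalIdele K y).fin_mem_localUnits q φ, (map_nsmul F p y).symm⟩
  · by_cases hne : v = φ.place
    · subst hne
      exact ⟨a, ha, hv₀, fun w hw h => (hP w ((Finset.mem_insert.1 hw).resolve_left h)).2⟩
    obtain ⟨x, hx, hxn, hxo⟩ := hdual v ((Finset.mem_insert.1 hv).resolve_left hne)
    obtain ⟨n, hn⟩ := φ.exists_nsmul_sub_mem_powUnits (p := p)
      (fun h => hφT (hT q φ h)) ((principalIdele K a).fin_mem_localUnits q φ) (ha q φ hφT)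
      (fun h => hv₀ ((isPowAt_place_iff φ a).2 h))
      ((principalIdele K x).fin_mem_localUnits q φ) (hx q φ hφT)
    have hna' : ∀ w ∈ P, IsPowAt p w (n • a) := fun w hw => isPowAt_nsmul n (hP w hw).2
    refine ⟨x - n • a, sub_mem hx (AddSubgroup.nsmul_mem _ ha n), fun h => hxn ?_, fun w hw h => ?_⟩
    · have := isPowAt_add h (hna' v ((Finset.mem_insert.1 hv).resolve_left hne))
      rwa [sub_add_cancel] at this
    · by_cases hw' : w = φ.place
      · subst hw'
        rw [isPowAt_place_iff]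
        show (principalIdele K (x - n • a)).fin q φ ∈ _
        rw [map_sub, map_nsmul]
        exact hn
      · have hwP := (Finset.mem_insert.1 hw).resolve_left hw'
        intro ψ hψ
        show (principalIdele K (x - n • a)).fin w.1 ψ ∈ _
        rw [map_sub]
        exact sub_mem (hxo w hwP h ψ hψ) (hna' w hwP ψ hψ)

end FermatLib.CFT
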