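import Fermat.Agent.CFT.SecondSeparate
import Fermat.Agent.CFT.SecondRank

/-!
The Kummer setting of a finite set of places.
-/

set_option autoImplicit false
set_option linter.unusedSectionVars false

open NumberField

namespace FermatLib.CFT

variable {K : Type} [Field K] [NumberField K] {p : ℕ} [Fact p.Prime]

theorem isKummerSetting_of_generate (hμ : ∃ ζ : K, IsPrimitiveRoot ζ p)
    (T : Finset (FinPlace K))
    (hT : ∀ (q : Nat.Primes) (φ : Emb K q), (q : ℕ) = p → φ.place ∈ T)
    (hgen : ∀ c : IdeleClass K, ∃ j ∈ placeIdeles K (T : Set (FinPlace K)),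
      ∃ d : IdeleClass K, c = QuotientAddGroup.mk j + p • d) :
    IsKummerSetting p T where
  above := hT
  real := eq_two_of_real hμ
  generate := hgen
  card T' _ := relIndex_placeUnits_pow hμ T'
  normGroup a ha := exists_kummerNormGroup hμ a ha

theorem relIndex_placeUnits_ne_zero (hμ : ∃ ζ : K, IsPrimitiveRoot ζ p)
    (T : Finset (FinPlace K)) :
    ((placeUnits K (T : Set (FinPlace K))).map (nsmulAddMonoidHom p)).relIndex
      (placeUnits K (T : Set (FinPlace K))) ≠ 0 := by
  rw [relIndex_placeUnits_pow hμ T]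
  exact pow_ne_zero _ (Fact.out : p.Prime).ne_zero

/-- The places over a finite set of primes. -/
noncomputable def placesOver (K : Type) [Field K] [NumberField K] (S : Finset Nat.Primes) :
    Finset (FinPlace K) :=
  (FinPlace.finite_preimage (K := K) S.finite_toSet).toFinset

theorem mem_placesOver {S : Finset Nat.Primes} (v : FinPlace K) :
    v ∈ placesOver K S ↔ v.1 ∈ S := by
  simp [placesOver]

theorem mem_placeIdeles_of_sIdeles {S : Finset Nat.Primes} {j : Idele K}
    (hj : j ∈ sIdeles K (S : Set Nat.Primes)) :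
    j ∈ placeIdeles K (placesOver K S : Set (FinPlace K)) := fun q φ hφ =>
  hj q (fun hq => hφ ((mem_placesOver φ.place).2 hq)) φ

/-- Classes are generated by ideles at the places over a large finite set of primes. -/
theorem exists_generate_placesOver : ∃ S₀ : Finset Nat.Primes, ∀ S : Finset Nat.Primes, S₀ ⊆ S →
    ∀ c : IdeleClass K, ∃ j ∈ placeIdeles K (placesOver K S : Set (FinPlace K)),
      QuotientAddGroup.mk j = c := by
  obtain ⟨S₀, hS₀⟩ := exists_primes_generate_field K
  refine ⟨S₀, fun S hS c => ?_⟩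
  obtain ⟨f, rfl⟩ := QuotientAddGroup.mk_surjective c
  obtain ⟨x, hx⟩ := hS₀ (S : Set Nat.Primes) (Finset.coe_subset.2 hS) f
  exact ⟨_, mem_placeIdeles_of_sIdeles hx, by
    rw [QuotientAddGroup.mk_sub, mk_principalIdele, sub_zero]⟩

end FermatLib.CFT
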