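import Fermat.Agent.CFT.CohDefs

/-!
Tate-Nakayama duality, part 1: relatively projective modules, coinduced modules and the criterion
for an elementary abelian module over a `p`-group to be relatively projective.
-/

set_option autoImplicit false

namespace FermatLib.CFT.TN

open FermatLib.CFT

section apply
variable {G : Type*} [Group G] {A : Type*} [AddCommGroup A] [DistribMulAction G A]

theorem d1_apply (f : G → A) (s t : G) :
    d1 G A f (s, t) = s • f t - f (s * t) + f s := rfl

theorem mem_Z1 {f : G → A} : f ∈ Z1 G A ↔ ∀ s t, f (s * t) = s • f t + f s := by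
  refine ⟨fun h s t => ?_, fun h => ?_⟩
  · have := congrFun h (s, t)
    rw [d1_apply, Pi.zero_apply, sub_add_eq_add_sub, sub_eq_zero] at this
    exact this.symm
  · funext ⟨s, t⟩
    simp [d1_apply, h s t]

theorem mem_B1 {f : G → A} : f ∈ B1 G A ↔ ∃ a : A, ∀ s, f s = s • a - a :=
  ⟨fun ⟨a, ha⟩ => ⟨a, fun s => (congrFun ha s).symm⟩, fun ⟨a, ha⟩ => ⟨a, funext fun s => (ha s).symm⟩⟩

theorem mem_Z2 {f : G × G → A} :
    f ∈ Z2 G A ↔ ∀ r s t, r • f (s, t) + f (r, s * t) = f (r * s, t) + f (r, s) := by
  refine ⟨fun h r s t => ?_, fun h => ?_⟩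
  · have := congrFun h (r, s, t)
    simp only [d2, AddMonoidHom.coe_mk, ZeroHom.coe_mk, Pi.zero_apply] at this
    rw [← sub_eq_zero, ← this]
    abel
  · funext ⟨r, s, t⟩
    simp only [d2, AddMonoidHom.coe_mk, ZeroHom.coe_mk, Pi.zero_apply]
    rw [← sub_eq_zero.2 (h r s t)]
    abel

theorem mem_B2 {f : G × G → A} :
    f ∈ B2 G A ↔ ∃ b : G → A, ∀ s t, f (s, t) = s • b t - b (s * t) + b s :=
  ⟨fun ⟨b, hb⟩ => ⟨b, fun s t => (congrFun hb (s, t)).symm⟩,
    fun ⟨b, hb⟩ => ⟨b, funext fun x => (hb x.1 x.2).symm⟩⟩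

theorem Z2_one_right {f : G × G → A} (hf : f ∈ Z2 G A) (r : G) : f (r, 1) = r • f (1, 1) := by
  have := mem_Z2.1 hf r 1 1
  rw [mul_one, mul_one] at this
  exact (add_right_cancel this).symm

theorem Z2_one_left {f : G × G → A} (hf : f ∈ Z2 G A) (r : G) : f (1, r) = f (1, 1) := by
  have := mem_Z2.1 hf 1 1 r
  rw [one_smul, one_mul, one_mul] at this
  exact add_left_cancel this

end apply

/-- The identity is the norm of an additive endomorphism. -/
def RelTriv (P : Type*) [Group P] [Fintype P] (M : Type*) [AddCommGroup M] [DistribMulAction P M] :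
    Prop :=
  ∃ e : M →+ M, ∀ m : M, ∑ g : P, g • e (g⁻¹ • m) = m

section relTriv
variable {P : Type*} [Group P] [Fintype P] {M : Type*} [AddCommGroup M] [DistribMulAction P M]

theorem RelTriv.h1 (h : RelTriv P M) : H1Trivial P M := by
  obtain ⟨e, he⟩ := h
  intro f hf
  rw [mem_Z1] at hf
  refine mem_B1.2 ⟨-∑ g : P, g • e (g⁻¹ • f g), fun s => ?_⟩
  have key : ∀ g : P, s • g • e (g⁻¹ • f g)
      = (s * g) • e ((s * g)⁻¹ • f (s * g)) - (s * g) • e ((s * g)⁻¹ • f s) := by
    intro g
    rw [← smul_sub, ← map_sub, ← smul_sub, hf s g, add_sub_cancel_right, ← mul_smul, ← mul_smul,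
      mul_inv_rev, inv_mul_cancel_right]
  rw [smul_neg, Finset.smul_sum, sub_neg_eq_add]
  simp_rw [key]
  rw [Finset.sum_sub_distrib,
    Fintype.sum_equiv (Equiv.mulLeft s) (fun g => (s * g) • e ((s * g)⁻¹ • f (s * g)))
      (fun g => g • e (g⁻¹ • f g)) (fun _ => rfl),
    Fintype.sum_equiv (Equiv.mulLeft s) (fun g => (s * g) • e ((s * g)⁻¹ • f s))
      (fun g => g • e (g⁻¹ • f s)) (fun _ => rfl), he]
  abel

theorem RelTriv.h2 (h : RelTriv P M) : H2Trivial P M := by
  obtain ⟨e, he⟩ := h
  intro f hf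
  rw [mem_Z2] at hf
  refine mem_B2.2 ⟨fun s => ∑ g : P, g • e (g⁻¹ • f (s, s⁻¹ * g)), fun s t => ?_⟩
  have first : s • ∑ g : P, g • e (g⁻¹ • f (t, t⁻¹ * g))
      = ∑ g : P, g • e (g⁻¹ • s • f (t, t⁻¹ * (s⁻¹ * g))) := by
    rw [Finset.smul_sum]
    refine Fintype.sum_equiv (Equiv.mulLeft s) _ _ fun g => ?_
    simp [mul_smul]
  rw [first, ← Finset.sum_sub_distrib, ← Finset.sum_add_distrib]
  conv_lhs => rw [← he (f (s, t))]
  refine Finset.sum_congr rfl fun g _ => ?_
  rw [← smul_sub, ← map_sub, ← smul_sub, ← smul_add, ← map_add, ← smul_add]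
  congr 3
  have h' := hf s t (t⁻¹ * (s⁻¹ * g))
  rw [mul_inv_cancel_left] at h'
  rw [mul_inv_rev, mul_assoc, eq_sub_of_add_eq h']
  abel

end relTriv

/-- Functions on a group with the translation action. -/
def Coind (G W : Type*) := G → W

namespace Coind
variable {G : Type*} [Group G] {W : Type*} [AddCommGroup W]

instance : AddCommGroup (Coind G W) := inferInstanceAs (AddCommGroup (G → W))

/-- Evaluation. -/
def ev (x : G) : Coind G W →+ W where
  toFun f := f x
  map_zero' := rfl
  map_add' _ _ := rfl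

/-- Construct an element. -/
def mk (f : G → W) : Coind G W := f

theorem ev_mk (f : G → W) (x : G) : ev x (mk f) = f x := rfl

theorem ext {f f' : Coind G W} (h : ∀ x, ev x f = ev x f') : f = f' := funext h

instance : DistribMulAction G (Coind G W) where
  smul g f := fun x => f (g⁻¹ * x)
  one_smul f := funext fun x => by show f (1⁻¹ * x) = f x; simp
  mul_smul g g' f := funext fun x => by
    show f ((g * g')⁻¹ * x) = f (g'⁻¹ * (g⁻¹ * x)); simp [mul_assoc]
  smul_zero _ := rfl
  smul_add _ _ _ := rfl

theorem ev_smul (g x : G) (f : Coind G W) : ev x (g • f) = ev (g⁻¹ * x) f := rfl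

theorem relTriv (K : Subgroup G) [Fintype K] : RelTriv K (Coind G W) := by
  classical
  let r : G → G := fun x => (Quotient.mk (QuotientGroup.rightRel K) x).out
  have hr : ∀ x : G, x * (r x)⁻¹ ∈ K := fun x =>
    QuotientGroup.rightRel_apply.1 (Quotient.mk_out (s := QuotientGroup.rightRel K) x)
  have hr' : ∀ (k : K) (x : G), r ((k : G) * x) = r x := fun k x => by
    refine congrArg Quotient.out (Quotient.sound (QuotientGroup.rightRel_apply.2 ?_))
    simp
  refine ⟨{ toFun := fun f => mk fun x => if x = r x then ev x f else 0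
            map_zero' := funext fun x => by simp [mk]; rfl
            map_add' := fun a b => ext fun x => by
              simp only [map_add, ev_mk]; split <;> simp }, fun f => ext fun x => ?_⟩
  simp only [map_sum, Subgroup.smul_def, ev_smul, AddMonoidHom.coe_mk, ZeroHom.coe_mk, ev_mk,
    Subgroup.coe_inv, inv_inv, mul_inv_cancel_left]
  rw [Finset.sum_eq_single (⟨x * (r x)⁻¹, hr x⟩ : K)]
  · have h : (x * (r x)⁻¹)⁻¹ * x = r x := by group
    have h2 : r (r x) = r x := by
      have := hr' (⟨x * (r x)⁻¹, hr x⟩ : K) (r x)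
      simpa using this.symm
    simp [h2]
  · intro k _ hk
    rw [if_neg]
    intro h
    apply hk
    have h2 : r ((k : G)⁻¹ * x) = r x := hr' k⁻¹ x
    rw [h2] at h
    refine Subtype.ext ?_
    show (k : G) = x * (r x)⁻¹
    rw [← h]
    simp
  · simp

end Coind

/-- The action on the quotient by an invariant subgroup. -/
@[reducible] def quotAction {P V : Type*} [Group P] [AddCommGroup V] [DistribMulAction P V]
    (R : AddSubgroup V) (hR : ∀ (g : P), ∀ v ∈ R, g • v ∈ R) : DistribMulAction P (V ⧸ R) where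
  smul g := QuotientAddGroup.map R R (DistribSMul.toAddMonoidHom V g) (fun v hv => hR g v hv)
  one_smul x := by
    induction x using QuotientAddGroup.induction_on with
    | H v => exact congrArg QuotientAddGroup.mk (one_smul P v)
  mul_smul g h x := by
    induction x using QuotientAddGroup.induction_on with
    | H v => exact congrArg QuotientAddGroup.mk (mul_smul g h v)
  smul_zero _ := map_zero _
  smul_add _ _ _ := map_add _ _ _

section elementary
variable {p : ℕ} [Fact p.Prime] {P : Type*} [Group P] [Finite P]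

theorem exists_fixed_ne_zero {V : Type*} [AddCommGroup V] [DistribMulAction P V]
    (hP : IsPGroup p P) (hV : ∀ v : V, p • v = 0) {v : V} (hv : v ≠ 0) :
    ∃ w : V, w ≠ 0 ∧ ∀ g : P, g • w = w := by
  let W : AddSubgroup V := AddSubgroup.closure (Set.range fun g : P => g • v)
  have : Finite W := by
    have : AddGroup.FG W := AddGroup.closure_finite_fg _
    exact AddCommGroup.finite_of_fg_isAddTorsion W fun w =>
      isOfFinAddOrder_iff_nsmul_eq_zero.2
        ⟨p, (Fact.out : p.Prime).pos, Subtype.ext (by simpa using hV (w : V))⟩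
  have hW : ∀ (g : P), ∀ w ∈ W, g • w ∈ W := fun g w hw => by
    induction hw using AddSubgroup.closure_induction with
    | mem x hx =>
      obtain ⟨g', rfl⟩ := hx
      exact AddSubgroup.subset_closure ⟨g * g', mul_smul g g' v⟩
    | zero => simp
    | add x y _ _ hx hy => rw [smul_add]; exact add_mem hx hy
    | neg x _ hx => rw [smul_neg]; exact neg_mem hx
  letI : MulAction P W :=
    { smul := fun g w => ⟨g • (w : V), hW g _ w.2⟩
      one_smul := fun w => Subtype.ext (one_smul P (w : V))
      mul_smul := fun a b w => Subtype.ext (mul_smul a b (w : V)) }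
  have hdvd : p ∣ Nat.card W := by
    let v' : W := ⟨v, AddSubgroup.subset_closure ⟨1, one_smul P v⟩⟩
    have : addOrderOf v' = p := addOrderOf_eq_prime (Subtype.ext (by simpa using hV v))
      (fun h => hv (congrArg Subtype.val h))
    exact this ▸ addOrderOf_dvd_natCard v'
  have h0 : (0 : W) ∈ MulAction.fixedPoints P W := fun g => Subtype.ext (smul_zero g)
  obtain ⟨b, hb, hb0⟩ := hP.exists_fixed_point_of_prime_dvd_card_of_fixed_point W hdvd h0
  exact ⟨b, fun h => hb0 (Subtype.ext h.symm), fun g => congrArg Subtype.val (hb g)⟩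

private theorem exists_retraction {V : Type*} [AddCommGroup V] [Module (ZMod p) V]
    (S : AddSubgroup V) : ∃ r : V →+ S, ∀ w : S, r w = w := by
  obtain ⟨r, hr⟩ := LinearMap.exists_leftInverse_of_injective
    (AddSubgroup.toZModSubmodule p S).subtype (Submodule.ker_subtype _)
  exact ⟨r.toAddMonoidHom, fun w => LinearMap.congr_fun hr w⟩

theorem relTriv_of_h1 [Fintype P] {V : Type*} [AddCommGroup V] [DistribMulAction P V]
    (hP : IsPGroup p P) (hV : ∀ v : V, p • v = 0) (h1 : H1Trivial P V) : RelTriv P V := by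
  classical
  let W0 : AddSubgroup V := fixedPts P V
  obtain ⟨r, hr⟩ := @exists_retraction p _ V _ (AddCommGroup.zmodModule hV) W0
  let θ : V →+ Coind P W0 :=
    { toFun := fun v => Coind.mk fun g => r (g⁻¹ • v)
      map_zero' := Coind.ext fun x => by simp [Coind.ev_mk]
      map_add' := fun a b => Coind.ext fun x => by simp [Coind.ev_mk] }
  have θev : ∀ v g, Coind.ev g (θ v) = r (g⁻¹ • v) := fun _ _ => rfl
  have θeq : ∀ (g : P) v, θ (g • v) = g • θ v := fun g v => Coind.ext fun x => by
    rw [Coind.ev_smul, θev, θev, mul_inv_rev, inv_inv, mul_smul]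
  have θinj : Function.Injective θ := by
    rw [injective_iff_map_eq_zero]
    intro v hv
    by_contra hne
    letI : DistribMulAction P θ.ker :=
      { smul := fun g x => ⟨g • (x : V), by
          rw [AddMonoidHom.mem_ker, θeq, AddMonoidHom.mem_ker.1 x.2, smul_zero]⟩
        one_smul := fun x => Subtype.ext (one_smul P (x : V))
        mul_smul := fun a b x => Subtype.ext (mul_smul a b (x : V))
        smul_zero := fun a => Subtype.ext (smul_zero a)
        smul_add := fun a x y => Subtype.ext (smul_add a (x : V) y) }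
    obtain ⟨⟨w, hwker⟩, hw0, hwfix⟩ := exists_fixed_ne_zero (V := θ.ker) hP
      (fun x => Subtype.ext (by simpa using hV x)) (v := ⟨v, hv⟩)
      (fun h => hne (congrArg Subtype.val h))
    have hw' : w ∈ W0 := fun g => congrArg Subtype.val (hwfix g)
    have := congrArg (Coind.ev 1) (show θ w = 0 from hwker)
    rw [θev, inv_one, one_smul, map_zero] at this
    rw [hr ⟨w, hw'⟩] at this
    have h0 : w = 0 := congrArg Subtype.val this
    exact hw0 (Subtype.ext h0)
  have θsurj : Function.Surjective θ := by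
    intro f
    by_contra hf
    have hR : ∀ (g : P), ∀ v ∈ θ.range, g • v ∈ θ.range := by
      rintro g _ ⟨v, rfl⟩
      exact ⟨g • v, θeq g v⟩
    letI := quotAction θ.range hR
    have hp : ∀ x : Coind P W0 ⧸ θ.range, p • x = 0 := by
      intro x
      induction x using QuotientAddGroup.induction_on with
      | H f' =>
        rw [← QuotientAddGroup.mk_nsmul]
        have : p • f' = 0 := Coind.ext fun x => by
          rw [map_nsmul, map_zero]; exact Subtype.ext (by simpa using hV _)
        rw [this]; rfl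
    obtain ⟨x, hx0, hxfix⟩ := exists_fixed_ne_zero (V := Coind P W0 ⧸ θ.range) hP hp
      (v := (f : Coind P W0 ⧸ θ.range))
      (fun h => hf (by simpa [QuotientAddGroup.eq_zero_iff] using h))
    induction x using QuotientAddGroup.induction_on with
    | H f' =>
      have hmem : ∀ g : P, ∃ v, θ v = g • f' - f' := fun g =>
        QuotientAddGroup.eq_iff_sub_mem.1 (hxfix g)
      choose c hc using hmem
      have hc1 : c ∈ Z1 P V := mem_Z1.2 fun s t => θinj (by
        rw [map_add, θeq, hc, hc, hc, smul_sub, mul_smul]; abel)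
      obtain ⟨v, hv⟩ := mem_B1.1 (h1 c hc1)
      have hfix : ∀ g : P, g • (f' - θ v) = f' - θ v := fun g => by
        have := hc g
        rw [hv g, map_sub, θeq] at this
        rw [smul_sub, ← sub_eq_zero]
        rw [← sub_eq_zero] at this
        rw [← neg_eq_zero, ← this]
        abel
      apply hx0
      refine (QuotientAddGroup.eq_zero_iff f').2 ⟨v + (Coind.ev 1 (f' - θ v) : W0), ?_⟩
      rw [map_add]
      refine eq_add_of_sub_eq' (Coind.ext fun g => ?_) |>.symm
      set w : W0 := Coind.ev 1 (f' - θ v)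
      have e1 : Coind.ev g (f' - θ v) = w := by
        conv_lhs => rw [← hfix g]
        rw [Coind.ev_smul, inv_mul_cancel]
      rw [e1, θev, (w.2 g⁻¹ : g⁻¹ • (w : V) = w), hr]
  let θE : V ≃+ Coind P W0 := AddEquiv.ofBijective θ ⟨θinj, θsurj⟩
  haveI : Fintype (⊤ : Subgroup P) := Fintype.ofFinite _
  obtain ⟨e, he⟩ := Coind.relTriv (W := W0) (⊤ : Subgroup P)
  refine ⟨θE.symm.toAddMonoidHom.comp (e.comp θ), fun v => θinj ?_⟩
  conv_rhs => rw [← he (θ v)]
  rw [map_sum]
  refine Fintype.sum_equiv Subgroup.topEquiv.toEquiv.symm _ _ fun g => ?_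
  rw [θeq, AddMonoidHom.comp_apply, AddMonoidHom.comp_apply, θeq]
  exact congrArg _ (θE.apply_symm_apply _)

end elementary

end FermatLib.CFT.TN
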