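import Fermat.Agent.CFT.TNBasic

/-!
Tate-Nakayama duality, part 2: the splitting module of a fundamental class, and the vanishing of its
cohomology in degrees zero, one and two on `p`-subgroups.
-/

set_option autoImplicit false

namespace FermatLib.CFT.TN

open FermatLib.CFT

variable {G : Type*} [Group G] [Fintype G] {A : Type*} [AddCommGroup A] [DistribMulAction G A]

/-- A two-cocycle restricting to generators of the second cohomology of all `p`-subgroups. -/
structure IsFund (p : ℕ) (u : Z2 G A) : Prop where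
  h1 : ∀ H : Subgroup G, IsPGroup p H → H1Trivial H A
  smul_mem_iff : ∀ H : Subgroup G, IsPGroup p H → ∀ m : ℤ,
    m • cochainMap2 H.subtype (AddMonoidHom.id A) (u : G × G → A) ∈ B2 H A ↔ (Nat.card H : ℤ) ∣ m
  gen : ∀ H : Subgroup G, IsPGroup p H → ∀ f ∈ Z2 H A,
    ∃ m : ℤ, f - m • cochainMap2 H.subtype (AddMonoidHom.id A) (u : G × G → A) ∈ B2 H A

theorem res_apply (H : Subgroup G) (u : G × G → A) (x : H × H) :
    cochainMap2 H.subtype (AddMonoidHom.id A) u x = u ((x.1 : G), (x.2 : G)) := rfl

theorem res_mem_Z2 (H : Subgroup G) {u : G × G → A} (hu : u ∈ Z2 G A) :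
    cochainMap2 H.subtype (AddMonoidHom.id A) u ∈ Z2 H A :=
  mem_Z2.2 fun r s t => mem_Z2.1 hu r s t

theorem exists_isFund {p : ℕ} (hA : IsPClassFormation p G A) : ∃ u : Z2 G A, IsFund p u := by
  obtain ⟨u, hu, hgen⟩ := hA.exists_gen
  refine ⟨⟨u, hu⟩, hA.h1, fun H hH m => ?_, hgen⟩
  set r : Z2 H A := ⟨cochainMap2 H.subtype (AddMonoidHom.id A) u, res_mem_Z2 H hu⟩
  let c : H2' H A := QuotientAddGroup.mk r
  have htop : AddSubgroup.zmultiples c = ⊤ := by
    rw [eq_top_iff]
    rintro x -
    induction x using QuotientAddGroup.induction_on with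
    | H f =>
      obtain ⟨k, hk⟩ := hgen H hH f f.2
      refine ⟨k, ?_⟩
      show k • c = _
      rw [← QuotientAddGroup.mk_zsmul, eq_comm, QuotientAddGroup.eq_iff_sub_mem]
      exact hk
  have hord : addOrderOf c = Nat.card H := by
    rw [← hA.card_h2 H hH, ← Nat.card_zmultiples, htop, AddSubgroup.card_top]
  rw [← hord, addOrderOf_dvd_iff_zsmul_eq_zero, ← QuotientAddGroup.mk_zsmul,
    QuotientAddGroup.eq_zero_iff]
  rfl

/-- The total of a function. -/
noncomputable def tot : Coind G ℤ →+ ℤ := ∑ x : G, Coind.ev x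

/-- The weighted sum `∑ x_k • u (g, k)`. -/
noncomputable def wt (u : G × G → A) (g : G) : Coind G ℤ →+ A :=
  ∑ k : G, (zmultiplesHom A (u (g, k))).comp (Coind.ev k)

theorem tot_apply (x : Coind G ℤ) : tot x = ∑ k : G, Coind.ev k x := by simp [tot]

theorem wt_apply (u : G × G → A) (g : G) (x : Coind G ℤ) :
    wt u g x = ∑ k : G, Coind.ev k x • u (g, k) := by simp [wt]

theorem tot_smul (g : G) (x : Coind G ℤ) : tot (g • x) = tot x := by
  simp only [tot_apply, Coind.ev_smul]
  exact Fintype.sum_equiv (Equiv.mulLeft g⁻¹) _ _ fun _ => rfl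

theorem wt_smul (u : G × G → A) (s t : G) (x : Coind G ℤ) :
    wt u s (t • x) = ∑ k : G, Coind.ev k x • u (s, t * k) := by
  rw [wt_apply]
  refine Fintype.sum_equiv (Equiv.mulLeft t⁻¹) _ _ fun k => ?_
  simp [Coind.ev_smul]

theorem wt_mul {u : G × G → A} (hu : u ∈ Z2 G A) (s t : G) (x : Coind G ℤ) :
    s • wt u t x + wt u s (t • x) = wt u (s * t) x + tot x • u (s, t) := by
  rw [wt_smul, wt_apply, wt_apply, tot_apply, Finset.sum_smul, Finset.smul_sum,
    ← Finset.sum_add_distrib, ← Finset.sum_add_distrib]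
  refine Finset.sum_congr rfl fun k _ => ?_
  rw [smul_comm s, ← smul_add, ← smul_add, mem_Z2.1 hu s t k]

/-- Functions with total zero. -/
noncomputable def augSub (G : Type*) [Group G] [Fintype G] : AddSubgroup (Coind G ℤ) :=
  (tot (G := G)).ker

/-- The splitting module of `u`. -/
def SplitMod (_u : Z2 G A) := A × augSub G

namespace SplitMod

variable {u : Z2 G A}

noncomputable instance : AddCommGroup (SplitMod u) := inferInstanceAs (AddCommGroup (A × augSub G))

/-- Construct an element. -/
def mk (a : A) (x : Coind G ℤ) (hx : tot x = 0) : SplitMod u := (a, ⟨x, hx⟩)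

/-- The module component. -/
noncomputable def acomp : SplitMod u →+ A := AddMonoidHom.fst A (augSub G)

/-- The augmentation component. -/
noncomputable def xcomp : SplitMod u →+ Coind G ℤ :=
  (augSub G).subtype.comp (AddMonoidHom.snd A (augSub G))

theorem tot_xcomp (c : SplitMod u) : tot (xcomp c) = 0 := (c : A × augSub G).2.2

theorem ext {c d : SplitMod u} (h1 : acomp c = acomp d) (h2 : xcomp c = xcomp d) : c = d :=
  Prod.ext h1 (Subtype.ext h2)

theorem acomp_mk (a : A) (x : Coind G ℤ) (hx : tot x = 0) : acomp (mk (u := u) a x hx) = a := rfl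

theorem xcomp_mk (a : A) (x : Coind G ℤ) (hx : tot x = 0) : xcomp (mk (u := u) a x hx) = x := rfl

noncomputable instance : SMul G (SplitMod u) where
  smul g c := mk (g • acomp c + wt u g (xcomp c)) (g • xcomp c) (by rw [tot_smul, tot_xcomp])

theorem acomp_smul (g : G) (c : SplitMod u) :
    acomp (g • c) = g • acomp c + wt u g (xcomp c) := rfl

theorem xcomp_smul (g : G) (c : SplitMod u) : xcomp (g • c) = g • xcomp c := rfl

noncomputable instance : DistribMulAction G (SplitMod u) where
  one_smul c := ext (by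
    rw [acomp_smul, one_smul, add_eq_left, wt_apply]
    simp_rw [Z2_one_left u.2]
    rw [← Finset.sum_smul, ← tot_apply, tot_xcomp, zero_smul]) (by rw [xcomp_smul, one_smul])
  mul_smul s t c := ext (by
    rw [acomp_smul, acomp_smul, acomp_smul, xcomp_smul, smul_add, mul_smul, add_assoc,
      wt_mul u.2, tot_xcomp, zero_smul, add_zero]) (by simp only [xcomp_smul, mul_smul])
  smul_zero g := ext (by simp [acomp_smul]) (by simp [xcomp_smul])
  smul_add g c d := ext (by simp only [acomp_smul, map_add, smul_add]; abel)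
    (by simp only [xcomp_smul, map_add, smul_add])

theorem acomp_smul' (H : Subgroup G) (g : H) (c : SplitMod u) :
    acomp (g • c) = g • acomp c + wt u (g : G) (xcomp c) := rfl

theorem xcomp_smul' (H : Subgroup G) (g : H) (c : SplitMod u) :
    xcomp (g • c) = g • xcomp c := rfl

/-- The inclusion of the module. -/
noncomputable def incl : A →+ SplitMod u := AddMonoidHom.inl A (augSub G)

theorem acomp_incl (a : A) : acomp (incl (u := u) a) = a := rfl

theorem xcomp_incl (a : A) : xcomp (incl (u := u) a) = 0 := rfl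

theorem incl_smul (g : G) (a : A) : incl (u := u) (g • a) = g • incl a :=
  ext (by rw [acomp_smul, acomp_incl, acomp_incl, xcomp_incl, map_zero, add_zero])
    (by rw [xcomp_smul, xcomp_incl, xcomp_incl, smul_zero])

variable {p : ℕ}

theorem h1Trivial (hu : IsFund p u) (H : Subgroup G) (hH : IsPGroup p H) :
    H1Trivial H (SplitMod u) := by
  classical
  intro c hc
  rw [mem_Z1] at hc
  have hx : (fun s => xcomp (c s)) ∈ Z1 H (Coind G ℤ) := mem_Z1.2 fun s t => by
    rw [hc, map_add, xcomp_smul']
  obtain ⟨y, hy⟩ := mem_B1.1 ((Coind.relTriv H).h1 _ hx)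
  have hε : tot y • cochainMap2 H.subtype (AddMonoidHom.id A) (u : G × G → A) ∈ B2 H A := by
    refine mem_B2.2 ⟨fun t => wt (u : G × G → A) (t : G) y - acomp (c t), fun s t => ?_⟩
    have h := congrArg acomp (hc s t)
    rw [map_add, acomp_smul', hy t, map_sub] at h
    have hw := wt_mul u.2 (s : G) (t : G) y
    simp only [Pi.smul_apply, res_apply]
    rw [h, smul_sub]
    change _ = (s : G) • wt u (t : G) y - (s : G) • acomp (c t) - (wt u ((s : G) * (t : G)) y -
      ((s : G) • acomp (c t) + (wt u (s : G) ((t : G) • y) - wt u (s : G) y) + acomp (c s))) +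
      (wt u (s : G) y - acomp (c s))
    rw [eq_sub_of_add_eq hw]
    abel
  obtain ⟨d, hd⟩ := (hu.smul_mem_iff H hH _).1 hε
  let ind : Coind G ℤ := Coind.mk fun x => if x ∈ H then 1 else 0
  have hind : tot ind = Nat.card H := by
    rw [tot_apply, show Nat.card H = (Finset.univ.filter (· ∈ H)).card from by
      rw [Nat.card_eq_fintype_card, Fintype.card_subtype]]
    simp [ind, Coind.ev_mk]
  have hindfix : ∀ s : H, s • ind = ind := fun s => Coind.ext fun x => by
    rw [Subgroup.smul_def, Coind.ev_smul, Coind.ev_mk, Coind.ev_mk,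
      Subgroup.mul_mem_cancel_left H (inv_mem s.2)]
  let c0 : SplitMod u := mk 0 (y - d • ind) (by
    rw [map_sub, map_zsmul, hind, hd, smul_eq_mul, mul_comm, sub_self])
  have hx0 : ∀ s : H, xcomp (c s - (s • c0 - c0)) = 0 := fun s => by
    rw [map_sub, map_sub, hy, xcomp_smul', xcomp_mk, smul_sub, smul_comm s d ind, hindfix]
    abel
  have ha : (fun s => acomp (c s - (s • c0 - c0))) ∈ Z1 H A := mem_Z1.2 fun s t => by
    have hc' : c (s * t) - ((s * t) • c0 - c0)
        = s • (c t - (t • c0 - c0)) + (c s - (s • c0 - c0)) := by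
      rw [hc, mul_smul, smul_sub, smul_sub]; abel
    rw [hc', map_add, acomp_smul', hx0, map_zero, add_zero]
  obtain ⟨a, ha⟩ := mem_B1.1 (hu.h1 H hH _ ha)
  refine mem_B1.2 ⟨c0 + incl a, fun s => ?_⟩
  have : c s - (s • c0 - c0) = s • incl a - incl a := by
    refine ext ?_ ?_
    · rw [ha, map_sub, acomp_smul', acomp_incl, xcomp_incl, map_zero, add_zero]
    · rw [hx0, map_sub, xcomp_smul', xcomp_incl, smul_zero, sub_zero]
  rw [smul_add, ← sub_eq_zero, ← sub_eq_zero.2 this]
  abel

theorem h2Trivial (hu : IsFund p u) (H : Subgroup G) (hH : IsPGroup p H) :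
    H2Trivial H (SplitMod u) := by
  classical
  intro c hc
  rw [mem_Z2] at hc
  have hx : (fun z => xcomp (c z)) ∈ Z2 H (Coind G ℤ) := mem_Z2.2 fun r s t => by
    have := congrArg xcomp (hc r s t)
    rwa [map_add, map_add, xcomp_smul'] at this
  obtain ⟨y, hy⟩ := mem_B2.1 ((Coind.relTriv H).h2 _ hx)
  have hhom : ∀ s t : H, tot (y (s * t)) = tot (y s) + tot (y t) := fun s t => by
    have h := congrArg tot (hy s t)
    rw [tot_xcomp, map_add, map_sub, Subgroup.smul_def, tot_smul] at h
    omega
  let F : H →* Multiplicative ℤ := MonoidHom.mk' (fun s => Multiplicative.ofAdd (tot (y s)))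
    fun s t => by rw [hhom]; rfl
  have hy0 : ∀ s : H, tot (y s) = 0 := fun s => by
    have h : orderOf s • tot (y s) = 0 := by
      have h := congrArg Multiplicative.toAdd (F.map_pow s (orderOf s))
      rw [pow_orderOf_eq_one, map_one] at h
      exact h.symm
    rw [nsmul_eq_mul, mul_eq_zero, Nat.cast_eq_zero] at h
    exact h.resolve_left (orderOf_pos s).ne'
  let b : H → SplitMod u := fun s => mk 0 (y s) (hy0 s)
  let c' : H × H → SplitMod u := c - d1 H (SplitMod u) b
  have hc' : c' ∈ Z2 H (SplitMod u) := sub_mem (mem_Z2.2 hc) (mem_Z2.2 fun r s t => by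
    simp only [d1_apply, smul_add, smul_sub, ← mul_smul, mul_assoc]; abel)
  have hxc' : ∀ z, xcomp (c' z) = 0 := fun z => by
    obtain ⟨s, t⟩ := z
    simp only [c', b, Pi.sub_apply, d1_apply, map_sub, map_add, xcomp_smul', xcomp_mk, hy]
    exact sub_self _
  have hac : (fun z => acomp (c' z)) ∈ Z2 H A := mem_Z2.2 fun r s t => by
    have := congrArg acomp (mem_Z2.1 hc' r s t)
    rwa [map_add, map_add, acomp_smul', hxc', map_zero, add_zero] at this
  obtain ⟨m, hm⟩ := hu.gen H hH _ hac
  obtain ⟨e, he⟩ := mem_B2.1 hm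
  let w : H → SplitMod u := fun t => mk ((u : G × G → A) (1, 1))
    (Coind.mk (Pi.single (t : G) 1) - Coind.mk (Pi.single 1 1))
    (by simp [tot_apply, Coind.ev_mk, Pi.single_apply])
  have hw : ∀ s t : H, s • w t - w (s * t) + w s
      = incl ((u : G × G → A) ((s : G), (t : G))) := fun s t => by
    refine ext ?_ ?_
    · have hwt : ∀ r q : H, wt (u : G × G → A) (r : G) (xcomp (w q))
          = (u : G × G → A) ((r : G), (q : G)) - (r : G) • (u : G × G → A) (1, 1) := fun r q => by
        rw [wt_apply]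
        simp only [w, xcomp_mk, map_sub, Coind.ev_mk, sub_smul, Pi.single_apply, ite_smul,
          one_smul, zero_smul, Finset.sum_sub_distrib, Finset.sum_ite_eq', Finset.mem_univ, if_true]
        rw [← Z2_one_right u.2]
      rw [map_add, map_sub, acomp_smul', hwt, acomp_incl]
      simp only [w, acomp_mk, Subgroup.smul_def]
      abel
    · rw [map_add, map_sub, xcomp_smul', xcomp_incl]
      simp only [w, xcomp_mk]
      refine Coind.ext fun x => ?_
      simp only [map_add, map_sub, map_zero, Subgroup.smul_def, Subgroup.coe_mul, Coind.ev_smul,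
        Coind.ev_mk, Pi.single_apply, inv_mul_eq_iff_eq_mul, mul_one]
      abel
  have key : c' = d1 H (SplitMod u) (fun s => incl (e s) + m • w s) := by
    funext z
    obtain ⟨s, t⟩ := z
    have h1 : c' (s, t) = incl (acomp (c' (s, t))) :=
      ext (acomp_incl _).symm (by rw [hxc', xcomp_incl])
    have he' : acomp (c' (s, t)) - m • (u : G × G → A) ((s : G), (t : G))
        = s • e t - e (s * t) + e s := he s t
    rw [h1, eq_add_of_sub_eq he', map_add, map_zsmul, ← hw, map_add, map_sub, d1_apply,
      Subgroup.smul_def, incl_smul, smul_add, smul_add, smul_sub, smul_comm s m]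
    simp only [Subgroup.smul_def]
    abel
  refine mem_B2.2 ⟨b + fun s => incl (e s) + m • w s, fun s t => ?_⟩
  have := congrFun key (s, t)
  simp only [c', Pi.sub_apply, sub_eq_iff_eq_add] at this
  rw [this, ← Pi.add_apply (d1 H (SplitMod u) _) (d1 H (SplitMod u) b) (s, t), ← map_add,
    add_comm, d1_apply]

end SplitMod

end FermatLib.CFT.TN
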