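import Fermat.Agent.CFT.TNBasic

/-!
Tate-Nakayama duality, part 3: a module with trivial first and second cohomology on all
`p`-subgroups has all invariants equal to norms, and so have its modules of maps from lattices.
-/

set_option autoImplicit false

namespace FermatLib.CFT.TN

open FermatLib.CFT

/-- The action on an invariant subgroup. -/
@[reducible] def subAction {P V : Type*} [Group P] [AddCommGroup V] [DistribMulAction P V]
    (R : AddSubgroup V) (hR : ∀ (g : P), ∀ v ∈ R, g • v ∈ R) : DistribMulAction P R where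
  smul g x := ⟨g • (x : V), hR g x x.2⟩
  one_smul x := Subtype.ext (one_smul P (x : V))
  mul_smul a b x := Subtype.ext (mul_smul a b (x : V))
  smul_zero a := Subtype.ext (smul_zero a)
  smul_add a x y := Subtype.ext (smul_add a (x : V) y)

section cover
variable {P : Type*} [Group P] [Fintype P] {M : Type*} [AddCommGroup M] [DistribMulAction P M]

/-- The canonical cover of a module by a coinduced module without torsion. -/
noncomputable def cover : Coind P (M →₀ ℤ) →+ M :=
  ∑ g : P, (DistribSMul.toAddMonoidHom M g).comp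
    ((Finsupp.liftAddHom fun m => zmultiplesHom M m).comp (Coind.ev g))

theorem cover_apply (f : Coind P (M →₀ ℤ)) :
    cover (M := M) f = ∑ g : P, g • (Finsupp.liftAddHom fun m => zmultiplesHom M m) (Coind.ev g f) := by
  simp [cover]

theorem cover_smul (s : P) (f : Coind P (M →₀ ℤ)) : cover (s • f) = s • cover (M := M) f := by
  simp only [cover_apply, Finset.smul_sum, Coind.ev_smul, ← mul_smul]
  exact (Fintype.sum_equiv (Equiv.mulLeft s) _ _ fun g => by simp).symm

theorem cover_surjective : Function.Surjective (cover (P := P) (M := M)) := by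
  classical
  intro m
  refine ⟨Coind.mk (Pi.single 1 (Finsupp.single m 1)), ?_⟩
  rw [cover_apply, Finset.sum_eq_single 1]
  · simp [Coind.ev_mk]
  · intro g _ hg; simp [Coind.ev_mk, hg]
  · simp

end cover

section homNorm
variable {p : ℕ} [Fact p.Prime] {P : Type*} [Group P] [Fintype P]
  {M : Type*} [AddCommGroup M] [DistribMulAction P M]
  {X : Type*} [AddCommGroup X] [Module.Free ℤ X] [DistribMulAction P X]

theorem exists_norm_of_equivariant (hP : IsPGroup p P) (h1 : H1Trivial P M)
    (hnorm : ∀ a ∈ fixedPts P M, ∃ b : M, ∑ g : P, g • b = a) (H : X →+ M)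
    (hH : ∀ (g : P) (x : X), H (g • x) = g • H x) :
    ∃ f : X →+ M, ∀ x, H x = ∑ g : P, g • f (g⁻¹ • x) := by
  classical
  set π := cover (P := P) (M := M)
  let K := π.ker
  letI instK : DistribMulAction P K := subAction K fun g v hv => by
    rw [AddMonoidHom.mem_ker, cover_smul, AddMonoidHom.mem_ker.1 hv, smul_zero]
  have coeK : ∀ (g : P) (v : K), ((g • v : K) : Coind P (M →₀ ℤ)) = g • (v : Coind P _) :=
    fun _ _ => rfl
  have tf : ∀ (n : ℕ), n ≠ 0 → ∀ v : K, n • v = 0 → v = 0 := fun n hn v hv => by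
    refine Subtype.ext (Coind.ext fun x => ?_)
    have := congrArg (fun w : K => Coind.ev x (w : Coind P (M →₀ ℤ))) hv
    simp only [AddSubgroup.coe_nsmul, map_nsmul, ZeroMemClass.coe_zero, map_zero] at this ⊢
    exact (smul_eq_zero.1 this).resolve_left hn
  haveI : Fintype (⊤ : Subgroup P) := Fintype.ofFinite _
  obtain ⟨eF, heF⟩ : RelTriv P (Coind P (M →₀ ℤ)) := by
    obtain ⟨e, he⟩ := Coind.relTriv (W := M →₀ ℤ) (⊤ : Subgroup P)
    exact ⟨e, fun m => (Fintype.sum_equiv Subgroup.topEquiv.toEquiv.symm _ _ fun g => rfl).trans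
      (he m)⟩
  have hF : RelTriv P (Coind P (M →₀ ℤ)) := ⟨eF, heF⟩
  let pK : AddSubgroup K := (nsmulAddMonoidHom (α := K) p).range
  letI instV : DistribMulAction P (K ⧸ pK) := quotAction pK fun g v hv => by
    obtain ⟨w, rfl⟩ := hv
    exact ⟨g • w, (smul_comm g p w).symm⟩
  have hmk : ∀ (g : P) (v : K), ((g • v : K) : K ⧸ pK) = g • (v : K ⧸ pK) := fun _ _ => rfl
  have sn : ∀ (g : P) (n : ℕ) (v : K), g • (n • v) = n • (g • v) :=
    fun g n v => smul_comm g n v
  have hp0 : ∀ x : K ⧸ pK, p • x = 0 := fun x => by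
    induction x using QuotientAddGroup.induction_on with
    | H v => exact (QuotientAddGroup.eq_zero_iff _).2 ⟨v, rfl⟩
  have hV1 : H1Trivial P (K ⧸ pK) := by
    intro v hv
    rw [mem_Z1] at hv
    choose k hk using fun s => QuotientAddGroup.mk_surjective (v s)
    have hw' : ∀ z : P × P, ∃ w : K, p • w = d1 P K k z := fun ⟨s, t⟩ => by
      refine AddMonoidHom.mem_range.1 ((QuotientAddGroup.eq_zero_iff (N := pK) _).1 ?_)
      rw [d1_apply, QuotientAddGroup.mk_add, QuotientAddGroup.mk_sub, hmk, hk, hk, hk, hv]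
      abel
    choose w hw using hw'
    have hwF : (fun z => (w z : Coind P (M →₀ ℤ))) ∈ Z2 P (Coind P (M →₀ ℤ)) :=
      mem_Z2.2 fun r s t => by
        have h : p • (r • w (s, t) + w (r, s * t) - (w (r * s, t) + w (r, s))) = 0 := by
          simp only [← sn, hw, d1_apply, smul_add, smul_sub,
            ← mul_smul, mul_assoc]
          abel
        have := congrArg Subtype.val (sub_eq_zero.1 (tf p (Fact.out : p.Prime).ne_zero _ h))
        exact this
    obtain ⟨e, he⟩ := mem_B2.1 (hF.h2 _ hwF)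
    have hπe : (fun s => π (e s)) ∈ Z1 P M := mem_Z1.2 fun s t => by
      have h := congrArg π (he s t)
      rw [AddMonoidHom.mem_ker.1 (w (s, t)).2, map_add, map_sub, cover_smul] at h
      rw [← sub_eq_zero, ← neg_eq_zero, h]
      abel
    obtain ⟨c, hc⟩ := mem_B1.1 (h1 _ hπe)
    obtain ⟨c', hc'⟩ := cover_surjective (P := P) c
    let e' : P → K := fun s => ⟨e s - (s • c' - c'), by
      rw [AddMonoidHom.mem_ker, map_sub, map_sub, cover_smul, hc', hc s, sub_self]⟩
    have he' : ∀ s t, w (s, t) = s • e' t - e' (s * t) + e' s := fun s t => Subtype.ext (by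
      push_cast
      simp only [coeK, e', he, smul_sub, ← mul_smul]
      abel)
    let k' : P → K := fun s => k s - p • e' s
    have hk'1 : ∀ s t, k' (s * t) = s • k' t + k' s := fun s t => by
      have h := hw (s, t)
      rw [he', d1_apply, nsmul_add, nsmul_sub, ← sn] at h
      simp only [k', smul_sub]
      rw [← sub_eq_zero]
      rw [← sub_eq_zero] at h
      rw [← h]
      abel
    obtain ⟨a, ha⟩ := mem_B1.1 (hF.h1 (fun s => (k' s : Coind P (M →₀ ℤ)))
      (mem_Z1.2 fun s t => congrArg Subtype.val (hk'1 s t)))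
    have hπa : π a ∈ fixedPts P M := fun g => by
      have := congrArg π (ha g)
      rw [AddMonoidHom.mem_ker.1 (k' g).2, map_sub, cover_smul, eq_comm, sub_eq_zero] at this
      exact this
    obtain ⟨b, hb⟩ := hnorm _ hπa
    obtain ⟨b', hb'⟩ := cover_surjective (P := P) b
    let a' : K := ⟨a - ∑ g : P, g • b', by
      rw [AddMonoidHom.mem_ker, map_sub, map_sum]
      simp only [π, cover_smul]
      rw [hb', hb]
      exact sub_self _⟩
    refine mem_B1.2 ⟨(a' : K ⧸ pK), fun s => ?_⟩
    have h : k' s = s • a' - a' := Subtype.ext (by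
      push_cast
      rw [coeK, ha s]
      show _ = s • (a - ∑ g : P, g • b') - (a - ∑ g : P, g • b')
      rw [smul_sub, Finset.smul_sum, Fintype.sum_equiv (Equiv.mulLeft s) (fun g => s • g • b')
        (fun g => g • b') (fun g => (mul_smul s g b').symm)]
      abel)
    rw [← hk, ← hmk, ← QuotientAddGroup.mk_sub, ← h, QuotientAddGroup.eq_iff_sub_mem]
    exact ⟨e' s, (sub_sub_cancel (k s) (p • e' s)).symm⟩
  obtain ⟨e, he⟩ := relTriv_of_h1 hP hp0 hV1
  have step : ∀ z : P → X →+ K, (∀ s t x, z (s * t) x = s • z t (s⁻¹ • x) + z s x) →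
      ∃ (a : X →+ K) (z' : P → X →+ K), (∀ s t x, z' (s * t) x = s • z' t (s⁻¹ • x) + z' s x) ∧
        ∀ s x, z s x = s • a (s⁻¹ • x) - a x + p • z' s x := by
    intro z hz
    let a0 : X →+ K ⧸ pK := -∑ g : P, (DistribSMul.toAddMonoidHom _ g).comp (e.comp
      ((DistribSMul.toAddMonoidHom _ g⁻¹).comp ((QuotientAddGroup.mk' pK).comp (z g))))
    have a0_apply : ∀ x, a0 x = -∑ g : P, g • e (g⁻¹ • ((z g x : K) : K ⧸ pK)) := fun x => by
      simp [a0]
    obtain ⟨a, ha⟩ := Module.projective_lifting_property (R := ℤ)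
      (QuotientAddGroup.mk' pK).toIntLinearMap a0.toIntLinearMap (QuotientAddGroup.mk'_surjective pK)
    have ha' : ∀ x, ((a x : K) : K ⧸ pK) = a0 x := LinearMap.congr_fun ha
    have hrel : ∀ s x, ∃ w : K, p • w = z s x - (s • a (s⁻¹ • x) - a x) := fun s x => by
      refine AddMonoidHom.mem_range.1 ((QuotientAddGroup.eq_zero_iff (N := pK) _).1 ?_)
      have key : ∀ g : P, s • g • e (g⁻¹ • ((z g (s⁻¹ • x) : K) : K ⧸ pK))
          = (s * g) • e ((s * g)⁻¹ • ((z (s * g) x : K) : K ⧸ pK))
            - (s * g) • e ((s * g)⁻¹ • ((z s x : K) : K ⧸ pK)) := fun g => by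
        rw [← smul_sub, ← map_sub, ← smul_sub, hz, QuotientAddGroup.mk_add, hmk,
          add_sub_cancel_right, ← mul_smul, ← mul_smul, mul_inv_rev, inv_mul_cancel_right]
      rw [QuotientAddGroup.mk_sub, QuotientAddGroup.mk_sub, hmk, ha', ha', a0_apply, a0_apply,
        smul_neg, Finset.smul_sum, sub_neg_eq_add]
      simp_rw [key]
      rw [Finset.sum_sub_distrib,
        Fintype.sum_equiv (Equiv.mulLeft s)
          (fun g => (s * g) • e ((s * g)⁻¹ • ((z (s * g) x : K) : K ⧸ pK)))
          (fun g => g • e (g⁻¹ • ((z g x : K) : K ⧸ pK))) (fun _ => rfl),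
        Fintype.sum_equiv (Equiv.mulLeft s)
          (fun g => (s * g) • e ((s * g)⁻¹ • ((z s x : K) : K ⧸ pK)))
          (fun g => g • e (g⁻¹ • ((z s x : K) : K ⧸ pK))) (fun _ => rfl), he]
      abel
    choose w hw using hrel
    have inj : ∀ u v : K, p • u = p • v → u = v := fun u v h =>
      sub_eq_zero.1 (tf p (Fact.out : p.Prime).ne_zero _ (by rw [nsmul_sub, h, sub_self]))
    refine ⟨a.toAddMonoidHom, fun s => AddMonoidHom.mk' (w s) fun x y => inj _ _ (by
      rw [nsmul_add, hw, hw, hw, map_add, map_add, smul_add, map_add, smul_add]; abel),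
      fun s t x => inj _ _ ?_, fun s x => ?_⟩
    · simp only [AddMonoidHom.mk'_apply]
      rw [nsmul_add, ← sn, hw, hw, hw, hz, smul_sub, smul_sub, ← mul_smul, ← mul_smul,
        mul_inv_rev]
      abel
    · rw [AddMonoidHom.mk'_apply, hw]
      exact (add_sub_cancel _ _).symm
  have vanish : ∀ z : P → X →+ K, (∀ s t x, z (s * t) x = s • z t (s⁻¹ • x) + z s x) →
      ∃ a : X →+ K, ∀ s x, z s x = s • a (s⁻¹ • x) - a x := by
    intro z hz
    have iter : ∀ k : ℕ, ∃ (a : X →+ K) (z' : P → X →+ K),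
        (∀ s t x, z' (s * t) x = s • z' t (s⁻¹ • x) + z' s x) ∧
          ∀ s x, z s x = s • a (s⁻¹ • x) - a x + p ^ k • z' s x := by
      intro k
      induction k with
      | zero => exact ⟨0, z, hz, fun s x => by simp⟩
      | succ k ih =>
        obtain ⟨a, z', hz', h⟩ := ih
        obtain ⟨b, z'', hz'', h'⟩ := step z' hz'
        refine ⟨a + p ^ k • b, z'', hz'', fun s x => ?_⟩
        rw [h, h', pow_succ, mul_nsmul']
        simp only [AddMonoidHom.add_apply, AddMonoidHom.smul_apply, smul_add, sn, nsmul_sub]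
        abel
    obtain ⟨k, hk⟩ := IsPGroup.iff_card.1 hP
    obtain ⟨a, z', hz', h⟩ := iter k
    refine ⟨a - ∑ g : P, z' g, fun s x => ?_⟩
    have hsum : Nat.card P • z' s x
        = ∑ g : P, z' g x - s • ∑ g : P, z' g (s⁻¹ • x) := by
      have : ∀ g, z' s x = z' (s * g) x - s • z' g (s⁻¹ • x) := fun g => by rw [hz']; abel
      rw [Nat.card_eq_fintype_card, ← Finset.card_univ, ← Finset.sum_const]
      conv_lhs => arg 2; ext g; rw [this g]
      rw [Finset.sum_sub_distrib, Finset.smul_sum]
      congr 1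
      exact Fintype.sum_equiv (Equiv.mulLeft s) _ _ fun _ => rfl
    rw [h, ← hk, hsum, AddMonoidHom.sub_apply, AddMonoidHom.sub_apply,
      AddMonoidHom.finsetSum_apply, AddMonoidHom.finsetSum_apply, smul_sub]
    abel
  obtain ⟨H', hH'⟩ := Module.projective_lifting_property (R := ℤ) π.toIntLinearMap
    H.toIntLinearMap cover_surjective
  have hH'' : ∀ x, π (H' x) = H x := LinearMap.congr_fun hH'
  let z : P → X →+ K := fun s => AddMonoidHom.mk' (fun x => ⟨s • H' (s⁻¹ • x) - H' x, by
      rw [AddMonoidHom.mem_ker, map_sub, cover_smul, hH'', hH'', ← hH, smul_inv_smul, sub_self]⟩)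
    fun x y => Subtype.ext (by push_cast; rw [map_add, smul_add, map_add, smul_add]; abel)
  obtain ⟨a, ha⟩ := vanish z fun s t x => Subtype.ext (by
    simp only [z, AddMonoidHom.mk'_apply, AddSubgroup.coe_add, coeK, smul_sub, ← mul_smul,
      mul_inv_rev]
    abel)
  let H'' : X →+ Coind P (M →₀ ℤ) := H'.toAddMonoidHom - K.subtype.comp a
  have hfix : ∀ s x, H'' (s⁻¹ • x) = s⁻¹ • H'' x := fun s x => by
    have h := congrArg Subtype.val (ha s x)
    simp only [z, AddMonoidHom.mk'_apply, AddSubgroup.coe_sub, coeK] at h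
    show H' (s⁻¹ • x) - (a (s⁻¹ • x) : Coind P (M →₀ ℤ)) = s⁻¹ • (H' x - a x)
    rw [eq_inv_smul_iff, smul_sub, ← sub_eq_zero]
    rw [← sub_eq_zero] at h
    rw [← h]
    abel
  refine ⟨π.comp (eF.comp H''), fun x => ?_⟩
  have : H x = π (H'' x) := by
    show _ = π (H' x - (a x : Coind P (M →₀ ℤ)))
    rw [map_sub, AddMonoidHom.mem_ker.1 (a x).2, sub_zero, hH'']
  rw [this, ← heF (H'' x), map_sum]
  exact Finset.sum_congr rfl fun g _ => by
    rw [cover_smul, AddMonoidHom.comp_apply, AddMonoidHom.comp_apply, hfix]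

end homNorm

end FermatLib.CFT.TN
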