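import Fermat.Agent.CFT.TWGroupVanish

/-!
# The group theoretic lemma on Taylor–Wiles elements

A class of the twisted adjoint representation which is locally trivial at every element with
distinct eigenvalues of a normal subgroup `H ≤ ker ω` with abelian quotient is trivial.  No
classification of the finite subgroups of `GL₂` is used: the trace of the associated infinitesimal
deformation is shown to be constant on `H`.
-/

set_option autoImplicit false

open Matrix

namespace FermatLib.CFT.TW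

open FermatLib.Galois

variable {G : Type*} [Group G] {k : Type*} [Field k]

local notation "M₂" R:max => Matrix (Fin 2) (Fin 2) R

variable {ρ : G →* M₂ k} {ω : G →* kˣ} {ψ : G → M₂ k} {H : Subgroup G}

section

variable (p : ℕ) [Fact p.Prime] [CharP k p] (hp2 : p ≠ 2)
include hp2

lemma two_ne_zero_of_charP : (2 : k) ≠ 0 := by
  intro h
  have : (p : ℕ) ∣ 2 := (CharP.cast_eq_zero_iff k p 2).mp (by exact_mod_cast h)
  exact hp2 ((Nat.prime_dvd_prime_iff_eq Fact.out Nat.prime_two).mp this)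

theorem TraceSetting.traceDeriv_eq_zero [Finite k] [H.Normal] (S : TraceSetting ρ ω ψ H)
    (hspan : HasFullSpan (ρ.comp H.subtype))
    (hω : ∀ a : ℕ, ¬ p ∣ a → ∃ g, (ω g : k) = a) {h : G} (hh : h ∈ H) :
    traceDeriv ρ ψ h = 0 := by
  by_cases ht : (ρ h).trace ^ 2 = 4
  · have : ((ρ h).trace - 2) * ((ρ h).trace + 2) = 0 := by linear_combination ht
    rcases mul_eq_zero.mp this with h2 | h2
    · exact S.traceDeriv_eq_zero_of_trace_two p hp2 hspan hω hh (sub_eq_zero.mp h2)
    · have ht' : (ρ h).trace = -2 := eq_neg_of_add_eq_zero_left h2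
      have hd := S.det_one h hh
      have hsq : (ρ (h * h)).trace = 2 := by
        rw [trace_fin_two] at ht' ⊢
        rw [det_fin_two] at hd
        simp only [map_mul, mul_apply, Fin.sum_univ_two]
        linear_combination (ρ h 0 0 + ρ h 1 1 - 2) * ht' - 2 * hd
      have e := traceDeriv_mul_add S.cocycle (S.twist_one h hh) (S.twist_one h hh) hd
      rw [mul_inv_cancel, traceDeriv_one S.cocycle,
        S.traceDeriv_eq_zero_of_trace_two p hp2 hspan hω (mul_mem hh hh) hsq, ht', add_zero] at e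
      have h4 : (4 : k) ≠ 0 := by
        rw [show (4 : k) = 2 * 2 by norm_num]
        exact mul_ne_zero (two_ne_zero_of_charP p hp2) (two_ne_zero_of_charP p hp2)
      exact (mul_eq_zero.mp (show (4 : k) * traceDeriv ρ ψ h = 0 by linear_combination e)).resolve_left h4
  · exact S.regular_zero h hh ht

end

/-- Constant trace forces an infinitesimal deformation to be trivial. -/
lemma exists_inner_of_traceDeriv_eq_zero (hψ : IsTwistedCocycle ρ ω ψ)
    (hω : ∀ h ∈ H, ω h = 1) (hspan : HasFullSpan (ρ.comp H.subtype))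
    (hD : ∀ h ∈ H, traceDeriv ρ ψ h = 0) :
    ∃ X : M₂ k, ∀ h ∈ H, ψ h = X - ρ h * X * ρ h⁻¹ := by
  set r := ρ.comp H.subtype with hr
  obtain ⟨g, hg⟩ := id hspan
  let e := LinearEquiv.ofBijective _ (bijective_combMap hg).1
  let D : (Fin 4 → k) →ₗ[k] M₂ k :=
    ∑ i, (LinearMap.proj i).smulRight (ψ (g i) * ρ (g i))
  let L : M₂ k →ₗ[k] M₂ k := D.comp e.symm.toLinearMap
  have hL : ∀ σ τ : H, (L (r σ) * r τ).trace = -(r σ * (ψ τ * r τ)).trace := by
    intro σ τ
    obtain ⟨c, hc⟩ : ∃ c, c = e.symm (r σ) := ⟨_, rfl⟩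
    have hc' : ∑ i, c i • r (g i) = r σ := by
      rw [← combMap_apply, hc]; exact e.apply_symm_apply (r σ)
    have hLc : L (r σ) = ∑ i, c i • (ψ (g i) * r (g i)) := by
      rw [hc]; simp [L, D, hr]
    have hterm : ∀ i, (ψ (g i) * r (g i) * r τ).trace = -(r (g i) * (ψ τ * r τ)).trace := by
      intro i
      have h0 := hD _ (mul_mem (g i).2 τ.2)
      rw [hψ.traceDeriv_mul (hω _ (g i).2)] at h0
      rw [← mul_assoc (r (g i))]
      exact eq_neg_of_add_eq_zero_left h0
    rw [hLc, ← hc', Finset.sum_mul, trace_sum, Finset.sum_mul, trace_sum, ← Finset.sum_neg_distrib]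
    refine Finset.sum_congr rfl fun i _ => ?_
    rw [smul_mul_assoc, smul_mul_assoc, trace_smul, trace_smul, hterm, smul_neg]
  have hLr : ∀ σ : H, L (r σ) = ψ σ * r σ := fun σ => hspan.trace_ext fun τ => by
    rw [hL]
    have h0 := hD _ (mul_mem σ.2 τ.2)
    rw [hψ.traceDeriv_mul (hω _ σ.2)] at h0
    rw [← mul_assoc (r σ)]
    exact (eq_neg_of_add_eq_zero_left h0).symm
  have hspanmem : ∀ X : M₂ k, X ∈ Submodule.span k (Set.range r) := fun X => by
    rw [hspan.span_range_eq_top]; exact Submodule.mem_top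
  have hder : ∀ X Y, L (X * Y) = L X * Y + X * L Y := by
    have key : ∀ σ τ : H, L (r σ * r τ) = L (r σ) * r τ + r σ * L (r τ) := fun σ τ => by
      rw [← map_mul, hLr, hLr, hLr]
      show ψ ((σ : G) * τ) * ρ ((σ : G) * τ) = _
      rw [hψ.map_mul, hω _ σ.2, Units.val_one, one_smul, add_mul, map_mul]
      show _ = ψ σ * ρ σ * ρ τ + ρ σ * (ψ τ * ρ τ)
      congr 1
      · rw [mul_assoc]
      · simp only [mul_assoc]
        rw [← mul_assoc (ρ (σ : G)⁻¹), rep_inv_mul, one_mul]
    intro X Y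
    induction hspanmem X using Submodule.span_induction with
    | mem x hx =>
      obtain ⟨σ, rfl⟩ := hx
      induction hspanmem Y using Submodule.span_induction with
      | mem y hy => obtain ⟨τ, rfl⟩ := hy; exact key σ τ
      | zero => simp
      | add a b _ _ ha hb => simp only [mul_add, map_add, ha, hb]; abel
      | smul c a _ ha => simp only [mul_smul_comm, map_smul, ha, smul_add]
    | zero => simp
    | add a b _ _ ha hb => simp only [add_mul, map_add, ha, hb]; abel
    | smul c a _ ha => simp only [smul_mul_assoc, map_smul, ha, smul_add]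
  refine ⟨L !![1, 0; 0, 0] * !![1, 0; 0, 0] + L !![0, 0; 1, 0] * !![0, 1; 0, 0], fun h hh => ?_⟩
  set E0 : M₂ k := !![1, 0; 0, 0]
  set E1 : M₂ k := !![0, 0; 1, 0]
  set F0 : M₂ k := !![1, 0; 0, 0]
  set F1 : M₂ k := !![0, 1; 0, 0]
  set X := L E0 * F0 + L E1 * F1
  have hinner : ∀ Y, L Y = X * Y - Y * X := by
    intro Y
    have hone : E0 * F0 + E1 * F1 = 1 := by
      ext i j; fin_cases i <;> fin_cases j <;> simp [E0, F0, E1, F1]
    have hF0 : Y 0 0 • F0 + Y 0 1 • F1 = F0 * Y := by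
      ext i j; fin_cases i <;> fin_cases j <;> simp [F0, F1, mul_apply, Fin.sum_univ_two]
    have hF1 : Y 1 0 • F0 + Y 1 1 • F1 = F1 * Y := by
      ext i j; fin_cases i <;> fin_cases j <;> simp [F0, F1, mul_apply, Fin.sum_univ_two]
    have hE0 : Y * E0 = Y 0 0 • E0 + Y 1 0 • E1 := by
      ext i j; fin_cases i <;> fin_cases j <;> simp [E0, E1, mul_apply, Fin.sum_univ_two]
    have hE1 : Y * E1 = Y 0 1 • E0 + Y 1 1 • E1 := by
      ext i j; fin_cases i <;> fin_cases j <;> simp [E0, E1, mul_apply, Fin.sum_univ_two]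
    have h1 : L (Y * E0) * F0 + L (Y * E1) * F1 = L Y + Y * X := by
      rw [hder, hder, add_mul, add_mul, mul_assoc (L Y), mul_assoc (L Y), mul_assoc Y, mul_assoc Y]
      calc _ = L Y * (E0 * F0 + E1 * F1) + Y * X := by simp only [X, mul_add]; abel
        _ = _ := by rw [hone, mul_one]
    have h2 : L (Y * E0) * F0 + L (Y * E1) * F1 = X * Y := by
      rw [hE0, hE1, map_add, map_add, map_smul, map_smul, map_smul, map_smul]
      simp only [X, add_mul, smul_mul_assoc, mul_assoc, ← hF0, ← hF1, mul_add, mul_smul_comm]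
      abel
    rw [← h2, h1, add_sub_cancel_right]
  have e := hLr ⟨h, hh⟩
  rw [hinner] at e
  calc ψ h = ψ h * ρ h * ρ h⁻¹ := by rw [mul_assoc, rep_mul_inv, mul_one]
    _ = (X * ρ h - ρ h * X) * ρ h⁻¹ := congrArg (· * ρ h⁻¹) e.symm
    _ = _ := by rw [sub_mul, mul_assoc, rep_mul_inv, mul_one]

/-- **Taylor–Wiles elements exist.**  If `ψ` is locally trivial at all regular elements of `H`
then it is a coboundary. -/
theorem eq_coboundary_of_regular_locally_trivial [Finite k] (p : ℕ) [Fact p.Prime] [CharP k p]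
    (hp2 : p ≠ 2) (hρ : HasFullSpan ρ)
    (hdih : ∀ L : Subgroup G, L.index = 2 → HasFullSpan (ρ.comp L.subtype))
    (hdet : ∀ g, (ρ g).det = ω g) (hωsurj : ∀ a : ℕ, ¬ p ∣ a → ∃ g, (ω g : k) = a)
    (H : Subgroup G) [H.Normal] (hab : ∀ a b : G, a * b * a⁻¹ * b⁻¹ ∈ H) (hωH : ∀ h ∈ H, ω h = 1)
    (hψ : IsTwistedCocycle ρ ω ψ)
    (hreg : ∀ h ∈ H, (ρ h).trace ^ 2 ≠ 4 → (ψ h * ρ h).trace = 0) :
    ∃ X : M₂ k, X.trace = 0 ∧ ∀ g, ψ g = (ω g : k) • (ρ g * X * ρ g⁻¹) - X := by
  have hspan := hasFullSpan_of_normal ρ hρ hdih H hab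
  have S : TraceSetting ρ ω ψ H :=
    ⟨hψ, hωH, fun h hh => by rw [hdet, hωH h hh, Units.val_one], hreg⟩
  obtain ⟨X, hX⟩ := exists_inner_of_traceDeriv_eq_zero hψ hωH hspan
    (fun h hh => S.traceDeriv_eq_zero p hp2 hspan hωsurj hh)
  have h2 : (2 : k) ≠ 0 := two_ne_zero_of_charP p hp2
  refine ⟨Matrix.scalar (Fin 2) (X.trace / 2) - X, ?_, fun g => ?_⟩
  · simp [trace_sub, Matrix.scalar_apply, trace_diagonal]
    field_simp
    ring
  set Y := Matrix.scalar (Fin 2) (X.trace / 2) - X with hY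
  have hYt : Y.trace = 0 := by
    simp [hY, trace_sub, Matrix.scalar_apply, trace_diagonal]
    field_simp
    ring
  have hYH : ∀ h ∈ H, ψ h = ρ h * Y * ρ h⁻¹ - Y := by
    intro h hh
    rw [hX h hh, hY, mul_sub, sub_mul, ← scalar_commute, mul_assoc (Matrix.scalar (Fin 2) _),
      rep_mul_inv, mul_one]
    abel
  set φ : G → M₂ k := fun g => ψ g - ((ω g : k) • (ρ g * Y * ρ g⁻¹) - Y) with hφ
  have hφmul : ∀ a b, φ (a * b) = φ a + (ω a : k) • (ρ a * φ b * ρ a⁻¹) := by
    intro a b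
    simp only [hφ, hψ.map_mul, map_mul, Units.val_mul, _root_.mul_inv_rev, mul_sub, sub_mul, smul_sub,
      mul_smul_comm, smul_mul_assoc, smul_smul, mul_assoc]
    abel
  have hφH : ∀ h ∈ H, φ h = 0 := fun h hh => by
    simp only [hφ, hωH h hh, Units.val_one, one_smul, hYH h hh, sub_self]
  have hcomm : ∀ h ∈ H, φ g * ρ h = ρ h * φ g := by
    intro h hh
    have e1 := hφmul h g
    have e2 := hφmul g (g⁻¹ * h * g)
    have hc : g⁻¹ * h * g ∈ H := by
      simpa using Subgroup.Normal.conj_mem (H := H) inferInstance h hh g⁻¹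
    rw [hφH h hh, zero_add, hωH h hh, Units.val_one, one_smul] at e1
    rw [show g * (g⁻¹ * h * g) = h * g by group, hφH _ hc, mul_zero, zero_mul, smul_zero,
      add_zero] at e2
    rw [e2] at e1
    calc φ g * ρ h = ρ h * φ g * ρ h⁻¹ * ρ h := by rw [← e1]
      _ = ρ h * φ g := by rw [mul_assoc, rep_inv_mul, mul_one]
  have hφt : (φ g).trace = 0 := by
    simp only [hφ, trace_sub, trace_smul, trace_mul_cycle, rep_inv_mul, one_mul, hψ.trace_zero,
      hYt, smul_zero, sub_self]
  have hsc := hspan.eq_scalar_of_commute (P := φ g) (fun σ => hcomm σ σ.2)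
  have hzero : φ g = 0 := by
    rw [hsc] at hφt
    simp [Matrix.scalar_apply, trace_diagonal] at hφt
    have : φ g 0 0 = 0 := by
      grind
    rw [hsc, this, map_zero]
  exact sub_eq_zero.mp hzero

/-- A normal subgroup with abelian quotient contains an element with distinct eigenvalues. -/
theorem exists_regular (p : ℕ) [Fact p.Prime] [CharP k p] (hp2 : p ≠ 2) (hρ : HasFullSpan ρ)
    (hdih : ∀ L : Subgroup G, L.index = 2 → HasFullSpan (ρ.comp L.subtype))
    (hdet : ∀ g, (ρ g).det = ω g)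
    (H : Subgroup G) [H.Normal] (hab : ∀ a b : G, a * b * a⁻¹ * b⁻¹ ∈ H) (hωH : ∀ h ∈ H, ω h = 1) :
    ∃ h ∈ H, (ρ h).trace ^ 2 ≠ 4 := by
  have hspan := hasFullSpan_of_normal ρ hρ hdih H hab
  have h2 : (2 : k) ≠ 0 := two_ne_zero_of_charP p hp2
  have hd : ∀ h ∈ H, (ρ h).det = 1 := fun h hh => by rw [hdet, hωH h hh, Units.val_one]
  by_contra hall
  push Not at hall
  obtain ⟨⟨u₀, hu₀⟩, hns⟩ : ∃ u : H, ρ u ≠ Matrix.scalar (Fin 2) (ρ u 0 0) := by
    by_contra h
    push Not at h
    have e := hspan.eq_scalar_of_commute (P := !![0, 1; 0, 0])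
      (fun σ => by
        show _ * ρ σ = ρ σ * _
        rw [h σ]; exact (scalar_commute _ _).symm)
    have := congrFun (congrFun e 0) 1
    simp at this
  have hsq : (ρ (u₀ * u₀)).trace = 2 := by
    have ht := hall u₀ hu₀
    have hd' := hd u₀ hu₀
    rw [trace_fin_two] at ht ⊢
    rw [det_fin_two] at hd'
    simp only [map_mul, mul_apply, Fin.sum_univ_two]
    linear_combination ht - 2 * hd'
  set u := u₀ * u₀ with hu
  have huH : u ∈ H := mul_mem hu₀ hu₀
  have hN0 : ρ u - 1 ≠ 0 := by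
    intro h
    have hsq1 : ρ u₀ * ρ u₀ = 1 := by rw [← map_mul, ← hu]; exact sub_eq_zero.mp h
    apply hns
    have ht := hall u₀ hu₀
    have hd' := hd u₀ hu₀
    have e00 := congrFun (congrFun hsq1 0) 0
    have e01 := congrFun (congrFun hsq1 0) 1
    have e10 := congrFun (congrFun hsq1 1) 0
    simp only [mul_apply, Fin.sum_univ_two, one_apply_eq, one_apply_ne (show (0 : Fin 2) ≠ 1 by decide),
      one_apply_ne (show (1 : Fin 2) ≠ 0 by decide)] at e00 e01 e10
    rw [trace_fin_two] at ht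
    rw [det_fin_two] at hd'
    ext i j
    fin_cases i <;> fin_cases j <;> simp [Matrix.scalar_apply] <;> grind
  obtain ⟨⟨g, hg⟩, hb⟩ : ∃ g : H, (ρ g * (ρ u - 1)).trace ≠ 0 := by
    by_contra h
    push Not at h
    refine hN0 (hspan.trace_ext fun σ => ?_)
    rw [zero_mul, trace_zero, trace_mul_comm]
    exact h σ
  set b := (ρ g * (ρ u - 1)).trace
  have hT : ∀ n : ℕ, ((ρ g).trace + (n : k) * b) ^ 2 = 4 := fun n => by
    rw [← trace_mul_pow (hd u huH) hsq g n]
    exact hall _ (mul_mem hg (pow_mem huH n))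
  have q0 := hT 0
  have q1 := hT 1
  have q2 := hT 2
  push_cast at q0 q1 q2
  exact mul_ne_zero h2 (pow_ne_zero 2 hb) (by linear_combination q2 - 2 * q1 + q0)

end FermatLib.CFT.TW
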