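import Fermat.Agent.Galois.RepField
import Mathlib.GroupTheory.Index

/-!
# Absolute irreducibility on a normal subgroup with abelian quotient

If a two-dimensional representation stays absolutely irreducible on every subgroup of index two,
it stays absolutely irreducible on every normal subgroup with abelian quotient.
-/

set_option autoImplicit false

open Matrix

namespace FermatLib.CFT.TW

open FermatLib.Galois

variable {G : Type*} [Group G] {k K : Type*} [Field k] [Field K]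

local notation "M₂" R:max => Matrix (Fin 2) (Fin 2) R

lemma det_eq_one_commutator (ρ : G →* M₂ k) (a b : G) : (ρ (a * b * a⁻¹ * b⁻¹)).det = 1 := by
  have ha : (ρ a).det * (ρ a⁻¹).det = 1 := by rw [← det_mul, ← map_mul, mul_inv_cancel]; simp
  have hb : (ρ b).det * (ρ b⁻¹).det = 1 := by rw [← det_mul, ← map_mul, mul_inv_cancel]; simp
  simp only [map_mul, det_mul]
  linear_combination (ρ b).det * (ρ b⁻¹).det * ha + hb

lemma scalar_commute (c : k) (X : M₂ k) : Matrix.scalar (Fin 2) c * X = X * Matrix.scalar (Fin 2) c :=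
  (Matrix.scalar_commute c (fun _ => mul_comm _ _) X).eq

/-- Two independent eigenvectors with the same eigenvalue force a scalar matrix. -/
lemma eq_scalar_of_two_eigenvectors {A : M₂ k} {v w : Fin 2 → k} {a : k} (hv0 : v ≠ 0)
    (hw : ∀ c : k, w ≠ c • v) (hv : A *ᵥ v = a • v) (haw : A *ᵥ w = a • w) :
    A = Matrix.scalar (Fin 2) a := by
  let W : Submodule k (Fin 2 → k) := LinearMap.ker (Matrix.toLin' A - a • LinearMap.id)
  have hmv : v ∈ W := by simp [W, hv]
  have hmw : w ∈ W := by simp [W, haw]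
  have htop := eq_top_of_mem_of_ne_smul hmv hmw hv0 hw
  have hall : ∀ x, A *ᵥ x = a • x := fun x => by
    have : x ∈ W := htop ▸ Submodule.mem_top
    simpa [W, sub_eq_zero] using this
  apply Matrix.ext_of_mulVec_single
  intro j
  rw [hall]
  ext i
  simp [Matrix.scalar_apply, Matrix.mulVec_diagonal]

section AlgClosed

variable (ρ : G →* M₂ K)

lemma exists_commuting_subgroup_of_scalar (hρ : HasFullSpan ρ) (H : Subgroup G)
    (hab : ∀ a b : G, a * b * a⁻¹ * b⁻¹ ∈ H)
    (hsc : ∀ h ∈ H, ρ h = Matrix.scalar (Fin 2) (ρ h 0 0)) :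
    ∃ (L : Subgroup G) (P : M₂ K), L.index = 2 ∧ (∀ g ∈ L, P * ρ g = ρ g * P) ∧
      P ≠ Matrix.scalar (Fin 2) (P 0 0) := by
  -- commutators act as signs
  have hsign : ∀ a b : G, ρ a * ρ b = ρ b * ρ a ∨ ρ a * ρ b = -(ρ b * ρ a) := by
    intro a b
    set c := ρ (a * b * a⁻¹ * b⁻¹) 0 0
    have hc : ρ (a * b * a⁻¹ * b⁻¹) = Matrix.scalar (Fin 2) c := hsc _ (hab a b)
    have hd : c ^ 2 = 1 := by
      have := det_eq_one_commutator ρ a b
      rw [hc] at this
      simpa [Matrix.scalar_apply, Fin.prod_univ_two, sq] using this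
    have hmul : ρ a * ρ b = Matrix.scalar (Fin 2) c * (ρ b * ρ a) := by
      rw [← hc, ← map_mul, ← map_mul, ← map_mul]
      congr 1
      group
    rcases sq_eq_one_iff.mp hd with h | h
    · exact Or.inl (by rw [hmul, h, map_one, one_mul])
    · exact Or.inr (by rw [hmul, h, map_neg, map_one, neg_one_mul])
  obtain ⟨b, hb⟩ : ∃ b, ρ b ≠ Matrix.scalar (Fin 2) (ρ b 0 0) := by
    by_contra hall
    push Not at hall
    have h := hρ.eq_scalar_of_commute (P := !![0, 1; 0, 0])
      (fun σ => by rw [hall σ]; exact (scalar_commute _ _).symm)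
    have := congrFun (congrFun h 0) 1
    simp at this
  let L : Subgroup G :=
    { carrier := {g | ρ b * ρ g = ρ g * ρ b}
      one_mem' := by simp
      mul_mem' := fun {x y} hx hy => by
        simp only [Set.mem_ofPred_eq, map_mul] at hx hy ⊢
        rw [← mul_assoc, hx, mul_assoc, hy, ← mul_assoc]
      inv_mem' := fun {x} hx => by
        simp only [Set.mem_ofPred_eq] at hx ⊢
        have h1 : ρ x⁻¹ * ρ x = 1 := by rw [← map_mul, inv_mul_cancel, map_one]
        have h2 : ρ x * ρ x⁻¹ = 1 := by rw [← map_mul, mul_inv_cancel, map_one]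
        calc ρ b * ρ x⁻¹ = ρ x⁻¹ * ρ x * (ρ b * ρ x⁻¹) := by rw [h1, one_mul]
          _ = ρ x⁻¹ * (ρ x * ρ b) * ρ x⁻¹ := by noncomm_ring
          _ = ρ x⁻¹ * ρ b * (ρ x * ρ x⁻¹) := by rw [← hx]; noncomm_ring
          _ = ρ x⁻¹ * ρ b := by rw [h2, mul_one] }
  have hanti : ∀ g, g ∉ L → ρ b * ρ g = -(ρ g * ρ b) := fun g hg =>
    (hsign b g).resolve_left hg
  obtain ⟨a, ha⟩ : ∃ a, a ∉ L := by
    by_contra hall
    push Not at hall
    exact hb (hρ.eq_scalar_of_commute (fun σ => hall σ))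
  refine ⟨L, ρ b, ?_, fun g hg => hg, hb⟩
  rw [Subgroup.index_eq_two_iff]
  refine ⟨a, fun g => ?_⟩
  by_cases hg : g ∈ L
  · exact Or.inr ⟨hg, fun h => ha ((Subgroup.mul_mem_cancel_left L hg).mp h)⟩
  · refine Or.inl ⟨?_, hg⟩
    show ρ b * ρ (g * a) = ρ (g * a) * ρ b
    rw [map_mul, ← mul_assoc, hanti g hg, neg_mul, mul_assoc, hanti a ha, mul_neg, neg_neg,
      ← mul_assoc]

/-- The alternative case: a common eigenvector and a non-scalar element. -/
lemma exists_line_subgroup_of_eigenvector (hρ : HasFullSpan ρ) (H : Subgroup G) [hH : H.Normal]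
    {h₀ : G} (hh₀ : h₀ ∈ H) (hns : ∀ c : K, ρ h₀ ≠ Matrix.scalar (Fin 2) c)
    {v : Fin 2 → K} (hv0 : v ≠ 0) (hv : ∀ h ∈ H, ∃ a : K, ρ h *ᵥ v = a • v) :
    ∃ (L : Subgroup G), L.index = 2 ∧ ∀ g ∈ L, ∃ a : K, ρ g *ᵥ v = a • v := by
  have hinv : ∀ g, ρ g⁻¹ * ρ g = 1 := fun g => by rw [← map_mul, inv_mul_cancel, map_one]
  have hinj : ∀ g, Function.Injective fun x => ρ g *ᵥ x := fun g x y hxy => by
    have := congrArg (fun z => ρ g⁻¹ *ᵥ z) hxy
    simpa [Matrix.mulVec_mulVec, hinv] using this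
  -- translates of `v` are common eigenvectors
  have hev : ∀ g, ∃ a : K, ρ h₀ *ᵥ (ρ g *ᵥ v) = a • (ρ g *ᵥ v) := fun g => by
    obtain ⟨a, ha⟩ := hv (g⁻¹ * h₀ * g) (by
      have := hH.conj_mem h₀ hh₀ g⁻¹
      simpa using this)
    refine ⟨a, ?_⟩
    have : ρ h₀ * ρ g = ρ g * ρ (g⁻¹ * h₀ * g) := by
      rw [← map_mul, ← map_mul]; congr 1; group
    rw [Matrix.mulVec_mulVec, this, ← Matrix.mulVec_mulVec, ha, Matrix.mulVec_smul]
  obtain ⟨g₀, hg₀⟩ := hρ.noStableLine v hv0
  set w := ρ g₀ *ᵥ v with hw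
  -- every translate is proportional to `v` or to `w`
  have hor : ∀ g, (∃ a : K, ρ g *ᵥ v = a • v) ∨ ∃ a : K, ρ g *ᵥ v = a • w := by
    intro g
    by_contra hcon
    push Not at hcon
    obtain ⟨h1, h2⟩ := hcon
    obtain ⟨a, ha⟩ := hv h₀ hh₀
    obtain ⟨b, hb⟩ := hev g₀
    obtain ⟨c, hc⟩ := hev g
    set u := ρ g *ᵥ v
    -- `u` lies in the span of `v` and `w`
    have htop := eq_top_of_mem_of_ne_smul (W := Submodule.span K {v, w})
      (Submodule.subset_span (Set.mem_insert _ _))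
      (Submodule.subset_span (Set.mem_insert_of_mem _ rfl)) hv0 hg₀
    have hu : u ∈ Submodule.span K ({v, w} : Set (Fin 2 → K)) := htop ▸ Submodule.mem_top
    obtain ⟨x, y, hxy⟩ := Submodule.mem_span_pair.mp hu
    have hx : x ≠ 0 := fun hx => h2 y (by rw [← hxy, hx, zero_smul, zero_add])
    have hy : y ≠ 0 := fun hy => h1 x (by rw [← hxy, hy, zero_smul, add_zero])
    -- hence all three eigenvalues agree
    rw [← hxy, Matrix.mulVec_add, Matrix.mulVec_smul, Matrix.mulVec_smul, ha, hb] at hc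
    have key : (x * (a - c)) • v + (y * (b - c)) • w = 0 := by
      linear_combination (norm := module) hc
    have hyb : y * (b - c) = 0 := by
      by_contra hne
      refine hg₀ (-(x * (a - c)) / (y * (b - c))) ?_
      have : (y * (b - c)) • w = -((x * (a - c)) • v) := eq_neg_of_add_eq_zero_right key
      rw [div_eq_inv_mul, mul_smul, neg_smul, ← this, smul_smul, inv_mul_cancel₀ hne, one_smul]
    have hbc : b = c := sub_eq_zero.mp ((mul_eq_zero.mp hyb).resolve_left hy)
    rw [hyb, zero_smul, add_zero, smul_eq_zero, or_iff_left hv0, mul_eq_zero, or_iff_right hx,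
      sub_eq_zero] at key
    exact hns c (eq_scalar_of_two_eigenvectors hv0 hg₀ (key ▸ ha) (hbc ▸ hb))
  let L : Subgroup G :=
    { carrier := {g | ∃ a : K, ρ g *ᵥ v = a • v}
      one_mem' := ⟨1, by simp⟩
      mul_mem' := by
        rintro x y ⟨a, ha⟩ ⟨b, hb⟩
        exact ⟨b * a, by rw [map_mul, ← Matrix.mulVec_mulVec, hb, Matrix.mulVec_smul, ha, smul_smul]⟩
      inv_mem' := by
        rintro x ⟨a, ha⟩
        have hne : a ≠ 0 := fun h0 => hv0 (hinj x (by simp [ha, h0]))
        refine ⟨a⁻¹, hinj x ?_⟩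
        simp only [Matrix.mulVec_smul]
        rw [ha, smul_smul, inv_mul_cancel₀ hne, one_smul, Matrix.mulVec_mulVec, ← map_mul,
          mul_inv_cancel, map_one, Matrix.one_mulVec] }
  refine ⟨L, ?_, fun g hg => hg⟩
  have hg₀L : g₀ ∉ L := fun ⟨a, ha⟩ => hg₀ a ha
  rw [Subgroup.index_eq_two_iff]
  refine ⟨g₀, fun g => ?_⟩
  by_cases hg : g ∈ L
  · exact Or.inr ⟨hg, fun h => hg₀L ((Subgroup.mul_mem_cancel_left L hg).mp h)⟩
  · refine Or.inl ⟨?_, hg⟩
    obtain ⟨a, ha⟩ := (hor g).resolve_left hg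
    rcases hor (g * g₀) with h | ⟨b, hb⟩
    · exact h
    · exfalso
      have ha0 : a ≠ 0 := fun h0 => hv0 (hinj g (by simp [ha, h0]))
      have h1 : ρ g *ᵥ w = b • w := by
        rw [hw, Matrix.mulVec_mulVec, ← map_mul]
        exact hb
      exact hg₀ (b / a) (hinj g (by
        simp only [Matrix.mulVec_smul]
        rw [h1, ha, smul_smul, div_mul_cancel₀ _ ha0]))

theorem hasFullSpan_of_normal_algClosed [IsAlgClosed K] (hρ : HasFullSpan ρ)
    (hdih : ∀ L : Subgroup G, L.index = 2 → HasFullSpan (ρ.comp L.subtype))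
    (H : Subgroup G) [H.Normal] (hab : ∀ a b : G, a * b * a⁻¹ * b⁻¹ ∈ H) :
    HasFullSpan (ρ.comp H.subtype) := by
  by_cases hsc : ∀ h ∈ H, ρ h = Matrix.scalar (Fin 2) (ρ h 0 0)
  · obtain ⟨L, P, hL, hcomm, hP⟩ := exists_commuting_subgroup_of_scalar ρ hρ H hab hsc
    exact absurd ((hdih L hL).eq_scalar_of_commute fun σ => hcomm σ σ.2) hP
  · push Not at hsc
    obtain ⟨h₀, hh₀, hns⟩ := hsc
    have hns' : ∀ c : K, ρ h₀ ≠ Matrix.scalar (Fin 2) c := fun c hc => hns (by
      rw [hc]; simp [Matrix.scalar_apply])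
    rw [← noStableLine_iff_hasFullSpan]
    intro v hv0
    by_contra hcon
    push Not at hcon
    obtain ⟨L, hL, hLv⟩ := exists_line_subgroup_of_eigenvector ρ hρ H hh₀ hns' hv0
      (fun h hh => hcon ⟨h, hh⟩)
    obtain ⟨σ, hσ⟩ := (hdih L hL).noStableLine v hv0
    obtain ⟨a, ha⟩ := hLv σ σ.2
    exact hσ a ha

end AlgClosed

/-- Absolute irreducibility passes to normal subgroups with abelian quotient, provided it holds on
the subgroups of index two. -/
theorem hasFullSpan_of_normal (ρ : G →* M₂ k) (hρ : HasFullSpan ρ)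
    (hdih : ∀ L : Subgroup G, L.index = 2 → HasFullSpan (ρ.comp L.subtype))
    (H : Subgroup G) [H.Normal] (hab : ∀ a b : G, a * b * a⁻¹ * b⁻¹ ∈ H) :
    HasFullSpan (ρ.comp H.subtype) :=
  HasFullSpan.of_repMap (algebraMap k (AlgebraicClosure k))
    (hasFullSpan_of_normal_algClosed (repMap (algebraMap k (AlgebraicClosure k)) ρ) (hρ.repMap _)
      (fun L hL => (hdih L hL).repMap _) H hab)

end FermatLib.CFT.TW
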