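import Mathlib.Algebra.CharP.Basic
import Mathlib.Algebra.CharP.Algebra
import Mathlib.Algebra.Polynomial.Roots
import Mathlib.FieldTheory.Finite.Basic
import Mathlib.LinearAlgebra.Matrix.Trace
import Mathlib.LinearAlgebra.Matrix.Charpoly.Coeff
import Mathlib.Tactic.LinearCombination
import Mathlib.Tactic.NoncommRing

/-!
# The trace derivative of a twisted adjoint cocycle

For `ρ : G →* M₂(k)`, a character `ω` and a traceless cocycle `ψ` of the twisted adjoint
representation, the function `D h = tr (ψ h · ρ h)` is studied on the kernel of `ω`.  It is the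
derivative of the trace of the infinitesimal deformation `(1 + ε ψ) ρ`.
-/

set_option autoImplicit false

open Matrix

namespace FermatLib.CFT.TW

variable {G : Type*} [Group G] {k : Type*} [Field k]

local notation "M₂" R:max => Matrix (Fin 2) (Fin 2) R

/-- Cocycles with values in the `ω`-twisted adjoint representation of trace zero matrices. -/
structure IsTwistedCocycle (ρ : G →* M₂ k) (ω : G →* kˣ) (ψ : G → M₂ k) : Prop where
  trace_zero : ∀ g, (ψ g).trace = 0
  map_mul : ∀ g h, ψ (g * h) = ψ g + (ω g : k) • (ρ g * ψ h * ρ g⁻¹)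

/-- The trace derivative. -/
def traceDeriv (ρ : G →* M₂ k) (ψ : G → M₂ k) (g : G) : k := (ψ g * ρ g).trace

lemma rep_mul_inv (ρ : G →* M₂ k) (g : G) : ρ g * ρ g⁻¹ = 1 := by
  rw [← map_mul, mul_inv_cancel, map_one]

lemma rep_inv_mul (ρ : G →* M₂ k) (g : G) : ρ g⁻¹ * ρ g = 1 := by
  rw [← map_mul, inv_mul_cancel, map_one]

lemma trace_identity (A B X : M₂ k) (hX : X.trace = 0) :
    (A * X * B).trace + (A * B * X).trace - B.trace * (A * X).trace = A.trace * (X * B).trace := by
  rw [trace_fin_two] at hX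
  simp only [trace_fin_two, mul_apply, Fin.sum_univ_two]
  have h11 : X 1 1 = -X 0 0 := by linear_combination hX
  rw [h11]
  ring

lemma sq_zero_of_trace_two {A : M₂ k} (ht : A.trace = 2) (hd : A.det = 1) :
    (A - 1) * (A - 1) = 0 := by
  rw [trace_fin_two] at ht
  rw [det_fin_two] at hd
  have h11 : A 1 1 = 2 - A 0 0 := by linear_combination ht
  ext i j
  fin_cases i <;> fin_cases j <;>
    simp [mul_apply, Fin.sum_univ_two, h11] <;>
    (try rw [h11] at hd) <;> grind

lemma eq_smul_of_commute_of_sq_zero (h2 : (2 : k) ≠ 0) {A B : M₂ k} (hA : A * A = 0) (hA0 : A ≠ 0)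
    (hBt : B.trace = 0) (hAB : A * B = B * A) : ∃ a : k, B = a • A := by
  have h00 := congrFun (congrFun hAB 0) 0
  have h01 := congrFun (congrFun hAB 0) 1
  have h10 := congrFun (congrFun hAB 1) 0
  have a00 := congrFun (congrFun hA 0) 0
  have a01 := congrFun (congrFun hA 0) 1
  have a10 := congrFun (congrFun hA 1) 0
  have a11 := congrFun (congrFun hA 1) 1
  rw [trace_fin_two] at hBt
  simp only [mul_apply, Fin.sum_univ_two, Matrix.zero_apply] at h00 h01 h10 a00 a01 a10 a11
  have hne : A 0 1 ≠ 0 ∨ A 1 0 ≠ 0 := by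
    by_contra h
    push Not at h
    apply hA0
    ext i j
    fin_cases i <;> fin_cases j <;> simp [h.1, h.2] <;> simp_all
  rcases hne with hne | hne
  · refine ⟨B 0 1 / A 0 1, ?_⟩
    ext i j
    fin_cases i <;> fin_cases j <;> simp <;> field_simp <;> grind
  · refine ⟨B 1 0 / A 1 0, ?_⟩
    ext i j
    fin_cases i <;> fin_cases j <;> simp <;> field_simp <;> grind

section Cocycle

variable {ρ : G →* M₂ k} {ω : G →* kˣ} {ψ : G → M₂ k} (hψ : IsTwistedCocycle ρ ω ψ)
include hψ

lemma IsTwistedCocycle.map_one : ψ 1 = 0 := by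
  have h := hψ.map_mul 1 1
  simpa using h

lemma IsTwistedCocycle.map_inv {h : G} (hω : ω h = 1) : ψ h⁻¹ = -(ρ h⁻¹ * ψ h * ρ h) := by
  have h1 := hψ.map_mul h⁻¹ h
  rw [inv_mul_cancel, hψ.map_one, _root_.map_inv, hω, inv_one, Units.val_one, one_smul,
    inv_inv] at h1
  exact eq_neg_of_add_eq_zero_left h1.symm

lemma IsTwistedCocycle.map_conj (g : G) {h : G} (hω : ω h = 1) :
    ψ (g * h * g⁻¹) = ψ g - ρ (g * h * g⁻¹) * ψ g * ρ (g * h * g⁻¹)⁻¹ +
      (ω g : k) • (ρ g * ψ h * ρ g⁻¹) := by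
  have h1 := hψ.map_mul (g * h * g⁻¹) g
  rw [inv_mul_cancel_right, hψ.map_mul g h] at h1
  have hω' : ω (g * h * g⁻¹) = 1 := by simp [hω]
  rw [hω', Units.val_one, one_smul] at h1
  linear_combination (norm := module) -(1 : k) • h1

lemma traceDeriv_one : traceDeriv ρ ψ 1 = 0 := by
  simp [traceDeriv, hψ.map_one]

lemma traceDeriv_of_rep_eq_one {z : G} (hz : ρ z = 1) : traceDeriv ρ ψ z = 0 := by
  simp [traceDeriv, hz, hψ.trace_zero]

lemma traceDeriv_conj (g : G) {h : G} (hω : ω h = 1) :
    traceDeriv ρ ψ (g * h * g⁻¹) = (ω g : k) * traceDeriv ρ ψ h := by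
  set y := g * h * g⁻¹
  have e1 : (ρ y * ψ g * ρ y⁻¹ * ρ y).trace = (ψ g * ρ y).trace := by
    rw [mul_assoc (ρ y * ψ g), rep_inv_mul, mul_one, trace_mul_comm]
  have e2 : (ρ g * ψ h * ρ g⁻¹ * ρ y).trace = (ψ h * ρ h).trace := by
    have : ρ g⁻¹ * ρ y = ρ h * ρ g⁻¹ := by
      rw [← _root_.map_mul, ← _root_.map_mul]; congr 1; simp [y, mul_assoc]
    rw [mul_assoc _ _ (ρ y), this, mul_assoc, trace_mul_comm, mul_assoc, mul_assoc, rep_inv_mul,
      mul_one]
  rw [traceDeriv, hψ.map_conj g hω, add_mul, sub_mul, trace_add, trace_sub, e1, sub_self, zero_add,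
    smul_mul_assoc, trace_smul, e2, smul_eq_mul, traceDeriv]

lemma IsTwistedCocycle.traceDeriv_mul {g : G} (hω : ω g = 1) (h : G) :
    traceDeriv ρ ψ (g * h) = (ψ g * ρ g * ρ h).trace + (ρ g * ψ h * ρ h).trace := by
  rw [traceDeriv, hψ.map_mul, hω, Units.val_one, one_smul, add_mul, trace_add, _root_.map_mul,
    ← mul_assoc, ← mul_assoc, mul_assoc (ρ g * ψ h), rep_inv_mul, mul_one]

/-- The linearisation of the trace identity `T(gh) + T(gh⁻¹) = T(g)T(h)`. -/
lemma traceDeriv_mul_add {g h : G} (hωg : ω g = 1) (hωh : ω h = 1) (hdet : (ρ h).det = 1) :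
    traceDeriv ρ ψ (g * h) + traceDeriv ρ ψ (g * h⁻¹) =
      traceDeriv ρ ψ g * (ρ h).trace + (ρ g).trace * traceDeriv ρ ψ h := by
  have hinv : ρ h⁻¹ = (ρ h).trace • (1 : M₂ k) - ρ h := by
    have h2 : ρ h * ((ρ h).trace • (1 : M₂ k) - ρ h) = 1 := by
      rw [det_fin_two] at hdet
      ext i j
      fin_cases i <;> fin_cases j <;> simp [mul_apply, Fin.sum_univ_two, trace_fin_two] <;>
        grind
    calc ρ h⁻¹ = ρ h⁻¹ * (ρ h * ((ρ h).trace • (1 : M₂ k) - ρ h)) := by rw [h2, mul_one]
      _ = _ := by rw [← mul_assoc, rep_inv_mul, one_mul]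
  have e : (ρ g * ψ h⁻¹ * ρ h⁻¹).trace = -(ρ g * ρ h⁻¹ * ψ h).trace := by
    rw [hψ.map_inv hωh, mul_neg, neg_mul, trace_neg]
    congr 2
    simp only [mul_assoc]
    rw [rep_mul_inv, mul_one]
  rw [hψ.traceDeriv_mul hωg, hψ.traceDeriv_mul hωg, e, hinv]
  have key := trace_identity (ρ g) (ρ h) (ψ h) (hψ.trace_zero h)
  simp only [traceDeriv, mul_sub, sub_mul, mul_smul_comm, smul_mul_assoc, mul_one, trace_sub,
    trace_smul, smul_eq_mul]
  linear_combination key

end Cocycle

/-- The situation on the kernel of `ω`. -/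
structure TraceSetting (ρ : G →* M₂ k) (ω : G →* kˣ) (ψ : G → M₂ k) (H : Subgroup G) : Prop where
  cocycle : IsTwistedCocycle ρ ω ψ
  twist_one : ∀ h ∈ H, ω h = 1
  det_one : ∀ h ∈ H, (ρ h).det = 1
  /-- The hypothesis to be refuted: `ψ` is infinitesimally trivial at all regular elements. -/
  regular_zero : ∀ h ∈ H, (ρ h).trace ^ 2 ≠ 4 → traceDeriv ρ ψ h = 0

section Unipotent

variable {ρ : G →* M₂ k} {ω : G →* kˣ} {ψ : G → M₂ k} {H : Subgroup G} {u : G}

lemma rep_pow_of_trace_two (hdet : (ρ u).det = 1) (ht : (ρ u).trace = 2) (n : ℕ) :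
    ρ (u ^ n) = 1 + (n : k) • (ρ u - 1) := by
  induction n with
  | zero => simp
  | succ n ih =>
    have hsq := sq_zero_of_trace_two ht hdet
    have : ρ u = 1 + (ρ u - 1) := by abel
    calc ρ (u ^ (n + 1)) = (1 + (n : k) • (ρ u - 1)) * (1 + (ρ u - 1)) := by
          rw [pow_succ, map_mul, ih, ← this]
      _ = _ := by
          rw [add_mul, one_mul, smul_mul_assoc, mul_add, mul_one, hsq, add_zero, Nat.cast_succ,
            add_smul, one_smul]
          abel

lemma trace_mul_pow (hdet : (ρ u).det = 1) (ht : (ρ u).trace = 2) (g : G) (n : ℕ) :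
    (ρ (g * u ^ n)).trace = (ρ g).trace + (n : k) * (ρ g * (ρ u - 1)).trace := by
  rw [map_mul, rep_pow_of_trace_two hdet ht, mul_add, mul_one, trace_add, mul_smul_comm,
    trace_smul, smul_eq_mul]

variable (S : TraceSetting ρ ω ψ H)
include S

lemma TraceSetting.recurrence (hu : u ∈ H) (ht : (ρ u).trace = 2) {g : G} (hg : g ∈ H) (n : ℕ) :
    traceDeriv ρ ψ (g * u ^ (n + 2)) + traceDeriv ρ ψ (g * u ^ n) =
      2 * traceDeriv ρ ψ (g * u ^ (n + 1)) +
        ((ρ g).trace + (n + 1) * (ρ g * (ρ u - 1)).trace) * traceDeriv ρ ψ u := by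
  have h := traceDeriv_mul_add S.cocycle (g := g * u ^ (n + 1)) (h := u)
    (S.twist_one _ (mul_mem hg (pow_mem hu _))) (S.twist_one _ hu) (S.det_one _ hu)
  have e1 : g * u ^ (n + 1) * u = g * u ^ (n + 2) := by rw [mul_assoc, ← pow_succ]
  have e2 : g * u ^ (n + 1) * u⁻¹ = g * u ^ n := by rw [mul_assoc, pow_succ, mul_inv_cancel_right]
  rw [e1, e2, ht, trace_mul_pow (S.det_one _ hu) ht] at h
  push_cast at h
  linear_combination h

lemma TraceSetting.closed_form (hu : u ∈ H) (ht : (ρ u).trace = 2) {g : G} (hg : g ∈ H) (n : ℕ) :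
    6 * traceDeriv ρ ψ (g * u ^ n) = 6 * traceDeriv ρ ψ g +
      6 * (n : k) * (traceDeriv ρ ψ (g * u) - traceDeriv ρ ψ g) +
      traceDeriv ρ ψ u * (3 * (ρ g).trace * ((n : k) ^ 2 - n) +
        (ρ g * (ρ u - 1)).trace * ((n : k) ^ 3 - n)) := by
  induction n using Nat.strong_induction_on with
  | _ n ih =>
    match n with
    | 0 => simp
    | 1 => simp; ring
    | m + 2 =>
      have h0 := ih m (by omega)
      have h1 := ih (m + 1) (by omega)
      have hr := S.recurrence hu ht hg m
      push_cast at h1 ⊢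
      linear_combination (6 : k) * hr + 2 * h1 - h0

lemma TraceSetting.traceDeriv_pow (hu : u ∈ H) (ht : (ρ u).trace = 2) (n : ℕ) :
    traceDeriv ρ ψ (u ^ n) = (n : k) ^ 2 * traceDeriv ρ ψ u := by
  induction n using Nat.strong_induction_on with
  | _ n ih =>
    match n with
    | 0 => simp [traceDeriv_one S.cocycle]
    | 1 => simp
    | m + 2 =>
      have h0 := ih m (by omega)
      have h1 := ih (m + 1) (by omega)
      have hr := S.recurrence hu ht (one_mem H) m
      simp only [one_mul, map_one, trace_one, Fintype.card_fin, trace_sub, ht, Nat.cast_ofNat,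
        sub_self, mul_zero, add_zero] at hr
      push_cast at h1 ⊢
      linear_combination hr + 2 * h1 - h0

/-- The cubic obstruction: away from a very special configuration in characteristic five, the
trace derivative vanishes at unipotent elements. -/
lemma TraceSetting.special_of_ne_zero (p : ℕ) [Fact p.Prime] [CharP k p] (hp2 : p ≠ 2)
    (hu : u ∈ H) (ht : (ρ u).trace = 2) (hδ : traceDeriv ρ ψ u ≠ 0) {g : G} (hg : g ∈ H)
    (hb : (ρ g * (ρ u - 1)).trace ≠ 0) :
    p = 5 ∧ (ρ g * (ρ u - 1)).trace ∈ Set.range (ZMod.castHom dvd_rfl k : ZMod p →+* k) := by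
  classical
  have hp : p.Prime := Fact.out
  set ι : ZMod p →+* k := ZMod.castHom dvd_rfl k
  set t := (ρ g).trace with ht'
  set b := (ρ g * (ρ u - 1)).trace with hb'
  set δ := traceDeriv ρ ψ u with hδ'
  set f : ℕ → k := fun n => traceDeriv ρ ψ (g * u ^ n) with hf
  have h2 : (2 : k) ≠ 0 := by
    intro h
    have : (p : ℕ) ∣ 2 := (CharP.cast_eq_zero_iff k p 2).mp (by exact_mod_cast h)
    exact hp2 ((Nat.prime_dvd_prime_iff_eq hp Nat.prime_two).mp this)
  have hzero : ∀ n : ℕ, (t + (n : k) * b) ^ 2 ≠ 4 → f n = 0 := fun n hn =>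
    S.regular_zero _ (mul_mem hg (pow_mem hu n))
      (by rw [trace_mul_pow (S.det_one _ hu) ht]; exact hn)
  let good : Finset (ZMod p) := Finset.univ.filter fun x => (t + ι x * b) ^ 2 ≠ 4
  let xp : k := (2 - t) / b
  let xm : k := (-2 - t) / b
  have hbad : ∀ x : ZMod p, x ∉ good → ι x = xp ∨ ι x = xm := by
    intro x hx
    simp only [good, Finset.mem_filter, Finset.mem_univ, true_and, not_not] at hx
    have : (t + ι x * b - 2) * (t + ι x * b + 2) = 0 := by linear_combination hx
    rcases mul_eq_zero.mp this with h | h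
    · left; simp only [xp]; field_simp; linear_combination h
    · right; simp only [xm]; field_simp; linear_combination h
  have hcard : p ≤ good.card + 2 := by
    have himg : (goodᶜ).image ι ⊆ {xp, xm} := by
      intro y hy
      obtain ⟨x, hx, rfl⟩ := Finset.mem_image.mp hy
      simpa using hbad x (Finset.mem_compl.mp hx)
    have h1 := (Finset.card_le_card himg).trans Finset.card_le_two
    rw [Finset.card_image_of_injective _ ι.injective, Finset.card_compl, ZMod.card] at h1
    omega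
  have hgood : ∀ x ∈ good, f x.val = 0 ∧ ((x.val : ℕ) : k) = ι x := by
    intro x hx
    have hcast : ((x.val : ℕ) : k) = ι x := by
      rw [← map_natCast ι, ZMod.natCast_val, ZMod.cast_id]
    exact ⟨hzero _ (by rw [hcast]; exact (Finset.mem_filter.mp hx).2), hcast⟩
  by_cases hp3 : p = 3
  · exfalso
    obtain ⟨x, hx⟩ : good.Nonempty := Finset.card_pos.mp (by omega)
    obtain ⟨hx0, hxc⟩ := hgood x hx
    set n := x.val with hn
    have h3 : (3 : k) = 0 := by
      have := CharP.cast_eq_zero k p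
      rw [hp3] at this
      exact_mod_cast this
    have hn3 : f (n + 3) = 0 := hzero _ (by
      push_cast; rw [hxc, h3, add_zero]; exact (Finset.mem_filter.mp hx).2)
    have r0 := S.recurrence hu ht hg n
    have r1 := S.recurrence hu ht hg (n + 1)
    push_cast at r1
    simp only [hf] at hx0 hn3
    rw [← ht', ← hb', ← hδ'] at r0 r1
    have : b * δ = 0 := by
      linear_combination hn3 - hx0 - r1 - 2 * r0 +
        (traceDeriv ρ ψ (g * u ^ n) - traceDeriv ρ ψ (g * u ^ (n + 1)) - t * δ - (n : k) * b * δ -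
          b * δ) * h3
    exact (mul_ne_zero hb hδ) this
  -- the cubic polynomial
  let c₁ : k := 6 * (traceDeriv ρ ψ (g * u) - traceDeriv ρ ψ g) - δ * (3 * t) - δ * b
  let P : Polynomial k := Polynomial.C (δ * b) * Polynomial.X ^ 3 +
    Polynomial.C (δ * (3 * t)) * Polynomial.X ^ 2 + Polynomial.C c₁ * Polynomial.X +
    Polynomial.C (6 * traceDeriv ρ ψ g)
  have hdeg : P.natDegree = 3 := by
    simp only [P]
    compute_degree!
  have hP0 : P ≠ 0 := fun h => by simp [h] at hdeg
  have hroots : good.image ι ⊆ P.roots.toFinset := by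
    intro y hy
    obtain ⟨x, hx, rfl⟩ := Finset.mem_image.mp hy
    obtain ⟨hx0, hxc⟩ := hgood x hx
    rw [Multiset.mem_toFinset, Polynomial.mem_roots hP0, Polynomial.IsRoot.def]
    have hcl := S.closed_form hu ht hg x.val
    simp only [hf] at hx0
    rw [hx0, hxc, ← ht', ← hb', ← hδ'] at hcl
    simp only [P, c₁, Polynomial.eval_add, Polynomial.eval_mul, Polynomial.eval_pow,
      Polynomial.eval_C, Polynomial.eval_X]
    linear_combination -hcl
  have h3le : good.card ≤ 3 := by
    rw [← Finset.card_image_of_injective good ι.injective]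
    calc _ ≤ P.roots.toFinset.card := Finset.card_le_card hroots
      _ ≤ P.roots.card := Multiset.toFinset_card_le _
      _ ≤ P.natDegree := P.card_roots'
      _ = 3 := hdeg
  have hp5 : p = 5 := by
    have h4 : p ≠ 4 := fun h => absurd (h ▸ hp) (by decide)
    have := hp.two_le
    omega
  refine ⟨hp5, ?_⟩
  -- both exceptional values lie in the prime field
  have hcompl : (goodᶜ).card = 2 := by
    have h1 : ((goodᶜ).image ι).card ≤ 2 := by
      refine (Finset.card_le_card (t := {xp, xm}) ?_).trans Finset.card_le_two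
      intro y hy
      obtain ⟨x, hx, rfl⟩ := Finset.mem_image.mp hy
      simpa using hbad x (Finset.mem_compl.mp hx)
    rw [Finset.card_image_of_injective _ ι.injective] at h1
    rw [Finset.card_compl, ZMod.card] at h1 ⊢
    omega
  obtain ⟨x, y, hxy, he⟩ := Finset.card_eq_two.mp hcompl
  have hx := hbad x (Finset.mem_compl.mp (he ▸ Finset.mem_insert_self _ _))
  have hy := hbad y (Finset.mem_compl.mp (he ▸ Finset.mem_insert_of_mem (Finset.mem_singleton_self _)))
  have hne : ι x ≠ ι y := fun h => hxy (ι.injective h)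
  have key : ι x - ι y = xp - xm ∨ ι x - ι y = -(xp - xm) := by
    rcases hx with hx | hx <;> rcases hy with hy | hy <;> rw [hx, hy] at hne ⊢ <;>
      first | exact absurd rfl hne | exact Or.inl rfl | exact Or.inr (by ring)
  have hxpm : xp - xm = 4 / b := by simp only [xp, xm]; ring
  have hd : ι (x - y) ≠ 0 := by rw [map_sub]; exact sub_ne_zero.mpr hne
  have h4 : (4 : k) ≠ 0 := by rw [show (4 : k) = 2 * 2 by norm_num]; exact mul_ne_zero h2 h2
  rcases key with h | h
  · refine ⟨4 / (x - y), ?_⟩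
    rw [map_div₀, map_sub, map_ofNat, h, hxpm]
    field_simp
  · refine ⟨-(4 / (x - y)), ?_⟩
    rw [map_neg, map_div₀, map_sub, map_ofNat, h, hxpm]
    field_simp

end Unipotent

end FermatLib.CFT.TW
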