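import Fermat.Agent.CFT.TWGroupTrace
import Fermat.Agent.CFT.TWGroupIrr
import Mathlib.GroupTheory.Sylow
import Mathlib.GroupTheory.PGroup

/-!
# The trace derivative vanishes at unipotent elements

In the special configuration left in characteristic five the unipotent subgroup has order five;
Sylow's theorem and the twist by `ω` then finish the argument.
-/

set_option autoImplicit false

open Matrix

namespace FermatLib.CFT.TW

open FermatLib.Galois

variable {G : Type*} [Group G] {k : Type*} [Field k]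

local notation "M₂" R:max => Matrix (Fin 2) (Fin 2) R

lemma two_ne_sq_zmod_five : ∀ x : ZMod 5, (2 : ZMod 5) ≠ x ^ 2 := by decide

/-- A finite `p`-element in characteristic `p` is unipotent. -/
lemma sq_zero_of_pow_prime_pow (p : ℕ) [Fact p.Prime] [CharP k p] {A : M₂ k} {j : ℕ}
    (hA : A ^ p ^ j = 1) : (A - 1) * (A - 1) = 0 ∧ (A - 1).trace = 0 := by
  have : CharP (M₂ k) p := charP_of_injective_algebraMap (algebraMap k (M₂ k)).injective p
  have hnil : IsNilpotent (A - 1) := ⟨p ^ j, by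
    rw [sub_pow_char_pow_of_commute _ _ (Commute.one_right A), hA, one_pow, sub_self]⟩
  have ht : (A - 1).trace = 0 :=
    isNilpotent_iff_eq_zero.mp (Matrix.isNilpotent_trace_of_isNilpotent hnil)
  have hd : (A - 1).det = 0 := by
    obtain ⟨n, hn⟩ := hnil
    have := congrArg Matrix.det hn
    rw [det_pow, det_zero] at this
    exact eq_zero_of_pow_eq_zero this
  refine ⟨?_, ht⟩
  rw [trace_fin_two] at ht
  rw [det_fin_two] at hd
  ext i j
  fin_cases i <;> fin_cases j <;> rw [mul_apply, Fin.sum_univ_two, Matrix.zero_apply] <;>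
    simp only [Fin.zero_eta, Fin.mk_one] <;> grind

section

variable {ρ : G →* M₂ k} {ω : G →* kˣ} {ψ : G → M₂ k} {H : Subgroup G}

lemma TraceSetting.eq_zero_of_rep_eq_one (S : TraceSetting ρ ω ψ H) (p : ℕ) [Fact p.Prime]
    [CharP k p] (hp2 : p ≠ 2) (hspan : HasFullSpan (ρ.comp H.subtype)) {u : G} (hu : u ∈ H)
    (ht : (ρ u).trace = 2) (hu1 : ρ u ≠ 1) {z : G} (hz : z ∈ H) (hz1 : ρ z = 1) : ψ z = 0 := by
  have h2 : (2 : k) ≠ 0 := by
    intro h
    have : (p : ℕ) ∣ 2 := (CharP.cast_eq_zero_iff k p 2).mp (by exact_mod_cast h)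
    exact hp2 ((Nat.prime_dvd_prime_iff_eq Fact.out Nat.prime_two).mp this)
  set N := ρ u - 1 with hN
  have hN0 : N ≠ 0 := sub_ne_zero.mpr hu1
  have hNsq := sq_zero_of_trace_two ht (S.det_one u hu)
  -- a regular element pairing non trivially with `N`
  obtain ⟨g, hg, hgreg, hgN⟩ : ∃ g ∈ H, (ρ g).trace ^ 2 ≠ 4 ∧ (ρ g * N).trace ≠ 0 := by
    obtain ⟨g, hg⟩ : ∃ g : H, (ρ g * N).trace ≠ 0 := by
      by_contra h
      push Not at h
      refine hN0 (hspan.trace_ext fun σ => ?_)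
      rw [zero_mul, trace_zero, trace_mul_comm]
      exact h σ
    set b := (ρ g * N).trace with hb
    have hT : ∀ n : ℕ, (ρ ((g : G) * u ^ n)).trace = (ρ g).trace + (n : k) * b :=
      trace_mul_pow (S.det_one u hu) ht g
    have hN' : ∀ n : ℕ, (ρ ((g : G) * u ^ n) * N).trace = b := fun n => by
      rw [map_mul, rep_pow_of_trace_two (S.det_one u hu) ht, mul_assoc, add_mul, one_mul,
        smul_mul_assoc, hNsq, smul_zero, add_zero]
    by_contra hcon
    push Not at hcon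
    have hsq : ∀ n : ℕ, ((ρ g).trace + (n : k) * b) ^ 2 = 4 := fun n => by
      by_contra h
      exact hg ((hN' n).symm.trans (hcon _ (mul_mem g.2 (pow_mem hu n)) (hT n ▸ h)))
    have q0 := hsq 0
    have q1 := hsq 1
    have q2 := hsq 2
    push_cast at q0 q1 q2
    exact mul_ne_zero h2 (pow_ne_zero 2 hg) (by linear_combination q2 - 2 * q1 + q0)
  -- the values of `ψ` on the kernel are killed by `g`
  have hkill : ∀ x ∈ H, ρ x = 1 → (ψ x * ρ g).trace = 0 := by
    intro x hx hx1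
    have h1 := S.regular_zero (x * g) (mul_mem hx hg) (by rw [map_mul, hx1, one_mul]; exact hgreg)
    rw [S.cocycle.traceDeriv_mul (S.twist_one x hx), hx1, one_mul, mul_one] at h1
    have h2' := S.regular_zero g hg hgreg
    rw [traceDeriv] at h2'
    rwa [h2', add_zero] at h1
  -- commutation with `u`
  let step : G → G := fun x => u * x * u⁻¹ * x⁻¹
  have hstep : ∀ x ∈ H, ρ x = 1 → step x ∈ H ∧ ρ (step x) = 1 ∧
      ψ (step x) = ρ u * ψ x * ρ u⁻¹ - ψ x := by
    intro x hx hx1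
    have hx' : ρ x⁻¹ = 1 := by
      have := rep_inv_mul ρ x
      rwa [hx1, mul_one] at this
    have hρy : ρ (u * x * u⁻¹) = 1 := by rw [map_mul, map_mul, hx1, mul_one, rep_mul_inv]
    have hy : u * x * u⁻¹ ∈ H := mul_mem (mul_mem hu hx) (inv_mem hu)
    refine ⟨mul_mem hy (inv_mem hx), by rw [map_mul, hρy, hx', one_mul], ?_⟩
    have hρy' : ρ (u * x * u⁻¹)⁻¹ = 1 := by
      have := rep_inv_mul ρ (u * x * u⁻¹)
      rwa [hρy, mul_one] at this
    simp only [step]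
    rw [S.cocycle.map_mul, S.twist_one _ hy, S.cocycle.map_inv (S.twist_one x hx),
      S.cocycle.map_conj u (S.twist_one x hx), hρy, hρy', hx', hx1, S.twist_one u hu]
    simp [sub_eq_add_neg]
  have hfix : ∀ x ∈ H, ρ x = 1 → ψ (step x) = 0 → ψ x = 0 := by
    intro x hx hx1 h0
    rw [(hstep x hx hx1).2.2, sub_eq_zero] at h0
    have hcomm : N * ψ x = ψ x * N := by
      have : ρ u * ψ x = ψ x * ρ u := by
        calc ρ u * ψ x = ρ u * ψ x * ρ u⁻¹ * ρ u := by rw [mul_assoc (ρ u * ψ x), rep_inv_mul, mul_one]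
          _ = ψ x * ρ u := by rw [h0]
      rw [hN, sub_mul, mul_sub, this, one_mul, mul_one]
    obtain ⟨a, ha⟩ := eq_smul_of_commute_of_sq_zero h2 hNsq hN0 (S.cocycle.trace_zero x) hcomm
    have := hkill x hx hx1
    rw [ha, smul_mul_assoc, trace_smul, trace_mul_comm, smul_eq_mul] at this
    rw [ha, (mul_eq_zero.mp this).resolve_right hgN, zero_smul]
  obtain ⟨hz2, hz2', -⟩ := hstep z hz hz1
  obtain ⟨hz3, hz3', -⟩ := hstep _ hz2 hz2'
  obtain ⟨-, -, hz4⟩ := hstep _ hz3 hz3'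
  -- conjugation by a unipotent element is unipotent of order at most three
  have hcube : ψ (step (step (step z))) = 0 := by
    rw [hz4, (hstep _ hz2 hz2').2.2, (hstep _ hz hz1).2.2]
    have hi : ρ u⁻¹ = 1 - N := by
      have h1 : ρ u * (1 - N) = 1 := by
        rw [show ρ u = 1 + N by rw [hN]; abel, mul_sub, mul_one, add_mul, one_mul, hNsq]; abel
      calc ρ u⁻¹ = ρ u⁻¹ * (ρ u * (1 - N)) := by rw [h1, mul_one]
        _ = _ := by rw [← mul_assoc, rep_inv_mul, one_mul]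
    rw [hi, show ρ u = 1 + N by rw [hN]; abel]
    set X := ψ z
    have e1 : ∀ Y : M₂ k, (1 + N) * Y * (1 - N) - Y = N * Y - Y * N - N * Y * N := fun Y => by
      noncomm_ring
    have hl : ∀ Y : M₂ k, N * (N * Y) = 0 := fun Y => by rw [← mul_assoc, hNsq, zero_mul]
    rw [e1, e1, e1]
    have hNN : N * N = 0 := hNsq
    simp only [mul_sub, sub_mul, mul_assoc, hl, hNN, mul_zero, sub_zero, zero_sub,
      neg_mul, mul_neg, sub_self, neg_zero, zero_mul]
  exact hfix z hz hz1 (hfix _ hz2 hz2' (hfix _ hz3 hz3' hcube))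

lemma TraceSetting.traceDeriv_congr (S : TraceSetting ρ ω ψ H) (p : ℕ) [Fact p.Prime] [CharP k p]
    (hp2 : p ≠ 2) (hspan : HasFullSpan (ρ.comp H.subtype)) {u : G} (hu : u ∈ H)
    (ht : (ρ u).trace = 2) (hu1 : ρ u ≠ 1) {v w : G} (hv : v ∈ H) (hw : w ∈ H) (h : ρ v = ρ w) :
    traceDeriv ρ ψ v = traceDeriv ρ ψ w := by
  have hz1 : ρ (w⁻¹ * v) = 1 := by rw [map_mul, h, rep_inv_mul]
  have hz := S.eq_zero_of_rep_eq_one p hp2 hspan hu ht hu1 (mul_mem (inv_mem hw) hv) hz1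
  have hv' : v = w * (w⁻¹ * v) := by group
  rw [traceDeriv, hv', S.cocycle.map_mul, hz, map_mul, hz1]
  simp [traceDeriv]

/-- The trace derivative vanishes at unipotent elements. -/
theorem TraceSetting.traceDeriv_eq_zero_of_trace_two [Finite k] (S : TraceSetting ρ ω ψ H)
    [hH : H.Normal] (p : ℕ) [Fact p.Prime] [CharP k p] (hp2 : p ≠ 2)
    (hspan : HasFullSpan (ρ.comp H.subtype))
    (hω : ∀ a : ℕ, ¬ p ∣ a → ∃ g, (ω g : k) = a)
    {u : G} (hu : u ∈ H) (ht : (ρ u).trace = 2) : traceDeriv ρ ψ u = 0 := by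
  by_cases hu1 : ρ u = 1
  · exact traceDeriv_of_rep_eq_one S.cocycle hu1
  by_contra hδ
  set ι : ZMod p →+* k := ZMod.castHom dvd_rfl k
  have h2 : (2 : k) ≠ 0 := by
    intro h
    have : (p : ℕ) ∣ 2 := (CharP.cast_eq_zero_iff k p 2).mp (by exact_mod_cast h)
    exact hp2 ((Nat.prime_dvd_prime_iff_eq Fact.out Nat.prime_two).mp this)
  set N := ρ u - 1 with hN
  have hN0 : N ≠ 0 := sub_ne_zero.mpr hu1
  have hNsq := sq_zero_of_trace_two ht (S.det_one u hu)
  have hNt : N.trace = 0 := by simp [hN, trace_sub, ht]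
  obtain ⟨⟨g₀, hg₀⟩, hb⟩ : ∃ g : H, (ρ g * N).trace ≠ 0 := by
    by_contra h
    push Not at h
    refine hN0 (hspan.trace_ext fun σ => ?_)
    rw [zero_mul, trace_zero, trace_mul_comm]
    exact h σ
  obtain ⟨hp5, hbF⟩ := S.special_of_ne_zero p hp2 hu ht hδ hg₀ hb
  subst hp5
  set b := (ρ g₀ * N).trace
  -- translation numbers lie in the prime field
  have hprime : ∀ v ∈ H, ∀ a : k, ρ v = 1 + a • N → a ∈ Set.range ι := by
    intro v hv a hva
    have hT : ∀ w ∈ H, ∀ c : k, ρ w = 1 + c • N → (ρ w).trace = 2 := fun w _ c hc => by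
      rw [hc, trace_add, trace_smul, hNt, smul_zero, add_zero, trace_one]; norm_num
    have hkey : ∀ w ∈ H, ∀ c : k, ρ w = 1 + c • N → traceDeriv ρ ψ w ≠ 0 → c ∈ Set.range ι := by
      intro w hw c hc hne
      by_cases hc0 : c = 0
      · exact ⟨0, by simp [hc0]⟩
      have he : (ρ g₀ * (ρ w - 1)).trace = c * b := by
        rw [hc, add_sub_cancel_left, mul_smul_comm, trace_smul, smul_eq_mul]
      obtain ⟨-, x, hx⟩ := S.special_of_ne_zero 5 hp2 hw (hT w hw c hc) hne hg₀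
        (by rw [he]; exact mul_ne_zero hc0 hb)
      obtain ⟨y, hy⟩ := hbF
      refine ⟨x / y, ?_⟩
      rw [map_div₀, hx, hy, he, mul_div_cancel_right₀ _ hb]
    have hρuv : ρ (u * v) = 1 + (1 + a) • N := by
      rw [map_mul, hva, show ρ u = 1 + N by rw [hN]; abel, mul_add, add_mul, one_mul, mul_one,
        mul_smul_comm, add_mul, one_mul, hNsq, add_zero, add_smul, one_smul]
      abel
    have hρuv' : ρ (u * v⁻¹) = 1 + (1 - a) • N := by
      have h1 : ρ v * ((1 : M₂ k) - a • N) = 1 := by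
        rw [hva, mul_sub, mul_one, add_mul, one_mul, smul_mul_assoc, mul_smul_comm, hNsq,
          smul_zero, smul_zero, add_zero]
        abel
      have hinv : ρ v⁻¹ = 1 - a • N := by
        calc ρ v⁻¹ = ρ v⁻¹ * (ρ v * (1 - a • N)) := by rw [h1, mul_one]
          _ = _ := by rw [← mul_assoc, rep_inv_mul, one_mul]
      rw [map_mul, hinv, show ρ u = 1 + N by rw [hN]; abel, mul_sub, mul_one, add_mul, one_mul,
        mul_smul_comm, hNsq, smul_zero, add_zero, sub_smul, one_smul]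
      abel
    by_cases hv0 : traceDeriv ρ ψ v = 0
    · by_cases hs : traceDeriv ρ ψ (u * v) = 0
      · have hpar := traceDeriv_mul_add S.cocycle (S.twist_one u hu) (S.twist_one v hv) (S.det_one v hv)
        rw [hs, hv0, hT v hv a hva, zero_add, mul_zero, add_zero] at hpar
        obtain ⟨x, hx⟩ := hkey _ (mul_mem hu (inv_mem hv)) _ hρuv'
          (by rw [hpar]; exact mul_ne_zero hδ h2)
        exact ⟨1 - x, by rw [map_sub, map_one, hx]; ring⟩
      · obtain ⟨x, hx⟩ := hkey _ (mul_mem hu hv) _ hρuv hs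
        exact ⟨x - 1, by rw [map_sub, map_one, hx]; ring⟩
    · exact hkey v hv a hva hv0
  -- the image of `H`, a finite group
  let φ : H →* (M₂ k)ˣ := (ρ.comp H.subtype).toHomUnits
  have hφ : ∀ x : H, ((φ x : (M₂ k)ˣ) : M₂ k) = ρ x := fun x => rfl
  let I : Subgroup (M₂ k)ˣ := φ.range
  have : Finite (M₂ k)ˣ := Finite.of_injective _ Units.val_injective
  have : Finite I := Finite.of_injective _ Subtype.val_injective
  let uu : I := ⟨φ ⟨u, hu⟩, ⟨⟨u, hu⟩, rfl⟩⟩
  have hord : ∀ x : I, ((x : (M₂ k)ˣ) : M₂ k).trace = 2 → x ^ 5 = 1 := by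
    rintro ⟨_, ⟨y, rfl⟩⟩ hx
    apply Subtype.ext
    apply Units.ext
    rw [hφ] at hx
    show ((φ y ^ 5 : (M₂ k)ˣ) : M₂ k) = 1
    rw [Units.val_pow_eq_pow_val, hφ, ← map_pow, rep_pow_of_trace_two (S.det_one _ y.2) hx,
      CharP.cast_eq_zero, zero_smul, add_zero]
  have hpg : ∀ x : I, x ^ 5 = 1 → IsPGroup 5 (Subgroup.zpowers x) := fun x hx y => ⟨1, by
    obtain ⟨n, hn⟩ := y.2
    apply Subtype.ext
    rw [pow_one]
    show (y : I) ^ 5 = 1
    rw [← hn, ← zpow_natCast, ← zpow_mul, mul_comm, zpow_mul, zpow_natCast, hx, one_zpow]⟩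
  obtain ⟨P, hP⟩ := (hpg uu (hord uu ht)).exists_le_sylow
  have huuP : uu ∈ (P : Subgroup I) := hP (Subgroup.mem_zpowers uu)
  have huni : ∀ x : I, x ∈ (P : Subgroup I) →
      ((((x : (M₂ k)ˣ) : M₂ k) - 1) * (((x : (M₂ k)ˣ) : M₂ k) - 1) = 0 ∧
        (((x : (M₂ k)ˣ) : M₂ k) - 1).trace = 0) := by
    intro x hx
    obtain ⟨j, hj⟩ := P.isPGroup' ⟨x, hx⟩
    refine sq_zero_of_pow_prime_pow 5 (j := j) ?_
    exact congrArg (fun y : (P : Subgroup I) => (((y : I) : (M₂ k)ˣ) : M₂ k)) hj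
  -- a central element
  have : Nontrivial (P : Subgroup I) := ⟨⟨⟨uu, huuP⟩, 1, fun h => hu1 (by
    simpa [uu, hφ] using congrArg (fun y : (P : Subgroup I) => (((y : I) : (M₂ k)ˣ) : M₂ k)) h)⟩⟩
  have := P.isPGroup'.center_nontrivial
  obtain ⟨⟨⟨zc, hzcP⟩, hzc⟩, hzc1⟩ := exists_ne (1 : Subgroup.center (P : Subgroup I))
  have hcent : ∀ x : I, x ∈ (P : Subgroup I) →
      (((zc : (M₂ k)ˣ) : M₂ k) - 1) * (((x : (M₂ k)ˣ) : M₂ k) - 1) =
        (((x : (M₂ k)ˣ) : M₂ k) - 1) * (((zc : (M₂ k)ˣ) : M₂ k) - 1) := by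
    intro x hx
    have := congrArg (fun y : (P : Subgroup I) => (((y : I) : (M₂ k)ˣ) : M₂ k))
      ((Subgroup.mem_center_iff.mp hzc) ⟨x, hx⟩)
    simp only [Subgroup.coe_mul, Units.val_mul] at this
    simp only [sub_mul, mul_sub, one_mul, mul_one, this]
    abel
  have hzc0 : ((zc : (M₂ k)ˣ) : M₂ k) - 1 ≠ 0 := fun h => hzc1 (by
    apply Subtype.ext; apply Subtype.ext; apply Subtype.ext; apply Units.ext
    exact sub_eq_zero.mp h)
  obtain ⟨hzsq, hzt⟩ := huni zc hzcP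
  obtain ⟨c, hc⟩ := eq_smul_of_commute_of_sq_zero h2 hzsq hzc0 hNt (hcent uu huuP)
  have hc0 : c ≠ 0 := fun h => hN0 (by rw [hc, h, zero_smul])
  have hPle : ∀ x : I, x ∈ (P : Subgroup I) → ∃ n : ℕ, x = uu ^ n := by
    intro x hx
    obtain ⟨hxsq, hxt⟩ := huni x hx
    obtain ⟨a, ha⟩ := eq_smul_of_commute_of_sq_zero h2 hzsq hzc0 hxt (hcent x hx)
    obtain ⟨y, hy⟩ := x.2
    have hxN : ρ y = 1 + (a / c) • N := by
      rw [← hφ, hy, hc, smul_smul, div_mul_cancel₀ _ hc0, ← ha]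
      abel
    obtain ⟨m, hm⟩ := hprime y y.2 _ hxN
    refine ⟨m.val, ?_⟩
    apply Subtype.ext
    apply Units.ext
    rw [← hy, hφ, hxN]
    show _ = ((φ ⟨u, hu⟩ ^ m.val : (M₂ k)ˣ) : M₂ k)
    rw [Units.val_pow_eq_pow_val, hφ, ← map_pow, rep_pow_of_trace_two (S.det_one u hu) ht, ← hm,
      ← map_natCast ι, ZMod.natCast_val, ZMod.cast_id]
  -- an element of `G` whose twist is a non-square
  obtain ⟨g, hg⟩ := hω 2 (by norm_num)
  have hy : g * u * g⁻¹ ∈ H := hH.conj_mem u hu g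
  let yy : I := ⟨φ ⟨_, hy⟩, ⟨⟨_, hy⟩, rfl⟩⟩
  obtain ⟨Q, hQ⟩ := (hpg yy (hord yy (by
    show (ρ (g * u * g⁻¹)).trace = 2
    rw [map_mul, trace_mul_comm, ← map_mul, inv_mul_cancel_left]
    exact ht))).exists_le_sylow
  obtain ⟨s, hs⟩ := MulAction.exists_smul_eq I Q P
  have hmem : s * yy * s⁻¹ ∈ (P : Subgroup I) := by
    rw [← hs]
    exact Subgroup.smul_mem_pointwise_smul yy (MulAut.conj s) _ (hQ (Subgroup.mem_zpowers yy))
  obtain ⟨n, hn⟩ := hPle _ hmem
  obtain ⟨h, hh⟩ := s.2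
  set m := (h : G) * g with hm
  have hρ : ρ (m * u * m⁻¹) = ρ (u ^ n) := by
    have := congrArg (fun y : I => ((y : (M₂ k)ˣ) : M₂ k)) hn
    simp only [Subgroup.coe_mul, Subgroup.coe_inv, ← hh, yy, uu, ← map_inv, ← map_mul,
      ← map_pow, hφ, SubmonoidClass.coe_pow] at this
    rw [← this]
    congr 1
    simp [hm, mul_assoc, _root_.mul_inv_rev]
  have e := S.traceDeriv_congr 5 hp2 hspan hu ht hu1 (hH.conj_mem u hu m) (pow_mem hu n) hρ
  rw [traceDeriv_conj S.cocycle m (S.twist_one u hu), S.traceDeriv_pow hu ht n, hm, map_mul,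
    S.twist_one _ h.2, one_mul, hg] at e
  have h2n : ((2 : ℕ) : k) = ((n ^ 2 : ℕ) : k) := by
    push_cast at e ⊢
    exact mul_right_cancel₀ hδ e
  have h2z : ((2 : ℕ) : ZMod 5) = ((n ^ 2 : ℕ) : ZMod 5) := ι.injective (by
    rw [map_natCast, map_natCast]; exact h2n)
  push_cast at h2z
  exact two_ne_sq_zmod_five _ h2z

end

end FermatLib.CFT.TW
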