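import Fermat.Agent.CFT.TameFrob
import Fermat.Agent.CFT.FontainePeu

/-!
# The tame fields `K_N = ℚ_p(μ_(p^N - 1), ϖ)`, `ϖ ^ (p² - 1) = -p`
-/

set_option autoImplicit false

open Polynomial

namespace FermatLib.CFT.Fontaine

variable {p : ℕ} [hp : Fact p.Prime]

/-- Roots of unity of order prime to `p` which are congruent are equal. -/
lemma eq_of_pow_eq_one_of_close {a b : PadicAlgCl p} {M : ℕ} (hM : ¬ p ∣ M) (ha : a ^ M = 1)
    (hb : b ^ M = 1) (h : ‖a - b‖ < 1) : a = b := by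
  have hM0 : M ≠ 0 := fun h0 => hM (h0 ▸ dvd_zero p)
  have ha1 : ‖a‖ = 1 := norm_eq_one_of_pow_eq_one hM0 ha
  have hb1 : ‖b‖ = 1 := norm_eq_one_of_pow_eq_one hM0 hb
  by_contra hne
  have h0 : ∑ i ∈ Finset.range M, a ^ i * b ^ (M - 1 - i) = 0 := by
    have := geom_sum₂_mul a b M
    rw [ha, hb, sub_self, mul_eq_zero, or_iff_left (sub_ne_zero.mpr hne)] at this
    exact this
  have h1 : ‖∑ i ∈ Finset.range M, a ^ i * b ^ (M - 1 - i) - (M : PadicAlgCl p) * b ^ (M - 1)‖ < 1 := by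
    have e : ∑ i ∈ Finset.range M, a ^ i * b ^ (M - 1 - i) - (M : PadicAlgCl p) * b ^ (M - 1) =
        ∑ i ∈ Finset.range M, (a ^ i - b ^ i) * b ^ (M - 1 - i) := by
      rw [show (M : PadicAlgCl p) * b ^ (M - 1) = ∑ _i ∈ Finset.range M, b ^ (M - 1) by simp,
        ← Finset.sum_sub_distrib]
      refine Finset.sum_congr rfl fun i hi => ?_
      rw [sub_mul, ← pow_add]
      congr 2
      have := Finset.mem_range.mp hi
      omega
    rw [e]
    refine lt_of_le_of_lt (IsUltrametricDist.norm_sum_le_of_forall_le_of_nonneg (norm_nonneg _)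
      fun i _ => ?_) h
    rw [norm_mul, norm_pow, hb1, one_pow, mul_one, ← geom_sum₂_mul a b i, norm_mul]
    refine mul_le_of_le_one_left (norm_nonneg _) ?_
    refine IsUltrametricDist.norm_sum_le_of_forall_le_of_nonneg zero_le_one fun j _ => ?_
    simp [ha1, hb1]
  have hMn : ‖(M : PadicAlgCl p)‖ = 1 := by
    rw [show (M : PadicAlgCl p) = algebraMap ℚ_[p] (PadicAlgCl p) ((M : ℤ) : ℚ_[p]) by simp,
      norm_padic_algebraMap]
    exact le_antisymm (Padic.norm_int_le_one _) (not_lt.mp fun hlt =>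
      hM (Int.natCast_dvd_natCast.mp (Padic.norm_intCast_lt_one_iff.mp hlt)))
  rw [h0, zero_sub, norm_neg, norm_mul, hMn, one_mul, norm_pow, hb1, one_pow] at h1
  exact lt_irrefl _ h1

/-- The common tame exponent. -/
def tameExp (p : ℕ) : ℕ := p ^ 2 - 1

lemma tameExp_pos : 0 < tameExp p := by
  have := hp.out.two_le
  have h : 1 < p ^ 2 := one_lt_pow₀ (by omega) two_ne_zero
  unfold tameExp
  omega

lemma not_dvd_tameExp : ¬ p ∣ tameExp p := fun h => by
  have h1 : 1 ≤ p ^ 2 := Nat.one_le_pow _ _ hp.out.pos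
  have h2 : p ∣ p ^ 2 := dvd_pow_self p two_ne_zero
  have h3 : p ^ 2 - (p ^ 2 - 1) = 1 := by omega
  exact hp.out.not_dvd_one (h3 ▸ Nat.dvd_sub h2 h)

omit hp in
lemma tameExp_dvd {N : ℕ} (hN : 2 ∣ N) : tameExp p ∣ p ^ N - 1 := by
  obtain ⟨m, rfl⟩ := hN
  have := Nat.sub_dvd_pow_sub_pow (p ^ 2) 1 m
  rwa [one_pow, ← pow_mul] at this

/-- A root of `X ^ (p² - 1) + p`. -/
noncomputable def tameRoot (p : ℕ) [Fact p.Prime] : PadicAlgCl p :=
  (IsAlgClosed.exists_pow_nat_eq (-(p : PadicAlgCl p)) (tameExp_pos (p := p))).choose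

lemma tameRoot_pow : tameRoot p ^ tameExp p = -(p : PadicAlgCl p) :=
  (IsAlgClosed.exists_pow_nat_eq (-(p : PadicAlgCl p)) (tameExp_pos (p := p))).choose_spec

lemma norm_tameRoot_pow : ‖tameRoot p‖ ^ tameExp p = ‖(p : PadicAlgCl p)‖ := by
  rw [← norm_pow, tameRoot_pow, norm_neg]

lemma tameRoot_ne_zero : tameRoot p ≠ 0 := fun h => by
  have := norm_tameRoot_pow (p := p)
  rw [h, norm_zero, zero_pow (tameExp_pos (p := p)).ne'] at this
  exact norm_natCast_prime_pos.ne this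

lemma norm_tameRoot_lt_one : ‖tameRoot p‖ < 1 := by
  by_contra h
  push Not at h
  exact absurd (norm_natCast_prime_lt_one (p := p))
    (not_lt.mpr (norm_tameRoot_pow (p := p) ▸ one_le_pow₀ h))

lemma root_div_pow_eq_one (τ : PadicAlgCl p ≃ₐ[ℚ_[p]] PadicAlgCl p) :
    (τ (tameRoot p) / tameRoot p) ^ tameExp p = 1 := by
  rw [div_pow, ← map_pow, tameRoot_pow, map_neg, map_natCast,
    div_self (neg_ne_zero.mpr (Nat.cast_ne_zero.mpr hp.out.ne_zero))]

/-- The tame root is separated from its conjugates. -/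
lemma tameRoot_eq_of_close (τ : PadicAlgCl p ≃ₐ[ℚ_[p]] PadicAlgCl p)
    (h : ‖τ (tameRoot p) - tameRoot p‖ < ‖tameRoot p‖) : τ (tameRoot p) = tameRoot p := by
  have h0 := tameRoot_ne_zero (p := p)
  refine (div_eq_one_iff_eq h0).mp (eq_of_pow_eq_one_of_close (M := tameExp p) not_dvd_tameExp
    (root_div_pow_eq_one τ) (one_pow _) ?_)
  rwa [div_sub_one h0, norm_div, div_lt_one (norm_pos_iff.mpr h0)]

/-- The tame field `K_N`. -/
noncomputable def tameField (p : ℕ) [Fact p.Prime] (N : ℕ) : IntermediateField ℚ_[p] (PadicAlgCl p) :=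
  IntermediateField.adjoin ℚ_[p] ({u | u ^ (p ^ N - 1) = 1 ∧ N ≠ 0} ∪ {tameRoot p})

variable {N : ℕ}

lemma pow_sub_one_ne_zero (hN : N ≠ 0) : p ^ N - 1 ≠ 0 := by
  have := one_lt_pow₀ hp.out.one_lt hN
  omega

lemma not_dvd_pow_sub_one (hN : N ≠ 0) : ¬ p ∣ p ^ N - 1 := fun h => by
  have h1 : 1 ≤ p ^ N := Nat.one_le_pow _ _ hp.out.pos
  have h3 : p ^ N - (p ^ N - 1) = 1 := by omega
  exact hp.out.not_dvd_one (h3 ▸ Nat.dvd_sub (dvd_pow_self p hN) h)

instance finiteDimensional_tameField : FiniteDimensional ℚ_[p] (tameField p N) := by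
  classical
  suffices h : ({u : PadicAlgCl p | u ^ (p ^ N - 1) = 1 ∧ N ≠ 0} ∪ {tameRoot p}).Finite by
    have := h.to_subtype
    exact IntermediateField.finiteDimensional_adjoin fun x _ => Algebra.IsIntegral.isIntegral x
  refine Set.Finite.union ?_ (Set.finite_singleton _)
  rcases eq_or_ne N 0 with rfl | hN
  · simp
  refine Set.Finite.subset ((X ^ (p ^ N - 1) - 1 : (PadicAlgCl p)[X]).roots.toFinset.finite_toSet) ?_
  rintro u ⟨hu, -⟩
  rw [Finset.mem_coe, Multiset.mem_toFinset, mem_roots', ← C_1]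
  exact ⟨X_pow_sub_C_ne_zero (Nat.pos_of_ne_zero (pow_sub_one_ne_zero hN)) 1, by simp [hu]⟩

lemma tameRoot_mem : tameRoot p ∈ tameField p N :=
  IntermediateField.subset_adjoin _ _ (Set.mem_union_right _ rfl)

lemma mem_tameField_of_pow_eq_one (hN : N ≠ 0) {u : PadicAlgCl p} (hu : u ^ (p ^ N - 1) = 1) :
    u ∈ tameField p N :=
  IntermediateField.subset_adjoin _ _ (Set.mem_union_left _ ⟨hu, hN⟩)

lemma tameField_le {E : IntermediateField ℚ_[p] (PadicAlgCl p)}
    (h1 : N ≠ 0 → ∀ u : PadicAlgCl p, u ^ (p ^ N - 1) = 1 → u ∈ E) (h2 : tameRoot p ∈ E) :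
    tameField p N ≤ E :=
  IntermediateField.adjoin_le_iff.mpr fun x hx => hx.elim (fun h => h1 h.2 x h.1)
    (fun h => (Set.mem_singleton_iff.mp h).symm ▸ h2)

lemma root_div_mem (hN : N ≠ 0) (hN2 : 2 ∣ N) {η : PadicAlgCl p} (hη : η ^ tameExp p = 1) :
    η ∈ tameField p N := by
  obtain ⟨c, hc⟩ := tameExp_dvd (p := p) hN2
  exact mem_tameField_of_pow_eq_one hN (by rw [hc, pow_mul, hη, one_pow])

lemma tameField_normal (hN : N ≠ 0) (hN2 : 2 ∣ N) (τ : PadicAlgCl p ≃ₐ[ℚ_[p]] PadicAlgCl p) :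
    ∀ x ∈ tameField p N, τ x ∈ tameField p N := by
  intro x hx
  induction hx using IntermediateField.adjoin_induction with
  | mem x hx =>
    rcases hx with ⟨hx, -⟩ | rfl
    · exact mem_tameField_of_pow_eq_one hN (by rw [← map_pow, hx, map_one])
    · rw [← div_mul_cancel₀ (τ (tameRoot p)) tameRoot_ne_zero]
      exact mul_mem (root_div_mem hN hN2 (root_div_pow_eq_one τ)) tameRoot_mem
  | algebraMap x => rw [AlgEquiv.commutes]; exact IntermediateField.algebraMap_mem _ x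
  | add x y _ _ hx hy => rw [map_add]; exact add_mem hx hy
  | inv x _ hx => rw [map_inv₀]; exact inv_mem hx
  | mul x y _ _ hx hy => rw [map_mul]; exact mul_mem hx hy

variable (B : RamifiedBasis (tameField p N))

/-- The roots of unity of `K_N` lie in its unramified part. -/
lemma mem_tame_W (hN : N ≠ 0) {u : PadicAlgCl p} (hu : u ^ (p ^ N - 1) = 1) : u ∈ B.W := by
  have huK := mem_tameField_of_pow_eq_one hN hu
  have hu1 : ‖u‖ = 1 := norm_eq_one_of_pow_eq_one (pow_sub_one_ne_zero hN) hu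
  obtain ⟨t, htK, -, htq, htu⟩ := exists_teichmuller (tameField p N) huK hu1.le
  set q := residueCard (tameField p N)
  have ht0 : t ≠ 0 := fun h => by simp [h, hu1] at htu
  have hq1 : 1 < q := one_lt_residueCard _
  have ht1 : t ^ (q - 1) = 1 := mul_left_cancel₀ ht0 (by
    rw [← pow_succ', mul_one, Nat.sub_add_cancel hq1.le, htq])
  have hndvd : ¬ p ∣ q - 1 := fun h => by
    have h1 := Nat.dvd_sub (dvd_residueCard (tameField p N)) h
    rw [show q - (q - 1) = 1 by omega] at h1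
    exact hp.out.not_dvd_one h1
  have : t = u := eq_of_pow_eq_one_of_close (M := (p ^ N - 1) * (q - 1))
    (fun h => (hp.out.dvd_mul.mp h).elim (not_dvd_pow_sub_one hN) hndvd)
    (by rw [mul_comm, pow_mul, ht1, one_pow]) (by rw [pow_mul, hu, one_pow]) htu
  rw [B.W_eq, ← this]
  exact IntermediateField.subset_adjoin _ _ ⟨htK, htq⟩

/-- `K_N = W(ϖ)`. -/
lemma mem_adjoin_tame {x : PadicAlgCl p} (hx : x ∈ tameField p N) :
    x ∈ IntermediateField.adjoin B.W ({tameRoot p} : Set (PadicAlgCl p)) := by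
  have hle : tameField p N ≤
      (IntermediateField.adjoin B.W ({tameRoot p} : Set (PadicAlgCl p))).restrictScalars ℚ_[p] := by
    refine tameField_le (fun hN y hy => (IntermediateField.mem_restrictScalars ℚ_[p]).mpr ?_)
      ((IntermediateField.mem_restrictScalars ℚ_[p]).mpr
        (IntermediateField.mem_adjoin_simple_self B.W (tameRoot p)))
    exact (IntermediateField.adjoin B.W ({tameRoot p} : Set (PadicAlgCl p))).algebraMap_mem ⟨y, mem_tame_W B hN hy⟩
  exact (IntermediateField.mem_restrictScalars ℚ_[p]).mp (hle hx)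

include B in
lemma norm_mem_tame {x : PadicAlgCl p} (hx : x ∈ tameField p N) (hx0 : x ≠ 0) :
    ∃ k : ℤ, ‖x‖ = ‖tameRoot p‖ ^ k := by
  have hroot : aeval (tameRoot p) (X ^ tameExp p + C ((p : B.W)) : B.W[X]) = 0 := by
    simp [tameRoot_pow]
  obtain ⟨a, ha, rfl⟩ := exists_sum_of_mem_adjoin _ (monic_X_pow_add_C _ (tameExp_pos (p := p)).ne')
    natDegree_X_pow_add_C (tameExp_pos (p := p)).ne' hroot (mem_adjoin_tame B hx)
  exact (norm_mul_pow_le_norm_sum _ tameRoot_ne_zero norm_tameRoot_lt_one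
    (fun w hw hw0 => norm_tameRoot_pow (p := p) ▸ B.norm_W w hw hw0) ha).2 hx0

/-- All conjugates of `ϖ` are conjugate over `W`. -/
theorem exists_tame_conj {η : PadicAlgCl p} (hη : η ^ tameExp p = 1) :
    ∃ τ : PadicAlgCl p ≃ₐ[ℚ_[p]] PadicAlgCl p,
      (∀ w ∈ B.W, τ w = w) ∧ τ (tameRoot p) = η * tameRoot p := by
  have hint := isIntegral_intermediate B.W (tameRoot p)
  have he := tameExp_pos (p := p)
  have hmp : minpoly B.W (tameRoot p) = X ^ tameExp p + C ((p : B.W)) := by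
    refine eq_of_monic_of_associated (minpoly.monic hint) (monic_X_pow_add_C _ he.ne')
      (associated_of_dvd_of_natDegree_le (minpoly.dvd _ _ (by simp [tameRoot_pow]))
        (monic_X_pow_add_C _ he.ne').ne_zero ?_)
    rw [natDegree_X_pow_add_C]
    exact le_natDegree_minpoly tameRoot_ne_zero norm_tameRoot_lt_one
      (fun w hw hw0 => norm_tameRoot_pow (p := p) ▸ B.norm_W w hw hw0)
  have : Normal B.W (PadicAlgCl p) := Normal.tower_top_of_normal ℚ_[p] B.W (PadicAlgCl p)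
  obtain ⟨τ, hτ⟩ := minpoly.exists_algEquiv_of_root' (L := PadicAlgCl p) (x := η * tameRoot p)
    hint.isAlgebraic (by rw [hmp]; simp [mul_pow, hη, tameRoot_pow])
  exact ⟨τ.restrictScalars ℚ_[p], fun w hw => τ.commutes ⟨w, hw⟩, hτ⟩

/-- An automorphism fixing `W` and `ϖ` fixes `K_N`. -/
lemma fixes_tameField {τ : PadicAlgCl p ≃ₐ[ℚ_[p]] PadicAlgCl p} (hW : ∀ w ∈ B.W, τ w = w)
    (hϖ : τ (tameRoot p) = tameRoot p) : τ ∈ (tameField p N).fixingSubgroup := by
  rw [IntermediateField.mem_fixingSubgroup_iff]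
  exact fun x hx => fixed_adjoin hW (fun v hv => by rw [hv]; exact hϖ) (mem_adjoin_tame B hx)

/-- The residue field of `K_N` is perfect. -/
lemma exists_pow_approx {x : PadicAlgCl p} (hx : x ∈ tameField p N) (hx1 : ‖x‖ ≤ 1) :
    ∃ w ∈ tameField p N, ‖x - w ^ p‖ < 1 := by
  obtain ⟨u, huK, -, huq, hux⟩ := exists_teichmuller (tameField p N) hx hx1
  obtain ⟨c, hc⟩ := dvd_residueCard (tameField p N)
  refine ⟨u ^ c, pow_mem huK c, ?_⟩
  rw [← pow_mul, mul_comm, ← hc, huq, norm_sub_rev]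
  exact hux

/-- A Frobenius automorphism fixing `ϖ`. -/
theorem exists_tame_frobenius (hN : N ≠ 0) (hN2 : 2 ∣ N) :
    ∃ φ : PadicAlgCl p ≃ₐ[ℚ_[p]] PadicAlgCl p, φ (tameRoot p) = tameRoot p ∧
      ∀ u : PadicAlgCl p, u ^ (residueCard (tameField p N) - 1) = 1 → φ u = u ^ p := by
  obtain ⟨B⟩ := exists_ramifiedBasis (L := tameField p N)
  obtain ⟨φ, hφ⟩ := exists_frobenius_teichmuller (tameField p N)
  obtain ⟨τ, hτW, hτϖ⟩ := exists_tame_conj B (η := (φ (tameRoot p) / tameRoot p)⁻¹)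
    (by rw [inv_pow, root_div_pow_eq_one, inv_one])
  refine ⟨φ.trans τ, ?_, fun u hu => ?_⟩
  · have hηW : φ (tameRoot p) / tameRoot p ∈ B.W := by
      obtain ⟨c, hc⟩ := tameExp_dvd (p := p) hN2
      exact mem_tame_W B hN (by rw [hc, pow_mul, root_div_pow_eq_one, one_pow])
    rw [AlgEquiv.trans_apply, ← div_mul_cancel₀ (φ (tameRoot p)) tameRoot_ne_zero, map_mul,
      hτW _ hηW, hτϖ, ← mul_assoc, mul_inv_cancel₀ (div_ne_zero (by
        simpa using tameRoot_ne_zero (p := p)) tameRoot_ne_zero), one_mul]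
  · rw [AlgEquiv.trans_apply, hφ u hu]
    refine hτW _ (pow_mem ?_ p)
    rw [B.W_eq]
    exact IntermediateField.subset_adjoin _ _ ⟨mem_of_pow_residueCard_sub_one _ hu, by
      rw [← Nat.sub_add_cancel (one_lt_residueCard (tameField p N)).le, pow_succ, hu, one_mul]⟩

/-- A Fontaine-small field containing `K_N` only has peu ramifié Kummer elements over `K_N`. -/
theorem exists_pow_congr_one_tame {L : IntermediateField ℚ_[p] (PadicAlgCl p)}
    [FiniteDimensional ℚ_[p] L] (BL : RamifiedBasis L) (hsmall : BL.IsSmall)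
    (hKL : tameField p N ≤ L) {y : PadicAlgCl p} (hyL : y ∈ L) (hy0 : y ≠ 0)
    (hyK : y ^ p ∈ tameField p N) :
    ∃ t ∈ tameField p N, t ≠ 0 ∧ ‖y ^ p / t ^ p - 1‖ ≤ ‖(p : PadicAlgCl p)‖ := by
  obtain ⟨B⟩ := exists_ramifiedBasis (L := tameField p N)
  have hW : B.W ≤ BL.W := by rw [B.W_eq, BL.W_eq]; exact unramifiedPart_mono L hKL
  have he := tameExp_pos (p := p)
  refine BL.exists_pow_congr_one hsmall (hKL tameRoot_mem) he.ne' norm_tameRoot_pow
    (a := fun i => if (i : ℕ) = 0 then -(p : PadicAlgCl p) else 0) (fun i => ?_) ?_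
    (tameField p N) hKL tameRoot_mem (fun x hx => ?_) (fun x hx hx0 => norm_mem_tame B hx hx0)
    (fun x hx hx1 => exists_pow_approx hx hx1) hyL hy0 hyK
  · split_ifs
    exacts [neg_mem (natCast_mem BL.W p), zero_mem _]
  · rw [tameRoot_pow, Finset.sum_eq_single (⟨0, he⟩ : Fin (tameExp p))]
    · simp
    · intro i _ hi
      rw [if_neg fun h => hi (Fin.ext h), zero_mul]
    · simp
  · have hle : tameField p N ≤
        (IntermediateField.adjoin BL.W ({tameRoot p} : Set (PadicAlgCl p))).restrictScalars ℚ_[p] := by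
      refine tameField_le (fun hN y hy => (IntermediateField.mem_restrictScalars ℚ_[p]).mpr ?_)
        ((IntermediateField.mem_restrictScalars ℚ_[p]).mpr
          (IntermediateField.mem_adjoin_simple_self BL.W (tameRoot p)))
      exact (IntermediateField.adjoin BL.W ({tameRoot p} : Set (PadicAlgCl p))).algebraMap_mem ⟨y, hW (mem_tame_W B hN hy)⟩
    exact (IntermediateField.mem_restrictScalars ℚ_[p]).mp (hle hx)

end FermatLib.CFT.Fontaine
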