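import Fermat.Agent.CFT.TameLayers
import Fermat.Agent.CFT.FontaineModel

/-!
# Cocycles from finite flat group schemes have Kummer level `e` over the tame fields
-/

set_option autoImplicit false

noncomputable section

namespace FermatLib.CFT.Fontaine

local notation "G" p => PadicAlgCl p ≃ₐ[ℚ_[p]] PadicAlgCl p

variable {p : ℕ} [hp : Fact p.Prime] {N : ℕ}

/-- Kummer theory: a character of order `p` of the fixer of a field containing `μ_p` comes from a
root of an element of the field. -/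
theorem exists_kummer_element (hN : N ≠ 0) (hN2 : 2 ∣ N) (hζK : zetaP p ∈ tameField p N)
    (L : IntermediateField ℚ_[p] (PadicAlgCl p)) [FiniteDimensional ℚ_[p] L]
    (χ : (G p) → ZMod p)
    (hχ : ∀ g ∈ (tameField p N).fixingSubgroup, ∀ h ∈ (tameField p N).fixingSubgroup,
      χ (g * h) = χ g + χ h)
    (hL : ∀ g ∈ (tameField p N).fixingSubgroup, g ∈ L.fixingSubgroup → χ g = 0) :
    ∃ y : PadicAlgCl p, y ≠ 0 ∧ y ^ p ∈ tameField p N ∧
      ∀ h ∈ (tameField p N).fixingSubgroup, h y = rootPow (χ h) * y := by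
  set K := tameField p N with hK
  have hmemK : ∀ {x : PadicAlgCl p}, (∀ h ∈ K.fixingSubgroup, h x = x) → x ∈ K := fun {x} hx => by
    rw [← InfiniteGalois.fixedField_fixingSubgroup K, IntermediateField.mem_fixedField_iff]
    exact hx
  have hχ1 : χ 1 = 0 := by
    have h := hχ 1 (one_mem _) 1 (one_mem _)
    rw [mul_one] at h
    exact left_eq_add.mp h
  by_cases hall : ∀ h ∈ K.fixingSubgroup, χ h = 0
  · exact ⟨1, one_ne_zero, by rw [one_pow]; exact one_mem _, fun h hh => by simp [hall h hh]⟩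
  push Not at hall
  obtain ⟨σ₀, hσ₀, hσ₀χ⟩ := hall
  have hinvχ : ∀ g ∈ K.fixingSubgroup, χ g⁻¹ = -χ g := fun g hg => by
    have h := hχ g hg g⁻¹ (inv_mem hg)
    rw [mul_inv_cancel, hχ1] at h
    exact (neg_eq_of_add_eq_zero_right h.symm).symm
  have hpow : ∀ g ∈ K.fixingSubgroup, ∀ n : ℕ, χ (g ^ n) = n * χ g := by
    intro g hg n
    induction n with
    | zero => simp [hχ1]
    | succ n ih => rw [pow_succ, hχ _ (pow_mem hg n) g hg, ih]; push_cast; ring
  set σ := σ₀ ^ (χ σ₀)⁻¹.val with hσdef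
  have hσ : σ ∈ K.fixingSubgroup := pow_mem hσ₀ _
  have hσχ : χ σ = 1 := by
    rw [hσdef, hpow _ hσ₀, ZMod.natCast_zmod_val, inv_mul_cancel₀ hσ₀χ]
  -- the kernel field
  let Hχ : Subgroup (G p) :=
    { carrier := {g | g ∈ K.fixingSubgroup ∧ χ g = 0}
      one_mem' := ⟨one_mem _, hχ1⟩
      mul_mem' := fun {a b} ha hb => ⟨mul_mem ha.1 hb.1, by rw [hχ a ha.1 b hb.1, ha.2, hb.2, add_zero]⟩
      inv_mem' := fun {a} ha => ⟨inv_mem ha.1, by rw [hinvχ a ha.1, ha.2, neg_zero]⟩ }
  have hfac : ∀ h ∈ K.fixingSubgroup, (σ ^ (χ h).val)⁻¹ * h ∈ Hχ := fun h hh =>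
    ⟨mul_mem (inv_mem (pow_mem hσ _)) hh, by
      rw [hχ _ (inv_mem (pow_mem hσ _)) h hh, hinvχ _ (pow_mem hσ _), hpow _ hσ, hσχ, mul_one,
        ZMod.natCast_zmod_val, neg_add_cancel]⟩
  have hle : (K ⊔ L).fixingSubgroup ≤ Hχ := fun g hg => by
    rw [IntermediateField.fixingSubgroup_sup] at hg
    exact ⟨hg.1, hL g hg.1 hg.2⟩
  -- an element moved by `σ`
  obtain ⟨z, hzH, hσz⟩ : ∃ z : PadicAlgCl p, (∀ g ∈ Hχ, g z = z) ∧ σ z ≠ z := by
    by_contra hcon
    push Not at hcon
    have : FiniteDimensional ℚ_[p] (K ⊔ L : IntermediateField ℚ_[p] (PadicAlgCl p)) :=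
      IntermediateField.finiteDimensional_sup K L
    have hopen : IsOpen (Hχ : Set (G p)) :=
      Subgroup.isOpen_mono hle ((K ⊔ L).fixingSubgroup_isOpen)
    have hclosed : IsClosed (Hχ : Set (G p)) := Subgroup.isClosed_of_isOpen _ hopen
    have hσmem : σ ∈ (IntermediateField.fixedField Hχ).fixingSubgroup := by
      rw [IntermediateField.mem_fixingSubgroup_iff]
      exact fun x hx => hcon x ((IntermediateField.mem_fixedField_iff _ _).mp hx)
    rw [show (IntermediateField.fixedField Hχ).fixingSubgroup = Hχ from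
      InfiniteGalois.fixingSubgroup_fixedField ⟨Hχ, hclosed⟩] at hσmem
    exact one_ne_zero (hσχ.symm.trans hσmem.2)
  -- resolvents
  have hζ := zetaP_isPrimitiveRoot (p := p)
  have hζ0 : zetaP p ≠ 0 := hζ.ne_zero hp.out.ne_zero
  have hσfix : ∀ {x : PadicAlgCl p}, x ∈ K → σ x = x := fun hx =>
    (IntermediateField.mem_fixingSubgroup_iff _ _).mp hσ _ hx
  have hσp : (σ ^ p) z = z := hzH _ ⟨pow_mem hσ _, by rw [hpow _ hσ, hσχ, mul_one, ZMod.natCast_self]⟩
  have happ : ∀ h ∈ K.fixingSubgroup, ∀ k : ℕ, h ((σ ^ k) z) = (σ ^ (k + (χ h).val)) z := by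
    intro h hh k
    have hmem : (σ ^ (k + (χ h).val))⁻¹ * (h * σ ^ k) ∈ Hχ :=
      ⟨mul_mem (inv_mem (pow_mem hσ _)) (mul_mem hh (pow_mem hσ _)), by
        rw [hχ _ (inv_mem (pow_mem hσ _)) _ (mul_mem hh (pow_mem hσ _)), hinvχ _ (pow_mem hσ _),
          hpow _ hσ, hσχ, hχ h hh _ (pow_mem hσ _), hpow _ hσ, hσχ]
        push_cast [ZMod.natCast_zmod_val]
        ring⟩
    have h1 := congrArg (σ ^ (k + (χ h).val)) (hzH _ hmem)
    rw [← AlgEquiv.mul_apply, ← mul_assoc, mul_inv_cancel, one_mul, AlgEquiv.mul_apply] at h1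
    exact h1
  let R : ℕ → PadicAlgCl p := fun i => ∑ k ∈ Finset.range p, (zetaP p ^ (i * k))⁻¹ * (σ ^ k) z
  have hRσ : ∀ i, σ (R i) = zetaP p ^ i * R i := by
    intro i
    let F : ℕ → PadicAlgCl p := fun k => (zetaP p ^ (i * k))⁻¹ * (σ ^ k) z
    have h1 : σ (R i) = ∑ k ∈ Finset.range p, zetaP p ^ i * F (k + 1) := by
      simp only [R, map_sum]
      refine Finset.sum_congr rfl fun k _ => ?_
      simp only [F, map_mul, map_inv₀, map_pow, hσfix hζK]
      rw [← AlgEquiv.mul_apply, ← pow_succ', mul_add, mul_one, pow_add (zetaP p), mul_inv]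
      field_simp
    have h2 : ∑ k ∈ Finset.range p, F (k + 1) = ∑ k ∈ Finset.range p, F k := by
      have e1 := Finset.sum_range_succ' F p
      have e2 := Finset.sum_range_succ F p
      have e3 : F p = F 0 := by
        simp only [F, pow_zero, inv_one, one_mul, pow_mul', hζ.pow_eq_one, one_pow, hσp]
        rfl
      linear_combination e2 - e1 + e3
    rw [h1, ← Finset.mul_sum, h2]
  have hRfix : ∀ i, ∀ g ∈ Hχ, g (R i) = R i := by
    intro i g hg
    simp only [R, map_sum, map_mul, map_inv₀, map_pow,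
      (IntermediateField.mem_fixingSubgroup_iff _ _).mp hg.1 _ hζK, happ g hg.1, hg.2, ZMod.val_zero,
      add_zero]
  have hRh : ∀ i, ∀ h ∈ K.fixingSubgroup, h (R i) = zetaP p ^ (i * (χ h).val) * R i := by
    intro i h hh
    have hpowR : ∀ n : ℕ, (σ ^ n) (R i) = zetaP p ^ (i * n) * R i := by
      intro n
      induction n with
      | zero => simp
      | succ n ih =>
        rw [pow_succ', AlgEquiv.mul_apply, ih, map_mul, map_pow, hσfix hζK, hRσ, ← mul_assoc,
          ← pow_add, Nat.mul_succ]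
    rw [show h = σ ^ (χ h).val * ((σ ^ (χ h).val)⁻¹ * h) by group, AlgEquiv.mul_apply,
      hRfix i _ (hfac h hh), hpowR]
    simp [← mul_assoc]
  have hsum : ∑ i ∈ Finset.range p, R i = (p : PadicAlgCl p) * z := by
    simp only [R]
    rw [Finset.sum_comm, Finset.sum_eq_single_of_mem 0 (Finset.mem_range.mpr hp.out.pos)]
    · simp
    · intro k hk hk0
      rw [← Finset.sum_mul]
      have hprim : IsPrimitiveRoot ((zetaP p ^ k)⁻¹) p :=
        (hζ.pow_of_coprime k ((hp.out.coprime_iff_not_dvd.mpr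
          (Nat.not_dvd_of_pos_of_lt (by omega) (Finset.mem_range.mp hk))).symm)).inv
      have hgeom : ∑ j ∈ Finset.range p, (zetaP p ^ (j * k))⁻¹ = 0 := by
        rw [← hprim.geom_sum_eq_zero hp.out.one_lt]
        exact Finset.sum_congr rfl fun j _ => by rw [mul_comm j k, inv_pow, pow_mul]
      rw [hgeom, zero_mul]
  obtain ⟨i, hi, hi0, hRi⟩ : ∃ i ∈ Finset.range p, i ≠ 0 ∧ R i ≠ 0 := by
    by_contra hcon
    push Not at hcon
    rw [Finset.sum_eq_single_of_mem 0 (Finset.mem_range.mpr hp.out.pos) hcon] at hsum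
    refine hσz (mul_left_cancel₀ (Nat.cast_ne_zero.mpr hp.out.ne_zero : (p : PadicAlgCl p) ≠ 0) ?_)
    have h0 := hRσ 0
    rw [pow_zero, one_mul, hsum, map_mul, map_natCast] at h0
    exact h0
  set m := ((i : ZMod p))⁻¹.val
  have him : ((i * m : ℕ) : ZMod p) = 1 := by
    rw [Nat.cast_mul, ZMod.natCast_zmod_val, mul_inv_cancel₀]
    rw [Ne, ZMod.natCast_eq_zero_iff]
    exact Nat.not_dvd_of_pos_of_lt (Nat.pos_of_ne_zero hi0) (Finset.mem_range.mp hi)
  have hy : ∀ h ∈ K.fixingSubgroup, h (R i ^ m) = rootPow (χ h) * R i ^ m := by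
    intro h hh
    rw [map_pow, hRh i h hh, mul_pow, ← pow_mul, ← rootPow_natCast]
    congr 2
    rw [mul_right_comm, Nat.cast_mul, him, one_mul, ZMod.natCast_zmod_val]
  refine ⟨R i ^ m, pow_ne_zero _ hRi, hmemK fun h hh => ?_, hy⟩
  rw [map_pow, hy h hh, mul_pow, rootPow, ← pow_mul (zetaP p), mul_comm (ZMod.val _) p, pow_mul,
    hζ.pow_eq_one, one_pow, one_mul]

/-- Additive functions trivial on a small field's fixer have Kummer level `e`. -/
theorem hasKummerLevel_of_isSmall {W : Type} [AddCommGroup W] [Module (ZMod p) W]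
    (hN : N ≠ 0) (hN2 : 2 ∣ N) (hζK : zetaP p ∈ tameField p N)
    (L : IntermediateField ℚ_[p] (PadicAlgCl p)) [FiniteDimensional ℚ_[p] L]
    (hKL : tameField p N ≤ L) (B : RamifiedBasis L) (hsmall : B.IsSmall) (ψ : (G p) → W)
    (hadd : ∀ g ∈ (tameField p N).fixingSubgroup, ∀ h ∈ (tameField p N).fixingSubgroup,
      ψ (g * h) = ψ g + ψ h)
    (hL : ∀ g ∈ L.fixingSubgroup, ψ g = 0) :
    HasKummerLevel N (tameExp p) ψ := by
  intro l
  obtain ⟨y, hy0, hyK, hy⟩ := exists_kummer_element hN hN2 hζK L (fun g => l (ψ g))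
    (fun g hg h hh => by rw [hadd g hg h hh, map_add]) (fun g _ hg => by rw [hL g hg, map_zero])
  have hyL : y ∈ L := by
    rw [← InfiniteGalois.fixedField_fixingSubgroup L, IntermediateField.mem_fixedField_iff]
    intro g hg
    rw [hy g (IntermediateField.fixingSubgroup_antitone hKL hg), hL g hg, map_zero, rootPow_zero, one_mul]
  obtain ⟨t, htK, ht0, ht⟩ := exists_pow_congr_one_tame B hsmall hKL hyL hy0 hyK
  refine ⟨y / t, ?_, ?_, fun h hh => ?_⟩
  · rw [div_pow]; exact div_mem hyK (pow_mem htK _)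
  · rw [div_pow, norm_tameRoot_pow]; exact ht
  · rw [map_div₀, hy h hh, (IntermediateField.mem_fixingSubgroup_iff _ _).mp hh t htK, mul_div_assoc]

/-- The small field of a finite flat group scheme killed by `p`, enlarged by `K_N`. -/
theorem exists_small_field {M : Type} [AddCommGroup M] [Finite M] [Module (ZMod p) M]
    {act : (AlgebraicClosure ℚ ≃ₐ[ℚ] AlgebraicClosure ℚ) → M → M}
    (h : Galois.FlatModel.HasModelAt p M act) (hN : N ≠ 0) (hN2 : 2 ∣ N) :
    ∃ L : IntermediateField ℚ_[p] (PadicAlgCl p), FiniteDimensional ℚ_[p] L ∧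
      tameField p N ≤ L ∧ (∀ τ : G p, ∀ x ∈ L, τ x ∈ L) ∧
      (∀ τ ∈ L.fixingSubgroup, ∀ m, act (localGaloisToGlobal p τ) m = m) ∧
      ∀ B : RamifiedBasis L, B.IsSmall := by
  obtain ⟨ι, _, Λ, -, hact, hinj⟩ := exists_pointLattice (p := p) h
  set L := tameField p N ⊔
    IntermediateField.adjoin ℚ_[p] (Set.range fun q : ι × M => Λ.b q.1 q.2) with hLdef
  have hfin' : FiniteDimensional ℚ_[p]
      (IntermediateField.adjoin ℚ_[p] (Set.range fun q : ι × M => Λ.b q.1 q.2)) :=
    IntermediateField.finiteDimensional_adjoin fun x _ => Algebra.IsIntegral.isIntegral x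
  have hfin : FiniteDimensional ℚ_[p] L := IntermediateField.finiteDimensional_sup _ _
  have hL : ∀ τ ∈ L.fixingSubgroup, ∀ m, act (localGaloisToGlobal p τ) m = m := by
    intro τ hτ m
    refine hinj _ _ fun l => ?_
    rw [← hact]
    refine (IntermediateField.mem_fixingSubgroup_iff _ _).mp hτ _ ?_
    exact (le_sup_right : _ ≤ L) (IntermediateField.subset_adjoin _ _ ⟨(l, m), rfl⟩)
  have hnormal : ∀ τ : G p, ∀ x ∈ L, τ x ∈ L := by
    intro τ x hx
    have hle : L ≤ L.comap (τ : PadicAlgCl p →ₐ[ℚ_[p]] PadicAlgCl p) := by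
      refine sup_le (fun y hy => (le_sup_left : _ ≤ L) (tameField_normal hN hN2 τ y hy)) ?_
      rw [IntermediateField.adjoin_le_iff]
      rintro _ ⟨⟨l, m⟩, rfl⟩
      show τ (Λ.b l m) ∈ L
      rw [hact]
      exact (le_sup_right : _ ≤ L) (IntermediateField.subset_adjoin _ _ ⟨(l, _), rfl⟩)
    exact hle hx
  refine ⟨L, hfin, le_sup_left, hnormal, hL, fun B => ?_⟩
  refine B.isSmall_of_hasModelAt h hnormal hL
    ({u | u ^ (p ^ N - 1) = 1} ∪ {tameRoot p}) ?_ ?_ ?_
  · rintro u (hu | rfl)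
    · exact (le_sup_left : _ ≤ L) (mem_tameField_of_pow_eq_one hN hu)
    · exact (le_sup_left : _ ≤ L) tameRoot_mem
  · rintro τ t (ht | rfl) hlt
    · have ht1 : ‖t‖ = 1 := norm_eq_one_of_pow_eq_one (pow_sub_one_ne_zero hN) ht
      exact eq_of_pow_eq_one_of_close (not_dvd_pow_sub_one hN)
        (by rw [← map_pow, ht, map_one]) ht (hlt.trans_eq ht1)
    · exact tameRoot_eq_of_close τ hlt
  · intro τ hτm hτT x hx
    have hτ : τ ∈ L.fixingSubgroup := by
      rw [hLdef, IntermediateField.fixingSubgroup_sup]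
      constructor
      · have : Subgroup.zpowers τ ≤ (tameField p N).fixingSubgroup := by
          rw [← IntermediateField.le_iff_le]
          refine tameField_le (fun _ u hu => ?_) ?_
          · exact (IntermediateField.mem_fixedField_iff _ _).mpr fun g hg =>
              Subgroup.zpowers_le.mpr (show τ ∈ MulAction.stabilizer _ u from hτT u (Or.inl hu)) hg
          · exact (IntermediateField.mem_fixedField_iff _ _).mpr fun g hg =>
              Subgroup.zpowers_le.mpr
                (show τ ∈ MulAction.stabilizer _ (tameRoot p) from hτT _ (Or.inr rfl)) hg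
        exact this (Subgroup.mem_zpowers τ)
      · have : Subgroup.zpowers τ ≤ (IntermediateField.adjoin ℚ_[p]
            (Set.range fun q : ι × M => Λ.b q.1 q.2)).fixingSubgroup := by
          rw [← IntermediateField.le_iff_le, IntermediateField.adjoin_le_iff]
          rintro _ ⟨⟨l, m⟩, rfl⟩
          exact (IntermediateField.mem_fixedField_iff _ _).mpr fun g hg =>
            Subgroup.zpowers_le.mpr (show τ ∈ MulAction.stabilizer _ (Λ.b l m) from by
              show τ (Λ.b l m) = _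
              rw [hact, hτm]) hg
        exact this (Subgroup.mem_zpowers τ)
    exact (IntermediateField.mem_fixingSubgroup_iff _ _).mp hτ x hx

end FermatLib.CFT.Fontaine
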