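import Fermat.Agent.CFT.FontaineKummer
import Mathlib.FieldTheory.Normal.Basic
import Mathlib.NumberTheory.Padics.RingHoms

/-!
# The action of the local Galois group on Teichmüller representatives

On the Teichmüller representatives of a finite extension of `ℚ_p` every automorphism is a power of
`u ↦ u ^ p`, and this automorphism occurs.
-/

set_option autoImplicit false

open Polynomial

namespace FermatLib.CFT.Fontaine

variable {p : ℕ} [hp : Fact p.Prime] (L : IntermediateField ℚ_[p] (PadicAlgCl p))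
  [FiniteDimensional ℚ_[p] L]

noncomputable instance instIsDomainResidue : IsDomain (Residue L) := Ideal.Quotient.isDomain _

omit [FiniteDimensional ℚ_[p] L] in
lemma natCast_p_residue : ((p : ℕ) : Residue L) = 0 := by
  rw [← map_natCast (Ideal.Quotient.mk (openBall L)), Ideal.Quotient.eq_zero_iff_mem]
  show ‖(((p : integers L) : L) : PadicAlgCl p)‖ < 1
  rw [show (((p : integers L) : L) : PadicAlgCl p) = algebraMap ℚ_[p] (PadicAlgCl p) p by simp,
    norm_padic_algebraMap]
  exact Padic.norm_p_lt_one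

instance instCharPResidue : CharP (Residue L) p :=
  (CharP.charP_iff_prime_eq_zero hp.out).mpr (natCast_p_residue L)

omit [FiniteDimensional ℚ_[p] L] in
/-- An integral polynomial is small at `z ∈ L` iff it vanishes on its residue. -/
lemma norm_aeval_int_lt_one_iff (P : ℤ[X]) {z : PadicAlgCl p} (hz : z ∈ L) (hz1 : ‖z‖ ≤ 1) :
    ‖aeval z P‖ < 1 ↔
      aeval (Ideal.Quotient.mk (openBall L) ⟨⟨z, hz⟩, hz1⟩) P = 0 := by
  set x : integers L := ⟨⟨z, hz⟩, hz1⟩
  have e : ((aeval x P : integers L) : L).val = aeval z P :=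
    (aeval_algHom_apply (((L.val.toRingHom).comp (integers L).subtype).toIntAlgHom) x P).symm
  rw [show aeval (Ideal.Quotient.mk (openBall L) x) P = Ideal.Quotient.mk (openBall L) (aeval x P)
    from aeval_algHom_apply ((Ideal.Quotient.mk (openBall L)).toIntAlgHom) x P,
    Ideal.Quotient.eq_zero_iff_mem, ← e]
  rfl

omit [FiniteDimensional ℚ_[p] L] in
lemma norm_eq_one_of_pow_eq_one {u : PadicAlgCl p} {n : ℕ} (hn : n ≠ 0) (hu : u ^ n = 1) : ‖u‖ = 1 :=
  (pow_eq_one_iff_of_nonneg (norm_nonneg u) hn).mp (by rw [← norm_pow, hu, norm_one])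

lemma mem_of_pow_residueCard_sub_one {u : PadicAlgCl p} (hu : u ^ (residueCard L - 1) = 1) :
    u ∈ L := by
  obtain ⟨ζ, hζL, hζ, -⟩ := exists_teichmuller_generator L
  have : NeZero (residueCard L - 1) := ⟨by have := one_lt_residueCard L; omega⟩
  obtain ⟨i, -, rfl⟩ := hζ.eq_pow_of_pow_eq_one hu
  exact pow_mem hζL i

/-- Every automorphism is a power of Frobenius on the roots of unity of order prime to `p`. -/
theorem exists_pow_prime_pow (τ : PadicAlgCl p ≃ₐ[ℚ_[p]] PadicAlgCl p) :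
    ∃ i : ℕ, ∀ u : PadicAlgCl p, u ^ (residueCard L - 1) = 1 → τ u = u ^ p ^ i := by
  classical
  obtain ⟨ζ, hζL, hζ, -⟩ := exists_teichmuller_generator L
  set q := residueCard L
  have hq : 1 < q := one_lt_residueCard L
  have : NeZero (q - 1) := ⟨by omega⟩
  have hn1 : ∀ u : PadicAlgCl p, u ^ (q - 1) = 1 → ‖u‖ = 1 := fun u hu =>
    norm_eq_one_of_pow_eq_one (by omega) hu
  have hfix : ∀ u : PadicAlgCl p, u ^ (q - 1) = 1 → u ^ q = u := fun u hu => by
    rw [← Nat.sub_add_cancel hq.le, pow_succ, hu, one_mul]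
  let _ := Fintype.ofFinite (Residue L)
  set z : Residue L := Ideal.Quotient.mk (openBall L) ⟨⟨ζ, hζL⟩, (hn1 ζ hζ.pow_eq_one).le⟩ with hz
  set S : Finset (Residue L) := Finset.univ.filter fun s => ∃ i : ℕ, z ^ p ^ i = s with hS
  have hFS : S.image (frobenius (Residue L) p) = S := by
    refine Finset.eq_of_subset_of_card_le (Finset.image_subset_iff.mpr fun s hs => ?_)
      (by rw [Finset.card_image_of_injective _ (frobenius_inj _ _)])
    obtain ⟨i, rfl⟩ := (Finset.mem_filter.mp hs).2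
    exact Finset.mem_filter.mpr ⟨Finset.mem_univ _, i + 1, by
      rw [pow_succ, pow_mul]; rfl⟩
  set h : (Residue L)[X] := ∏ s ∈ S, (X - C s) with hh
  have hmap : h.map (frobenius (Residue L) p) = h := by
    rw [hh, Polynomial.map_prod]
    conv_rhs => rw [← hFS, Finset.prod_image (frobenius_inj _ _).injOn]
    exact Finset.prod_congr rfl fun s _ => by simp
  have hcoef : ∀ n, ∃ m : ℤ, (m : Residue L) = h.coeff n := by
    intro n
    have hx : (h.coeff n) ^ p = h.coeff n := by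
      conv_rhs => rw [← hmap, coeff_map]
      rfl
    have hmem : h.coeff n ∈ (Set.range fun m : ℤ => (m : Residue L)) := by
      by_contra hcon
      have h0 : (X ^ p - X : (Residue L)[X]) ≠ 0 := fun h0 => by
        have := congrArg (fun P : (Residue L)[X] => P.coeff p) h0
        simp [hp.out.ne_one.symm, coeff_X] at this
      have hsub : insert (h.coeff n) ((Finset.range p).image fun m : ℕ => (m : Residue L)) ⊆
          (X ^ p - X : (Residue L)[X]).roots.toFinset := by
        intro y hy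
        rw [Multiset.mem_toFinset, mem_roots h0]
        rcases Finset.mem_insert.mp hy with rfl | hy
        · simp [hx]
        · obtain ⟨m, -, rfl⟩ := Finset.mem_image.mp hy
          simp [← frobenius_def, map_natCast]
      have h1 := Finset.card_le_card hsub
      rw [Finset.card_insert_of_notMem (fun hy => by
          obtain ⟨m, -, hm⟩ := Finset.mem_image.mp hy
          exact hcon ⟨m, by simp [← hm]⟩),
        Finset.card_image_of_injOn (fun a ha b hb hab =>
          CharP.natCast_injOn_Iio (Residue L) p (by simpa using ha) (by simpa using hb) hab),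
        Finset.card_range] at h1
      have h2 := (h1.trans (Multiset.toFinset_card_le _)).trans (card_roots' _)
      have h3 : (X ^ p - X : (Residue L)[X]).natDegree = p := by
        rw [natDegree_sub_eq_left_of_natDegree_lt] <;> simp [hp.out.one_lt]
      omega
    obtain ⟨m, hm⟩ := hmem
    exact ⟨m, hm⟩
  choose c hc using hcoef
  set P : ℤ[X] := ∑ n ∈ Finset.range (h.natDegree + 1), C (c n) * X ^ n
  have hP : ∀ x : Residue L, aeval x P = h.eval x := fun x => by
    simp only [P, map_sum, map_mul, aeval_C, map_pow, aeval_X, eval_eq_sum_range]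
    exact Finset.sum_congr rfl fun n _ => by rw [← hc n]; rfl
  have hPζ : ‖aeval ζ P‖ < 1 := by
    rw [norm_aeval_int_lt_one_iff L P hζL (hn1 ζ hζ.pow_eq_one).le, hP, hh, eval_prod]
    exact Finset.prod_eq_zero (i := z) (Finset.mem_filter.mpr ⟨Finset.mem_univ _, 0, by simp⟩) (by simp [hz])
  have hτ1 : (τ ζ) ^ (q - 1) = 1 := by rw [← map_pow, hζ.pow_eq_one, map_one]
  have hτL : τ ζ ∈ L := mem_of_pow_residueCard_sub_one L hτ1
  have hPτ : ‖aeval (τ ζ) P‖ < 1 := by
    rw [show aeval (τ ζ) P = τ (aeval ζ P) from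
      aeval_algHom_apply (τ.toRingEquiv.toRingHom.toIntAlgHom) ζ P, norm_algEquiv]
    exact hPζ
  rw [norm_aeval_int_lt_one_iff L P hτL (hn1 _ hτ1).le, hP, hh, eval_prod,
    Finset.prod_eq_zero_iff] at hPτ
  obtain ⟨s, hs, hs0⟩ := hPτ
  obtain ⟨i, rfl⟩ := (Finset.mem_filter.mp hs).2
  rw [eval_sub, eval_X, eval_C, sub_eq_zero, hz, ← map_pow, residue_eq_iff] at hs0
  have key : τ ζ = ζ ^ p ^ i := by
    refine eq_of_pow_residueCard_eq L (hn1 _ hτ1).le ?_ (hfix _ hτ1) ?_ (by simpa using hs0)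
    · rw [norm_pow, hn1 ζ hζ.pow_eq_one, one_pow]
    · rw [← pow_mul, mul_comm, pow_mul, hfix ζ hζ.pow_eq_one]
  refine ⟨i, fun u hu => ?_⟩
  obtain ⟨k, -, rfl⟩ := hζ.eq_pow_of_pow_eq_one hu
  rw [map_pow, key, ← pow_mul, ← pow_mul, mul_comm]

/-- A Frobenius automorphism. -/
theorem exists_frobenius_teichmuller :
    ∃ φ : PadicAlgCl p ≃ₐ[ℚ_[p]] PadicAlgCl p,
      ∀ u : PadicAlgCl p, u ^ (residueCard L - 1) = 1 → φ u = u ^ p := by
  classical
  obtain ⟨ζ, hζL, hζ, -⟩ := exists_teichmuller_generator L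
  set q := residueCard L
  have hq : 1 < q := one_lt_residueCard L
  have : NeZero (q - 1) := ⟨by omega⟩
  have hn1 : ∀ u : PadicAlgCl p, u ^ (q - 1) = 1 → ‖u‖ = 1 := fun u hu =>
    norm_eq_one_of_pow_eq_one (by omega) hu
  have hfix : ∀ u : PadicAlgCl p, u ^ (q - 1) = 1 → u ^ q = u := fun u hu => by
    rw [← Nat.sub_add_cancel hq.le, pow_succ, hu, one_mul]
  have hint : IsIntegral ℚ_[p] ζ := Algebra.IsIntegral.isIntegral ζ
  set f := minpoly ℚ_[p] ζ
  set F := f.map (algebraMap ℚ_[p] (PadicAlgCl p)) with hF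
  have hroots : ∀ r ∈ F.roots, r ^ (q - 1) = 1 ∧
      ∃ τ : PadicAlgCl p ≃ₐ[ℚ_[p]] PadicAlgCl p, τ ζ = r := by
    intro r hr
    rw [hF, mem_roots_map (minpoly.ne_zero hint), ← aeval_def] at hr
    obtain ⟨τ, hτ⟩ := minpoly.exists_algEquiv_of_root' hint.isAlgebraic hr
    exact ⟨by rw [← hτ, ← map_pow, hζ.pow_eq_one, map_one], τ, hτ⟩
  have hnd : F.roots.Nodup := nodup_roots ((minpoly.irreducible hint).separable.map)
  have hFprod : F = ∏ r ∈ F.roots.toFinset, (X - C r) := by
    conv_lhs => rw [(IsAlgClosed.splits F).eq_prod_roots_of_monic ((minpoly.monic hint).map _)]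
    rw [Finset.prod_eq_multiset_prod, Multiset.toFinset_val, hnd.dedup]
  have hint' : ∀ n, ∃ m : ℤ, ‖F.coeff n - (m : PadicAlgCl p)‖ < 1 := by
    intro n
    have h1 : ‖F.coeff n‖ ≤ 1 := by
      rw [hFprod]
      exact norm_coeff_prod_le_one _ (fun r hr => (hn1 r (hroots r (Multiset.mem_toFinset.mp hr)).1).le) n
    rw [hF, coeff_map, norm_padic_algebraMap] at h1
    set c : ℤ_[p] := ⟨f.coeff n, h1⟩
    refine ⟨(c.appr 1 : ℤ), ?_⟩
    rw [hF, coeff_map, ← map_intCast (algebraMap ℚ_[p] (PadicAlgCl p)), ← map_sub,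
      norm_padic_algebraMap]
    have h2 := PadicInt.appr_spec 1 c
    rw [pow_one, ← PadicInt.maximalIdeal_eq_span_p, IsLocalRing.mem_maximalIdeal,
      PadicInt.mem_nonunits] at h2
    exact_mod_cast h2
  choose c hc using hint'
  set P : ℤ[X] := ∑ n ∈ Finset.range (F.natDegree + 1), C (c n) * X ^ n
  have hdiff : ∀ x : PadicAlgCl p, ‖x‖ ≤ 1 → ‖F.eval x - aeval x P‖ < 1 := fun x hx => by
    simp only [P, map_sum, map_mul, aeval_C, map_pow, aeval_X, eval_eq_sum_range,
      ← Finset.sum_sub_distrib, ← sub_mul]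
    obtain ⟨i, -, hi⟩ := IsUltrametricDist.exists_norm_finsetSum_le_of_nonempty
      (Finset.nonempty_range_iff.mpr (Nat.succ_ne_zero F.natDegree))
      (fun n => (F.coeff n - (algebraMap ℤ (PadicAlgCl p)) (c n)) * x ^ n)
    refine hi.trans_lt ?_
    rw [norm_mul, norm_pow]
    exact (mul_le_of_le_one_right (norm_nonneg _) (pow_le_one₀ (norm_nonneg _) hx)).trans_lt
      (by simpa using hc i)
  have hζ0 : F.eval ζ = 0 := by rw [hF, eval_map, ← aeval_def, minpoly.aeval]
  have hP1 : ‖aeval ζ P‖ < 1 := by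
    have h1 := hdiff ζ (hn1 ζ hζ.pow_eq_one).le
    rwa [hζ0, zero_sub, norm_neg] at h1
  have hp1 : ‖ζ ^ p‖ ≤ 1 := by rw [norm_pow, hn1 ζ hζ.pow_eq_one, one_pow]
  have hP2 : ‖aeval (ζ ^ p) P‖ < 1 := by
    rw [norm_aeval_int_lt_one_iff L P hζL (hn1 ζ hζ.pow_eq_one).le] at hP1
    rw [norm_aeval_int_lt_one_iff L P (pow_mem hζL p) hp1]
    set z : Residue L := Ideal.Quotient.mk (openBall L) ⟨⟨ζ, hζL⟩, (hn1 ζ hζ.pow_eq_one).le⟩ with hz
    have e : Ideal.Quotient.mk (openBall L) (⟨⟨ζ ^ p, pow_mem hζL p⟩, hp1⟩ : integers L) =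
        frobenius (Residue L) p z := by
      rw [frobenius_def, hz, ← map_pow]
      rfl
    rw [e, show aeval (frobenius (Residue L) p z) P = frobenius (Residue L) p (aeval z P) from
      aeval_algHom_apply ((frobenius (Residue L) p).toIntAlgHom) z P, hP1, map_zero]
  have hFp : ‖F.eval (ζ ^ p)‖ < 1 := by
    rw [← sub_add_cancel (F.eval (ζ ^ p)) (aeval (ζ ^ p) P)]
    exact (IsUltrametricDist.norm_add_le_max _ _).trans_lt (max_lt (hdiff _ hp1) hP2)
  obtain ⟨r, hr, hr1⟩ : ∃ r ∈ F.roots.toFinset, ‖ζ ^ p - r‖ < 1 := by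
    by_contra hcon
    push Not at hcon
    rw [hFprod, eval_prod, norm_prod] at hFp
    exact absurd hFp (not_lt.mpr (Finset.one_le_prod fun r hr => by simpa using hcon r hr))
  obtain ⟨hr0, τ, rfl⟩ := hroots r (Multiset.mem_toFinset.mp hr)
  have key : τ ζ = ζ ^ p := by
    refine (eq_of_pow_residueCard_eq L hp1 (hn1 _ hr0).le ?_ (hfix _ hr0) hr1).symm
    rw [← pow_mul, mul_comm, pow_mul, hfix ζ hζ.pow_eq_one]
  refine ⟨τ, fun u hu => ?_⟩
  obtain ⟨k, -, rfl⟩ := hζ.eq_pow_of_pow_eq_one hu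
  rw [map_pow, key, ← pow_mul, ← pow_mul, mul_comm]

end FermatLib.CFT.Fontaine
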