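import Fermat.Agent.CFT.TameField
import Mathlib.LinearAlgebra.Dual.Defs
import Mathlib.NumberTheory.Wilson

/-!
# Kummer layers over the tame fields

For functions `ψ` on the local Galois group with values in an `𝔽_p`-space `W`, `levelSub N j` asks
that each linear form of `ψ` on the fixer of `K_N` is the Kummer character of a unit congruent to `1`
modulo `ϖ ^ j`; `layer N j` takes the residues of these units.
-/

set_option autoImplicit false

noncomputable section

namespace FermatLib.CFT.Fontaine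

variable {p : ℕ} [hp : Fact p.Prime]

/-- A primitive `p`-th root of unity. -/
def zetaP (p : ℕ) [Fact p.Prime] : PadicAlgCl p :=
  haveI : NeZero p := ⟨(Fact.out : p.Prime).ne_zero⟩
  (HasEnoughRootsOfUnity.exists_primitiveRoot (PadicAlgCl p) p).choose

lemma zetaP_isPrimitiveRoot : IsPrimitiveRoot (zetaP p) p :=
  have : NeZero p := ⟨hp.out.ne_zero⟩
  (HasEnoughRootsOfUnity.exists_primitiveRoot (PadicAlgCl p) p).choose_spec

lemma zetaP_ne_one : zetaP p ≠ 1 := zetaP_isPrimitiveRoot.ne_one hp.out.one_lt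

lemma norm_zetaP : ‖zetaP p‖ = 1 :=
  norm_eq_one_of_pow_eq_one hp.out.ne_zero zetaP_isPrimitiveRoot.pow_eq_one

lemma norm_zetaP_sub_one : ‖zetaP p - 1‖ = ‖tameRoot p‖ ^ (p + 1) := by
  have h := norm_sub_one_pow_eq (zetaP_isPrimitiveRoot (p := p)).pow_eq_one zetaP_ne_one
  refine (pow_left_inj₀ (norm_nonneg _) (by positivity) (n := p - 1)
    (by have := hp.out.two_le; omega)).mp ?_
  rw [h, ← pow_mul, show (p + 1) * (p - 1) = tameExp p by
    rw [tameExp, ← Nat.sq_sub_sq, one_pow], norm_tameRoot_pow]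

/-- `ζ_p` to a power in `ZMod p`. -/
def rootPow (a : ZMod p) : PadicAlgCl p := zetaP p ^ a.val

lemma rootPow_natCast (a : ℕ) : rootPow (a : ZMod p) = zetaP p ^ a := by
  rw [rootPow, ZMod.val_natCast, ← pow_eq_pow_mod a zetaP_isPrimitiveRoot.pow_eq_one]

lemma rootPow_add (a b : ZMod p) : rootPow (a + b) = rootPow a * rootPow b := by
  have : NeZero p := ⟨hp.out.ne_zero⟩
  rw [← ZMod.natCast_zmod_val a, ← ZMod.natCast_zmod_val b, ← Nat.cast_add, rootPow_natCast,
    rootPow_natCast, rootPow_natCast, pow_add]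

@[simp] lemma rootPow_zero : rootPow (0 : ZMod p) = 1 := by simp [rootPow]

lemma rootPow_injective : Function.Injective (rootPow (p := p)) := fun a b h => by
  have : NeZero p := ⟨hp.out.ne_zero⟩
  exact ZMod.val_injective p (zetaP_isPrimitiveRoot.pow_inj a.val_lt b.val_lt h)

/-- The exponent of `g` on `μ_p`. -/
def muExp (g : PadicAlgCl p ≃ₐ[ℚ_[p]] PadicAlgCl p) : ZMod p :=
  have : NeZero p := ⟨hp.out.ne_zero⟩
  ((zetaP_isPrimitiveRoot.eq_pow_of_pow_eq_one (ξ := g (zetaP p))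
    (by rw [← map_pow, zetaP_isPrimitiveRoot.pow_eq_one, map_one])).choose : ZMod p)

lemma apply_rootPow (g : PadicAlgCl p ≃ₐ[ℚ_[p]] PadicAlgCl p) (a : ZMod p) :
    g (rootPow a) = rootPow (muExp g * a) := by
  have : NeZero p := ⟨hp.out.ne_zero⟩
  obtain ⟨-, h⟩ := (zetaP_isPrimitiveRoot.eq_pow_of_pow_eq_one (ξ := g (zetaP p))
    (by rw [← map_pow, zetaP_isPrimitiveRoot.pow_eq_one, map_one])).choose_spec
  conv_rhs => rw [muExp, ← ZMod.natCast_zmod_val a, ← Nat.cast_mul, rootPow_natCast, pow_mul, h]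
  rw [rootPow, map_pow]

section residue

variable (N : ℕ)

open scoped Classical in
/-- The residue of an element of `K_N`, zero off the integers. -/
def toResidue (x : PadicAlgCl p) : Residue (tameField p N) :=
  if h : x ∈ tameField p N ∧ ‖x‖ ≤ 1 then Ideal.Quotient.mk _ ⟨⟨x, h.1⟩, h.2⟩ else 0

variable {N} {x y : PadicAlgCl p}

lemma toResidue_of_mem (hx : x ∈ tameField p N) (hx1 : ‖x‖ ≤ 1) :
    toResidue N x = Ideal.Quotient.mk _ ⟨⟨x, hx⟩, hx1⟩ := dif_pos ⟨hx, hx1⟩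

lemma toResidue_eq_iff (hx : x ∈ tameField p N) (hx1 : ‖x‖ ≤ 1) (hy : y ∈ tameField p N)
    (hy1 : ‖y‖ ≤ 1) : toResidue N x = toResidue N y ↔ ‖x - y‖ < 1 := by
  rw [toResidue_of_mem hx hx1, toResidue_of_mem hy hy1, residue_eq_iff]

lemma toResidue_mul (hx : x ∈ tameField p N) (hx1 : ‖x‖ ≤ 1) (hy : y ∈ tameField p N)
    (hy1 : ‖y‖ ≤ 1) : toResidue N (x * y) = toResidue N x * toResidue N y := by
  rw [toResidue_of_mem hx hx1, toResidue_of_mem hy hy1,
    toResidue_of_mem (mul_mem hx hy) (by rw [norm_mul]; exact mul_le_one₀ hx1 (norm_nonneg _) hy1),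
    ← map_mul]
  rfl

lemma toResidue_add (hx : x ∈ tameField p N) (hx1 : ‖x‖ ≤ 1) (hy : y ∈ tameField p N)
    (hy1 : ‖y‖ ≤ 1) : toResidue N (x + y) = toResidue N x + toResidue N y := by
  rw [toResidue_of_mem hx hx1, toResidue_of_mem hy hy1,
    toResidue_of_mem (add_mem hx hy)
      ((IsUltrametricDist.norm_add_le_max _ _).trans (max_le hx1 hy1)), ← map_add]
  rfl

lemma toResidue_eq_zero_iff (hx : x ∈ tameField p N) (hx1 : ‖x‖ ≤ 1) :
    toResidue N x = 0 ↔ ‖x‖ < 1 := by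
  rw [toResidue_of_mem hx hx1, Ideal.Quotient.eq_zero_iff_mem]; rfl

@[simp] lemma toResidue_zero : toResidue N (0 : PadicAlgCl p) = 0 := by
  rw [toResidue_eq_zero_iff (zero_mem _) (by simp)]; simp

end residue

variable {N : ℕ}

lemma exists_tame_zpow {x : PadicAlgCl p} (hx : x ∈ tameField p N) (hx0 : x ≠ 0) :
    ∃ k : ℤ, ‖x‖ = ‖tameRoot p‖ ^ k :=
  let ⟨B⟩ := exists_ramifiedBasis (L := tameField p N)
  norm_mem_tame B hx hx0

lemma norm_le_pow_succ_of_lt {x : PadicAlgCl p} (hx : x ∈ tameField p N) {j : ℕ}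
    (h : ‖x‖ < ‖tameRoot p‖ ^ j) : ‖x‖ ≤ ‖tameRoot p‖ ^ (j + 1) := by
  rcases eq_or_ne x 0 with rfl | hx0
  · simp only [norm_zero]; positivity
  obtain ⟨k, hk⟩ := exists_tame_zpow hx hx0
  rw [hk, ← zpow_natCast, zpow_lt_zpow_iff_right_of_lt_one₀
    (norm_pos_iff.mpr tameRoot_ne_zero) norm_tameRoot_lt_one] at h
  rw [hk, ← zpow_natCast, zpow_le_zpow_iff_right_of_lt_one₀
    (norm_pos_iff.mpr tameRoot_ne_zero) norm_tameRoot_lt_one]
  omega

/-- Below the top layer, a `p`-th power congruent to `1` modulo `ϖ ^ j`, `p ∤ j`, is so modulo more. -/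
lemma norm_pow_sub_one_lt {t : PadicAlgCl p} (ht : t ∈ tameField p N) {j : ℕ} (hj : ¬ p ∣ j)
    (hjtop : j < tameExp p + p + 1) (h : ‖t ^ p - 1‖ ≤ ‖tameRoot p‖ ^ j) :
    ‖t ^ p - 1‖ < ‖tameRoot p‖ ^ j := by
  refine lt_of_le_of_ne h fun heq => ?_
  set c := ‖tameRoot p‖ with hc
  have hc0 : 0 < c := norm_pos_iff.mpr tameRoot_ne_zero
  have hc1 : c < 1 := norm_tameRoot_lt_one
  have hj0 : j ≠ 0 := fun h0 => hj (h0 ▸ dvd_zero p)
  have hcj : c ^ j < 1 := pow_lt_one₀ hc0.le hc1 hj0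
  have ht1 : ‖t‖ = 1 := by
    have h1 : ‖t ^ p - 1 + 1‖ = 1 := by
      rw [IsUltrametricDist.norm_add_eq_max_of_norm_ne_norm (by rw [heq, norm_one]; exact hcj.ne),
        heq, norm_one, max_eq_right hcj.le]
    rw [sub_add_cancel, norm_pow] at h1
    exact (pow_eq_one_iff_of_nonneg (norm_nonneg _) hp.out.ne_zero).mp h1
  have hx1 : ‖t - 1‖ ≤ 1 := by
    rw [sub_eq_add_neg]
    exact (IsUltrametricDist.norm_add_le_max _ _).trans (by simp [ht1])
  have hR : ‖t ^ p - 1 - (t - 1) ^ p‖ ≤ ‖(p : PadicAlgCl p)‖ * ‖t - 1‖ := by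
    have h := norm_one_add_pow_sub_le hx1
    rwa [show (1 : PadicAlgCl p) + (t - 1) = t by ring] at h
  have hP : ‖(p : PadicAlgCl p)‖ = c ^ tameExp p := norm_tameRoot_pow.symm
  have ht0 : t - 1 ≠ 0 := fun h0 => by
    rw [sub_eq_zero.mp h0] at heq
    simp only [one_pow, sub_self, norm_zero] at heq
    exact (pow_pos hc0 j).ne heq
  obtain ⟨k, hk⟩ := exists_tame_zpow (sub_mem ht (one_mem _)) ht0
  by_cases hlt : ‖(p : PadicAlgCl p)‖ * ‖t - 1‖ < c ^ j
  · have : ‖t - 1‖ ^ p = c ^ j := by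
      rw [← norm_pow, show (t - 1) ^ p = (t ^ p - 1) + -(t ^ p - 1 - (t - 1) ^ p) by ring,
        IsUltrametricDist.norm_add_eq_max_of_norm_ne_norm
          (by rw [norm_neg, heq]; exact (hR.trans_lt hlt).ne'),
        norm_neg, heq, max_eq_left (hR.trans_lt hlt).le]
    rw [hk, ← zpow_natCast, ← zpow_mul, ← zpow_natCast] at this
    exact hj (Int.natCast_dvd_natCast.mp ⟨k, by
      rw [← zpow_right_injective₀ hc0 hc1.ne this]; ring⟩)
  · push Not at hlt
    have h2 : ‖t - 1‖ ^ p ≤ ‖(p : PadicAlgCl p)‖ * ‖t - 1‖ := by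
      rw [← norm_pow, show (t - 1) ^ p = (t ^ p - 1) + -(t ^ p - 1 - (t - 1) ^ p) by ring]
      refine (IsUltrametricDist.norm_add_le_max _ _).trans (max_le ?_ (by rwa [norm_neg]))
      rw [heq]; exact hlt
    rw [hP, hk, ← zpow_natCast, ← zpow_natCast, ← zpow_mul, ← zpow_add₀ hc0.ne',
      zpow_le_zpow_iff_right_of_lt_one₀ hc0 hc1] at h2
    rw [hP, hk, ← zpow_natCast, ← zpow_natCast, ← zpow_add₀ hc0.ne',
      zpow_le_zpow_iff_right_of_lt_one₀ hc0 hc1] at hlt
    have he : (tameExp p : ℤ) = (p : ℤ) ^ 2 - 1 := by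
      unfold tameExp
      rw [Nat.cast_sub (Nat.one_le_pow _ _ hp.out.pos)]
      push_cast
      ring
    have h3 : (2 : ℤ) ≤ p := by exact_mod_cast hp.out.two_le
    have hj' : (j : ℤ) < tameExp p + p + 1 := by exact_mod_cast hjtop
    nlinarith

variable {W : Type} [AddCommGroup W] [Module (ZMod p) W]

/-- `ψ` restricted to the fixer of `K_N` is, in every linear form, given by units congruent to `1`
modulo `ϖ ^ j`. -/
def HasKummerLevel (N j : ℕ) (ψ : (PadicAlgCl p ≃ₐ[ℚ_[p]] PadicAlgCl p) → W) : Prop :=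
  ∀ l : Module.Dual (ZMod p) W, ∃ y : PadicAlgCl p,
    y ^ p ∈ tameField p N ∧ ‖y ^ p - 1‖ ≤ ‖tameRoot p‖ ^ j ∧
      ∀ h ∈ (tameField p N).fixingSubgroup, h y = rootPow (l (ψ h)) * y

lemma HasKummerLevel.mono {N i j : ℕ} (hij : i ≤ j)
    {ψ : (PadicAlgCl p ≃ₐ[ℚ_[p]] PadicAlgCl p) → W} (h : HasKummerLevel N j ψ) :
    HasKummerLevel N i ψ := fun l =>
  let ⟨y, h1, h2, h3⟩ := h l
  ⟨y, h1, h2.trans (pow_le_pow_of_le_one (norm_nonneg _) norm_tameRoot_lt_one.le hij), h3⟩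

variable (W) in
/-- The functions of Kummer level `j`. -/
def levelSub (N j : ℕ) : Submodule (ZMod p) ((PadicAlgCl p ≃ₐ[ℚ_[p]] PadicAlgCl p) → W) where
  carrier := {ψ | HasKummerLevel N j ψ}
  zero_mem' l := ⟨1, by simp, by simp, fun h _ => by simp⟩
  add_mem' {a b} ha hb := fun l => by
    obtain ⟨y, h1, h2, h3⟩ := ha l
    obtain ⟨z, k1, k2, k3⟩ := hb l
    refine ⟨y * z, by rw [mul_pow]; exact mul_mem h1 k1, ?_, fun h hh => ?_⟩
    · rw [mul_pow, show y ^ p * z ^ p - 1 = (y ^ p - 1) * z ^ p + (z ^ p - 1) by ring]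
      refine (IsUltrametricDist.norm_add_le_max _ _).trans (max_le ?_ k2)
      rw [norm_mul]
      refine (mul_le_of_le_one_right (norm_nonneg _) ?_).trans h2
      rw [← sub_add_cancel (z ^ p) 1]
      exact (IsUltrametricDist.norm_add_le_max _ _).trans
        (max_le (k2.trans (pow_le_one₀ (norm_nonneg _) norm_tameRoot_lt_one.le)) (by simp))
    · rw [map_mul, h3 h hh, k3 h hh, Pi.add_apply, map_add, rootPow_add]; ring
  smul_mem' c a ha := fun l => by
    obtain ⟨y, h1, h2, h3⟩ := ha (c • l)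
    exact ⟨y, h1, h2, fun h hh => by rw [h3 h hh, Pi.smul_apply, map_smul]; rfl⟩

lemma mem_levelSub {N j : ℕ} {ψ : (PadicAlgCl p ≃ₐ[ℚ_[p]] PadicAlgCl p) → W} :
    ψ ∈ levelSub W N j ↔ HasKummerLevel N j ψ := Iff.rfl

/-- The residue of the unit of a Kummer element. -/
def leading (N j : ℕ) (y : PadicAlgCl p) : Residue (tameField p N) :=
  toResidue N ((y ^ p - 1) / tameRoot p ^ j)

lemma leading_mem {j : ℕ} {y : PadicAlgCl p} (h1 : y ^ p ∈ tameField p N)
    (h2 : ‖y ^ p - 1‖ ≤ ‖tameRoot p‖ ^ j) :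
    (y ^ p - 1) / tameRoot p ^ j ∈ tameField p N ∧ ‖(y ^ p - 1) / tameRoot p ^ j‖ ≤ 1 := by
  refine ⟨div_mem (sub_mem h1 (one_mem _)) (pow_mem tameRoot_mem _), ?_⟩
  rw [norm_div, norm_pow, div_le_one (pow_pos (norm_pos_iff.mpr tameRoot_ne_zero) _)]
  exact h2

lemma leading_mul {j : ℕ} (hj : j ≠ 0) {y z : PadicAlgCl p} (h1 : y ^ p ∈ tameField p N)
    (h2 : ‖y ^ p - 1‖ ≤ ‖tameRoot p‖ ^ j) (k1 : z ^ p ∈ tameField p N)
    (k2 : ‖z ^ p - 1‖ ≤ ‖tameRoot p‖ ^ j) :
    leading N j (y * z) = leading N j y + leading N j z := by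
  obtain ⟨m1, m2⟩ := leading_mem h1 h2
  obtain ⟨n1, n2⟩ := leading_mem k1 k2
  unfold leading
  set a := (y ^ p - 1) / tameRoot p ^ j with ha
  set b := (z ^ p - 1) / tameRoot p ^ j with hb
  have hϖ : tameRoot p ^ j ≠ 0 := pow_ne_zero _ tameRoot_ne_zero
  have hab : ((y * z) ^ p - 1) / tameRoot p ^ j = a + b + a * b * tameRoot p ^ j := by
    rw [mul_pow, ha, hb]; field_simp; ring
  have hsmall : ‖a * b * tameRoot p ^ j‖ < 1 := by
    rw [norm_mul, norm_pow]
    exact mul_lt_one_of_nonneg_of_lt_one_right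
      (by rw [norm_mul]; exact mul_le_one₀ m2 (norm_nonneg _) n2) (by positivity)
      (pow_lt_one₀ (norm_nonneg _) norm_tameRoot_lt_one hj)
  have hcK : a * b * tameRoot p ^ j ∈ tameField p N :=
    mul_mem (mul_mem m1 n1) (pow_mem tameRoot_mem _)
  rw [hab, toResidue_add (add_mem m1 n1) ((IsUltrametricDist.norm_add_le_max _ _).trans (max_le m2 n2))
    hcK hsmall.le, toResidue_add m1 m2 n1 n2, (toResidue_eq_zero_iff hcK hsmall.le).mpr hsmall, add_zero]

/-- Two Kummer elements of the same character have the same leading residue. -/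
lemma leading_unique {j : ℕ} (hj : ¬ p ∣ j) (hjtop : j < tameExp p + p + 1) {y z : PadicAlgCl p}
    (h1 : y ^ p ∈ tameField p N) (h2 : ‖y ^ p - 1‖ ≤ ‖tameRoot p‖ ^ j)
    (k1 : z ^ p ∈ tameField p N) (k2 : ‖z ^ p - 1‖ ≤ ‖tameRoot p‖ ^ j)
    (h : ∀ g ∈ (tameField p N).fixingSubgroup, g y * z = g z * y) :
    leading N j y = leading N j z := by
  have hj0 : j ≠ 0 := fun h0 => hj (h0 ▸ dvd_zero p)
  have hcj : ‖tameRoot p‖ ^ j < 1 := pow_lt_one₀ (norm_nonneg _) norm_tameRoot_lt_one hj0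
  have hz0 : z ≠ 0 := fun h0 => by
    rw [h0, zero_pow hp.out.ne_zero, zero_sub, norm_neg, norm_one] at k2
    exact absurd k2 (not_le.mpr hcj)
  have htK : y / z ∈ tameField p N := by
    rw [← InfiniteGalois.fixedField_fixingSubgroup (tameField p N), IntermediateField.mem_fixedField_iff]
    intro g hg
    rw [map_div₀, div_eq_div_iff (by simpa using hz0) hz0, h g hg]
    ring
  have hzp : ‖z ^ p‖ = 1 := by
    rw [← sub_add_cancel (z ^ p) 1, IsUltrametricDist.norm_add_eq_max_of_norm_ne_norm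
      (by rw [norm_one]; exact (k2.trans_lt hcj).ne), norm_one, max_eq_right (k2.trans hcj.le)]
  have htle : ‖(y / z) ^ p - 1‖ ≤ ‖tameRoot p‖ ^ j := by
    rw [div_pow, div_sub_one (pow_ne_zero _ hz0), norm_div, hzp, div_one,
      show y ^ p - z ^ p = (y ^ p - 1) + -(z ^ p - 1) by ring]
    exact (IsUltrametricDist.norm_add_le_max _ _).trans (max_le h2 (by rwa [norm_neg]))
  have hlt := norm_pow_sub_one_lt htK hj hjtop htle
  have e : leading N j (y / z * z) = leading N j (y / z) + leading N j z :=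
    leading_mul hj0 (pow_mem htK p) htle k1 k2
  rw [div_mul_cancel₀ y hz0] at e
  obtain ⟨m1, m2⟩ := leading_mem (pow_mem htK p) htle
  rw [e, show leading N j (y / z) = 0 from (toResidue_eq_zero_iff m1 m2).mpr (by
    rw [norm_div, norm_pow, div_lt_one (pow_pos (norm_pos_iff.mpr tameRoot_ne_zero) _)]
    exact hlt), zero_add]

open scoped Classical in
/-- The residues of a function of level `j`. -/
def layerFun (N j : ℕ) (ψ : levelSub (p := p) W N j) (l : Module.Dual (ZMod p) W) :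
    Residue (tameField p N) :=
  leading N j (ψ.2 l).choose

lemma layerFun_eq {j : ℕ} (hj : ¬ p ∣ j) (hjtop : j < tameExp p + p + 1)
    (ψ : levelSub (p := p) W N j) (l : Module.Dual (ZMod p) W) {y : PadicAlgCl p}
    (h1 : y ^ p ∈ tameField p N) (h2 : ‖y ^ p - 1‖ ≤ ‖tameRoot p‖ ^ j)
    (h3 : ∀ h ∈ (tameField p N).fixingSubgroup, h y = rootPow (l (ψ.1 h)) * y) :
    layerFun N j ψ l = leading N j y := by
  obtain ⟨k1, k2, k3⟩ := (ψ.2 l).choose_spec
  exact leading_unique hj hjtop k1 k2 h1 h2 fun g hg => by rw [k3 g hg, h3 g hg]; ring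

/-- The layer map. -/
def layer (N : ℕ) {j : ℕ} (hj : ¬ p ∣ j) (hjtop : j < tameExp p + p + 1) :
    letI := ZMod.algebra (Residue (tameField p N)) p
    levelSub (p := p) W N j →ₗ[ZMod p]
      (Module.Dual (ZMod p) W →ₗ[ZMod p] Residue (tameField p N)) :=
  letI := ZMod.algebra (Residue (tameField p N)) p
  haveI hj0 : j ≠ 0 := fun h0 => hj (h0 ▸ dvd_zero p)
  have hadd : ∀ (ψ : levelSub (p := p) W N j) l l',
      layerFun N j ψ (l + l') = layerFun N j ψ l + layerFun N j ψ l' := fun ψ l l' => by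
    obtain ⟨a1, a2, a3⟩ := (ψ.2 l).choose_spec
    obtain ⟨b1, b2, b3⟩ := (ψ.2 l').choose_spec
    rw [layerFun_eq hj hjtop ψ (l + l') (y := (ψ.2 l).choose * (ψ.2 l').choose)
      (by rw [mul_pow]; exact mul_mem a1 b1) ?_ fun h hh => by
        rw [map_mul, a3 h hh, b3 h hh, LinearMap.add_apply, rootPow_add]; ring]
    · exact leading_mul hj0 a1 a2 b1 b2
    · rw [mul_pow, show ∀ u v : PadicAlgCl p, u * v - 1 = (u - 1) * v + (v - 1) from fun u v => by ring]
      refine (IsUltrametricDist.norm_add_le_max _ _).trans (max_le ?_ b2)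
      rw [norm_mul]
      refine (mul_le_of_le_one_right (norm_nonneg _) ?_).trans a2
      rw [← sub_add_cancel ((ψ.2 l').choose ^ p) 1]
      exact (IsUltrametricDist.norm_add_le_max _ _).trans
        (max_le (b2.trans (pow_le_one₀ (norm_nonneg _) norm_tameRoot_lt_one.le)) (by simp))
  let F : levelSub (p := p) W N j →+ (Module.Dual (ZMod p) W →+ Residue (tameField p N)) :=
    AddMonoidHom.mk' (fun ψ => AddMonoidHom.mk' (layerFun N j ψ) (hadd ψ)) fun ψ φ => by
      refine AddMonoidHom.ext fun l => ?_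
      obtain ⟨a1, a2, a3⟩ := (ψ.2 l).choose_spec
      obtain ⟨b1, b2, b3⟩ := (φ.2 l).choose_spec
      show layerFun N j (ψ + φ) l = layerFun N j ψ l + layerFun N j φ l
      rw [layerFun_eq hj hjtop (ψ + φ) l (y := (ψ.2 l).choose * (φ.2 l).choose)
        (by rw [mul_pow]; exact mul_mem a1 b1) ?_ fun h hh => by
          rw [map_mul, a3 h hh, b3 h hh, Submodule.coe_add, Pi.add_apply, map_add, rootPow_add]; ring]
      · exact leading_mul hj0 a1 a2 b1 b2
      · rw [mul_pow, show ∀ u v : PadicAlgCl p, u * v - 1 = (u - 1) * v + (v - 1) from fun u v => by ring]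
        refine (IsUltrametricDist.norm_add_le_max _ _).trans (max_le ?_ b2)
        rw [norm_mul]
        refine (mul_le_of_le_one_right (norm_nonneg _) ?_).trans a2
        rw [← sub_add_cancel ((φ.2 l).choose ^ p) 1]
        exact (IsUltrametricDist.norm_add_le_max _ _).trans
          (max_le (b2.trans (pow_le_one₀ (norm_nonneg _) norm_tameRoot_lt_one.le)) (by simp))
  AddMonoidHom.toZModLinearMap p
    (AddMonoidHom.mk' (fun ψ => (F ψ).toZModLinearMap p)
      fun ψ φ => LinearMap.ext fun l => DFunLike.congr_fun (map_add F ψ φ) l)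

lemma layer_apply {j : ℕ} (hj : ¬ p ∣ j) (hjtop : j < tameExp p + p + 1)
    (ψ : levelSub (p := p) W N j) (l : Module.Dual (ZMod p) W) :
    letI := ZMod.algebra (Residue (tameField p N)) p
    layer (W := W) N hj hjtop ψ l = layerFun N j ψ l := rfl

/-- The kernel of a layer has higher level. -/
lemma mem_succ_of_layer_eq_zero {j : ℕ} (hj : ¬ p ∣ j) (hjtop : j < tameExp p + p + 1)
    {ψ : levelSub (p := p) W N j}
    (h : letI := ZMod.algebra (Residue (tameField p N)) p; layer (W := W) N hj hjtop ψ = 0) :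
    ψ.1 ∈ levelSub W N (j + 1) := fun l => by
  letI := ZMod.algebra (Residue (tameField p N)) p
  obtain ⟨a1, a2, a3⟩ := (ψ.2 l).choose_spec
  refine ⟨_, a1, norm_le_pow_succ_of_lt (sub_mem a1 (one_mem _)) ?_, a3⟩
  have h0 : layerFun N j ψ l = 0 := by
    rw [← layer_apply hj hjtop, h]; rfl
  obtain ⟨m1, m2⟩ := leading_mem a1 a2
  have h1 := (toResidue_eq_zero_iff m1 m2).mp h0
  rwa [norm_div, norm_pow, div_lt_one (pow_pos (norm_pos_iff.mpr tameRoot_ne_zero) _)] at h1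

/-- Levels divisible by `p` below the top improve. -/
lemma levelSub_le_succ {m : ℕ} (hm : m ≠ 0) (hmp : m ≤ p) :
    levelSub (p := p) W N (p * m) ≤ levelSub W N (p * m + 1) := by
  intro ψ hψ l
  obtain ⟨y, h1, h2, h3⟩ := hψ l
  obtain ⟨m1, m2⟩ := leading_mem h1 h2
  obtain ⟨w, hwK, hw⟩ := exists_pow_approx m1 m2
  set c := ‖tameRoot p‖
  have hc0 : 0 < c := norm_pos_iff.mpr tameRoot_ne_zero
  have hc1 : c < 1 := norm_tameRoot_lt_one
  have hw1 : ‖w‖ ≤ 1 := by
    have : ‖w ^ p‖ ≤ 1 := by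
      rw [← sub_sub_cancel ((y ^ p - 1) / tameRoot p ^ (p * m)) (w ^ p), sub_eq_add_neg]
      exact (IsUltrametricDist.norm_add_le_max _ _).trans (max_le m2 (by rw [norm_neg]; exact hw.le))
    rw [norm_pow] at this
    exact (pow_le_one_iff_of_nonneg (norm_nonneg _) hp.out.ne_zero).mp this
  set x := w * tameRoot p ^ m with hx
  have hxn : ‖x‖ ≤ c ^ m := by rw [norm_mul, norm_pow]; exact mul_le_of_le_one_left (by positivity) hw1
  have hx1 : ‖x‖ < 1 := hxn.trans_lt (pow_lt_one₀ hc0.le hc1 hm)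
  have hxK : x ∈ tameField p N := mul_mem hwK (pow_mem tameRoot_mem _)
  have hs0 : (1 : PadicAlgCl p) + x ≠ 0 := fun h0 => by
    rw [eq_neg_of_add_eq_zero_right h0, norm_neg, norm_one] at hx1
    exact lt_irrefl _ hx1
  have hsn : ‖1 + x‖ = 1 := by
    rw [IsUltrametricDist.norm_add_eq_max_of_norm_ne_norm (by rw [norm_one]; exact hx1.ne'),
      norm_one, max_eq_left hx1.le]
  have hyK : (y / (1 + x)) ^ p ∈ tameField p N := by
    rw [div_pow]; exact div_mem h1 (pow_mem (add_mem (one_mem _) hxK) _)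
  refine ⟨y / (1 + x), hyK, norm_le_pow_succ_of_lt (sub_mem hyK (one_mem _)) ?_, fun h hh => ?_⟩
  · rw [div_pow, div_sub_one (pow_ne_zero _ hs0), norm_div, norm_pow (1 + x), hsn, one_pow, div_one,
      show y ^ p - (1 + x) ^ p = tameRoot p ^ (p * m) * ((y ^ p - 1) / tameRoot p ^ (p * m) - w ^ p) +
        -((1 + x) ^ p - 1 - x ^ p) by
        rw [mul_sub, mul_div_cancel₀ _ (pow_ne_zero _ tameRoot_ne_zero), hx, mul_pow, ← pow_mul,
          mul_comm m p]
        ring]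
    refine (IsUltrametricDist.norm_add_le_max _ _).trans_lt (max_lt ?_ ?_)
    · rw [norm_mul, norm_pow]; exact mul_lt_of_lt_one_right (pow_pos hc0 _) hw
    · rw [norm_neg]
      refine (norm_one_add_pow_sub_le hx1.le).trans_lt ?_
      rw [← norm_tameRoot_pow]
      refine lt_of_le_of_lt (mul_le_mul_of_nonneg_left hxn (by positivity)) ?_
      rw [← pow_add]
      refine pow_lt_pow_right_of_lt_one₀ hc0 hc1 ?_
      have h2' : 1 ≤ p ^ 2 := Nat.one_le_pow _ _ hp.out.pos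
      have hp2 := hp.out.two_le
      obtain ⟨d, rfl⟩ : ∃ d, m = d + 1 := ⟨m - 1, by omega⟩
      obtain ⟨f, hf⟩ : ∃ f, p = d + 1 + f := ⟨p - (d + 1), by omega⟩
      have he : tameExp p + 1 = p ^ 2 := Nat.sub_add_cancel h2'
      nlinarith
  · rw [map_div₀, h3 h hh, (IntermediateField.mem_fixingSubgroup_iff _ _).mp hh _
      (add_mem (one_mem _) hxK), mul_div_assoc]

/-- Galois equivariance of a layer. -/
lemma layerFun_conj {j : ℕ} (hj : ¬ p ∣ j) (hjtop : j < tameExp p + p + 1) (hN : N ≠ 0) (hN2 : 2 ∣ N)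
    (ψ : levelSub (p := p) W N j) (g : PadicAlgCl p ≃ₐ[ℚ_[p]] PadicAlgCl p)
    (rg : W →ₗ[ZMod p] W)
    (hψ : ∀ h ∈ (tameField p N).fixingSubgroup, ψ.1 (g⁻¹ * h * g) = rg (ψ.1 h))
    (l : Module.Dual (ZMod p) W) :
    layerFun N j ψ (muExp g • l.comp rg) =
      toResidue N (g (((ψ.2 l).choose ^ p - 1) / tameRoot p ^ j) *
        (g (tameRoot p) / tameRoot p) ^ j) := by
  obtain ⟨a1, a2, a3⟩ := (ψ.2 l).choose_spec
  set y := (ψ.2 l).choose
  have hnorm := tameField_normal (p := p) hN hN2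
  have hgy : (g y) ^ p ∈ tameField p N := by rw [← map_pow]; exact hnorm g _ a1
  rw [layerFun_eq hj hjtop ψ _ (y := g y) hgy ?_ fun h hh => ?_]
  · rw [leading]
    congr 1
    rw [map_div₀, map_sub, map_one, map_pow, map_pow, div_pow]
    have := pow_ne_zero j (tameRoot_ne_zero (p := p))
    have hg0 : g (tameRoot p) ^ j ≠ 0 := pow_ne_zero _ (by simpa using tameRoot_ne_zero (p := p))
    field_simp
  · rw [← map_pow, ← map_one g, ← map_sub, norm_algEquiv]; exact a2
  · have hh' : g⁻¹ * h * g ∈ (tameField p N).fixingSubgroup := by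
      rw [IntermediateField.mem_fixingSubgroup_iff] at hh ⊢
      intro x hx
      rw [AlgEquiv.mul_apply, AlgEquiv.mul_apply, hh _ (hnorm g x hx)]
      exact g.symm_apply_apply x
    calc h (g y) = g ((g⁻¹ * h * g) y) := by
          rw [AlgEquiv.mul_apply, AlgEquiv.mul_apply]; exact (g.apply_symm_apply _).symm
      _ = _ := by
          rw [a3 _ hh', map_mul, apply_rootPow, hψ h hh]
          rfl

end FermatLib.CFT.Fontaine
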